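import Mathlib
import Fermat.Prelude.Def_GroupCohomology_ContinuousUnramified

/-!
# W3-PT / PT-LOC (helper48): local fields inside `PadicAlgCl q` — frozen definitions

Carrier conventions (frozen):

* the local algebraic closure is `Om q = PadicAlgCl q`, with its ambient norm `‖·‖`;
* the local absolute Galois group is `Gq q = PadicAlgCl q ≃ₐ[ℚ_[q]] PadicAlgCl q`
  (defeq to the Prelude `primeLocalGaloisGroup`);
* a local field is `K : LF q = IntermediateField ℚ_[q] (PadicAlgCl q)` together with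
  `[FiniteDimensional ℚ_[q] K]`; its absolute Galois group is the SUBGROUP `GK K = K.fixingSubgroup`;
* cochains of `G_K` are TOTAL functions on the ambient group `Gq q` (values outside `G_K` are
  junk); every condition (cocycle identity, coboundary relation, continuity) is required on `G_K`
  only. So restriction from `G_K` to `G_{K'}` (`K ≤ K'`) is the identity on functions;
* coefficients are `ZMod p` with trivial action (additive) or `(Om q)ˣ` with the Galois action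
  (multiplicative).

No proofs here except trivialities; all statements to be proved are in `Loc/Iface.lean`.
-/

set_option autoImplicit false

open scoped Classical

noncomputable section

namespace Fermat.Agent.PT.Loc

/-- The local algebraic closure. -/
abbrev Om (q : ℕ) [Fact q.Prime] : Type := PadicAlgCl q

/-- The local absolute Galois group `Gal(ℚ̄_q/ℚ_q)`. -/
abbrev Gq (q : ℕ) [Fact q.Prime] : Type := PadicAlgCl q ≃ₐ[ℚ_[q]] PadicAlgCl q

/-- Subfields of the local algebraic closure (local fields when finite dimensional). -/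
abbrev LF (q : ℕ) [Fact q.Prime] : Type := IntermediateField ℚ_[q] (PadicAlgCl q)

variable {q : ℕ} [Fact q.Prime]

/-- The absolute Galois group of `K`, as a subgroup of `Gq q`. -/
abbrev GK (K : LF q) : Subgroup (Gq q) := K.fixingSubgroup

/-! ## Continuity (level-constancy) of relative cochains -/

/-- `f` is continuous on `G_K`: right-invariant under `G_F` for some finite `F ⊇ K`. -/
def Cont1 (K : LF q) {X : Type*} (f : Gq q → X) : Prop :=
  ∃ F : LF q, FiniteDimensional ℚ_[q] F ∧ K ≤ F ∧ ∀ g ∈ GK K, ∀ s ∈ GK F, f (g * s) = f g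

/-- `f` is continuous on `G_K × G_K`. -/
def Cont2 (K : LF q) {X : Type*} (f : Gq q × Gq q → X) : Prop :=
  ∃ F : LF q, FiniteDimensional ℚ_[q] F ∧ K ≤ F ∧
    ∀ g ∈ GK K, ∀ g' ∈ GK K, ∀ s ∈ GK F, ∀ s' ∈ GK F, f (g * s, g' * s') = f (g, g')

/-- `f` is continuous on `G_K × G_K × G_K`. -/
def Cont3 (K : LF q) {X : Type*} (f : Gq q × Gq q × Gq q → X) : Prop :=
  ∃ F : LF q, FiniteDimensional ℚ_[q] F ∧ K ≤ F ∧
    ∀ g ∈ GK K, ∀ g' ∈ GK K, ∀ g'' ∈ GK K, ∀ s ∈ GK F, ∀ s' ∈ GK F, ∀ s'' ∈ GK F,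
      f (g * s, g' * s', g'' * s'') = f (g, g', g'')

/-! ## Multiplicative cochains with values in `(Om q)ˣ` -/

/-- `x` is a `1`-cocycle on `G_K` with values in `(Om q)ˣ`. -/
def MCoc1 (K : LF q) (x : Gq q → (Om q)ˣ) : Prop :=
  ∀ g ∈ GK K, ∀ h ∈ GK K, x (g * h) = g • x h * x g

/-- `c` is a `2`-cocycle on `G_K` with values in `(Om q)ˣ`. -/
def MCoc2 (K : LF q) (c : Gq q × Gq q → (Om q)ˣ) : Prop :=
  ∀ g ∈ GK K, ∀ h ∈ GK K, ∀ j ∈ GK K, c (g * h, j) * c (g, h) = g • c (h, j) * c (g, h * j)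

/-- The multiplicative coboundary of a `1`-cochain: `(g, h) ↦ g x(h) · x(gh)⁻¹ · x(g)`. -/
def mcob (x : Gq q → (Om q)ˣ) : Gq q × Gq q → (Om q)ˣ :=
  fun y => y.1 • x y.2 / x (y.1 * y.2) * x y.1

/-- `c` and `c'` are cohomologous on `G_K` (by a continuous `1`-cochain). -/
def MCohom (K : LF q) (c c' : Gq q × Gq q → (Om q)ˣ) : Prop :=
  ∃ x : Gq q → (Om q)ˣ, Cont1 K x ∧ ∀ g ∈ GK K, ∀ h ∈ GK K, c (g, h) = c' (g, h) * mcob x (g, h)

/-! ## Additive cochains with values in `ZMod p` (trivial action) -/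

variable {p : ℕ}

/-- `χ` is additive on `G_K` (a `1`-cocycle with trivial coefficients). -/
def ACoc1 (K : LF q) (χ : Gq q → ZMod p) : Prop :=
  ∀ g ∈ GK K, ∀ h ∈ GK K, χ (g * h) = χ g + χ h

/-- `c` is a `2`-cocycle on `G_K` with trivial coefficients `ZMod p`. -/
def ACoc2 (K : LF q) (c : Gq q × Gq q → ZMod p) : Prop :=
  ∀ g ∈ GK K, ∀ h ∈ GK K, ∀ j ∈ GK K, c (h, j) - c (g * h, j) + c (g, h * j) - c (g, h) = 0

/-- `c` is a `3`-cocycle on `G_K` with trivial coefficients `ZMod p`. -/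
def ACoc3 (K : LF q) (c : Gq q × Gq q × Gq q → ZMod p) : Prop :=
  ∀ g ∈ GK K, ∀ h ∈ GK K, ∀ j ∈ GK K, ∀ l ∈ GK K,
    c (h, j, l) - c (g * h, j, l) + c (g, h * j, l) - c (g, h, j * l) + c (g, h, j) = 0

/-- The additive coboundary of a `1`-cochain (trivial action): `(g,h) ↦ f(h) - f(gh) + f(g)`. -/
def acob (f : Gq q → ZMod p) : Gq q × Gq q → ZMod p :=
  fun y => f y.2 - f (y.1 * y.2) + f y.1

/-- The additive coboundary of a `2`-cochain (trivial action). -/
def acob2 (f : Gq q × Gq q → ZMod p) : Gq q × Gq q × Gq q → ZMod p :=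
  fun y => f (y.2.1, y.2.2) - f (y.1 * y.2.1, y.2.2) + f (y.1, y.2.1 * y.2.2) - f (y.1, y.2.1)

/-- `c` and `c'` are cohomologous on `G_K` (by a continuous `1`-cochain). -/
def ACohom (K : LF q) (c c' : Gq q × Gq q → ZMod p) : Prop :=
  ∃ f : Gq q → ZMod p, Cont1 K f ∧ ∀ g ∈ GK K, ∀ h ∈ GK K, c (g, h) = c' (g, h) + acob f (g, h)

/-- The cup product of two `1`-cochains with trivial coefficients: `(g,h) ↦ χ(g) ψ(h)`. -/
def acup (χ ψ : Gq q → ZMod p) : Gq q × Gq q → ZMod p := fun y => χ y.1 * ψ y.2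

/-! ## Arithmetic notions -/

/-- `π` is a uniformizer of `K`. -/
def IsUnif (K : LF q) (π : Om q) : Prop :=
  π ∈ K ∧ π ≠ 0 ∧ ‖π‖ < 1 ∧ ∀ x ∈ K, ‖x‖ < 1 → ‖x‖ ≤ ‖π‖

/-- The roots of unity of order prime to `q` in `K` (Teichmüller representatives of `k^×`). -/
def muPrime (K : LF q) : Set (Om q) :=
  {w | w ∈ K ∧ ∃ m : ℕ, 0 < m ∧ ¬ q ∣ m ∧ w ^ m = 1}

/-- The cardinality of the residue field of `K`, defined as `#μ'(K) + 1`. -/
def resCard (K : LF q) : ℕ := Nat.card (muPrime K) + 1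

/-- `φ ∈ G_K` is a Frobenius element of `K`: it raises every root of unity of order prime to `q`
to the power `resCard K`. -/
def IsFrob (K : LF q) (φ : Gq q) : Prop :=
  φ ∈ GK K ∧ ∀ (w : Om q) (m : ℕ), 0 < m → ¬ q ∣ m → w ^ m = 1 → φ w = w ^ resCard K

/-- `g ∈ G_K` lies in the inertia group of `K`: it fixes the roots of unity of order prime
to `q`. -/
def IsInert (K : LF q) (g : Gq q) : Prop :=
  g ∈ GK K ∧ ∀ (w : Om q) (m : ℕ), 0 < m → ¬ q ∣ m → w ^ m = 1 → g w = w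

/-- The unramified extension of degree `n` of `K`: `K(μ_{N^n - 1})`, `N = resCard K`. -/
def Kur (K : LF q) (n : ℕ) : LF q :=
  K ⊔ IntermediateField.adjoin ℚ_[q] {w : Om q | w ^ (resCard K ^ n - 1) = 1}

/-- `K₁/K` is cyclic of degree `n`, `σ ∈ G_K` restricts to a generator of `Gal(K₁/K)`. -/
structure IsCyc (K K₁ : LF q) (n : ℕ) (σ : Gq q) : Prop where
  le : K ≤ K₁
  fin : FiniteDimensional ℚ_[q] K₁
  mem : σ ∈ GK K
  normal : ∀ g ∈ GK K, ∀ s ∈ GK K₁, g * s * g⁻¹ ∈ GK K₁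
  gen : ∀ g ∈ GK K, ∃ i, i < n ∧ (σ ^ i)⁻¹ * g ∈ GK K₁
  ord : ∀ i, 0 < i → i < n → σ ^ i ∉ GK K₁
  pos : 0 < n

/-- The index of `g` in the cyclic quotient: the least `i < n` with `g ∈ σ^i G_{K₁}`
(`0` if there is none). -/
def cycIdx (K₁ : LF q) (σ : Gq q) (n : ℕ) (g : Gq q) : ℕ :=
  if h : ∃ i, i < n ∧ (σ ^ i)⁻¹ * g ∈ GK K₁ then Nat.find h else 0

/-- The norm along `σ`: `β ↦ ∏_{i<n} σ^i β` (`= N_{K₁/K} β` for `β ∈ K₁` when `IsCyc K K₁ n σ`). -/
def normAlong (σ : Gq q) (n : ℕ) (β : Om q) : Om q := ∏ i ∈ Finset.range n, (σ ^ i) β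

/-- `b` is a norm from `K₁` (along `σ`). -/
def IsNorm (K₁ : LF q) (σ : Gq q) (n : ℕ) (b : Om q) : Prop :=
  ∃ β : Om q, β ∈ K₁ ∧ β ≠ 0 ∧ normAlong σ n β = b

/-- The carry cocycle (cyclic algebra `(χ_σ, b)`): `(g,h) ↦ b` if `idx g + idx h ≥ n`, else `1`. -/
def carry (K₁ : LF q) (σ : Gq q) (n : ℕ) (b : (Om q)ˣ) : Gq q × Gq q → (Om q)ˣ :=
  fun y => if n ≤ cycIdx K₁ σ n y.1 + cycIdx K₁ σ n y.2 then b else 1

/-- The Kummer character of `B` (with respect to `ζ`): `g B = ζ ^ (kum g) · B`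
(`0` if there is no such exponent). -/
def kum (p : ℕ) (ζ B : Om q) (g : Gq q) : ZMod p :=
  if h : ∃ k : ZMod p, g B = ζ ^ k.val * B then h.choose else 0

/-- The multiplicative cochain `ζ ^ c` attached to an additive cochain `c`. -/
def zpw (ζ : (Om q)ˣ) (c : Gq q × Gq q → ZMod p) : Gq q × Gq q → (Om q)ˣ :=
  fun y => ζ ^ (c y).val

end Fermat.Agent.PT.Loc
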