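import Fermat.Agent.PT.Loc.LFInst

/-!
# PT-LOC foundation (helper34): the ring of integers of a finite extension of `ℚ_[q]`

`L` a finite-dimensional normed field extension of `ℚ_[q]` (ultrametric).  Then
* `‖x‖ ≤ 1 ↔ x` is integral over `ℤ_[q]` (`h34lf_norm_le_one_iff_isIntegral`),
* `𝒪[L]` is a free `ℤ_[q]`-module of rank `[L : ℚ_[q]]`,
* `#(𝒪[L] / q 𝒪[L]) = q ^ [L : ℚ_[q]]` (`h34lf_card_quot_q`).
-/

namespace Fermat.Agent.PT.Loc

open Valued IsLocalRing Polynomial

open scoped NormedField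

section Rank

variable (q : ℕ) [Fact q.Prime] (L : Type*) [NontriviallyNormedField L] [NormedAlgebra ℚ_[q] L]
  [IsUltrametricDist L] [FiniteDimensional ℚ_[q] L]

/-- The structure map `ℤ_[q] → L`. -/
noncomputable def h34lf_zToL : ℤ_[q] →+* L :=
  (algebraMap ℚ_[q] L).comp (algebraMap ℤ_[q] ℚ_[q])

omit [IsUltrametricDist L] [FiniteDimensional ℚ_[q] L] in
theorem h34lf_norm_zToL (x : ℤ_[q]) : ‖h34lf_zToL q L x‖ = ‖x‖ := by
  simp [h34lf_zToL, norm_algebraMap']

omit [FiniteDimensional ℚ_[q] L] in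
theorem h34lf_zToL_mem (x : ℤ_[q]) : h34lf_zToL q L x ∈ 𝒪[L] := by
  rw [Valued.integer.mem_iff, h34lf_norm_zToL]
  exact PadicInt.norm_le_one x

/-- The structure map `ℤ_[q] → 𝒪[L]`. -/
noncomputable def h34lf_zToO : ℤ_[q] →+* 𝒪[L] :=
  (h34lf_zToL q L).codRestrict 𝒪[L] (h34lf_zToL_mem q L)

omit [FiniteDimensional ℚ_[q] L] in
@[simp] theorem h34lf_zToO_coe (x : ℤ_[q]) : ((h34lf_zToO q L x : 𝒪[L]) : L) = h34lf_zToL q L x :=
  rfl

omit [IsUltrametricDist L] in
theorem h34lf_norm_eq_spectralNorm (x : L) : ‖x‖ = spectralNorm ℚ_[q] L x :=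
  NormedAlgebra.norm_eq_spectralNorm ℚ_[q] x

/-- `‖x‖ ≤ 1` iff `x` is a root of a monic polynomial with coefficients in `ℤ_[q]`. -/
theorem h34lf_norm_le_one_iff_isIntegralElem (x : L) :
    ‖x‖ ≤ 1 ↔ (h34lf_zToL q L).IsIntegralElem x := by
  constructor
  · intro hx
    have hint : IsIntegral ℚ_[q] x := Algebra.IsIntegral.isIntegral x
    have hmon := minpoly.monic hint
    rw [h34lf_norm_eq_spectralNorm q L x, spectralNorm, spectralValue_le_one_iff hmon] at hx
    have hlifts : minpoly ℚ_[q] x ∈ Polynomial.lifts (algebraMap ℤ_[q] ℚ_[q]) := by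
      rw [Polynomial.lifts_iff_coeff_lifts]
      intro n
      exact ⟨⟨(minpoly ℚ_[q] x).coeff n, hx n⟩, rfl⟩
    obtain ⟨P, hP, -, hPm⟩ := Polynomial.lifts_and_degree_eq_and_monic hlifts hmon
    refine ⟨P, hPm, ?_⟩
    rw [h34lf_zToL, ← Polynomial.eval₂_map, hP]
    exact minpoly.aeval ℚ_[q] x
  · rintro ⟨P, hPm, hP⟩
    have h1 : IsIntegral 𝒪[L] x := by
      refine ⟨P.map (h34lf_zToO q L), hPm.map _, ?_⟩
      rw [Polynomial.eval₂_map]
      exact hP
    have h2 := (Valuation.integer.integers (Valued.v (R := L))).mem_of_integral h1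
    exact Valued.integer.mem_iff.mp h2

/-- The `ℤ_[q]`-algebra structure of `L` (local instance only). -/
@[reducible] noncomputable def h34lf_algZL : Algebra ℤ_[q] L := (h34lf_zToL q L).toAlgebra

/-- The `ℤ_[q]`-algebra structure of `𝒪[L]` (local instance only). -/
@[reducible] noncomputable def h34lf_algZO : Algebra ℤ_[q] 𝒪[L] := (h34lf_zToO q L).toAlgebra

attribute [local instance] h34lf_algZL h34lf_algZO

omit [IsUltrametricDist L] [FiniteDimensional ℚ_[q] L] in
theorem h34lf_tower_ZQL : IsScalarTower ℤ_[q] ℚ_[q] L :=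
  IsScalarTower.of_algebraMap_eq (fun _ => rfl)

omit [FiniteDimensional ℚ_[q] L] in
theorem h34lf_tower_ZOL : IsScalarTower ℤ_[q] 𝒪[L] L :=
  IsScalarTower.of_algebraMap_eq (fun _ => rfl)

attribute [local instance] h34lf_tower_ZQL h34lf_tower_ZOL

theorem h34lf_isIntegralClosure : IsIntegralClosure 𝒪[L] ℤ_[q] L where
  algebraMap_injective := Subtype.val_injective
  isIntegral_iff := by
    intro x
    have h := h34lf_norm_le_one_iff_isIntegralElem q L x
    constructor
    · intro hx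
      have hx' : ‖x‖ ≤ 1 := h.mpr hx
      exact ⟨⟨x, Valued.integer.mem_iff.mpr hx'⟩, rfl⟩
    · rintro ⟨y, rfl⟩
      exact h.mp (Valued.integer.mem_iff.mp y.2)

attribute [local instance] h34lf_isIntegralClosure

omit [IsUltrametricDist L] [FiniteDimensional ℚ_[q] L] in
theorem h34lf_torsionFree : Module.IsTorsionFree ℤ_[q] L := by
  have hinj : Function.Injective (algebraMap ℤ_[q] L) :=
    (algebraMap ℚ_[q] L).injective.comp (IsFractionRing.injective ℤ_[q] ℚ_[q])
  exact Module.isTorsionFree_iff_algebraMap_injective.mpr hinj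

attribute [local instance] h34lf_torsionFree

theorem h34lf_moduleFinite : Module.Finite ℤ_[q] 𝒪[L] :=
  IsIntegralClosure.finite ℤ_[q] ℚ_[q] L 𝒪[L]

theorem h34lf_moduleFree : Module.Free ℤ_[q] 𝒪[L] :=
  IsIntegralClosure.module_free ℤ_[q] ℚ_[q] L 𝒪[L]

theorem h34lf_finrank_integer : Module.finrank ℤ_[q] 𝒪[L] = Module.finrank ℚ_[q] L :=
  IsIntegralClosure.rank ℤ_[q] ℚ_[q] L 𝒪[L]

omit [FiniteDimensional ℚ_[q] L] in
theorem h34lf_natCast_smul (y : 𝒪[L]) : ((q : ℤ_[q]) • y : 𝒪[L]) = (q : 𝒪[L]) * y := by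
  rw [Algebra.smul_def, map_natCast]

/-- `#(𝒪[L] / q 𝒪[L]) = q ^ [L : ℚ_[q]]`. -/
theorem h34lf_card_quot_q :
    Nat.card (𝒪[L] ⧸ Ideal.span {(q : 𝒪[L])}) = q ^ Module.finrank ℚ_[q] L := by
  have := h34lf_moduleFinite q L
  have := h34lf_moduleFree q L
  set n := Module.finrank ℚ_[q] L with hn
  let b : Module.Basis (Fin n) ℤ_[q] 𝒪[L] :=
    Module.finBasisOfFinrankEq ℤ_[q] 𝒪[L] (h34lf_finrank_integer q L)
  let φ : 𝒪[L] →+ (Fin n → ZMod q) :=
    { toFun := fun x i => PadicInt.toZMod (b.equivFun x i)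
      map_zero' := by ext i; simp
      map_add' := fun x y => by ext i; simp }
  have hφ : ∀ x i, φ x i = PadicInt.toZMod (b.equivFun x i) := fun _ _ => rfl
  have hsurj : Function.Surjective φ := by
    intro c
    have hs : Function.Surjective (PadicInt.toZMod (p := q)) :=
      ZMod.ringHom_surjective _
    choose d hd using fun i => hs (c i)
    refine ⟨b.equivFun.symm d, ?_⟩
    ext i
    rw [hφ, LinearEquiv.apply_symm_apply, hd]
  have hker : φ.ker = (Ideal.span {(q : 𝒪[L])}).toAddSubgroup := by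
    ext x
    rw [AddMonoidHom.mem_ker, Submodule.mem_toAddSubgroup, Ideal.mem_span_singleton']
    constructor
    · intro hx
      have h1 : ∀ i, ∃ c : ℤ_[q], b.equivFun x i = (q : ℤ_[q]) * c := by
        intro i
        have h2 : PadicInt.toZMod (b.equivFun x i) = 0 := by rw [← hφ, hx]; rfl
        have h3 : b.equivFun x i ∈ RingHom.ker (PadicInt.toZMod (p := q)) := h2
        rw [PadicInt.ker_toZMod, PadicInt.maximalIdeal_eq_span_p,
          Ideal.mem_span_singleton'] at h3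
        obtain ⟨c, hc⟩ := h3
        exact ⟨c, by rw [← hc, mul_comm]⟩
      choose c hc using h1
      refine ⟨b.equivFun.symm c, ?_⟩
      have h4 : x = (q : ℤ_[q]) • b.equivFun.symm c := by
        apply b.equivFun.injective
        ext i
        rw [map_smul, LinearEquiv.apply_symm_apply, Pi.smul_apply, smul_eq_mul, hc]
      rw [mul_comm, ← h34lf_natCast_smul, ← h4]
    · rintro ⟨y, rfl⟩
      have h6 : y * (q : 𝒪[L]) = (q : ℤ_[q]) • y := by rw [h34lf_natCast_smul, mul_comm]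
      ext i
      rw [hφ, h6, map_smul, Pi.smul_apply, smul_eq_mul, map_mul, map_natCast]
      simp
  have e := QuotientAddGroup.quotientKerEquivOfSurjective φ hsurj
  have h5 : Nat.card (𝒪[L] ⧸ φ.ker) = Nat.card (Fin n → ZMod q) := Nat.card_congr e.toEquiv
  rw [hker] at h5
  have h6 : Nat.card (𝒪[L] ⧸ Ideal.span {(q : 𝒪[L])}) =
      Nat.card (𝒪[L] ⧸ (Ideal.span {(q : 𝒪[L])}).toAddSubgroup) := rfl
  rw [h6, h5, Nat.card_fun, Nat.card_fin, Nat.card_zmod]

end Rank

end Fermat.Agent.PT.Loc
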