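import Fermat.Agent.PT.Loc.LFField
import Fermat.Agent.PT.Loc.LFRank

/-!
# PT-LOC foundation (helper34): `[Lˣ : (Lˣ)^p]` and openness of `p`-th powers for a finite
extension `L` of `ℚ_[q]`

`L` a finite-dimensional normed field extension of `ℚ_[q]` (ultrametric), `p` a prime
(`p = q` allowed).
* `h34lf_index_pow_local` : `[Lˣ : (Lˣ)^p] = p * (p^[L:ℚ_q] if p = q else 1) * #μ_p(L)`.
* `h34lf_pow_open_local` : there is `ε > 0` such that every `x` with `‖x - 1‖ < ε` is a `p`-th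
  power in `L`.
* `h34lf_exists_unif_local` : uniformizers and the value group.
-/

namespace Fermat.Agent.PT.Loc

open Valued IsLocalRing

open scoped NormedField

section Local

variable (q : ℕ) [Fact q.Prime] (L : Type*) [NontriviallyNormedField L] [NormedAlgebra ℚ_[q] L]
  [IsUltrametricDist L] [FiniteDimensional ℚ_[q] L]

include q in
omit [IsUltrametricDist L] in
theorem h34lf_properSpace : ProperSpace L := FiniteDimensional.proper ℚ_[q] L

include q in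
omit [IsUltrametricDist L] [FiniteDimensional ℚ_[q] L] in
theorem h34lf_charZero : CharZero L :=
  (RingHom.charZero_iff (algebraMap ℚ_[q] L).injective).mp inferInstance

omit [IsUltrametricDist L] [FiniteDimensional ℚ_[q] L] in
theorem h34lf_norm_natCast (n : ℕ) : ‖(n : L)‖ = ‖(n : ℚ_[q])‖ := by
  rw [← map_natCast (algebraMap ℚ_[q] L) n, norm_algebraMap']

omit q [Fact q.Prime] L [NontriviallyNormedField L] [NormedAlgebra ℚ_[q] L]
  [IsUltrametricDist L] [FiniteDimensional ℚ_[q] L] in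
/-- In a DVR every nonzero principal ideal is a power of the maximal ideal. -/
theorem h34lf_exists_span_eq_pow {O : Type*} [CommRing O] [IsDomain O]
    [IsDiscreteValuationRing O] {x : O} (hx : x ≠ 0) :
    ∃ e : ℕ, Ideal.span {x} = maximalIdeal O ^ e := by
  obtain ⟨ϖ, hϖ⟩ := IsDiscreteValuationRing.exists_irreducible O
  obtain ⟨e, he⟩ := IsDiscreteValuationRing.associated_pow_irreducible hx hϖ
  refine ⟨e, ?_⟩
  rw [hϖ.maximalIdeal_eq, Ideal.span_singleton_pow]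
  exact Ideal.span_singleton_eq_span_singleton.mpr he

/-- `#(𝒪[L] / p 𝒪[L])` for a prime `p`. -/
theorem h34lf_card_quot_prime (p : ℕ) [Fact p.Prime] :
    Nat.card (𝒪[L] ⧸ Ideal.span {(p : 𝒪[L])}) =
      if p = q then p ^ Module.finrank ℚ_[q] L else 1 := by
  by_cases hpq : p = q
  · subst hpq
    rw [if_pos rfl]
    exact h34lf_card_quot_q p L
  · rw [if_neg hpq]
    have h1 : ‖(p : L)‖ = 1 := by
      rw [h34lf_norm_natCast q L p, Padic.norm_natCast_eq_one_iff]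
      exact (Nat.coprime_primes (Fact.out : q.Prime) (Fact.out : p.Prime)).mpr (Ne.symm hpq)
    have h2 : IsUnit (p : 𝒪[L]) := by
      rw [Valued.integer.isUnit_iff_norm_eq_one]
      exact h1
    rw [Ideal.span_singleton_eq_top.mpr h2]
    have : Subsingleton (𝒪[L] ⧸ (⊤ : Ideal 𝒪[L])) := Ideal.Quotient.subsingleton_iff.mpr rfl
    exact Nat.card_unique

/-- **Index of `p`-th powers** in the multiplicative group of a finite extension `L` of `ℚ_[q]`. -/
theorem h34lf_index_pow_local (p : ℕ) [Fact p.Prime] :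
    (powMonoidHom p : Lˣ →* Lˣ).range.index =
      p * ((if p = q then p ^ Module.finrank ℚ_[q] L else 1) *
        Nat.card (powMonoidHom p : Lˣ →* Lˣ).ker) := by
  have hP := h34lf_properSpace q L
  have hD := h34lf_isDiscreteValuationRing L
  have hF := h34lf_finite_residueField L
  have hA := h34lf_isAdicComplete L
  have hC := h34lf_charZero q L
  have hp0 : (p : 𝒪[L]) ≠ 0 := by
    intro h
    have h1 : ((p : 𝒪[L]) : L) = 0 := by rw [h]; rfl
    have h2 : (p : L) = 0 := by simpa using h1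
    exact (Fact.out : p.Prime).ne_zero (by exact_mod_cast h2)
  obtain ⟨e, he⟩ := h34lf_exists_span_eq_pow hp0
  rw [h34lf_index_pow_field (O := 𝒪[L]) (E := L) he, ← he, h34lf_card_quot_prime q L p]

include q in
theorem h34lf_index_pow_local_ne_zero (p : ℕ) [Fact p.Prime] :
    (powMonoidHom p : Lˣ →* Lˣ).range.index ≠ 0 := by
  have hP := h34lf_properSpace q L
  have hD := h34lf_isDiscreteValuationRing L
  have hF := h34lf_finite_residueField L
  have hA := h34lf_isAdicComplete L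
  have hC := h34lf_charZero q L
  have hp0 : (p : 𝒪[L]) ≠ 0 := by
    intro h
    have h1 : ((p : 𝒪[L]) : L) = 0 := by rw [h]; rfl
    have h2 : (p : L) = 0 := by simpa using h1
    exact (Fact.out : p.Prime).ne_zero (by exact_mod_cast h2)
  obtain ⟨e, he⟩ := h34lf_exists_span_eq_pow hp0
  exact h34lf_index_pow_field_ne_zero (O := 𝒪[L]) (E := L) he

include q in
/-- **Openness of `p`-th powers** in a finite extension `L` of `ℚ_[q]`. -/
theorem h34lf_pow_open_local (p : ℕ) [Fact p.Prime] :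
    ∃ ε : ℝ, 0 < ε ∧ ∀ x : L, ‖x - 1‖ < ε → ∃ y : L, y ^ p = x := by
  have hP := h34lf_properSpace q L
  have hD := h34lf_isDiscreteValuationRing L
  have hA := h34lf_isAdicComplete L
  have hC := h34lf_charZero q L
  have hp0 : (p : 𝒪[L]) ≠ 0 := by
    intro h
    have h1 : ((p : 𝒪[L]) : L) = 0 := by rw [h]; rfl
    have h2 : (p : L) = 0 := by simpa using h1
    exact (Fact.out : p.Prime).ne_zero (by exact_mod_cast h2)
  obtain ⟨e, he⟩ := h34lf_exists_span_eq_pow hp0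
  obtain ⟨ϖ, hϖ⟩ := IsDiscreteValuationRing.exists_irreducible 𝒪[L]
  have hϖpos : 0 < ‖ϖ‖ := Valued.integer.norm_irreducible_pos hϖ
  have hϖlt : ‖ϖ‖ < 1 := Valued.integer.norm_irreducible_lt_one hϖ
  refine ⟨‖ϖ‖ ^ (e + 1 + e), pow_pos hϖpos _, fun x hx => ?_⟩
  have hx1 : ‖x - 1‖ ≤ 1 := hx.le.trans (pow_le_one₀ hϖpos.le hϖlt.le)
  let y0 : 𝒪[L] := ⟨x - 1, Valued.integer.mem_iff.mpr hx1⟩
  have hy0 : y0 ∈ maximalIdeal 𝒪[L] ^ (e + 1 + e) := by
    have h3 := hϖ.maximalIdeal_pow_eq_closedBall_pow (e + 1 + e)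
    have h4 : y0 ∈ ((maximalIdeal 𝒪[L] ^ (e + 1 + e) : Ideal 𝒪[L]) : Set 𝒪[L]) := by
      rw [h3, Metric.mem_closedBall, dist_zero_right]
      exact hx.le
    exact h4
  obtain ⟨z, -, hz⟩ := h34lf_pow_surj he (le_refl (e + 1)) hy0
  refine ⟨((1 + z : 𝒪[L]) : L), ?_⟩
  have h5 := congrArg (fun w : 𝒪[L] => (w : L)) hz
  simp only [Subring.coe_pow, Subring.coe_add, Subring.coe_one] at h5
  have h6 : ((1 + z : 𝒪[L]) : L) = 1 + (z : L) := rfl
  rw [h6, h5]
  change 1 + (x - 1) = x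
  ring

include q in
/-- Uniformizers exist in a finite extension `L` of `ℚ_[q]`. -/
theorem h34lf_exists_unif_local :
    ∃ π : L, π ≠ 0 ∧ ‖π‖ < 1 ∧ ∀ x : L, ‖x‖ < 1 → ‖x‖ ≤ ‖π‖ := by
  have hP := h34lf_properSpace q L
  have hD := h34lf_isDiscreteValuationRing L
  obtain ⟨ϖ, hϖ⟩ := IsDiscreteValuationRing.exists_irreducible 𝒪[L]
  have hϖpos : 0 < ‖ϖ‖ := Valued.integer.norm_irreducible_pos hϖ
  have hϖlt : ‖ϖ‖ < 1 := Valued.integer.norm_irreducible_lt_one hϖ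
  refine ⟨(ϖ : L), ?_, hϖlt, fun x hx => ?_⟩
  · intro h
    have : ‖(ϖ : L)‖ = 0 := by rw [h, norm_zero]
    exact hϖpos.ne' this
  · let x0 : 𝒪[L] := ⟨x, Valued.integer.mem_iff.mpr hx.le⟩
    have hx0 : x0 ∈ maximalIdeal 𝒪[L] := by
      rw [IsLocalRing.mem_maximalIdeal, mem_nonunits_iff, Valued.integer.isUnit_iff_norm_eq_one]
      exact hx.ne
    have h3 := hϖ.maximalIdeal_eq_closedBall
    have h4 : x0 ∈ ((maximalIdeal 𝒪[L] : Ideal 𝒪[L]) : Set 𝒪[L]) := hx0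
    rw [h3, Metric.mem_closedBall, dist_zero_right] at h4
    exact h4

include q in
/-- The value group of a finite extension `L` of `ℚ_[q]` is generated by the norm of any
uniformizer. -/
theorem h34lf_valueGroup_local {π : L} (hπ0 : π ≠ 0) (hπ1 : ‖π‖ < 1)
    (hπ : ∀ x : L, ‖x‖ < 1 → ‖x‖ ≤ ‖π‖) (x : L) (hx : x ≠ 0) :
    ∃ n : ℤ, ‖x‖ = ‖π‖ ^ n := by
  have hP := h34lf_properSpace q L
  have hD := h34lf_isDiscreteValuationRing L
  obtain ⟨ϖ, hϖ⟩ := IsDiscreteValuationRing.exists_irreducible 𝒪[L]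
  have hϖpos : 0 < ‖ϖ‖ := Valued.integer.norm_irreducible_pos hϖ
  have hϖlt : ‖ϖ‖ < 1 := Valued.integer.norm_irreducible_lt_one hϖ
  -- `‖π‖ = ‖ϖ‖`
  have hπϖ : ‖π‖ = ‖ϖ‖ := by
    apply le_antisymm
    · let π0 : 𝒪[L] := ⟨π, Valued.integer.mem_iff.mpr hπ1.le⟩
      have hπ0m : π0 ∈ maximalIdeal 𝒪[L] := by
        rw [IsLocalRing.mem_maximalIdeal, mem_nonunits_iff,
          Valued.integer.isUnit_iff_norm_eq_one]
        exact hπ1.ne
      have h3 := hϖ.maximalIdeal_eq_closedBall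
      have h4 : π0 ∈ ((maximalIdeal 𝒪[L] : Ideal 𝒪[L]) : Set 𝒪[L]) := hπ0m
      rw [h3, Metric.mem_closedBall, dist_zero_right] at h4
      exact h4
    · exact hπ (ϖ : L) hϖlt
  rw [hπϖ]
  -- integral case
  have key : ∀ y : L, y ≠ 0 → ‖y‖ ≤ 1 → ∃ n : ℕ, ‖y‖ = ‖ϖ‖ ^ n := by
    intro y hy hy1
    let y0 : 𝒪[L] := ⟨y, Valued.integer.mem_iff.mpr hy1⟩
    have hy0 : y0 ≠ 0 := by
      intro h
      apply hy
      have := congrArg (fun w : 𝒪[L] => (w : L)) h
      simpa [y0] using this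
    obtain ⟨n, hn⟩ := IsDiscreteValuationRing.associated_pow_irreducible hy0 hϖ
    obtain ⟨u, hu⟩ := hn
    refine ⟨n, ?_⟩
    have h1 : ‖(y0 * (u : 𝒪[L]) : 𝒪[L])‖ = ‖(ϖ ^ n : 𝒪[L])‖ := by rw [hu]
    have h2 : ‖(y0 * (u : 𝒪[L]) : 𝒪[L])‖ = ‖y‖ * ‖((u : 𝒪[L]) : L)‖ := by
      change ‖(y * ((u : 𝒪[L]) : L))‖ = _
      rw [norm_mul]
    have h3 : ‖(ϖ ^ n : 𝒪[L])‖ = ‖ϖ‖ ^ n := by
      change ‖((ϖ : L) ^ n)‖ = _
      rw [norm_pow]
      rfl
    rw [h2, Valued.integer.norm_coe_unit, mul_one, h3] at h1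
    exact h1
  rcases le_or_gt ‖x‖ 1 with h1 | h1
  · obtain ⟨n, hn⟩ := key x hx h1
    exact ⟨n, by rw [hn, zpow_natCast]⟩
  · have hx' : x⁻¹ ≠ 0 := inv_ne_zero hx
    have h2 : ‖x⁻¹‖ ≤ 1 := by
      rw [norm_inv]
      exact inv_le_one_of_one_le₀ h1.le
    obtain ⟨n, hn⟩ := key x⁻¹ hx' h2
    refine ⟨-(n : ℤ), ?_⟩
    rw [zpow_neg, zpow_natCast, ← hn, norm_inv, inv_inv]

end Local

end Fermat.Agent.PT.Loc
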