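import Fermat.Agent.PT.Loc.Iface
import Fermat.Agent.PT.Loc.LFLocal

/-!
# PT-LOC leaf LF-TEICH (helper34)

`h34lf_lfTeich : LFTeich` — the roots of unity of order prime to `q` in a local field `K` are a
system of Teichmüller representatives of the nonzero residue classes; `resCard K = q ^ f`.

Generic part (a finite normed extension `L` of `ℚ_[q]`, `N = #residue field`):
* `h34lf_teich_unique` : a root of unity of order prime to `q` with `‖u - 1‖ < 1` is `1`;
* `h34lf_teich_exists` : every unit is congruent to an `(N-1)`-th root of unity.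
-/

namespace Fermat.Agent.PT.Loc

open Valued IsLocalRing

open scoped NormedField

section Generic

variable (q : ℕ) [Fact q.Prime] (L : Type*) [NontriviallyNormedField L] [NormedAlgebra ℚ_[q] L]
  [IsUltrametricDist L] [FiniteDimensional ℚ_[q] L]

include q in
omit [IsUltrametricDist L] [FiniteDimensional ℚ_[q] L] in
theorem h34lf_norm_natCast_eq_one {m : ℕ} (hm : ¬ q ∣ m) : ‖(m : L)‖ = 1 := by
  rw [h34lf_norm_natCast q L m, Padic.norm_natCast_eq_one_iff]
  exact (Nat.Prime.coprime_iff_not_dvd Fact.out).mpr hm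

include q in
omit [FiniteDimensional ℚ_[q] L] in
theorem h34lf_span_natCast_eq_top {m : ℕ} (hm : ¬ q ∣ m) :
    Ideal.span {(m : 𝒪[L])} = maximalIdeal 𝒪[L] ^ 0 := by
  rw [pow_zero, Ideal.one_eq_top, Ideal.span_singleton_eq_top,
    Valued.integer.isUnit_iff_norm_eq_one]
  exact h34lf_norm_natCast_eq_one q L hm

include q in
/-- A root of unity of order prime to `q` which is congruent to `1` is `1`. -/
theorem h34lf_teich_unique {m : ℕ} (hm : ¬ q ∣ m) {u : L} (hu : u ^ m = 1)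
    (h1 : ‖u - 1‖ < 1) : u = 1 := by
  have hP := h34lf_properSpace q L
  have hD := h34lf_isDiscreteValuationRing L
  let x0 : 𝒪[L] := ⟨u - 1, Valued.integer.mem_iff.mpr h1.le⟩
  have hx0 : x0 ∈ maximalIdeal 𝒪[L] ^ 1 := by
    rw [pow_one, IsLocalRing.mem_maximalIdeal, mem_nonunits_iff,
      Valued.integer.isUnit_iff_norm_eq_one]
    exact h1.ne
  have hpow : (1 + x0) ^ m = 1 := by
    apply Subtype.ext
    change (1 + (u - 1)) ^ m = 1
    rw [add_sub_cancel, hu]
  have h0 := h34lf_pow_inj (h34lf_span_natCast_eq_top q L hm) (le_refl 1) hx0 hpow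
  have h2 : u - 1 = 0 := congrArg (fun w : 𝒪[L] => (w : L)) h0
  exact sub_eq_zero.mp h2

include q in
/-- Two roots of unity of order prime to `q` which are congruent are equal. -/
theorem h34lf_teich_unique' {m m' : ℕ} (hm : ¬ q ∣ m) (hm' : ¬ q ∣ m') (hm0 : 0 < m)
    {w w' : L} (hw : w ^ m = 1) (hw' : w' ^ m' = 1) (h1 : ‖w - w'‖ < 1) : w = w' := by
  have hw0 : w ≠ 0 := by
    intro h
    rw [h, zero_pow hm0.ne'] at hw
    exact zero_ne_one hw
  have hnw : ‖w‖ = 1 := by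
    have h2 : ‖w‖ ^ m = 1 := by rw [← norm_pow, hw, norm_one]
    exact (pow_eq_one_iff_of_nonneg (norm_nonneg w) hm0.ne').mp h2
  have hu : (w' / w) ^ (m * m') = 1 := by
    rw [div_pow, pow_mul' w' m m', hw', one_pow, pow_mul w m m', hw, one_pow, div_one]
  have hq : ¬ q ∣ m * m' := by
    intro h
    rcases (Nat.Prime.dvd_mul Fact.out).mp h with h | h
    · exact hm h
    · exact hm' h
  have h3 : ‖w' / w - 1‖ < 1 := by
    have h4 : w' / w - 1 = (w' - w) / w := by field_simp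
    rw [h4, norm_div, hnw, div_one, norm_sub_rev]
    exact h1
  have h5 := h34lf_teich_unique q L hq hu h3
  have h6 : w' = w := by
    field_simp at h5
    exact h5
  exact h6.symm

include q in
/-- Every unit is congruent to an `(N - 1)`-th root of unity, `N` the cardinality of the residue
field. -/
theorem h34lf_teich_exists {x : L} (hx : ‖x‖ = 1) :
    ∃ w : L, w ^ (Nat.card (ResidueField 𝒪[L]) - 1) = 1 ∧ ‖x - w‖ < 1 := by
  classical
  have hP := h34lf_properSpace q L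
  have hD := h34lf_isDiscreteValuationRing L
  have hF := h34lf_finite_residueField L
  have hA := h34lf_isAdicComplete L
  have : Fintype (ResidueField 𝒪[L]) := Fintype.ofFinite _
  set N := Nat.card (ResidueField 𝒪[L]) with hN
  have hNcard : N = Fintype.card (ResidueField 𝒪[L]) := Nat.card_eq_fintype_card
  have hN1 : 1 < N := by rw [hNcard]; exact Fintype.one_lt_card
  -- `(N - 1 : O)` is a unit
  have hunit : IsUnit ((N - 1 : ℕ) : 𝒪[L]) := by
    rw [← IsLocalRing.residue_ne_zero_iff_isUnit, map_natCast, Nat.cast_sub hN1.le, hNcard,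
      Nat.cast_card_eq_zero]
    simp
  have hspan : Ideal.span {((N - 1 : ℕ) : 𝒪[L])} = maximalIdeal 𝒪[L] ^ 0 := by
    rw [pow_zero, Ideal.one_eq_top, Ideal.span_singleton_eq_top]
    exact hunit
  let x0 : 𝒪[L] := ⟨x, Valued.integer.mem_iff.mpr hx.le⟩
  have hx0 : IsUnit x0 := Valued.integer.isUnit_iff_norm_eq_one.mpr hx
  have hres : IsLocalRing.residue 𝒪[L] x0 ≠ 0 :=
    (IsLocalRing.residue_ne_zero_iff_isUnit x0).mpr hx0
  have hy : x0 ^ (N - 1) - 1 ∈ maximalIdeal 𝒪[L] ^ (1 + 0) := by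
    rw [add_zero, pow_one, ← IsLocalRing.residue_eq_zero_iff, map_sub, map_pow, map_one, hNcard,
      FiniteField.pow_card_sub_one_eq_one _ hres, sub_self]
  obtain ⟨z, hz, hzpow⟩ := h34lf_pow_surj hspan (le_refl 1) hy
  rw [pow_one] at hz
  have hz1 : ‖(z : L)‖ < 1 := by
    have h1 : ¬ IsUnit z := by
      rw [← mem_nonunits_iff, ← IsLocalRing.mem_maximalIdeal]
      exact hz
    rw [Valued.integer.isUnit_iff_norm_eq_one] at h1
    exact lt_of_le_of_ne (Valued.integer.norm_le_one z) h1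
  have hzpow' : (1 + (z : L)) ^ (N - 1) = x ^ (N - 1) := by
    have h1 := congrArg (fun w : 𝒪[L] => (w : L)) hzpow
    have h2 : ((1 + (x0 ^ (N - 1) - 1) : 𝒪[L]) : L) = x ^ (N - 1) := by
      change 1 + (x ^ (N - 1) - 1) = x ^ (N - 1)
      ring
    rw [← h2, ← h1]
    rfl
  have hn1z : ‖1 + (z : L)‖ = 1 := by
    have h1 : ‖(1 + (z : L)) ^ (N - 1)‖ = 1 := by rw [hzpow', norm_pow, hx, one_pow]
    rw [norm_pow] at h1
    exact (pow_eq_one_iff_of_nonneg (norm_nonneg _) (by omega)).mp h1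
  have h1z : (1 + (z : L)) ≠ 0 := by
    intro h
    rw [h, norm_zero] at hn1z
    exact zero_ne_one hn1z
  refine ⟨x / (1 + (z : L)), ?_, ?_⟩
  · rw [div_pow, hzpow', div_self]
    have hx0' : x ≠ 0 := by
      intro h
      rw [h, norm_zero] at hx
      exact zero_ne_one hx
    exact pow_ne_zero _ hx0'
  · have h4 : x - x / (1 + (z : L)) = x * (z : L) / (1 + (z : L)) := by
      field_simp
      ring
    rw [h4, norm_div, norm_mul, hx, one_mul, hn1z, div_one]
    exact hz1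

end Generic

section Main

variable {q : ℕ} [Fact q.Prime]

/-- Elements of `muPrime K` have norm one. -/
theorem h34lf_norm_of_mem_muPrime (K : LF q) {w : Om q} (hw : w ∈ muPrime K) : ‖w‖ = 1 := by
  obtain ⟨-, m, hm0, -, hwm⟩ := hw
  have h2 : ‖w‖ ^ m = 1 := by rw [← norm_pow, hwm, norm_one]
  exact (pow_eq_one_iff_of_nonneg (norm_nonneg w) hm0.ne').mp h2

/-- The cardinality of the residue field of `𝒪[K]` is a positive power of `q`. -/
theorem h34lf_card_residue_pow (q : ℕ) [Fact q.Prime] (L : Type*) [NontriviallyNormedField L]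
    [NormedAlgebra ℚ_[q] L] [IsUltrametricDist L] [FiniteDimensional ℚ_[q] L] :
    ∃ f : ℕ, 0 < f ∧ Nat.card (ResidueField 𝒪[L]) = q ^ f := by
  classical
  have hP := h34lf_properSpace q L
  have hD := h34lf_isDiscreteValuationRing L
  have hF := h34lf_finite_residueField L
  have : Fintype (ResidueField 𝒪[L]) := Fintype.ofFinite _
  have hqres : ((q : ℕ) : ResidueField 𝒪[L]) = 0 := by
    rw [← map_natCast (IsLocalRing.residue 𝒪[L]), IsLocalRing.residue_eq_zero_iff,
      IsLocalRing.mem_maximalIdeal, mem_nonunits_iff, Valued.integer.isUnit_iff_norm_eq_one]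
    have h1 : ‖((q : ℕ) : 𝒪[L])‖ = ‖(q : ℚ_[q])‖ := h34lf_norm_natCast q L q
    rw [h1, Padic.norm_p]
    have hq : (1 : ℝ) < q := by exact_mod_cast (Fact.out : q.Prime).one_lt
    intro h
    rw [inv_eq_one] at h
    linarith
  have hchar : CharP (ResidueField 𝒪[L]) q :=
    (CharP.charP_iff_prime_eq_zero Fact.out).mpr hqres
  obtain ⟨n, -, hcard⟩ := FiniteField.card (ResidueField 𝒪[L]) q
  exact ⟨n, n.pos, by rw [Nat.card_eq_fintype_card, hcard]⟩

/-- Two roots of unity of order prime to `q` in `K` which are congruent are equal. -/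
theorem h34lf_teich_unique_K (K : LF q) [FiniteDimensional ℚ_[q] K] {m m' : ℕ} (hm : ¬ q ∣ m)
    (hm' : ¬ q ∣ m') (hm0 : 0 < m) {w w' : Om q} (hwK : w ∈ K) (hw'K : w' ∈ K)
    (hw : w ^ m = 1) (hw' : w' ^ m' = 1) (h1 : ‖w - w'‖ < 1) : w = w' := by
  have h2 : (⟨w, hwK⟩ : ↥K) = ⟨w', hw'K⟩ :=
    h34lf_teich_unique' q (↥K) hm hm' hm0 (w := ⟨w, hwK⟩) (w' := ⟨w', hw'K⟩)
      (Subtype.ext hw) (Subtype.ext hw') h1
  exact congrArg (fun y : ↥K => (y : Om q)) h2

theorem h34lf_lfTeich : LFTeich := by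
  intro q _ K _
  classical
  have hP := h34lf_properSpace q (↥K)
  have hD := h34lf_isDiscreteValuationRing (↥K)
  have hF := h34lf_finite_residueField (↥K)
  have : Fintype (ResidueField 𝒪[↥K]) := Fintype.ofFinite _
  obtain ⟨f, hf0, hNf⟩ := h34lf_card_residue_pow q (↥K)
  set N := Nat.card (ResidueField 𝒪[↥K]) with hN
  have hNcard : N = Fintype.card (ResidueField 𝒪[↥K]) := Nat.card_eq_fintype_card
  have hN1 : 1 < N := by rw [hNcard]; exact Fintype.one_lt_card
  have hqN : ¬ q ∣ N - 1 := by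
    intro h
    have h1 : q ∣ N := by rw [hNf]; exact dvd_pow_self q hf0.ne'
    have h2 : q ∣ N - (N - 1) := Nat.dvd_sub h1 h
    have h3 : N - (N - 1) = 1 := by omega
    rw [h3] at h2
    exact (Fact.out : q.Prime).one_lt.ne' (Nat.dvd_one.mp h2)
  -- the reduction map `muPrime K → {c // c ≠ 0}`
  have hmem : ∀ w : ↥(muPrime K), ((⟨(w : Om q), w.2.1⟩ : ↥K)) ∈ 𝒪[↥K] := fun w =>
    Valued.integer.mem_iff.mpr (h34lf_norm_of_mem_muPrime K w.2).le
  have hunit : ∀ w : ↥(muPrime K), IsUnit (⟨⟨(w : Om q), w.2.1⟩, hmem w⟩ : 𝒪[↥K]) := fun w =>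
    Valued.integer.isUnit_iff_norm_eq_one.mpr (h34lf_norm_of_mem_muPrime K w.2)
  let φ : ↥(muPrime K) → {c : ResidueField 𝒪[↥K] // c ≠ 0} := fun w =>
    ⟨IsLocalRing.residue 𝒪[↥K] ⟨⟨(w : Om q), w.2.1⟩, hmem w⟩,
      (IsLocalRing.residue_ne_zero_iff_isUnit _).mpr (hunit w)⟩
  -- congruence criterion
  have hcong : ∀ a b : 𝒪[↥K], IsLocalRing.residue 𝒪[↥K] a = IsLocalRing.residue 𝒪[↥K] b →
      ‖((a : ↥K) : Om q) - ((b : ↥K) : Om q)‖ < 1 := by
    intro a b hab
    have h1 : IsLocalRing.residue 𝒪[↥K] (a - b) = 0 := by rw [map_sub, hab, sub_self]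
    rw [IsLocalRing.residue_eq_zero_iff, IsLocalRing.mem_maximalIdeal, mem_nonunits_iff,
      Valued.integer.isUnit_iff_norm_eq_one] at h1
    have h2 : ‖(a - b : 𝒪[↥K])‖ ≤ 1 := Valued.integer.norm_le_one _
    exact lt_of_le_of_ne h2 h1
  have hinj : Function.Injective φ := by
    intro w w' hww
    have h1 := hcong _ _ (congrArg Subtype.val hww)
    obtain ⟨hwK, m, hm0, hm, hwm⟩ := w.2
    obtain ⟨hw'K, m', -, hm', hwm'⟩ := w'.2
    exact Subtype.ext (h34lf_teich_unique_K K hm hm' hm0 hwK hw'K hwm hwm' h1)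
  have hexists : ∀ x ∈ K, ‖x‖ = 1 → ∃ w ∈ muPrime K, w ^ (N - 1) = 1 ∧ ‖x - w‖ < 1 := by
    intro x hx hx1
    obtain ⟨w, hw, hxw⟩ := h34lf_teich_exists q (↥K) (x := ⟨x, hx⟩) hx1
    refine ⟨(w : Om q), ⟨w.2, N - 1, by omega, hqN, ?_⟩, ?_, hxw⟩
    · exact congrArg (fun y : ↥K => (y : Om q)) hw
    · exact congrArg (fun y : ↥K => (y : Om q)) hw
  have hsurj : Function.Surjective φ := by
    rintro ⟨c, hc⟩
    obtain ⟨x0, rfl⟩ := IsLocalRing.residue_surjective c
    have hx0 : IsUnit x0 := (IsLocalRing.residue_ne_zero_iff_isUnit x0).mp hc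
    have hx1 : ‖((x0 : ↥K) : Om q)‖ = 1 := Valued.integer.isUnit_iff_norm_eq_one.mp hx0
    obtain ⟨w, hw, -, hxw⟩ := hexists _ (x0 : ↥K).2 hx1
    refine ⟨⟨w, hw⟩, Subtype.ext ?_⟩
    change IsLocalRing.residue 𝒪[↥K] _ = IsLocalRing.residue 𝒪[↥K] x0
    rw [← sub_eq_zero, ← map_sub, IsLocalRing.residue_eq_zero_iff, IsLocalRing.mem_maximalIdeal,
      mem_nonunits_iff, Valued.integer.isUnit_iff_norm_eq_one]
    have h3 : ‖w - ((x0 : ↥K) : Om q)‖ < 1 := by rw [norm_sub_rev]; exact hxw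
    exact h3.ne
  have hfin : Finite ↥(muPrime K) := Finite.of_injective φ hinj
  have hcard : Nat.card ↥(muPrime K) = N - 1 := by
    rw [Nat.card_congr (Equiv.ofBijective φ ⟨hinj, hsurj⟩),
      ← Nat.card_congr (unitsEquivNeZero (G₀ := ResidueField 𝒪[↥K])), Nat.card_units]
  have hres : resCard K = N := by
    unfold resCard
    rw [hcard]
    omega
  refine ⟨Set.finite_coe_iff.mp hfin, ⟨f, hf0, by rw [hres, hNf]⟩, ?_, ?_, ?_⟩
  · intro w hw
    rw [hres]
    have hw1 := h34lf_norm_of_mem_muPrime K hw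
    obtain ⟨w', hw', hw'pow, hww'⟩ := hexists w hw.1 hw1
    obtain ⟨hwK, m, hm0, hm, hwm⟩ := hw
    have h1 := h34lf_teich_unique_K K hm hqN hm0 hwK hw'.1 hwm hw'pow hww'
    rw [h1]
    exact hw'pow
  · intro x hx hx1
    obtain ⟨w, hw, -, hxw⟩ := hexists x hx hx1
    exact ⟨w, hw, hxw⟩
  · intro w hw w' hw' hww'
    obtain ⟨hwK, m, hm0, hm, hwm⟩ := hw
    obtain ⟨hw'K, m', -, hm', hwm'⟩ := hw'
    exact h34lf_teich_unique_K K hm hm' hm0 hwK hw'K hwm hwm' hww'

end Main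

end Fermat.Agent.PT.Loc
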