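import Mathlib
import Fermat.Agent.PT.Loc.Basic

/-!
# W3-PT / PT-LOC (helper48): frozen leaf statements, blocks LF, UR, NI, MC, KUM, B

Every `def … : Prop` below is a leaf (or a small assembly) to be PROVED as a theorem
`theorem <name>_holds : <Name>` (hypotheses = other leaves when stated in the task row) in its own
file `Fermat/Agent/PT/Loc/<Block>/<Name>.lean`.  Notation: `K` local field (finite over `ℚ_q`),
`‖·‖` the ambient norm of `PadicAlgCl q`, `G_K = GK K`.  `q = p` is ALLOWED everywhere.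

Target of the blocks: for `K ∋ μ_p`
* `B1` : the cup product `H¹(G_K,𝔽_p) × H¹(G_K,𝔽_p) → H²(G_K,𝔽_p)` is nondegenerate (Hilbert symbol),
* `B0` : `H²(G_K,𝔽_p)` is one dimensional, generated by `κ_ϖ ∪ χ_ur`.
-/

set_option autoImplicit false

open scoped Classical

noncomputable section

namespace Fermat.Agent.PT.Loc

/-! ## Block LF: arithmetic of a local field -/

/-- LF-UNIF: uniformizers exist and the value group is generated by `‖π‖`. -/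
def LFUnif : Prop :=
  ∀ (q : ℕ) [Fact q.Prime] (K : LF q) [FiniteDimensional ℚ_[q] K],
    (∃ π, IsUnif K π) ∧ ∀ π, IsUnif K π → ∀ x ∈ K, x ≠ 0 → ∃ n : ℤ, ‖x‖ = ‖π‖ ^ n

/-- LF-TEICH: the residue field is finite of cardinality `resCard K = q^f`, with Teichmüller
representatives `μ'(K) ∪ {0}`. -/
def LFTeich : Prop :=
  ∀ (q : ℕ) [Fact q.Prime] (K : LF q) [FiniteDimensional ℚ_[q] K],
    (muPrime K).Finite ∧ (∃ f : ℕ, 0 < f ∧ resCard K = q ^ f) ∧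
    (∀ w ∈ muPrime K, w ^ (resCard K - 1) = 1) ∧
    (∀ x ∈ K, ‖x‖ = 1 → ∃ w ∈ muPrime K, ‖x - w‖ < 1) ∧
    (∀ w ∈ muPrime K, ∀ w' ∈ muPrime K, ‖w - w'‖ < 1 → w = w')

/-- LF-POW: the `p`-th powers are open (`p` any prime, `p = q` allowed). -/
def LFPow : Prop :=
  ∀ (q : ℕ) [Fact q.Prime] (p : ℕ) [Fact p.Prime] (K : LF q) [FiniteDimensional ℚ_[q] K],
    ∃ ε : ℝ, 0 < ε ∧ ∀ x ∈ K, ‖x - 1‖ < ε → ∃ y ∈ K, y ^ p = x

/-- LF-DIM: if `μ_p ⊆ K` then `K^×/K^{×p}` has order `p^(2 + [K:ℚ_p])` (`q = p`) resp. `p^2`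
(`q ≠ p`); stated with a system of coset representatives. -/
def LFDim : Prop :=
  ∀ (q : ℕ) [Fact q.Prime] (p : ℕ) [Fact p.Prime] (K : LF q) [FiniteDimensional ℚ_[q] K]
    (ζ : Om q), ζ ∈ K → IsPrimitiveRoot ζ p →
    ∃ T : Finset (Om q),
      T.card = p ^ (2 + if q = p then Module.finrank ℚ_[q] K else 0) ∧
      (∀ t ∈ T, t ∈ K ∧ t ≠ 0) ∧
      (∀ x ∈ K, x ≠ 0 → ∃ t ∈ T, ∃ y ∈ K, x = t * y ^ p) ∧
      (∀ t ∈ T, ∀ t' ∈ T, (∃ y ∈ K, t = t' * y ^ p) → t = t')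

/-- LF-IMM: an extension with the same value group and the same residue field is trivial. -/
def LFImm : Prop :=
  ∀ (q : ℕ) [Fact q.Prime] (K L : LF q) [FiniteDimensional ℚ_[q] K] [FiniteDimensional ℚ_[q] L],
    K ≤ L → (∀ x ∈ L, ∃ y ∈ K, ‖x‖ = ‖y‖) → resCard L = resCard K → L ≤ K

/-! ## Block UR: unramified extensions and Frobenius -/

/-- UR-FROB: Frobenius elements exist. -/
def URFrob : Prop :=
  ∀ (q : ℕ) [Fact q.Prime] (K : LF q) [FiniteDimensional ℚ_[q] K], ∃ φ, IsFrob K φ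

/-- UR-CYC: `Kur K n / K` is cyclic of degree `n`, generated by any Frobenius element. -/
def URCyc : Prop :=
  ∀ (q : ℕ) [Fact q.Prime] (K : LF q) [FiniteDimensional ℚ_[q] K] (n : ℕ) (φ : Gq q),
    0 < n → IsFrob K φ → IsCyc K (Kur K n) n φ

/-- UR-VAL: `Kur K n / K` is unramified: same value group, residue field of cardinality `N^n`. -/
def URVal : Prop :=
  ∀ (q : ℕ) [Fact q.Prime] (K : LF q) [FiniteDimensional ℚ_[q] K] (n : ℕ), 0 < n →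
    FiniteDimensional ℚ_[q] (Kur K n) ∧ (∀ x ∈ Kur K n, ∃ y ∈ K, ‖x‖ = ‖y‖) ∧
    resCard (Kur K n) = resCard K ^ n

/-- UR-IDX: the index of `g ∈ G_K` in `Gal(Kur K n / K) = ⟨φ⟩` is read off on roots of unity. -/
def URIdx : Prop :=
  ∀ (q : ℕ) [Fact q.Prime] (K : LF q) [FiniteDimensional ℚ_[q] K] (n : ℕ) (φ : Gq q),
    0 < n → IsFrob K φ → ∀ g ∈ GK K, ∀ w : Om q, w ^ (resCard K ^ n - 1) = 1 →
      g w = w ^ (resCard K ^ cycIdx (Kur K n) φ n g)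

/-- UR-NORM: units of `K` are norms of units of `Kur K n`. -/
def URNorm : Prop :=
  ∀ (q : ℕ) [Fact q.Prime] (K : LF q) [FiniteDimensional ℚ_[q] K] (n : ℕ) (φ : Gq q),
    0 < n → IsFrob K φ → ∀ u ∈ K, ‖u‖ = 1 →
      ∃ β ∈ Kur K n, ‖β‖ = 1 ∧ normAlong φ n β = u

/-- UR-NORMGRP: the norm group of `Kur K n / K` is `{b : n ∣ ord b}`. -/
def URNormGrp : Prop :=
  ∀ (q : ℕ) [Fact q.Prime] (K : LF q) [FiniteDimensional ℚ_[q] K] (n : ℕ) (φ : Gq q) (π : Om q),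
    0 < n → IsFrob K φ → IsUnif K π → ∀ b ∈ K, b ≠ 0 →
      (IsNorm (Kur K n) φ n b ↔ ∃ m : ℤ, ‖b‖ = ‖π‖ ^ ((n : ℤ) * m))

/-- UR-BC: base change of the unramified tower. -/
def URBaseChange : Prop :=
  ∀ (q : ℕ) [Fact q.Prime] (K : LF q) [FiniteDimensional ℚ_[q] K],
    (∀ (K₁ : LF q) [FiniteDimensional ℚ_[q] K₁] (n : ℕ), K ≤ K₁ → resCard K₁ = resCard K →
      Kur K₁ n = K₁ ⊔ Kur K n) ∧
    (∀ m n : ℕ, 0 < m → 0 < n → Kur (Kur K m) n = Kur K (m * n)) ∧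
    (∀ (m : ℕ) (φ : Gq q), 0 < m → IsFrob K φ → IsFrob (Kur K m) (φ ^ m))

/-! ## Block NI: the local norm index theorem in prime degree -/

/-- NI-MAIN: for `K₁/K` cyclic of prime degree `p` the norm group has index exactly `p`
in `K^×` (`q = p`, wild ramification allowed). -/
def NIMain : Prop :=
  ∀ (q : ℕ) [Fact q.Prime] (p : ℕ) [Fact p.Prime] (K K₁ : LF q) [FiniteDimensional ℚ_[q] K]
    (σ : Gq q), IsCyc K K₁ p σ →
    (∃ b ∈ K, b ≠ 0 ∧ ¬ IsNorm K₁ σ p b) ∧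
    (∀ b ∈ K, b ≠ 0 → ¬ IsNorm K₁ σ p b → ∀ b' ∈ K, b' ≠ 0 →
      ∃ k, k < p ∧ IsNorm K₁ σ p (b' * b ^ k))

/-- NI-DICH: a cyclic extension of prime degree is unramified (`= Kur K p`) or totally
ramified (same residue field, `‖ϖ‖^p = ‖π‖`). -/
def NIDich : Prop :=
  ∀ (q : ℕ) [Fact q.Prime] (p : ℕ) [Fact p.Prime] (K K₁ : LF q) [FiniteDimensional ℚ_[q] K]
    (σ : Gq q), IsCyc K K₁ p σ →
    K₁ = Kur K p ∨
      (resCard K₁ = resCard K ∧ ∃ ϖ ∈ K₁, ∃ π, IsUnif K π ∧ IsUnif K₁ ϖ ∧ ‖ϖ‖ ^ p = ‖π‖)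

/-! ## Block MC: multiplicative cochain calculus (Brauer group by explicit cocycles) -/

/-- MC-H90: Hilbert 90 for continuous cocycles of `G_K` in `(Om q)ˣ`. -/
def MCH90 : Prop :=
  ∀ (q : ℕ) [Fact q.Prime] (K : LF q) [FiniteDimensional ℚ_[q] K] (x : Gq q → (Om q)ˣ),
    MCoc1 K x → Cont1 K x → ∃ a : (Om q)ˣ, ∀ g ∈ GK K, x g = g • a / a

/-- MC-CARRY: the carry cocycle is a continuous `2`-cocycle. -/
def MCCarry : Prop :=
  ∀ (q : ℕ) [Fact q.Prime] (K K₁ : LF q) [FiniteDimensional ℚ_[q] K] (n : ℕ) (σ : Gq q)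
    (b : (Om q)ˣ), IsCyc K K₁ n σ → (b : Om q) ∈ K →
    MCoc2 K (carry K₁ σ n b) ∧ Cont2 K (carry K₁ σ n b)

/-- MC-INFRES-PER (inflation–restriction in degree 2 + periodicity): a continuous `2`-cocycle of
`G_K` which is a continuous coboundary on `G_{K₁}`, `K₁/K` cyclic, is cohomologous to a carry
cocycle. -/
def MCInfResPer : Prop :=
  ∀ (q : ℕ) [Fact q.Prime] (K K₁ : LF q) [FiniteDimensional ℚ_[q] K] (n : ℕ) (σ : Gq q),
    IsCyc K K₁ n σ → ∀ c : Gq q × Gq q → (Om q)ˣ, MCoc2 K c → Cont2 K c → MCohom K₁ c 1 →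
      ∃ b : (Om q)ˣ, (b : Om q) ∈ K ∧ MCohom K c (carry K₁ σ n b)

/-- MC-CARRY-NORM: the carry cocycle of `b` is a coboundary iff `b` is a norm. -/
def MCCarryNorm : Prop :=
  ∀ (q : ℕ) [Fact q.Prime] (K K₁ : LF q) [FiniteDimensional ℚ_[q] K] (n : ℕ) (σ : Gq q)
    (b : (Om q)ˣ), IsCyc K K₁ n σ → (b : Om q) ∈ K →
    (MCohom K (carry K₁ σ n b) 1 ↔ IsNorm K₁ σ n (b : Om q))

/-- MC-CARRY-POW: `(χ_{nm}, b^m) ∼ (χ_n, b)` for a tower `K ≤ K₁ ≤ K₂` cyclic of degrees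
`n`, `n m` with the same generator. -/
def MCCarryPow : Prop :=
  ∀ (q : ℕ) [Fact q.Prime] (K K₁ K₂ : LF q) [FiniteDimensional ℚ_[q] K] (n m : ℕ) (σ : Gq q)
    (b : (Om q)ˣ), IsCyc K K₁ n σ → IsCyc K K₂ (n * m) σ → K₁ ≤ K₂ → (b : Om q) ∈ K →
    MCohom K (carry K₂ σ (n * m) (b ^ m)) (carry K₁ σ n b)

/-- MC-MU: a `μ_p`-valued cocycle which is a coboundary in `(Om q)ˣ` is a coboundary in `𝔽_p`. -/
def MCMu : Prop :=
  ∀ (q : ℕ) [Fact q.Prime] (p : ℕ) [Fact p.Prime] (K : LF q) [FiniteDimensional ℚ_[q] K]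
    (ζ : (Om q)ˣ), (ζ : Om q) ∈ K → IsPrimitiveRoot (ζ : Om q) p →
    ∀ c : Gq q × Gq q → ZMod p, ACoc2 K c → Cont2 K c → MCohom K (zpw ζ c) 1 → ACohom K c 0

/-- MC-KUM: the cup product of a Kummer character with the character of a cyclic extension is
the inverse of a carry cocycle: `ζ^(κ_B ∪ idx) = carry(B^p)⁻¹ · ∂(g ↦ B^{idx g})`. -/
def MCKum : Prop :=
  ∀ (q : ℕ) [Fact q.Prime] (p : ℕ) [Fact p.Prime] (K K₁ : LF q) [FiniteDimensional ℚ_[q] K]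
    (σ : Gq q) (ζ B : (Om q)ˣ), (ζ : Om q) ∈ K → IsPrimitiveRoot (ζ : Om q) p →
    IsCyc K K₁ p σ → ((B : Om q) ^ p) ∈ K →
    MCohom K (zpw ζ (acup (kum p (ζ : Om q) (B : Om q)) (fun g => (cycIdx K₁ σ p g : ZMod p))))
      (fun y => (carry K₁ σ p (B ^ p) y)⁻¹)

/-! ## Block KUM: Kummer theory of `G_K` -/

/-- KUM-BASIC: the Kummer character is a continuous character of `G_K`. -/
def KumBasic : Prop :=
  ∀ (q : ℕ) [Fact q.Prime] (p : ℕ) [Fact p.Prime] (K : LF q) [FiniteDimensional ℚ_[q] K]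
    (ζ B : Om q), ζ ∈ K → IsPrimitiveRoot ζ p → B ≠ 0 → B ^ p ∈ K →
    ACoc1 K (kum p ζ B) ∧ Cont1 K (kum p ζ B) ∧
      ∀ g ∈ GK K, g B = ζ ^ (kum p ζ B g).val * B

/-- KUM-CLASS: every continuous character `G_K → 𝔽_p` is a Kummer character. -/
def KumClass : Prop :=
  ∀ (q : ℕ) [Fact q.Prime] (p : ℕ) [Fact p.Prime] (K : LF q) [FiniteDimensional ℚ_[q] K]
    (ζ : Om q), ζ ∈ K → IsPrimitiveRoot ζ p →
    ∀ χ : Gq q → ZMod p, ACoc1 K χ → Cont1 K χ →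
      ∃ B : Om q, B ≠ 0 ∧ B ^ p ∈ K ∧ ∀ g ∈ GK K, χ g = kum p ζ B g

/-- KUM-CYC: a nonzero Kummer character cuts out the cyclic extension `K(B)`. -/
def KumCyc : Prop :=
  ∀ (q : ℕ) [Fact q.Prime] (p : ℕ) [Fact p.Prime] (K : LF q) [FiniteDimensional ℚ_[q] K]
    (ζ B : Om q) (σ : Gq q), ζ ∈ K → IsPrimitiveRoot ζ p → B ≠ 0 → B ^ p ∈ K →
    σ ∈ GK K → kum p ζ B σ = 1 →
    IsCyc K (K ⊔ IntermediateField.adjoin ℚ_[q] {B}) p σ ∧
      ∀ g ∈ GK K,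
        (cycIdx (K ⊔ IntermediateField.adjoin ℚ_[q] {B}) σ p g : ZMod p) = kum p ζ B g

/-! ## Block B: the two base facts -/

/-- B1 (Hilbert symbol is nondegenerate): for every nonzero continuous character `χ` of `G_K`
there is a continuous character `ψ` with `χ ∪ ψ ≠ 0` in `H²(G_K, 𝔽_p)`. -/
def B1 : Prop :=
  ∀ (q : ℕ) [Fact q.Prime] (p : ℕ) [Fact p.Prime] (K : LF q) [FiniteDimensional ℚ_[q] K]
    (ζ : Om q), ζ ∈ K → IsPrimitiveRoot ζ p →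
    ∀ χ : Gq q → ZMod p, ACoc1 K χ → Cont1 K χ → (∃ g ∈ GK K, χ g ≠ 0) →
      ∃ ψ : Gq q → ZMod p, ACoc1 K ψ ∧ Cont1 K ψ ∧ ¬ ACohom K (acup χ ψ) 0

/-- B1-FIN: `H¹(G_K, 𝔽_p)` is finite. -/
def B1Fin : Prop :=
  ∀ (q : ℕ) [Fact q.Prime] (p : ℕ) [Fact p.Prime] (K : LF q) [FiniteDimensional ℚ_[q] K]
    (ζ : Om q), ζ ∈ K → IsPrimitiveRoot ζ p →
    ∃ T : Finset (Gq q → ZMod p), ∀ χ : Gq q → ZMod p, ACoc1 K χ → Cont1 K χ →
      ∃ t ∈ T, ∀ g ∈ GK K, χ g = t g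

/-- `c₀` is a standard generator of `H²(G_K, 𝔽_p)`: `κ_ϖ ∪ χ_ur`, `ϖ^p` a uniformizer. -/
def IsGen (p : ℕ) {q : ℕ} [Fact q.Prime] (K : LF q) (ζ : Om q)
    (c₀ : Gq q × Gq q → ZMod p) : Prop :=
  ∃ (ϖ : Om q) (φ : Gq q), IsUnif K (ϖ ^ p) ∧ IsFrob K φ ∧
    c₀ = acup (kum p ζ ϖ) (fun g => (cycIdx (Kur K p) φ p g : ZMod p))

/-- B0-GEN: standard generators exist, are continuous cocycles and are not coboundaries. -/
def B0Gen : Prop :=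
  ∀ (q : ℕ) [Fact q.Prime] (p : ℕ) [Fact p.Prime] (K : LF q) [FiniteDimensional ℚ_[q] K]
    (ζ : Om q), ζ ∈ K → IsPrimitiveRoot ζ p →
    (∃ c₀, IsGen p K ζ c₀) ∧
    ∀ c₀, IsGen p K ζ c₀ → ACoc2 K c₀ ∧ Cont2 K c₀ ∧ ¬ ACohom K c₀ 0

/-- B0-DESC (descent in a cyclic step of degree `p`): if `c|G_{K₁}` is a multiple of a standard
generator of `K₁` then `c` is a multiple of a standard generator of `K`. -/
def B0Desc : Prop :=
  ∀ (q : ℕ) [Fact q.Prime] (p : ℕ) [Fact p.Prime] (K K₁ : LF q) [FiniteDimensional ℚ_[q] K]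
    (ζ : Om q) (σ : Gq q), ζ ∈ K → IsPrimitiveRoot ζ p → IsCyc K K₁ p σ →
    ∀ c₀ c₁, IsGen p K ζ c₀ → IsGen p K₁ ζ c₁ →
    ∀ c : Gq q × Gq q → ZMod p, ACoc2 K c → Cont2 K c →
      (∃ t : ZMod p, ACohom K₁ c (t • c₁)) → ∃ t : ZMod p, ACohom K c (t • c₀)

/-- B0-COPRIME (descent in a step of degree prime to `p`). -/
def B0Coprime : Prop :=
  ∀ (q : ℕ) [Fact q.Prime] (p : ℕ) [Fact p.Prime] (K K₁ : LF q) [FiniteDimensional ℚ_[q] K]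
    [FiniteDimensional ℚ_[q] K₁] (ζ : Om q), ζ ∈ K → IsPrimitiveRoot ζ p → K ≤ K₁ →
    ¬ p ∣ ((GK K₁).subgroupOf (GK K)).index →
    ∀ c₀ c₁, IsGen p K ζ c₀ → IsGen p K₁ ζ c₁ →
    ∀ c : Gq q × Gq q → ZMod p, ACoc2 K c → Cont2 K c →
      (∃ t : ZMod p, ACohom K₁ c (t • c₁)) → ∃ t : ZMod p, ACohom K c (t • c₀)

/-- B0-TOWER (Sylow + Galois correspondence): every continuous cochain on `G_K` becomes constant
on `G_{T m}` for a tower `K ≤ T 0 ≤ … ≤ T m`, `[T 0 : K]` prime to `p`, all other steps cyclic of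
degree `p`. -/
def B0Tower : Prop :=
  ∀ (q : ℕ) [Fact q.Prime] (p : ℕ) [Fact p.Prime] (K : LF q) [FiniteDimensional ℚ_[q] K]
    (c : Gq q × Gq q → ZMod p), Cont2 K c →
    ∃ (m : ℕ) (T : ℕ → LF q) (σ : ℕ → Gq q),
      K ≤ T 0 ∧ (∀ i, i ≤ m → FiniteDimensional ℚ_[q] (T i)) ∧
      ¬ p ∣ ((GK (T 0)).subgroupOf (GK K)).index ∧
      (∀ i, i < m → IsCyc (T i) (T (i + 1)) p (σ i)) ∧
      ∀ g ∈ GK (T m), ∀ h ∈ GK (T m), c (g, h) = c (1, 1)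

/-- B0 (`H²(G_K, 𝔽_p)` is one dimensional): every continuous `2`-cocycle is cohomologous to a
multiple of any standard generator. -/
def B0 : Prop :=
  ∀ (q : ℕ) [Fact q.Prime] (p : ℕ) [Fact p.Prime] (K : LF q) [FiniteDimensional ℚ_[q] K]
    (ζ : Om q), ζ ∈ K → IsPrimitiveRoot ζ p →
    ∀ c₀, IsGen p K ζ c₀ →
    ∀ c : Gq q × Gq q → ZMod p, ACoc2 K c → Cont2 K c → ∃ t : ZMod p, ACohom K c (t • c₀)

end Fermat.Agent.PT.Loc
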