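import Mathlib
import Fermat.Agent.PT.Loc.Basic
import Fermat.Agent.PT.Loc.Iface

/-!
# W3-PT / PT-LOC, leaf UR-CYC (helper66): `Kur K n / K` is cyclic, generated by Frobenius

`h66u_urCyc : LFTeich → URVal → LFImm → URCyc`.

Let `N = resCard K`, `M = N ^ n - 1`, `ζ` a primitive `M`-th root of unity, `K₁ = Kur K n`.

* `σ ∈ G_{K₁}` iff `σ ∈ G_K` and `σ` fixes the `M`-th roots of unity;
* `φ ^ i` raises the roots of unity of order prime to `q` to the power `N ^ i`;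
* the field `F` of the elements of `K₁` fixed by `φ` has the same value group and the same
  roots of unity of order prime to `q` as `K`, hence `F = K` (`LFImm`);
* the polynomial `∏_{i < n} (X - ζ ^ (N ^ i))` has coefficients in `F = K`; so every `g ∈ G_K`
  maps `ζ` to some `ζ ^ (N ^ i) = φ ^ i ζ`.
-/

set_option autoImplicit false

open scoped Classical

open Polynomial

noncomputable section

namespace Fermat.Agent.PT.Loc

variable {q : ℕ} [Fact q.Prime]

/-! ### Fixing subgroups -/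

theorem h66u_zpowers_apply {σ : Gq q} {x : Om q} (h : σ x = x) :
    ∀ f ∈ Subgroup.zpowers σ, f x = x := by
  have hle : Subgroup.zpowers σ ≤ MulAction.stabilizer (Gq q) x := by
    rw [Subgroup.zpowers_le, MulAction.mem_stabilizer_iff]
    exact h
  intro f hf
  exact MulAction.mem_stabilizer_iff.1 (hle hf)

theorem h66u_mem_fixedField_zpowers (σ : Gq q) (x : Om q) :
    x ∈ IntermediateField.fixedField (Subgroup.zpowers σ) ↔ σ x = x := by
  rw [IntermediateField.mem_fixedField_iff]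
  exact ⟨fun h => h σ (Subgroup.mem_zpowers σ), h66u_zpowers_apply⟩

theorem h66u_mem_GK_iff_le (K : LF q) (σ : Gq q) :
    σ ∈ GK K ↔ K ≤ IntermediateField.fixedField (Subgroup.zpowers σ) := by
  rw [IntermediateField.le_iff_le, Subgroup.zpowers_le]

/-- `σ` fixes `ℚ_q(S)` iff it fixes `S` pointwise. -/
theorem h66u_mem_GK_adjoin (S : Set (Om q)) (σ : Gq q) :
    σ ∈ GK (IntermediateField.adjoin ℚ_[q] S) ↔ ∀ w ∈ S, σ w = w := by
  rw [h66u_mem_GK_iff_le, IntermediateField.adjoin_le_iff]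
  constructor
  · intro h w hw
    exact (h66u_mem_fixedField_zpowers σ w).1 (h hw)
  · intro h w hw
    exact (h66u_mem_fixedField_zpowers σ w).2 (h w hw)

/-- `σ` fixes `K(S)` iff it fixes `K` and `S` pointwise. -/
theorem h66u_mem_GK_sup_adjoin (K : LF q) (S : Set (Om q)) (σ : Gq q) :
    σ ∈ GK (K ⊔ IntermediateField.adjoin ℚ_[q] S) ↔ σ ∈ GK K ∧ ∀ w ∈ S, σ w = w := by
  rw [GK, IntermediateField.fixingSubgroup_sup, Subgroup.mem_inf]
  exact and_congr Iff.rfl (h66u_mem_GK_adjoin S σ)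

theorem h66u_mem_GK_Kur (K : LF q) (n : ℕ) (σ : Gq q) :
    σ ∈ GK (Kur K n) ↔ σ ∈ GK K ∧ ∀ w : Om q, w ^ (resCard K ^ n - 1) = 1 → σ w = w :=
  h66u_mem_GK_sup_adjoin K _ σ

theorem h66u_apply_of_mem_GK {K : LF q} {σ : Gq q} (h : σ ∈ GK K) {x : Om q} (hx : x ∈ K) :
    σ x = x :=
  (IntermediateField.mem_fixingSubgroup_iff K σ).1 h x hx

theorem h66u_le_Kur (K : LF q) (n : ℕ) : K ≤ Kur K n := le_sup_left

theorem h66u_mem_Kur_of_pow (K : LF q) (n : ℕ) {w : Om q}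
    (hw : w ^ (resCard K ^ n - 1) = 1) : w ∈ Kur K n :=
  (le_sup_right : IntermediateField.adjoin ℚ_[q] _ ≤ Kur K n)
    (IntermediateField.subset_adjoin _ _ hw)

/-! ### Powers of Frobenius -/

theorem h66u_frob_pow {K : LF q} {φ : Gq q} (hφ : IsFrob K φ) (i : ℕ) :
    ∀ (w : Om q) (m : ℕ), 0 < m → ¬ q ∣ m → w ^ m = 1 → (φ ^ i) w = w ^ (resCard K ^ i) := by
  induction i with
  | zero =>
    intro w m _ _ _
    simp
  | succ i ih =>
    intro w m hm hqm hw
    have h1 : (w ^ resCard K) ^ m = 1 := by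
      rw [← pow_mul, mul_comm, pow_mul, hw, one_pow]
    rw [pow_succ, AlgEquiv.mul_apply, hφ.2 w m hm hqm hw, ih (w ^ resCard K) m hm hqm h1,
      ← pow_mul, ← pow_succ']

/-! ### Arithmetic of `N = q ^ f` -/

omit [Fact q.Prime] in
theorem h66u_two_le_pow {N f n : ℕ} (hq : q.Prime) (hf : 0 < f) (hN : N = q ^ f) (hn : 0 < n) :
    2 ≤ N ^ n := by
  have h1 : 2 ≤ N := by
    rw [hN]
    calc 2 ≤ q := hq.two_le
      _ = q ^ 1 := (pow_one q).symm
      _ ≤ q ^ f := Nat.pow_le_pow_right hq.pos hf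
  calc 2 ≤ N := h1
    _ = N ^ 1 := (pow_one N).symm
    _ ≤ N ^ n := Nat.pow_le_pow_right (by omega) hn

omit [Fact q.Prime] in
theorem h66u_not_dvd_pred {N f n : ℕ} (hq : q.Prime) (hf : 0 < f) (hN : N = q ^ f)
    (hn : 0 < n) : ¬ q ∣ N ^ n - 1 := by
  intro h
  have h2 := h66u_two_le_pow hq hf hN hn
  have h3 : q ∣ N ^ n := by
    rw [hN, ← pow_mul]
    exact dvd_pow_self q (by positivity)
  have h4 : q ∣ 1 := by
    have h5 : N ^ n - (N ^ n - 1) = 1 := by omega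
    rw [← h5]
    exact Nat.dvd_sub h3 h
  exact hq.one_lt.ne' (Nat.dvd_one.1 h4)

/-! ### The roots of unity of order prime to `q` in `K` -/

/-- `μ'(K)` is the set of all `(N - 1)`-th roots of unity. -/
theorem h66u_mem_muPrime_of_pow (hT : LFTeich) (K : LF q) [FiniteDimensional ℚ_[q] K]
    {w : Om q} (hw : w ^ (resCard K - 1) = 1) : w ∈ muPrime K := by
  obtain ⟨hfin, ⟨f, hf, hN⟩, hpow, -, -⟩ := hT q K
  have hq : q.Prime := Fact.out
  have h2 : 2 ≤ resCard K ^ 1 := h66u_two_le_pow hq hf hN one_pos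
  rw [pow_one] at h2
  have hpos : 0 < resCard K - 1 := by omega
  have hsub : hfin.toFinset ⊆ Polynomial.nthRootsFinset (resCard K - 1) (1 : Om q) := by
    intro x hx
    rw [Polynomial.mem_nthRootsFinset hpos]
    exact hpow x ((Set.Finite.mem_toFinset hfin).1 hx)
  have hcard : (Polynomial.nthRootsFinset (resCard K - 1) (1 : Om q)).card ≤
      hfin.toFinset.card := by
    have h1 : hfin.toFinset.card = resCard K - 1 := by
      rw [← Set.ncard_eq_toFinset_card _ hfin, ← Nat.card_coe_set_eq]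
      unfold resCard
      omega
    rw [h1]
    exact le_trans (Multiset.toFinset_card_le _) (Polynomial.card_nthRoots _ _)
  have heq := Finset.eq_of_subset_of_card_le hsub hcard
  have hmem : w ∈ Polynomial.nthRootsFinset (resCard K - 1) (1 : Om q) :=
    (Polynomial.mem_nthRootsFinset hpos 1).2 hw
  rw [← heq] at hmem
  exact (Set.Finite.mem_toFinset hfin).1 hmem

/-! ### The fixed field of Frobenius in `Kur K n` -/

/-- the elements of `Kur K n` fixed by `φ`. -/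
def h66u_F (K : LF q) (n : ℕ) (φ : Gq q) : LF q :=
  Kur K n ⊓ IntermediateField.fixedField (Subgroup.zpowers φ)

theorem h66u_mem_F (K : LF q) (n : ℕ) (φ : Gq q) (x : Om q) :
    x ∈ h66u_F K n φ ↔ x ∈ Kur K n ∧ φ x = x := by
  rw [h66u_F, IntermediateField.mem_inf, h66u_mem_fixedField_zpowers]

theorem h66u_le_F (K : LF q) (n : ℕ) {φ : Gq q} (hφ : φ ∈ GK K) : K ≤ h66u_F K n φ := by
  intro x hx
  rw [h66u_mem_F]
  exact ⟨h66u_le_Kur K n hx, h66u_apply_of_mem_GK hφ hx⟩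

theorem h66u_muPrime_F (hT : LFTeich) (K : LF q) [FiniteDimensional ℚ_[q] K] (n : ℕ)
    {φ : Gq q} (hφ : IsFrob K φ) : muPrime (h66u_F K n φ) = muPrime K := by
  ext w
  constructor
  · rintro ⟨hwF, m, hm, hqm, hw⟩
    have h1 : φ w = w := ((h66u_mem_F K n φ w).1 hwF).2
    have h2 : φ w = w ^ resCard K := hφ.2 w m hm hqm hw
    have hw0 : w ≠ 0 := by
      rintro rfl
      rw [zero_pow hm.ne'] at hw
      exact zero_ne_one hw
    obtain ⟨-, ⟨f, hf, hN⟩, -, -, -⟩ := hT q K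
    have hq : q.Prime := Fact.out
    have h3 : 2 ≤ resCard K ^ 1 := h66u_two_le_pow hq hf hN one_pos
    rw [pow_one] at h3
    have h4 : w ^ (resCard K - 1) * w = 1 * w := by
      rw [← pow_succ, Nat.sub_add_cancel (by omega), ← h2, h1, one_mul]
    exact h66u_mem_muPrime_of_pow hT K (mul_right_cancel₀ hw0 h4)
  · rintro ⟨hwK, m, hm, hqm, hw⟩
    exact ⟨h66u_le_F K n hφ.1 hwK, m, hm, hqm, hw⟩

theorem h66u_resCard_F (hT : LFTeich) (K : LF q) [FiniteDimensional ℚ_[q] K] (n : ℕ)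
    {φ : Gq q} (hφ : IsFrob K φ) : resCard (h66u_F K n φ) = resCard K := by
  unfold resCard
  rw [h66u_muPrime_F hT K n hφ]

/-- **the fixed field of Frobenius in `Kur K n` is `K`.** -/
theorem h66u_F_le (hT : LFTeich) (hV : URVal) (hI : LFImm) (K : LF q)
    [FiniteDimensional ℚ_[q] K] (n : ℕ) (hn : 0 < n) {φ : Gq q} (hφ : IsFrob K φ) :
    h66u_F K n φ ≤ K := by
  obtain ⟨hfin, hval, -⟩ := hV q K n hn
  have : FiniteDimensional ℚ_[q] (Kur K n) := hfin
  have : FiniteDimensional ℚ_[q] (h66u_F K n φ) :=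
    Submodule.finiteDimensional_of_le
      (show (h66u_F K n φ).toSubalgebra.toSubmodule ≤ (Kur K n).toSubalgebra.toSubmodule from
        fun x hx => (inf_le_left : h66u_F K n φ ≤ Kur K n) hx)
  refine hI q K (h66u_F K n φ) (h66u_le_F K n hφ.1) ?_ (h66u_resCard_F hT K n hφ)
  intro x hx
  exact hval x ((inf_le_left : h66u_F K n φ ≤ Kur K n) hx)

/-! ### The polynomial `∏_{i < n} (X - ζ ^ (N ^ i))` -/

/-- an element of `Gq q` as a ring homomorphism. -/
def h66u_rh (σ : Gq q) : Om q →+* Om q := σ.toAlgHom.toRingHom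

@[simp] theorem h66u_rh_apply (σ : Gq q) (x : Om q) : h66u_rh σ x = σ x := rfl

/-- `∏_{i < n} (X - ζ ^ (N ^ i))`. -/
def h66u_P (N n : ℕ) (ζ : Om q) : Polynomial (Om q) :=
  ∏ i ∈ Finset.range n, (X - C (ζ ^ (N ^ i)))

theorem h66u_P_eval (N n : ℕ) (ζ x : Om q) :
    (h66u_P N n ζ).eval x = ∏ i ∈ Finset.range n, (x - ζ ^ (N ^ i)) := by
  simp [h66u_P, Polynomial.eval_prod]

theorem h66u_P_eval_self (N n : ℕ) (hn : 0 < n) (ζ : Om q) : (h66u_P N n ζ).eval ζ = 0 := by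
  rw [h66u_P_eval]
  apply Finset.prod_eq_zero (Finset.mem_range.2 hn)
  simp

/-- Frobenius permutes the roots cyclically. -/
theorem h66u_P_map_frob {N n : ℕ} {ζ : Om q} {φ : Gq q} (h1 : φ ζ = ζ ^ N)
    (h2 : ζ ^ (N ^ n) = ζ) : (h66u_P N n ζ).map (h66u_rh φ) = h66u_P N n ζ := by
  have hmap : (h66u_P N n ζ).map (h66u_rh φ) =
      ∏ i ∈ Finset.range n, (X - C (ζ ^ (N ^ (i + 1)))) := by
    rw [h66u_P, Polynomial.map_prod]
    refine Finset.prod_congr rfl (fun i _ => ?_)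
    rw [Polynomial.map_sub, Polynomial.map_X, Polynomial.map_C, h66u_rh_apply, map_pow, h1,
      ← pow_mul, ← pow_succ']
  rw [hmap]
  set f : ℕ → Polynomial (Om q) := fun i => X - C (ζ ^ (N ^ i)) with hf
  have e1 : ∏ k ∈ Finset.range (n + 1), f k = (∏ k ∈ Finset.range n, f (k + 1)) * f 0 :=
    Finset.prod_range_succ' f n
  have e2 : ∏ k ∈ Finset.range (n + 1), f k = (∏ k ∈ Finset.range n, f k) * f n :=
    Finset.prod_range_succ f n
  have e3 : f n = f 0 := by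
    simp only [hf, pow_zero, pow_one, h2]
  have e4 : f 0 ≠ 0 := Polynomial.X_sub_C_ne_zero _
  rw [e3] at e2
  exact mul_right_cancel₀ e4 (e1.symm.trans e2)

/-- the coefficients of `P` lie in every field containing `ζ`. -/
theorem h66u_P_coeff_mem (N n : ℕ) {ζ : Om q} (E : LF q) (hζ : ζ ∈ E) (j : ℕ) :
    (h66u_P N n ζ).coeff j ∈ E := by
  have h1 : h66u_P N n ζ = (∏ i ∈ Finset.range n,
      (X - C ((⟨ζ, hζ⟩ : E) ^ (N ^ i)))).map (algebraMap E (Om q)) := by
    rw [h66u_P, Polynomial.map_prod]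
    refine Finset.prod_congr rfl (fun i _ => ?_)
    rw [Polynomial.map_sub, Polynomial.map_X, Polynomial.map_C]
    rfl
  rw [h1, Polynomial.coeff_map]
  exact Subtype.mem _

/-- an automorphism fixing the coefficients of `P` permutes its roots. -/
theorem h66u_exists_of_fix {N n : ℕ} (hn : 0 < n) {ζ : Om q} {g : Gq q}
    (hg : ∀ j, g ((h66u_P N n ζ).coeff j) = (h66u_P N n ζ).coeff j) :
    ∃ i, i < n ∧ g ζ = ζ ^ (N ^ i) := by
  have hmap : (h66u_P N n ζ).map (h66u_rh g) = h66u_P N n ζ := by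
    ext j
    rw [Polynomial.coeff_map, h66u_rh_apply, hg j]
  have h0 : (h66u_P N n ζ).eval (g ζ) = 0 := by
    conv_lhs => rw [← hmap]
    rw [Polynomial.eval_map, ← h66u_rh_apply g ζ, Polynomial.eval₂_at_apply,
      h66u_P_eval_self N n hn ζ, map_zero]
  rw [h66u_P_eval, Finset.prod_eq_zero_iff] at h0
  obtain ⟨i, hi, hi0⟩ := h0
  exact ⟨i, Finset.mem_range.1 hi, sub_eq_zero.1 hi0⟩

/-! ### The main theorem -/

/-- **UR-CYC.**  `Kur K n / K` is cyclic of degree `n`, generated by any Frobenius element. -/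
theorem h66u_urCyc (hT : LFTeich) (hV : URVal) (hI : LFImm) : URCyc := by
  intro q _ K _ n φ hn hφ
  have hq : q.Prime := Fact.out
  obtain ⟨-, ⟨f, hf, hN⟩, -, -, -⟩ := hT q K
  set N := resCard K with hNdef
  have h2N : 2 ≤ N := by
    have := h66u_two_le_pow hq hf hN one_pos
    rwa [pow_one] at this
  have h2 : 2 ≤ N ^ n := h66u_two_le_pow hq hf hN hn
  have hMpos : 0 < N ^ n - 1 := by omega
  have hqM : ¬ q ∣ N ^ n - 1 := h66u_not_dvd_pred hq hf hN hn
  -- a primitive root of unity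
  have : NeZero ((N ^ n - 1 : ℕ) : Om q) := ⟨by exact_mod_cast hMpos.ne'⟩
  obtain ⟨ζ, hζ⟩ := HasEnoughRootsOfUnity.exists_primitiveRoot (Om q) (N ^ n - 1)
  have hζM : ζ ^ (N ^ n - 1) = 1 := hζ.pow_eq_one
  have hζK₁ : ζ ∈ Kur K n := h66u_mem_Kur_of_pow K n hζM
  have hfrobζ : ∀ i, (φ ^ i) ζ = ζ ^ (N ^ i) := fun i =>
    h66u_frob_pow hφ i ζ (N ^ n - 1) hMpos hqM hζM
  have hζN : ζ ^ (N ^ n) = ζ := by
    have e : N ^ n = (N ^ n - 1) + 1 := by omega
    rw [e, pow_succ, hζM, one_mul]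
  have hφζ : φ ζ = ζ ^ N := by
    have := hfrobζ 1
    rwa [pow_one, pow_one] at this
  -- the coefficients of `P` lie in `K`
  have hcoeffK : ∀ j, (h66u_P N n ζ).coeff j ∈ K := by
    intro j
    apply h66u_F_le hT hV hI K n hn hφ
    rw [h66u_mem_F]
    refine ⟨h66u_P_coeff_mem N n (Kur K n) hζK₁ j, ?_⟩
    have := congrArg (fun p => Polynomial.coeff p j) (h66u_P_map_frob hφζ hζN)
    simpa [Polynomial.coeff_map] using this
  -- every root of unity of order dividing `M` is a power of `ζ`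
  have hpowζ : ∀ w : Om q, w ^ (N ^ n - 1) = 1 → ∃ k : ℕ, ζ ^ k = w := by
    intro w hw
    have : NeZero (N ^ n - 1) := ⟨hMpos.ne'⟩
    obtain ⟨k, -, hk⟩ := hζ.eq_pow_of_pow_eq_one hw
    exact ⟨k, hk⟩
  refine ⟨h66u_le_Kur K n, (hV q K n hn).1, hφ.1, ?_, ?_, ?_, hn⟩
  · -- normality
    intro g hg s hs
    rw [h66u_mem_GK_Kur] at hs ⊢
    refine ⟨Subgroup.mul_mem _ (Subgroup.mul_mem _ hg hs.1) (Subgroup.inv_mem _ hg), ?_⟩
    intro w hw
    have h1 : (g⁻¹ w) ^ (N ^ n - 1) = 1 := by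
      rw [← map_pow, hw, map_one]
    rw [AlgEquiv.mul_apply, AlgEquiv.mul_apply, hs.2 _ h1, ← AlgEquiv.mul_apply,
      mul_inv_cancel, AlgEquiv.one_apply]
  · -- generation
    intro g hg
    obtain ⟨i, hi, hgζ⟩ := h66u_exists_of_fix (N := N) hn (ζ := ζ) (g := g)
      (fun j => h66u_apply_of_mem_GK hg (hcoeffK j))
    refine ⟨i, hi, ?_⟩
    rw [h66u_mem_GK_Kur]
    refine ⟨Subgroup.mul_mem _ (Subgroup.inv_mem _ (Subgroup.pow_mem _ hφ.1 i)) hg, ?_⟩
    intro w hw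
    obtain ⟨k, rfl⟩ := hpowζ w hw
    rw [AlgEquiv.mul_apply, map_pow, hgζ, ← hfrobζ i, ← map_pow, ← AlgEquiv.mul_apply,
      inv_mul_cancel, AlgEquiv.one_apply]
  · -- order
    intro i hi0 hin hmem
    rw [h66u_mem_GK_Kur] at hmem
    have h1 : ζ ^ (N ^ i) = ζ ^ 1 := by
      rw [pow_one, ← hfrobζ i]
      exact hmem.2 ζ hζM
    have h3 : N ^ i < N ^ n := Nat.pow_lt_pow_right (by omega) hin
    have h4 : 2 ≤ N ^ i := by
      calc 2 ≤ N := h2N
        _ = N ^ 1 := (pow_one N).symm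
        _ ≤ N ^ i := Nat.pow_le_pow_right (by omega) hi0
    have h6 : N ^ i * 2 ≤ N ^ n :=
      calc N ^ i * 2 ≤ N ^ i * N := Nat.mul_le_mul_left _ h2N
        _ = N ^ (i + 1) := (pow_succ N i).symm
        _ ≤ N ^ n := Nat.pow_le_pow_right (by omega) hin
    have h5 : N ^ i = 1 := hζ.pow_inj (by omega) (by omega) h1
    omega

end Fermat.Agent.PT.Loc
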