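import Mathlib
import Fermat.Agent.PT.Loc.Basic
import Fermat.Agent.PT.Loc.Iface
import Fermat.Agent.PT.Loc.H66URCyc

/-!
# W3-PT / PT-LOC, block UR (helper66): the residue field of `Om q` and roots of unity

Toolkit for the unramified block.  `O = h66v_O q` is the closed unit ball of `Om q = PadicAlgCl q`,
`h66v_kk q` its residue field, `h66v_red : O →+* kk` the reduction.

* `h66v_norm_gal` : the norm is Galois invariant;
* `h66v_norm_sub_eq_one` (T0) : `‖w - w'‖ = 1` for distinct roots of unity of order prime to `q`;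
* `h66v_red_eq_zero_iff`, `h66v_red_eq_iff` : the kernel of the reduction;
* `h66v_charP` : the residue field has characteristic `q`; `h66v_frob_pow` : Frobenius;
* `h66v_exists_of_pow_eq` (I4) : every `x̄` with `x̄ ^ N = x̄` is the reduction of an element of `K`
  (`N = resCard K`);
* `h66v_red_pow_eq_of_mem` : conversely `(red a) ^ N = red a` for `a ∈ K`.
-/

set_option autoImplicit false

open scoped Classical NNReal

open Polynomial

noncomputable section

namespace Fermat.Agent.PT.Loc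

variable {q : ℕ} [Fact q.Prime]

/-! ### Norm facts -/

theorem h66v_norm_gal (σ : Gq q) (x : Om q) : ‖σ x‖ = ‖x‖ :=
  (spectralNorm_eq_of_equiv σ x).symm

theorem h66v_norm_natCast_eq_one {d : ℕ} (hd : ¬ q ∣ d) : ‖(d : Om q)‖ = 1 := by
  rw [← map_natCast (algebraMap ℚ_[q] (Om q)), PadicAlgCl.norm_extends,
    Padic.norm_natCast_eq_one_iff]
  exact (Nat.Prime.coprime_iff_not_dvd Fact.out).2 hd

theorem h66v_norm_q_lt_one : ‖(q : Om q)‖ < 1 := by
  rw [← map_natCast (algebraMap ℚ_[q] (Om q)), PadicAlgCl.norm_extends,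
    Padic.norm_natCast_lt_one_iff]

theorem h66v_norm_add_le (x y : Om q) : ‖x + y‖ ≤ max ‖x‖ ‖y‖ :=
  IsUltrametricDist.norm_add_le_max x y

theorem h66v_norm_sub_le (x y : Om q) : ‖x - y‖ ≤ max ‖x‖ ‖y‖ := by
  have := IsUltrametricDist.norm_add_le_max x (-y)
  rwa [norm_neg, ← sub_eq_add_neg] at this

theorem h66v_norm_root {w : Om q} {m : ℕ} (hm : 0 < m) (hw : w ^ m = 1) : ‖w‖ = 1 := by
  have h1 : ‖w‖ ^ m = 1 := by rw [← norm_pow, hw, norm_one]
  exact (pow_eq_one_iff_of_nonneg (norm_nonneg w) hm.ne').1 h1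

theorem h66v_norm_sum_le {ι : Type*} (s : Finset ι) (f : ι → Om q) {c : ℝ} (hc : 0 ≤ c)
    (h : ∀ i ∈ s, ‖f i‖ ≤ c) : ‖∑ i ∈ s, f i‖ ≤ c := by
  induction s using Finset.induction_on with
  | empty => simpa using hc
  | insert a s ha ih =>
    rw [Finset.sum_insert ha]
    exact le_trans (h66v_norm_add_le _ _)
      (max_le (h a (Finset.mem_insert_self a s))
        (ih fun i hi => h i (Finset.mem_insert_of_mem hi)))

/-- **(T0)** distinct roots of unity of order prime to `q` are not congruent. -/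
theorem h66v_norm_one_sub_eq_one {u : Om q} {d : ℕ} (hd : 0 < d) (hqd : ¬ q ∣ d)
    (hu : u ^ d = 1) (hne : u ≠ 1) : ‖1 - u‖ = 1 := by
  have hu0 : u ≠ 0 := by
    rintro rfl
    rw [zero_pow hd.ne'] at hu
    exact zero_ne_one hu
  have hfin : IsOfFinOrder u := isOfFinOrder_iff_pow_eq_one.2 ⟨d, hd, hu⟩
  have hprim : IsPrimitiveRoot u (orderOf u) := IsPrimitiveRoot.orderOf u
  have hopos : 0 < orderOf u := hfin.orderOf_pos
  have hodvd : orderOf u ∣ d := orderOf_dvd_of_pow_eq_one hu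
  have hqo : ¬ q ∣ orderOf u := fun h => hqd (h.trans hodvd)
  have ho1 : orderOf u ≠ 1 := fun h => hne (orderOf_eq_one_iff.1 h)
  obtain ⟨e, he⟩ : ∃ e, orderOf u = e + 2 := ⟨orderOf u - 2, by omega⟩
  rw [he] at hprim hqo
  have hprod := hprim.prod_one_sub_pow_eq_order
  rw [Finset.prod_range_succ'] at hprod
  have hn := congrArg norm hprod
  rw [norm_mul, zero_add, pow_one] at hn
  have hcast : ‖(((e + 1 : ℕ) : Om q) + 1)‖ = 1 := by
    have := h66v_norm_natCast_eq_one (q := q) hqo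
    rwa [show ((e + 2 : ℕ) : Om q) = ((e + 1 : ℕ) : Om q) + 1 by push_cast; ring] at this
  rw [hcast] at hn
  have hle1 : ∀ x : Om q, ‖x‖ = 1 → ‖1 - x‖ ≤ 1 := fun x hx => by
    have := h66v_norm_sub_le 1 x
    rwa [norm_one, hx, max_self] at this
  have hu1 : ‖u‖ = 1 := h66v_norm_root hd hu
  have hA : ‖∏ k ∈ Finset.range e, (1 - u ^ (k + 1 + 1))‖ ≤ 1 := by
    rw [norm_prod]
    exact Finset.prod_le_one (fun _ _ => norm_nonneg _)
      (fun k _ => hle1 _ (by rw [norm_pow, hu1, one_pow]))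
  have hB : ‖1 - u‖ ≤ 1 := hle1 u hu1
  by_contra hlt
  have hlt' : ‖1 - u‖ < 1 := lt_of_le_of_ne hB hlt
  have : ‖∏ k ∈ Finset.range e, (1 - u ^ (k + 1 + 1))‖ * ‖1 - u‖ < 1 :=
    calc ‖∏ k ∈ Finset.range e, (1 - u ^ (k + 1 + 1))‖ * ‖1 - u‖
        ≤ 1 * ‖1 - u‖ := mul_le_mul_of_nonneg_right hA (norm_nonneg _)
      _ = ‖1 - u‖ := one_mul _
      _ < 1 := hlt'
  rw [hn] at this
  exact lt_irrefl _ this

theorem h66v_norm_sub_eq_one {w w' : Om q} {m m' : ℕ} (hm : 0 < m) (hqm : ¬ q ∣ m)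
    (hw : w ^ m = 1) (hm' : 0 < m') (hqm' : ¬ q ∣ m') (hw' : w' ^ m' = 1) (hne : w ≠ w') :
    ‖w - w'‖ = 1 := by
  have hw0 : w ≠ 0 := by
    rintro rfl
    rw [zero_pow hm.ne'] at hw
    exact zero_ne_one hw
  have hq : q.Prime := Fact.out
  have hu : (w' * w⁻¹) ^ (m * m') = 1 := by
    rw [mul_pow, mul_comm m m', pow_mul, hw', one_pow, one_mul, inv_pow, mul_comm m' m, pow_mul,
      hw, one_pow, inv_one]
  have hne' : w' * w⁻¹ ≠ 1 := by
    intro h
    apply hne
    have := congrArg (· * w) h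
    simpa [hw0] using this.symm
  have hqd : ¬ q ∣ m * m' := fun h => (hq.dvd_mul.1 h).elim hqm hqm'
  have h1 := h66v_norm_one_sub_eq_one (Nat.mul_pos hm hm') hqd hu hne'
  have e : w - w' = w * (1 - w' * w⁻¹) := by
    field_simp
  rw [e, norm_mul, h1, mul_one, h66v_norm_root hm hw]

/-! ### The residue field of `Om q` -/

/-- the closed unit ball of `Om q`. -/
def h66v_O (q : ℕ) [Fact q.Prime] : ValuationSubring (Om q) :=
  (Valued.v : Valuation (Om q) ℝ≥0).valuationSubring

theorem h66v_mem_O (x : Om q) : x ∈ h66v_O q ↔ ‖x‖ ≤ 1 := by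
  rw [h66v_O, Valuation.mem_valuationSubring_iff, PadicAlgCl.valuation_def,
    ← NNReal.coe_le_coe]
  rfl

/-- the residue field of `Om q`. -/
abbrev h66v_kk (q : ℕ) [Fact q.Prime] : Type := IsLocalRing.ResidueField (h66v_O q)

/-- the reduction map. -/
def h66v_red (q : ℕ) [Fact q.Prime] : h66v_O q →+* h66v_kk q :=
  IsLocalRing.residue (h66v_O q)

theorem h66v_norm_le (x : h66v_O q) : ‖(x : Om q)‖ ≤ 1 := (h66v_mem_O _).1 x.2

theorem h66v_isUnit_iff (x : h66v_O q) : IsUnit x ↔ ‖(x : Om q)‖ = 1 := by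
  have h := (Valuation.valuationSubring.integers (Valued.v : Valuation (Om q) ℝ≥0)).isUnit_iff_valuation_eq_one
    (x := x)
  rw [show (IsUnit x ↔ ‖(x : Om q)‖ = 1) ↔ (IsUnit x ↔ (Valued.v : Valuation (Om q) ℝ≥0)
    (algebraMap (h66v_O q) (Om q) x) = 1) from by
      rw [PadicAlgCl.valuation_def, ← NNReal.coe_inj]
      rfl]
  exact h

theorem h66v_red_eq_zero_iff (x : h66v_O q) : h66v_red q x = 0 ↔ ‖(x : Om q)‖ < 1 := by
  rw [h66v_red, IsLocalRing.residue_eq_zero_iff, IsLocalRing.mem_maximalIdeal, mem_nonunits_iff,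
    h66v_isUnit_iff]
  constructor
  · intro h
    exact lt_of_le_of_ne (h66v_norm_le x) h
  · intro h
    exact h.ne

theorem h66v_red_eq_iff (x y : h66v_O q) :
    h66v_red q x = h66v_red q y ↔ ‖(x : Om q) - y‖ < 1 := by
  rw [← sub_eq_zero, ← map_sub, h66v_red_eq_zero_iff]
  rfl

theorem h66v_red_surjective : Function.Surjective (h66v_red q) :=
  IsLocalRing.residue_surjective

/-- the residue field has characteristic `q`. -/
instance h66v_charP : CharP (h66v_kk q) q := by
  rw [CharP.charP_iff_prime_eq_zero Fact.out]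
  have h : h66v_red q (q : h66v_O q) = 0 := by
    rw [h66v_red_eq_zero_iff]
    exact_mod_cast h66v_norm_q_lt_one (q := q)
  rwa [map_natCast] at h

/-- the `f`-fold Frobenius of the residue field. -/
def h66v_Fr (q : ℕ) [Fact q.Prime] (f : ℕ) : h66v_kk q →+* h66v_kk q :=
  iterateFrobenius (h66v_kk q) q f

theorem h66v_Fr_apply (f : ℕ) (x : h66v_kk q) : h66v_Fr q f x = x ^ q ^ f :=
  iterateFrobenius_def _ _ _

/-- an element of norm `≤ 1` as an element of the unit ball. -/
def h66v_mk (x : Om q) (hx : ‖x‖ ≤ 1) : h66v_O q := ⟨x, (h66v_mem_O x).2 hx⟩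

@[simp] theorem h66v_mk_coe (x : Om q) (hx : ‖x‖ ≤ 1) : ((h66v_mk x hx : h66v_O q) : Om q) = x :=
  rfl

/-! ### The residue field of `K` inside the residue field of `Om q` -/

theorem h66v_two_le_resCard (hT : LFTeich) (K : LF q) [FiniteDimensional ℚ_[q] K] :
    2 ≤ resCard K := by
  obtain ⟨-, ⟨f, hf, hN⟩, -, -, -⟩ := hT q K
  have := h66u_two_le_pow (q := q) Fact.out hf hN one_pos
  rwa [pow_one] at this

/-- **(I4)** an element `x̄` of the residue field with `x̄ ^ N = x̄` is the reduction of an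
element of `K` (a Teichmüller representative). -/
theorem h66v_exists_of_pow_eq (hT : LFTeich) (K : LF q) [FiniteDimensional ℚ_[q] K]
    (x : h66v_kk q) (hx : x ^ resCard K = x) :
    ∃ t : h66v_O q, (t : Om q) ∈ K ∧ h66v_red q t = x := by
  have h2 := h66v_two_le_resCard hT K
  by_cases hx0 : x = 0
  · exact ⟨0, K.zero_mem, by rw [map_zero, hx0]⟩
  have hpos : 0 < resCard K - 1 := by omega
  have hx1 : x ^ (resCard K - 1) = 1 := by
    have h : x ^ (resCard K - 1) * x = 1 * x := by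
      rw [← pow_succ, Nat.sub_add_cancel (by omega), hx, one_mul]
    exact mul_right_cancel₀ hx0 h
  have : NeZero (((resCard K - 1 : ℕ)) : Om q) := ⟨by exact_mod_cast hpos.ne'⟩
  obtain ⟨ω, hω⟩ := HasEnoughRootsOfUnity.exists_primitiveRoot (Om q) (resCard K - 1)
  have hω1 : ‖ω‖ ≤ 1 := (h66v_norm_root hpos hω.pow_eq_one).le
  have hωO : IsPrimitiveRoot (h66v_mk ω hω1) (resCard K - 1) :=
    IsPrimitiveRoot.of_map_of_injective (f := (h66v_O q).subtype) hω Subtype.val_injective
  have hprod := Polynomial.X_pow_sub_one_eq_prod hpos hωO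
  have hev := congrArg (fun p => (p.map (h66v_red q)).eval x) hprod
  simp only [Polynomial.map_sub, Polynomial.map_pow, Polynomial.map_X, Polynomial.map_one,
    Polynomial.eval_sub, Polynomial.eval_pow, Polynomial.eval_X, Polynomial.eval_one,
    Polynomial.map_prod, Polynomial.eval_prod, Polynomial.map_C, Polynomial.eval_C] at hev
  rw [hx1, sub_self] at hev
  obtain ⟨w, hw, hw0⟩ := Finset.prod_eq_zero_iff.1 hev.symm
  rw [Polynomial.mem_nthRootsFinset hpos] at hw
  refine ⟨w, ?_, (sub_eq_zero.1 hw0).symm⟩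
  have hwK : (w : Om q) ^ (resCard K - 1) = 1 := by
    have := congrArg (fun z : h66v_O q => (z : Om q)) hw
    simpa using this
  exact (h66u_mem_muPrime_of_pow hT K hwK).1

/-- conversely, the reduction of an element of `K` is fixed by `x ↦ x ^ N`. -/
theorem h66v_red_pow_of_mem (hT : LFTeich) (K : LF q) [FiniteDimensional ℚ_[q] K]
    (a : h66v_O q) (ha : (a : Om q) ∈ K) : h66v_red q a ^ resCard K = h66v_red q a := by
  have h2 := h66v_two_le_resCard hT K
  obtain ⟨-, -, hpow, hteich, -⟩ := hT q K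
  rcases lt_or_eq_of_le (h66v_norm_le a) with hlt | heq
  · rw [(h66v_red_eq_zero_iff a).2 hlt, zero_pow (by omega)]
  · obtain ⟨w, hw, hwa⟩ := hteich a ha heq
    have hw1 : w ^ (resCard K - 1) = 1 := hpow w hw
    have hwn : ‖w‖ ≤ 1 := (h66v_norm_root (by omega) hw1).le
    have e : h66v_red q a = h66v_red q (h66v_mk w hwn) := (h66v_red_eq_iff _ _).2 hwa
    have hwO : (h66v_mk w hwn) ^ resCard K = h66v_mk w hwn := by
      apply Subtype.ext
      change w ^ resCard K = w
      have e2 : resCard K = (resCard K - 1) + 1 := by omega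
      rw [e2, pow_succ, hw1, one_mul]
    rw [e, ← map_pow, hwO]

end Fermat.Agent.PT.Loc
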