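import Mathlib
import Fermat.Agent.PT.Loc.Basic
import Fermat.Agent.PT.Loc.Iface
import Fermat.Agent.PT.Loc.H66URCyc
import Fermat.Agent.PT.Loc.H66Res

/-!
# W3-PT / PT-LOC, block UR (helper66): conjugates of roots of unity of order prime to `q`

`N = resCard K`, `ζ ^ (N ^ n - 1) = 1`.

* `h66v_cyc N n z = ∏_{i < n} (X - z ^ (N ^ i))` over any commutative ring, invariant under
  `z ↦ z ^ N` when `z ^ (N ^ n) = z`;
* `h66v_conj` **(T3)** : every `g ∈ G_K` maps `ζ` to `ζ ^ (N ^ i)` for some `i < n`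
  (from `LFTeich` alone);
* `h66v_cyc_coeff_mem` **(D)** : the coefficients of `h66v_cyc N n ζ` lie in `K`;
* `h66v_urCyc_gen` : the field `IsCyc.gen` of `URCyc`, from `LFTeich` alone.
-/

set_option autoImplicit false

open scoped Classical NNReal

open Polynomial

noncomputable section

namespace Fermat.Agent.PT.Loc

/-! ### The polynomial `∏_{i < n} (X - z ^ (N ^ i))` -/

section Cyc

variable {R S : Type*} [CommRing R] [CommRing S]

/-- `∏_{i < n} (X - z ^ (N ^ i))`. -/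
def h66v_cyc (N n : ℕ) (z : R) : R[X] := ∏ i ∈ Finset.range n, (X - C (z ^ (N ^ i)))

theorem h66v_cyc_eval (N n : ℕ) (z x : R) :
    (h66v_cyc N n z).eval x = ∏ i ∈ Finset.range n, (x - z ^ (N ^ i)) := by
  simp [h66v_cyc, Polynomial.eval_prod]

theorem h66v_cyc_eval_self (N n : ℕ) (hn : 0 < n) (z : R) : (h66v_cyc N n z).eval z = 0 := by
  rw [h66v_cyc_eval]
  apply Finset.prod_eq_zero (Finset.mem_range.2 hn)
  simp

theorem h66v_cyc_map (f : R →+* S) (N n : ℕ) (z : R) :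
    (h66v_cyc N n z).map f = h66v_cyc N n (f z) := by
  rw [h66v_cyc, h66v_cyc, Polynomial.map_prod]
  refine Finset.prod_congr rfl (fun i _ => ?_)
  rw [Polynomial.map_sub, Polynomial.map_X, Polynomial.map_C, map_pow]

theorem h66v_cyc_monic (N n : ℕ) (z : R) : (h66v_cyc N n z).Monic :=
  Polynomial.monic_prod_of_monic _ _ (fun _ _ => Polynomial.monic_X_sub_C _)

theorem h66v_cyc_natDegree_le (N n : ℕ) (z : R) : (h66v_cyc N n z).natDegree ≤ n := by
  rw [h66v_cyc]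
  refine le_trans (Polynomial.natDegree_prod_le _ _) ?_
  calc ∑ i ∈ Finset.range n, (X - C (z ^ (N ^ i)) : R[X]).natDegree
      ≤ ∑ _i ∈ Finset.range n, 1 :=
        Finset.sum_le_sum (fun i _ => Polynomial.natDegree_X_sub_C_le _)
    _ = n := by simp

/-- invariance under `z ↦ z ^ N`. -/
theorem h66v_cyc_pow {N n : ℕ} {z : R} (h : z ^ (N ^ n) = z) :
    h66v_cyc N n (z ^ N) = h66v_cyc N n z := by
  have e : h66v_cyc N n (z ^ N) = ∏ i ∈ Finset.range n, (X - C (z ^ (N ^ (i + 1)))) := by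
    rw [h66v_cyc]
    refine Finset.prod_congr rfl (fun i _ => ?_)
    rw [← pow_mul, ← pow_succ']
  rw [e]
  cases n with
  | zero => simp [h66v_cyc]
  | succ m =>
    rw [h66v_cyc, Finset.prod_range_succ, Finset.prod_range_succ' (fun i => X - C (z ^ (N ^ i))),
      h, pow_zero, pow_one]

theorem h66v_cyc_pow_pow {N n : ℕ} {z : R} (h : z ^ (N ^ n) = z) (k : ℕ) :
    h66v_cyc N n (z ^ (N ^ k)) = h66v_cyc N n z := by
  induction k with
  | zero => rw [pow_zero, pow_one]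
  | succ k ih =>
    have h' : (z ^ (N ^ k)) ^ (N ^ n) = z ^ (N ^ k) := by
      rw [← pow_mul, mul_comm, pow_mul, h]
    rw [pow_succ, pow_mul, h66v_cyc_pow h', ih]

end Cyc

/-! ### (T3): the conjugates of a root of unity -/

variable {q : ℕ} [Fact q.Prime]

theorem h66v_coe_sum {ι : Type*} (s : Finset ι) (f : ι → h66v_O q) :
    ((∑ i ∈ s, f i : h66v_O q) : Om q) = ∑ i ∈ s, (f i : Om q) :=
  map_sum (h66v_O q).subtype f s

theorem h66v_coe_pow (x : h66v_O q) (k : ℕ) : ((x ^ k : h66v_O q) : Om q) = (x : Om q) ^ k :=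
  map_pow (h66v_O q).subtype x k

theorem h66v_coe_mul (x y : h66v_O q) : ((x * y : h66v_O q) : Om q) = (x : Om q) * (y : Om q) :=
  map_mul (h66v_O q).subtype x y

theorem h66v_red_pow_card (f : ℕ) {N : ℕ} (hN : N = q ^ f) (x : h66v_kk q) :
    h66v_Fr q f x = x ^ N := by
  rw [h66v_Fr_apply, hN]

/-- a polynomial over the residue field whose coefficients are fixed by `x ↦ x ^ N` is the
reduction of a polynomial with coefficients in `K`: there are `t j ∈ O ∩ K` with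
`red (∑ t j x ^ j) = p(red x)`. -/
theorem h66v_exists_lift (hT : LFTeich) (K : LF q) [FiniteDimensional ℚ_[q] K]
    (p : (h66v_kk q)[X]) (hp : ∀ j, p.coeff j ^ resCard K = p.coeff j) :
    ∃ t : ℕ → h66v_O q, (∀ j, (t j : Om q) ∈ K) ∧ (∀ j, h66v_red q (t j) = p.coeff j) ∧
      ∀ (d : ℕ), p.natDegree < d → ∀ x : h66v_O q,
        h66v_red q (∑ j ∈ Finset.range d, t j * x ^ j) = p.eval (h66v_red q x) := by
  choose t ht1 ht2 using fun j => h66v_exists_of_pow_eq hT K (p.coeff j) (hp j)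
  refine ⟨t, ht1, ht2, fun d hd x => ?_⟩
  rw [Polynomial.eval_eq_sum_range' hd, map_sum]
  refine Finset.sum_congr rfl (fun j _ => ?_)
  rw [map_mul, map_pow, ht2]

/-- the coefficients of `h66v_cyc N n z` over the residue field are fixed by `x ↦ x ^ N`. -/
theorem h66v_cyc_coeff_pow (f : ℕ) {N : ℕ} (hN : N = q ^ f) (n : ℕ) {z : h66v_kk q}
    (hzN : z ^ (N ^ n) = z) (j : ℕ) :
    (h66v_cyc N n z).coeff j ^ N = (h66v_cyc N n z).coeff j := by
  have h1 : (h66v_cyc N n z).map (h66v_Fr q f) = h66v_cyc N n z := by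
    rw [h66v_cyc_map, h66v_red_pow_card f hN, h66v_cyc_pow hzN]
  have h3 : ((h66v_cyc N n z).map (h66v_Fr q f)).coeff j = (h66v_cyc N n z).coeff j := by
    rw [h1]
  rw [Polynomial.coeff_map, h66v_red_pow_card f hN] at h3
  exact h3

/-- the action of `g ∈ G_K` on a polynomial expression with coefficients in `K`. -/
theorem h66v_gal_sum {K : LF q} {g : Gq q} (hg : g ∈ GK K) (t : ℕ → h66v_O q)
    (htK : ∀ j, (t j : Om q) ∈ K) (d : ℕ) (x y : h66v_O q) (hxy : (y : Om q) = g (x : Om q)) :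
    ((∑ j ∈ Finset.range d, t j * y ^ j : h66v_O q) : Om q) =
      g ((∑ j ∈ Finset.range d, t j * x ^ j : h66v_O q) : Om q) := by
  rw [h66v_coe_sum, h66v_coe_sum, map_sum]
  refine Finset.sum_congr rfl (fun j _ => ?_)
  rw [h66v_coe_mul, h66v_coe_mul, h66v_coe_pow, h66v_coe_pow, map_mul, map_pow,
    h66u_apply_of_mem_GK hg (htK j), hxy]

/-- residue form of (T3). -/
theorem h66v_conj_red (hT : LFTeich) (K : LF q) [FiniteDimensional ℚ_[q] K] (n : ℕ)
    (hn : 0 < n) (x y : h66v_O q) (hx : x ^ (resCard K ^ n) = x) {g : Gq q} (hg : g ∈ GK K)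
    (hxy : (y : Om q) = g (x : Om q)) :
    ∃ i, i < n ∧ h66v_red q y = h66v_red q (x ^ (resCard K ^ i)) := by
  obtain ⟨-, ⟨f, hf, hN⟩, -, -, -⟩ := hT q K
  have hzN : h66v_red q x ^ (resCard K ^ n) = h66v_red q x := by rw [← map_pow, hx]
  obtain ⟨t, htK, -, hteval⟩ := h66v_exists_lift hT K (h66v_cyc (resCard K) n (h66v_red q x))
    (h66v_cyc_coeff_pow f hN n hzN)
  have hdeg : (h66v_cyc (resCard K) n (h66v_red q x)).natDegree < n + 1 :=
    Nat.lt_succ_of_le (h66v_cyc_natDegree_le _ n _)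
  have hy : ‖((∑ j ∈ Finset.range (n + 1), t j * x ^ j : h66v_O q) : Om q)‖ < 1 := by
    rw [← h66v_red_eq_zero_iff, hteval (n + 1) hdeg x]
    exact h66v_cyc_eval_self _ n hn _
  have hgy' : ‖((∑ j ∈ Finset.range (n + 1), t j * y ^ j : h66v_O q) : Om q)‖ < 1 := by
    rw [h66v_gal_sum hg t htK (n + 1) x y hxy, h66v_norm_gal]
    exact hy
  have h0 : (h66v_cyc (resCard K) n (h66v_red q x)).eval (h66v_red q y) = 0 := by
    rw [← hteval (n + 1) hdeg y]
    exact (h66v_red_eq_zero_iff _).2 hgy'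
  rw [h66v_cyc_eval, Finset.prod_eq_zero_iff] at h0
  obtain ⟨i, hi, hi0⟩ := h0
  refine ⟨i, Finset.mem_range.1 hi, ?_⟩
  rw [map_pow]
  exact sub_eq_zero.1 hi0

/-- **(T3)** every `g ∈ G_K` maps a root of unity `ζ` with `ζ ^ (N ^ n - 1) = 1` to
`ζ ^ (N ^ i)` for some `i < n`. -/
theorem h66v_conj (hT : LFTeich) (K : LF q) [FiniteDimensional ℚ_[q] K] (n : ℕ) (hn : 0 < n)
    {ζ : Om q} (hζ : ζ ^ (resCard K ^ n - 1) = 1) {g : Gq q} (hg : g ∈ GK K) :
    ∃ i, i < n ∧ g ζ = ζ ^ (resCard K ^ i) := by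
  have hq : q.Prime := Fact.out
  obtain ⟨-, ⟨f, hf, hN⟩, -, -, -⟩ := hT q K
  have h2 : 2 ≤ resCard K ^ n := h66u_two_le_pow hq hf hN hn
  have hMpos : 0 < resCard K ^ n - 1 := by omega
  have hqM : ¬ q ∣ resCard K ^ n - 1 := h66u_not_dvd_pred hq hf hN hn
  have hζ1 : ‖ζ‖ ≤ 1 := (h66v_norm_root hMpos hζ).le
  have hζN : ζ ^ (resCard K ^ n) = ζ := by
    have e : resCard K ^ n = (resCard K ^ n - 1) + 1 := by omega
    rw [e, pow_succ, hζ, one_mul]
  have hgζ1 : ‖g ζ‖ ≤ 1 := by rw [h66v_norm_gal]; exact hζ1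
  have hζON : h66v_mk ζ hζ1 ^ (resCard K ^ n) = h66v_mk ζ hζ1 := by
    apply Subtype.ext
    rw [h66v_coe_pow]
    exact hζN
  obtain ⟨i, hi, hred⟩ := h66v_conj_red hT K n hn (h66v_mk ζ hζ1) (h66v_mk (g ζ) hgζ1)
    hζON hg rfl
  refine ⟨i, hi, ?_⟩
  have h5 : ‖g ζ - ζ ^ (resCard K ^ i)‖ < 1 := by
    have := (h66v_red_eq_iff _ _).1 hred
    rwa [h66v_coe_pow] at this
  by_contra hne
  have h6 : (g ζ) ^ (resCard K ^ n - 1) = 1 := by rw [← map_pow, hζ, map_one]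
  have h7 : (ζ ^ (resCard K ^ i)) ^ (resCard K ^ n - 1) = 1 := by
    rw [← pow_mul, mul_comm, pow_mul, hζ, one_pow]
  have h8 := h66v_norm_sub_eq_one hMpos hqM h6 hMpos hqM h7 hne
  rw [h8] at h5
  exact lt_irrefl _ h5

/-! ### (D): the coefficients of `∏ (X - ζ ^ (N ^ i))` lie in `K` -/

theorem h66v_pow_pow_eq_self (hT : LFTeich) (K : LF q) [FiniteDimensional ℚ_[q] K] (n : ℕ)
    (hn : 0 < n) {ζ : Om q} (hζ : ζ ^ (resCard K ^ n - 1) = 1) :
    ζ ^ (resCard K ^ n) = ζ := by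
  obtain ⟨-, ⟨f, hf, hN⟩, -, -, -⟩ := hT q K
  have h2 : 2 ≤ resCard K ^ n := h66u_two_le_pow (q := q) Fact.out hf hN hn
  have e : resCard K ^ n = (resCard K ^ n - 1) + 1 := by omega
  rw [e, pow_succ, hζ, one_mul]

theorem h66v_mem_of_fixed (K : LF q) {x : Om q} (h : ∀ g ∈ GK K, g x = x) : x ∈ K := by
  have h1 : x ∈ IntermediateField.fixedField (GK K) := by
    rw [IntermediateField.mem_fixedField_iff]
    exact h
  rwa [InfiniteGalois.fixedField_fixingSubgroup] at h1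

/-- **(D)** the coefficients of `∏_{i < n} (X - ζ ^ (N ^ i))` lie in `K`. -/
theorem h66v_cyc_coeff_mem (hT : LFTeich) (K : LF q) [FiniteDimensional ℚ_[q] K] (n : ℕ)
    (hn : 0 < n) {ζ : Om q} (hζ : ζ ^ (resCard K ^ n - 1) = 1) (j : ℕ) :
    (h66v_cyc (resCard K) n ζ).coeff j ∈ K := by
  apply h66v_mem_of_fixed
  intro g hg
  obtain ⟨i, -, hgζ⟩ := h66v_conj hT K n hn hζ hg
  have hmap : (h66v_cyc (resCard K) n ζ).map (h66u_rh g) = h66v_cyc (resCard K) n ζ := by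
    rw [h66v_cyc_map, h66u_rh_apply, hgζ, h66v_cyc_pow_pow (h66v_pow_pow_eq_self hT K n hn hζ)]
  have h3 : ((h66v_cyc (resCard K) n ζ).map (h66u_rh g)).coeff j =
      (h66v_cyc (resCard K) n ζ).coeff j := by rw [hmap]
  rwa [Polynomial.coeff_map, h66u_rh_apply] at h3

/-! ### `Kur K n` is finite dimensional -/

theorem h66v_finite_roots {M : ℕ} (hM : 0 < M) : {w : Om q | w ^ M = 1}.Finite := by
  refine (Polynomial.nthRootsFinset M (1 : Om q)).finite_toSet.subset ?_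
  intro w hw
  exact (Polynomial.mem_nthRootsFinset hM 1).2 hw

theorem h66v_finiteDimensional_Kur (hT : LFTeich) (K : LF q) [FiniteDimensional ℚ_[q] K]
    (n : ℕ) (hn : 0 < n) : FiniteDimensional ℚ_[q] (Kur K n) := by
  obtain ⟨-, ⟨f, hf, hN⟩, -, -, -⟩ := hT q K
  have h2 : 2 ≤ resCard K ^ n := h66u_two_le_pow (q := q) Fact.out hf hN hn
  have hMpos : 0 < resCard K ^ n - 1 := by omega
  have : Finite {w : Om q | w ^ (resCard K ^ n - 1) = 1} :=
    (h66v_finite_roots hMpos).to_subtype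
  have : FiniteDimensional ℚ_[q]
      (IntermediateField.adjoin ℚ_[q] {w : Om q | w ^ (resCard K ^ n - 1) = 1}) :=
    IntermediateField.finiteDimensional_adjoin (fun x _ => Algebra.IsIntegral.isIntegral x)
  exact IntermediateField.finiteDimensional_sup K _

/-! ### `URCyc` from `LFTeich` alone -/

/-- **UR-CYC** from `LFTeich` alone. -/
theorem h66v_urCyc (hT : LFTeich) : URCyc := by
  intro q _ K _ n φ hn hφ
  have hq : q.Prime := Fact.out
  obtain ⟨-, ⟨f, hf, hN⟩, -, -, -⟩ := hT q K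
  have h2N : 2 ≤ resCard K := h66v_two_le_resCard hT K
  have h2 : 2 ≤ resCard K ^ n := h66u_two_le_pow hq hf hN hn
  have hMpos : 0 < resCard K ^ n - 1 := by omega
  have hqM : ¬ q ∣ resCard K ^ n - 1 := h66u_not_dvd_pred hq hf hN hn
  have : NeZero ((resCard K ^ n - 1 : ℕ) : Om q) := ⟨by exact_mod_cast hMpos.ne'⟩
  obtain ⟨ζ, hζ⟩ := HasEnoughRootsOfUnity.exists_primitiveRoot (Om q) (resCard K ^ n - 1)
  have hζM : ζ ^ (resCard K ^ n - 1) = 1 := hζ.pow_eq_one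
  have hfrobζ : ∀ i, (φ ^ i) ζ = ζ ^ (resCard K ^ i) := fun i =>
    h66u_frob_pow hφ i ζ (resCard K ^ n - 1) hMpos hqM hζM
  have hpowζ : ∀ w : Om q, w ^ (resCard K ^ n - 1) = 1 → ∃ k : ℕ, ζ ^ k = w := by
    intro w hw
    have : NeZero (resCard K ^ n - 1) := ⟨hMpos.ne'⟩
    obtain ⟨k, -, hk⟩ := hζ.eq_pow_of_pow_eq_one hw
    exact ⟨k, hk⟩
  refine ⟨h66u_le_Kur K n, h66v_finiteDimensional_Kur hT K n hn, hφ.1, ?_, ?_, ?_, hn⟩
  · -- normality
    intro g hg s hs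
    rw [h66u_mem_GK_Kur] at hs ⊢
    refine ⟨Subgroup.mul_mem _ (Subgroup.mul_mem _ hg hs.1) (Subgroup.inv_mem _ hg), ?_⟩
    intro w hw
    have h1 : (g⁻¹ w) ^ (resCard K ^ n - 1) = 1 := by
      rw [← map_pow, hw, map_one]
    rw [AlgEquiv.mul_apply, AlgEquiv.mul_apply, hs.2 _ h1, ← AlgEquiv.mul_apply,
      mul_inv_cancel, AlgEquiv.one_apply]
  · -- generation
    intro g hg
    obtain ⟨i, hi, hgζ⟩ := h66v_conj hT K n hn hζM hg
    refine ⟨i, hi, ?_⟩
    rw [h66u_mem_GK_Kur]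
    refine ⟨Subgroup.mul_mem _ (Subgroup.inv_mem _ (Subgroup.pow_mem _ hφ.1 i)) hg, ?_⟩
    intro w hw
    obtain ⟨k, rfl⟩ := hpowζ w hw
    rw [AlgEquiv.mul_apply, map_pow, hgζ, ← hfrobζ i, ← map_pow, ← AlgEquiv.mul_apply,
      inv_mul_cancel, AlgEquiv.one_apply]
  · -- order
    intro i hi0 hin hmem
    rw [h66u_mem_GK_Kur] at hmem
    have h1 : ζ ^ (resCard K ^ i) = ζ ^ 1 := by
      rw [pow_one, ← hfrobζ i]
      exact hmem.2 ζ hζM
    have h3 : resCard K ^ i < resCard K ^ n := Nat.pow_lt_pow_right (by omega) hin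
    have h4 : 2 ≤ resCard K ^ i := by
      calc 2 ≤ resCard K := h2N
        _ = resCard K ^ 1 := (pow_one _).symm
        _ ≤ resCard K ^ i := Nat.pow_le_pow_right (by omega) hi0
    have h6 : resCard K ^ i * 2 ≤ resCard K ^ n :=
      calc resCard K ^ i * 2 ≤ resCard K ^ i * resCard K := Nat.mul_le_mul_left _ h2N
        _ = resCard K ^ (i + 1) := (pow_succ _ i).symm
        _ ≤ resCard K ^ n := Nat.pow_le_pow_right (by omega) hin
    have h5 : resCard K ^ i = 1 := hζ.pow_inj (by omega) (by omega) h1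
    omega

end Fermat.Agent.PT.Loc
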