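import Mathlib
import Fermat.Agent.PT.Loc.Basic
import Fermat.Agent.PT.Loc.Iface
import Fermat.Agent.PT.Loc.H66URCyc
import Fermat.Agent.PT.Loc.H66Res
import Fermat.Agent.PT.Loc.H66URConj

/-!
# W3-PT / PT-LOC, leaf UR-VAL (helper66, second seat): `Kur K n / K` is unramified

`h66v_urVal : LFTeich → URVal`.

`N = resCard K`, `M = N ^ n - 1`, `ζ` a primitive `M`-th root of unity.

* **(V)** `‖∑_{j < n} a_j ζ ^ j‖ = max ‖a_j‖` for `a_j ∈ K` : the reduction of a normalised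
  combination is a nonzero polynomial of degree `< n` with coefficients fixed by Frobenius,
  which cannot vanish at the `n` distinct points `ζ̄ ^ (N ^ i)`;
* **(R)** every element of `Kur K n` is `∑_{j < n} a_j ζ ^ j` with `a_j ∈ K`;
* the roots of unity of order prime to `q` in `Kur K n` are the `M`-th roots of unity.
-/

set_option autoImplicit false

open scoped Classical NNReal

open Polynomial

noncomputable section

namespace Fermat.Agent.PT.Loc

variable {q : ℕ} [Fact q.Prime]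

/-! ### Frobenius and polynomials over the residue field -/

/-- if the coefficients of `p` are fixed by `x ↦ x ^ N` (`N = q ^ f`), the roots of `p` are
stable under `x ↦ x ^ N`. -/
theorem h66v_eval_pow_eq_zero (f : ℕ) {N : ℕ} (hN : N = q ^ f) (p : (h66v_kk q)[X])
    (hp : ∀ j, p.coeff j ^ N = p.coeff j) {x : h66v_kk q} (hx : p.eval x = 0) :
    p.eval (x ^ N) = 0 := by
  have hmap : p.map (h66v_Fr q f) = p := by
    ext j
    rw [Polynomial.coeff_map, h66v_red_pow_card f hN, hp j]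
  have h1 : (p.map (h66v_Fr q f)).eval (h66v_Fr q f x) = h66v_Fr q f (p.eval x) := by
    rw [Polynomial.eval_map, Polynomial.eval₂_at_apply]
  rw [hmap, hx, map_zero, h66v_red_pow_card f hN] at h1
  exact h1

theorem h66v_eval_pow_pow_eq_zero (f : ℕ) {N : ℕ} (hN : N = q ^ f) (p : (h66v_kk q)[X])
    (hp : ∀ j, p.coeff j ^ N = p.coeff j) {x : h66v_kk q} (hx : p.eval x = 0) (i : ℕ) :
    p.eval (x ^ (N ^ i)) = 0 := by
  induction i with
  | zero => rwa [pow_zero, pow_one]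
  | succ i ih =>
    rw [pow_succ, pow_mul]
    exact h66v_eval_pow_eq_zero f hN p hp ih

/-! ### The conjugates `ζ ^ (N ^ i)`, `i < n`, are distinct modulo the maximal ideal -/

theorem h66v_pow_lt {N n i : ℕ} (hN : 2 ≤ N) (hn : 2 ≤ n) (hi : i < n) : N ^ i < N ^ n - 1 := by
  have h1 : N ^ i ≤ N ^ (n - 1) := Nat.pow_le_pow_right (by omega) (by omega)
  have h2 : 2 ≤ N ^ (n - 1) :=
    calc 2 ≤ N := hN
      _ = N ^ 1 := (pow_one N).symm
      _ ≤ N ^ (n - 1) := Nat.pow_le_pow_right (by omega) (by omega)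
  have h3 : N ^ (n - 1) * 2 ≤ N ^ n :=
    calc N ^ (n - 1) * 2 ≤ N ^ (n - 1) * N := Nat.mul_le_mul_left _ hN
      _ = N ^ (n - 1 + 1) := (pow_succ N (n - 1)).symm
      _ = N ^ n := by rw [Nat.sub_add_cancel (by omega)]
  omega

theorem h66v_red_pow_injOn (hT : LFTeich) (K : LF q) [FiniteDimensional ℚ_[q] K] (n : ℕ)
    (hn : 0 < n) {ζ : Om q} (hζ : IsPrimitiveRoot ζ (resCard K ^ n - 1)) (ζO : h66v_O q)
    (hζO : (ζO : Om q) = ζ) :
    Set.InjOn (fun i : ℕ => h66v_red q ζO ^ (resCard K ^ i)) (Finset.range n : Set ℕ) := by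
  have hq : q.Prime := Fact.out
  obtain ⟨-, ⟨f, hf, hN⟩, -, -, -⟩ := hT q K
  have h2N : 2 ≤ resCard K := h66v_two_le_resCard hT K
  have h2 : 2 ≤ resCard K ^ n := h66u_two_le_pow hq hf hN hn
  have hMpos : 0 < resCard K ^ n - 1 := by omega
  have hqM : ¬ q ∣ resCard K ^ n - 1 := h66u_not_dvd_pred hq hf hN hn
  intro i hi j hj hij
  rw [Finset.coe_range, Set.mem_Iio] at hi hj
  by_contra hne
  have hn2 : 2 ≤ n := by omega
  have h1 : h66v_red q (ζO ^ (resCard K ^ i)) = h66v_red q (ζO ^ (resCard K ^ j)) := by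
    rw [map_pow, map_pow]
    exact hij
  have h3 : ‖ζ ^ (resCard K ^ i) - ζ ^ (resCard K ^ j)‖ < 1 := by
    have := (h66v_red_eq_iff _ _).1 h1
    rwa [h66v_coe_pow, h66v_coe_pow, hζO] at this
  have hpow : ∀ k, (ζ ^ k) ^ (resCard K ^ n - 1) = 1 := fun k => by
    rw [← pow_mul, mul_comm, pow_mul, hζ.pow_eq_one, one_pow]
  have h4 : ζ ^ (resCard K ^ i) = ζ ^ (resCard K ^ j) := by
    by_contra h
    have := h66v_norm_sub_eq_one hMpos hqM (hpow _) hMpos hqM (hpow _) h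
    rw [this] at h3
    exact lt_irrefl _ h3
  have h5 : resCard K ^ i = resCard K ^ j :=
    hζ.pow_inj (h66v_pow_lt h2N hn2 hi) (h66v_pow_lt h2N hn2 hj) h4
  exact hne (Nat.pow_right_injective h2N h5)

/-! ### (V): the norm of a combination `∑ a_j ζ ^ j` -/

/-- the reduction polynomial `∑_{j < n} red (a j) X ^ j`. -/
def h66v_redPoly (n : ℕ) (a : ℕ → h66v_O q) : (h66v_kk q)[X] :=
  ∑ j ∈ Finset.range n, C (h66v_red q (a j)) * X ^ j

theorem h66v_redPoly_coeff (n : ℕ) (a : ℕ → h66v_O q) (k : ℕ) :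
    (h66v_redPoly n a).coeff k = if k < n then h66v_red q (a k) else 0 := by
  rw [h66v_redPoly, Polynomial.finsetSum_coeff]
  simp only [Polynomial.coeff_C_mul_X_pow]
  rw [Finset.sum_ite_eq (Finset.range n) k (fun j => h66v_red q (a j))]
  simp only [Finset.mem_range]

theorem h66v_redPoly_eval (n : ℕ) (a : ℕ → h66v_O q) (x : h66v_O q) :
    (h66v_redPoly n a).eval (h66v_red q x) =
      h66v_red q (∑ j ∈ Finset.range n, a j * x ^ j) := by
  rw [h66v_redPoly, Polynomial.eval_finsetSum, map_sum]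
  refine Finset.sum_congr rfl (fun j _ => ?_)
  rw [Polynomial.eval_mul, Polynomial.eval_C, Polynomial.eval_pow, Polynomial.eval_X, map_mul,
    map_pow]

theorem h66v_redPoly_degree_lt (n : ℕ) (a : ℕ → h66v_O q) :
    (h66v_redPoly n a).degree < n := by
  rw [Polynomial.degree_lt_iff_coeff_zero]
  intro m hm
  rw [h66v_redPoly_coeff, if_neg (by omega)]

theorem h66v_coe_comb (n : ℕ) (a : ℕ → h66v_O q) (x : h66v_O q) :
    ((∑ j ∈ Finset.range n, a j * x ^ j : h66v_O q) : Om q) =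
      ∑ j ∈ Finset.range n, (a j : Om q) * (x : Om q) ^ j := by
  rw [h66v_coe_sum]
  refine Finset.sum_congr rfl (fun j _ => ?_)
  rw [h66v_coe_mul, h66v_coe_pow]

/-- **(V0)** a combination `∑_{j < n} a_j ζ ^ j` with coefficients in `O ∩ K`, one of which is a
unit, is a unit. -/
theorem h66v_norm_comb_eq_one (hT : LFTeich) (K : LF q) [FiniteDimensional ℚ_[q] K] (n : ℕ)
    (hn : 0 < n) {ζ : Om q} (hζ : IsPrimitiveRoot ζ (resCard K ^ n - 1))
    (a : ℕ → h66v_O q) (haK : ∀ j, (a j : Om q) ∈ K) {j₁ : ℕ} (hj₁ : j₁ < n)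
    (h1 : ‖(a j₁ : Om q)‖ = 1) :
    ‖∑ j ∈ Finset.range n, (a j : Om q) * ζ ^ j‖ = 1 := by
  have hq : q.Prime := Fact.out
  obtain ⟨-, ⟨f, hf, hN⟩, -, -, -⟩ := hT q K
  have h2 : 2 ≤ resCard K ^ n := h66u_two_le_pow hq hf hN hn
  have hMpos : 0 < resCard K ^ n - 1 := by omega
  have hζ1 : ‖ζ‖ ≤ 1 := (h66v_norm_root hMpos hζ.pow_eq_one).le
  have hcoe := h66v_coe_comb n a (h66v_mk ζ hζ1)
  rw [h66v_mk_coe] at hcoe
  rw [← hcoe]
  by_contra hne
  have hlt : ‖((∑ j ∈ Finset.range n, a j * (h66v_mk ζ hζ1) ^ j : h66v_O q) : Om q)‖ < 1 :=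
    lt_of_le_of_ne (h66v_norm_le _) hne
  have hev : (h66v_redPoly n a).eval (h66v_red q (h66v_mk ζ hζ1)) = 0 := by
    rw [h66v_redPoly_eval]
    exact (h66v_red_eq_zero_iff _).2 hlt
  have hfix : ∀ k, (h66v_redPoly n a).coeff k ^ resCard K = (h66v_redPoly n a).coeff k := by
    intro k
    rw [h66v_redPoly_coeff]
    split_ifs
    · exact h66v_red_pow_of_mem hT K (a k) (haK k)
    · exact zero_pow (by have := h66v_two_le_resCard hT K; omega)
  have hzero : h66v_redPoly n a = 0 := by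
    refine Polynomial.eq_zero_of_degree_lt_of_eval_index_eq_zero
      (v := fun i : ℕ => h66v_red q (h66v_mk ζ hζ1) ^ (resCard K ^ i)) (Finset.range n)
      (h66v_red_pow_injOn hT K n hn hζ (h66v_mk ζ hζ1) rfl) ?_ ?_
    · rw [Finset.card_range]
      exact h66v_redPoly_degree_lt n a
    · intro i _
      exact h66v_eval_pow_pow_eq_zero f hN _ hfix hev i
  have hc : (h66v_redPoly n a).coeff j₁ = 0 := by rw [hzero, Polynomial.coeff_zero]
  rw [h66v_redPoly_coeff, if_pos hj₁, h66v_red_eq_zero_iff, h1] at hc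
  exact lt_irrefl _ hc

/-- **(V)** `‖∑_{j < n} a_j ζ ^ j‖ = max_j ‖a_j‖` for `a_j ∈ K`. -/
theorem h66v_norm_comb (hT : LFTeich) (K : LF q) [FiniteDimensional ℚ_[q] K] (n : ℕ)
    (hn : 0 < n) {ζ : Om q} (hζ : IsPrimitiveRoot ζ (resCard K ^ n - 1))
    (a : ℕ → Om q) (haK : ∀ j, a j ∈ K) :
    ∃ j₀, j₀ < n ∧ ‖∑ j ∈ Finset.range n, a j * ζ ^ j‖ = ‖a j₀‖ ∧
      ∀ j, j < n → ‖a j‖ ≤ ‖a j₀‖ := by
  obtain ⟨j₀, hj₀, hmax⟩ := Finset.exists_max_image (Finset.range n) (fun j => ‖a j‖)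
    ⟨0, Finset.mem_range.2 hn⟩
  rw [Finset.mem_range] at hj₀
  have hmax' : ∀ j, j < n → ‖a j‖ ≤ ‖a j₀‖ := fun j hj => hmax j (Finset.mem_range.2 hj)
  refine ⟨j₀, hj₀, ?_, hmax'⟩
  by_cases h0 : a j₀ = 0
  · have hall : ∀ j ∈ Finset.range n, a j * ζ ^ j = 0 := by
      intro j hj
      have h1 := hmax j hj
      simp only [h0, norm_zero] at h1
      rw [norm_le_zero_iff.1 h1, zero_mul]
    rw [Finset.sum_eq_zero hall, h0]
  · have hpos : 0 < ‖a j₀‖ := norm_pos_iff.2 h0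
    set c : ℕ → Om q := fun j => if j < n then a j / a j₀ else 0 with hc
    have hc1 : ∀ j, ‖c j‖ ≤ 1 := by
      intro j
      simp only [hc]
      split_ifs with hj
      · rw [norm_div, div_le_one hpos]
        exact hmax' j hj
      · simp
    have hcK : ∀ j, c j ∈ K := by
      intro j
      simp only [hc]
      split_ifs
      · exact K.div_mem (haK j) (haK j₀)
      · exact K.zero_mem
    have hcj₀ : ‖c j₀‖ = 1 := by
      simp only [hc, if_pos hj₀, div_self h0, norm_one]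
    have h1 := h66v_norm_comb_eq_one hT K n hn hζ (fun j => h66v_mk (c j) (hc1 j))
      (fun j => hcK j) hj₀ hcj₀
    simp only [h66v_mk_coe] at h1
    have h2 : ∑ j ∈ Finset.range n, c j * ζ ^ j =
        (∑ j ∈ Finset.range n, a j * ζ ^ j) / a j₀ := by
      rw [Finset.sum_div]
      refine Finset.sum_congr rfl (fun j hj => ?_)
      simp only [hc, if_pos (Finset.mem_range.1 hj)]
      ring
    rw [h2, norm_div, div_eq_one_iff_eq hpos.ne'] at h1
    exact h1

/-! ### (R): elements of `Kur K n` as combinations `∑_{j < n} a_j ζ ^ j` -/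

/-- a monic polynomial of degree `≤ n` over `K` vanishing at `ζ`. -/
theorem h66v_exists_monic (hT : LFTeich) (K : LF q) [FiniteDimensional ℚ_[q] K] (n : ℕ)
    (hn : 0 < n) {ζ : Om q} (hζ : ζ ^ (resCard K ^ n - 1) = 1) :
    ∃ P : Polynomial K, P.Monic ∧ P.natDegree ≤ n ∧ Polynomial.aeval ζ P = 0 := by
  have hl : h66v_cyc (resCard K) n ζ ∈ Polynomial.lifts (algebraMap K (Om q)) := by
    rw [Polynomial.lifts_iff_coeff_lifts]
    intro j
    exact ⟨⟨_, h66v_cyc_coeff_mem hT K n hn hζ j⟩, rfl⟩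
  obtain ⟨P, hP1, hP2, hP3⟩ :=
    Polynomial.lifts_and_natDegree_eq_and_monic hl (h66v_cyc_monic _ n ζ)
  refine ⟨P, hP3, ?_, ?_⟩
  · rw [hP2]
    exact h66v_cyc_natDegree_le _ n ζ
  · rw [Polynomial.aeval_def, ← Polynomial.eval_map, hP1]
    exact h66v_cyc_eval_self _ n hn ζ

/-- `Kur K n ⊆ K(ζ)` for a primitive root `ζ`. -/
theorem h66v_Kur_le_adjoin (hT : LFTeich) (K : LF q) [FiniteDimensional ℚ_[q] K] (n : ℕ)
    (hn : 0 < n) {ζ : Om q} (hζ : IsPrimitiveRoot ζ (resCard K ^ n - 1)) {x : Om q}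
    (hx : x ∈ Kur K n) : x ∈ IntermediateField.adjoin K {ζ} := by
  obtain ⟨-, ⟨f, hf, hN⟩, -, -, -⟩ := hT q K
  have h2 : 2 ≤ resCard K ^ n := h66u_two_le_pow (q := q) Fact.out hf hN hn
  have hMpos : 0 < resCard K ^ n - 1 := by omega
  have hle : Kur K n ≤ (IntermediateField.adjoin K {ζ}).restrictScalars ℚ_[q] := by
    refine sup_le ?_ ?_
    · intro y hy
      exact (IntermediateField.adjoin K {ζ}).algebraMap_mem ⟨y, hy⟩
    · rw [IntermediateField.adjoin_le_iff]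
      intro w hw
      have : NeZero (resCard K ^ n - 1) := ⟨hMpos.ne'⟩
      obtain ⟨k, -, rfl⟩ := hζ.eq_pow_of_pow_eq_one hw
      exact pow_mem (IntermediateField.mem_adjoin_simple_self K ζ) k
  exact hle hx

/-- **(R)** every element of `Kur K n` is `∑_{j < n} a_j ζ ^ j` with `a_j ∈ K`. -/
theorem h66v_exists_comb (hT : LFTeich) (K : LF q) [FiniteDimensional ℚ_[q] K] (n : ℕ)
    (hn : 0 < n) {ζ : Om q} (hζ : IsPrimitiveRoot ζ (resCard K ^ n - 1)) {x : Om q}
    (hx : x ∈ Kur K n) :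
    ∃ a : ℕ → Om q, (∀ j, a j ∈ K) ∧ x = ∑ j ∈ Finset.range n, a j * ζ ^ j := by
  obtain ⟨P, hPm, hPd, hPζ⟩ := h66v_exists_monic hT K n hn hζ.pow_eq_one
  have hint : IsIntegral K ζ := ⟨P, hPm, hPζ⟩
  have h1 : x ∈ (IntermediateField.adjoin K {ζ}).toSubalgebra :=
    h66v_Kur_le_adjoin hT K n hn hζ hx
  rw [IntermediateField.adjoin_simple_toSubalgebra_of_isAlgebraic hint.isAlgebraic,
    Algebra.adjoin_singleton_eq_range_aeval] at h1
  obtain ⟨p, hp⟩ := h1
  have hP1 : P ≠ 1 := by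
    intro h
    rw [h, map_one] at hPζ
    exact one_ne_zero hPζ
  have hdeg : (p %ₘ P).natDegree < n :=
    lt_of_lt_of_le (Polynomial.natDegree_modByMonic_lt p hPm hP1) hPd
  have hval : Polynomial.aeval ζ (p %ₘ P) = x := by
    rw [Polynomial.aeval_modByMonic_eq_self_of_root hPζ]
    exact hp
  refine ⟨fun j => (((p %ₘ P).coeff j : K) : Om q), fun j => Subtype.mem _, ?_⟩
  rw [← hval, Polynomial.aeval_eq_sum_range' hdeg]
  refine Finset.sum_congr rfl (fun j _ => ?_)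
  rw [Algebra.smul_def]
  rfl

/-! ### The roots of unity of order prime to `q` in `Kur K n` -/

theorem h66v_eval_pow (f : ℕ) {N : ℕ} (hN : N = q ^ f) (p : (h66v_kk q)[X])
    (hp : ∀ j, p.coeff j ^ N = p.coeff j) (x : h66v_kk q) :
    p.eval x ^ N = p.eval (x ^ N) := by
  have hmap : p.map (h66v_Fr q f) = p := by
    ext j
    rw [Polynomial.coeff_map, h66v_red_pow_card f hN, hp j]
  have h1 : (p.map (h66v_Fr q f)).eval (h66v_Fr q f x) = h66v_Fr q f (p.eval x) := by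
    rw [Polynomial.eval_map, Polynomial.eval₂_at_apply]
  rw [hmap, h66v_red_pow_card f hN, h66v_red_pow_card f hN] at h1
  exact h1.symm

theorem h66v_eval_pow_pow (f : ℕ) {N : ℕ} (hN : N = q ^ f) (p : (h66v_kk q)[X])
    (hp : ∀ j, p.coeff j ^ N = p.coeff j) (x : h66v_kk q) (i : ℕ) :
    p.eval x ^ (N ^ i) = p.eval (x ^ (N ^ i)) := by
  induction i with
  | zero => rw [pow_zero, pow_one, pow_one]
  | succ i ih =>
    rw [pow_succ, pow_mul, ih, h66v_eval_pow f hN p hp, ← pow_mul]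

/-- a root of unity of order prime to `q` in `Kur K n` is an `(N ^ n - 1)`-th root of unity. -/
theorem h66v_pow_eq_one_of_mem_Kur (hT : LFTeich) (K : LF q) [FiniteDimensional ℚ_[q] K]
    (n : ℕ) (hn : 0 < n) {w : Om q} (hw : w ∈ Kur K n) {m : ℕ} (hm : 0 < m) (hqm : ¬ q ∣ m)
    (hwm : w ^ m = 1) : w ^ (resCard K ^ n - 1) = 1 := by
  have hq : q.Prime := Fact.out
  obtain ⟨-, ⟨f, hf, hN⟩, -, -, -⟩ := hT q K
  have h2 : 2 ≤ resCard K ^ n := h66u_two_le_pow hq hf hN hn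
  have hMpos : 0 < resCard K ^ n - 1 := by omega
  have : NeZero ((resCard K ^ n - 1 : ℕ) : Om q) := ⟨by exact_mod_cast hMpos.ne'⟩
  obtain ⟨ζ, hζ⟩ := HasEnoughRootsOfUnity.exists_primitiveRoot (Om q) (resCard K ^ n - 1)
  have hζ1 : ‖ζ‖ ≤ 1 := (h66v_norm_root hMpos hζ.pow_eq_one).le
  have hw1 : ‖w‖ = 1 := h66v_norm_root hm hwm
  have hw0 : w ≠ 0 := by
    intro h
    rw [h, norm_zero] at hw1
    exact zero_ne_one hw1
  obtain ⟨a, haK, hwa⟩ := h66v_exists_comb hT K n hn hζ hw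
  obtain ⟨j₀, -, hnorm, hmax⟩ := h66v_norm_comb hT K n hn hζ a haK
  rw [← hwa, hw1] at hnorm
  set c : ℕ → Om q := fun j => if j < n then a j else 0 with hc
  have hc1 : ∀ j, ‖c j‖ ≤ 1 := by
    intro j
    simp only [hc]
    split_ifs with hj
    · rw [hnorm]
      exact hmax j hj
    · simp
  have hcK : ∀ j, c j ∈ K := by
    intro j
    simp only [hc]
    split_ifs
    · exact haK j
    · exact K.zero_mem
  set b : ℕ → h66v_O q := fun j => h66v_mk (c j) (hc1 j) with hb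
  set ζO : h66v_O q := h66v_mk ζ hζ1 with hζO
  have hcoe : ((∑ j ∈ Finset.range n, b j * ζO ^ j : h66v_O q) : Om q) = w := by
    rw [h66v_coe_comb, hwa]
    refine Finset.sum_congr rfl (fun j hj => ?_)
    simp only [hb, hζO, h66v_mk_coe, hc, if_pos (Finset.mem_range.1 hj)]
  have hfix : ∀ k, (h66v_redPoly n b).coeff k ^ resCard K = (h66v_redPoly n b).coeff k := by
    intro k
    rw [h66v_redPoly_coeff]
    split_ifs
    · exact h66v_red_pow_of_mem hT K (b k) (hcK k)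
    · exact zero_pow (by have := h66v_two_le_resCard hT K; omega)
  have hzN : h66v_red q ζO ^ (resCard K ^ n) = h66v_red q ζO := by
    rw [← map_pow]
    congr 1
    apply Subtype.ext
    rw [h66v_coe_pow]
    exact h66v_pow_pow_eq_self hT K n hn hζ.pow_eq_one
  have hred : h66v_red q ((∑ j ∈ Finset.range n, b j * ζO ^ j) ^ (resCard K ^ n)) =
      h66v_red q (∑ j ∈ Finset.range n, b j * ζO ^ j) := by
    rw [map_pow, ← h66v_redPoly_eval, h66v_eval_pow_pow f hN _ hfix, hzN]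
  have hlt : ‖w ^ (resCard K ^ n) - w‖ < 1 := by
    have := (h66v_red_eq_iff _ _).1 hred
    rwa [h66v_coe_pow, hcoe] at this
  have heq : w ^ (resCard K ^ n) = w := by
    by_contra hne
    have h3 : (w ^ (resCard K ^ n)) ^ m = 1 := by
      rw [← pow_mul, mul_comm, pow_mul, hwm, one_pow]
    have := h66v_norm_sub_eq_one hm hqm h3 hm hqm hwm hne
    rw [this] at hlt
    exact lt_irrefl _ hlt
  have e : resCard K ^ n = (resCard K ^ n - 1) + 1 := by omega
  rw [e, pow_succ] at heq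
  exact mul_right_cancel₀ hw0 (heq.trans (one_mul w).symm)

theorem h66v_muPrime_Kur (hT : LFTeich) (K : LF q) [FiniteDimensional ℚ_[q] K]
    (n : ℕ) (hn : 0 < n) :
    muPrime (Kur K n) = {w : Om q | w ^ (resCard K ^ n - 1) = 1} := by
  have hq : q.Prime := Fact.out
  obtain ⟨-, ⟨f, hf, hN⟩, -, -, -⟩ := hT q K
  have h2 : 2 ≤ resCard K ^ n := h66u_two_le_pow hq hf hN hn
  have hMpos : 0 < resCard K ^ n - 1 := by omega
  have hqM : ¬ q ∣ resCard K ^ n - 1 := h66u_not_dvd_pred hq hf hN hn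
  ext w
  constructor
  · rintro ⟨hw, m, hm, hqm, hwm⟩
    exact h66v_pow_eq_one_of_mem_Kur hT K n hn hw hm hqm hwm
  · intro hw
    exact ⟨h66u_mem_Kur_of_pow K n hw, resCard K ^ n - 1, hMpos, hqM, hw⟩

theorem h66v_resCard_Kur (hT : LFTeich) (K : LF q) [FiniteDimensional ℚ_[q] K]
    (n : ℕ) (hn : 0 < n) : resCard (Kur K n) = resCard K ^ n := by
  have hq : q.Prime := Fact.out
  obtain ⟨-, ⟨f, hf, hN⟩, -, -, -⟩ := hT q K
  have h2 : 2 ≤ resCard K ^ n := h66u_two_le_pow hq hf hN hn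
  have hMpos : 0 < resCard K ^ n - 1 := by omega
  have : NeZero ((resCard K ^ n - 1 : ℕ) : Om q) := ⟨by exact_mod_cast hMpos.ne'⟩
  obtain ⟨ζ, hζ⟩ := HasEnoughRootsOfUnity.exists_primitiveRoot (Om q) (resCard K ^ n - 1)
  have hset : muPrime (Kur K n) =
      ((Polynomial.nthRootsFinset (resCard K ^ n - 1) (1 : Om q) : Finset (Om q)) :
        Set (Om q)) := by
    rw [h66v_muPrime_Kur hT K n hn]
    ext w
    rw [Finset.mem_coe, Polynomial.mem_nthRootsFinset hMpos]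
    rfl
  have hcard : Nat.card (muPrime (Kur K n)) = resCard K ^ n - 1 := by
    rw [hset, Nat.card_coe_set_eq, Set.ncard_coe_finset, hζ.card_nthRootsFinset]
  change Nat.card (muPrime (Kur K n)) + 1 = resCard K ^ n
  rw [hcard]
  omega

/-! ### The main theorem -/

/-- **UR-VAL.**  `Kur K n / K` is unramified: finite, same value group, residue field of
cardinality `N ^ n`. -/
theorem h66v_urVal (hT : LFTeich) : URVal := by
  intro q _ K _ n hn
  refine ⟨h66v_finiteDimensional_Kur hT K n hn, ?_, h66v_resCard_Kur hT K n hn⟩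
  intro x hx
  have hq : q.Prime := Fact.out
  obtain ⟨-, ⟨f, hf, hN⟩, -, -, -⟩ := hT q K
  have h2 : 2 ≤ resCard K ^ n := h66u_two_le_pow hq hf hN hn
  have hMpos : 0 < resCard K ^ n - 1 := by omega
  have : NeZero ((resCard K ^ n - 1 : ℕ) : Om q) := ⟨by exact_mod_cast hMpos.ne'⟩
  obtain ⟨ζ, hζ⟩ := HasEnoughRootsOfUnity.exists_primitiveRoot (Om q) (resCard K ^ n - 1)
  obtain ⟨a, haK, hxa⟩ := h66v_exists_comb hT K n hn hζ hx
  obtain ⟨j₀, -, hnorm, -⟩ := h66v_norm_comb hT K n hn hζ a haK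
  exact ⟨a j₀, haK j₀, by rw [hxa, hnorm]⟩

end Fermat.Agent.PT.Loc
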