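import Mathlib
import Fermat.Agent.PT.Loc.Iface

/-!
# W3-PT / PT-LOC, block UR (helper36): foundations

* the ambient norm of `Om q = PadicAlgCl q` is ultrametric and Galois invariant;
* `h36u_B q` : the unit ball of `Om q` (a subring), `h36u_Q q` : the open unit ball (a prime
  ideal of the unit ball), the residue ring `h36u_B q ⧸ h36u_Q q` has characteristic `q`;
* roots of unity of order prime to `q` have norm one and are separated by the reduction.
-/

set_option autoImplicit false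
set_option linter.style.haveILetI false

open scoped Classical

noncomputable section

namespace Fermat.Agent.PT.Loc

variable {q : ℕ} [Fact q.Prime]

/-! ### The norm -/

theorem h36u_norm_add_le (x y : Om q) : ‖x + y‖ ≤ max ‖x‖ ‖y‖ :=
  IsUltrametricDist.norm_add_le_max x y

theorem h36u_norm_sub_le (x y : Om q) : ‖x - y‖ ≤ max ‖x‖ ‖y‖ := by
  have := h36u_norm_add_le x (-y)
  rwa [norm_neg, ← sub_eq_add_neg] at this

/-- the ambient norm is Galois invariant. -/
theorem h36u_norm_aut (σ : Gq q) (x : Om q) : ‖σ x‖ = ‖x‖ := by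
  rw [← PadicAlgCl.spectralNorm_eq, ← PadicAlgCl.spectralNorm_eq]
  exact (spectralNorm_eq_of_equiv σ x).symm

theorem h36u_norm_natCast_lt_one_iff (n : ℕ) : ‖(n : Om q)‖ < 1 ↔ q ∣ n := by
  have h : ((n : ℚ_[q]) : Om q) = (n : Om q) := map_natCast (algebraMap ℚ_[q] (Om q)) n
  rw [← h, PadicAlgCl.norm_extends]
  exact Padic.norm_natCast_lt_one_iff

theorem h36u_norm_natCast_le_one (n : ℕ) : ‖(n : Om q)‖ ≤ 1 := by
  have h : ((n : ℚ_[q]) : Om q) = (n : Om q) := map_natCast (algebraMap ℚ_[q] (Om q)) n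
  rw [← h, PadicAlgCl.norm_extends]
  exact_mod_cast Padic.norm_int_le_one (n : ℤ)

theorem h36u_norm_natCast_eq_one {n : ℕ} (hn : ¬ q ∣ n) : ‖(n : Om q)‖ = 1 := by
  refine le_antisymm (h36u_norm_natCast_le_one n) ?_
  by_contra h
  exact hn ((h36u_norm_natCast_lt_one_iff n).1 (not_le.mp h))

/-- a root of unity has norm one. -/
theorem h36u_norm_eq_one_of_pow {w : Om q} {k : ℕ} (hk : 0 < k) (hw : w ^ k = 1) : ‖w‖ = 1 := by
  have h : ‖w‖ ^ k = 1 := by rw [← norm_pow, hw, norm_one]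
  exact (pow_eq_one_iff_of_nonneg (norm_nonneg w) hk.ne').mp h

/-- **separation**: two roots of unity of order dividing `k`, `q ∤ k`, which are congruent modulo
the open unit ball are equal. -/
theorem h36u_eq_of_norm_sub_lt {x y : Om q} {k : ℕ} (hk : 0 < k) (hqk : ¬ q ∣ k)
    (hx : x ^ k = 1) (hy : y ^ k = 1) (hxy : ‖x - y‖ < 1) : x = y := by
  by_contra hne
  have hy0 : y ≠ 0 := by
    rintro rfl
    rw [zero_pow hk.ne'] at hy
    exact zero_ne_one hy
  have hny : ‖y‖ = 1 := h36u_norm_eq_one_of_pow hk hy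
  set u : Om q := x / y with hu
  have hu1 : u ≠ 1 := by
    intro h
    apply hne
    rw [hu, div_eq_one_iff_eq hy0] at h
    exact h
  have huk : u ^ k = 1 := by rw [hu, div_pow, hx, hy, div_one]
  have hnu : ‖u - 1‖ < 1 := by
    have e : u - 1 = (x - y) / y := by rw [hu]; field_simp
    rw [e, norm_div, hny, div_one]
    exact hxy
  -- the geometric sum vanishes
  have hgeo : ∑ i ∈ Finset.range k, u ^ i = 0 := by
    have h := mul_geom_sum u k
    rw [huk, sub_self] at h
    rcases mul_eq_zero.mp h with h1 | h1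
    · exact absurd (sub_eq_zero.mp h1) hu1
    · exact h1
  -- but it is congruent to `k`
  have hpow : ∀ i : ℕ, ‖u ^ i - 1‖ < 1 := by
    intro i
    induction i with
    | zero => simp
    | succ i ih =>
      have e : u ^ (i + 1) - 1 = u ^ i * (u - 1) + (u ^ i - 1) := by ring
      rw [e]
      refine lt_of_le_of_lt (h36u_norm_add_le _ _) (max_lt ?_ ih)
      rw [norm_mul]
      have hui : ‖u ^ i‖ ≤ 1 := by
        have : ‖u ^ i‖ = ‖(u ^ i - 1) + 1‖ := by ring_nf
        rw [this]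
        refine (h36u_norm_add_le _ _).trans (max_le ih.le ?_)
        rw [norm_one]
      calc ‖u ^ i‖ * ‖u - 1‖ ≤ 1 * ‖u - 1‖ :=
            mul_le_mul_of_nonneg_right hui (norm_nonneg _)
        _ = ‖u - 1‖ := one_mul _
        _ < 1 := hnu
  have hsum : ∀ n : ℕ, ‖∑ i ∈ Finset.range n, u ^ i - (n : Om q)‖ < 1 := by
    intro n
    induction n with
    | zero => simp
    | succ n ih =>
      have e : ∑ i ∈ Finset.range (n + 1), u ^ i - ((n + 1 : ℕ) : Om q) =
          (∑ i ∈ Finset.range n, u ^ i - (n : Om q)) + (u ^ n - 1) := by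
        rw [Finset.sum_range_succ]
        push_cast
        ring
      rw [e]
      exact lt_of_le_of_lt (h36u_norm_add_le _ _) (max_lt ih (hpow n))
  have hk1 := hsum k
  rw [hgeo, zero_sub, norm_neg, h36u_norm_natCast_eq_one hqk] at hk1
  exact lt_irrefl _ hk1

/-! ### The unit ball and its maximal ideal -/

/-- the unit ball of `Om q`. -/
def h36u_B (q : ℕ) [Fact q.Prime] : Subring (Om q) where
  carrier := {x | ‖x‖ ≤ 1}
  mul_mem' := fun {a b} ha hb => by
    show ‖a * b‖ ≤ 1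
    rw [norm_mul]
    exact mul_le_one₀ ha (norm_nonneg b) hb
  one_mem' := by show ‖(1 : Om q)‖ ≤ 1; rw [norm_one]
  add_mem' := fun {a b} ha hb => (h36u_norm_add_le a b).trans (max_le ha hb)
  zero_mem' := by show ‖(0 : Om q)‖ ≤ 1; rw [norm_zero]; exact zero_le_one
  neg_mem' := fun {a} ha => by show ‖-a‖ ≤ 1; rw [norm_neg]; exact ha

theorem h36u_mem_B {x : Om q} : x ∈ h36u_B q ↔ ‖x‖ ≤ 1 := Iff.rfl

/-- the open unit ball, an ideal of the unit ball. -/
def h36u_Q (q : ℕ) [Fact q.Prime] : Ideal (h36u_B q) where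
  carrier := {b | ‖(b : Om q)‖ < 1}
  add_mem' := fun {a b} ha hb => lt_of_le_of_lt (h36u_norm_add_le _ _) (max_lt ha hb)
  zero_mem' := by show ‖((0 : h36u_B q) : Om q)‖ < 1; simp
  smul_mem' := fun c x hx => by
    show ‖((c * x : h36u_B q) : Om q)‖ < 1
    push_cast
    rw [norm_mul]
    calc ‖(c : Om q)‖ * ‖(x : Om q)‖ ≤ 1 * ‖(x : Om q)‖ :=
          mul_le_mul_of_nonneg_right c.2 (norm_nonneg _)
      _ = ‖(x : Om q)‖ := one_mul _
      _ < 1 := hx

theorem h36u_mem_Q {b : h36u_B q} : b ∈ h36u_Q q ↔ ‖(b : Om q)‖ < 1 := Iff.rfl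

instance h36u_Q_isPrime : (h36u_Q q).IsPrime := by
  refine ⟨?_, ?_⟩
  · rw [Ideal.ne_top_iff_one, h36u_mem_Q]
    simp
  · intro a b hab
    rw [h36u_mem_Q] at hab
    by_contra h
    rw [not_or, h36u_mem_Q, h36u_mem_Q, not_lt, not_lt] at h
    have ha : ‖(a : Om q)‖ = 1 := le_antisymm a.2 h.1
    have hb : ‖(b : Om q)‖ = 1 := le_antisymm b.2 h.2
    have : ‖((a * b : h36u_B q) : Om q)‖ = 1 := by
      push_cast
      rw [norm_mul, ha, hb, one_mul]
    rw [this] at hab
    exact lt_irrefl _ hab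

/-- congruence modulo the open unit ball. -/
theorem h36u_mk_eq_mk_iff (a b : h36u_B q) :
    Ideal.Quotient.mk (h36u_Q q) a = Ideal.Quotient.mk (h36u_Q q) b ↔
      ‖(a : Om q) - (b : Om q)‖ < 1 := by
  rw [Ideal.Quotient.eq, h36u_mem_Q]
  rfl

/-- the residue ring has characteristic `q`. -/
instance h36u_charP : CharP (h36u_B q ⧸ h36u_Q q) q := by
  refine ⟨fun n => ?_⟩
  rw [← map_natCast (Ideal.Quotient.mk (h36u_Q q)), Ideal.Quotient.eq_zero_iff_mem, h36u_mem_Q]
  push_cast
  exact h36u_norm_natCast_lt_one_iff n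

end Fermat.Agent.PT.Loc
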