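import Mathlib
import Fermat.Agent.PT.Loc.Iface

/-!
# W3-PT / PT-LOC, leaf NI-DICH (helper74)

`h74n_nidich_of : LFUnif → LFTeich → LFImm → URFrob → URCyc → NIDich`:
a cyclic extension `K₁/K` of prime degree `p` is either `Kur K p` or totally ramified
(same residue cardinality, `‖ϖ‖ ^ p = ‖π‖`).

Auxiliary facts proved here (Mathlib + `Loc/Basic` only):
* `h74n_mem_of_fixed`, `h74n_le_of_GK_le` : Galois correspondence inside `PadicAlgCl q`;
* `h74n_sigma_n`, `h74n_pow_mem` : `g ^ n ∈ G_{K₁}` for `g ∈ G_K` when `IsCyc K K₁ n σ`;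
* `h74n_between` : no proper intermediate field in a cyclic extension of prime degree;
* `h74n_norm_map`, `h74n_norm_normAlong` : Galois invariance of the norm, `‖N β‖ = ‖β‖ ^ n`;
* `h74n_normAlong_mem` : `normAlong σ n β ∈ K` for `β ∈ K₁`;
* `h74n_roots` : under `LFTeich`, `muPrime K` is exactly the set of `(N - 1)`-th roots of unity.
-/

set_option autoImplicit false

open scoped Classical

noncomputable section

namespace Fermat.Agent.PT.Loc

variable {q : ℕ} [Fact q.Prime]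

/-! ## Galois correspondence -/

/-- An element fixed by `G_K` lies in `K`. -/
theorem h74n_mem_of_fixed (K : LF q) (x : Om q) (hx : ∀ g ∈ GK K, g x = x) : x ∈ K := by
  have h := InfiniteGalois.fixedField_fixingSubgroup (k := ℚ_[q]) (K := PadicAlgCl q) K
  rw [← h]
  exact (IntermediateField.mem_fixedField_iff _ _).2 hx

/-- `G_K ≤ G_L` implies `L ≤ K`. -/
theorem h74n_le_of_GK_le {K L : LF q} (h : GK K ≤ GK L) : L ≤ K := by
  intro x hx
  apply h74n_mem_of_fixed
  intro g hg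
  exact (IntermediateField.mem_fixingSubgroup_iff L g).1 (h hg) x hx

/-! ## Consequences of `IsCyc` -/

section cyc

variable {K K₁ : LF q} {n : ℕ} {σ : Gq q}

theorem h74n_GK1_le (h : IsCyc K K₁ n σ) : GK K₁ ≤ GK K :=
  IntermediateField.fixingSubgroup_le h.le

theorem h74n_sigma_pow_mem_GK (h : IsCyc K K₁ n σ) (i : ℕ) : σ ^ i ∈ GK K :=
  (GK K).pow_mem h.mem i

theorem h74n_conj (h : IsCyc K K₁ n σ) {g s : Gq q} (hg : g ∈ GK K) (hs : s ∈ GK K₁) :
    g⁻¹ * s * g ∈ GK K₁ := by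
  have := h.normal g⁻¹ ((GK K).inv_mem hg) s hs
  simpa using this

theorem h74n_sigma_n (h : IsCyc K K₁ n σ) : σ ^ n ∈ GK K₁ := by
  obtain ⟨i, hi, hmem⟩ := h.gen (σ ^ n) (h74n_sigma_pow_mem_GK h n)
  rcases Nat.eq_zero_or_pos i with rfl | hipos
  · simpa using hmem
  · exfalso
    have h1 : (σ ^ i)⁻¹ * σ ^ n = σ ^ (n - i) := by
      rw [inv_mul_eq_iff_eq_mul, ← pow_add]
      congr 1
      omega
    rw [h1] at hmem
    exact h.ord (n - i) (by omega) (by omega) hmem

theorem h74n_coset_pow (h : IsCyc K K₁ n σ) {g : Gq q} (hg : g ∈ GK K) {i : ℕ}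
    (hi : (σ ^ i)⁻¹ * g ∈ GK K₁) (k : ℕ) : (σ ^ (i * k))⁻¹ * g ^ k ∈ GK K₁ := by
  induction k with
  | zero => simp
  | succ k ih =>
    have h1 : (σ ^ (i * (k + 1)))⁻¹ * g ^ (k + 1)
        = ((σ ^ i)⁻¹ * g) * (g⁻¹ * ((σ ^ (i * k))⁻¹ * g ^ k) * g) := by
      have e1 : σ ^ (i * (k + 1)) = σ ^ (i * k) * σ ^ i := by
        rw [← pow_add]; congr 1
      rw [e1, pow_succ]
      group
    rw [h1]
    exact (GK K₁).mul_mem hi (h74n_conj h hg ih)

/-- Every `n`-th power of an element of `G_K` lies in `G_{K₁}`. -/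
theorem h74n_pow_mem (h : IsCyc K K₁ n σ) {g : Gq q} (hg : g ∈ GK K) : g ^ n ∈ GK K₁ := by
  obtain ⟨i, -, hmem⟩ := h.gen g hg
  have h1 := h74n_coset_pow h hg hmem n
  have h2 : σ ^ (i * n) ∈ GK K₁ := by
    rw [mul_comm, pow_mul]
    exact (GK K₁).pow_mem (h74n_sigma_n h) i
  have h3 : g ^ n = σ ^ (i * n) * ((σ ^ (i * n))⁻¹ * g ^ n) := by group
  rw [h3]
  exact (GK K₁).mul_mem h2 h1

/-- A cyclic extension of prime degree has no proper intermediate field. -/
theorem h74n_between {p : ℕ} (hp : p.Prime) (h : IsCyc K K₁ p σ) (L : LF q)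
    (hKL : K ≤ L) (hLK₁ : L ≤ K₁) : L = K ∨ L = K₁ := by
  by_cases hσ : σ ∈ GK L
  · left
    apply le_antisymm _ hKL
    apply h74n_le_of_GK_le
    intro g hg
    obtain ⟨i, -, hmem⟩ := h.gen g hg
    have h3 : g = σ ^ i * ((σ ^ i)⁻¹ * g) := by group
    rw [h3]
    exact (GK L).mul_mem ((GK L).pow_mem hσ i) (IntermediateField.fixingSubgroup_le hLK₁ hmem)
  · right
    apply le_antisymm hLK₁
    apply h74n_le_of_GK_le
    intro g hg
    have hgK : g ∈ GK K := IntermediateField.fixingSubgroup_le hKL hg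
    obtain ⟨i, hi, hmem⟩ := h.gen g hgK
    rcases Nat.eq_zero_or_pos i with rfl | hipos
    · simpa using hmem
    · exfalso
      apply hσ
      have h1 : σ ^ i ∈ GK L := by
        have h3 : σ ^ i = g * ((σ ^ i)⁻¹ * g)⁻¹ := by group
        rw [h3]
        exact (GK L).mul_mem hg
          ((GK L).inv_mem (IntermediateField.fixingSubgroup_le hLK₁ hmem))
      have h2 : σ ^ p ∈ GK L := IntermediateField.fixingSubgroup_le hLK₁ (h74n_sigma_n h)
      have hcop : Nat.gcd i p = 1 := by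
        have : Nat.Coprime p i := Nat.coprime_of_lt_prime hipos.ne' hi hp
        exact this.symm
      have hz : σ = (σ ^ i) ^ (Nat.gcdA i p) * (σ ^ p) ^ (Nat.gcdB i p) := by
        rw [← zpow_natCast, ← zpow_natCast, ← zpow_mul, ← zpow_mul, ← zpow_add]
        have h4 := Nat.gcd_eq_gcd_ab i p
        rw [hcop] at h4
        rw [← h4]
        simp
      rw [hz]
      exact (GK L).mul_mem ((GK L).zpow_mem h1 _) ((GK L).zpow_mem h2 _)

end cyc

/-! ## Norms -/

theorem h74n_norm_map (g : Gq q) (x : Om q) : ‖g x‖ = ‖x‖ :=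
  (spectralNorm_eq_of_equiv (K := ℚ_[q]) (L := PadicAlgCl q) g x).symm

theorem h74n_norm_normAlong (σ : Gq q) (n : ℕ) (β : Om q) :
    ‖normAlong σ n β‖ = ‖β‖ ^ n := by
  unfold normAlong
  rw [norm_prod]
  have h1 : ∀ i ∈ Finset.range n, ‖(σ ^ i) β‖ = ‖β‖ := fun i _ => h74n_norm_map (σ ^ i) β
  rw [Finset.prod_congr rfl h1, Finset.prod_const, Finset.card_range]

theorem h74n_normAlong_mem {K K₁ : LF q} {n : ℕ} {σ : Gq q} (h : IsCyc K K₁ n σ)
    {β : Om q} (hβ : β ∈ K₁) : normAlong σ n β ∈ K := by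
  apply h74n_mem_of_fixed
  have hs : ∀ s ∈ GK K₁, s (normAlong σ n β) = normAlong σ n β := by
    intro s hs
    unfold normAlong
    rw [map_prod]
    apply Finset.prod_congr rfl
    intro i _
    have h1 : (σ ^ i)⁻¹ * s * σ ^ i ∈ GK K₁ := h74n_conj h (h74n_sigma_pow_mem_GK h i) hs
    have h2 := (IntermediateField.mem_fixingSubgroup_iff K₁ _).1 h1 β hβ
    have h3 : s ((σ ^ i) β) = (σ ^ i) (((σ ^ i)⁻¹ * s * σ ^ i) β) := by
      simp [AlgEquiv.mul_apply]
    rw [h3, h2]
  have hσ : σ (normAlong σ n β) = normAlong σ n β := by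
    unfold normAlong
    rw [map_prod]
    have h1 : ∀ i, σ ((σ ^ i) β) = (σ ^ (i + 1)) β := by
      intro i
      rw [pow_succ']
      rfl
    simp only [h1]
    obtain ⟨m, rfl⟩ : ∃ m, n = m + 1 := ⟨n - 1, by have := h.pos; omega⟩
    rw [Finset.prod_range_succ (fun i => (σ ^ (i + 1)) β) m,
      Finset.prod_range_succ' (fun i => (σ ^ i) β) m]
    congr 1
    have h5 : (σ ^ (m + 1)) β = β :=
      (IntermediateField.mem_fixingSubgroup_iff K₁ _).1 (h74n_sigma_n h) β hβ
    rw [h5]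
    simp
  have hpow : ∀ i : ℕ, (σ ^ i) (normAlong σ n β) = normAlong σ n β := by
    intro i
    induction i with
    | zero => simp
    | succ i ih =>
      rw [pow_succ, AlgEquiv.mul_apply, hσ, ih]
  intro g hg
  obtain ⟨i, -, hmem⟩ := h.gen g hg
  have h3 : g = σ ^ i * ((σ ^ i)⁻¹ * g) := by group
  rw [h3, AlgEquiv.mul_apply, hs _ hmem, hpow]

/-! ## Roots of unity of order prime to `q` -/

theorem h74n_muPrime_mono {K L : LF q} (h : K ≤ L) : muPrime K ⊆ muPrime L := by
  rintro w ⟨hw, m, hm, hqm, hwm⟩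
  exact ⟨h hw, m, hm, hqm, hwm⟩

/-- Under `LFTeich`: `N - 1 > 0`, `q ∤ N - 1`, and `muPrime K` is the set of all
`(N - 1)`-th roots of unity of `Om q`. -/
theorem h74n_roots (hT : LFTeich) (K : LF q) [FiniteDimensional ℚ_[q] K] :
    0 < resCard K - 1 ∧ ¬ q ∣ (resCard K - 1) ∧
      ∀ w : Om q, w ^ (resCard K - 1) = 1 ↔ w ∈ muPrime K := by
  obtain ⟨hfin, ⟨f, hf, hN⟩, hpow, -, -⟩ := hT q K
  have hq : q.Prime := Fact.out
  have hqN : q ∣ resCard K := by
    rw [hN]
    exact dvd_pow_self q hf.ne'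
  have hN2 : 2 ≤ resCard K := by
    have h1 : 0 < resCard K := by unfold resCard; omega
    exact le_trans hq.two_le (Nat.le_of_dvd h1 hqN)
  have hpos : 0 < resCard K - 1 := by omega
  have hnd : ¬ q ∣ (resCard K - 1) := by
    intro hd
    have h1 : q ∣ resCard K - (resCard K - 1) := Nat.dvd_sub hqN hd
    have h2 : resCard K - (resCard K - 1) = 1 := by omega
    rw [h2] at h1
    exact hq.one_lt.ne' (Nat.dvd_one.1 h1)
  refine ⟨hpos, hnd, ?_⟩
  have hsub : hfin.toFinset ⊆ (Polynomial.nthRoots (resCard K - 1) (1 : Om q)).toFinset := by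
    intro w hw
    rw [Set.Finite.mem_toFinset] at hw
    rw [Multiset.mem_toFinset, Polynomial.mem_nthRoots hpos]
    exact hpow w hw
  have hcard : hfin.toFinset.card = resCard K - 1 := by
    rw [← Set.ncard_eq_toFinset_card (muPrime K) hfin, ← Nat.card_coe_set_eq]
    unfold resCard
    omega
  have hle : (Polynomial.nthRoots (resCard K - 1) (1 : Om q)).toFinset.card
      ≤ hfin.toFinset.card := by
    rw [hcard]
    exact le_trans (Multiset.toFinset_card_le _) (Polynomial.card_nthRoots _ _)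
  have heq := Finset.eq_of_subset_of_card_le hsub hle
  intro w
  constructor
  · intro hw
    have h1 : w ∈ (Polynomial.nthRoots (resCard K - 1) (1 : Om q)).toFinset := by
      rw [Multiset.mem_toFinset, Polynomial.mem_nthRoots hpos]
      exact hw
    rw [← heq, Set.Finite.mem_toFinset] at h1
    exact h1
  · intro hw
    exact hpow w hw

/-- Iterating a Frobenius element on a root of unity of order prime to `q`. -/
theorem h74n_frob_pow {K : LF q} {φ : Gq q} (hφ : IsFrob K φ) {w : Om q} {m : ℕ}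
    (hm : 0 < m) (hqm : ¬ q ∣ m) (hw : w ^ m = 1) (k : ℕ) :
    (φ ^ k) w = w ^ (resCard K ^ k) := by
  induction k with
  | zero => simp
  | succ k ih =>
    rw [pow_succ', AlgEquiv.mul_apply, ih, map_pow, hφ.2 w m hm hqm hw, ← pow_mul, pow_succ']

/-! ## The dichotomy -/

/-- NI-DICH from the leaves `LFUnif`, `LFTeich`, `LFImm`, `URFrob`, `URCyc`. -/
theorem h74n_nidich_of (hU : LFUnif) (hT : LFTeich) (hI : LFImm) (hF : URFrob) (hC : URCyc) :
    NIDich := by
  intro q _ p _ K K₁ _ σ h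
  have hp : p.Prime := Fact.out
  have hfinK₁ : FiniteDimensional ℚ_[q] K₁ := h.fin
  have hσ1 : σ ∉ GK K₁ := by
    have := h.ord 1 Nat.one_pos hp.one_lt
    simpa using this
  by_cases hN : resCard K₁ = resCard K
  · -- totally ramified case
    right
    obtain ⟨⟨π, hπ⟩, hvalK⟩ := hU q K
    obtain ⟨⟨ϖ, hϖ⟩, hvalK₁⟩ := hU q K₁
    have hϖ0 : 0 < ‖ϖ‖ := norm_pos_iff.2 hϖ.2.1
    have hϖ1 : ‖ϖ‖ < 1 := hϖ.2.2.1
    obtain ⟨e, he⟩ := hvalK₁ ϖ hϖ π (h.le hπ.1) hπ.2.1
    have hb : normAlong σ p ϖ ∈ K := h74n_normAlong_mem h hϖ.1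
    have hbn : ‖normAlong σ p ϖ‖ = ‖ϖ‖ ^ p := h74n_norm_normAlong σ p ϖ
    have hb0 : normAlong σ p ϖ ≠ 0 := by
      rw [← norm_pos_iff, hbn]
      exact pow_pos hϖ0 p
    obtain ⟨m, hm⟩ := hvalK π hπ _ hb hb0
    have hem : (p : ℤ) = e * m := by
      have h1 : ‖ϖ‖ ^ (p : ℤ) = ‖ϖ‖ ^ (e * m) := by
        rw [zpow_natCast, ← hbn, hm, he, zpow_mul]
      exact zpow_right_injective₀ hϖ0 hϖ1.ne h1
    have hepos : 0 < e := by
      by_contra hcon
      have h1 : 1 ≤ ‖ϖ‖ ^ e := one_le_zpow_of_nonpos₀ hϖ0 hϖ1.le (not_lt.1 hcon)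
      rw [← he] at h1
      exact absurd hπ.2.2.1 (not_lt.2 h1)
    have hdvd : e.toNat ∣ p := by
      have h1 : e ∣ (p : ℤ) := ⟨m, hem⟩
      have h2 : ((e.toNat : ℕ) : ℤ) = e := Int.toNat_of_nonneg hepos.le
      rw [← h2] at h1
      exact_mod_cast h1
    rcases (Nat.dvd_prime hp).1 hdvd with h1 | h1
    · -- e = 1 : immediate extension, impossible
      exfalso
      have he1 : e = 1 := by
        have h2 : ((e.toNat : ℕ) : ℤ) = e := Int.toNat_of_nonneg hepos.le
        rw [h1] at h2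
        exact_mod_cast h2.symm
      rw [he1, zpow_one] at he
      have hval : ∀ x ∈ K₁, ∃ y ∈ K, ‖x‖ = ‖y‖ := by
        intro x hx
        by_cases hx0 : x = 0
        · exact ⟨0, K.zero_mem, by rw [hx0]⟩
        · obtain ⟨k, hk⟩ := hvalK₁ ϖ hϖ x hx hx0
          refine ⟨π ^ k, zpow_mem hπ.1 k, ?_⟩
          rw [norm_zpow, he, hk]
      have hle : K₁ ≤ K := hI q K K₁ h.le hval hN
      exact hσ1 (IntermediateField.fixingSubgroup_le hle h.mem)
    · have hep : e = p := by
        have h2 : ((e.toNat : ℕ) : ℤ) = e := Int.toNat_of_nonneg hepos.le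
        rw [h1] at h2
        exact h2.symm
      refine ⟨hN, ϖ, hϖ.1, π, hπ, hϖ, ?_⟩
      rw [he, hep, zpow_natCast]
  · -- unramified case
    left
    obtain ⟨φ, hφ⟩ := hF q K
    have hCyc : IsCyc K (Kur K p) p φ := hC q K p φ hp.pos hφ
    obtain ⟨hpos₁, hnd₁, hroots₁⟩ := h74n_roots hT K₁
    -- the field generated by the roots of unity of `K₁`
    have hL₁ : K ⊔ IntermediateField.adjoin ℚ_[q] {w : Om q | w ^ (resCard K₁ - 1) = 1} ≤ K₁ := by
      apply sup_le h.le
      rw [IntermediateField.adjoin_le_iff]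
      intro w hw
      exact ((hroots₁ w).1 hw).1
    have hL₂ : K ⊔ IntermediateField.adjoin ℚ_[q] {w : Om q | w ^ (resCard K₁ - 1) = 1} ≠ K := by
      intro hLK
      apply hN
      have hsub : muPrime K₁ ⊆ muPrime K := by
        intro w hw
        have h1 : w ^ (resCard K₁ - 1) = 1 := (hroots₁ w).2 hw
        have h2 : w ∈ K ⊔ IntermediateField.adjoin ℚ_[q]
            {w : Om q | w ^ (resCard K₁ - 1) = 1} :=
          (le_sup_right : _ ≤ K ⊔ _) (IntermediateField.subset_adjoin _ _ h1)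
        rw [hLK] at h2
        exact ⟨h2, resCard K₁ - 1, hpos₁, hnd₁, h1⟩
      have heq : muPrime K₁ = muPrime K :=
        Set.Subset.antisymm hsub (h74n_muPrime_mono h.le)
      unfold resCard
      rw [heq]
    have hLeq : K ⊔ IntermediateField.adjoin ℚ_[q] {w : Om q | w ^ (resCard K₁ - 1) = 1} = K₁ := by
      rcases h74n_between hp h _ le_sup_left hL₁ with h1 | h1
      · exact absurd h1 hL₂
      · exact h1
    have hK₁Kur : K₁ ≤ Kur K p := by
      rw [← hLeq]
      apply sup_le le_sup_left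
      rw [IntermediateField.adjoin_le_iff]
      intro w hw
      have hw1 : w ^ (resCard K₁ - 1) = 1 := hw
      have hwK₁ : w ∈ K₁ := ((hroots₁ w).1 hw1).1
      have hw0 : w ≠ 0 := by
        rintro rfl
        rw [zero_pow hpos₁.ne'] at hw1
        exact zero_ne_one hw1
      have h1 : (φ ^ p) w = w :=
        (IntermediateField.mem_fixingSubgroup_iff K₁ _).1 (h74n_pow_mem h hφ.1) w hwK₁
      rw [h74n_frob_pow hφ hpos₁ hnd₁ hw1 p] at h1
      have hNp : 0 < resCard K ^ p := pow_pos (by unfold resCard; omega) p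
      have h2 : w ^ (resCard K ^ p - 1) = 1 := by
        have h3 : w ^ (resCard K ^ p - 1) * w = 1 * w := by
          rw [← pow_succ, Nat.sub_add_cancel hNp, one_mul]
          exact h1
        exact mul_right_cancel₀ hw0 h3
      exact (le_sup_right : _ ≤ K ⊔ _) (IntermediateField.subset_adjoin _ _ h2)
    rcases h74n_between hp hCyc K₁ h.le hK₁Kur with h1 | h1
    · exfalso
      rw [h1] at hσ1
      exact hσ1 h.mem
    · exact h1

end Fermat.Agent.PT.Loc
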