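import Mathlib
import Fermat.Agent.PT.Loc.Basic

/-!
# W3-PT / PT-LOC, leaf UR-VAL, part 1 (helper74): the Frobenius congruence

For `w : Om q` with `‖w‖ ≤ 1` and `w ^ (N ^ n) = w`, `N = q ^ f`, every coefficient `c` of
`h74v_P N n w = ∏_{i < n} (X - w ^ (N ^ i))` satisfies `‖c ^ N - c‖ ≤ ‖q‖ < 1`
(`h74v_coeff_frob`): the `N`-th power map is a ring endomorphism of `O / q O` which permutes
the roots cyclically.
-/

set_option autoImplicit false

open scoped Classical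

open Polynomial

noncomputable section

namespace Fermat.Agent.PT.Loc

variable {q : ℕ} [Fact q.Prime]

/-- The closed unit ball of `Om q`, as a subring. -/
def h74v_O (q : ℕ) [Fact q.Prime] : Subring (Om q) where
  carrier := {x | ‖x‖ ≤ 1}
  mul_mem' := fun {a b} ha hb => by
    change ‖a * b‖ ≤ 1
    rw [norm_mul]
    exact mul_le_one₀ ha (norm_nonneg _) hb
  one_mem' := by
    change ‖(1 : Om q)‖ ≤ 1
    rw [norm_one]
  add_mem' := fun {a b} ha hb => by
    change ‖a + b‖ ≤ 1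
    exact (IsUltrametricDist.norm_add_le_max a b).trans (max_le ha hb)
  zero_mem' := by
    change ‖(0 : Om q)‖ ≤ 1
    rw [norm_zero]
    exact zero_le_one
  neg_mem' := fun {a} ha => by
    change ‖-a‖ ≤ 1
    rw [norm_neg]
    exact ha

theorem h74v_mem_O (x : Om q) : x ∈ h74v_O q ↔ ‖x‖ ≤ 1 := Iff.rfl

theorem h74v_norm_q : ‖(q : Om q)‖ = (q : ℝ)⁻¹ := by
  have h1 : algebraMap ℚ_[q] (PadicAlgCl q) (q : ℚ_[q]) = (q : Om q) :=
    map_natCast (algebraMap ℚ_[q] (PadicAlgCl q)) q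
  rw [← h1, norm_algebraMap']
  exact Padic.norm_p

theorem h74v_norm_q_lt_one : ‖(q : Om q)‖ < 1 := by
  rw [h74v_norm_q]
  have hq : (1 : ℝ) < q := by exact_mod_cast (Fact.out : q.Prime).one_lt
  exact inv_lt_one_of_one_lt₀ hq

theorem h74v_q_nonunit : ((q : ℕ) : h74v_O q) ∈ nonunits (h74v_O q) := by
  rw [mem_nonunits_iff]
  rintro ⟨u, hu⟩
  have h1 : ((u : h74v_O q) : Om q) * ((u⁻¹ : (h74v_O q)ˣ) : h74v_O q) = 1 :=
    congrArg Subtype.val u.mul_inv
  have h2 : ((u : h74v_O q) : Om q) = (q : Om q) := by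
    rw [hu]
    simp
  have h3 := congrArg norm h1
  rw [norm_mul, norm_one, h2] at h3
  have h4 : ‖(((u⁻¹ : (h74v_O q)ˣ) : h74v_O q) : Om q)‖ ≤ 1 := ((u⁻¹ : (h74v_O q)ˣ) : h74v_O q).2
  have h5 : ‖(q : Om q)‖ * ‖(((u⁻¹ : (h74v_O q)ˣ) : h74v_O q) : Om q)‖ < 1 := by
    calc ‖(q : Om q)‖ * ‖(((u⁻¹ : (h74v_O q)ˣ) : h74v_O q) : Om q)‖
        ≤ ‖(q : Om q)‖ * 1 := mul_le_mul_of_nonneg_left h4 (norm_nonneg _)
      _ < 1 := by rw [mul_one]; exact h74v_norm_q_lt_one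
  exact absurd h3 h5.ne

/-- The polynomial `∏_{i < n} (X - w ^ (N ^ i))` over a commutative ring. -/
def h74v_P {R : Type*} [CommRing R] (N n : ℕ) (w : R) : R[X] :=
  ∏ i ∈ Finset.range n, (X - C (w ^ (N ^ i)))

theorem h74v_P_map {R S : Type*} [CommRing R] [CommRing S] (φ : R →+* S) (N n : ℕ) (w : R) :
    (h74v_P N n w).map φ = h74v_P N n (φ w) := by
  unfold h74v_P
  rw [Polynomial.map_prod]
  apply Finset.prod_congr rfl
  intro i _
  rw [Polynomial.map_sub, Polynomial.map_X, Polynomial.map_C, map_pow]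

/-- One-step shift: if `w ^ (N ^ n) = w` then `P (w ^ N) = P w`. -/
theorem h74v_P_shift {R : Type*} [CommRing R] (N n : ℕ) (w : R) (hw : w ^ (N ^ n) = w) :
    h74v_P N n (w ^ N) = h74v_P N n w := by
  unfold h74v_P
  have h1 : ∀ i, (w ^ N) ^ (N ^ i) = w ^ (N ^ (i + 1)) := by
    intro i
    rw [← pow_mul, pow_succ']
  simp only [h1]
  rcases Nat.eq_zero_or_pos n with rfl | hn
  · simp
  · obtain ⟨m, rfl⟩ : ∃ m, n = m + 1 := ⟨n - 1, by omega⟩
    rw [Finset.prod_range_succ (fun i => (X - C (w ^ (N ^ (i + 1))) : R[X])) m,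
      Finset.prod_range_succ' (fun i => (X - C (w ^ (N ^ i)) : R[X])) m]
    rw [hw]
    simp

/-- Iterated shift. -/
theorem h74v_P_shift_pow {R : Type*} [CommRing R] (N n : ℕ) (w : R) (hw : w ^ (N ^ n) = w)
    (j : ℕ) : h74v_P N n (w ^ (N ^ j)) = h74v_P N n w := by
  induction j with
  | zero => simp
  | succ j ih =>
    have h1 : w ^ (N ^ (j + 1)) = (w ^ (N ^ j)) ^ N := by rw [← pow_mul, pow_succ]
    have h2 : (w ^ (N ^ j)) ^ (N ^ n) = w ^ (N ^ j) := by
      rw [← pow_mul, mul_comm, pow_mul, hw]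
    rw [h1, h74v_P_shift N n _ h2, ih]

theorem h74v_P_monic {R : Type*} [CommRing R] [Nontrivial R] (N n : ℕ) (w : R) :
    (h74v_P N n w).Monic := by
  unfold h74v_P
  exact Polynomial.monic_prod_of_monic _ _ (fun i _ => Polynomial.monic_X_sub_C _)

theorem h74v_P_natDegree {R : Type*} [CommRing R] [Nontrivial R] (N n : ℕ) (w : R) :
    (h74v_P N n w).natDegree = n := by
  unfold h74v_P
  rw [Polynomial.natDegree_prod_of_monic _ _ (fun i _ => Polynomial.monic_X_sub_C _)]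
  rw [Finset.sum_congr rfl (fun i _ => Polynomial.natDegree_X_sub_C (w ^ (N ^ i)))]
  rw [Finset.sum_const, Finset.card_range, smul_eq_mul, mul_one]

theorem h74v_P_eval {R : Type*} [CommRing R] (N n : ℕ) (w x : R) :
    (h74v_P N n w).eval x = ∏ i ∈ Finset.range n, (x - w ^ (N ^ i)) := by
  unfold h74v_P
  rw [Polynomial.eval_prod]
  simp

theorem h74v_P_eval_self {R : Type*} [CommRing R] (N n : ℕ) (hn : 0 < n) (w : R) :
    (h74v_P N n w).eval w = 0 := by
  rw [h74v_P_eval]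
  apply Finset.prod_eq_zero (Finset.mem_range.2 hn)
  simp

/-- **Frobenius congruence** for the coefficients of `P`. -/
theorem h74v_coeff_frob (f n : ℕ) (w : Om q) (hw1 : ‖w‖ ≤ 1)
    (hw : w ^ ((q ^ f) ^ n) = w) (k : ℕ) :
    ‖((h74v_P (q ^ f) n w).coeff k) ^ (q ^ f) - (h74v_P (q ^ f) n w).coeff k‖
      ≤ ‖(q : Om q)‖ := by
  have hchar : CharP (h74v_O q ⧸ Ideal.span {((q : ℕ) : h74v_O q)}) q :=
    CharP.quotient (h74v_O q) q h74v_q_nonunit
  set I : Ideal (h74v_O q) := Ideal.span {((q : ℕ) : h74v_O q)} with hI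
  let wO : h74v_O q := ⟨w, hw1⟩
  have hwO : wO ^ ((q ^ f) ^ n) = wO := Subtype.ext (by simpa using hw)
  have hmap : (h74v_P (q ^ f) n wO).map (h74v_O q).subtype = h74v_P (q ^ f) n w :=
    h74v_P_map _ _ _ _
  -- reduction mod `q`
  have hbar : (Ideal.Quotient.mk I wO) ^ ((q ^ f) ^ n) = Ideal.Quotient.mk I wO := by
    rw [← map_pow, hwO]
  have hF : (h74v_P (q ^ f) n (Ideal.Quotient.mk I wO)).map
      (iterateFrobenius (h74v_O q ⧸ I) q f) = h74v_P (q ^ f) n (Ideal.Quotient.mk I wO) := by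
    rw [h74v_P_map, iterateFrobenius_def]
    exact h74v_P_shift _ _ _ hbar
  have hc := congrArg (fun P => Polynomial.coeff P k) hF
  simp only [Polynomial.coeff_map, iterateFrobenius_def] at hc
  rw [← h74v_P_map (Ideal.Quotient.mk I), Polynomial.coeff_map, ← map_pow,
    Ideal.Quotient.eq, hI, Ideal.mem_span_singleton'] at hc
  obtain ⟨y, hy⟩ := hc
  have h2 : (((h74v_P (q ^ f) n wO).coeff k : h74v_O q) : Om q)
      = (h74v_P (q ^ f) n w).coeff k := by
    rw [← hmap, Polynomial.coeff_map]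
    rfl
  have h1 : (y : Om q) * (q : Om q)
      = (h74v_P (q ^ f) n w).coeff k ^ (q ^ f) - (h74v_P (q ^ f) n w).coeff k := by
    rw [← h2]
    exact congrArg Subtype.val hy
  rw [← h1, norm_mul]
  calc ‖(y : Om q)‖ * ‖(q : Om q)‖ ≤ 1 * ‖(q : Om q)‖ :=
        mul_le_mul_of_nonneg_right y.2 (norm_nonneg _)
    _ = ‖(q : Om q)‖ := one_mul _

end Fermat.Agent.PT.Loc
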