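import Mathlib
import Fermat.Agent.PT.Loc.Iface
import Fermat.Agent.PT.Loc.H74NIDich
import Fermat.Agent.PT.Loc.H74URValPoly

/-!
# W3-PT / PT-LOC, leaf UR-VAL, part 2 (helper74): Galois action on roots of unity, degree bound

Under `LFTeich` (`N = resCard K`, `n > 0`, `m = N ^ n - 1`):
* `h74v_finiteDimensional_Kur` : `Kur K n` is finite dimensional;
* `h74v_gal_root` : every `g ∈ G_K` maps an `m`-th root of unity `w` to `w ^ (N ^ i)`, `i < n`;
* `h74v_P_coeff_mem` : `∏_{i<n} (X - w ^ (N ^ i))` has coefficients in `K`;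
* `h74v_finrank_Kur_le` : `[Kur K n : ℚ_q] ≤ [K : ℚ_q] * n`.
-/

set_option autoImplicit false

open scoped Classical

open Polynomial

noncomputable section

namespace Fermat.Agent.PT.Loc

variable {q : ℕ} [Fact q.Prime]

/-! ## Ultrametric estimates -/

theorem h74v_norm_pow_sub_pow_le {a b : Om q} (ha : ‖a‖ ≤ 1) (hb : ‖b‖ ≤ 1) (N : ℕ) :
    ‖a ^ N - b ^ N‖ ≤ ‖a - b‖ := by
  obtain ⟨z, hz⟩ := sub_dvd_pow_sub_pow (⟨a, ha⟩ : h74v_O q) ⟨b, hb⟩ N
  have h1 : a ^ N - b ^ N = (a - b) * (z : Om q) := congrArg Subtype.val hz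
  rw [h1, norm_mul]
  calc ‖a - b‖ * ‖(z : Om q)‖ ≤ ‖a - b‖ * 1 :=
        mul_le_mul_of_nonneg_left z.2 (norm_nonneg _)
    _ = ‖a - b‖ := mul_one _

theorem h74v_norm_add_lt {a b : Om q} {r : ℝ} (ha : ‖a‖ < r) (hb : ‖b‖ < r) : ‖a + b‖ < r :=
  lt_of_le_of_lt (IsUltrametricDist.norm_add_le_max a b) (max_lt ha hb)

theorem h74v_norm_sub_lt {a b : Om q} {r : ℝ} (ha : ‖a‖ < r) (hb : ‖b‖ < r) : ‖a - b‖ < r := by
  rw [sub_eq_add_neg]
  exact h74v_norm_add_lt ha (by rwa [norm_neg])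

theorem h74v_norm_eval_lt (Q : (Om q)[X]) (hQ : ∀ k, ‖Q.coeff k‖ < 1) {x : Om q}
    (hx : ‖x‖ ≤ 1) : ‖Q.eval x‖ < 1 := by
  rw [Polynomial.eval_eq_sum_range]
  obtain ⟨i, -, hi⟩ := IsUltrametricDist.exists_norm_finsetSum_le
    (Finset.range (Q.natDegree + 1)) (fun k => Q.coeff k * x ^ k)
  refine lt_of_le_of_lt hi ?_
  rw [norm_mul, norm_pow]
  calc ‖Q.coeff i‖ * ‖x‖ ^ i ≤ ‖Q.coeff i‖ * 1 :=
        mul_le_mul_of_nonneg_left (pow_le_one₀ (norm_nonneg _) hx) (norm_nonneg _)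
    _ < 1 := by rw [mul_one]; exact hQ i

theorem h74v_norm_root {w : Om q} {m : ℕ} (hm : 0 < m) (hw : w ^ m = 1) : ‖w‖ = 1 := by
  have h1 : ‖w‖ ^ m = 1 := by rw [← norm_pow, hw, norm_one]
  exact (pow_eq_one_iff_of_nonneg (norm_nonneg _) hm.ne').1 h1

/-! ## Arithmetic of `N ^ n - 1` -/

theorem h74v_resCard_ge_two (hT : LFTeich) (K : LF q) [FiniteDimensional ℚ_[q] K] :
    2 ≤ resCard K := by
  have h := (h74n_roots hT K).1
  omega

theorem h74v_pred_pos (hT : LFTeich) (K : LF q) [FiniteDimensional ℚ_[q] K] {n : ℕ}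
    (hn : 0 < n) : 0 < resCard K ^ n - 1 := by
  have h2 := h74v_resCard_ge_two hT K
  have h3 : 2 ^ n ≤ resCard K ^ n := Nat.pow_le_pow_left h2 n
  have h4 : 2 ≤ 2 ^ n := by
    calc 2 = 2 ^ 1 := (pow_one 2).symm
      _ ≤ 2 ^ n := Nat.pow_le_pow_right (by norm_num) hn
  omega

theorem h74v_pred_not_dvd (hT : LFTeich) (K : LF q) [FiniteDimensional ℚ_[q] K] {n : ℕ}
    (hn : 0 < n) : ¬ q ∣ (resCard K ^ n - 1) := by
  obtain ⟨-, ⟨f, hf, hN⟩, -⟩ := hT q K
  have hq : q.Prime := Fact.out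
  have hpos := h74v_pred_pos hT K hn
  intro hd
  have h1 : q ∣ resCard K ^ n := by
    rw [hN, ← pow_mul]
    exact dvd_pow_self q (Nat.mul_ne_zero hf.ne' hn.ne')
  have h2 : q ∣ resCard K ^ n - (resCard K ^ n - 1) := Nat.dvd_sub h1 hd
  have h3 : resCard K ^ n - (resCard K ^ n - 1) = 1 := by omega
  rw [h3] at h2
  exact hq.one_lt.ne' (Nat.dvd_one.1 h2)

theorem h74v_pow_self_of_root {N n : ℕ} (hpos : 0 < N ^ n - 1) {w : Om q}
    (hw : w ^ (N ^ n - 1) = 1) : w ^ (N ^ n) = w := by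
  have h1 : N ^ n = (N ^ n - 1) + 1 := by omega
  rw [h1, pow_succ, hw, one_mul]

/-! ## `Kur K n` -/

theorem h74v_mem_Kur (K : LF q) (n : ℕ) {w : Om q} (hw : w ^ (resCard K ^ n - 1) = 1) :
    w ∈ Kur K n :=
  (le_sup_right : _ ≤ K ⊔ IntermediateField.adjoin ℚ_[q]
    {w : Om q | w ^ (resCard K ^ n - 1) = 1}) (IntermediateField.subset_adjoin _ _ hw)

theorem h74v_le_Kur (K : LF q) (n : ℕ) : K ≤ Kur K n := le_sup_left

theorem h74v_finiteDimensional_Kur (hT : LFTeich) (K : LF q) [FiniteDimensional ℚ_[q] K]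
    {n : ℕ} (hn : 0 < n) : FiniteDimensional ℚ_[q] (Kur K n) := by
  have hpos := h74v_pred_pos hT K hn
  have hS : {w : Om q | w ^ (resCard K ^ n - 1) = 1}
      = ((Polynomial.nthRootsFinset (resCard K ^ n - 1) (1 : Om q) : Finset (Om q)) :
          Set (Om q)) := by
    ext w
    rw [Finset.mem_coe, Polynomial.mem_nthRootsFinset hpos]
    rfl
  have hfin : Finite {w : Om q | w ^ (resCard K ^ n - 1) = 1} := by
    rw [hS]
    exact Finite.of_fintype _
  have h1 : FiniteDimensional ℚ_[q]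
      (IntermediateField.adjoin ℚ_[q] {w : Om q | w ^ (resCard K ^ n - 1) = 1}) :=
    IntermediateField.finiteDimensional_adjoin (fun x _ => Algebra.IsIntegral.isIntegral x)
  exact IntermediateField.finiteDimensional_sup K _

theorem h74v_mem_muPrime_Kur (hT : LFTeich) (K : LF q) [FiniteDimensional ℚ_[q] K] {n : ℕ}
    (hn : 0 < n) {w : Om q} (hw : w ^ (resCard K ^ n - 1) = 1) : w ∈ muPrime (Kur K n) :=
  ⟨h74v_mem_Kur K n hw, resCard K ^ n - 1, h74v_pred_pos hT K hn, h74v_pred_not_dvd hT K hn, hw⟩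

/-! ## Teichmüller approximation -/

/-- If `c ∈ L ⊇ K` is integral with `c ^ N ≡ c`, `N = resCard K`, then `c` is congruent to an
element of `K`. -/
theorem h74v_teich_approx (hT : LFTeich) (K L : LF q) [FiniteDimensional ℚ_[q] K]
    [FiniteDimensional ℚ_[q] L] {c : Om q} (hc : c ∈ L) (hc1 : ‖c‖ ≤ 1)
    (hcN : ‖c ^ resCard K - c‖ < 1) : ∃ t ∈ K, ‖c - t‖ < 1 := by
  rcases lt_or_eq_of_le hc1 with h | h
  · exact ⟨0, K.zero_mem, by rwa [sub_zero]⟩
  · obtain ⟨-, -, -, happ, hinj⟩ := hT q L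
    obtain ⟨w', hw', hcw⟩ := happ c hc h
    obtain ⟨hw'L, m', hm', hqm', hw'm⟩ := hw'
    have hw'1 : ‖w'‖ = 1 := h74v_norm_root hm' hw'm
    have hN2 := h74v_resCard_ge_two hT K
    -- `w' ^ N ≡ w'`
    have h1 : ‖w' ^ resCard K - w'‖ < 1 := by
      have e1 : w' ^ resCard K - w' =
          (c ^ resCard K - c) - ((c ^ resCard K - w' ^ resCard K) - (c - w')) := by ring
      rw [e1]
      apply h74v_norm_sub_lt hcN
      apply h74v_norm_sub_lt _ hcw
      exact lt_of_le_of_lt (h74v_norm_pow_sub_pow_le hc1 hw'1.le _) hcw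
    have h2 : ‖w' ^ (resCard K - 1) - 1‖ < 1 := by
      have e2 : w' ^ resCard K - w' = w' * (w' ^ (resCard K - 1) - 1) := by
        have e3 : resCard K = (resCard K - 1) + 1 := by omega
        rw [mul_sub, mul_one, ← pow_succ', ← e3]
      rw [e2, norm_mul, hw'1, one_mul] at h1
      exact h1
    have h3 : w' ^ (resCard K - 1) ∈ muPrime L :=
      ⟨pow_mem hw'L _, m', hm', hqm', by rw [← pow_mul, mul_comm, pow_mul, hw'm, one_pow]⟩
    have h4 : (1 : Om q) ∈ muPrime L := ⟨L.one_mem, 1, Nat.one_pos, by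
      intro hd
      exact (Fact.out : q.Prime).one_lt.ne' (Nat.dvd_one.1 hd), by simp⟩
    have h5 : w' ^ (resCard K - 1) = 1 := hinj _ h3 _ h4 h2
    have h6 : w' ∈ muPrime K := ((h74n_roots hT K).2.2 w').1 h5
    exact ⟨w', h6.1, hcw⟩

/-! ## The Galois action on roots of unity -/

/-- The ring homomorphism underlying `g`. -/
def h74v_rh (g : Gq q) : Om q →+* Om q := (g : Om q →ₐ[ℚ_[q]] Om q).toRingHom

@[simp] theorem h74v_rh_apply (g : Gq q) (x : Om q) : h74v_rh g x = g x := rfl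

theorem h74v_P_coeff_mem_of_mem (L : LF q) (N n : ℕ) {w : Om q} (hw : w ∈ L) (k : ℕ) :
    (h74v_P N n w).coeff k ∈ L := by
  have h1 : (h74v_P N n (⟨w, hw⟩ : L)).map (algebraMap L (Om q)) = h74v_P N n w :=
    h74v_P_map _ _ _ _
  rw [← h1, Polynomial.coeff_map]
  exact Subtype.property _

theorem h74v_P_coeff_norm_le (N n : ℕ) {w : Om q} (hw : ‖w‖ ≤ 1) (k : ℕ) :
    ‖(h74v_P N n w).coeff k‖ ≤ 1 := by
  have h1 : (h74v_P N n (⟨w, hw⟩ : h74v_O q)).map (h74v_O q).subtype = h74v_P N n w :=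
    h74v_P_map _ _ _ _
  rw [← h1, Polynomial.coeff_map]
  exact ((h74v_P N n (⟨w, hw⟩ : h74v_O q)).coeff k).2

/-- Every `g ∈ G_K` acts on the `(N ^ n - 1)`-th roots of unity through a power of `N`. -/
theorem h74v_gal_root (hT : LFTeich) (K : LF q) [FiniteDimensional ℚ_[q] K] {n : ℕ}
    (hn : 0 < n) {g : Gq q} (hg : g ∈ GK K) {w : Om q} (hw : w ^ (resCard K ^ n - 1) = 1) :
    ∃ i, i < n ∧ g w = w ^ (resCard K ^ i) := by
  have hfinKur : FiniteDimensional ℚ_[q] (Kur K n) := h74v_finiteDimensional_Kur hT K hn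
  obtain ⟨-, ⟨f, hf, hN⟩, -⟩ := hT q K
  obtain ⟨-, -, -, -, hinj⟩ := hT q (Kur K n)
  have hpos := h74v_pred_pos hT K hn
  have hwN : w ^ (resCard K ^ n) = w := h74v_pow_self_of_root hpos hw
  have hw1 : ‖w‖ = 1 := h74v_norm_root hpos hw
  have hwK' : w ∈ Kur K n := h74v_mem_Kur K n hw
  -- the coefficients are congruent to elements of `K`
  have hcF : ∀ k, ‖((h74v_P (resCard K) n w).coeff k) ^ resCard K
      - (h74v_P (resCard K) n w).coeff k‖ < 1 := by
    intro k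
    have h1 := h74v_coeff_frob f n w hw1.le (by rw [← hN]; exact hwN) k
    rw [← hN] at h1
    exact lt_of_le_of_lt h1 h74v_norm_q_lt_one
  have hgc : ∀ k, ‖g ((h74v_P (resCard K) n w).coeff k)
      - (h74v_P (resCard K) n w).coeff k‖ < 1 := by
    intro k
    obtain ⟨t, ht, hct⟩ := h74v_teich_approx hT K (Kur K n)
      (h74v_P_coeff_mem_of_mem (Kur K n) _ n hwK' k)
      (h74v_P_coeff_norm_le _ n hw1.le k) (hcF k)
    have hgt : g t = t := (IntermediateField.mem_fixingSubgroup_iff K g).1 hg t ht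
    have e1 : g ((h74v_P (resCard K) n w).coeff k) - (h74v_P (resCard K) n w).coeff k
        = g ((h74v_P (resCard K) n w).coeff k - t)
          - ((h74v_P (resCard K) n w).coeff k - t) := by
      rw [map_sub, hgt]
      ring
    rw [e1]
    exact h74v_norm_sub_lt (by rw [h74n_norm_map]; exact hct) hct
  -- evaluate at `g w`
  have hgw1 : ‖g w‖ ≤ 1 := by rw [h74n_norm_map]; exact hw1.le
  have hQ := h74v_norm_eval_lt
    ((h74v_P (resCard K) n w).map (h74v_rh g) - h74v_P (resCard K) n w)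
    (fun k => by
      rw [Polynomial.coeff_sub, Polynomial.coeff_map]
      exact hgc k) hgw1
  have h2 : ((h74v_P (resCard K) n w).map (h74v_rh g)).eval (g w) = 0 := by
    have := Polynomial.eval_map_apply (p := h74v_P (resCard K) n w) (h74v_rh g) w
    rw [h74v_rh_apply] at this
    rw [this, h74v_P_eval_self _ n hn, map_zero]
  rw [Polynomial.eval_sub, h2, zero_sub, norm_neg, h74v_P_eval, norm_prod] at hQ
  by_contra hcon
  have hge : ∀ i ∈ Finset.range n, (1 : ℝ) ≤ ‖g w - w ^ (resCard K ^ i)‖ := by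
    intro i hi
    by_contra hlt
    apply hcon
    refine ⟨i, Finset.mem_range.1 hi, ?_⟩
    have hgwm : (g w) ^ (resCard K ^ n - 1) = 1 := by rw [← map_pow, hw, map_one]
    have hwim : (w ^ (resCard K ^ i)) ^ (resCard K ^ n - 1) = 1 := by
      rw [← pow_mul, mul_comm, pow_mul, hw, one_pow]
    exact hinj _ (h74v_mem_muPrime_Kur hT K hn hgwm) _ (h74v_mem_muPrime_Kur hT K hn hwim)
      (not_le.1 hlt)
  have h3 : (1 : ℝ) ≤ ∏ i ∈ Finset.range n, ‖g w - w ^ (resCard K ^ i)‖ := by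
    calc (1 : ℝ) = ∏ _i ∈ Finset.range n, (1 : ℝ) := (Finset.prod_const_one).symm
      _ ≤ ∏ i ∈ Finset.range n, ‖g w - w ^ (resCard K ^ i)‖ :=
        Finset.prod_le_prod (fun _ _ => zero_le_one) hge
  exact absurd hQ (not_lt.2 h3)

/-- The polynomial `∏_{i<n} (X - w ^ (N ^ i))` has coefficients in `K`. -/
theorem h74v_P_coeff_mem (hT : LFTeich) (K : LF q) [FiniteDimensional ℚ_[q] K] {n : ℕ}
    (hn : 0 < n) {w : Om q} (hw : w ^ (resCard K ^ n - 1) = 1) (k : ℕ) :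
    (h74v_P (resCard K) n w).coeff k ∈ K := by
  apply h74n_mem_of_fixed
  intro g hg
  obtain ⟨i, -, hi⟩ := h74v_gal_root hT K hn hg hw
  have hpos := h74v_pred_pos hT K hn
  have hwN : w ^ (resCard K ^ n) = w := h74v_pow_self_of_root hpos hw
  have h1 : (h74v_P (resCard K) n w).map (h74v_rh g) = h74v_P (resCard K) n w := by
    rw [h74v_P_map, h74v_rh_apply, hi]
    exact h74v_P_shift_pow _ n w hwN i
  have h2 := congrArg (fun P => Polynomial.coeff P k) h1
  simp only [Polynomial.coeff_map, h74v_rh_apply] at h2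
  exact h2

/-! ## The degree bound -/

theorem h74v_exists_primitiveRoot (m : ℕ) (hm : 0 < m) :
    ∃ w₀ : Om q, IsPrimitiveRoot w₀ m := by
  have hne : NeZero ((m : ℕ) : ℚ_[q]) := ⟨by exact_mod_cast hm.ne'⟩
  exact HasEnoughRootsOfUnity.exists_primitiveRoot (AlgebraicClosure ℚ_[q]) m

theorem h74v_Kur_eq_adjoin (K : LF q) (n : ℕ) (hpos : 0 < resCard K ^ n - 1) {w₀ : Om q}
    (hw₀ : IsPrimitiveRoot w₀ (resCard K ^ n - 1)) :
    Kur K n = IntermediateField.restrictScalars ℚ_[q] (IntermediateField.adjoin K {w₀}) := by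
  rw [IntermediateField.restrictScalars_adjoin_eq_sup]
  unfold Kur
  congr 1
  apply le_antisymm
  · rw [IntermediateField.adjoin_le_iff]
    intro w hw
    have hne : NeZero (resCard K ^ n - 1) := ⟨hpos.ne'⟩
    obtain ⟨i, -, hi⟩ := hw₀.eq_pow_of_pow_eq_one hw
    rw [← hi]
    exact pow_mem (IntermediateField.subset_adjoin _ _ (Set.mem_singleton w₀)) i
  · apply IntermediateField.adjoin.mono
    intro w hw
    rw [Set.mem_singleton_iff] at hw
    rw [hw]
    exact hw₀.pow_eq_one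

/-- `[Kur K n : ℚ_q] ≤ [K : ℚ_q] * n`. -/
theorem h74v_finrank_Kur_le (hT : LFTeich) (K : LF q) [FiniteDimensional ℚ_[q] K] {n : ℕ}
    (hn : 0 < n) :
    Module.finrank ℚ_[q] (Kur K n) ≤ Module.finrank ℚ_[q] K * n := by
  have hpos := h74v_pred_pos hT K hn
  obtain ⟨w₀, hw₀⟩ := h74v_exists_primitiveRoot (q := q) (resCard K ^ n - 1) hpos
  have hw₀1 : w₀ ^ (resCard K ^ n - 1) = 1 := hw₀.pow_eq_one
  rw [h74v_Kur_eq_adjoin K n hpos hw₀]
  have h1 : Module.finrank ℚ_[q]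
      ↥(IntermediateField.restrictScalars ℚ_[q] (IntermediateField.adjoin K {w₀}))
      = Module.finrank ℚ_[q] ↥(IntermediateField.adjoin K {w₀}) := rfl
  rw [h1, ← Module.finrank_mul_finrank ℚ_[q] K (IntermediateField.adjoin K {w₀})]
  apply Nat.mul_le_mul_left
  have hint : IsIntegral K w₀ := Algebra.IsIntegral.isIntegral w₀
  rw [IntermediateField.adjoin.finrank hint]
  -- lift `P` to `K[X]`
  have hlift : h74v_P (resCard K) n w₀ ∈ Polynomial.lifts (algebraMap K (Om q)) := by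
    rw [Polynomial.lifts_iff_coeff_lifts]
    intro k
    exact ⟨⟨_, h74v_P_coeff_mem hT K hn hw₀1 k⟩, rfl⟩
  obtain ⟨P', hP', hdeg, hmon⟩ :=
    Polynomial.lifts_and_natDegree_eq_and_monic hlift (h74v_P_monic _ n w₀)
  have haeval : Polynomial.aeval w₀ P' = 0 := by
    rw [Polynomial.aeval_def, ← Polynomial.eval_map, hP']
    exact h74v_P_eval_self _ n hn w₀
  have hdvd := minpoly.dvd K w₀ haeval
  have hle := Polynomial.natDegree_le_of_dvd hdvd hmon.ne_zero
  rw [hdeg, h74v_P_natDegree] at hle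
  exact hle

end Fermat.Agent.PT.Loc
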