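import Mathlib
import Fermat.Agent.PT.Loc.Iface
import Fermat.Agent.PT.Loc.LFLocal
import Fermat.Agent.PT.Loc.H74URValGal

/-!
# W3-PT / PT-LOC, leaf UR-VAL, part 3 (helper74): the counting identity `e f = [L : ℚ_q]`

For a local field `L` (finite over `ℚ_q` inside `PadicAlgCl q`), a uniformizer `π` of `L` and
`e` with `‖q‖ = ‖π‖ ^ e`:

`h74v_ef : LFTeich → IsUnif L π → ‖q‖ = ‖π‖ ^ e → resCard L ^ e = q ^ [L : ℚ_q]`.

Proof: `#(𝒪/q𝒪) = q ^ [L:ℚ_q]` (helper34), `q𝒪 = 𝔪 ^ e`, `#(𝒪/𝔪^e) = #(𝒪/𝔪) ^ e` (Mathlib),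
and `#(𝒪/𝔪) = #muPrime L + 1` by the Teichmüller representatives (`LFTeich`).
-/

set_option autoImplicit false

open scoped Classical

open Valued IsLocalRing

open scoped NormedField

noncomputable section

namespace Fermat.Agent.PT.Loc

variable {q : ℕ} [Fact q.Prime]

section EF

variable (L : LF q) [FiniteDimensional ℚ_[q] L]

/-- An element of `L` of norm `≤ 1`, as an element of `𝒪[L]`. -/
def h74v_toO (x : Om q) (hx : x ∈ L) (h1 : ‖x‖ ≤ 1) : 𝒪[L] :=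
  ⟨⟨x, hx⟩, Valued.integer.mem_iff.2 h1⟩

omit [FiniteDimensional ℚ_[q] L] in
theorem h74v_norm_O (x : 𝒪[L]) : ‖(((x : 𝒪[L]) : L) : Om q)‖ ≤ 1 :=
  Valued.integer.mem_iff.1 x.2

omit [FiniteDimensional ℚ_[q] L] in
theorem h74v_mem_maximalIdeal (x : 𝒪[L]) :
    x ∈ maximalIdeal 𝒪[L] ↔ ‖(((x : 𝒪[L]) : L) : Om q)‖ < 1 := by
  rw [IsLocalRing.mem_maximalIdeal, mem_nonunits_iff, Valued.integer.isUnit_iff_norm_eq_one]
  have h1 := h74v_norm_O L x
  constructor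
  · intro h
    exact lt_of_le_of_ne h1 h
  · intro h
    exact h.ne

/-- The Teichmüller map `muPrime L ∪ {0} → 𝒪/𝔪`. -/
def h74v_teichMap : Option (muPrime L) → 𝒪[L] ⧸ maximalIdeal 𝒪[L]
  | none => 0
  | some w => Ideal.Quotient.mk _
      (h74v_toO L w.1 w.2.1 (by
        obtain ⟨-, m, hm, -, hwm⟩ := w.2
        exact (h74v_norm_root hm hwm).le))

theorem h74v_teichMap_bijective (hT : LFTeich) : Function.Bijective (h74v_teichMap L) := by
  obtain ⟨-, -, -, happ, hinj⟩ := hT q L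
  constructor
  · intro a b hab
    rcases a with _ | a <;> rcases b with _ | b
    · rfl
    · exfalso
      have h1 : (Ideal.Quotient.mk (maximalIdeal 𝒪[L])) (h74v_toO L b.1 b.2.1 (by
          obtain ⟨-, m, hm, -, hwm⟩ := b.2
          exact (h74v_norm_root hm hwm).le)) = 0 := hab.symm
      rw [Ideal.Quotient.eq_zero_iff_mem, h74v_mem_maximalIdeal] at h1
      obtain ⟨-, m, hm, -, hwm⟩ := b.2
      exact absurd (h74v_norm_root hm hwm) h1.ne
    · exfalso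
      have h1 : (Ideal.Quotient.mk (maximalIdeal 𝒪[L])) (h74v_toO L a.1 a.2.1 (by
          obtain ⟨-, m, hm, -, hwm⟩ := a.2
          exact (h74v_norm_root hm hwm).le)) = 0 := hab
      rw [Ideal.Quotient.eq_zero_iff_mem, h74v_mem_maximalIdeal] at h1
      obtain ⟨-, m, hm, -, hwm⟩ := a.2
      exact absurd (h74v_norm_root hm hwm) h1.ne
    · have h1 : (Ideal.Quotient.mk (maximalIdeal 𝒪[L])) (h74v_toO L a.1 a.2.1 (by
          obtain ⟨-, m, hm, -, hwm⟩ := a.2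
          exact (h74v_norm_root hm hwm).le)) =
          (Ideal.Quotient.mk (maximalIdeal 𝒪[L])) (h74v_toO L b.1 b.2.1 (by
          obtain ⟨-, m, hm, -, hwm⟩ := b.2
          exact (h74v_norm_root hm hwm).le)) := hab
      rw [Ideal.Quotient.eq, h74v_mem_maximalIdeal] at h1
      have h2 : (a.1 : Om q) = b.1 := hinj _ a.2 _ b.2 h1
      exact congrArg some (Subtype.ext h2)
  · intro y
    obtain ⟨x, rfl⟩ := Ideal.Quotient.mk_surjective y
    have hx1 := h74v_norm_O L x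
    rcases lt_or_eq_of_le hx1 with h | h
    · refine ⟨none, ?_⟩
      symm
      change (Ideal.Quotient.mk (maximalIdeal 𝒪[L])) x = 0
      rw [Ideal.Quotient.eq_zero_iff_mem, h74v_mem_maximalIdeal]
      exact h
    · obtain ⟨w, hw, hxw⟩ := happ (((x : 𝒪[L]) : L) : Om q) (Subtype.property _) h
      refine ⟨some ⟨w, hw⟩, ?_⟩
      symm
      change (Ideal.Quotient.mk (maximalIdeal 𝒪[L])) x =
        (Ideal.Quotient.mk (maximalIdeal 𝒪[L])) (h74v_toO L w hw.1 _)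
      rw [Ideal.Quotient.eq, h74v_mem_maximalIdeal]
      exact hxw

/-- `#(𝒪/𝔪) = resCard L`. -/
theorem h74v_card_residue (hT : LFTeich) :
    Nat.card (𝒪[L] ⧸ maximalIdeal 𝒪[L]) = resCard L := by
  obtain ⟨hfin, -⟩ := hT q L
  have hF : Finite (muPrime L) := hfin
  rw [← Nat.card_congr (Equiv.ofBijective _ (h74v_teichMap_bijective L hT)),
    Finite.card_option]
  rfl

/-- `q 𝒪 = 𝔪 ^ e` when `‖q‖ = ‖π‖ ^ e`. -/
theorem h74v_span_q {π : Om q} (hπ : IsUnif L π) {e : ℕ} (he : ‖(q : Om q)‖ = ‖π‖ ^ e) :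
    Ideal.span {((q : ℕ) : 𝒪[L])} = maximalIdeal 𝒪[L] ^ e := by
  have hP := h34lf_properSpace q L
  have hD := h34lf_isDiscreteValuationRing L
  obtain ⟨ϖ, hϖ⟩ := IsDiscreteValuationRing.exists_irreducible 𝒪[L]
  have hϖlt : ‖ϖ‖ < 1 := Valued.integer.norm_irreducible_lt_one hϖ
  -- `‖π‖ = ‖ϖ‖`
  have hπϖ : ‖π‖ = ‖ϖ‖ := by
    apply le_antisymm
    · have h1 : h74v_toO L π hπ.1 hπ.2.2.1.le ∈ maximalIdeal 𝒪[L] := by
        rw [h74v_mem_maximalIdeal]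
        exact hπ.2.2.1
      have h3 := hϖ.maximalIdeal_pow_eq_closedBall_pow 1
      have h4 : h74v_toO L π hπ.1 hπ.2.2.1.le
          ∈ ((maximalIdeal 𝒪[L] ^ 1 : Ideal 𝒪[L]) : Set 𝒪[L]) := by
        rw [pow_one]
        exact h1
      rw [h3, Metric.mem_closedBall, dist_zero_right, pow_one] at h4
      exact h4
    · exact hπ.2.2.2 _ (Subtype.property (ϖ : L)) hϖlt
  have hq0 : (q : Om q) ≠ 0 := by
    have : ((q : ℕ) : Om q) ≠ 0 := by exact_mod_cast (Fact.out : q.Prime).ne_zero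
    exact this
  ext x
  have h3 := hϖ.maximalIdeal_pow_eq_closedBall_pow e
  have h4 : x ∈ maximalIdeal 𝒪[L] ^ e ↔ ‖(((x : 𝒪[L]) : L) : Om q)‖ ≤ ‖(q : Om q)‖ := by
    have h5 : x ∈ maximalIdeal 𝒪[L] ^ e ↔ x ∈ ((maximalIdeal 𝒪[L] ^ e : Ideal 𝒪[L]) : Set 𝒪[L]) :=
      Iff.rfl
    rw [h5, h3, Metric.mem_closedBall, dist_zero_right, he, hπϖ]
    rfl
  rw [h4, Ideal.mem_span_singleton']
  constructor
  · rintro ⟨y, rfl⟩
    have h6 : (((y * ((q : ℕ) : 𝒪[L]) : 𝒪[L]) : L) : Om q)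
        = (((y : 𝒪[L]) : L) : Om q) * (q : Om q) := by
      simp
    rw [h6, norm_mul]
    calc ‖(((y : 𝒪[L]) : L) : Om q)‖ * ‖(q : Om q)‖ ≤ 1 * ‖(q : Om q)‖ :=
          mul_le_mul_of_nonneg_right (h74v_norm_O L y) (norm_nonneg _)
      _ = ‖(q : Om q)‖ := one_mul _
  · intro hx
    have hy1 : ‖(((x : 𝒪[L]) : L) : Om q) * (q : Om q)⁻¹‖ ≤ 1 := by
      rw [norm_mul, norm_inv]
      exact mul_inv_le_one_of_le₀ hx (norm_nonneg _)
    have hyL : (((x : 𝒪[L]) : L) : Om q) * (q : Om q)⁻¹ ∈ L :=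
      L.mul_mem (Subtype.property _) (L.inv_mem (natCast_mem L q))
    refine ⟨h74v_toO L _ hyL hy1, ?_⟩
    apply Subtype.ext
    apply Subtype.ext
    have h6 : (((h74v_toO L _ hyL hy1 * ((q : ℕ) : 𝒪[L]) : 𝒪[L]) : L) : Om q)
        = ((((x : 𝒪[L]) : L) : Om q) * (q : Om q)⁻¹) * (q : Om q) := by
      simp [h74v_toO]
    rw [h6, inv_mul_cancel_right₀ hq0]

/-- **The counting identity** `N_L ^ e = q ^ [L : ℚ_q]`. -/
theorem h74v_ef (hT : LFTeich) {π : Om q} (hπ : IsUnif L π) {e : ℕ}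
    (he : ‖(q : Om q)‖ = ‖π‖ ^ e) :
    resCard L ^ e = q ^ Module.finrank ℚ_[q] L := by
  have hP := h34lf_properSpace q L
  have hD := h34lf_isDiscreteValuationRing L
  have h1 := h34lf_card_quot_q q L
  rw [h74v_span_q L hπ he] at h1
  have hne : maximalIdeal 𝒪[L] ≠ ⊥ := IsDiscreteValuationRing.not_a_field 𝒪[L]
  have h2 := cardQuot_pow_of_prime (P := maximalIdeal 𝒪[L]) hne (i := e)
  rw [Submodule.cardQuot_apply, Submodule.cardQuot_apply, h74v_card_residue L hT] at h2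
  rw [← h2]
  exact h1

end EF

end Fermat.Agent.PT.Loc
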