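import Mathlib
import Fermat.Agent.PT.Loc.Basic

/-!
# W3-PT / PT-LOC (helper48): the local invariant `invQ p q` — frozen definitions

Conventions of `Loc/Basic.lean` (cochains of `G_K` are TOTAL functions on `Gq q`).

* `zetaG p`   : a fixed primitive `p`-th root of unity of `ℚ̄` (the SAME for all `q`);
  `zetaL p q` its image in `PadicAlgCl q`, `zetaU p q` as a unit;
* `chiL p q`  : the local mod `p` cyclotomic character, as a function `Gq q → ZMod p`;
* `frobQ q`   : a fixed Frobenius element of `ℚ_q`;  `qU q` : the uniformizer `q` as a unit;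
* `Yq p q`    : the standard unramified `2`-cocycle `carry (Kur ⊥ p) (frobQ q) p q` of `G_{ℚ_q}`
  (the cyclic algebra `(χ_ur, q)`, Hasse invariant `±1/p`);
* `HasInv p q z t` : the `μ_p`-valued cochain `ζ^z` of `G_{ℚ_q}` is cohomologous in `(Om q)ˣ`
  to `Yq ^ t`;
* `InvSpec p q inv`, `invQ p q` : a linear functional on ALL `2`-cochains of `Gq q` with
  `HasInv p q z t → invQ p q z = t`;
* `secC`, `IsSec`, `mcor`, `mcor1`, `acor` : multiplicative / additive (twisted) corestriction from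
  `G_E` to `G_{ℚ_q}` along a section `s` of `Gq q → Gq q ⧸ G_E`
  (same formulas as `h56s_Sec.cc`, `exU2` followed by the sum over `Gq q ⧸ G_E`);
* `ACob3` : relative `3`-coboundaries;  `rst1/2/3`, `ext1/2/3` : restriction to / extension by zero
  from the subtype `↥(GK K)`.
-/

set_option autoImplicit false

open scoped Classical

noncomputable section

namespace Fermat.Agent.PT.Loc

open ExtCitation

/-! ## The coherent root of unity and the cyclotomic character -/

/-- A fixed primitive `p`-th root of unity of `ℚ̄` (`1` if there is none). -/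
def zetaG (p : ℕ) : AlgebraicClosure ℚ :=
  if h : ∃ ζ : AlgebraicClosure ℚ, IsPrimitiveRoot ζ p then h.choose else 1

variable (p : ℕ) (q : ℕ) [Fact q.Prime]

/-- The image of `zetaG p` in the local algebraic closure. -/
def zetaL : Om q := padicEmbedding q (zetaG p)

/-- `zetaL p q` as a unit (`1` if `zetaL p q = 0`, which does not happen for `p ≠ 0`). -/
def zetaU : (Om q)ˣ := if h : zetaL p q = 0 then 1 else Units.mk0 (zetaL p q) h

/-- The local mod `p` cyclotomic character, as a function with values in `ZMod p`. -/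
def chiL [Fact p.Prime] (g : Gq q) : ZMod p :=
  ((cycloChar p (localGaloisToGlobal q g) : (ZMod p)ˣ) : ZMod p)

/-! ## The standard unramified class of `ℚ_q` -/

/-- A fixed Frobenius element of `ℚ_q` (`1` if there is none). -/
def frobQ : Gq q := if h : ∃ φ : Gq q, IsFrob (⊥ : LF q) φ then h.choose else 1

/-- The uniformizer `q` of `ℚ_q`, as a unit of `Om q`. -/
def qU : (Om q)ˣ := if h : ((q : ℕ) : Om q) = 0 then 1 else Units.mk0 ((q : ℕ) : Om q) h

/-- The standard unramified `2`-cocycle of `G_{ℚ_q}`: the cyclic algebra `(χ_ur, q)` of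
degree `p`. -/
def Yq : Gq q × Gq q → (Om q)ˣ := carry (Kur (⊥ : LF q) p) (frobQ q) p (qU q)

/-! ## The invariant -/

/-- `ζ ^ z` is cohomologous to `Yq ^ t` (as cochains of `G_{ℚ_q}` with values in `(Om q)ˣ`). -/
def HasInv (z : Gq q × Gq q → ZMod p) (t : ZMod p) : Prop :=
  MCohom (⊥ : LF q) (zpw (zetaU p q) z) (fun y => Yq p q y ^ t.val)

/-- `inv` computes the invariant. -/
def InvSpec (inv : (Gq q × Gq q → ZMod p) →ₗ[ZMod p] ZMod p) : Prop :=
  ∀ (z : Gq q × Gq q → ZMod p) (t : ZMod p), HasInv p q z t → inv z = t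

/-- **The local invariant** at `q` on the `2`-cochains of `Gq q` with values in `ZMod p`
(coefficients `μ_p = 𝔽_p(χ)`): a linear functional with `HasInv p q z t → invQ p q z = t`
(chosen once and for all; `0` if there is none). -/
def invQ : (Gq q × Gq q → ZMod p) →ₗ[ZMod p] ZMod p :=
  if h : ∃ inv : (Gq q × Gq q → ZMod p) →ₗ[ZMod p] ZMod p, InvSpec p q inv then h.choose else 0

variable {p q}

/-! ## Corestriction from `G_E` to `G_{ℚ_q}` -/

/-- `s` is a section of `Gq q → Gq q ⧸ G_E`, normalised at the trivial coset. -/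
def IsSec (E : LF q) (s : Gq q ⧸ GK E → Gq q) : Prop :=
  (∀ x, (QuotientGroup.mk (s x) : Gq q ⧸ GK E) = x) ∧ s (QuotientGroup.mk 1) = 1

/-- The `G_E`-valued cocycle of a section: `c(g, x) = s(x)⁻¹ · g · s(g⁻¹ x)`. -/
def secC (E : LF q) (s : Gq q ⧸ GK E → Gq q) (g : Gq q) (x : Gq q ⧸ GK E) : Gq q :=
  (s x)⁻¹ * g * s (g⁻¹ • x)

/-- Multiplicative corestriction of `1`-cochains. -/
def mcor1 (E : LF q) (s : Gq q ⧸ GK E → Gq q) (x : Gq q → (Om q)ˣ) : Gq q → (Om q)ˣ :=
  fun g => ∏ᶠ a : Gq q ⧸ GK E, s a • x (secC E s g a)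

/-- Multiplicative corestriction of `2`-cochains. -/
def mcor (E : LF q) (s : Gq q ⧸ GK E → Gq q) (β : Gq q × Gq q → (Om q)ˣ) :
    Gq q × Gq q → (Om q)ˣ :=
  fun y => ∏ᶠ a : Gq q ⧸ GK E, s a • β (secC E s y.1 a, secC E s y.2 (y.1⁻¹ • a))

/-- Additive twisted corestriction of `2`-cochains (coefficients `𝔽_p(χ)`). -/
def acor (E : LF q) (s : Gq q ⧸ GK E → Gq q) (χ : Gq q → ZMod p)
    (b : Gq q × Gq q → ZMod p) : Gq q × Gq q → ZMod p :=
  fun y => ∑ᶠ a : Gq q ⧸ GK E, χ (s a) * b (secC E s y.1 a, secC E s y.2 (y.1⁻¹ • a))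

/-! ## Degree three, restriction and extension by zero -/

/-- `c` is a continuous `3`-coboundary on `G_K` (trivial coefficients). -/
def ACob3 (K : LF q) (c : Gq q × Gq q × Gq q → ZMod p) : Prop :=
  ∃ f : Gq q × Gq q → ZMod p, Cont2 K f ∧
    ∀ g ∈ GK K, ∀ h ∈ GK K, ∀ j ∈ GK K, c (g, h, j) = acob2 f (g, h, j)

/-- Restriction of a total `1`-cochain to the subtype `↥(GK K)`. -/
def rst1 (K : LF q) {X : Type*} (f : Gq q → X) : ↥(GK K) → X := fun g => f g
/-- Restriction of a total `2`-cochain to the subtype `↥(GK K)`. -/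
def rst2 (K : LF q) {X : Type*} (f : Gq q × Gq q → X) : ↥(GK K) × ↥(GK K) → X :=
  fun y => f (y.1, y.2)
/-- Restriction of a total `3`-cochain to the subtype `↥(GK K)`. -/
def rst3 (K : LF q) {X : Type*} (f : Gq q × Gq q × Gq q → X) :
    ↥(GK K) × ↥(GK K) × ↥(GK K) → X :=
  fun y => f (y.1, y.2.1, y.2.2)

/-- Extension by zero of a `1`-cochain of the subtype `↥(GK K)`. -/
def ext1 (K : LF q) {X : Type*} [Zero X] (f : ↥(GK K) → X) : Gq q → X :=
  fun g => if h : g ∈ GK K then f ⟨g, h⟩ else 0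
/-- Extension by zero of a `2`-cochain of the subtype `↥(GK K)`. -/
def ext2 (K : LF q) {X : Type*} [Zero X] (f : ↥(GK K) × ↥(GK K) → X) : Gq q × Gq q → X :=
  fun y => if h : y.1 ∈ GK K ∧ y.2 ∈ GK K then f (⟨y.1, h.1⟩, ⟨y.2, h.2⟩) else 0
/-- Extension by zero of a `3`-cochain of the subtype `↥(GK K)`. -/
def ext3 (K : LF q) {X : Type*} [Zero X] (f : ↥(GK K) × ↥(GK K) × ↥(GK K) → X) :
    Gq q × Gq q × Gq q → X :=
  fun y => if h : y.1 ∈ GK K ∧ y.2.1 ∈ GK K ∧ y.2.2 ∈ GK K then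
    f (⟨y.1, h.1⟩, ⟨y.2.1, h.2.1⟩, ⟨y.2.2, h.2.2⟩) else 0

@[simp] lemma rst1_ext1 (K : LF q) {X : Type*} [Zero X] (f : ↥(GK K) → X) :
    rst1 K (ext1 K f) = f := by
  funext g
  simp [rst1, ext1]

@[simp] lemma rst2_ext2 (K : LF q) {X : Type*} [Zero X] (f : ↥(GK K) × ↥(GK K) → X) :
    rst2 K (ext2 K f) = f := by
  funext y
  simp [rst2, ext2]

@[simp] lemma rst3_ext3 (K : LF q) {X : Type*} [Zero X]
    (f : ↥(GK K) × ↥(GK K) × ↥(GK K) → X) : rst3 K (ext3 K f) = f := by
  funext y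
  simp [rst3, ext3]

end Fermat.Agent.PT.Loc
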