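import Mathlib
import Fermat.Agent.PT.Loc.Iface
import Fermat.Agent.PT.Loc.Inv

/-!
# W3-PT / PT-LOC (helper48): frozen leaf statements, part 2 — blocks RD, COR, INV, VAN

Language of `Loc/Basic.lean` + `Loc/Inv.lean` (relative cochains = total functions on `Gq q`).

Targets (for `E` finite over `ℚ_q`, `μ_p ⊆ E`):
* `LocPerfRel` : `invQ p q ∘ cor_{E/ℚ_q}` induces an isomorphism `H²(G_E, 𝔽_p) ≅ 𝔽_p`;
* `H3Van`      : `H³(G_E, 𝔽_p) = 0`.
The frame-language forms (adapters, abstract `VanCycAbs`, `LocBase`) are in `Loc/Top.lean`.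
-/

set_option autoImplicit false

open scoped Classical

noncomputable section

namespace Fermat.Agent.PT.Loc

/-! ## Block RD: residue degree, ramification index -/

/-- RD-RESDEG: the residue field of `K` is a subfield of the residue field of `E ⊇ K`. -/
def LFResDeg : Prop :=
  ∀ (q : ℕ) [Fact q.Prime] (K E : LF q) [FiniteDimensional ℚ_[q] K] [FiniteDimensional ℚ_[q] E],
    K ≤ E → ∃ f : ℕ, 0 < f ∧ resCard E = resCard K ^ f

/-- RD-EF: the fundamental identity `e f = [E : ℚ_q]`. -/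
def LFEF : Prop :=
  ∀ (q : ℕ) [Fact q.Prime] (E : LF q) [FiniteDimensional ℚ_[q] E] (π : Om q), IsUnif E π →
    ∃ e f : ℕ, 0 < e ∧ 0 < f ∧ ‖((q : ℕ) : Om q)‖ = ‖π‖ ^ e ∧ resCard E = q ^ f ∧
      e * f = Module.finrank ℚ_[q] E

/-- RD-QP: `q` is a uniformizer of `ℚ_q` and the residue field of `ℚ_q` has `q` elements. -/
def LFBase : Prop :=
  ∀ (q : ℕ) [Fact q.Prime], IsUnif (⊥ : LF q) ((q : ℕ) : Om q) ∧ resCard (⊥ : LF q) = q ∧
    ((qU q : (Om q)ˣ) : Om q) = ((q : ℕ) : Om q)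

/-- RD-RESIDX: compatibility of the unramified indices of `K` and `E ⊇ K`
(`f` the residue degree): `idx_K(g) = f · idx_E(g)` on `G_E`. -/
def URResIdx : Prop :=
  ∀ (q : ℕ) [Fact q.Prime] (K E : LF q) [FiniteDimensional ℚ_[q] K] [FiniteDimensional ℚ_[q] E]
    (f m : ℕ) (φ φ' : Gq q), K ≤ E → 0 < f → 0 < m → resCard E = resCard K ^ f →
    IsFrob K φ → IsFrob E φ' → ∀ g ∈ GK E,
      cycIdx (Kur K (f * m)) φ (f * m) g = f * cycIdx (Kur E m) φ' m g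

/-- UR-H2 (`H²(Ẑ, 𝔽_p) = 0`): an unramified `2`-cocycle is a continuous coboundary. -/
def URH2 : Prop :=
  ∀ (q : ℕ) [Fact q.Prime] (p : ℕ) [Fact p.Prime] (E : LF q) [FiniteDimensional ℚ_[q] E]
    (c : Gq q × Gq q → ZMod p), ACoc2 E c →
    (∃ n : ℕ, 0 < n ∧ ∀ g ∈ GK E, ∀ h ∈ GK E, ∀ s ∈ GK (Kur E n), ∀ s' ∈ GK (Kur E n),
      c (g * s, h * s') = c (g, h)) →
    ACohom E c 0

/-! ## Block COR: multiplicative corestriction `G_E → G_{ℚ_q}` -/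

/-- COR-COC: the corestriction of a continuous `2`-cocycle is a continuous `2`-cocycle. -/
def CorCoc : Prop :=
  ∀ (q : ℕ) [Fact q.Prime] (E : LF q) [FiniteDimensional ℚ_[q] E] (s : Gq q ⧸ GK E → Gq q),
    IsSec E s → ∀ β : Gq q × Gq q → (Om q)ˣ, MCoc2 E β → Cont2 E β →
      MCoc2 (⊥ : LF q) (mcor E s β) ∧ Cont2 (⊥ : LF q) (mcor E s β)

/-- COR-COHOM: corestriction respects the relation "cohomologous". -/
def CorCohom : Prop :=
  ∀ (q : ℕ) [Fact q.Prime] (E : LF q) [FiniteDimensional ℚ_[q] E] (s : Gq q ⧸ GK E → Gq q),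
    IsSec E s → ∀ β β' : Gq q × Gq q → (Om q)ˣ, MCohom E β β' →
      MCohom (⊥ : LF q) (mcor E s β) (mcor E s β')

/-- COR-RES: `cor ∘ res = [E : ℚ_q]`. -/
def CorRes : Prop :=
  ∀ (q : ℕ) [Fact q.Prime] (E : LF q) [FiniteDimensional ℚ_[q] E] (s : Gq q ⧸ GK E → Gq q),
    IsSec E s → ∀ y : Gq q × Gq q → (Om q)ˣ, MCoc2 (⊥ : LF q) y → Cont2 (⊥ : LF q) y →
      MCohom (⊥ : LF q) (mcor E s y) (fun v => y v ^ Module.finrank ℚ_[q] E)

/-- COR-TW: the additive twisted corestriction corresponds to the multiplicative one under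
`t ↦ ζ ^ t`. -/
def CorTw : Prop :=
  ∀ (q : ℕ) [Fact q.Prime] (p : ℕ) [Fact p.Prime] (E : LF q) [FiniteDimensional ℚ_[q] E]
    (s : Gq q ⧸ GK E → Gq q) (ζ : (Om q)ˣ) (χ : Gq q → ZMod p), ζ ^ p = 1 →
    (∀ g : Gq q, g • ζ = ζ ^ (χ g).val) →
    ∀ b : Gq q × Gq q → ZMod p, zpw ζ (acor E s χ b) = mcor E s (zpw ζ b)

/-! ## Block INV: the invariant -/

/-- INV-ZETA: the coherent root of unity and the cyclotomic character. -/
def ChiZeta : Prop :=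
  ∀ (q : ℕ) [Fact q.Prime] (p : ℕ) [Fact p.Prime],
    IsPrimitiveRoot (zetaL p q) p ∧ ((zetaU p q : (Om q)ˣ) : Om q) = zetaL p q ∧
    ∀ g : Gq q, g • zetaU p q = zetaU p q ^ (chiL p q g).val

/-- INV-Y: the class of `Yq` has order exactly `p`. -/
def InvY : Prop :=
  ∀ (q : ℕ) [Fact q.Prime] (p : ℕ) [Fact p.Prime] (j : ℕ),
    MCohom (⊥ : LF q) (fun y => Yq p q y ^ j) 1 ↔ p ∣ j

/-- INV-EX: a linear functional computing the invariant exists. -/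
def InvEx : Prop :=
  ∀ (q : ℕ) [Fact q.Prime] (p : ℕ) [Fact p.Prime],
    ∃ inv : (Gq q × Gq q → ZMod p) →ₗ[ZMod p] ZMod p, InvSpec p q inv

/-- INV-COR (corestriction preserves invariants): the corestriction of the standard unramified
class of `E` is the standard unramified class of `ℚ_q`. -/
def InvCor : Prop :=
  ∀ (q : ℕ) [Fact q.Prime] (p : ℕ) [Fact p.Prime] (E : LF q) [FiniteDimensional ℚ_[q] E]
    (s : Gq q ⧸ GK E → Gq q) (φ : Gq q) (π : (Om q)ˣ), IsSec E s → IsFrob E φ →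
    IsUnif E (π : Om q) → MCohom (⊥ : LF q) (mcor E s (carry (Kur E p) φ p π)) (Yq p q)

/-- INV-LG (local symbol formula): for `B^p ∈ E` of valuation `n`,
`inv (cor (κ_B ∪ χ_ur)) = -n`. -/
def InvLG : Prop :=
  ∀ (q : ℕ) [Fact q.Prime] (p : ℕ) [Fact p.Prime] (E : LF q) [FiniteDimensional ℚ_[q] E]
    (s : Gq q ⧸ GK E → Gq q) (φ : Gq q) (π : Om q) (B : (Om q)ˣ) (n : ℤ), IsSec E s →
    zetaL p q ∈ E → IsFrob E φ → IsUnif E π → ((B : Om q) ^ p) ∈ E →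
    ‖(B : Om q) ^ p‖ = ‖π‖ ^ n →
    HasInv p q (acor E s (chiL p q)
      (acup (kum p (zetaL p q) (B : Om q)) (fun g => (cycIdx (Kur E p) φ p g : ZMod p))))
      (-(n : ZMod p))

/-- INV-GEN: the corestriction of a standard generator of `H²(G_E, 𝔽_p)` has invariant `-1`. -/
def InvGen : Prop :=
  ∀ (q : ℕ) [Fact q.Prime] (p : ℕ) [Fact p.Prime] (E : LF q) [FiniteDimensional ℚ_[q] E]
    (s : Gq q ⧸ GK E → Gq q) (c₀ : Gq q × Gq q → ZMod p), IsSec E s → zetaL p q ∈ E →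
    IsGen p E (zetaL p q) c₀ → HasInv p q (acor E s (chiL p q) c₀) (-1)

/-- INV-COB: the corestriction of a continuous additive coboundary of `G_E` has invariant `0`. -/
def InvCob : Prop :=
  ∀ (q : ℕ) [Fact q.Prime] (p : ℕ) [Fact p.Prime] (E : LF q) [FiniteDimensional ℚ_[q] E]
    (s : Gq q ⧸ GK E → Gq q) (b : Gq q × Gq q → ZMod p), IsSec E s → zetaL p q ∈ E →
    ACohom E b 0 → HasInv p q (acor E s (chiL p q) b) 0

/-- INV-ADD: `HasInv` is additive and compatible with scalars. -/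
def InvAdd : Prop :=
  ∀ (q : ℕ) [Fact q.Prime] (p : ℕ) [Fact p.Prime] (z z' : Gq q × Gq q → ZMod p)
    (t t' a : ZMod p), HasInv p q z t → HasInv p q z' t' →
      HasInv p q (z + z') (t + t') ∧ HasInv p q (a • z) (a * t) ∧ (HasInv p q z t' → t = t')

/-- LOC-PERF (relative form of `LPerf2` for the trivial module of `G_E`): `invQ ∘ cor` induces an
isomorphism `H²(G_E, 𝔽_p) ≅ 𝔽_p`. -/
def LocPerfRel : Prop :=
  ∀ (q : ℕ) [Fact q.Prime] (p : ℕ) [Fact p.Prime] (E : LF q) [FiniteDimensional ℚ_[q] E]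
    (s : Gq q ⧸ GK E → Gq q), IsSec E s → zetaL p q ∈ E →
    (∀ b : Gq q × Gq q → ZMod p, ACoc2 E b → Cont2 E b →
      invQ p q (acor E s (chiL p q) b) = 0 → ACohom E b 0) ∧
    (∃ b : Gq q × Gq q → ZMod p, ACoc2 E b ∧ Cont2 E b ∧
      invQ p q (acor E s (chiL p q) b) ≠ 0)

/-! ## Block VAN: `H³(G_K, 𝔽_p) = 0` -/

/-- VAN-RESGEN: a standard generator of `H²(G_K, 𝔽_p)` dies in a cyclic extension of
degree `p`. -/
def ResZeroGen : Prop :=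
  ∀ (q : ℕ) [Fact q.Prime] (p : ℕ) [Fact p.Prime] (K K₁ : LF q) [FiniteDimensional ℚ_[q] K]
    (ζ : Om q) (σ : Gq q), ζ ∈ K → IsPrimitiveRoot ζ p → IsCyc K K₁ p σ →
    ∀ c₀, IsGen p K ζ c₀ → ACohom K₁ c₀ 0

/-- VAN-RESZERO: restriction `H²(G_K, 𝔽_p) → H²(G_{K₁}, 𝔽_p)` is zero for `K₁/K` cyclic of
degree `p`. -/
def ResZero : Prop :=
  ∀ (q : ℕ) [Fact q.Prime] (p : ℕ) [Fact p.Prime] (K K₁ : LF q) [FiniteDimensional ℚ_[q] K]
    (ζ : Om q) (σ : Gq q), ζ ∈ K → IsPrimitiveRoot ζ p → IsCyc K K₁ p σ →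
    ∀ c : Gq q × Gq q → ZMod p, ACoc2 K c → Cont2 K c → ACohom K₁ c 0

/-- VAN-TOWER3: `B0Tower` for `3`-cochains. -/
def Tower3 : Prop :=
  ∀ (q : ℕ) [Fact q.Prime] (p : ℕ) [Fact p.Prime] (K : LF q) [FiniteDimensional ℚ_[q] K]
    (c : Gq q × Gq q × Gq q → ZMod p), Cont3 K c →
    ∃ (m : ℕ) (T : ℕ → LF q) (σ : ℕ → Gq q),
      K ≤ T 0 ∧ (∀ i, i ≤ m → FiniteDimensional ℚ_[q] (T i)) ∧
      ¬ p ∣ ((GK (T 0)).subgroupOf (GK K)).index ∧
      (∀ i, i < m → IsCyc (T i) (T (i + 1)) p (σ i)) ∧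
      ∀ g ∈ GK (T m), ∀ h ∈ GK (T m), ∀ j ∈ GK (T m), c (g, h, j) = c (1, 1, 1)

/-- VAN-COPRIME3: restriction is injective on `H³` in index prime to `p`. -/
def VanCoprime3 : Prop :=
  ∀ (q : ℕ) [Fact q.Prime] (p : ℕ) [Fact p.Prime] (K K₁ : LF q) [FiniteDimensional ℚ_[q] K]
    [FiniteDimensional ℚ_[q] K₁], K ≤ K₁ → ¬ p ∣ ((GK K₁).subgroupOf (GK K)).index →
    ∀ c : Gq q × Gq q × Gq q → ZMod p, ACoc3 K c → Cont3 K c → ACob3 K₁ c → ACob3 K c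

/-- VAN-STEP: restriction is injective on `H³` for `K₁/K` cyclic of degree `p`, `μ_p ⊆ K`. -/
def VanStep : Prop :=
  ∀ (q : ℕ) [Fact q.Prime] (p : ℕ) [Fact p.Prime] (K K₁ : LF q) [FiniteDimensional ℚ_[q] K]
    (ζ : Om q) (σ : Gq q), ζ ∈ K → IsPrimitiveRoot ζ p → IsCyc K K₁ p σ →
    ∀ c : Gq q × Gq q × Gq q → ZMod p, ACoc3 K c → Cont3 K c → ACob3 K₁ c → ACob3 K c

/-- VAN (`H³(G_K, 𝔽_p) = 0` for `μ_p ⊆ K`). -/
def H3Van : Prop :=
  ∀ (q : ℕ) [Fact q.Prime] (p : ℕ) [Fact p.Prime] (K : LF q) [FiniteDimensional ℚ_[q] K]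
    (ζ : Om q), ζ ∈ K → IsPrimitiveRoot ζ p →
    ∀ c : Gq q × Gq q × Gq q → ZMod p, ACoc3 K c → Cont3 K c → ACob3 K c

end Fermat.Agent.PT.Loc
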