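/-
W3-PT (S55), PT-LOC part 2, leaf LOC2-RD-BASE (helper96): `q` is a uniformizer of `ℚ_q`, the
residue field of `ℚ_q` has `q` elements, and `qU q = q`.

`h96b_lfBase : LFBase` (unconditional).  `resCard ⊥ = q` comes from helper74's counting identity
`h74v_ef` (`N ^ e = q ^ [L : ℚ_q]`) with `L = ⊥`, `π = q`, `e = 1`.
-/
import Mathlib
import Fermat.Agent.PT.Loc.Iface2
import Fermat.Agent.PT.Loc.H74URValEF
import Fermat.Agent.PT.Loc.H34LFTeich

set_option autoImplicit false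

namespace Fermat.Agent.PT.Loc

variable (q : ℕ) [Fact q.Prime]

/-- `‖q‖ = 1/q` in `PadicAlgCl q`. -/
theorem h96b_norm_q : ‖((q : ℕ) : Om q)‖ = (q : ℝ)⁻¹ := by
  have h1 : ((q : ℕ) : Om q) = algebraMap ℚ_[q] (Om q) ((q : ℕ) : ℚ_[q]) := by
    rw [map_natCast]
  rw [h1, norm_algebraMap']
  exact Padic.norm_p

theorem h96b_q_ne_zero : ((q : ℕ) : Om q) ≠ 0 := by
  have hq : q.Prime := Fact.out
  exact_mod_cast hq.ne_zero

/-- `q` is a uniformizer of `ℚ_q`. -/
theorem h96b_isUnif_q : IsUnif (⊥ : LF q) ((q : ℕ) : Om q) := by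
  have hq : q.Prime := Fact.out
  have hq1 : (1 : ℝ) < q := by exact_mod_cast hq.one_lt
  refine ⟨natCast_mem _ q, h96b_q_ne_zero q, ?_, ?_⟩
  · rw [h96b_norm_q]
    exact inv_lt_one_of_one_lt₀ hq1
  · intro x hx hx1
    obtain ⟨y, rfl⟩ := IntermediateField.mem_bot.mp hx
    rw [norm_algebraMap'] at hx1 ⊢
    rw [h96b_norm_q]
    have h := (Padic.norm_le_pow_iff_norm_lt_pow_add_one y (-1)).mpr (by simpa using hx1)
    simpa using h

/-- The residue field of `ℚ_q` has `q` elements. -/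
theorem h96b_resCard_bot : resCard (⊥ : LF q) = q := by
  have h := h74v_ef (⊥ : LF q) h34lf_lfTeich (h96b_isUnif_q q) (e := 1) (by rw [pow_one])
  rw [pow_one, IntermediateField.finrank_bot, pow_one] at h
  exact h

/-- **LOC2-RD-BASE.** -/
theorem h96b_lfBase : LFBase := by
  intro q _
  refine ⟨h96b_isUnif_q q, h96b_resCard_bot q, ?_⟩
  unfold qU
  rw [dif_neg (h96b_q_ne_zero q)]
  rfl

end Fermat.Agent.PT.Loc
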