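import Mathlib
import Fermat.Agent.PT.Loc.H36URBase

/-!
# W3-PT / PT-LOC, leaf LOC-UR-FROB (helper36): Frobenius elements exist

`h36_urFrob (hT : LFTeich) : URFrob`.

The profinite group `Gal(Om/K)` acts on the unit ball `B` of `Om = PadicAlgCl q` with invariants
the unit ball `A` of `K`; by `Ideal.Quotient.stabilizerHom_surjective_of_profinite` every
automorphism of the residue ring `B/Q` over `A/P` is induced by an element of `Gal(Om/K)`.  The
map `x ↦ x ^ N`, `N = resCard K = q ^ f`, is such an automorphism (Teichmüller representatives),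
and roots of unity of order prime to `q` are separated by the reduction.
-/

set_option autoImplicit false
set_option linter.style.haveILetI false

open scoped Classical Pointwise

noncomputable section

namespace Fermat.Agent.PT.Loc

variable {q : ℕ} [Fact q.Prime] (K : LF q)

/-! ### Galois theory of `Om / K` -/

theorem h36f_isAlgebraic : Algebra.IsAlgebraic K (Om q) :=
  Algebra.IsAlgebraic.tower_top (K := ℚ_[q]) K

theorem h36f_isGalois : IsGalois K (Om q) :=
  haveI := h36f_isAlgebraic K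
  haveI : IsAlgClosure K (Om q) := ⟨inferInstance, inferInstance⟩
  IsAlgClosure.isGalois K (Om q)

theorem h36f_norm_aut (σ : Om q ≃ₐ[K] Om q) (x : Om q) : ‖σ x‖ = ‖x‖ :=
  h36u_norm_aut (σ.restrictScalars ℚ_[q]) x

/-- the Galois action on the unit ball. -/
@[reducible] def h36f_act : MulSemiringAction (Om q ≃ₐ[K] Om q) (h36u_B q) where
  smul σ b := ⟨σ b.1, by
    show ‖σ b.1‖ ≤ 1
    rw [h36f_norm_aut]
    exact b.2⟩
  one_smul _ := Subtype.ext rfl
  mul_smul _ _ _ := Subtype.ext rfl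
  smul_zero σ := Subtype.ext (map_zero σ)
  smul_add σ _ _ := Subtype.ext (map_add σ _ _)
  smul_one σ := Subtype.ext (map_one σ)
  smul_mul σ _ _ := Subtype.ext (map_mul σ _ _)

attribute [local instance] h36f_act

theorem h36f_act_coe (σ : Om q ≃ₐ[K] Om q) (b : h36u_B q) :
    ((σ • b : h36u_B q) : Om q) = σ b.1 := rfl

/-- the unit ball of `K`, as a subring of the unit ball of `Om q`. -/
def h36f_A : Subring (h36u_B q) where
  carrier := {b | (b : Om q) ∈ K}
  mul_mem' := fun {a b} ha hb => by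
    show ((a * b : h36u_B q) : Om q) ∈ K
    push_cast
    exact mul_mem ha hb
  one_mem' := by
    show ((1 : h36u_B q) : Om q) ∈ K
    push_cast
    exact one_mem K
  add_mem' := fun {a b} ha hb => by
    show ((a + b : h36u_B q) : Om q) ∈ K
    push_cast
    exact add_mem ha hb
  zero_mem' := by
    show ((0 : h36u_B q) : Om q) ∈ K
    push_cast
    exact zero_mem K
  neg_mem' := fun {a} ha => by
    show ((-a : h36u_B q) : Om q) ∈ K
    push_cast
    exact neg_mem ha

theorem h36f_mem_A {b : h36u_B q} : b ∈ h36f_A K ↔ (b : Om q) ∈ K := Iff.rfl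

theorem h36f_algebraMap_A (a : h36f_A K) : algebraMap (h36f_A K) (h36u_B q) a = (a : h36u_B q) :=
  rfl

instance h36f_smulComm : SMulCommClass (Om q ≃ₐ[K] Om q) (h36f_A K) (h36u_B q) where
  smul_comm σ a b := by
    rw [Algebra.smul_def, Algebra.smul_def, h36f_algebraMap_A, smul_mul']
    congr 1
    apply Subtype.ext
    exact σ.commutes ⟨(a : h36u_B q).1, a.2⟩

theorem h36f_isInvariant :
    Algebra.IsInvariant (h36f_A K) (h36u_B q) (Om q ≃ₐ[K] Om q) := by
  haveI := h36f_isGalois K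
  refine ⟨fun b hb => ?_⟩
  have hfix : ∀ σ : Om q ≃ₐ[K] Om q, σ b.1 = b.1 := fun σ => congrArg Subtype.val (hb σ)
  have hbot : (b.1 : Om q) ∈ (⊥ : IntermediateField K (Om q)) :=
    (InfiniteGalois.mem_bot_iff_fixed b.1).mpr hfix
  obtain ⟨x, hx⟩ := IntermediateField.mem_bot.mp hbot
  have hxK : (b : Om q) ∈ K := by
    rw [← hx]
    exact x.2
  exact ⟨⟨b, hxK⟩, rfl⟩

theorem h36f_continuous_smul (b : h36u_B q) :
    @Continuous _ _ _ (⊥ : TopologicalSpace (h36u_B q))
      (fun σ : Om q ≃ₐ[K] Om q => σ • b) := by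
  let _ : TopologicalSpace (h36u_B q) := ⊥
  have : DiscreteTopology (h36u_B q) := ⟨rfl⟩
  haveI := h36f_isAlgebraic K
  refine IsLocallyConstant.continuous ?_
  rw [IsLocallyConstant.iff_exists_open]
  intro σ₀
  have hopen : IsOpen ((MulAction.stabilizer (Om q ≃ₐ[K] Om q) (b.1 : Om q) :
      Set (Om q ≃ₐ[K] Om q))) :=
    stabilizer_isOpen_of_isIntegral (K := K) (L := Om q) b.1
  refine ⟨(fun τ => σ₀⁻¹ * τ) ⁻¹' (MulAction.stabilizer (Om q ≃ₐ[K] Om q) (b.1 : Om q) :
      Set (Om q ≃ₐ[K] Om q)), hopen.preimage (continuous_const_mul σ₀⁻¹), ?_, ?_⟩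
  · show σ₀⁻¹ * σ₀ ∈ MulAction.stabilizer _ _
    rw [inv_mul_cancel]
    exact one_mem _
  · intro τ hτ
    have h : (σ₀⁻¹ * τ) • (b.1 : Om q) = b.1 := hτ
    apply Subtype.ext
    show τ b.1 = σ₀ b.1
    have h2 := congrArg (fun x => σ₀ • x) h
    simp only [smul_smul, mul_inv_cancel_left] at h2
    exact h2

/-! ### The Frobenius automorphism of the residue ring -/

/-- Teichmüller: `a ^ N ≡ a` modulo the open unit ball, for `a` in the unit ball of `K`. -/
theorem h36f_pow_resCard_mk (hT : LFTeich) [FiniteDimensional ℚ_[q] K] (a : h36f_A K) :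
    Ideal.Quotient.mk (h36u_Q q) ((a : h36u_B q) ^ resCard K) =
      Ideal.Quotient.mk (h36u_Q q) (a : h36u_B q) := by
  obtain ⟨-, ⟨f, hf, hN⟩, hpow, hrep, -⟩ := hT q K
  have hN1 : 1 ≤ resCard K := Nat.succ_le_succ (Nat.zero_le _)
  by_cases hlt : ‖((a : h36u_B q) : Om q)‖ < 1
  · have h1 : (a : h36u_B q) ∈ h36u_Q q := hlt
    have h2 : (a : h36u_B q) ^ resCard K ∈ h36u_Q q :=
      Ideal.pow_mem_of_mem _ h1 _ hN1
    rw [Ideal.Quotient.eq_zero_iff_mem.mpr h1, Ideal.Quotient.eq_zero_iff_mem.mpr h2]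
  · have hone : ‖((a : h36u_B q) : Om q)‖ = 1 := le_antisymm (a : h36u_B q).2 (not_lt.mp hlt)
    obtain ⟨w, hw, hwa⟩ := hrep _ a.2 hone
    have hwN : w ^ (resCard K - 1) = 1 := hpow w hw
    have hwN' : w ^ resCard K = w := by
      have e : resCard K = (resCard K - 1) + 1 := by omega
      rw [e, pow_succ, hwN, one_mul]
    obtain ⟨-, m, hm, -, hwm⟩ := hw
    have hwB : w ∈ h36u_B q := (h36u_norm_eq_one_of_pow hm hwm).le
    have hmk : Ideal.Quotient.mk (h36u_Q q) (a : h36u_B q) =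
        Ideal.Quotient.mk (h36u_Q q) ⟨w, hwB⟩ := (h36u_mk_eq_mk_iff _ _).2 hwa
    rw [map_pow, hmk, ← map_pow]
    congr 1
    exact Subtype.ext hwN'

/-- **LOC-UR-FROB.** -/
theorem h36_urFrob (hT : LFTeich) : URFrob := by
  intro q _ K _
  obtain ⟨-, ⟨f, hf, hN⟩, -, -, -⟩ := hT q K
  have hq : q.Prime := Fact.out
  have hNpos : 0 < resCard K := Nat.succ_pos _
  letI : TopologicalSpace (h36u_B q) := ⊥
  haveI : DiscreteTopology (h36u_B q) := ⟨rfl⟩
  haveI := h36f_isGalois K
  haveI := h36f_isAlgebraic K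
  haveI : CompactSpace (Om q ≃ₐ[K] Om q) := inferInstance
  haveI : TotallyDisconnectedSpace (Om q ≃ₐ[K] Om q) := inferInstance
  haveI : ContinuousSMul (Om q ≃ₐ[K] Om q) (h36u_B q) :=
    ⟨continuous_prod_of_discrete_right.mpr (h36f_continuous_smul K)⟩
  haveI := h36f_isInvariant K
  let P : Ideal (h36f_A K) := (h36u_Q q).under (h36f_A K)
  haveI : (h36u_Q q).LiesOver P := ⟨rfl⟩
  -- the Frobenius of the residue ring
  have hbij : Function.Bijective (iterateFrobenius (h36u_B q ⧸ h36u_Q q) q f) := by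
    constructor
    · exact iterateFrobenius_inj _ q f
    · intro y
      obtain ⟨b, rfl⟩ := Ideal.Quotient.mk_surjective y
      obtain ⟨z, hz⟩ := IsAlgClosed.exists_pow_nat_eq (b : Om q) (pow_pos hq.pos f)
      have hzB : z ∈ h36u_B q := by
        show ‖z‖ ≤ 1
        have h1 : ‖z‖ ^ (q ^ f) ≤ 1 := by
          rw [← norm_pow, hz]
          exact b.2
        exact (pow_le_one_iff_of_nonneg (norm_nonneg z) (pow_pos hq.pos f).ne').mp h1
      refine ⟨Ideal.Quotient.mk (h36u_Q q) ⟨z, hzB⟩, ?_⟩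
      rw [iterateFrobenius_def, ← map_pow]
      congr 1
      exact Subtype.ext hz
  let φ₀ : (h36u_B q ⧸ h36u_Q q) →ₐ[h36f_A K ⧸ P] (h36u_B q ⧸ h36u_Q q) :=
    { iterateFrobenius (h36u_B q ⧸ h36u_Q q) q f with
      commutes' := fun r => by
        obtain ⟨a, rfl⟩ := Ideal.Quotient.mk_surjective r
        show iterateFrobenius (h36u_B q ⧸ h36u_Q q) q f
          (Ideal.Quotient.mk (h36u_Q q) (a : h36u_B q)) =
            Ideal.Quotient.mk (h36u_Q q) (a : h36u_B q)
        rw [iterateFrobenius_def, ← map_pow, ← hN]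
        exact h36f_pow_resCard_mk K hT a }
  let φ : (h36u_B q ⧸ h36u_Q q) ≃ₐ[h36f_A K ⧸ P] (h36u_B q ⧸ h36u_Q q) :=
    AlgEquiv.ofBijective φ₀ hbij
  obtain ⟨⟨σ, hσ⟩, hσφ⟩ := Ideal.Quotient.stabilizerHom_surjective_of_profinite
    (G := Om q ≃ₐ[K] Om q) P (h36u_Q q) φ
  have key : ∀ b : h36u_B q, ‖σ (b : Om q) - (b : Om q) ^ resCard K‖ < 1 := by
    intro b
    have h := congrArg (fun ψ => ψ (Ideal.Quotient.mk (h36u_Q q) b)) hσφ
    have h' : Ideal.Quotient.mk (h36u_Q q) (σ • b) =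
        Ideal.Quotient.mk (h36u_Q q) (b ^ resCard K) := by
      rw [map_pow, hN, ← iterateFrobenius_def]
      exact h
    have h2 := (h36u_mk_eq_mk_iff _ _).1 h'
    have e : ((b ^ resCard K : h36u_B q) : Om q) = (b : Om q) ^ resCard K := by push_cast; rfl
    rw [e] at h2
    exact h2
  refine ⟨σ.restrictScalars ℚ_[q], ?_, ?_⟩
  · show σ.restrictScalars ℚ_[q] ∈ K.fixingSubgroup
    rw [IntermediateField.mem_fixingSubgroup_iff]
    intro x hx
    exact σ.commutes ⟨x, hx⟩
  · intro w m hm hqm hw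
    show σ w = w ^ resCard K
    have hwB : w ∈ h36u_B q := (h36u_norm_eq_one_of_pow hm hw).le
    refine h36u_eq_of_norm_sub_lt hm hqm ?_ ?_ (key ⟨w, hwB⟩)
    · rw [← map_pow, hw, map_one]
    · rw [← pow_mul, mul_comm, pow_mul, hw, one_pow]

end Fermat.Agent.PT.Loc
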