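import Mathlib
import Fermat.Agent.PT.Loc.Iface2
import Fermat.Agent.PT.Shap.ShapIface

/-!
# W3-PT / PT-LOC (helper48): frozen statements in the language of the frame (`PT/Defs.lean`)

* `levLoc q`, `levK K`, `chiQ p q` : the local level systems and the local cyclotomic character;
* adapters `AdGood`, `AdCont`, `AdCoh`, `AdCyc`, `AdSub`, `AdCor` between the relative cochains of
  `Loc/Basic.lean` (total functions on `Gq q`) and the cochains of the subtype `↥(GK K)`;
* `VanCycAbs` : the abstract (pure algebra) cyclic step for the vanishing of `H³`;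
* `InvOKq`, `InvTotal` : properties of `invQ p q` in frame language;
* `LocTriv`  : `H³ = 0` and `LPerf2` for the trivial module of an open `V ≤ Gq q`, `χ|_V = 1`,
  for the restricted invariant `h56s_invR s (chiQ p q) (invQ p q)` (vocabulary of PT-SHAP);
* `LocBase`  : THE DELIVERABLE OF PT-LOC: `H³ = 0` and `LPerf2` for `permRep (ZMod p) V`.
-/

set_option autoImplicit false

open scoped Classical

noncomputable section

namespace Fermat.Agent.PT.Loc

open ExtCitation Fermat.Agent.PT Fermat.Agent.PT.Shap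

/-! ## Levels and the character -/

/-- The local level system of `Gq q` (the one of the frame: `levFin` pulled back). -/
def levLoc (q : ℕ) [Fact q.Prime] : Lev (Gq q) := levFin.comap (localGaloisToGlobal q)

/-- The level system of `G_K` as a group of its own. -/
def levK {q : ℕ} [Fact q.Prime] (K : LF q) : Lev ↥(GK K) := (levLoc q).comap (GK K).subtype

/-- The local mod `p` cyclotomic character (the one of the frame). -/
def chiQ (p : ℕ) [Fact p.Prime] (q : ℕ) [Fact q.Prime] : Gq q →* (ZMod p)ˣ :=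
  (cycloChar p).comp (localGaloisToGlobal q)

/-! ## Adapters -/

/-- AD-GOOD: the local level systems are good. -/
def AdGood : Prop :=
  ∀ (q : ℕ) [Fact q.Prime], (levLoc q).Good ∧ ∀ K : LF q, (levK K).Good

/-- AD-CONT: level-constant on the subtype = continuous in the relative sense. -/
def AdCont : Prop :=
  ∀ (q : ℕ) [Fact q.Prime] (K : LF q) [FiniteDimensional ℚ_[q] K] (X : Type),
    (∀ f : Gq q → X, IsLC1 (levK K) (rst1 K f) ↔ Cont1 K f) ∧
    (∀ f : Gq q × Gq q → X, IsLC2 (levK K) (rst2 K f) ↔ Cont2 K f) ∧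
    (∀ f : Gq q × Gq q × Gq q → X, IsLC3 (levK K) (rst3 K f) ↔ Cont3 K f)

/-- AD-COH: cocycles and coboundaries of the subtype (trivial coefficients) versus the relative
notions. -/
def AdCoh : Prop :=
  ∀ (q : ℕ) [Fact q.Prime] (p : ℕ) [Fact p.Prime] (K : LF q) [FiniteDimensional ℚ_[q] K],
    (∀ χ : Gq q → ZMod p,
      rst1 K χ ∈ Z1 (levK K) (Representation.trivial (ZMod p) ↥(GK K) (ZMod p)) ↔
        ACoc1 K χ ∧ Cont1 K χ) ∧
    (∀ c : Gq q × Gq q → ZMod p,
      rst2 K c ∈ Z2 (levK K) (Representation.trivial (ZMod p) ↥(GK K) (ZMod p)) ↔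
        ACoc2 K c ∧ Cont2 K c) ∧
    (∀ c : Gq q × Gq q → ZMod p,
      rst2 K c ∈ B2 (levK K) (Representation.trivial (ZMod p) ↥(GK K) (ZMod p)) ↔
        ACohom K c 0) ∧
    (∀ c : Gq q × Gq q × Gq q → ZMod p,
      rst3 K c ∈ Z3 (levK K) (Representation.trivial (ZMod p) ↥(GK K) (ZMod p)) ↔
        ACoc3 K c ∧ Cont3 K c) ∧
    (∀ c : Gq q × Gq q × Gq q → ZMod p,
      rst3 K c ∈ B3 (levK K) (Representation.trivial (ZMod p) ↥(GK K) (ZMod p)) ↔
        ACob3 K c)

/-- AD-CYC: a cyclic extension of degree `n` gives a normal open subgroup of index `n`. -/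
def AdCyc : Prop :=
  ∀ (q : ℕ) [Fact q.Prime] (K K₁ : LF q) [FiniteDimensional ℚ_[q] K] (n : ℕ) (σ : Gq q),
    IsCyc K K₁ n σ →
      ((GK K₁).subgroupOf (GK K)).Normal ∧ ((GK K₁).subgroupOf (GK K)).index = n ∧
        (levK K).IsOpen ((GK K₁).subgroupOf (GK K))

/-- AD-SUB: cocycles and coboundaries of the subgroup `G_{K₁}` of the group `↥(GK K)`
(with the induced levels) versus the relative notions for `K₁`. -/
def AdSub : Prop :=
  ∀ (q : ℕ) [Fact q.Prime] (p : ℕ) [Fact p.Prime] (K K₁ : LF q) [FiniteDimensional ℚ_[q] K]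
    [FiniteDimensional ℚ_[q] K₁], K ≤ K₁ →
    (∀ c : Gq q × Gq q → ZMod p,
      res2 (ZMod p) (ZMod p) ((GK K₁).subgroupOf (GK K)).subtype (rst2 K c) ∈
        Z2 ((levK K).comap ((GK K₁).subgroupOf (GK K)).subtype)
          (Representation.trivial (ZMod p) ↥((GK K₁).subgroupOf (GK K)) (ZMod p)) ↔
        ACoc2 K₁ c ∧ Cont2 K₁ c) ∧
    (∀ c : Gq q × Gq q → ZMod p,
      res2 (ZMod p) (ZMod p) ((GK K₁).subgroupOf (GK K)).subtype (rst2 K c) ∈
        B2 ((levK K).comap ((GK K₁).subgroupOf (GK K)).subtype)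
          (Representation.trivial (ZMod p) ↥((GK K₁).subgroupOf (GK K)) (ZMod p)) ↔
        ACohom K₁ c 0) ∧
    (∀ c : Gq q × Gq q × Gq q → ZMod p,
      res3 (ZMod p) (ZMod p) ((GK K₁).subgroupOf (GK K)).subtype (rst3 K c) ∈
        B3 ((levK K).comap ((GK K₁).subgroupOf (GK K)).subtype)
          (Representation.trivial (ZMod p) ↥((GK K₁).subgroupOf (GK K)) (ZMod p)) ↔
        ACob3 K₁ c)

/-- AD-COR: the restricted invariant of PT-SHAP is `invQ ∘ acor`. -/
def AdCor : Prop :=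
  ∀ (q : ℕ) [Fact q.Prime] (p : ℕ) [Fact p.Prime] (E : LF q) [FiniteDimensional ℚ_[q] E]
    [(GK E).FiniteIndex] (s : h56s_Sec (Gq q) (GK E)) (inv : (Gq q × Gq q → ZMod p) →ₗ[ZMod p] ZMod p)
    (b : Gq q × Gq q → ZMod p),
    IsSec E s.gsec ∧
      h56s_invR s (chiQ p q) inv (rst2 E b) = inv (acor E s.gsec (chiL p q) b)

/-! ## The abstract cyclic step for `H³` -/

/-- VAN-CYC (pure algebra): let `H ◁ G` be open of index `p`, coefficients `𝔽_p` (trivial action).
If (i) `dim H²(G) ≤ 1`, (ii) `χ ∪ ψ ≠ 0` for some `ψ` whenever `χ ≠ 0` is a character of `G/H`,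
(iii) `H²(H) ≠ 0`, (iv) the restriction `H²(G) → H²(H)` is zero, then the restriction
`H³(G) → H³(H)` is injective. -/
def VanCycAbs : Prop :=
  ∀ (p : ℕ) [Fact p.Prime] (G : Type) [Group G] (L : Lev G), L.Good →
    ∀ (H : Subgroup G), H.Normal → L.IsOpen H → H.index = p →
    (∃ c₀ ∈ Z2 L (Representation.trivial (ZMod p) G (ZMod p)),
      ∀ c ∈ Z2 L (Representation.trivial (ZMod p) G (ZMod p)),
        ∃ t : ZMod p, c - t • c₀ ∈ B2 L (Representation.trivial (ZMod p) G (ZMod p))) →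
    (∀ χ ∈ Z1 L (Representation.trivial (ZMod p) G (ZMod p)), (∀ h ∈ H, χ h = 0) → χ ≠ 0 →
      ∃ ψ ∈ Z1 L (Representation.trivial (ZMod p) G (ZMod p)),
        cup11 (LinearMap.mul (ZMod p) (ZMod p)) (Representation.trivial (ZMod p) G (ZMod p)) χ ψ ∉
          B2 L (Representation.trivial (ZMod p) G (ZMod p))) →
    (∃ c ∈ Z2 (L.comap H.subtype) (Representation.trivial (ZMod p) ↥H (ZMod p)),
      c ∉ B2 (L.comap H.subtype) (Representation.trivial (ZMod p) ↥H (ZMod p))) →
    (∀ c ∈ Z2 L (Representation.trivial (ZMod p) G (ZMod p)),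
      res2 (ZMod p) (ZMod p) H.subtype c ∈
        B2 (L.comap H.subtype) (Representation.trivial (ZMod p) ↥H (ZMod p))) →
    ∀ c ∈ Z3 L (Representation.trivial (ZMod p) G (ZMod p)),
      res3 (ZMod p) (ZMod p) H.subtype c ∈
        B3 (L.comap H.subtype) (Representation.trivial (ZMod p) ↥H (ZMod p)) →
      c ∈ B3 L (Representation.trivial (ZMod p) G (ZMod p))

/-! ## The invariant in frame language -/

/-- INV-OK: `invQ p q` kills the continuous coboundaries of `𝔽_p(χ) = μ_p`. -/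
def InvOKq : Prop :=
  ∀ (q : ℕ) [Fact q.Prime] (p : ℕ) [Fact p.Prime], InvOK (levLoc q) (chiQ p q) (invQ p q)

/-- INV-TOTAL (`Br(ℚ_q)[p]` is generated by `Yq`): every continuous `2`-cocycle of `G_{ℚ_q}` with
values in `μ_p` has an invariant. -/
def InvTotal : Prop :=
  ∀ (q : ℕ) [Fact q.Prime] (p : ℕ) [Fact p.Prime],
    ∀ z ∈ Z2 (levLoc q) (chiRep (chiQ p q)), ∃ t : ZMod p, HasInv p q z t

/-! ## The deliverables -/

/-- LOC-TRIV: for `V ≤ Gq q` open with `χ|_V = 1`: `H³(V, 𝔽_p) = 0` and `invQ ∘ cor` induces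
`H²(V, 𝔽_p) ≅ 𝔽_p` (vocabulary of PT-SHAP, `h56s_ShapLocal`). -/
def LocTriv : Prop :=
  ∀ (q : ℕ) [Fact q.Prime] (p : ℕ) [Fact p.Prime] (V : Subgroup (Gq q)) [V.FiniteIndex],
    p ≠ 2 → (levLoc q).IsOpen V → (∀ u ∈ V, chiQ p q u = 1) → ∀ s : h56s_Sec (Gq q) V,
      H3Vanishes ((levLoc q).comap V.subtype) (Representation.trivial (ZMod p) ↥V (ZMod p)) ∧
      LPerf2 ((levLoc q).comap V.subtype) (h56s_invR s (chiQ p q) (invQ p q))
        (Representation.trivial (ZMod p) ↥V (ZMod p))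
        (Representation.trivial (ZMod p) ↥V (ZMod p)) (LinearMap.mul (ZMod p) (ZMod p))

/-- **LOC-BASE** (the deliverable of PT-LOC, local clause of `ArithBase2` with
`invAt tr q = invQ p q`): for every open `V ≤ Gq q` with `χ|_V = 1`, `H³(Gq q, permRep V) = 0`
and the local duality `H² × H⁰` of `permRep V` is perfect for `invQ p q`. -/
def LocBase : Prop :=
  ∀ (q : ℕ) [Fact q.Prime] (p : ℕ) [Fact p.Prime] (V : Subgroup (Gq q)),
    p ≠ 2 → (levLoc q).IsOpen V → (∀ u ∈ V, chiQ p q u = 1) →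
      H3Vanishes (levLoc q) (permRep (ZMod p) V) ∧
      LPerf2 (levLoc q) (invQ p q) (permRep (ZMod p) V) (dualTw (chiQ p q) (permRep (ZMod p) V))
        (Module.Dual.eval (ZMod p) _)

end Fermat.Agent.PT.Loc
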