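import Mathlib
import Fermat.Agent.PT.Loc.Top
import Fermat.Agent.PT.Arith.Iface

/-!
# W3-PT / PT-LOC (helper48): the family `invFam p` and the wiring to `PT/Arith/Iface.lean`

`h48_locInputs : InvOKq → LocBase → LocInvOK p (invFam p) ∧ LocBaseFor p (invFam p)` (`p ≠ 2`).
-/

set_option autoImplicit false
set_option linter.style.haveILetI false

open scoped Classical

noncomputable section

namespace Fermat.Agent.PT.Loc

open ExtCitation

/-- The family of local invariants `q ↦ invQ p q`. -/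
def invFam (p : ℕ) [Fact p.Prime] : Fermat.Agent.PT.InvFam p := fun q =>
  letI : Fact (q : ℕ).Prime := ⟨q.2⟩
  invQ p (q : ℕ)

theorem h48_locInvOK (hI : InvOKq) (p : ℕ) [Fact p.Prime] :
    Fermat.Agent.PT.LocInvOK p (invFam p) := by
  intro q
  letI : Fact (q : ℕ).Prime := ⟨q.2⟩
  exact hI (q : ℕ) p

theorem h48_locBaseFor (hB : LocBase) (p : ℕ) [Fact p.Prime] (hp2 : p ≠ 2) :
    Fermat.Agent.PT.LocBaseFor p (invFam p) := by
  intro q U hU hχ
  letI : Fact (q : ℕ).Prime := ⟨q.2⟩
  exact hB (q : ℕ) p U hp2 hU hχ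

end Fermat.Agent.PT.Loc
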