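import Mathlib
import Fermat.Agent.PT.Loc.Iface2

/-!
# W3-PT / PT-LOC (helper48): frozen leaf statements, part 3 — local inputs of PT-GLOB-K

Relative language of `Loc/Basic.lean` + `Loc/Inv.lean`.  These are the local facts behind the
Props `LocInj`, `LocNondeg`, `LocDim`, `TrGen` of `PT/Glob/KIface2.lean` (helper47) and the leaf
`LOC-UNR` requested by PT-GLOB-K.
-/

set_option autoImplicit false

open scoped Classical

noncomputable section

namespace Fermat.Agent.PT.Loc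

/-- INERT-EXT: `G_{Kur K n} ⊆ G_F · I_K` for `F ⊇ K` of residue degree `n` over `K`
(an automorphism of the maximal unramified extension fixing `F ∩ K^ur = Kur K n` extends to an
element of `G_F`). -/
def InertExt : Prop :=
  ∀ (q : ℕ) [Fact q.Prime] (K F : LF q) [FiniteDimensional ℚ_[q] K] [FiniteDimensional ℚ_[q] F]
    (n : ℕ), K ≤ F → 0 < n → resCard F = resCard K ^ n →
    ∀ s ∈ GK (Kur K n), ∃ s₁ ∈ GK F, IsInert K (s₁⁻¹ * s)

/-- LOC-UNR (`H²(Ẑ, 𝔽_p) = 0`, inertia form): a continuous `2`-cocycle of `G_K` which is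
invariant under the inertia group in both variables is a continuous coboundary. -/
def LocUnr : Prop :=
  ∀ (q : ℕ) [Fact q.Prime] (p : ℕ) [Fact p.Prime] (K : LF q) [FiniteDimensional ℚ_[q] K]
    (c : Gq q × Gq q → ZMod p), ACoc2 K c → Cont2 K c →
    (∀ g ∈ GK K, ∀ g' ∈ GK K, ∀ i i', IsInert K i → IsInert K i' →
      c (g * i, g' * i') = c (g, g')) →
    ACohom K c 0

/-- LOC-NONDEG (relative form): the pairing `H¹(G_E) × H¹(G_E) → 𝔽_p`,
`(χ, ψ) ↦ invQ (cor (χ ∪ ψ))`, has trivial left kernel (`μ_p ⊆ E`). -/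
def LocNondegRel : Prop :=
  ∀ (q : ℕ) [Fact q.Prime] (p : ℕ) [Fact p.Prime] (E : LF q) [FiniteDimensional ℚ_[q] E]
    (s : Gq q ⧸ GK E → Gq q), IsSec E s → zetaL p q ∈ E →
    ∀ χ : Gq q → ZMod p, ACoc1 E χ → Cont1 E χ →
      (∀ ψ : Gq q → ZMod p, ACoc1 E ψ → Cont1 E ψ →
        invQ p q (acor E s (chiL p q) (acup χ ψ)) = 0) →
      ∀ g ∈ GK E, χ g = 0

/-- LOC-H1DIM: `H¹(G_E, 𝔽_p)` has order `p ^ (2 + [E : ℚ_p])` (`q = p`) resp. `p ^ 2` (`q ≠ p`),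
for `μ_p ⊆ E`: there are exactly that many continuous characters of `G_E`. -/
def H1DimRel : Prop :=
  ∀ (q : ℕ) [Fact q.Prime] (p : ℕ) [Fact p.Prime] (E : LF q) [FiniteDimensional ℚ_[q] E]
    (ζ : Om q), ζ ∈ E → IsPrimitiveRoot ζ p →
    ∃ T : Finset (↥(GK E) → ZMod p),
      T.card = p ^ (2 + if q = p then Module.finrank ℚ_[q] E else 0) ∧
      ∀ χ : ↥(GK E) → ZMod p, χ ∈ T ↔
        ((∀ g h : ↥(GK E), χ (g * h) = χ g + χ h) ∧
          ∃ F : LF q, FiniteDimensional ℚ_[q] F ∧ E ≤ F ∧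
            ∀ (g s : ↥(GK E)), (s : Gq q) ∈ GK F → χ (g * s) = χ g)

/-- TR-GEN (relative form): `invQ p q` does not vanish on the standard generators of
`H²(G_{ℚ_q}, 𝔽_p)` when `μ_p ⊆ ℚ_q` (any primitive root `ζ ∈ ℚ_q`). -/
def TrGenRel : Prop :=
  ∀ (q : ℕ) [Fact q.Prime] (p : ℕ) [Fact p.Prime] (ζ : Om q), ζ ∈ (⊥ : LF q) →
    IsPrimitiveRoot ζ p → ∀ c₀ : Gq q × Gq q → ZMod p, IsGen p (⊥ : LF q) ζ c₀ →
      invQ p q c₀ ≠ 0

end Fermat.Agent.PT.Loc
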