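/-
W3-PT (S55), LOC3-K-DIM (helper23, second seat): `h23k_locDim : H1DimRel → Glob.LocDim`.

Per place `P` of `D_U`: the local group is `G_{K_P}` (dictionary `Bridge/RelDictDU.lean`), so
`Z¹` is the set of continuous characters of `G_{K_P}`, of cardinality
`p ^ (2 + [K_P : ℚ_p]·[q = p])` by `H1DimRel`; the sum over the places above `p` of the local
degrees is `[L : ℚ]` (`h23r_sum_finrank_fieldAt`).
-/
import Mathlib
import Fermat.Agent.PT.Loc.Iface3
import Fermat.Agent.PT.Glob.KIface2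
import Fermat.Agent.PT.Bridge.RelDictDU

set_option autoImplicit false
set_option linter.style.haveILetI false
set_option linter.unusedSectionVars false

open ExtCitation

namespace Fermat.Agent.PT.Loc

open Fermat.Agent.PT Fermat.Agent.PT.Bridge Fermat.Agent.PT.Glob Fermat.Agent.PT.Shap

attribute [local instance] locActQ

noncomputable section

/-! ## One group -/

section One

variable {q : ℕ} [Fact q.Prime] {p : ℕ} [Fact p.Prime] {H' : Type} [Group H']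
  {ι : H' →* Gq q} {K : LF q}

/-- The identification `H' ≃ G_K`. -/
def h23k_equiv (hι : h23r_IsEmb ι K) : H' ≃ ↥(GK K) :=
  Equiv.ofBijective (fun h => ⟨ι h, (hι.range _).2 ⟨h, rfl⟩⟩)
    ⟨fun a b h => hι.inj (congrArg Subtype.val h), fun g => by
      obtain ⟨h, hh⟩ := (hι.range g.1).1 g.2
      exact ⟨h, Subtype.ext hh⟩⟩

@[simp] theorem h23k_equiv_coe (hι : h23r_IsEmb ι K) (h : H') :
    ((h23k_equiv hι h : ↥(GK K)) : Gq q) = ι h := rfl

theorem h23k_comp_eq_pb (hι : h23r_IsEmb ι K) (χ : ↥(GK K) → ZMod p) :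
    χ ∘ h23k_equiv hι = h23r_pb1 ι (ext1 K χ) := by
  funext h
  have hm : ι h ∈ GK K := (hι.range _).2 ⟨h, rfl⟩
  simp only [Function.comp_apply, h23r_pb1_apply, ext1, dif_pos hm]
  rfl

theorem h23k_acoc1_ext1 (χ : ↥(GK K) → ZMod p) :
    ACoc1 K (ext1 K χ) ↔ ∀ g h : ↥(GK K), χ (g * h) = χ g + χ h := by
  constructor
  · intro h g g'
    have := h g.1 g.2 g'.1 g'.2
    simp only [ext1, dif_pos g.2, dif_pos g'.2, dif_pos (mul_mem g.2 g'.2)] at this
    exact this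
  · intro h g hg g' hg'
    simp only [ext1, dif_pos hg, dif_pos hg', dif_pos (mul_mem hg hg')]
    exact h ⟨g, hg⟩ ⟨g', hg'⟩

theorem h23k_cont1_ext1 (χ : ↥(GK K) → ZMod p) :
    Cont1 K (ext1 K χ) ↔ ∃ F : LF q, FiniteDimensional ℚ_[q] F ∧ K ≤ F ∧
      ∀ (g s : ↥(GK K)), (s : Gq q) ∈ GK F → χ (g * s) = χ g := by
  constructor
  · rintro ⟨F, hF, hKF, h⟩
    refine ⟨F, hF, hKF, fun g s hs => ?_⟩
    have := h g.1 g.2 s.1 hs
    simp only [ext1, dif_pos g.2, dif_pos (mul_mem g.2 s.2)] at this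
    exact this
  · rintro ⟨F, hF, hKF, h⟩
    refine ⟨F, hF, hKF, fun g hg s hs => ?_⟩
    have hs' : s ∈ GK K := IntermediateField.fixingSubgroup_antitone hKF hs
    simp only [ext1, dif_pos hg, dif_pos (mul_mem hg hs')]
    exact h ⟨g, hg⟩ ⟨s, hs'⟩ hs

variable [FiniteDimensional ℚ_[q] K]

/-- `Z¹` of `H' ≅ G_K` has `p ^ (2 + [K : ℚ_p]·[q = p])` elements. -/
theorem h23k_card_Z1 (hH : H1DimRel) (hι : h23r_IsEmb ι K)
    (ρ : Representation (ZMod p) H' (ZMod p)) (hρ : ∀ h v, ρ h v = v)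
    (ζ : Om q) (hζK : ζ ∈ K) (hζ : IsPrimitiveRoot ζ p) :
    Nat.card ↥(Z1 (h23r_lev ι) ρ) =
      p ^ (2 + if q = p then Module.finrank ℚ_[q] K else 0) := by
  obtain ⟨T, hT, hmem⟩ := hH q p K ζ hζK hζ
  rw [← hT, ← Nat.card_eq_finsetCard]
  have key : ∀ χ : ↥(GK K) → ZMod p, χ ∈ T ↔ χ ∘ h23k_equiv hι ∈ Z1 (h23r_lev ι) ρ := by
    intro χ
    rw [hmem, h23k_comp_eq_pb, h23r_mem_Z1_iff hι ρ hρ, h23k_acoc1_ext1, h23k_cont1_ext1]
  refine (Nat.card_congr (Equiv.ofBijective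
    (fun χ : ↥T => (⟨χ.1 ∘ h23k_equiv hι, (key χ.1).1 χ.2⟩ : ↥(Z1 (h23r_lev ι) ρ)))
    ⟨?_, ?_⟩)).symm
  · rintro ⟨χ, hχ⟩ ⟨χ', hχ'⟩ h
    apply Subtype.ext
    have h1 : χ ∘ h23k_equiv hι = χ' ∘ h23k_equiv hι := congrArg Subtype.val h
    funext g
    have := congrFun h1 ((h23k_equiv hι).symm g)
    simpa using this
  · rintro ⟨χ', hχ'⟩
    have h1 : (χ' ∘ (h23k_equiv hι).symm) ∘ h23k_equiv hι = χ' := by
      funext h
      simp
    refine ⟨⟨χ' ∘ (h23k_equiv hι).symm, (key _).2 (by rw [h1]; exact hχ')⟩, ?_⟩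
    exact Subtype.ext h1

/-- `Z¹` of `H' ≅ G_K` is finite of dimension `2 + [K : ℚ_p]·[q = p]`. -/
theorem h23k_finrank_Z1 (hH : H1DimRel) (hι : h23r_IsEmb ι K)
    (ρ : Representation (ZMod p) H' (ZMod p)) (hρ : ∀ h v, ρ h v = v)
    (ζ : Om q) (hζK : ζ ∈ K) (hζ : IsPrimitiveRoot ζ p) :
    Module.Finite (ZMod p) ↥(Z1 (h23r_lev ι) ρ) ∧
      Module.finrank (ZMod p) ↥(Z1 (h23r_lev ι) ρ) =
        2 + if q = p then Module.finrank ℚ_[q] K else 0 := by
  have hp : p.Prime := Fact.out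
  have hcard := h23k_card_Z1 hH hι ρ hρ ζ hζK hζ
  haveI : Finite ↥(Z1 (h23r_lev ι) ρ) := by
    apply Nat.finite_of_card_ne_zero
    rw [hcard]
    exact pow_ne_zero _ hp.ne_zero
  haveI : Module.Finite (ZMod p) ↥(Z1 (h23r_lev ι) ρ) := Module.Finite.of_finite
  refine ⟨inferInstance, ?_⟩
  have h2 := Module.natCard_eq_pow_finrank (K := ZMod p) (V := ↥(Z1 (h23r_lev ι) ρ))
  rw [Nat.card_zmod, hcard] at h2
  exact (Nat.pow_right_injective hp.two_le h2).symm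

end One

/-! ## The places of `D_U` -/

section DU

/-- local instance: the prime `q : Nat.Primes` as a `Fact`. -/
local instance h23k_factPrimes (q : Nat.Primes) : Fact (q : ℕ).Prime := ⟨q.2⟩

variable {p : ℕ} [Fact p.Prime] {S : Finset Nat.Primes} {U : Subgroup GQ} [U.FiniteIndex]

/-- The dimension of `Z¹` at one place of `D_U`. -/
theorem h23k_finrank_Z1_DU (hH : H1DimRel) (hadm : Adm p S U) (u : USD U)
    (P : (DU p S U u).P) :
    Module.Finite (ZMod p)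
        (Z1 ((DU p S U u).levH P) ((DU p S U u).repAt (trivU p S U u) P)) ∧
      Module.finrank (ZMod p)
        (Z1 ((DU p S U u).levH P) ((DU p S U u).repAt (trivU p S U u) P)) =
        2 + if (P.1.1 : ℕ) = p then
          Module.finrank ℚ_[(P.1.1 : ℕ)] (h23r_fieldAtP S U u P) else 0 :=
  haveI := h23r_finiteDimensional_fieldAtP u hadm P
  h23k_finrank_Z1 hH (h23r_isEmb_DU u hadm P) _ (h23r_repAt_DU S U u P)
    (zetaL p (P.1.1 : ℕ)) (h23r_zetaL_mem_fieldAtP u hadm P) (h23r_zetaL_primitive P.1.1 p)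

/-- The sum of the local degrees over all places of `D_U` above `p`. -/
theorem h23k_sum_deg (hadm : Adm p S U) (u : USD U)
    [Fintype (Σ v : ↥S, (u.od v.1).W)] :
    ∑ P : (Σ v : ↥S, (u.od v.1).W),
        (if (P.1.1 : ℕ) = p then
          Module.finrank ℚ_[(P.1.1 : ℕ)] (h23r_fieldAt P.1.1 U u (P.2.1 : GQ ⧸ U)) else 0) =
      Module.finrank ℚ (fieldOf U) := by
  classical
  let pp : ↥S := ⟨pPrime p, hadm.mem⟩
  haveI : Finite (GQ ⧸ U) := Subgroup.finite_quotient_of_finiteIndex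
  letI : Fintype (u.od pp.1).W := Fintype.ofFinite _
  rw [← h23r_sum_finrank_fieldAt (pPrime p) hadm u]
  let emb : (u.od pp.1).W ↪ (Σ v : ↥S, (u.od v.1).W) :=
    ⟨fun w => ⟨pp, w⟩, fun a b h => eq_of_heq (Sigma.mk.inj h).2⟩
  have h1 : ∑ P : (Σ v : ↥S, (u.od v.1).W),
      (if (P.1.1 : ℕ) = p then
        Module.finrank ℚ_[(P.1.1 : ℕ)] (h23r_fieldAt P.1.1 U u (P.2.1 : GQ ⧸ U)) else 0) =
      ∑ P ∈ Finset.univ.map emb,
      (if (P.1.1 : ℕ) = p then
        Module.finrank ℚ_[(P.1.1 : ℕ)] (h23r_fieldAt P.1.1 U u (P.2.1 : GQ ⧸ U)) else 0) := by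
    symm
    apply Finset.sum_subset (Finset.subset_univ _)
    rintro ⟨v, w⟩ - hP
    by_cases hv : (v.1 : ℕ) = p
    · exfalso
      apply hP
      have hvp : v = pp := Subtype.ext (Subtype.ext hv)
      subst hvp
      exact Finset.mem_map.2 ⟨w, Finset.mem_univ _, rfl⟩
    · exact if_neg hv
  rw [h1, Finset.sum_map]
  refine Finset.sum_congr rfl fun w _ => ?_
  exact if_pos rfl

/-- **LOC-DIM.** -/
theorem h23k_locDim (hH : H1DimRel) : Glob.LocDim := by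
  intro p _ S U _ u hadm
  refine ⟨fun P => (h23k_finrank_Z1_DU hH hadm u P).1, ?_⟩
  have h1 : ∀ P : (DU p S U u).P, Module.finrank (ZMod p)
      (Z1 ((DU p S U u).levH P) ((DU p S U u).repAt (trivU p S U u) P)) =
      2 + if (P.1.1 : ℕ) = p then
        Module.finrank ℚ_[(P.1.1 : ℕ)] (h23r_fieldAtP S U u P) else 0 :=
    fun P => (h23k_finrank_Z1_DU hH hadm u P).2
  rw [Finset.sum_congr rfl fun P _ => h1 P, Finset.sum_add_distrib, Finset.sum_const,
    Finset.card_univ, smul_eq_mul, mul_comm]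
  congr 1
  exact @h23k_sum_deg p _ S U _ hadm u (DU p S U u).fin

end DU

end

end Fermat.Agent.PT.Loc
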