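/-
W3-PT (S55), PT-GLOB-K local input `LocDimW` (KIface3.lean), uniform form (helper23):
`h23k_locDimW : H1DimRel → Glob.LocDimW`.
-/
import Mathlib
import Fermat.Agent.PT.Loc.H23KDim
import Fermat.Agent.PT.Bridge.RelDictW

set_option autoImplicit false
set_option linter.style.haveILetI false
set_option linter.unusedSectionVars false

open ExtCitation

namespace Fermat.Agent.PT.Loc

open Fermat.Agent.PT Fermat.Agent.PT.Bridge Fermat.Agent.PT.Glob Fermat.Agent.PT.Shap

attribute [local instance] locActQ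

noncomputable section

/-- local instance: the prime `q : Nat.Primes` as a `Fact`. -/
local instance h23k_factPrimesW (q : Nat.Primes) : Fact (q : ℕ).Prime := ⟨q.2⟩

variable {p : ℕ} [Fact p.Prime] {U : Subgroup GQ}

/-- The dimension of `Z¹` at an orbit representative `w`. -/
theorem h23k_finrank_Z1_W (hH : H1DimRel) (hadm : AdmU p U) (u : USD U) (q : Nat.Primes)
    (w : (u.od q).W) :
    Module.Finite (ZMod p) ↥(Z1 (levW u q w) (trivW p u q w)) ∧
      Module.finrank (ZMod p) ↥(Z1 (levW u q w) (trivW p u q w)) =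
        2 + if (q : ℕ) = p then Module.finrank ℚ_[(q : ℕ)] (h23w_fieldW u q w) else 0 :=
  haveI := h23w_finiteDimensional_fieldW u q w hadm
  h23k_finrank_Z1 hH (h23w_isEmb u q w hadm) _ (h23w_trivW u q w)
    (zetaL p (q : ℕ)) (h23w_zetaL_mem_fieldW u q w hadm) (h23r_zetaL_primitive q p)

/-- **W-DIM.** -/
theorem h23k_locDimW (hH : H1DimRel) : LocDimW := by
  intro p _ _ U _ u hadm
  refine ⟨fun w => Module.finrank ℚ_[((pPrime p : Nat.Primes) : ℕ)] (h23w_fieldW u (pPrime p) w),
    fun q w => (h23k_finrank_Z1_W hH hadm u q w).1, fun q w hq => ?_, fun w => ?_, ?_⟩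
  · rw [(h23k_finrank_Z1_W hH hadm u q w).2, if_neg, add_zero]
    intro h
    exact hq (Subtype.ext h)
  · rw [(h23k_finrank_Z1_W hH hadm u (pPrime p) w).2]
    have h : ((pPrime p : Nat.Primes) : ℕ) = p := rfl
    exact congrArg (2 + ·) (if_pos h)
  · exact h23w_sum_finrank_fieldW hadm u (pPrime p)

end

end Fermat.Agent.PT.Loc
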