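import Fermat.Agent.PT.Loc.Iface
import Fermat.Agent.PT.Loc.LFLocal

/-!
# PT-LOC leaf LF-DIM (helper34)

`h34lf_lfDim : LFDim` — if `μ_p ⊆ K` then `K^×/K^{×p}` has order `p^(2 + [K:ℚ_p])` (`q = p`)
resp. `p^2` (`q ≠ p`), with a system of coset representatives.
-/

namespace Fermat.Agent.PT.Loc

open Valued IsLocalRing

/-- The number of `p`-th roots of unity in a field containing a primitive one. -/
theorem h34lf_card_ker_pow {F : Type*} [Field F] (p : ℕ) [Fact p.Prime] {ζ : F}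
    (hζ : IsPrimitiveRoot ζ p) : Nat.card (powMonoidHom p : Fˣ →* Fˣ).ker = p := by
  have : NeZero p := ⟨(Fact.out : p.Prime).ne_zero⟩
  have h1 : (powMonoidHom p : Fˣ →* Fˣ).ker = rootsOfUnity p F := by
    ext x
    rw [MonoidHom.mem_ker, mem_rootsOfUnity]
    rfl
  rw [h1]
  exact hζ.card_rootsOfUnity

/-- `[Kˣ : (Kˣ)^p] = p^(2 + [K:ℚ_q]·[q = p])` for a local field `K ∋ μ_p`. -/
theorem h34lf_index_pow_LF (q : ℕ) [Fact q.Prime] (p : ℕ) [Fact p.Prime] (K : LF q)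
    [FiniteDimensional ℚ_[q] K] (ζ : Om q) (hζK : ζ ∈ K) (hζ : IsPrimitiveRoot ζ p) :
    (powMonoidHom p : (↥K)ˣ →* (↥K)ˣ).range.index =
      p ^ (2 + if q = p then Module.finrank ℚ_[q] K else 0) := by
  have hζ' : IsPrimitiveRoot (⟨ζ, hζK⟩ : ↥K) p :=
    IsPrimitiveRoot.of_map_of_injective (f := K.val) hζ K.val.injective
  rw [h34lf_index_pow_local q (↥K) p, h34lf_card_ker_pow p hζ']
  by_cases hpq : p = q
  · subst hpq
    rw [if_pos rfl, if_pos rfl]
    ring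
  · rw [if_neg hpq, if_neg (Ne.symm hpq)]
    ring

theorem h34lf_lfDim : LFDim := by
  intro q _ p _ K _ ζ hζK hζ
  classical
  have hidx := h34lf_index_pow_LF q p K ζ hζK hζ
  set f : (↥K)ˣ →* (↥K)ˣ := powMonoidHom p with hf
  have hne : f.range.index ≠ 0 := by
    rw [hidx]
    exact pow_ne_zero _ (Fact.out : p.Prime).ne_zero
  have hfin : Finite ((↥K)ˣ ⧸ f.range) := Nat.finite_of_card_ne_zero hne
  have : Fintype ((↥K)ˣ ⧸ f.range) := Fintype.ofFinite _
  let s : (↥K)ˣ ⧸ f.range → (↥K)ˣ := fun c => Quotient.out c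
  have hs : ∀ c, (QuotientGroup.mk (s c) : (↥K)ˣ ⧸ f.range) = c := fun c => Quotient.out_eq c
  let ι : (↥K)ˣ ⧸ f.range → Om q := fun c => (((s c : (↥K)ˣ) : ↥K) : Om q)
  have hι : Function.Injective ι := by
    intro c c' h
    have h1 : s c = s c' := Units.ext (Subtype.ext h)
    rw [← hs c, ← hs c', h1]
  refine ⟨Finset.univ.image ι, ?_, ?_, ?_, ?_⟩
  · rw [Finset.card_image_of_injective _ hι, Finset.card_univ, ← Nat.card_eq_fintype_card]
    exact hidx
  · intro t ht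
    obtain ⟨c, -, rfl⟩ := Finset.mem_image.mp ht
    refine ⟨((s c : (↥K)ˣ) : ↥K).2, ?_⟩
    intro h
    have h1 : ((s c : (↥K)ˣ) : ↥K) = 0 := Subtype.ext h
    exact (s c).ne_zero h1
  · intro x hx hx0
    have hx0' : (⟨x, hx⟩ : ↥K) ≠ 0 := by
      intro h
      exact hx0 (congrArg (fun w : ↥K => (w : Om q)) h)
    let g : (↥K)ˣ := Units.mk0 ⟨x, hx⟩ hx0'
    let c : (↥K)ˣ ⧸ f.range := QuotientGroup.mk g
    have h1 : (QuotientGroup.mk (s c) : (↥K)ˣ ⧸ f.range) = QuotientGroup.mk g := hs c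
    rw [QuotientGroup.eq] at h1
    obtain ⟨y, hy⟩ := h1
    refine ⟨ι c, Finset.mem_image.mpr ⟨c, Finset.mem_univ _, rfl⟩, ((y : ↥K) : Om q),
      (y : ↥K).2, ?_⟩
    have h2 : g = s c * y ^ p := by
      have : y ^ p = (s c)⁻¹ * g := hy
      rw [this, mul_inv_cancel_left]
    have h3 := congrArg (fun u : (↥K)ˣ => ((u : ↥K) : Om q)) h2
    simpa [g] using h3
  · intro t ht t' ht' hy
    obtain ⟨c, -, rfl⟩ := Finset.mem_image.mp ht
    obtain ⟨c', -, rfl⟩ := Finset.mem_image.mp ht'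
    obtain ⟨y, hyK, hy⟩ := hy
    have hy0 : (⟨y, hyK⟩ : ↥K) ≠ 0 := by
      intro h
      have h1 : y = 0 := congrArg (fun w : ↥K => (w : Om q)) h
      have h2 : ι c = 0 := by rw [hy, h1, zero_pow (Fact.out : p.Prime).ne_zero, mul_zero]
      have h3 : ((s c : (↥K)ˣ) : ↥K) = 0 := Subtype.ext h2
      exact (s c).ne_zero h3
    let yu : (↥K)ˣ := Units.mk0 ⟨y, hyK⟩ hy0
    have h4 : s c = s c' * yu ^ p := by
      apply Units.ext
      apply Subtype.ext
      simpa [yu, ι] using hy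
    have h5 : (QuotientGroup.mk (s c') : (↥K)ˣ ⧸ f.range) = QuotientGroup.mk (s c) := by
      rw [QuotientGroup.eq]
      refine ⟨yu, ?_⟩
      rw [h4, inv_mul_cancel_left]
      rfl
    rw [hs, hs] at h5
    rw [h5]

end Fermat.Agent.PT.Loc
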