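import Mathlib
import Fermat.Agent.PT.Loc.Iface

/-!
# W3-PT / PT-LOC, leaf LOC-B1FIN (helper55): `H¹(G_K, 𝔽_p)` is finite

Assembly: `KumClass` (every continuous character is a Kummer character), `KumBasic`
(`g B = ζ ^ kum(g) · B`) and `LFDim` (finitely many classes in `K^×/K^{×p}`) give `B1Fin`.
-/

set_option autoImplicit false

open scoped Classical

noncomputable section

namespace Fermat.Agent.PT.Loc

variable {q : ℕ} [Fact q.Prime]

/-- a chosen `p`-th root. -/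
def h55f_root (p : ℕ) (t : Om q) : Om q :=
  if h : ∃ r : Om q, r ^ p = t then h.choose else 0

theorem h55f_root_pow (p : ℕ) (hp : 0 < p) (t : Om q) : h55f_root p t ^ p = t := by
  have h : ∃ r : Om q, r ^ p = t := IsAlgClosed.exists_pow_nat_eq t hp
  rw [h55f_root, dif_pos h]
  exact h.choose_spec

/-- elements of `K` are fixed by `G_K`. -/
theorem h55f_fixed {K : LF q} {g : Gq q} (hg : g ∈ GK K) {x : Om q} (hx : x ∈ K) : g x = x :=
  (IntermediateField.mem_fixingSubgroup_iff K g).mp hg x hx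

/-- Two elements with `B^p = t y^p`, `r^p = t` have the same Kummer character on `G_K`. -/
theorem h55f_kum_eq (hB : KumBasic) (p : ℕ) [Fact p.Prime] (K : LF q)
    [FiniteDimensional ℚ_[q] K] (ζ : Om q) (hζK : ζ ∈ K) (hζ : IsPrimitiveRoot ζ p)
    (B r y : Om q) (hB0 : B ≠ 0) (hBK : B ^ p ∈ K) (hr0 : r ≠ 0) (hrK : r ^ p ∈ K)
    (hy : y ∈ K) (hy0 : y ≠ 0) (hrel : B ^ p = r ^ p * y ^ p) :
    ∀ g ∈ GK K, kum p ζ B g = kum p ζ r g := by
  have hp : 0 < p := (Fact.out : p.Prime).pos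
  obtain ⟨-, -, hgB⟩ := hB q p K ζ B hζK hζ hB0 hBK
  obtain ⟨-, -, hgr⟩ := hB q p K ζ r hζK hζ hr0 hrK
  -- `B = ζ^k y r`
  have hyr : y * r ≠ 0 := mul_ne_zero hy0 hr0
  have hone : (B / (y * r)) ^ p = 1 := by
    rw [div_pow, hrel, mul_pow, mul_comm (y ^ p)]
    exact div_self (mul_ne_zero (pow_ne_zero _ hr0) (pow_ne_zero _ hy0))
  obtain ⟨k, -, hk⟩ := hζ.eq_pow_of_pow_eq_one hone
  have hBeq : B = ζ ^ k * (y * r) := by
    rw [hk]; field_simp
  intro g hg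
  have h1 : g B = ζ ^ (kum p ζ B g).val * B := hgB g hg
  have h2 : g r = ζ ^ (kum p ζ r g).val * r := hgr g hg
  have h3 : g B = ζ ^ (kum p ζ r g).val * B := by
    conv_lhs => rw [hBeq]
    rw [map_mul, map_mul, map_pow, h55f_fixed hg hζK, h55f_fixed hg hy, h2]
    conv_rhs => rw [hBeq]
    ring
  have h4 : ζ ^ (kum p ζ B g).val = ζ ^ (kum p ζ r g).val := by
    have := h1.symm.trans h3
    exact mul_right_cancel₀ hB0 this
  have h5 : (kum p ζ B g).val = (kum p ζ r g).val :=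
    hζ.pow_inj (ZMod.val_lt _) (ZMod.val_lt _) h4
  exact ZMod.val_injective p h5

/-- **LOC-B1FIN.** -/
theorem h55f_b1Fin (hC : KumClass) (hB : KumBasic) (hD : LFDim) : B1Fin := by
  intro q _ p _ K _ ζ hζK hζ
  have hp : 0 < p := (Fact.out : p.Prime).pos
  obtain ⟨T, -, hT0, hTrep, -⟩ := hD q p K ζ hζK hζ
  refine ⟨T.image (fun t => kum p ζ (h55f_root p t)), ?_⟩
  intro χ hχ hχc
  obtain ⟨B, hB0, hBK, hχB⟩ := hC q p K ζ hζK hζ χ hχ hχc
  obtain ⟨t, ht, y, hy, hrel⟩ := hTrep (B ^ p) hBK (pow_ne_zero _ hB0)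
  have ht0 : t ≠ 0 := (hT0 t ht).2
  have hy0 : y ≠ 0 := by
    rintro rfl
    rw [zero_pow hp.ne', mul_zero] at hrel
    exact pow_ne_zero _ hB0 hrel
  have hr : h55f_root p t ^ p = t := h55f_root_pow p hp t
  have hr0 : h55f_root p t ≠ 0 := by
    intro h0
    rw [h0, zero_pow hp.ne'] at hr
    exact ht0 hr.symm
  refine ⟨kum p ζ (h55f_root p t), Finset.mem_image.mpr ⟨t, ht, rfl⟩, ?_⟩
  intro g hg
  rw [hχB g hg]
  exact h55f_kum_eq hB p K ζ hζK hζ B (h55f_root p t) y hB0 hBK hr0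
    (by rw [hr]; exact (hT0 t ht).1) hy hy0 (by rw [hr]; exact hrel) g hg

end Fermat.Agent.PT.Loc
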