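import Mathlib
import Fermat.Agent.PT.Loc.Iface

/-!
# W3-PT / PT-LOC leaf MC-H90 (helper81): Hilbert 90 for continuous cocycles

`h81h_mcH90 : MCH90`: a continuous `1`-cocycle of `G_K` with values in `(Om q)ˣ` is a
coboundary.  Proof: Noether's argument with the finite set of embeddings `F → Om q` fixing `K`
(`F` a level of the cocycle) and Dedekind's independence of characters.
-/

set_option autoImplicit false

open scoped Classical

noncomputable section

namespace Fermat.Agent.PT.Loc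

variable {q : ℕ} [Fact q.Prime]

/-- Every `ℚ_q`-embedding of a subfield of `Om q` extends to an automorphism of `Om q`. -/
theorem h81h_exists_lift (F : LF q) (ι : F →ₐ[ℚ_[q]] Om q) :
    ∃ g : Gq q, ∀ y : F, g (y : Om q) = ι y := by
  obtain ⟨φ, hφ⟩ := IntermediateField.exists_algHom_of_splits (F := ℚ_[q]) (E := Om q)
    (K := Om q) (L := F)
    (fun s => ⟨(Algebra.IsAlgebraic.isAlgebraic s).isIntegral, IsAlgClosed.splits _⟩) ι
  have hb := Algebra.IsAlgebraic.algHom_bijective φ
  refine ⟨AlgEquiv.ofBijective φ hb, fun y => ?_⟩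
  have := DFunLike.congr_fun hφ y
  simpa using this

/-- a chosen lift of an embedding. -/
def h81h_lift (F : LF q) (ι : F →ₐ[ℚ_[q]] Om q) : Gq q := (h81h_exists_lift F ι).choose

theorem h81h_lift_apply (F : LF q) (ι : F →ₐ[ℚ_[q]] Om q) (y : F) :
    h81h_lift F ι (y : Om q) = ι y := (h81h_exists_lift F ι).choose_spec y

/-- the embeddings of `F` fixing `K`. -/
def h81h_fix (K F : LF q) (ι : F →ₐ[ℚ_[q]] Om q) : Prop :=
  ∀ y : F, (y : Om q) ∈ K → ι y = (y : Om q)

theorem h81h_lift_mem {K F : LF q} (hKF : K ≤ F) {ι : F →ₐ[ℚ_[q]] Om q} (hι : h81h_fix K F ι) :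
    h81h_lift F ι ∈ GK K := by
  rw [IntermediateField.mem_fixingSubgroup_iff]
  intro y hy
  have := h81h_lift_apply F ι ⟨y, hKF hy⟩
  rw [hι ⟨y, hKF hy⟩ hy] at this
  exact this

/-- composition of an embedding with an automorphism. -/
def h81h_comp (F : LF q) (h : Gq q) (ι : F →ₐ[ℚ_[q]] Om q) : F →ₐ[ℚ_[q]] Om q :=
  (h : Om q →ₐ[ℚ_[q]] Om q).comp ι

theorem h81h_comp_apply (F : LF q) (h : Gq q) (ι : F →ₐ[ℚ_[q]] Om q) (y : F) :
    h81h_comp F h ι y = h (ι y) := rfl

theorem h81h_comp_fix {K F : LF q} {h : Gq q} (hh : h ∈ GK K) {ι : F →ₐ[ℚ_[q]] Om q}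
    (hι : h81h_fix K F ι) : h81h_fix K F (h81h_comp F h ι) := by
  intro y hy
  rw [h81h_comp_apply, hι y hy]
  exact (IntermediateField.mem_fixingSubgroup_iff K h).1 hh _ hy

/-- two automorphisms with the same restriction to `F` differ by an element of `G_F`. -/
theorem h81h_inv_mul_mem (F : LF q) {g g' : Gq q} (h : ∀ y : F, g (y : Om q) = g' (y : Om q)) :
    g⁻¹ * g' ∈ GK F := by
  rw [IntermediateField.mem_fixingSubgroup_iff]
  intro y hy
  have := h ⟨y, hy⟩
  change g⁻¹ (g' y) = y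
  rw [← this]
  exact g.symm_apply_apply y

/-- **MC-H90.** -/
theorem h81h_mcH90 : MCH90 := by
  intro q _ K _ x hcoc hcont
  obtain ⟨F, hFfin, hKF, hinv⟩ := hcont
  have : FiniteDimensional ℚ_[q] F := hFfin
  -- the coefficient attached to an embedding
  set c : (F →ₐ[ℚ_[q]] Om q) → Om q := fun ι => (x (h81h_lift F ι) : Om q) with hc
  set S : Finset (F →ₐ[ℚ_[q]] Om q) := Finset.univ.filter (fun ι => h81h_fix K F ι) with hS
  have hmemS : ∀ ι, ι ∈ S ↔ h81h_fix K F ι := fun ι => by simp [hS]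
  -- the transformation rule of the coefficients
  have hrule : ∀ h ∈ GK K, ∀ ι, h81h_fix K F ι →
      c (h81h_comp F h ι) = h (c ι) * (x h : Om q) := by
    intro h hh ι hι
    have h1 : h81h_lift F ι ∈ GK K := h81h_lift_mem hKF hι
    have h2 : h * h81h_lift F ι ∈ GK K := (GK K).mul_mem hh h1
    have h3 : (h * h81h_lift F ι)⁻¹ * h81h_lift F (h81h_comp F h ι) ∈ GK F := by
      apply h81h_inv_mul_mem
      intro y
      rw [h81h_lift_apply, h81h_comp_apply]
      change h (h81h_lift F ι y) = _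
      rw [h81h_lift_apply]
    have h4 := hinv _ h2 _ h3
    rw [mul_inv_cancel_left] at h4
    have h5 := hcoc h hh _ h1
    simp only [hc]
    rw [h4, h5]
    simp [AlgEquiv.smul_units_def]
  -- Dedekind independence
  have hli : LinearIndependent (Om q) (fun ι : F →ₐ[ℚ_[q]] Om q => (ι : F → Om q)) :=
    LinearIndependent.comp (ι' := F →ₐ[ℚ_[q]] Om q)
      (linearIndependent_monoidHom F (Om q)) (fun ι => (ι : F →* Om q))
      (fun a b h => by ext y; exact DFunLike.ext_iff.1 h y)
  have hval : h81h_fix K F F.val := fun y _ => rfl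
  obtain ⟨z, hz⟩ : ∃ z : F, ∑ ι ∈ S, c ι * ι z ≠ 0 := by
    by_contra hcon
    have hall : ∀ z : F, ∑ ι ∈ S, c ι * ι z = 0 := by
      intro z
      by_contra hne
      exact hcon ⟨z, hne⟩
    have h0 := Fintype.linearIndependent_iff.1 hli (fun ι => if ι ∈ S then c ι else 0) (by
      funext z
      simp only [Finset.sum_apply, Pi.smul_apply, smul_eq_mul, Pi.zero_apply, ite_mul, zero_mul]
      rw [← Finset.sum_filter]
      have : Finset.univ.filter (fun ι => ι ∈ S) = S := by
        ext ι; simp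
      rw [this]
      exact hall z) F.val
    rw [if_pos ((hmemS _).2 hval)] at h0
    exact Units.ne_zero _ h0
  refine ⟨(Units.mk0 _ hz)⁻¹, fun h hh => ?_⟩
  -- the sum is an eigenvector
  have hsum : h (∑ ι ∈ S, c ι * ι z) * (x h : Om q) = ∑ ι ∈ S, c ι * ι z := by
    rw [map_sum, Finset.sum_mul]
    have hinvmem : h⁻¹ ∈ GK K := (GK K).inv_mem hh
    refine Finset.sum_bij' (fun ι _ => h81h_comp F h ι) (fun ι _ => h81h_comp F h⁻¹ ι)
      ?_ ?_ ?_ ?_ ?_
    · intro ι hι
      exact (hmemS _).2 (h81h_comp_fix hh ((hmemS _).1 hι))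
    · intro ι hι
      exact (hmemS _).2 (h81h_comp_fix hinvmem ((hmemS _).1 hι))
    · intro ι _
      ext y
      simp [h81h_comp_apply]
    · intro ι _
      ext y
      simp [h81h_comp_apply]
    · intro ι hι
      rw [hrule h hh ι ((hmemS _).1 hι), h81h_comp_apply, map_mul]
      ring
  have hne : h (∑ ι ∈ S, c ι * ι z) ≠ 0 := by
    intro h0
    rw [h0, zero_mul] at hsum
    exact hz hsum.symm
  apply Units.ext
  simp only [AlgEquiv.smul_units_def, map_inv, div_inv_eq_mul, Units.val_mul,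
    Units.val_inv_eq_inv_val, Units.coe_map, Units.val_mk0, MonoidHom.coe_coe]
  generalize (∑ ι ∈ S, c ι * ι z) = A at hsum hne hz ⊢
  calc (x h : Om q) = (h A)⁻¹ * (h A * (x h : Om q)) := by
        rw [← mul_assoc, inv_mul_cancel₀ hne, one_mul]
    _ = (h A)⁻¹ * A := by rw [hsum]

end Fermat.Agent.PT.Loc
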