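import Fermat.Agent.PT.Loc.Iface3
import Fermat.Agent.PT.Loc.H55B1Fin
import Fermat.Agent.PT.Loc.Kum.H7KumClass
import Fermat.Agent.PT.Loc.Kum.H79KumBasic
import Fermat.Agent.PT.Loc.H81H90
import Fermat.Agent.PT.Loc.H34LFDim

/-!
# W3-PT / PT-LOC, row LOC3-H1DIM (helper39): the order of `H¹(G_E, 𝔽_p)`

`h39d_h1DimRel_of : KumClass → KumBasic → LFDim → H1DimRel` and, with the landed leaves,
`h39d_h1DimRel : H1DimRel` (unconditional).

Proof.  `LFDim` gives a system `T₀` of representatives of `E^×/E^{×p}` with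
`p ^ (2 + [E : ℚ_p]·[q = p])` elements.  For `t ∈ T₀` let `B_t` be a `p`-th root of `t` and
`Φ t = kum p ζ B_t` restricted to `G_E`.  `Φ` is injective on `T₀` (if `Φ t = Φ t'` then
`B_t / B_t'` is fixed by `G_E`, hence lies in `E`, so `t ∈ t' E^{×p}`), its values are continuous
characters (`KumBasic`), and every continuous character is a value (`KumClass`, `h55f_kum_eq`).
-/

set_option autoImplicit false
set_option linter.style.haveILetI false

open scoped Classical

noncomputable section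

namespace Fermat.Agent.PT.Loc

/-- **LOC3-H1DIM.** -/
theorem h39d_h1DimRel_of (hC : KumClass) (hB : KumBasic) (hD : LFDim) : H1DimRel := by
  intro q _ p _ E _ ζ hζE hζ
  have hp : 0 < p := (Fact.out : p.Prime).pos
  obtain ⟨T₀, hcard, hT0, hTrep, hTinj⟩ := hD q p E ζ hζE hζ
  have hζ0 : ζ ≠ 0 := by
    intro h0
    have := hζ.pow_eq_one
    rw [h0, zero_pow hp.ne'] at this
    exact zero_ne_one this
  -- the chosen roots
  have hroot : ∀ t ∈ T₀, h55f_root p t ^ p = t ∧ h55f_root p t ≠ 0 ∧ h55f_root p t ^ p ∈ E := by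
    intro t ht
    have hr : h55f_root p t ^ p = t := h55f_root_pow p hp t
    refine ⟨hr, ?_, ?_⟩
    · intro h0
      rw [h0, zero_pow hp.ne'] at hr
      exact (hT0 t ht).2 hr.symm
    · rw [hr]
      exact (hT0 t ht).1
  -- the character attached to `t`
  let Φ : Om q → (↥(GK E) → ZMod p) := fun t g => kum p ζ (h55f_root p t) (g : Gq q)
  have hΦinj : Set.InjOn Φ (T₀ : Set (Om q)) := by
    intro t ht t' ht' hEq
    obtain ⟨hr, hr0, hrE⟩ := hroot t ht
    obtain ⟨hr', hr0', hrE'⟩ := hroot t' ht'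
    obtain ⟨-, -, hg1⟩ := hB q p E ζ (h55f_root p t) hζE hζ hr0 hrE
    obtain ⟨-, -, hg2⟩ := hB q p E ζ (h55f_root p t') hζE hζ hr0' hrE'
    apply hTinj t ht t' ht'
    refine ⟨h55f_root p t / h55f_root p t', ?_, ?_⟩
    · apply h7kc_mem_of_fixed E
      intro g hg
      have h3 : kum p ζ (h55f_root p t) g = kum p ζ (h55f_root p t') g :=
        congrFun hEq ⟨g, hg⟩
      have hz : ζ ^ (kum p ζ (h55f_root p t') g).val ≠ 0 := pow_ne_zero _ hζ0
      rw [map_div₀, hg1 g hg, hg2 g hg, h3]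
      field_simp
    · rw [div_pow, hr, hr']
      have : t' ≠ 0 := (hT0 t' ht').2
      field_simp
  refine ⟨T₀.image Φ, ?_, ?_⟩
  · rw [Finset.card_image_of_injOn hΦinj, hcard]
  · intro χ
    rw [Finset.mem_image]
    constructor
    · rintro ⟨t, ht, rfl⟩
      obtain ⟨-, hr0, hrE⟩ := hroot t ht
      obtain ⟨hadd, hcont, -⟩ := hB q p E ζ (h55f_root p t) hζE hζ hr0 hrE
      refine ⟨fun g h => hadd g g.2 h h.2, ?_⟩
      obtain ⟨F, hF, hEF, hinv⟩ := hcont
      exact ⟨F, hF, hEF, fun g s hs => hinv g g.2 s hs⟩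
    · rintro ⟨hadd, F, hF, hEF, hinv⟩
      have hχ' : ∀ g (hg : g ∈ GK E), ext1 E χ g = χ ⟨g, hg⟩ := by
        intro g hg
        simp [ext1, hg]
      have hFE : GK F ≤ GK E := by
        intro g hg
        rw [IntermediateField.mem_fixingSubgroup_iff] at hg ⊢
        exact fun x hx => hg x (hEF hx)
      have hA : ACoc1 E (ext1 E χ) := by
        intro g hg h hh
        rw [hχ' g hg, hχ' h hh, hχ' (g * h) ((GK E).mul_mem hg hh)]
        exact hadd ⟨g, hg⟩ ⟨h, hh⟩
      have hCt : Cont1 E (ext1 E χ) := by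
        refine ⟨F, hF, hEF, ?_⟩
        intro g hg s hs
        rw [hχ' g hg, hχ' (g * s) ((GK E).mul_mem hg (hFE hs))]
        exact hinv ⟨g, hg⟩ ⟨s, hFE hs⟩ hs
      obtain ⟨B, hB0, hBK, hχB⟩ := hC q p E ζ hζE hζ (ext1 E χ) hA hCt
      obtain ⟨t, ht, y, hy, hrel⟩ := hTrep (B ^ p) hBK (pow_ne_zero _ hB0)
      obtain ⟨hr, hr0, hrE⟩ := hroot t ht
      have hy0 : y ≠ 0 := by
        rintro rfl
        rw [zero_pow hp.ne', mul_zero] at hrel
        exact pow_ne_zero _ hB0 hrel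
      refine ⟨t, ht, ?_⟩
      funext g
      show kum p ζ (h55f_root p t) (g : Gq q) = χ g
      have h1 : χ g = ext1 E χ (g : Gq q) := (hχ' g g.2).symm
      rw [h1, hχB g g.2]
      exact (h55f_kum_eq hB p E ζ hζE hζ B (h55f_root p t) y hB0 hBK hr0 hrE hy hy0
        (by rw [hr]; exact hrel) g g.2).symm

/-- **LOC3-H1DIM**, unconditional. -/
theorem h39d_h1DimRel : H1DimRel :=
  h39d_h1DimRel_of (h7kc_kumClass_of h81h_mcH90) h79k_kumBasic h34lf_lfDim

end Fermat.Agent.PT.Loc
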