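import Mathlib
import Fermat.Agent.PT.Loc.Iface3

/-!
# W3-PT / PT-LOC, leaf LOC3-NONDEG (helper24)

`h24nd_locNondegRel_of : ChiZeta → B1 → LocPerfRel → LocNondegRel` — the pairing
`(χ, ψ) ↦ invQ (cor (χ ∪ ψ))` on `H¹(G_E, 𝔽_p)` has trivial left kernel.

If `χ ≠ 0` on `G_E`, `B1` gives `ψ` with `χ ∪ ψ` not a coboundary; `χ ∪ ψ` is a continuous
`2`-cocycle, so `LocPerfRel` (i) gives `invQ (acor (χ ∪ ψ)) ≠ 0`.
-/

set_option autoImplicit false

open scoped Classical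

noncomputable section

namespace Fermat.Agent.PT.Loc

variable {q : ℕ} [Fact q.Prime] {p : ℕ}

/-- the cup product of two additive characters is a `2`-cocycle. -/
theorem h24nd_acoc2 (K : LF q) (χ ψ : Gq q → ZMod p) (hχ : ACoc1 K χ) (hψ : ACoc1 K ψ) :
    ACoc2 K (acup χ ψ) := by
  intro g hg h hh j hj
  simp only [acup]
  rw [hχ g hg h hh, hψ h hh j hj]
  ring

/-- the cup product of two continuous `1`-cochains is continuous. -/
theorem h24nd_cont2 (K : LF q) (χ ψ : Gq q → ZMod p) (hχ : Cont1 K χ) (hψ : Cont1 K ψ) :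
    Cont2 K (acup χ ψ) := by
  obtain ⟨F, hFfin, hKF, hF⟩ := hχ
  obtain ⟨F', hF'fin, hKF', hF'⟩ := hψ
  have := hFfin
  have := hF'fin
  refine ⟨F ⊔ F', IntermediateField.finiteDimensional_sup F F', hKF.trans le_sup_left,
    fun g hg g' hg' s hs s' hs' => ?_⟩
  have hs1 : s ∈ GK F := IntermediateField.fixingSubgroup_le (le_sup_left : F ≤ F ⊔ F') hs
  have hs2 : s' ∈ GK F' := IntermediateField.fixingSubgroup_le (le_sup_right : F' ≤ F ⊔ F') hs'
  simp only [acup]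
  rw [hF g hg s hs1, hF' g' hg' s' hs2]

/-- LOC3-NONDEG. -/
theorem h24nd_locNondegRel_of (hZ : ChiZeta) (hB1 : B1) (hLP : LocPerfRel) : LocNondegRel := by
  intro q _ p _ E _ s hs hζ χ hχ hχc hker
  by_contra hne
  have hex : ∃ g ∈ GK E, χ g ≠ 0 := by
    by_contra h
    apply hne
    intro g hg
    by_contra hg0
    exact h ⟨g, hg, hg0⟩
  have hprim : IsPrimitiveRoot (zetaL p q) p := (hZ q p).1
  obtain ⟨ψ, hψ, hψc, hnc⟩ := hB1 q p E (zetaL p q) hζ hprim χ hχ hχc hex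
  exact hnc ((hLP q p E s hs hζ).1 (acup χ ψ) (h24nd_acoc2 E χ ψ hχ hψ)
    (h24nd_cont2 E χ ψ hχc hψc) (hker ψ hψ hψc))

end Fermat.Agent.PT.Loc
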