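import Fermat.Agent.PT.Loc.Top
import Fermat.Agent.PT.Bridge.Open
import Fermat.Agent.PT.Loc.MC.H79Cyc

/-!
# W3-PT / PT-LOC, leaf LOC2-AD-CYC (helper99): `h99ac_adCyc : AdCyc`

A cyclic extension `K₁/K` of degree `n` (`IsCyc K K₁ n σ`) gives a normal open subgroup
`G_{K₁} ≤ G_K` of index `n`:
* normal: `IsCyc.normal`;
* index: the character `g ↦ cycIdx K₁ σ n g : G_K → ℤ/n` is a surjective homomorphism with
  kernel `G_{K₁}` (`h99ac_chi`, cycIdx calculus of helper79);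
* open: `G_{K₁}` is open in `levLoc q` (`h23b_isOpen_levLoc_iff`, helper23) and openness is
  preserved by `comap`.
-/

set_option autoImplicit false

namespace Fermat.Agent.PT.Loc

open Fermat.Agent.PT Fermat.Agent.PT.Bridge

variable {q : ℕ} [Fact q.Prime]

section Degree

variable {K K₁ : LF q} {n : ℕ} {σ : Gq q}

/-- the character `G_K → ℤ/n` of a cyclic extension. -/
noncomputable def h99ac_chi (h : IsCyc K K₁ n σ) : ↥(GK K) →* Multiplicative (ZMod n) where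
  toFun g := Multiplicative.ofAdd ((cycIdx K₁ σ n (g : Gq q) : ℕ) : ZMod n)
  map_one' := by
    have h1 : cycIdx K₁ σ n ((1 : ↥(GK K)) : Gq q) = 0 :=
      h79c_cycIdx_of_mem h (GK K₁).one_mem
    rw [h1, Nat.cast_zero]
    rfl
  map_mul' := by
    intro g g'
    have h1 : cycIdx K₁ σ n ((g * g' : ↥(GK K)) : Gq q) =
        (cycIdx K₁ σ n (g : Gq q) + cycIdx K₁ σ n (g' : Gq q)) % n :=
      h79c_cycIdx_mul h g.2 g'.2
    rw [h1, ZMod.natCast_mod, Nat.cast_add]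
    rfl

theorem h99ac_chi_apply (h : IsCyc K K₁ n σ) (g : ↥(GK K)) :
    h99ac_chi h g = Multiplicative.ofAdd ((cycIdx K₁ σ n (g : Gq q) : ℕ) : ZMod n) := rfl

theorem h99ac_chi_ker (h : IsCyc K K₁ n σ) :
    (h99ac_chi h).ker = (GK K₁).subgroupOf (GK K) := by
  ext g
  rw [MonoidHom.mem_ker, Subgroup.mem_subgroupOf, h99ac_chi_apply]
  have hlt : cycIdx K₁ σ n (g : Gq q) < n := h79c_cycIdx_lt h g.2
  constructor
  · intro h0
    have h1 : ((cycIdx K₁ σ n (g : Gq q) : ℕ) : ZMod n) = 0 := h0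
    rw [ZMod.natCast_eq_zero_iff] at h1
    have h2 : cycIdx K₁ σ n (g : Gq q) = 0 := Nat.eq_zero_of_dvd_of_lt h1 hlt
    have h3 := h79c_cycIdx_mem h g.2
    rw [h2, pow_zero, inv_one, one_mul] at h3
    exact h3
  · intro hg
    rw [h79c_cycIdx_of_mem h hg, Nat.cast_zero]
    rfl

theorem h99ac_chi_surjective (h : IsCyc K K₁ n σ) : Function.Surjective (h99ac_chi h) := by
  have : NeZero n := ⟨h.pos.ne'⟩
  intro a
  refine ⟨⟨σ ^ (Multiplicative.toAdd a).val, (GK K).pow_mem h.mem _⟩, ?_⟩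
  rw [h99ac_chi_apply]
  have h1 : cycIdx K₁ σ n (σ ^ (Multiplicative.toAdd a).val) = (Multiplicative.toAdd a).val % n :=
    h79c_cycIdx_pow h _
  show Multiplicative.ofAdd ((cycIdx K₁ σ n (σ ^ (Multiplicative.toAdd a).val) : ℕ) : ZMod n) = a
  rw [h1, ZMod.natCast_mod, ZMod.natCast_zmod_val]
  rfl

/-- `[G_K : G_{K₁}] = n`. -/
theorem h99ac_index (h : IsCyc K K₁ n σ) : ((GK K₁).subgroupOf (GK K)).index = n := by
  have : NeZero n := ⟨h.pos.ne'⟩
  rw [← h99ac_chi_ker h, Subgroup.index_ker, MonoidHom.range_eq_top.mpr (h99ac_chi_surjective h)]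
  rw [Nat.card_congr (Subgroup.topEquiv (G := Multiplicative (ZMod n))).toEquiv]
  exact Nat.card_zmod n

theorem h99ac_normal (h : IsCyc K K₁ n σ) : ((GK K₁).subgroupOf (GK K)).Normal := by
  refine ⟨fun s hs g => ?_⟩
  rw [Subgroup.mem_subgroupOf] at hs ⊢
  exact h.normal (g : Gq q) g.2 (s : Gq q) hs

end Degree

/-- openness is preserved by `comap`. -/
theorem h99ac_isOpen_comap {G H : Type} [Group G] [Group H] (L : Lev G) (f : H →* G)
    {U : Subgroup G} (hU : L.IsOpen U) : (L.comap f).IsOpen (U.comap f) := by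
  obtain ⟨N, hN, hle⟩ := hU
  exact ⟨N.comap f, ⟨N, hN, rfl⟩, Subgroup.comap_mono hle⟩

/-- the absolute Galois group of a local field is open. -/
theorem h99ac_isOpen_GK (K₁ : LF q) [FiniteDimensional ℚ_[q] K₁] : (levLoc q).IsOpen (GK K₁) :=
  (h23b_isOpen_levLoc_iff q (GK K₁)).mpr ⟨K₁, inferInstance, rfl⟩

/-- **LOC2-AD-CYC**. -/
theorem h99ac_adCyc : AdCyc := by
  intro q _ K K₁ _ n σ h
  have hfin : FiniteDimensional ℚ_[q] K₁ := h.fin
  exact ⟨h99ac_normal h, h99ac_index h, h99ac_isOpen_comap (levLoc q) (GK K).subtype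
    (h99ac_isOpen_GK K₁)⟩

end Fermat.Agent.PT.Loc
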