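import Mathlib
import Fermat.Agent.PT.Loc.Basic
import Fermat.Agent.PT.Loc.Iface

/-!
# W3-PT / PT-LOC leaf LOC-B1 (helper10): the Hilbert symbol is nondegenerate

Assembly of `B1` from the leaves `KumClass`, `KumBasic`, `KumCyc`, `MCKum`, `MCCarryNorm`,
`NIMain` (all frozen in `Loc/Iface.lean`):

`χ = κ_B`, normalise `σ` with `χ σ = 1`, `K₁ = K(B)` cyclic of degree `p` with index character `χ`;
`NIMain` gives `b ∈ K^×` which is not a norm from `K₁`; `ψ := κ_β`, `β^p = b`.  If `χ ∪ ψ ∼ 0`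
then `ψ ∪ χ ∼ 0` (because `χ ∪ ψ + ψ ∪ χ = -∂(χψ)`), hence `ζ^(ψ ∪ idx) ∼ 1`, hence the carry
cocycle of `b` is a coboundary (`MCKum`), hence `b` is a norm (`MCCarryNorm`): contradiction.
-/

set_option autoImplicit false

open scoped Classical

noncomputable section

namespace Fermat.Agent.PT.Loc

variable {q : ℕ} [Fact q.Prime] {p : ℕ}

/-! ## Small tools -/

theorem h10b_acoc1_one {K : LF q} {χ : Gq q → ZMod p} (h : ACoc1 K χ) : χ 1 = 0 := by
  have h1 := h 1 (one_mem _) 1 (one_mem _)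
  rw [mul_one] at h1
  exact left_eq_add.mp h1

theorem h10b_acoc1_pow {K : LF q} {χ : Gq q → ZMod p} (h : ACoc1 K χ) {g : Gq q}
    (hg : g ∈ GK K) (n : ℕ) : χ (g ^ n) = (n : ZMod p) * χ g := by
  induction n with
  | zero => simp [h10b_acoc1_one h]
  | succ n ih =>
    rw [pow_succ, h _ (pow_mem hg n) _ hg, ih]
    push_cast
    ring

/-- Pointwise combination of two continuous `1`-cochains is continuous. -/
theorem h10b_cont1_map₂ {K : LF q} {X Y Z : Type*} {f₁ : Gq q → X} {f₂ : Gq q → Y}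
    (h₁ : Cont1 K f₁) (h₂ : Cont1 K f₂) (op : X → Y → Z) :
    Cont1 K (fun g => op (f₁ g) (f₂ g)) := by
  obtain ⟨F₁, hF₁, hK₁, hf₁⟩ := h₁
  obtain ⟨F₂, hF₂, hK₂, hf₂⟩ := h₂
  refine ⟨F₁ ⊔ F₂, ?_, hK₁.trans le_sup_left, ?_⟩
  · have := hF₁
    have := hF₂
    infer_instance
  · intro g hg s hs
    have hs₁ : s ∈ GK F₁ := IntermediateField.fixingSubgroup_le (le_sup_left : F₁ ≤ F₁ ⊔ F₂) hs
    have hs₂ : s ∈ GK F₂ := IntermediateField.fixingSubgroup_le (le_sup_right : F₂ ≤ F₁ ⊔ F₂) hs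
    simp only [hf₁ g hg s hs₁, hf₂ g hg s hs₂]

/-- Post-composition of a continuous `1`-cochain is continuous. -/
theorem h10b_cont1_map {K : LF q} {X Y : Type*} {f : Gq q → X} (h : Cont1 K f) (op : X → Y) :
    Cont1 K (fun g => op (f g)) := by
  obtain ⟨F, hF, hK, hf⟩ := h
  exact ⟨F, hF, hK, fun g hg s hs => by simp only [hf g hg s hs]⟩

/-- `ζ ^ a.val` is additive in `a : ZMod p` when `ζ ^ p = 1`. -/
theorem h10b_pow_val_add [NeZero p] {G : Type*} [Group G] {ζ : G} (hζ : ζ ^ p = 1)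
    (a b : ZMod p) : ζ ^ (a + b).val = ζ ^ a.val * ζ ^ b.val := by
  rw [ZMod.val_add, ← pow_add, ← pow_mod_orderOf, ← pow_mod_orderOf (n := a.val + b.val)]
  congr 1
  exact Nat.mod_mod_of_dvd _ (orderOf_dvd_of_pow_eq_one hζ)

theorem h10b_pow_val_neg [NeZero p] {G : Type*} [Group G] {ζ : G} (hζ : ζ ^ p = 1)
    (a : ZMod p) : ζ ^ (-a).val = (ζ ^ a.val)⁻¹ := by
  have h := h10b_pow_val_add hζ (-a) a
  rw [neg_add_cancel, ZMod.val_zero, pow_zero] at h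
  exact eq_inv_of_mul_eq_one_left h.symm

theorem h10b_pow_val_sub [NeZero p] {G : Type*} [Group G] {ζ : G} (hζ : ζ ^ p = 1)
    (a b : ZMod p) : ζ ^ (a - b).val = ζ ^ a.val / ζ ^ b.val := by
  rw [sub_eq_add_neg, h10b_pow_val_add hζ, h10b_pow_val_neg hζ, div_eq_mul_inv]

theorem h10b_comm_aux {G : Type*} [CommGroup G] (a b c d e f : G) :
    a / b / (c / d) * (e / f) = a / c * e / (b / d * f) := by
  rw [div_div_div_comm, div_mul_div_comm]

/-- The multiplicative coboundary is multiplicative in the cochain. -/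
theorem h10b_mcob_div (x₁ x₂ : Gq q → (Om q)ˣ) (y : Gq q × Gq q) :
    mcob (fun g => x₁ g / x₂ g) y = mcob x₁ y / mcob x₂ y := by
  unfold mcob
  simp only [smul_div']
  exact h10b_comm_aux _ _ _ _ _ _

/-- If `c ∼ 1` and `c ∼ c'⁻¹` then `c' ∼ 1`. -/
theorem h10b_mcohom_cancel {K : LF q} {c c' : Gq q × Gq q → (Om q)ˣ}
    (h₁ : MCohom K c 1) (h₂ : MCohom K c (fun y => (c' y)⁻¹)) : MCohom K c' 1 := by
  obtain ⟨x₁, hx₁, h₁⟩ := h₁
  obtain ⟨x₂, hx₂, h₂⟩ := h₂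
  refine ⟨fun g => x₂ g / x₁ g, h10b_cont1_map₂ hx₂ hx₁ (fun a b => a / b), ?_⟩
  intro g hg h hh
  have e₁ := h₁ g hg h hh
  have e₂ := h₂ g hg h hh
  rw [h10b_mcob_div]
  simp only [Pi.one_apply, one_mul] at e₁ ⊢
  rw [e₁] at e₂
  rw [e₂]
  simp

/-- A `μ_p`-valued cochain `ζ ^ e` has multiplicative coboundary `ζ ^ (∂e)` on `G_K`. -/
theorem h10b_mcob_zeta [NeZero p] {K : LF q} (ζ : (Om q)ˣ) (hζK : (ζ : Om q) ∈ K)
    (hζ : ζ ^ p = 1) (e : Gq q → ZMod p) {g h : Gq q} (hg : g ∈ GK K) :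
    mcob (fun s => ζ ^ (e s).val) (g, h) = ζ ^ (acob e (g, h)).val := by
  have hfix : g • ζ = ζ := by
    apply Units.ext
    exact (IntermediateField.mem_fixingSubgroup_iff K g).mp hg _ hζK
  unfold mcob acob
  simp only [smul_pow', hfix]
  rw [h10b_pow_val_add hζ, h10b_pow_val_sub hζ]

/-! ## The assembly -/

/-- LOC-B1: the Hilbert symbol is nondegenerate (assembly from the KUM, MC and NI leaves). -/
theorem h10b_B1 (hKC : KumClass) (hKB : KumBasic) (hKCyc : KumCyc) (hMCK : MCKum)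
    (hMCN : MCCarryNorm) (hNI : NIMain) : B1 := by
  intro q _ p _ K _ ζ hζK hζ χ hχ hχc hχne
  have : NeZero p := ⟨(Fact.out : p.Prime).ne_zero⟩
  have hζ0 : ζ ≠ 0 := hζ.ne_zero (Fact.out : p.Prime).ne_zero
  -- χ is a Kummer character
  obtain ⟨B, hB0, hBK, hχB⟩ := hKC q p K ζ hζK hζ χ hχ hχc
  -- normalise σ with χ σ = 1
  obtain ⟨g₀, hg₀, hg₀ne⟩ := hχne
  set σ : Gq q := g₀ ^ ((χ g₀)⁻¹).val with hσdef
  have hσ : σ ∈ GK K := pow_mem hg₀ _
  have hχσ : χ σ = 1 := by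
    rw [hσdef, h10b_acoc1_pow hχ hg₀, ZMod.natCast_zmod_val]
    exact inv_mul_cancel₀ hg₀ne
  have hkσ : kum p ζ B σ = 1 := by rw [← hχB σ hσ, hχσ]
  -- the cyclic extension K₁ = K(B)
  obtain ⟨hcyc, hidx⟩ := hKCyc q p K ζ B σ hζK hζ hB0 hBK hσ hkσ
  set K₁ : LF q := K ⊔ IntermediateField.adjoin ℚ_[q] {B} with hK₁
  -- a non-norm b
  obtain ⟨⟨b, hbK, hb0, hbnorm⟩, -⟩ := hNI q p K K₁ σ hcyc
  -- a p-th root β of b
  obtain ⟨β, hβ⟩ := IsAlgClosed.exists_pow_nat_eq (k := Om q) b (Fact.out : p.Prime).pos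
  have hβ0 : β ≠ 0 := by
    rintro rfl
    rw [zero_pow (Fact.out : p.Prime).ne_zero] at hβ
    exact hb0 hβ.symm
  have hβK : β ^ p ∈ K := by rw [hβ]; exact hbK
  obtain ⟨hψ, hψc, -⟩ := hKB q p K ζ β hζK hζ hβ0 hβK
  refine ⟨kum p ζ β, hψ, hψc, ?_⟩
  rintro ⟨f, hf, hcoh⟩
  -- units
  set ζu : (Om q)ˣ := Units.mk0 ζ hζ0 with hζu
  set βu : (Om q)ˣ := Units.mk0 β hβ0 with hβu
  have hζup : ζu ^ p = 1 := by
    apply Units.ext
    simp [hζu, hζ.pow_eq_one]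
  -- ψ ∪ idx is a coboundary
  have hstep : MCohom K
      (zpw ζu (acup (kum p (ζu : Om q) (βu : Om q))
        (fun g => (cycIdx K₁ σ p g : ZMod p)))) 1 := by
    refine ⟨fun s => ζu ^ (-(χ s * kum p ζ β s) - f s).val, ?_, ?_⟩
    · have h1 : Cont1 K (fun s => -(χ s * kum p ζ β s) - f s) :=
        h10b_cont1_map₂ (h10b_cont1_map₂ hχc hψc (fun a b => -(a * b))) hf (fun a b => a - b)
      exact h10b_cont1_map h1 (fun a => ζu ^ a.val)
    · intro g hg h hh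
      rw [h10b_mcob_zeta ζu hζK hζup _ hg]
      simp only [Pi.one_apply, one_mul, zpw]
      congr 2
      have e₁ := hcoh g hg h hh
      simp only [acup, acob, Pi.zero_apply, zero_add] at e₁ ⊢
      have hcast : (cycIdx K₁ σ p h : ZMod p) = χ h := by
        rw [hidx h hh, hχB h hh]
      have hgh : g * h ∈ GK K := mul_mem hg hh
      rw [hcast, hχ g hg h hh, hψ g hg h hh]
      show kum p ζ β g * χ h = _
      linear_combination -e₁
  have hkum := hMCK q p K K₁ σ ζu βu hζK hζ hcyc (by simpa [hβu] using hβK)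
  have hcarry : MCohom K (carry K₁ σ p (βu ^ p)) 1 := h10b_mcohom_cancel hstep hkum
  have hbu : ((βu ^ p : (Om q)ˣ) : Om q) = b := by simp [hβu, hβ]
  have hnorm := (hMCN q K K₁ p σ (βu ^ p) hcyc (by rw [hbu]; exact hbK)).mp hcarry
  rw [hbu] at hnorm
  exact hbnorm hnorm

end Fermat.Agent.PT.Loc
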