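import Mathlib
import Fermat.Agent.PT.Loc.Iface
import Fermat.Agent.PT.Loc.MC.H65Carry
import Fermat.Agent.PT.Loc.H10B1
import Fermat.Agent.PT.Loc.H66URCyc

/-!
# W3-PT / PT-LOC leaf LOC-B0-DESC (helper12)

`h12d_b0Desc` : `B0Desc` from the MC / UR / NI leaves: descent of "`c` is a multiple of the
standard generator" through a cyclic step `K₁/K` of degree `p`.

Strategy (classes in `Br`-like groups `Q K = cochains / coboundaries on G_K`):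
`C = ζ^c`, `U = carry(Kur K p, φ, p, π)`, `Y = carry(Kur K (p*p), φ, p*p, π^t)`.
* on `G_{K₁}`: `[C] = [U₁]^(-t)`, `[Y] = [U₁]^t`, `[U] = 1`;
* hence `[C·Y] = [carry(K₁,σ,p,b)]`, `[U] = [carry(K₁,σ,p,b₀)]` on `G_K` (inflation–restriction),
  `b₀` not a norm, so `[C·Y]·[U]^k = 1` (norm index `p`);
* `p`-th powers: `[Y]^p = [U]^t = 1`, so `t = 0`, `Y = 1`, `[C] = [U]^(-k) = [ζ^(k c₀)]`.
-/

set_option autoImplicit false

open scoped Classical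

noncomputable section

namespace Fermat.Agent.PT.Loc

variable {q : ℕ} [Fact q.Prime] {p : ℕ}

/-! ## Coboundaries and classes -/

theorem h12d_mcob_one_apply (y : Gq q × Gq q) :
    mcob (fun _ : Gq q => (1 : (Om q)ˣ)) y = 1 := by
  simp [mcob]

theorem h12d_mcob_mul (x x' : Gq q → (Om q)ˣ) (y : Gq q × Gq q) :
    mcob (fun g => x g * x' g) y = mcob x y * mcob x' y := by
  unfold mcob
  simp only [smul_mul']
  rw [div_eq_mul_inv, div_eq_mul_inv, div_eq_mul_inv, mul_inv]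
  ac_rfl

theorem h12d_mcob_inv (x : Gq q → (Om q)ˣ) (y : Gq q × Gq q) :
    mcob (fun g => (x g)⁻¹) y = (mcob x y)⁻¹ := by
  unfold mcob
  simp only [smul_inv']
  rw [div_eq_mul_inv, div_eq_mul_inv, mul_inv, mul_inv, inv_inv]

theorem h12d_cont1_const (K : LF q) [hK : FiniteDimensional ℚ_[q] K] {X : Type*} (a : X) :
    Cont1 K (fun _ : Gq q => a) :=
  ⟨K, hK, le_rfl, fun _ _ _ _ => rfl⟩

/-- The group of `2`-cochains which are continuous coboundaries on `G_K`. -/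
def h12d_B (K : LF q) [FiniteDimensional ℚ_[q] K] : Subgroup (Gq q × Gq q → (Om q)ˣ) where
  carrier := {c | ∃ x : Gq q → (Om q)ˣ, Cont1 K x ∧
    ∀ g ∈ GK K, ∀ h ∈ GK K, c (g, h) = mcob x (g, h)}
  one_mem' := ⟨fun _ => 1, h12d_cont1_const K 1, fun g _ h _ => by
    rw [h12d_mcob_one_apply]; rfl⟩
  mul_mem' := by
    rintro a b ⟨x, hx, hxa⟩ ⟨x', hx', hxb⟩
    refine ⟨fun g => x g * x' g, h10b_cont1_map₂ hx hx' (fun u v => u * v), ?_⟩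
    intro g hg h hh
    rw [h12d_mcob_mul, Pi.mul_apply, hxa g hg h hh, hxb g hg h hh]
  inv_mem' := by
    rintro a ⟨x, hx, hxa⟩
    refine ⟨fun g => (x g)⁻¹, h10b_cont1_map hx (fun u => u⁻¹), ?_⟩
    intro g hg h hh
    rw [h12d_mcob_inv, Pi.inv_apply, hxa g hg h hh]

theorem h12d_mem_B (K : LF q) [FiniteDimensional ℚ_[q] K] (c : Gq q × Gq q → (Om q)ˣ) :
    c ∈ h12d_B K ↔ ∃ x : Gq q → (Om q)ˣ, Cont1 K x ∧
      ∀ g ∈ GK K, ∀ h ∈ GK K, c (g, h) = mcob x (g, h) := Iff.rfl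

theorem h12d_mcohom_iff (K : LF q) [FiniteDimensional ℚ_[q] K]
    (c c' : Gq q × Gq q → (Om q)ˣ) : MCohom K c c' ↔ c / c' ∈ h12d_B K := by
  rw [h12d_mem_B]
  unfold MCohom
  refine exists_congr fun x => and_congr Iff.rfl ?_
  refine forall_congr' fun g => forall_congr' fun _ => forall_congr' fun h =>
    forall_congr' fun _ => ?_
  rw [Pi.div_apply, div_eq_iff_eq_mul']

/-- Cochains modulo continuous coboundaries on `G_K`. -/
def h12d_Q (K : LF q) [FiniteDimensional ℚ_[q] K] : Type :=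
  (Gq q × Gq q → (Om q)ˣ) ⧸ h12d_B K

instance h12d_Q_commGroup (K : LF q) [FiniteDimensional ℚ_[q] K] : CommGroup (h12d_Q K) :=
  QuotientGroup.Quotient.commGroup (h12d_B K)

/-- The class of a `2`-cochain modulo continuous coboundaries on `G_K`. -/
def h12d_cl (K : LF q) [FiniteDimensional ℚ_[q] K] :
    (Gq q × Gq q → (Om q)ˣ) →* h12d_Q K :=
  QuotientGroup.mk' (h12d_B K)

theorem h12d_cl_eq_one_iff_mem (K : LF q) [FiniteDimensional ℚ_[q] K]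
    (c : Gq q × Gq q → (Om q)ˣ) : h12d_cl K c = 1 ↔ c ∈ h12d_B K :=
  QuotientGroup.eq_one_iff c

theorem h12d_cl_eq_iff_mem (K : LF q) [FiniteDimensional ℚ_[q] K]
    (c c' : Gq q × Gq q → (Om q)ˣ) : h12d_cl K c = h12d_cl K c' ↔ c / c' ∈ h12d_B K := by
  rw [← h12d_cl_eq_one_iff_mem, map_div, div_eq_one]

theorem h12d_cl_eq_iff (K : LF q) [FiniteDimensional ℚ_[q] K]
    (c c' : Gq q × Gq q → (Om q)ˣ) : h12d_cl K c = h12d_cl K c' ↔ MCohom K c c' := by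
  rw [h12d_cl_eq_iff_mem, h12d_mcohom_iff]

theorem h12d_cl_eq_one_iff (K : LF q) [FiniteDimensional ℚ_[q] K]
    (c : Gq q × Gq q → (Om q)ˣ) : h12d_cl K c = 1 ↔ MCohom K c 1 := by
  rw [← h12d_cl_eq_iff, map_one]

/-- Cochains which agree on `G_K × G_K` have the same class. -/
theorem h12d_cl_congr (K : LF q) [FiniteDimensional ℚ_[q] K]
    {c c' : Gq q × Gq q → (Om q)ˣ}
    (h : ∀ g ∈ GK K, ∀ h ∈ GK K, c (g, h) = c' (g, h)) : h12d_cl K c = h12d_cl K c' := by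
  rw [h12d_cl_eq_iff]
  refine ⟨fun _ => 1, h12d_cont1_const K 1, fun g hg k hk => ?_⟩
  rw [h12d_mcob_one_apply, mul_one, h g hg k hk]

theorem h12d_cont1_mono {K K₁ : LF q} [hK₁ : FiniteDimensional ℚ_[q] K₁] (hle : K ≤ K₁)
    {X : Type*} {f : Gq q → X} (hf : Cont1 K f) : Cont1 K₁ f := by
  obtain ⟨F, hF, hKF, hfF⟩ := hf
  refine ⟨F ⊔ K₁, ?_, le_sup_right, ?_⟩
  · have := hF
    infer_instance
  · intro g hg s hs
    exact hfF g (IntermediateField.fixingSubgroup_antitone hle hg) s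
      (IntermediateField.fixingSubgroup_antitone (le_sup_left : F ≤ F ⊔ K₁) hs)

theorem h12d_B_mono {K K₁ : LF q} [FiniteDimensional ℚ_[q] K] [FiniteDimensional ℚ_[q] K₁]
    (hle : K ≤ K₁) : h12d_B K ≤ h12d_B K₁ := by
  rintro c ⟨x, hx, hxc⟩
  exact ⟨x, h12d_cont1_mono hle hx, fun g hg h hh =>
    hxc g (IntermediateField.fixingSubgroup_antitone hle hg) h
      (IntermediateField.fixingSubgroup_antitone hle hh)⟩

/-- Restriction of classes from `G_K` to `G_{K₁}`. -/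
theorem h12d_cl_res {K K₁ : LF q} [FiniteDimensional ℚ_[q] K] [FiniteDimensional ℚ_[q] K₁]
    (hle : K ≤ K₁) {c c' : Gq q × Gq q → (Om q)ˣ} (h : h12d_cl K c = h12d_cl K c') :
    h12d_cl K₁ c = h12d_cl K₁ c' := by
  rw [h12d_cl_eq_iff_mem] at h ⊢
  exact h12d_B_mono hle h

/-! ## Calculus of `zpw` -/

theorem h12d_zpw_apply (ζ : (Om q)ˣ) (c : Gq q × Gq q → ZMod p) (y : Gq q × Gq q) :
    zpw ζ c y = ζ ^ (c y).val := rfl

theorem h12d_zpw_sub [NeZero p] {ζ : (Om q)ˣ} (hζ : ζ ^ p = 1) (c c' : Gq q × Gq q → ZMod p) :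
    zpw ζ (c - c') = zpw ζ c / zpw ζ c' := by
  funext y
  rw [Pi.div_apply, h12d_zpw_apply, h12d_zpw_apply, h12d_zpw_apply, Pi.sub_apply,
    h10b_pow_val_sub hζ]

theorem h12d_pow_val_mul [NeZero p] {G : Type*} [Group G] {ζ : G} (hζ : ζ ^ p = 1)
    (t a : ZMod p) : ζ ^ (t * a).val = (ζ ^ a.val) ^ t.val := by
  rw [ZMod.val_mul, ← pow_mul, ← pow_mod_orderOf, ← pow_mod_orderOf (n := a.val * t.val),
    mul_comm a.val t.val]
  congr 1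
  exact Nat.mod_mod_of_dvd _ (orderOf_dvd_of_pow_eq_one hζ)

theorem h12d_zpw_smul [NeZero p] {ζ : (Om q)ˣ} (hζ : ζ ^ p = 1) (t : ZMod p)
    (c : Gq q × Gq q → ZMod p) : zpw ζ (t • c) = zpw ζ c ^ t.val := by
  funext y
  rw [Pi.pow_apply, h12d_zpw_apply, h12d_zpw_apply, Pi.smul_apply, smul_eq_mul,
    h12d_pow_val_mul hζ]

theorem h12d_zpw_pow_p {ζ : (Om q)ˣ} (hζ : ζ ^ p = 1) (c : Gq q × Gq q → ZMod p) :
    zpw ζ c ^ p = 1 := by
  funext y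
  rw [Pi.pow_apply, h12d_zpw_apply, ← pow_mul, mul_comm, pow_mul, hζ, one_pow]
  rfl

theorem h12d_smul_unit {K : LF q} {g : Gq q} (hg : g ∈ GK K) {b : (Om q)ˣ}
    (hb : (b : Om q) ∈ K) : g • b = b := h65_smul_unit_of_mem hg hb

theorem h12d_zpw_mcoc2 [NeZero p] {K : LF q} {ζ : (Om q)ˣ} (hζK : (ζ : Om q) ∈ K)
    (hζ : ζ ^ p = 1) {c : Gq q × Gq q → ZMod p} (hc : ACoc2 K c) : MCoc2 K (zpw ζ c) := by
  intro g hg h hh j hj
  simp only [h12d_zpw_apply, smul_pow', h12d_smul_unit hg hζK]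
  rw [← h10b_pow_val_add hζ, ← h10b_pow_val_add hζ]
  congr 2
  have e := hc g hg h hh j hj
  linear_combination -e

theorem h12d_zpw_cont2 {K : LF q} (ζ : (Om q)ˣ) {c : Gq q × Gq q → ZMod p} (hc : Cont2 K c) :
    Cont2 K (zpw ζ c) := by
  obtain ⟨F, hF, hKF, hcF⟩ := hc
  refine ⟨F, hF, hKF, fun g hg g' hg' s hs s' hs' => ?_⟩
  rw [h12d_zpw_apply, h12d_zpw_apply, hcF g hg g' hg' s hs s' hs']

/-- Additively cohomologous cochains give multiplicatively cohomologous `ζ`-powers. -/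
theorem h12d_cl_zpw_of_acohom [NeZero p] {K : LF q} [FiniteDimensional ℚ_[q] K]
    {ζ : (Om q)ˣ} (hζK : (ζ : Om q) ∈ K) (hζ : ζ ^ p = 1) {c c' : Gq q × Gq q → ZMod p}
    (h : ACohom K c c') : h12d_cl K (zpw ζ c) = h12d_cl K (zpw ζ c') := by
  obtain ⟨f, hf, hfc⟩ := h
  rw [h12d_cl_eq_iff]
  refine ⟨fun s => ζ ^ (f s).val, h10b_cont1_map hf (fun a => ζ ^ a.val), ?_⟩
  intro g hg k hk
  rw [h10b_mcob_zeta ζ hζK hζ f hg, h12d_zpw_apply, h12d_zpw_apply, hfc g hg k hk,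
    h10b_pow_val_add hζ]

/-! ## Products of cocycles -/

theorem h12d_mcoc2_mul {K : LF q} {a b : Gq q × Gq q → (Om q)ˣ} (ha : MCoc2 K a)
    (hb : MCoc2 K b) : MCoc2 K (a * b) := by
  intro g hg h hh j hj
  have e1 := ha g hg h hh j hj
  have e2 := hb g hg h hh j hj
  simp only [Pi.mul_apply, smul_mul']
  calc a (g * h, j) * b (g * h, j) * (a (g, h) * b (g, h))
      = (a (g * h, j) * a (g, h)) * (b (g * h, j) * b (g, h)) := by ac_rfl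
    _ = (g • a (h, j) * a (g, h * j)) * (g • b (h, j) * b (g, h * j)) := by rw [e1, e2]
    _ = g • a (h, j) * g • b (h, j) * (a (g, h * j) * b (g, h * j)) := by ac_rfl

theorem h12d_cont2_mul {K : LF q} {X : Type*} [Mul X] {a b : Gq q × Gq q → X}
    (ha : Cont2 K a) (hb : Cont2 K b) : Cont2 K (a * b) := by
  obtain ⟨F₁, hF₁, hK₁, hf₁⟩ := ha
  obtain ⟨F₂, hF₂, hK₂, hf₂⟩ := hb
  refine ⟨F₁ ⊔ F₂, ?_, hK₁.trans le_sup_left, ?_⟩
  · have := hF₁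
    have := hF₂
    infer_instance
  · intro g hg g' hg' s hs s' hs'
    have hs₁ : s ∈ GK F₁ := IntermediateField.fixingSubgroup_antitone
      (le_sup_left : F₁ ≤ F₁ ⊔ F₂) hs
    have hs₂ : s ∈ GK F₂ := IntermediateField.fixingSubgroup_antitone
      (le_sup_right : F₂ ≤ F₁ ⊔ F₂) hs
    have hs₁' : s' ∈ GK F₁ := IntermediateField.fixingSubgroup_antitone
      (le_sup_left : F₁ ≤ F₁ ⊔ F₂) hs'
    have hs₂' : s' ∈ GK F₂ := IntermediateField.fixingSubgroup_antitone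
      (le_sup_right : F₂ ≤ F₁ ⊔ F₂) hs'
    rw [Pi.mul_apply, Pi.mul_apply, hf₁ g hg g' hg' s hs₁ s' hs₁', hf₂ g hg g' hg' s hs₂ s' hs₂']

theorem h12d_acoc2_sub_smul {K : LF q} {c c₀ : Gq q × Gq q → ZMod p} (hc : ACoc2 K c)
    (hc₀ : ACoc2 K c₀) (k : ZMod p) : ACoc2 K (c - k • c₀) := by
  intro g hg h hh j hj
  have e1 := hc g hg h hh j hj
  have e2 := hc₀ g hg h hh j hj
  simp only [Pi.sub_apply, Pi.smul_apply, smul_eq_mul]
  linear_combination e1 - k * e2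

theorem h12d_cont2_sub_smul {K : LF q} {c c₀ : Gq q × Gq q → ZMod p} (hc : Cont2 K c)
    (hc₀ : Cont2 K c₀) (k : ZMod p) : Cont2 K (c - k • c₀) := by
  obtain ⟨F₁, hF₁, hK₁, hf₁⟩ := hc
  obtain ⟨F₂, hF₂, hK₂, hf₂⟩ := hc₀
  refine ⟨F₁ ⊔ F₂, ?_, hK₁.trans le_sup_left, ?_⟩
  · have := hF₁
    have := hF₂
    infer_instance
  · intro g hg g' hg' s hs s' hs'
    have hs₁ : s ∈ GK F₁ := IntermediateField.fixingSubgroup_antitone
      (le_sup_left : F₁ ≤ F₁ ⊔ F₂) hs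
    have hs₂ : s ∈ GK F₂ := IntermediateField.fixingSubgroup_antitone
      (le_sup_right : F₂ ≤ F₁ ⊔ F₂) hs
    have hs₁' : s' ∈ GK F₁ := IntermediateField.fixingSubgroup_antitone
      (le_sup_left : F₁ ≤ F₁ ⊔ F₂) hs'
    have hs₂' : s' ∈ GK F₂ := IntermediateField.fixingSubgroup_antitone
      (le_sup_right : F₂ ≤ F₁ ⊔ F₂) hs'
    simp only [Pi.sub_apply, Pi.smul_apply]
    rw [hf₁ g hg g' hg' s hs₁ s' hs₁', hf₂ g hg g' hg' s hs₂ s' hs₂']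

/-! ## Calculus of `carry` -/

theorem h12d_carry_mul (K₁ : LF q) (σ : Gq q) (n : ℕ) (b b' : (Om q)ˣ) :
    carry K₁ σ n (b * b') = carry K₁ σ n b * carry K₁ σ n b' := by
  funext y
  rw [Pi.mul_apply]
  unfold carry
  split_ifs <;> simp

theorem h12d_carry_one (K₁ : LF q) (σ : Gq q) (n : ℕ) :
    carry K₁ σ n (1 : (Om q)ˣ) = 1 := by
  funext y
  unfold carry
  split_ifs <;> rfl

theorem h12d_carry_pow (K₁ : LF q) (σ : Gq q) (n : ℕ) (b : (Om q)ˣ) (k : ℕ) :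
    carry K₁ σ n (b ^ k) = carry K₁ σ n b ^ k := by
  induction k with
  | zero => rw [pow_zero, pow_zero, h12d_carry_one]
  | succ k ih => rw [pow_succ, pow_succ, h12d_carry_mul, ih]

theorem h12d_cl_carry_eq_one_iff (hN : MCCarryNorm) {K K₁ : LF q} [FiniteDimensional ℚ_[q] K]
    {n : ℕ} {σ : Gq q} (hc : IsCyc K K₁ n σ) {b : (Om q)ˣ} (hb : (b : Om q) ∈ K) :
    h12d_cl K (carry K₁ σ n b) = 1 ↔ IsNorm K₁ σ n (b : Om q) := by
  rw [h12d_cl_eq_one_iff]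
  exact hN q K K₁ n σ b hc hb

/-! ## Arithmetic: uniformizers, indices -/

theorem h12d_unif_norm_eq {K : LF q} {π π' : Om q} (h : IsUnif K π) (h' : IsUnif K π') :
    ‖π‖ = ‖π'‖ :=
  le_antisymm (h'.2.2.2 π h.1 h.2.2.1) (h.2.2.2 π' h'.1 h'.2.2.1)

theorem h12d_unif_norm_pos {K : LF q} {π : Om q} (h : IsUnif K π) : 0 < ‖π‖ :=
  norm_pos_iff.mpr h.2.1

theorem h12d_unif_zpow_inj {K : LF q} {π : Om q} (h : IsUnif K π) {a b : ℤ}
    (hab : ‖π‖ ^ a = ‖π‖ ^ b) : a = b :=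
  zpow_right_injective₀ (h12d_unif_norm_pos h) (ne_of_lt h.2.2.1) hab

theorem h12d_Kur_le (K : LF q) (n m : ℕ) : Kur K n ≤ Kur K (n * m) := by
  unfold Kur
  apply sup_le_sup_left
  apply IntermediateField.adjoin.mono
  intro w hw
  obtain ⟨d, hd⟩ : (resCard K ^ n - 1) ∣ (resCard K ^ (n * m) - 1) := by
    have h := Nat.sub_dvd_pow_sub_pow (resCard K ^ n) 1 m
    rwa [one_pow, ← pow_mul] at h
  show w ^ (resCard K ^ (n * m) - 1) = 1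
  rw [hd, pow_mul, show w ^ (resCard K ^ n - 1) = 1 from hw, one_pow]

/-- The index in `Gal(Kur K n / K)` is determined by the action on roots of unity. -/
theorem h12d_idx_eq_of_act (hUC : URCyc) (hUI : URIdx) (K : LF q) [FiniteDimensional ℚ_[q] K]
    {n : ℕ} (hn : 0 < n) {φ : Gq q} (hφ : IsFrob K φ) {g : Gq q} (hg : g ∈ GK K) {a : ℕ}
    (ha : a < n)
    (h : ∀ w : Om q, w ^ (resCard K ^ n - 1) = 1 → g w = w ^ (resCard K ^ a)) :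
    cycIdx (Kur K n) φ n g = a := by
  have hcyc : IsCyc K (Kur K n) n φ := hUC q K n φ hn hφ
  have hφa : φ ^ a ∈ GK K := Subgroup.pow_mem _ hφ.1 a
  have hidx : cycIdx (Kur K n) φ n (φ ^ a) = a :=
    h65_idx_eq hcyc hφa ha (by rw [inv_mul_cancel]; exact one_mem _)
  refine h65_idx_eq hcyc hg ha ?_
  rw [h66u_mem_GK_Kur]
  refine ⟨Subgroup.mul_mem _ (Subgroup.inv_mem _ hφa) hg, fun w hw => ?_⟩
  have e1 := hUI q K n φ hn hφ (φ ^ a) hφa w hw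
  rw [hidx] at e1
  rw [AlgEquiv.mul_apply, h w hw, ← e1, ← AlgEquiv.mul_apply, inv_mul_cancel, AlgEquiv.one_apply]

/-! ## Restriction to `K₁` -/

theorem h12d_unit_split (a b : (Om q)ˣ) : a = b * (a / b) := by
  rw [mul_div_cancel]

/-- A unit of `K` of norm one has trivial carry class for the unramified extension. -/
theorem h12d_cl_carry_unit (hCN : MCCarryNorm) (hUC : URCyc) (hUN : URNormGrp)
    {K : LF q} [FiniteDimensional ℚ_[q] K] {n : ℕ} (hn : 0 < n) {φ : Gq q} (hφ : IsFrob K φ)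
    {π : Om q} (hπ : IsUnif K π) {b : (Om q)ˣ} (hb : (b : Om q) ∈ K) (m : ℤ)
    (hnorm : ‖(b : Om q)‖ = ‖π‖ ^ ((n : ℤ) * m)) :
    h12d_cl K (carry (Kur K n) φ n b) = 1 := by
  rw [h12d_cl_carry_eq_one_iff hCN (hUC q K n φ hn hφ) hb,
    hUN q K n φ π hn hφ hπ _ hb b.ne_zero]
  exact ⟨m, hnorm⟩

/-- Restriction facts to `K₁` (both cases of the dichotomy): on `G_{K₁}` the class of
`(χ_{p²}, π₀^t)` is `t` times the generator class of `K₁`, and `(χ_p, π₀)` dies. -/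
theorem h12d_res_facts (hCN : MCCarryNorm) (hCP : MCCarryPow) (hND : NIDich) (hUC : URCyc)
    (hUN : URNormGrp) (hUI : URIdx) (hUV : URVal)
    [Fact p.Prime] {K K₁ : LF q} [FiniteDimensional ℚ_[q] K] [FiniteDimensional ℚ_[q] K₁]
    {σ : Gq q} (hcyc : IsCyc K K₁ p σ) {φ₀ φ₁ : Gq q} (hφ₀ : IsFrob K φ₀) (hφ₁ : IsFrob K₁ φ₁)
    {π₀ π₁ : (Om q)ˣ} (hπ₀ : IsUnif K (π₀ : Om q)) (hπ₁ : IsUnif K₁ (π₁ : Om q)) (t : ℕ) :
    h12d_cl K₁ (carry (Kur K (p * p)) φ₀ (p * p) (π₀ ^ t)) =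
        h12d_cl K₁ (carry (Kur K₁ p) φ₁ p π₁) ^ t ∧
      h12d_cl K₁ (carry (Kur K p) φ₀ p π₀) = 1 := by
  have hp : p.Prime := Fact.out
  have hpp : 0 < p * p := Nat.mul_pos hp.pos hp.pos
  have hle : GK K₁ ≤ GK K := IntermediateField.fixingSubgroup_antitone hcyc.le
  have hcL1 : IsCyc K₁ (Kur K₁ p) p φ₁ := hUC q K₁ p φ₁ hp.pos hφ₁
  have hcL2 : IsCyc K₁ (Kur K₁ (p * p)) (p * p) φ₁ := hUC q K₁ (p * p) φ₁ hpp hφ₁
  have hcK1 : IsCyc K (Kur K p) p φ₀ := hUC q K p φ₀ hp.pos hφ₀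
  have hπ₀K₁ : (π₀ : Om q) ∈ K₁ := hcyc.le hπ₀.1
  rcases hND q p K K₁ σ hcyc with hA | ⟨hres, ϖ, hϖK₁, π, hπ, hϖ, hnorm⟩
  · -- unramified case
    have hN₁ : resCard K₁ = resCard K ^ p := by rw [hA]; exact (hUV q K p hp.pos).2.2
    have hgA : ∀ g, g ∈ GK K₁ → g ∈ GK (Kur K p) := fun g hg => by rw [← hA]; exact hg
    have hidx : ∀ g ∈ GK K₁,
        cycIdx (Kur K (p * p)) φ₀ (p * p) g = p * cycIdx (Kur K₁ p) φ₁ p g := by
      intro g hg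
      have hj := h65_idx_lt hcL1 hg
      refine h12d_idx_eq_of_act hUC hUI K hpp hφ₀ (hle hg)
        (Nat.mul_lt_mul_of_pos_left hj hp.pos) ?_
      intro w hw
      have hw' : w ^ (resCard K₁ ^ p - 1) = 1 := by rw [hN₁, ← pow_mul]; exact hw
      have e := hUI q K₁ p φ₁ hp.pos hφ₁ g hg w hw'
      rw [e, hN₁, ← pow_mul]
    have hnorm : ‖(π₀ : Om q)‖ = ‖(π₁ : Om q)‖ := by
      apply le_antisymm
      · exact hπ₁.2.2.2 _ hπ₀K₁ hπ₀.2.2.1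
      · have hmem : (π₁ : Om q) ∈ Kur K p := by rw [← hA]; exact hπ₁.1
        obtain ⟨y, hyK, hy⟩ := (hUV q K p hp.pos).2.1 (π₁ : Om q) hmem
        rw [hy]
        exact hπ₀.2.2.2 y hyK (hy ▸ hπ₁.2.2.1)
    constructor
    · have e1 : h12d_cl K₁ (carry (Kur K (p * p)) φ₀ (p * p) (π₀ ^ t)) =
          h12d_cl K₁ (carry (Kur K₁ p) φ₁ p (π₀ ^ t)) := by
        apply h12d_cl_congr
        intro g hg h hh
        rw [h65_carry_apply, h65_carry_apply, hidx g hg, hidx h hh, ← mul_add]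
        simp only [Nat.mul_le_mul_left_iff hp.pos]
      rw [e1, h12d_carry_pow, map_pow]
      congr 1
      have hε : h12d_cl K₁ (carry (Kur K₁ p) φ₁ p (π₀ / π₁)) = 1 := by
        refine h12d_cl_carry_unit hCN hUC hUN hp.pos hφ₁ hπ₁ ?_ 0 ?_
        · rw [Units.val_div_eq_div_val]
          exact K₁.div_mem hπ₀K₁ hπ₁.1
        · rw [Units.val_div_eq_div_val, norm_div, hnorm, mul_zero, zpow_zero,
            div_self (ne_of_gt (h12d_unif_norm_pos hπ₁))]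
      calc h12d_cl K₁ (carry (Kur K₁ p) φ₁ p π₀)
          = h12d_cl K₁ (carry (Kur K₁ p) φ₁ p (π₁ * (π₀ / π₁))) := by
            rw [← h12d_unit_split]
        _ = h12d_cl K₁ (carry (Kur K₁ p) φ₁ p π₁) := by
            rw [h12d_carry_mul, map_mul, hε, mul_one]
    · rw [← map_one (h12d_cl K₁)]
      apply h12d_cl_congr
      intro g hg h hh
      rw [h65_carry_apply, h65_idx_of_mem hcK1 (hgA g hg), h65_idx_of_mem hcK1 (hgA h hh),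
        if_neg (by have := hp.pos; omega)]
      rfl
  · -- ramified case
    have hn0 : ‖(π₁ : Om q)‖ ^ p = ‖(π₀ : Om q)‖ := by
      rw [h12d_unif_norm_eq hπ₁ hϖ, hnorm, h12d_unif_norm_eq hπ hπ₀]
    have hidx : ∀ n, 0 < n → ∀ g ∈ GK K₁,
        cycIdx (Kur K n) φ₀ n g = cycIdx (Kur K₁ n) φ₁ n g := by
      intro n hn g hg
      have hcn : IsCyc K₁ (Kur K₁ n) n φ₁ := hUC q K₁ n φ₁ hn hφ₁
      refine h12d_idx_eq_of_act hUC hUI K hn hφ₀ (hle hg) (h65_idx_lt hcn hg) ?_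
      intro w hw
      have e := hUI q K₁ n φ₁ hn hφ₁ g hg w (by rw [hres]; exact hw)
      rw [e, hres]
    constructor
    · have e1 : h12d_cl K₁ (carry (Kur K (p * p)) φ₀ (p * p) (π₀ ^ t)) =
          h12d_cl K₁ (carry (Kur K₁ (p * p)) φ₁ (p * p) (π₀ ^ t)) := by
        apply h12d_cl_congr
        intro g hg h hh
        rw [h65_carry_apply, h65_carry_apply, hidx _ hpp g hg, hidx _ hpp h hh]
      rw [e1, h12d_carry_pow, map_pow]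
      congr 1
      have hε : h12d_cl K₁ (carry (Kur K₁ (p * p)) φ₁ (p * p) (π₀ / π₁ ^ p)) = 1 := by
        refine h12d_cl_carry_unit hCN hUC hUN hpp hφ₁ hπ₁ ?_ 0 ?_
        · rw [Units.val_div_eq_div_val, Units.val_pow_eq_pow_val]
          exact K₁.div_mem hπ₀K₁ (pow_mem hπ₁.1 p)
        · rw [Units.val_div_eq_div_val, Units.val_pow_eq_pow_val, norm_div, norm_pow, hn0,
            mul_zero, zpow_zero, div_self (ne_of_gt (h12d_unif_norm_pos hπ₀))]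
      have hP : h12d_cl K₁ (carry (Kur K₁ (p * p)) φ₁ (p * p) (π₁ ^ p)) =
          h12d_cl K₁ (carry (Kur K₁ p) φ₁ p π₁) :=
        (h12d_cl_eq_iff _ _ _).2
          (hCP q K₁ (Kur K₁ p) (Kur K₁ (p * p)) p p φ₁ π₁ hcL1 hcL2 (h12d_Kur_le K₁ p p) hπ₁.1)
      calc h12d_cl K₁ (carry (Kur K₁ (p * p)) φ₁ (p * p) π₀)
          = h12d_cl K₁ (carry (Kur K₁ (p * p)) φ₁ (p * p) (π₁ ^ p * (π₀ / π₁ ^ p))) := by
            rw [← h12d_unit_split]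
        _ = h12d_cl K₁ (carry (Kur K₁ p) φ₁ p π₁) := by
            rw [h12d_carry_mul, map_mul, hε, hP, mul_one]
    · have e1 : h12d_cl K₁ (carry (Kur K p) φ₀ p π₀) =
          h12d_cl K₁ (carry (Kur K₁ p) φ₁ p π₀) := by
        apply h12d_cl_congr
        intro g hg h hh
        rw [h65_carry_apply, h65_carry_apply, hidx _ hp.pos g hg, hidx _ hp.pos h hh]
      rw [e1]
      refine h12d_cl_carry_unit hCN hUC hUN hp.pos hφ₁ hπ₁ hπ₀K₁ 1 ?_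
      rw [mul_one, zpow_natCast, hn0]

/-! ## The descent -/

/-- **LOC-B0-DESC** from the MC / UR / NI leaves (and the cocycle part of `B0Gen`). -/
theorem h12d_b0Desc_of (hKum : MCKum) (hMu : MCMu) (hIR : MCInfResPer) (hCN : MCCarryNorm)
    (hCP : MCCarryPow) (hCar : MCCarry) (hNI : NIMain) (hND : NIDich) (hUC : URCyc)
    (hUN : URNormGrp) (hUI : URIdx) (hUV : URVal) (hG : B0Gen) : B0Desc := by
  intro q _ p _ K K₁ _ ζ σ hζK hζ hcyc c₀ c₁ hc₀ hc₁ c hcoc hcont ht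
  obtain ⟨t, ht⟩ := ht
  have : FiniteDimensional ℚ_[q] K₁ := hcyc.fin
  have hp : p.Prime := Fact.out
  have : NeZero p := ⟨hp.ne_zero⟩
  have hpp : 0 < p * p := Nat.mul_pos hp.pos hp.pos
  have hc₀G := (hG q p K ζ hζK hζ).2 c₀ hc₀
  obtain ⟨ϖ₀, φ₀, hπ₀, hφ₀, hc₀e⟩ := hc₀
  obtain ⟨ϖ₁, φ₁, hπ₁, hφ₁, hc₁e⟩ := hc₁
  have hζ0 : ζ ≠ 0 := hζ.ne_zero hp.ne_zero
  have hϖ₀0 : ϖ₀ ≠ 0 := fun h => hπ₀.2.1 (by rw [h, zero_pow hp.ne_zero])
  have hϖ₁0 : ϖ₁ ≠ 0 := fun h => hπ₁.2.1 (by rw [h, zero_pow hp.ne_zero])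
  obtain ⟨ζu, hζu⟩ : ∃ u : (Om q)ˣ, (u : Om q) = ζ := ⟨Units.mk0 ζ hζ0, rfl⟩
  obtain ⟨B₀, hB₀⟩ : ∃ u : (Om q)ˣ, (u : Om q) = ϖ₀ := ⟨Units.mk0 ϖ₀ hϖ₀0, rfl⟩
  obtain ⟨B₁, hB₁⟩ : ∃ u : (Om q)ˣ, (u : Om q) = ϖ₁ := ⟨Units.mk0 ϖ₁ hϖ₁0, rfl⟩
  subst hζu hB₀ hB₁
  have hζp : ζu ^ p = 1 := Units.ext (by rw [Units.val_pow_eq_pow_val, hζ.pow_eq_one]; rfl)
  have hζK₁ : (ζu : Om q) ∈ K₁ := hcyc.le hζK
  have hπ₀' : IsUnif K ((B₀ ^ p : (Om q)ˣ) : Om q) := by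
    rw [Units.val_pow_eq_pow_val]; exact hπ₀
  have hπ₁' : IsUnif K₁ ((B₁ ^ p : (Om q)ˣ) : Om q) := by
    rw [Units.val_pow_eq_pow_val]; exact hπ₁
  have hcK1 : IsCyc K (Kur K p) p φ₀ := hUC q K p φ₀ hp.pos hφ₀
  have hcK2 : IsCyc K (Kur K (p * p)) (p * p) φ₀ := hUC q K (p * p) φ₀ hpp hφ₀
  have hcL1 : IsCyc K₁ (Kur K₁ p) p φ₁ := hUC q K₁ p φ₁ hp.pos hφ₁
  have hmemt : ∀ j : ℕ, (((B₀ ^ p) ^ j : (Om q)ˣ) : Om q) ∈ K := fun j => by
    rw [Units.val_pow_eq_pow_val]; exact pow_mem hπ₀'.1 j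
  -- restriction facts
  obtain ⟨hY₁, hUres⟩ :=
    h12d_res_facts hCN hCP hND hUC hUN hUI hUV hcyc hφ₀ hφ₁ hπ₀' hπ₁' t.val
  -- Kummer classes
  have hkum₁ : h12d_cl K₁ (zpw ζu c₁) = (h12d_cl K₁ (carry (Kur K₁ p) φ₁ p (B₁ ^ p)))⁻¹ := by
    rw [← map_inv, h12d_cl_eq_iff, hc₁e]
    exact hKum q p K₁ (Kur K₁ p) φ₁ ζu B₁ hζK₁ hζ hcL1 hπ₁.1
  have hkum₀ : h12d_cl K (zpw ζu c₀) = (h12d_cl K (carry (Kur K p) φ₀ p (B₀ ^ p)))⁻¹ := by
    rw [← map_inv, h12d_cl_eq_iff, hc₀e]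
    exact hKum q p K (Kur K p) φ₀ ζu B₀ hζK hζ hcK1 hπ₀.1
  -- the class of `C = ζ^c` on `G_{K₁}`
  have hC₁ : h12d_cl K₁ (zpw ζu c) =
      (h12d_cl K₁ (carry (Kur K₁ p) φ₁ p (B₁ ^ p)))⁻¹ ^ t.val := by
    rw [h12d_cl_zpw_of_acohom hζK₁ hζp ht, h12d_zpw_smul hζp, map_pow, hkum₁]
  have hCY₁ : h12d_cl K₁
      (zpw ζu c * carry (Kur K (p * p)) φ₀ (p * p) ((B₀ ^ p) ^ t.val)) = 1 := by
    rw [map_mul, hC₁, hY₁, inv_pow, inv_mul_cancel]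
  -- cocycle properties
  have hCcoc : MCoc2 K (zpw ζu c) := h12d_zpw_mcoc2 hζK hζp hcoc
  have hCcont : Cont2 K (zpw ζu c) := h12d_zpw_cont2 ζu hcont
  have hYc := hCar q K (Kur K (p * p)) (p * p) φ₀ ((B₀ ^ p) ^ t.val) hcK2 (hmemt _)
  have hUc := hCar q K (Kur K p) p φ₀ (B₀ ^ p) hcK1 hπ₀'.1
  -- inflation-restriction
  obtain ⟨b, hbK, hb⟩ := hIR q K K₁ p σ hcyc _ (h12d_mcoc2_mul hCcoc hYc.1)
    (h12d_cont2_mul hCcont hYc.2) ((h12d_cl_eq_one_iff K₁ _).1 hCY₁)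
  obtain ⟨b₀, hb₀K, hb₀⟩ := hIR q K K₁ p σ hcyc _ hUc.1 hUc.2
    ((h12d_cl_eq_one_iff K₁ _).1 hUres)
  have hb' := (h12d_cl_eq_iff K _ _).2 hb
  have hb₀' := (h12d_cl_eq_iff K _ _).2 hb₀
  -- `U` is not a coboundary
  have hUne : h12d_cl K (carry (Kur K p) φ₀ p (B₀ ^ p)) ≠ 1 := by
    intro h
    rw [h12d_cl_carry_eq_one_iff hCN hcK1 hπ₀'.1,
      hUN q K p φ₀ _ hp.pos hφ₀ hπ₀' _ hπ₀'.1 hπ₀'.2.1] at h
    obtain ⟨m, hm⟩ := h
    have e : (1 : ℤ) = (p : ℤ) * m :=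
      h12d_unif_zpow_inj hπ₀' (by rw [zpow_one]; exact hm)
    have h2 : ((p : ℕ) : ℤ) ∣ ((1 : ℕ) : ℤ) := ⟨m, by exact_mod_cast e⟩
    exact hp.one_lt.ne' (Nat.dvd_one.mp (Int.natCast_dvd_natCast.mp h2))
  have hb₀n : ¬ IsNorm K₁ σ p (b₀ : Om q) := by
    intro h
    apply hUne
    rw [hb₀', h12d_cl_carry_eq_one_iff hCN hcyc hb₀K]
    exact h
  obtain ⟨k, hk, hnk⟩ := (hNI q p K K₁ σ hcyc).2 b₀ hb₀K b₀.ne_zero hb₀n b hbK b.ne_zero
  have hbk : ((b * b₀ ^ k : (Om q)ˣ) : Om q) = (b : Om q) * (b₀ : Om q) ^ k := by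
    rw [Units.val_mul, Units.val_pow_eq_pow_val]
  have hrel : h12d_cl K (zpw ζu c * carry (Kur K (p * p)) φ₀ (p * p) ((B₀ ^ p) ^ t.val)) *
      h12d_cl K (carry (Kur K p) φ₀ p (B₀ ^ p)) ^ k = 1 := by
    rw [hb', hb₀', ← map_pow, ← map_mul, ← h12d_carry_pow, ← h12d_carry_mul,
      h12d_cl_carry_eq_one_iff hCN hcyc (by rw [hbk]; exact K.mul_mem hbK (pow_mem hb₀K k)), hbk]
    exact hnk
  -- `p`-th powers
  have hCp : h12d_cl K (zpw ζu c) ^ p = 1 := by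
    rw [← map_pow, h12d_zpw_pow_p hζp, map_one]
  have hUp : h12d_cl K (carry (Kur K p) φ₀ p (B₀ ^ p)) ^ p = 1 := by
    rw [← map_pow, ← h12d_carry_pow]
    refine h12d_cl_carry_unit hCN hUC hUN hp.pos hφ₀ hπ₀' (hmemt p) 1 ?_
    rw [Units.val_pow_eq_pow_val, norm_pow, mul_one, zpow_natCast]
  have hYp : h12d_cl K (carry (Kur K (p * p)) φ₀ (p * p) ((B₀ ^ p) ^ t.val)) ^ p =
      h12d_cl K (carry (Kur K p) φ₀ p (B₀ ^ p)) ^ t.val := by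
    rw [← map_pow, ← map_pow, ← h12d_carry_pow, ← h12d_carry_pow, h12d_cl_eq_iff]
    exact hCP q K (Kur K p) (Kur K (p * p)) p p φ₀ ((B₀ ^ p) ^ t.val) hcK1 hcK2
      (h12d_Kur_le K p p) (hmemt _)
  have hUt : h12d_cl K (carry (Kur K p) φ₀ p (B₀ ^ p)) ^ t.val = 1 := by
    have h1 := congrArg (fun x => x ^ p) hrel
    simp only [map_mul, mul_pow, one_pow] at h1
    rw [hCp, one_mul, hYp, ← pow_mul, mul_comm k p, pow_mul, hUp, one_pow, mul_one] at h1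
    exact h1
  have ht0 : t.val = 0 := by
    rw [← map_pow, ← h12d_carry_pow, h12d_cl_carry_eq_one_iff hCN hcK1 (hmemt _),
      hUN q K p φ₀ _ hp.pos hφ₀ hπ₀' _ (hmemt _) (Units.ne_zero _)] at hUt
    obtain ⟨m, hm⟩ := hUt
    rw [Units.val_pow_eq_pow_val, norm_pow, ← zpow_natCast] at hm
    have e := h12d_unif_zpow_inj hπ₀' hm
    have hdvd : p ∣ t.val := Int.natCast_dvd_natCast.mp ⟨m, e⟩
    exact Nat.eq_zero_of_dvd_of_lt hdvd (ZMod.val_lt t)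
  have hCU : h12d_cl K (zpw ζu c) * h12d_cl K (carry (Kur K p) φ₀ p (B₀ ^ p)) ^ k = 1 := by
    rw [ht0, pow_zero, h12d_carry_one, mul_one] at hrel
    exact hrel
  -- conclusion
  refine ⟨(k : ZMod p), ?_⟩
  have hkval : ((k : ℕ) : ZMod p).val = k := ZMod.val_natCast_of_lt hk
  have hfin : h12d_cl K (zpw ζu (c - (k : ZMod p) • c₀)) = 1 := by
    rw [h12d_zpw_sub hζp, h12d_zpw_smul hζp, hkval, map_div, map_pow, hkum₀, inv_pow,
      div_inv_eq_mul]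
    exact hCU
  obtain ⟨f, hf, hfc⟩ := hMu q p K ζu hζK hζ (c - (k : ZMod p) • c₀)
    (h12d_acoc2_sub_smul hcoc hc₀G.1 _) (h12d_cont2_sub_smul hcont hc₀G.2.1 _)
    ((h12d_cl_eq_one_iff K _).1 hfin)
  refine ⟨f, hf, fun g hg h hh => ?_⟩
  have e := hfc g hg h hh
  simp only [Pi.sub_apply, Pi.zero_apply, zero_add] at e
  rw [← e]
  ring

end Fermat.Agent.PT.Loc

end
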