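import Mathlib

/-!
# W3-PT / PT-LOC leaf MC-INFRES-PER, abstract part (helper77)

Explicit inflation–restriction in degree `2` plus periodicity for a cyclic quotient, for
multiplicative cochains that are total functions on an ambient group `Γ`, with all conditions
required on subgroups `H ≤ G` only.  Mathlib only.

Main result: `h77p_infres_abs`.
-/

set_option autoImplicit false
set_option linter.unusedSimpArgs false

namespace Fermat.Agent.PT.Loc

section Abs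

variable {Γ : Type*} [Group Γ] {M : Type*} [CommGroup M] [MulDistribMulAction Γ M]

/-- The multiplicative coboundary `(g, h) ↦ g x(h) · x(gh)⁻¹ · x(g)`. -/
def h77p_cob (x : Γ → M) : Γ × Γ → M := fun y => y.1 • x y.2 / x (y.1 * y.2) * x y.1

lemma h77p_cob_apply (x : Γ → M) (g h : Γ) :
    h77p_cob x (g, h) = g • x h / x (g * h) * x g := rfl

/-- `c` is a `2`-cocycle on `G`. -/
def h77p_Coc2 (G : Subgroup Γ) (c : Γ × Γ → M) : Prop :=
  ∀ g ∈ G, ∀ h ∈ G, ∀ j ∈ G, c (g * h, j) * c (g, h) = g • c (h, j) * c (g, h * j)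

lemma h77p_coc2_cob (G : Subgroup Γ) (x : Γ → M) : h77p_Coc2 G (h77p_cob x) := by
  intro g _ h _ j _
  simp only [h77p_cob_apply, smul_mul', smul_div', mul_smul, mul_assoc]
  apply Additive.ofMul.injective
  simp only [ofMul_mul, ofMul_div, ofMul_inv, ofMul_one]
  abel

lemma h77p_coc2_div {G : Subgroup Γ} {c c' : Γ × Γ → M} (hc : h77p_Coc2 G c)
    (hc' : h77p_Coc2 G c') : h77p_Coc2 G (fun y => c y / c' y) := by
  intro g hg h hh j hj
  have h1 := hc g hg h hh j hj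
  have h2 := hc' g hg h hh j hj
  simp only [smul_div']
  rw [div_mul_div_comm, div_mul_div_comm, h1, h2]

lemma h77p_cob_mul (x x' : Γ → M) (y : Γ × Γ) :
    h77p_cob (fun g => x g * x' g) y = h77p_cob x y * h77p_cob x' y := by
  obtain ⟨g, h⟩ := y
  simp only [h77p_cob_apply, smul_mul']
  apply Additive.ofMul.injective
  simp only [ofMul_mul, ofMul_div, ofMul_inv, ofMul_one]
  abel

/-- The cyclic datum: `H ⊴ G`, `G/H` cyclic of order `n` generated by `σ`, with index function. -/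
structure h77p_Cyc (G H : Subgroup Γ) (σ : Γ) (n : ℕ) (idx : Γ → ℕ) : Prop where
  le : H ≤ G
  mem : σ ∈ G
  normal : ∀ g ∈ G, ∀ s ∈ H, g * s * g⁻¹ ∈ H
  pos : 0 < n
  idx_lt : ∀ g ∈ G, idx g < n
  idx_mem : ∀ g ∈ G, (σ ^ idx g)⁻¹ * g ∈ H
  idx_unique : ∀ g ∈ G, ∀ i, i < n → (σ ^ i)⁻¹ * g ∈ H → idx g = i

/-- The level system: subgroups of `H`, directed, fixing every element of `M` eventually,
stable under conjugation by `G` up to refinement. -/
structure h77p_LvSys (G H : Subgroup Γ) (Lv : Subgroup Γ → Prop) (M : Type*) [CommGroup M]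
    [MulDistribMulAction Γ M] : Prop where
  le : ∀ N, Lv N → N ≤ H
  inf : ∀ N N', Lv N → Lv N' → ∃ N'', Lv N'' ∧ N'' ≤ N ∧ N'' ≤ N'
  fix : ∀ m : M, ∃ N, Lv N ∧ ∀ t ∈ N, t • m = m
  conj : ∀ h ∈ G, ∀ N, Lv N → ∃ N', Lv N' ∧ ∀ t ∈ N', h⁻¹ * t * h ∈ N

/-- Right invariance of a `1`-cochain on `G` under a level. -/
def h77p_C1 (Lv : Subgroup Γ → Prop) (G : Subgroup Γ) (x : Γ → M) : Prop :=
  ∃ N, Lv N ∧ ∀ g ∈ G, ∀ t ∈ N, x (g * t) = x g

/-- Right invariance of a `2`-cochain in the second variable under a level. -/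
def h77p_R2 (Lv : Subgroup Γ → Prop) (G : Subgroup Γ) (c : Γ × Γ → M) : Prop :=
  ∃ N, Lv N ∧ ∀ g ∈ G, ∀ h ∈ G, ∀ t ∈ N, c (g, h * t) = c (g, h)

/-- Right invariance of a `2`-cochain in the first variable, the level depending on the second
variable. -/
def h77p_R1 (Lv : Subgroup Γ → Prop) (G : Subgroup Γ) (c : Γ × Γ → M) : Prop :=
  ∀ h ∈ G, ∃ N, Lv N ∧ ∀ g ∈ G, ∀ t ∈ N, c (g * t, h) = c (g, h)

variable {G H : Subgroup Γ} {σ : Γ} {n : ℕ} {idx : Γ → ℕ} {Lv : Subgroup Γ → Prop}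

namespace h77p_Cyc

variable (hc : h77p_Cyc G H σ n idx)
include hc

lemma pow_mem (i : ℕ) : σ ^ i ∈ G := G.pow_mem hc.mem i

lemma idx_of_mem {s : Γ} (hs : s ∈ H) : idx s = 0 :=
  hc.idx_unique s (hc.le hs) 0 hc.pos (by simpa using hs)

lemma idx_mul_right {g t : Γ} (hg : g ∈ G) (ht : t ∈ H) : idx (g * t) = idx g := by
  refine hc.idx_unique (g * t) (G.mul_mem hg (hc.le ht)) _ (hc.idx_lt g hg) ?_
  rw [← mul_assoc]
  exact H.mul_mem (hc.idx_mem g hg) ht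

lemma conj_mem' {g s : Γ} (hg : g ∈ G) (hs : s ∈ H) : g⁻¹ * s * g ∈ H := by
  have := hc.normal g⁻¹ (G.inv_mem hg) s hs
  simpa using this

lemma idx_mul_left {g s : Γ} (hg : g ∈ G) (hs : s ∈ H) : idx (s * g) = idx g := by
  refine hc.idx_unique (s * g) (G.mul_mem (hc.le hs) hg) _ (hc.idx_lt g hg) ?_
  have h1 : (σ ^ idx g)⁻¹ * (s * g) =
      ((σ ^ idx g)⁻¹ * s * (σ ^ idx g)) * ((σ ^ idx g)⁻¹ * g) := by group
  rw [h1]
  exact H.mul_mem (hc.conj_mem' (hc.pow_mem _) hs) (hc.idx_mem g hg)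

lemma pow_n_mem : σ ^ n ∈ H := by
  have h0 : idx (σ ^ n) < n := hc.idx_lt _ (hc.pow_mem n)
  have h1 := hc.idx_mem _ (hc.pow_mem n)
  -- `σ^(n - i) ∈ H` with `0 < n - i ≤ n`
  have h2 : (σ ^ idx (σ ^ n))⁻¹ * σ ^ n = σ ^ (n - idx (σ ^ n)) := by
    rw [inv_mul_eq_iff_eq_mul, ← pow_add]
    congr 1
    omega
  rw [h2] at h1
  by_cases hi : idx (σ ^ n) = 0
  · simpa [hi] using h1
  · exfalso
    -- then `idx (σ ^ (n - i)) = 0` by membership but also `σ^(n-i)` has index `n - i`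
    have h3 := hc.idx_unique (σ ^ (n - idx (σ ^ n))) (hc.pow_mem _) (n - idx (σ ^ n))
      (by omega) (by simp)
    have h4 := hc.idx_of_mem h1
    omega

lemma idx_pow (i : ℕ) : idx (σ ^ i) = i % n := by
  refine hc.idx_unique _ (hc.pow_mem i) _ (Nat.mod_lt _ hc.pos) ?_
  have h1 : (σ ^ (i % n))⁻¹ * σ ^ i = (σ ^ n) ^ (i / n) := by
    rw [inv_mul_eq_iff_eq_mul, ← pow_mul, ← pow_add, Nat.mod_add_div]
  rw [h1]
  exact H.pow_mem hc.pow_n_mem _

lemma idx_mul {g h : Γ} (hg : g ∈ G) (hh : h ∈ G) : idx (g * h) = (idx g + idx h) % n := by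
  refine hc.idx_unique _ (G.mul_mem hg hh) _ (Nat.mod_lt _ hc.pos) ?_
  -- `g h = σ^i s σ^j s'`
  have hs := hc.idx_mem g hg
  have hs' := hc.idx_mem h hh
  have h1 : (σ ^ ((idx g + idx h) % n))⁻¹ * (g * h) =
      ((σ ^ ((idx g + idx h) % n))⁻¹ * σ ^ (idx g + idx h)) *
        (((σ ^ idx h)⁻¹ * ((σ ^ idx g)⁻¹ * g) * σ ^ idx h) * ((σ ^ idx h)⁻¹ * h)) := by
    rw [pow_add]
    group
  rw [h1]
  refine H.mul_mem ?_ (H.mul_mem (hc.conj_mem' (hc.pow_mem _) hs) hs')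
  have h2 := hc.idx_mem _ (hc.pow_mem (idx g + idx h))
  rwa [hc.idx_pow] at h2

end h77p_Cyc

/-! ### Continuity bookkeeping -/

lemma h77p_C1.mul {x x' : Γ → M} (hl : h77p_LvSys G H Lv M) (hx : h77p_C1 Lv G x)
    (hx' : h77p_C1 Lv G x') : h77p_C1 Lv G (fun g => x g * x' g) := by
  obtain ⟨N, hN, h⟩ := hx
  obtain ⟨N', hN', h'⟩ := hx'
  obtain ⟨N'', hN'', h1, h2⟩ := hl.inf N N' hN hN'
  exact ⟨N'', hN'', fun g hg t ht => by
    simp only
    rw [h g hg t (h1 ht), h' g hg t (h2 ht)]⟩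

lemma h77p_R2_div_cob {c : Γ × Γ → M} {x : Γ → M} (hl : h77p_LvSys G H Lv M)
    (hc : h77p_R2 Lv G c) (hx : h77p_C1 Lv G x) :
    h77p_R2 Lv G (fun y => c y / h77p_cob x y) := by
  obtain ⟨N, hN, h⟩ := hc
  obtain ⟨N', hN', h'⟩ := hx
  obtain ⟨N'', hN'', h1, h2⟩ := hl.inf N N' hN hN'
  refine ⟨N'', hN'', fun g hg k hk t ht => ?_⟩
  simp only [h77p_cob_apply]
  rw [h g hg k hk t (h1 ht), h' k hk t (h2 ht), ← mul_assoc, h' (g * k) (G.mul_mem hg hk) t (h2 ht)]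

lemma h77p_R1_div_cob {c : Γ × Γ → M} {x : Γ → M} (hl : h77p_LvSys G H Lv M)
    (hc : h77p_R1 Lv G c) (hx : h77p_C1 Lv G x) :
    h77p_R1 Lv G (fun y => c y / h77p_cob x y) := by
  intro k hk
  obtain ⟨N, hN, h⟩ := hc k hk
  obtain ⟨N', hN', h'⟩ := hx
  obtain ⟨N₁, hN₁, hfix⟩ := hl.fix (x k)
  obtain ⟨N₂, hN₂, hconj⟩ := hl.conj k hk N' hN'
  obtain ⟨A, hA, hA1, hA2⟩ := hl.inf N N' hN hN'
  obtain ⟨B, hB, hB1, hB2⟩ := hl.inf N₁ N₂ hN₁ hN₂
  obtain ⟨C, hC, hC1, hC2⟩ := hl.inf A B hA hB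
  refine ⟨C, hC, fun g hg t ht => ?_⟩
  simp only [h77p_cob_apply]
  have e1 : g * t * k = g * k * (k⁻¹ * t * k) := by group
  rw [h g hg t (hA1 (hC1 ht)), h' g hg t (hA2 (hC1 ht)), mul_smul, hfix t (hB1 (hC2 ht)), e1,
    h' (g * k) (G.mul_mem hg hk) _ (hconj t (hB2 (hC2 ht)))]

/-! ### Step 1: extend the trivialisation from `H` to `G` -/

lemma h77p_step1 (hc : h77p_Cyc G H σ n idx) (hl : h77p_LvSys G H Lv M) {x : Γ → M}
    (hx : h77p_C1 Lv H x) :
    ∃ x₁ : Γ → M, h77p_C1 Lv G x₁ ∧ ∀ s ∈ H, x₁ s = x s := by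
  refine ⟨fun g => x ((σ ^ idx g)⁻¹ * g), ?_, ?_⟩
  · obtain ⟨N, hN, h⟩ := hx
    refine ⟨N, hN, fun g hg t ht => ?_⟩
    have ht' : t ∈ H := hl.le N hN ht
    simp only
    rw [hc.idx_mul_right hg ht', ← mul_assoc, h _ (hc.idx_mem g hg) t ht]
  · intro s hs
    simp only
    rw [hc.idx_of_mem hs]
    simp

/-! ### Step 2: make `c(g, s) = 1` for `s ∈ H` -/

lemma h77p_one_left {c : Γ × Γ → M} (hcoc : h77p_Coc2 G c) {j : Γ} (hj : j ∈ G) :
    c (1, j) = c (1, 1) := by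
  have := hcoc 1 G.one_mem 1 G.one_mem j hj
  simp only [one_mul, one_smul] at this
  exact (mul_left_cancel this).symm

lemma h77p_step2 (hc : h77p_Cyc G H σ n idx) (hl : h77p_LvSys G H Lv M) {c : Γ × Γ → M}
    (hcoc : h77p_Coc2 G c) (hR2 : h77p_R2 Lv G c) (h1 : ∀ s ∈ H, ∀ s' ∈ H, c (s, s') = 1) :
    ∃ x₂ : Γ → M, h77p_C1 Lv G x₂ ∧ ∀ g ∈ G, ∀ s ∈ H, c (g, s) = h77p_cob x₂ (g, s) := by
  refine ⟨fun g => (c (σ ^ idx g, (σ ^ idx g)⁻¹ * g))⁻¹, ?_, ?_⟩
  · obtain ⟨N, hN, h⟩ := hR2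
    refine ⟨N, hN, fun g hg t ht => ?_⟩
    have ht' : t ∈ H := hl.le N hN ht
    simp only
    rw [hc.idx_mul_right hg ht', ← mul_assoc,
      h _ (hc.pow_mem _) _ (hc.le (hc.idx_mem g hg)) t ht]
  · intro g hg s hs
    have hu := hc.idx_mem g hg
    have hcoc' := hcoc (σ ^ idx g) (hc.pow_mem _) ((σ ^ idx g)⁻¹ * g) (hc.le hu) s (hc.le hs)
    rw [h1 _ hu s hs, smul_one, one_mul, mul_inv_cancel_left] at hcoc'
    simp only [h77p_cob_apply]
    rw [hc.idx_of_mem hs, hc.idx_mul_right hg hs]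
    simp only [pow_zero, inv_one, one_mul]
    rw [h1 1 H.one_mem s hs, inv_one, smul_one, one_div, inv_inv, ← mul_assoc, ← hcoc']
    simp

/-! ### Step 3: make `c(s, h) = 1` for `s ∈ H`, using Hilbert 90 on `H` -/

lemma h77p_right_inv {c : Γ × Γ → M} (hcoc : h77p_Coc2 G c) (hle : H ≤ G)
    (h2 : ∀ g ∈ G, ∀ s ∈ H, c (g, s) = 1) {g h s : Γ} (hg : g ∈ G) (hh : h ∈ G) (hs : s ∈ H) :
    c (g, h * s) = c (g, h) := by
  have := hcoc g hg h hh s (hle hs)
  rw [h2 _ (G.mul_mem hg hh) s hs, h2 h hh s hs, smul_one, one_mul, one_mul] at this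
  exact this.symm

lemma h77p_step3 (hc : h77p_Cyc G H σ n idx) (hl : h77p_LvSys G H Lv M)
    (h90 : ∀ u : Γ → M, (∀ s ∈ H, ∀ s' ∈ H, u (s * s') = s • u s' * u s) → h77p_C1 Lv H u →
      ∃ a : M, ∀ s ∈ H, u s = s • a / a)
    {c : Γ × Γ → M} (hcoc : h77p_Coc2 G c) (hR1 : h77p_R1 Lv G c)
    (h2 : ∀ g ∈ G, ∀ s ∈ H, c (g, s) = 1) :
    ∃ y : Γ → M, h77p_C1 Lv G y ∧ (∀ s ∈ H, ∀ h ∈ G, c (s, h) = h77p_cob y (s, h)) ∧
      ∀ g ∈ G, ∀ s ∈ H, h77p_cob y (g, s) = 1 := by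
  have hri : ∀ {g h s : Γ}, g ∈ G → h ∈ G → s ∈ H → c (g, h * s) = c (g, h) :=
    fun hg hh hs => h77p_right_inv hcoc hc.le h2 hg hh hs
  -- the cocycles `s ↦ c(s, σ^i)`
  have hex : ∀ i : ℕ, ∃ a : M, ∀ s ∈ H, c (s, σ ^ i) = s • a / a := by
    intro i
    refine h90 (fun s => c (s, σ ^ i)) ?_ ?_
    · intro s hs s' hs'
      have := hcoc s (hc.le hs) s' (hc.le hs') (σ ^ i) (hc.pow_mem i)
      rw [h2 s (hc.le hs) s' hs', mul_one] at this
      have e : s' * σ ^ i = σ ^ i * ((σ ^ i)⁻¹ * s' * σ ^ i) := by group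
      rw [e, hri (hc.le hs) (hc.pow_mem i) (hc.conj_mem' (hc.pow_mem i) hs')] at this
      exact this
    · obtain ⟨N, hN, h⟩ := hR1 (σ ^ i) (hc.pow_mem i)
      exact ⟨N, hN, fun g hg t ht => h g (hc.le hg) t ht⟩
  choose a ha using hex
  have ha0 : ∀ s ∈ H, s • a 0 = a 0 := by
    intro s hs
    have := ha 0 s hs
    rw [pow_zero, h2 s (hc.le hs) 1 H.one_mem] at this
    exact (div_eq_one.1 this.symm)
  have hy1 : ∀ s ∈ H, a (idx s) / a 0 = 1 := by
    intro s hs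
    rw [hc.idx_of_mem hs, div_self']
  refine ⟨fun g => a (idx g) / a 0, ?_, ?_, ?_⟩
  · obtain ⟨N, hN, -⟩ := hl.fix (1 : M)
    refine ⟨N, hN, fun g hg t ht => ?_⟩
    simp only
    rw [hc.idx_mul_right hg (hl.le N hN ht)]
  · intro s hs h hh
    have e : h = σ ^ idx h * ((σ ^ idx h)⁻¹ * h) := by group
    have e1 : c (s, h) = c (s, σ ^ idx h) := by
      conv_lhs => rw [e]
      exact hri (hc.le hs) (hc.pow_mem _) (hc.idx_mem h hh)
    simp only [h77p_cob_apply]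
    rw [e1, ha (idx h) s hs, hc.idx_mul_left hh hs, hy1 s hs, mul_one, smul_div', ha0 s hs]
    apply Additive.ofMul.injective
    simp only [ofMul_mul, ofMul_div, ofMul_inv, ofMul_one]
    abel
  · intro g hg s hs
    simp only [h77p_cob_apply]
    rw [hy1 s hs, smul_one, hc.idx_mul_right hg hs]
    apply Additive.ofMul.injective
    simp only [ofMul_mul, ofMul_div, ofMul_inv, ofMul_one]
    abel

/-! ### Step 4: periodicity for the cyclic quotient -/

lemma h77p_step4 (hc : h77p_Cyc G H σ n idx) (hl : h77p_LvSys G H Lv M)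
    {c : Γ × Γ → M} (hcoc : h77p_Coc2 G c)
    (h2 : ∀ g ∈ G, ∀ s ∈ H, c (g, s) = 1) (h3 : ∀ s ∈ H, ∀ h ∈ G, c (s, h) = 1) :
    ∃ b : M, (∀ g ∈ G, g • b = b) ∧ ∃ z : Γ → M, h77p_C1 Lv G z ∧ ∀ g ∈ G, ∀ h ∈ G,
      c (g, h) = (if n ≤ idx g + idx h then b else 1) * h77p_cob z (g, h) := by
  -- (a) right invariance in the second variable
  have hri : ∀ {g h s : Γ}, g ∈ G → h ∈ G → s ∈ H → c (g, h * s) = c (g, h) :=
    fun hg hh hs => h77p_right_inv hcoc hc.le h2 hg hh hs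
  -- (b) right invariance in the first variable
  have hli : ∀ {g h s : Γ}, g ∈ G → h ∈ G → s ∈ H → c (g * s, h) = c (g, h) := by
    intro g h s hg hh hs
    have := hcoc g hg s (hc.le hs) h hh
    rw [h2 g hg s hs, h3 s hs h hh, smul_one, one_mul, mul_one] at this
    have e : s * h = h * (h⁻¹ * s * h) := by group
    rw [this, e, hri hg hh (hc.conj_mem' hh hs)]
  -- (c) the values are `H`-invariant
  have hinv : ∀ {g h s : Γ}, g ∈ G → h ∈ G → s ∈ H → s • c (g, h) = c (g, h) := by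
    intro g h s hg hh hs
    have := hcoc s (hc.le hs) g hg h hh
    rw [h3 s hs g hg, h3 s hs _ (G.mul_mem hg hh), mul_one, mul_one] at this
    have e : s * g = g * (g⁻¹ * s * g) := by group
    rw [← this, e, hli hg hh (hc.conj_mem' hg hs)]
  -- (d) the cocycle on exponents
  set E : ℕ → ℕ → M := fun i j => c (σ ^ i, σ ^ j) with hE
  have hcE : ∀ g ∈ G, ∀ h ∈ G, c (g, h) = E (idx g) (idx h) := by
    intro g hg h hh
    have e1 : g = σ ^ idx g * ((σ ^ idx g)⁻¹ * g) := by group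
    have e2 : h = σ ^ idx h * ((σ ^ idx h)⁻¹ * h) := by group
    conv_lhs => rw [e1, e2]
    rw [hli (hc.pow_mem _) (G.mul_mem (hc.pow_mem _) (hc.le (hc.idx_mem h hh)))
      (hc.idx_mem g hg), hri (hc.pow_mem _) (hc.pow_mem _) (hc.idx_mem h hh)]
  have hEper : ∀ i j, E i (j + n) = E i j := by
    intro i j
    simp only [hE]
    rw [pow_add, hri (hc.pow_mem _) (hc.pow_mem _) hc.pow_n_mem]
  have hE0 : ∀ i, E i 0 = 1 := by
    intro i
    simp only [hE, pow_zero]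
    exact h2 _ (hc.pow_mem i) 1 H.one_mem
  have hEcoc : ∀ i j k, E (i + j) k * E i j = σ ^ i • E j k * E i (j + k) := by
    intro i j k
    have := hcoc (σ ^ i) (hc.pow_mem i) (σ ^ j) (hc.pow_mem j) (σ ^ k) (hc.pow_mem k)
    simp only [hE, pow_add]
    exact this
  -- (g) the primitive
  set Z : ℕ → M := fun i => ∏ k ∈ Finset.range i, (E k 1)⁻¹ with hZ
  have hZ0 : Z 0 = 1 := by simp [hZ]
  have hZs : ∀ i, Z (i + 1) = Z i * (E i 1)⁻¹ := fun i => by
    simp only [hZ]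
    rw [Finset.prod_range_succ]
  have hclaim : ∀ j i, E i j = σ ^ i • Z j * Z i / Z (i + j) := by
    intro j
    induction j with
    | zero =>
      intro i
      rw [hE0, hZ0, smul_one, one_mul, add_zero, div_self']
    | succ j ih =>
      intro i
      have h1 := hEcoc i j 1
      rw [ih i] at h1
      rw [← add_assoc, hZs (i + j), hZs j, smul_mul', smul_inv']
      have h4 : E i (j + 1) = E (i + j) 1 * (σ ^ i • Z j * Z i / Z (i + j)) / σ ^ i • E j 1 := by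
        rw [h1]
        apply Additive.ofMul.injective
        simp only [ofMul_mul, ofMul_div, ofMul_inv, ofMul_one]
        abel
      rw [h4]
      apply Additive.ofMul.injective
      simp only [ofMul_mul, ofMul_div, ofMul_inv, ofMul_one]
      abel
  have hZH : ∀ j, ∀ s ∈ H, s • Z j = Z j := by
    intro j
    induction j with
    | zero => intro s _; rw [hZ0, smul_one]
    | succ j ih =>
      intro s hs
      rw [hZs, smul_mul', smul_inv', ih s hs]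
      simp only [hE]
      rw [hinv (hc.pow_mem _) (hc.pow_mem _) hs]
  have hEper1 : ∀ i j, E (i + n) j = E i j := by
    intro i j
    simp only [hE]
    rw [pow_add, hli (hc.pow_mem _) (hc.pow_mem _) hc.pow_n_mem]
  have hZn : ∀ i, Z (i + n) = Z i * Z n := by
    intro i
    induction i with
    | zero => rw [zero_add, hZ0, one_mul]
    | succ i ih =>
      have e : i + 1 + n = (i + n) + 1 := by omega
      rw [e, hZs, ih, hEper1, hZs]
      apply Additive.ofMul.injective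
      simp only [ofMul_mul, ofMul_div, ofMul_inv, ofMul_one]
      abel
  have hσZ : σ • Z n = Z n := by
    have h1 := hclaim n 1
    have h0 : E 1 n = 1 := by
      have := hEper 1 0
      rw [zero_add] at this
      rw [this, hE0]
    rw [h0, hZn 1, pow_one] at h1
    have h5 : σ • Z n = 1 * (Z 1 * Z n) / Z 1 := by
      rw [h1]
      apply Additive.ofMul.injective
      simp only [ofMul_mul, ofMul_div, ofMul_inv, ofMul_one]
      abel
    rw [h5]
    apply Additive.ofMul.injective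
    simp only [ofMul_mul, ofMul_div, ofMul_inv, ofMul_one]
    abel
  have hσpow : ∀ i : ℕ, σ ^ i • Z n = Z n := by
    intro i
    induction i with
    | zero => rw [pow_zero, one_smul]
    | succ i ih => rw [pow_succ, mul_smul, hσZ, ih]
  have hGsmul : ∀ (m : M), (∀ s ∈ H, s • m = m) → ∀ g ∈ G, g • m = σ ^ idx g • m := by
    intro m hm g hg
    have e1 : g = σ ^ idx g * ((σ ^ idx g)⁻¹ * g) := by group
    conv_lhs => rw [e1]
    rw [mul_smul, hm _ (hc.idx_mem g hg)]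
  refine ⟨(Z n)⁻¹, ?_, fun g => Z (idx g), ?_, ?_⟩
  · intro g hg
    rw [smul_inv', hGsmul (Z n) (hZH n) g hg, hσpow]
  · obtain ⟨N, hN, -⟩ := hl.fix (1 : M)
    refine ⟨N, hN, fun g hg t ht => ?_⟩
    simp only
    rw [hc.idx_mul_right hg (hl.le N hN ht)]
  · intro g hg h hh
    rw [hcE g hg h hh, hclaim]
    simp only [h77p_cob_apply]
    rw [hGsmul (Z (idx h)) (hZH _) g hg, hc.idx_mul hg hh]
    have hi := hc.idx_lt g hg
    have hj := hc.idx_lt h hh
    by_cases hcase : n ≤ idx g + idx h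
    · rw [if_pos hcase]
      have e : idx g + idx h = (idx g + idx h - n) + n := by omega
      have e' : (idx g + idx h) % n = idx g + idx h - n := by
        rw [Nat.mod_eq_sub_mod hcase, Nat.mod_eq_of_lt (by omega)]
      rw [e', e, hZn]
      have e2 : idx g + idx h - n + n - n = idx g + idx h - n := by omega
      rw [e2]
      apply Additive.ofMul.injective
      simp only [ofMul_mul, ofMul_div, ofMul_inv, ofMul_one]
      abel
    · rw [if_neg hcase, Nat.mod_eq_of_lt (by omega), one_mul]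
      apply Additive.ofMul.injective
      simp only [ofMul_mul, ofMul_div, ofMul_inv, ofMul_one]
      abel

/-! ### The abstract theorem -/

theorem h77p_infres_abs (hc : h77p_Cyc G H σ n idx) (hl : h77p_LvSys G H Lv M)
    (h90 : ∀ u : Γ → M, (∀ s ∈ H, ∀ s' ∈ H, u (s * s') = s • u s' * u s) → h77p_C1 Lv H u →
      ∃ a : M, ∀ s ∈ H, u s = s • a / a)
    (c : Γ × Γ → M) (hcoc : h77p_Coc2 G c) (hR1 : h77p_R1 Lv G c) (hR2 : h77p_R2 Lv G c)
    (x : Γ → M) (hx : h77p_C1 Lv H x) (hcx : ∀ s ∈ H, ∀ s' ∈ H, c (s, s') = h77p_cob x (s, s')) :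
    ∃ b : M, (∀ g ∈ G, g • b = b) ∧ ∃ w : Γ → M, h77p_C1 Lv G w ∧ ∀ g ∈ G, ∀ h ∈ G,
      c (g, h) = (if n ≤ idx g + idx h then b else 1) * h77p_cob w (g, h) := by
  -- step 1
  obtain ⟨x₁, hx₁, hx₁H⟩ := h77p_step1 hc hl hx
  have hcoc₁ : h77p_Coc2 G (fun y => c y / h77p_cob x₁ y) :=
    h77p_coc2_div hcoc (h77p_coc2_cob G x₁)
  have hR1₁ := h77p_R1_div_cob hl hR1 hx₁
  have hR2₁ := h77p_R2_div_cob hl hR2 hx₁
  have h1 : ∀ s ∈ H, ∀ s' ∈ H, (fun y => c y / h77p_cob x₁ y) (s, s') = 1 := by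
    intro s hs s' hs'
    simp only
    rw [hcx s hs s' hs', h77p_cob_apply, h77p_cob_apply, hx₁H s hs, hx₁H s' hs',
      hx₁H _ (H.mul_mem hs hs'), div_self']
  -- step 2
  obtain ⟨x₂, hx₂, hx₂c⟩ := h77p_step2 hc hl hcoc₁ hR2₁ h1
  have hcoc₂ : h77p_Coc2 G (fun y => (fun y => c y / h77p_cob x₁ y) y / h77p_cob x₂ y) :=
    h77p_coc2_div hcoc₁ (h77p_coc2_cob G x₂)
  have hR1₂ := h77p_R1_div_cob hl hR1₁ hx₂
  have h2 : ∀ g ∈ G, ∀ s ∈ H,
      (fun y => (fun y => c y / h77p_cob x₁ y) y / h77p_cob x₂ y) (g, s) = 1 := by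
    intro g hg s hs
    have := hx₂c g hg s hs
    simp only at this ⊢
    rw [this, div_self']
  -- step 3
  obtain ⟨y, hy, hyc, hy1⟩ := h77p_step3 hc hl h90 hcoc₂ hR1₂ h2
  have hcoc₃ : h77p_Coc2 G (fun z => (fun y => (fun y => c y / h77p_cob x₁ y) y /
      h77p_cob x₂ y) z / h77p_cob y z) :=
    h77p_coc2_div hcoc₂ (h77p_coc2_cob G y)
  have h2' : ∀ g ∈ G, ∀ s ∈ H, (fun z => (fun y => (fun y => c y / h77p_cob x₁ y) y /
      h77p_cob x₂ y) z / h77p_cob y z) (g, s) = 1 := by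
    intro g hg s hs
    have := h2 g hg s hs
    simp only at this ⊢
    rw [this, hy1 g hg s hs, div_self']
  have h3' : ∀ s ∈ H, ∀ h ∈ G, (fun z => (fun y => (fun y => c y / h77p_cob x₁ y) y /
      h77p_cob x₂ y) z / h77p_cob y z) (s, h) = 1 := by
    intro s hs h hh
    have := hyc s hs h hh
    simp only at this ⊢
    rw [this, div_self']
  -- step 4
  obtain ⟨b, hb, z, hz, hzc⟩ := h77p_step4 hc hl hcoc₃ h2' h3'
  refine ⟨b, hb, fun g => z g * (y g * (x₂ g * x₁ g)), ?_, ?_⟩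
  · exact h77p_C1.mul hl hz (h77p_C1.mul hl hy (h77p_C1.mul hl hx₂ hx₁))
  · intro g hg h hh
    have := hzc g hg h hh
    simp only at this
    rw [h77p_cob_mul, h77p_cob_mul, h77p_cob_mul, ← mul_assoc, ← this]
    apply Additive.ofMul.injective
    simp only [ofMul_mul, ofMul_div, ofMul_inv, ofMul_one]
    abel

end Abs

end Fermat.Agent.PT.Loc
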