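import Mathlib
import Fermat.Agent.PT.Loc.Basic
import Fermat.Agent.PT.Loc.Iface
import Fermat.Agent.PT.Loc.H77InfResAbs

/-!
# W3-PT / PT-LOC leaf MC-INFRES-PER (helper77)

`h77p_mcInfResPer : MCH90 → MCInfResPer` : a continuous `2`-cocycle of `G_K` with values in
`(Om q)ˣ` which is a continuous coboundary on `G_{K₁}`, `K₁/K` cyclic, is cohomologous to a carry
cocycle `carry K₁ σ n b` with `b ∈ K`.

The group theory is in `H77InfResAbs.lean` (`h77p_infres_abs`); here the abstract datum is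
instantiated: `Γ = Gq q`, `M = (Om q)ˣ`, `G = G_K`, `H = G_{K₁}`, levels `G_F` for `F ⊇ K₁` finite.
-/

set_option autoImplicit false

open scoped Classical

noncomputable section

namespace Fermat.Agent.PT.Loc

variable {q : ℕ} [Fact q.Prime]

/-- The levels: `G_F` for the finite `F ⊇ K₁`. -/
def h77p_Lv (K₁ : LF q) (N : Subgroup (Gq q)) : Prop :=
  ∃ F : LF q, FiniteDimensional ℚ_[q] F ∧ K₁ ≤ F ∧ N = GK F

lemma h77p_GK_le {K F : LF q} (h : K ≤ F) : GK F ≤ GK K :=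
  IntermediateField.fixingSubgroup_antitone h

/-- The cyclic datum of `IsCyc`. -/
lemma h77p_cyc_of_isCyc {K K₁ : LF q} {n : ℕ} {σ : Gq q} (hc : IsCyc K K₁ n σ) :
    h77p_Cyc (GK K) (GK K₁) σ n (cycIdx K₁ σ n) := by
  have hex : ∀ g ∈ GK K, ∃ i, i < n ∧ (σ ^ i)⁻¹ * g ∈ GK K₁ := hc.gen
  have hidx : ∀ g (h : ∃ i, i < n ∧ (σ ^ i)⁻¹ * g ∈ GK K₁), cycIdx K₁ σ n g = Nat.find h := by
    intro g h
    unfold cycIdx
    rw [dif_pos h]
  refine ⟨h77p_GK_le hc.le, hc.mem, hc.normal, hc.pos, ?_, ?_, ?_⟩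
  · intro g hg
    rw [hidx g (hex g hg)]
    exact (Nat.find_spec (hex g hg)).1
  · intro g hg
    rw [hidx g (hex g hg)]
    exact (Nat.find_spec (hex g hg)).2
  · intro g hg i hi hmem
    rw [hidx g (hex g hg)]
    have hle : Nat.find (hex g hg) ≤ i := Nat.find_min' _ ⟨hi, hmem⟩
    have hj := (Nat.find_spec (hex g hg)).2
    by_contra hne
    have hlt : Nat.find (hex g hg) < i := lt_of_le_of_ne hle hne
    have h1 : σ ^ (i - Nat.find (hex g hg)) ∈ GK K₁ := by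
      have h2 := (GK K₁).mul_mem hj ((GK K₁).inv_mem hmem)
      have e : (σ ^ Nat.find (hex g hg))⁻¹ * g * ((σ ^ i)⁻¹ * g)⁻¹ =
          σ ^ (i - Nat.find (hex g hg)) := by
        have e1 : σ ^ i = σ ^ Nat.find (hex g hg) * σ ^ (i - Nat.find (hex g hg)) := by
          rw [← pow_add]
          congr 1
          omega
        rw [e1]
        group
      rwa [e] at h2
    exact hc.ord _ (by omega) (by omega) h1

/-- The level system of the finite extensions of `K₁`. -/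
lemma h77p_lvSys (K K₁ : LF q) [FiniteDimensional ℚ_[q] K₁] :
    h77p_LvSys (GK K) (GK K₁) (h77p_Lv K₁) (Om q)ˣ := by
  refine ⟨?_, ?_, ?_, ?_⟩
  · rintro N ⟨F, -, hF, rfl⟩
    exact h77p_GK_le hF
  · rintro N N' ⟨F, hFf, hF, rfl⟩ ⟨F', hF'f, hF', rfl⟩
    refine ⟨GK (F ⊔ F'), ⟨F ⊔ F', ?_, le_trans hF le_sup_left, rfl⟩, ?_, ?_⟩
    · exact IntermediateField.finiteDimensional_sup F F'
    · exact h77p_GK_le le_sup_left
    · exact h77p_GK_le le_sup_right
  · intro m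
    have hint : IsIntegral ℚ_[q] (m : Om q) := Algebra.IsIntegral.isIntegral _
    have : FiniteDimensional ℚ_[q] (IntermediateField.adjoin ℚ_[q] {(m : Om q)}) :=
      IntermediateField.adjoin.finiteDimensional hint
    refine ⟨GK (K₁ ⊔ IntermediateField.adjoin ℚ_[q] {(m : Om q)}),
      ⟨_, IntermediateField.finiteDimensional_sup _ _, le_sup_left, rfl⟩, ?_⟩
    intro t ht
    have ht' := h77p_GK_le (le_sup_right : IntermediateField.adjoin ℚ_[q] {(m : Om q)} ≤ _) ht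
    rw [IntermediateField.mem_fixingSubgroup_iff] at ht'
    apply Units.ext
    exact ht' _ (IntermediateField.mem_adjoin_simple_self ℚ_[q] (m : Om q))
  · rintro h - N ⟨F, hFf, hF, rfl⟩
    have := hFf
    refine ⟨GK (K₁ ⊔ F.map (h : Om q →ₐ[ℚ_[q]] Om q)),
      ⟨_, IntermediateField.finiteDimensional_sup _ _, le_sup_left, rfl⟩, ?_⟩
    intro t ht
    have ht' := h77p_GK_le (le_sup_right : F.map (h : Om q →ₐ[ℚ_[q]] Om q) ≤ _) ht
    rw [IntermediateField.mem_fixingSubgroup_iff] at ht' ⊢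
    intro x hx
    have h1 : t (h x) = h x := ht' _ ((IntermediateField.mem_map F).2 ⟨x, hx, rfl⟩)
    change h⁻¹ (t (h x)) = x
    rw [h1]
    exact h.symm_apply_apply x

/-- `Cont1 K` gives the abstract continuity with respect to the finite extensions of `K₁ ⊇ K`. -/
lemma h77p_C1_of_cont1 {K K₁ : LF q} [FiniteDimensional ℚ_[q] K₁]
    {x : Gq q → (Om q)ˣ} (hx : Cont1 K x) : h77p_C1 (h77p_Lv K₁) (GK K) x := by
  obtain ⟨F, hFf, -, h⟩ := hx
  have := hFf
  refine ⟨GK (K₁ ⊔ F), ⟨_, IntermediateField.finiteDimensional_sup _ _, le_sup_left, rfl⟩, ?_⟩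
  intro g hg t ht
  exact h g hg t (h77p_GK_le le_sup_right ht)

theorem h77p_mcInfResPer (h90 : MCH90) : MCInfResPer := by
  intro q _ K K₁ _ n σ hcyc c hcoc hcont hres
  have : FiniteDimensional ℚ_[q] K₁ := hcyc.fin
  have hC := h77p_cyc_of_isCyc hcyc
  have hL := h77p_lvSys K K₁
  -- Hilbert 90 on `G_{K₁}`
  have h90' : ∀ u : Gq q → (Om q)ˣ,
      (∀ s ∈ GK K₁, ∀ s' ∈ GK K₁, u (s * s') = s • u s' * u s) →
      h77p_C1 (h77p_Lv K₁) (GK K₁) u → ∃ a : (Om q)ˣ, ∀ s ∈ GK K₁, u s = s • a / a := by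
    intro u hu hcu
    refine h90 q K₁ u hu ?_
    obtain ⟨N, ⟨F, hFf, hF, rfl⟩, h⟩ := hcu
    exact ⟨F, hFf, hF, h⟩
  -- continuity of `c`
  obtain ⟨F, hFf, hKF, hcF⟩ := hcont
  have := hFf
  have hlev : h77p_Lv K₁ (GK (K₁ ⊔ F)) :=
    ⟨_, IntermediateField.finiteDimensional_sup _ _, le_sup_left, rfl⟩
  have hR1 : h77p_R1 (h77p_Lv K₁) (GK K) c := by
    intro h hh
    refine ⟨GK (K₁ ⊔ F), hlev, fun g hg t ht => ?_⟩
    have := hcF g hg h hh t (h77p_GK_le le_sup_right ht) 1 (GK F).one_mem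
    rwa [mul_one] at this
  have hR2 : h77p_R2 (h77p_Lv K₁) (GK K) c := by
    refine ⟨GK (K₁ ⊔ F), hlev, fun g hg h hh t ht => ?_⟩
    have := hcF g hg h hh 1 (GK F).one_mem t (h77p_GK_le le_sup_right ht)
    rwa [mul_one] at this
  -- the trivialisation on `G_{K₁}`
  obtain ⟨x, hxc, hx⟩ := hres
  have hx1 : h77p_C1 (h77p_Lv K₁) (GK K₁) x := by
    obtain ⟨F', hF'f, hF', h⟩ := hxc
    exact ⟨GK F', ⟨F', hF'f, hF', rfl⟩, h⟩
  have hcx : ∀ s ∈ GK K₁, ∀ s' ∈ GK K₁, c (s, s') = h77p_cob x (s, s') := by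
    intro s hs s' hs'
    have := hx s hs s' hs'
    rw [Pi.one_apply, one_mul] at this
    exact this
  obtain ⟨b, hb, w, hw, hcw⟩ := h77p_infres_abs hC hL h90' c hcoc hR1 hR2 x hx1 hcx
  refine ⟨b, ?_, w, ?_, ?_⟩
  · have hK := InfiniteGalois.fixedField_fixingSubgroup K
    rw [← hK, IntermediateField.mem_fixedField_iff]
    intro g hg
    have := congrArg (fun u : (Om q)ˣ => (u : Om q)) (hb g hg)
    exact this
  · obtain ⟨N, ⟨F', hF'f, hF', rfl⟩, h⟩ := hw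
    exact ⟨F', hF'f, le_trans hcyc.le hF', h⟩
  · intro g hg h hh
    exact hcw g hg h hh

end Fermat.Agent.PT.Loc
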