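import Mathlib
import Fermat.Agent.PT.Loc.Basic
import Fermat.Agent.PT.Loc.Iface
import Fermat.Agent.PT.Loc.H81H90
import Fermat.Agent.PT.Loc.H77InfResPer

/-!
# W3-PT / PT-LOC leaf MC-INFRES-PER, unconditional form (helper77)

`mcInfResPer_holds : MCInfResPer`, from `h77p_mcInfResPer` and Hilbert 90 (`h81h_mcH90`, helper81).
-/

set_option autoImplicit false

namespace Fermat.Agent.PT.Loc

theorem h77p_mcInfResPer_holds : MCInfResPer := h77p_mcInfResPer h81h_mcH90

end Fermat.Agent.PT.Loc
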