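import Mathlib
import Fermat.Agent.PT.Loc.B0Desc12
import Fermat.Agent.PT.Loc.MC.H65Kum
import Fermat.Agent.PT.Loc.MC.H79MuFinal
import Fermat.Agent.PT.Loc.MC.H79CarryPow
import Fermat.Agent.PT.Loc.H77InfResPerFinal

/-!
# W3-PT / PT-LOC leaf LOC-B0-DESC (helper12): `B0Desc` with the landed MC leaves plugged in

`h12d_b0Desc` : `B0Desc` from `MCCarryNorm`, the NI / UR leaves and `B0Gen` only
(`MCKum`, `MCMu`, `MCInfResPer`, `MCCarryPow`, `MCCarry` are landed unconditionally).
-/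

set_option autoImplicit false

namespace Fermat.Agent.PT.Loc

/-- **LOC-B0-DESC**, with the unconditional MC leaves discharged. -/
theorem h12d_b0Desc (hCN : MCCarryNorm) (hNI : NIMain) (hND : NIDich) (hUC : URCyc)
    (hUN : URNormGrp) (hUI : URIdx) (hUV : URVal) (hG : B0Gen) : B0Desc :=
  h12d_b0Desc_of h65_mcKum h79m_mcMu h77p_mcInfResPer_holds hCN h79c_mcCarryPow h65_mcCarry
    hNI hND hUC hUN hUI hUV hG

end Fermat.Agent.PT.Loc
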