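import Mathlib

/-!
# PT-LOC, leaf B0-TOWER, group-theoretic part (helper12)

Pure group theory (Mathlib only): in a group `G` with a normal subgroup `N` of finite index and a
subgroup `HK ⊇ N` there is a chain `HK ⊇ H 0 ⊇ H 1 ⊇ … ⊇ H m = N` with `[HK : H 0]` prime to `p`
and every step `H (i+1) ⊆ H i` normal with cyclic quotient of order `p` (Sylow + the fact that
a subgroup of index `p` of a `p`-group is normal).
-/

set_option autoImplicit false

namespace Fermat.Agent.PT.Loc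

/-- One cyclic step of degree `p`: `B` is normal in `A`, and `A/B` is cyclic of order `p`
generated by the class of `s`. -/
def h12t_Step {G : Type*} [Group G] (p : ℕ) (A B : Subgroup G) (s : G) : Prop :=
  B ≤ A ∧ s ∈ A ∧ (∀ g ∈ A, ∀ x ∈ B, g * x * g⁻¹ ∈ B) ∧
    (∀ g ∈ A, ∃ k, k < p ∧ (s ^ k)⁻¹ * g ∈ B) ∧ (∀ k, 0 < k → k < p → s ^ k ∉ B)

/-- A normal subgroup of prime index `p` has a cyclic quotient, generated by any element outside. -/
theorem h12t_exists_gen {Γ : Type*} [Group Γ] {p : ℕ} [hp : Fact p.Prime] (M : Subgroup Γ)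
    [M.Normal] (hM : M.index = p) :
    ∃ s : Γ, (∀ g : Γ, ∃ k, k < p ∧ (s ^ k)⁻¹ * g ∈ M) ∧ ∀ k, 0 < k → k < p → s ^ k ∉ M := by
  have hcard : Nat.card (Γ ⧸ M) = p := by rw [← Subgroup.index_eq_card, hM]
  have hfin : Finite (Γ ⧸ M) :=
    Nat.finite_of_card_ne_zero (by rw [hcard]; exact hp.out.ne_zero)
  have hnt : Nontrivial (Γ ⧸ M) := by
    rw [← Finite.one_lt_card_iff_nontrivial, hcard]; exact hp.out.one_lt
  obtain ⟨x, hx⟩ := exists_ne (1 : Γ ⧸ M)
  obtain ⟨s, rfl⟩ := QuotientGroup.mk_surjective x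
  have hpow : (s : Γ ⧸ M) ^ p = 1 := by
    rw [← hcard]; exact pow_card_eq_one'
  have hord : orderOf (s : Γ ⧸ M) = p := orderOf_eq_prime hpow hx
  have htop : Subgroup.zpowers (s : Γ ⧸ M) = ⊤ := zpowers_eq_top_of_prime_card hcard hx
  refine ⟨s, ?_, ?_⟩
  · intro g
    have hg : (g : Γ ⧸ M) ∈ Subgroup.zpowers (s : Γ ⧸ M) := by rw [htop]; trivial
    obtain ⟨n, hn⟩ := Subgroup.mem_zpowers_iff.1 hg
    have hp0 : (0 : ℤ) < (p : ℤ) := by exact_mod_cast hp.out.pos
    have hnn : 0 ≤ n % (p : ℤ) := Int.emod_nonneg _ hp0.ne'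
    refine ⟨(n % (p : ℤ)).toNat, ?_, ?_⟩
    · have : n % (p : ℤ) < p := Int.emod_lt_of_pos _ hp0
      omega
    · rw [← QuotientGroup.eq_one_iff]
      have h1 : ((s : Γ ⧸ M)) ^ ((n % (p : ℤ)).toNat) = (s : Γ ⧸ M) ^ n := by
        rw [← zpow_natCast, Int.toNat_of_nonneg hnn]
        have := zpow_mod_orderOf (s : Γ ⧸ M) n
        rw [hord] at this
        exact this
      rw [QuotientGroup.mk_mul, QuotientGroup.mk_inv, QuotientGroup.mk_pow, h1, hn]
      exact inv_mul_cancel _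
  · intro k h0 hk h
    have h1 : (s : Γ ⧸ M) ^ k = 1 := by
      rw [← QuotientGroup.mk_pow]
      exact (QuotientGroup.eq_one_iff _).2 h
    have h2 : orderOf (s : Γ ⧸ M) ∣ k := orderOf_dvd_of_pow_eq_one h1
    rw [hord] at h2
    exact absurd (Nat.le_of_dvd h0 h2) (not_le.2 hk)

/-- A subgroup of index `p` in a subgroup of order `p ^ (k+1)` gives a cyclic step. -/
theorem h12t_step_of_card {G : Type*} [Group G] {p : ℕ} [hp : Fact p.Prime] {k : ℕ}
    (Q Q' : Subgroup G) (hle : Q' ≤ Q) (hQ : Nat.card Q = p ^ (k + 1))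
    (hQ' : Nat.card Q' = p ^ k) :
    ∃ s, h12t_Step p Q Q' s := by
  have hfin : Finite Q :=
    Nat.finite_of_card_ne_zero (by rw [hQ]; exact pow_ne_zero _ hp.out.ne_zero)
  have hcM : Nat.card (Q'.subgroupOf Q) = p ^ k := by
    rw [← hQ']; exact Nat.card_congr (Subgroup.subgroupOfEquivOfLe hle).toEquiv
  have hidx : (Q'.subgroupOf Q).index = p := by
    have := (Q'.subgroupOf Q).card_mul_index
    rw [hcM, hQ, pow_succ] at this
    exact Nat.eq_of_mul_eq_mul_left (pow_pos hp.out.pos k) this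
  have hnorm : (Q'.subgroupOf Q).Normal := by
    apply Subgroup.normal_of_index_eq_minFac_card
    rw [hidx, hQ, Nat.pow_minFac (Nat.succ_ne_zero k), Nat.Prime.minFac_eq hp.out]
  obtain ⟨s, hgen, hord⟩ := h12t_exists_gen (Q'.subgroupOf Q) hidx
  refine ⟨s.1, hle, s.2, ?_, ?_, ?_⟩
  · intro g hg x hx
    have h1 : (⟨x, hle hx⟩ : Q) ∈ Q'.subgroupOf Q := by
      rw [Subgroup.mem_subgroupOf]; exact hx
    have := hnorm.conj_mem ⟨x, hle hx⟩ h1 ⟨g, hg⟩
    rw [Subgroup.mem_subgroupOf] at this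
    simpa using this
  · intro g hg
    obtain ⟨j, hj, h⟩ := hgen ⟨g, hg⟩
    refine ⟨j, hj, ?_⟩
    rw [Subgroup.mem_subgroupOf] at h
    simpa using h
  · intro j h0 hj h
    apply hord j h0 hj
    rw [Subgroup.mem_subgroupOf]
    simpa using h

/-- A subgroup of order `p ^ k` has a composition chain with cyclic steps of order `p`. -/
theorem h12t_chain_of_card {G : Type*} [Group G] {p : ℕ} [hp : Fact p.Prime] :
    ∀ (k : ℕ) (Q : Subgroup G), Nat.card Q = p ^ k →
      ∃ (P : ℕ → Subgroup G) (s : ℕ → G), P 0 = Q ∧ P k = ⊥ ∧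
        ∀ i, i < k → h12t_Step p (P i) (P (i + 1)) (s i) := by
  intro k
  induction k with
  | zero =>
    intro Q hQ
    rw [pow_zero] at hQ
    have hbot : Q = ⊥ := Subgroup.eq_bot_of_card_eq Q hQ
    exact ⟨fun _ => Q, fun _ => 1, rfl, hbot, fun i hi => absurd hi (Nat.not_lt_zero i)⟩
  | succ k ih =>
    intro Q hQ
    have hfin : Finite Q :=
      Nat.finite_of_card_ne_zero (by rw [hQ]; exact pow_ne_zero _ hp.out.ne_zero)
    have hdvd : p ^ k ∣ Nat.card Q := by
      rw [hQ]; exact pow_dvd_pow p (Nat.le_succ k)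
    obtain ⟨K, hK⟩ := Sylow.exists_subgroup_card_pow_prime p hdvd
    have hQ' : Nat.card (K.map Q.subtype) = p ^ k := by
      rw [Subgroup.card_map_of_injective (Subgroup.subtype_injective Q), hK]
    have hle : K.map Q.subtype ≤ Q := Subgroup.map_subtype_le K
    obtain ⟨s₀, hs₀⟩ := h12t_step_of_card Q (K.map Q.subtype) hle hQ hQ'
    obtain ⟨P', s', hP0, hPk, hstep⟩ := ih (K.map Q.subtype) hQ'
    refine ⟨fun i => Nat.casesOn i Q (fun j => P' j), fun i => Nat.casesOn i s₀ (fun j => s' j),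
      rfl, hPk, ?_⟩
    intro i hi
    cases i with
    | zero =>
      show h12t_Step p Q (P' 0) s₀
      rw [hP0]; exact hs₀
    | succ j =>
      show h12t_Step p (P' j) (P' (j + 1)) (s' j)
      exact hstep j (Nat.lt_of_succ_lt_succ hi)

/-- Sylow chain below a finite subgroup `R` of a group. -/
theorem h12t_chain_in_subgroup {G : Type*} [Group G] (p : ℕ) [hp : Fact p.Prime]
    (R : Subgroup G) [Finite R] :
    ∃ (m : ℕ) (P : ℕ → Subgroup G) (s : ℕ → G), P 0 ≤ R ∧ ¬ p ∣ (P 0).relIndex R ∧ P m = ⊥ ∧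
      ∀ i, i < m → h12t_Step p (P i) (P (i + 1)) (s i) := by
  obtain ⟨S⟩ : Nonempty (Sylow p R) := inferInstance
  have hcS : Nat.card (S : Subgroup R) = p ^ (Nat.card R).factorization p :=
    Sylow.card_eq_multiplicity S
  have hQ : Nat.card ((S : Subgroup R).map R.subtype) = p ^ (Nat.card R).factorization p := by
    rw [Subgroup.card_map_of_injective (Subgroup.subtype_injective R), hcS]
  obtain ⟨P, s, hP0, hPm, hstep⟩ :=
    h12t_chain_of_card ((Nat.card R).factorization p) ((S : Subgroup R).map R.subtype) hQ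
  refine ⟨(Nat.card R).factorization p, P, s, ?_, ?_, hPm, hstep⟩
  · rw [hP0]; exact Subgroup.map_subtype_le _
  · rw [hP0]
    have h1 : ((S : Subgroup R).map R.subtype).relIndex R = (S : Subgroup R).index := by
      rw [Subgroup.relIndex]
      congr 1
      ext x
      rw [Subgroup.mem_subgroupOf]
      constructor
      · rintro ⟨y, hy, hxy⟩
        have : y = x := Subtype.ext hxy
        rw [← this]; exact hy
      · intro hx
        exact ⟨x, hx, rfl⟩
    rw [h1]
    exact Sylow.not_dvd_index S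

/-- **Sylow tower between `N` and `HK`**, for `N` normal of finite index. -/
theorem h12t_tower {G : Type*} [Group G] (p : ℕ) [hp : Fact p.Prime] (N HK : Subgroup G)
    [N.Normal] [Finite (G ⧸ N)] (hN : N ≤ HK) :
    ∃ (m : ℕ) (H : ℕ → Subgroup G) (σ : ℕ → G), (∀ i, N ≤ H i) ∧ H 0 ≤ HK ∧
      ¬ p ∣ (H 0).relIndex HK ∧ H m = N ∧
      ∀ i, i < m → h12t_Step p (H i) (H (i + 1)) (σ i) := by
  obtain ⟨m, P, s, hP0, hidx, hPm, hstep⟩ :=
    h12t_chain_in_subgroup p (HK.map (QuotientGroup.mk' N))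
  have hlift : ∀ i, ∃ t : G, (QuotientGroup.mk' N) t = s i := fun i =>
    QuotientGroup.mk'_surjective N (s i)
  choose σ hσ using hlift
  refine ⟨m, fun i => (P i).comap (QuotientGroup.mk' N), σ, ?_, ?_, ?_, ?_, ?_⟩
  · intro i x hx
    rw [Subgroup.mem_comap]
    have : (QuotientGroup.mk' N) x = 1 := (QuotientGroup.eq_one_iff x).2 hx
    rw [this]; exact one_mem _
  · intro x hx
    rw [Subgroup.mem_comap] at hx
    obtain ⟨y, hy, hxy⟩ := hP0 hx
    have h1 : (QuotientGroup.mk' N) (y⁻¹ * x) = 1 := by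
      rw [map_mul, map_inv, hxy]; exact inv_mul_cancel _
    have h2 : y⁻¹ * x ∈ N := (QuotientGroup.eq_one_iff _).1 h1
    have h3 : x = y * (y⁻¹ * x) := by group
    rw [h3]
    exact HK.mul_mem hy (hN h2)
  · rw [Subgroup.relIndex_comap]
    exact hidx
  · show (P m).comap (QuotientGroup.mk' N) = N
    rw [hPm]
    ext x
    rw [Subgroup.mem_comap, Subgroup.mem_bot]
    exact QuotientGroup.eq_one_iff x
  · intro i hi
    obtain ⟨h1, h2, h3, h4, h5⟩ := hstep i hi
    refine ⟨Subgroup.comap_mono h1, ?_, ?_, ?_, ?_⟩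
    · rw [Subgroup.mem_comap, hσ]; exact h2
    · intro g hg x hx
      rw [Subgroup.mem_comap] at hg hx ⊢
      rw [map_mul, map_mul, map_inv]
      exact h3 _ hg _ hx
    · intro g hg
      rw [Subgroup.mem_comap] at hg
      obtain ⟨k, hk, h⟩ := h4 _ hg
      refine ⟨k, hk, ?_⟩
      rw [Subgroup.mem_comap, map_mul, map_inv, map_pow, hσ]
      exact h
    · intro k h0 hk h
      rw [Subgroup.mem_comap, map_pow, hσ] at h
      exact h5 k h0 hk h

end Fermat.Agent.PT.Loc
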