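import Mathlib
import Fermat.Agent.PT.Loc.Basic
import Fermat.Agent.PT.Loc.Iface
import Fermat.Agent.PT.Loc.B0TowerGrp12

/-!
# PT-LOC, leaf B0-TOWER (helper12)

`theorem h12t_b0Tower : B0Tower`: every continuous `2`-cochain on `G_K` is constant on `G_{T m}`
for a tower `K ≤ T 0 ≤ … ≤ T m` with `[T 0 : K]` prime to `p` and all other steps cyclic of
degree `p` (Sylow subgroup of `Gal(F'/K)`, `F'` the normal closure of a field of definition of
the cochain; fixed fields of the subgroups of a composition chain of the Sylow subgroup).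
-/

set_option autoImplicit false

open scoped Classical

noncomputable section

namespace Fermat.Agent.PT.Loc

variable {q : ℕ} [Fact q.Prime]

/-- The local algebraic closure is Galois over `ℚ_q`. -/
theorem h12t_isGalois (q : ℕ) [Fact q.Prime] : IsGalois ℚ_[q] (Om q) :=
  IsAlgClosure.isGalois ℚ_[q] (Om q)

/-- Galois dictionary for subgroups containing the absolute Galois group of a finite extension:
such a subgroup is the absolute Galois group of its fixed field, which is a finite extension. -/
theorem h12t_dict (F' : LF q) [FiniteDimensional ℚ_[q] F'] (H : Subgroup (Gq q))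
    (hH : GK F' ≤ H) :
    GK (IntermediateField.fixedField H) = H ∧
      FiniteDimensional ℚ_[q] (IntermediateField.fixedField H) := by
  have := h12t_isGalois q
  have hopen : IsOpen (H : Set (Gq q)) :=
    Subgroup.isOpen_mono hH (IntermediateField.fixingSubgroup_isOpen F')
  have hclosed : IsClosed (H : Set (Gq q)) := Subgroup.isClosed_of_isOpen H hopen
  have h1 : GK (IntermediateField.fixedField H) = H :=
    InfiniteGalois.fixingSubgroup_fixedField (⟨H, hclosed⟩ : ClosedSubgroup (Gq q))
  refine ⟨h1, ?_⟩
  refine (InfiniteGalois.isOpen_iff_finite (IntermediateField.fixedField H)).1 ?_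
  have h2 : (IntermediateField.fixedField H).fixingSubgroup = H := h1
  rw [h2]
  exact hopen

/-- **B0-TOWER.** -/
theorem h12t_b0Tower : B0Tower := by
  intro q _ p _ K _ c hc
  obtain ⟨F, hFfin, hKF, hinv⟩ := hc
  have := hFfin
  have := h12t_isGalois q
  -- the normal closure of `F`
  let F' : LF q := IntermediateField.normalClosure ℚ_[q] F (Om q)
  have hF'fin : FiniteDimensional ℚ_[q] F' := normalClosure.is_finiteDimensional ℚ_[q] F (Om q)
  have hF'gal : IsGalois ℚ_[q] F' := IsGalois.normalClosure ℚ_[q] F (Om q)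
  have hFF' : F ≤ F' := IntermediateField.le_normalClosure F
  have hNF : GK F' ≤ GK F := IntermediateField.fixingSubgroup_antitone hFF'
  have hNK : GK F' ≤ GK K := IntermediateField.fixingSubgroup_antitone (hKF.trans hFF')
  have hnorm : (GK F').Normal := (InfiniteGalois.normal_iff_isGalois F').2 hF'gal
  have hfinq : Finite (Gq q ⧸ GK F') :=
    Subgroup.quotient_finite_of_isOpen _ (IntermediateField.fixingSubgroup_isOpen F')
  obtain ⟨m, H, σ, hNH, hH0, hidx, hHm, hstep⟩ := h12t_tower p (GK F') (GK K) hNK
  have hd : ∀ i, GK (IntermediateField.fixedField (H i)) = H i ∧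
      FiniteDimensional ℚ_[q] (IntermediateField.fixedField (H i)) :=
    fun i => h12t_dict F' (H i) (hNH i)
  refine ⟨m, fun i => IntermediateField.fixedField (H i), σ, ?_, ?_, ?_, ?_, ?_⟩
  · exact (IntermediateField.le_iff_le (H 0) K).2 hH0
  · intro i _
    exact (hd i).2
  · show ¬ p ∣ ((GK (IntermediateField.fixedField (H 0))).subgroupOf (GK K)).index
    rw [(hd 0).1]
    exact hidx
  · intro i hi
    obtain ⟨h1, h2, h3, h4, h5⟩ := hstep i hi
    refine ⟨IntermediateField.fixedField_antitone h1, (hd (i + 1)).2, ?_, ?_, ?_, ?_,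
      (Fact.out : p.Prime).pos⟩
    · show σ i ∈ GK (IntermediateField.fixedField (H i))
      rw [(hd i).1]; exact h2
    · intro g hg s hs
      have hg' : g ∈ H i := (hd i).1 ▸ hg
      have hs' : s ∈ H (i + 1) := (hd (i + 1)).1 ▸ hs
      show g * s * g⁻¹ ∈ GK (IntermediateField.fixedField (H (i + 1)))
      rw [(hd (i + 1)).1]
      exact h3 g hg' s hs'
    · intro g hg
      have hg' : g ∈ H i := (hd i).1 ▸ hg
      obtain ⟨k, hk, h⟩ := h4 g hg'
      refine ⟨k, hk, ?_⟩
      show (σ i ^ k)⁻¹ * g ∈ GK (IntermediateField.fixedField (H (i + 1)))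
      rw [(hd (i + 1)).1]
      exact h
    · intro k h0 hk h
      have h' : σ i ^ k ∈ H (i + 1) := (hd (i + 1)).1 ▸ h
      exact h5 k h0 hk h'
  · intro g hg h hh
    have hg' : g ∈ GK F := by
      have : g ∈ H m := (hd m).1 ▸ hg
      rw [hHm] at this
      exact hNF this
    have hh' : h ∈ GK F := by
      have : h ∈ H m := (hd m).1 ▸ hh
      rw [hHm] at this
      exact hNF this
    have := hinv 1 (one_mem _) 1 (one_mem _) g hg' h hh'
    simpa using this

end Fermat.Agent.PT.Loc
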