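/-
W3-PT (S55), PT-LOC adapters (helper23): `AdCont`, `AdCoh`, `AdSub` of `Loc/Top.lean`
(level-constant cochains / cocycles / coboundaries of the subtype `↥(GK K)` versus the relative
notions of `Loc/Basic.lean`).  Proofs: the general dictionary `PT/Bridge/RelDict.lean`.
-/
import Mathlib
import Fermat.Agent.PT.Loc.Top
import Fermat.Agent.PT.Bridge.RelDict

set_option autoImplicit false
set_option linter.style.haveILetI false
set_option linter.unusedSectionVars false

open ExtCitation

namespace Fermat.Agent.PT.Loc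

open Fermat.Agent.PT Fermat.Agent.PT.Bridge

/-- AD-CONT. -/
theorem h23a_adCont : AdCont := by
  intro q _ K _ X
  have hι := h23r_isEmb_subtype K
  exact ⟨fun f => (h23r_cont1_iff hι f).symm, fun f => (h23r_cont2_iff hι f).symm,
    fun f => (h23r_cont3_iff hι f).symm⟩

/-- AD-COH. -/
theorem h23a_adCoh : AdCoh := by
  intro q _ p _ K _
  have hι := h23r_isEmb_subtype K
  have hρ : ∀ (h : ↥(GK K)) (v : ZMod p),
      Representation.trivial (ZMod p) ↥(GK K) (ZMod p) h v = v := fun _ _ => rfl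
  exact ⟨fun χ => h23r_mem_Z1_iff hι _ hρ χ, fun c => h23r_mem_Z2_iff hι _ hρ c,
    fun c => h23r_mem_B2_iff hι _ hρ c, fun c => h23r_mem_Z3_iff hι _ hρ c,
    fun c => h23r_mem_B3_iff hι _ hρ c⟩

/-- AD-SUB. -/
theorem h23a_adSub : AdSub := by
  intro q _ p _ K K₁ _ _ hle
  have hι := h23r_isEmb_subgroupOf K K₁ hle
  have hρ : ∀ (h : ↥((GK K₁).subgroupOf (GK K))) (v : ZMod p),
      Representation.trivial (ZMod p) ↥((GK K₁).subgroupOf (GK K)) (ZMod p) h v = v :=
    fun _ _ => rfl
  have hlev : (levK K).comap ((GK K₁).subgroupOf (GK K)).subtype =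
      h23r_lev ((GK K).subtype.comp ((GK K₁).subgroupOf (GK K)).subtype) :=
    h23r_comap_comap _ _ _
  rw [hlev]
  exact ⟨fun c => h23r_mem_Z2_iff hι _ hρ c, fun c => h23r_mem_B2_iff hι _ hρ c,
    fun c => h23r_mem_B3_iff hι _ hρ c⟩

end Fermat.Agent.PT.Loc
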