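import Mathlib
import Fermat.Agent.PT.Loc.Iface2

/-!
# W3-PT / PT-LOC, leaf LOC2-INV-GEN (helper24)

`h24ig_invGen_of : InvLG → InvGen` — the corestriction of a standard generator
`c₀ = κ_ϖ ∪ χ_ur` (`ϖ^p` a uniformizer of `E`) has invariant `-1`: the local symbol formula
`InvLG` with `B = ϖ`, `π = ϖ^p`, `n = 1`.
-/

set_option autoImplicit false

open scoped Classical

noncomputable section

namespace Fermat.Agent.PT.Loc

/-- LOC2-INV-GEN. -/
theorem h24ig_invGen_of (hLG : InvLG) : InvGen := by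
  intro q _ p _ E _ s c₀ hs hζ hgen
  obtain ⟨ϖ, φ, hunif, hfrob, rfl⟩ := hgen
  have hp0 : p ≠ 0 := (Fact.out : p.Prime).ne_zero
  have hϖp0 : ϖ ^ p ≠ 0 := hunif.2.1
  have hϖ0 : ϖ ≠ 0 := by
    intro h
    apply hϖp0
    rw [h, zero_pow hp0]
  have key := hLG q p E s φ (ϖ ^ p) (Units.mk0 ϖ hϖ0) 1 hs hζ hfrob hunif
    (by rw [Units.val_mk0]; exact hunif.1) (by rw [Units.val_mk0, zpow_one])
  rw [Units.val_mk0, Int.cast_one] at key
  exact key

end Fermat.Agent.PT.Loc
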