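import Mathlib
import Fermat.Agent.PT.Loc.Iface2

/-!
# W3-PT / PT-LOC, leaf LOC2-LOCPERF (helper24)

`h24lp_locPerfRel_of : ChiZeta → InvEx → B0 → B0Gen → InvGen → InvCob → LocPerfRel` —
`invQ ∘ cor_{E/ℚ_q}` induces an isomorphism `H²(G_E, 𝔽_p) ≅ 𝔽_p`.

Proof: `invQ` satisfies `InvSpec` (`InvEx`); by `B0` every continuous `2`-cocycle `b` of `G_E` is
`t • c₀ + ∂f` on `G_E` for a standard generator `c₀`; `acor` is linear (finite quotient
`Gq ⧸ G_E`), so `invQ (acor b) = invQ (acor (b - t • c₀)) + t • invQ (acor c₀) = 0 + t • (-1)`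
by `InvCob` and `InvGen`.
-/

set_option autoImplicit false

open scoped Classical

noncomputable section

namespace Fermat.Agent.PT.Loc

variable {q : ℕ} [Fact q.Prime] {p : ℕ}

/-- `Gq q ⧸ G_E` is finite for `E` finite over `ℚ_q`. -/
theorem h24lp_finite_quot (E : LF q) [FiniteDimensional ℚ_[q] E] : Finite (Gq q ⧸ GK E) := by
  have : IsGalois ℚ_[q] (Om q) := IsAlgClosure.isGalois ℚ_[q] (Om q)
  exact Subgroup.quotient_finite_of_isOpen _ (IntermediateField.fixingSubgroup_isOpen E)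

theorem h24lp_acor_add (E : LF q) [FiniteDimensional ℚ_[q] E] (s : Gq q ⧸ GK E → Gq q)
    (χ : Gq q → ZMod p) (b b' : Gq q × Gq q → ZMod p) :
    acor E s χ (b + b') = acor E s χ b + acor E s χ b' := by
  have := h24lp_finite_quot E
  funext y
  simp only [acor, Pi.add_apply, mul_add]
  exact finsum_add_distrib (Set.toFinite _) (Set.toFinite _)

theorem h24lp_acor_smul (E : LF q) [FiniteDimensional ℚ_[q] E] (s : Gq q ⧸ GK E → Gq q)
    (χ : Gq q → ZMod p) (t : ZMod p) (b : Gq q × Gq q → ZMod p) :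
    acor E s χ (t • b) = t • acor E s χ b := by
  have := h24lp_finite_quot E
  funext y
  simp only [acor, Pi.smul_apply, smul_eq_mul]
  rw [mul_finsum' _ _ (Set.toFinite _)]
  refine finsum_congr fun a => ?_
  ring

/-- LOC2-LOCPERF. -/
theorem h24lp_locPerfRel_of (hZ : ChiZeta) (hEx : InvEx) (hB0 : B0) (hB0G : B0Gen)
    (hIG : InvGen) (hIC : InvCob) : LocPerfRel := by
  intro q _ p _ E _ s hs hζ
  have hprim : IsPrimitiveRoot (zetaL p q) p := (hZ q p).1
  have hspec : InvSpec p q (invQ p q) := by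
    unfold invQ
    rw [dif_pos (hEx q p)]
    exact (hEx q p).choose_spec
  obtain ⟨⟨c₀, hc₀⟩, hgen⟩ := hB0G q p E (zetaL p q) hζ hprim
  obtain ⟨hc₀coc, hc₀cont, -⟩ := hgen c₀ hc₀
  have hinv₀ : invQ p q (acor E s (chiL p q) c₀) = -1 :=
    hspec _ _ (hIG q p E s c₀ hs hζ hc₀)
  constructor
  · intro b hb hbc hzero
    obtain ⟨t, ht⟩ := hB0 q p E (zetaL p q) hζ hprim c₀ hc₀ b hb hbc
    have hcob : ACohom E (b - t • c₀) 0 := by
      obtain ⟨f, hf, hfb⟩ := ht
      refine ⟨f, hf, fun g hg h hh => ?_⟩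
      have := hfb g hg h hh
      simp only [Pi.sub_apply, Pi.zero_apply, zero_add]
      rw [this]
      ring
    have h0 : invQ p q (acor E s (chiL p q) (b - t • c₀)) = 0 :=
      hspec _ _ (hIC q p E s _ hs hζ hcob)
    have hsplit : acor E s (chiL p q) b
        = acor E s (chiL p q) (b - t • c₀) + t • acor E s (chiL p q) c₀ := by
      rw [← h24lp_acor_smul, ← h24lp_acor_add]
      congr 1
      abel
    rw [hsplit, map_add, map_smul, h0, hinv₀, zero_add, smul_eq_mul, mul_neg, mul_one,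
      neg_eq_zero] at hzero
    rw [hzero, zero_smul] at ht
    exact ht
  · refine ⟨c₀, hc₀coc, hc₀cont, ?_⟩
    rw [hinv₀]
    exact neg_ne_zero.mpr one_ne_zero

end Fermat.Agent.PT.Loc
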