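import Fermat.Agent.PT.Loc.Iface
import Fermat.Agent.PT.Loc.LFLocal

/-!
# PT-LOC leaves LF-POW and LF-UNIF (helper34)

* `h34lf_lfPow : LFPow` — `p`-th powers are open in a local field `K` (`p = q` allowed).
* `h34lf_lfUnif : LFUnif` — uniformizers exist and the value group is `‖π‖ ^ ℤ`.
* `h34lf_residue_system` — a finite system of representatives of the residue field.
-/

namespace Fermat.Agent.PT.Loc

open Valued IsLocalRing

open scoped NormedField

theorem h34lf_lfPow : LFPow := by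
  intro q _ p _ K _
  obtain ⟨ε, hε, h⟩ := h34lf_pow_open_local q (↥K) p
  refine ⟨ε, hε, fun x hx hx1 => ?_⟩
  obtain ⟨y, hy⟩ := h ⟨x, hx⟩ hx1
  refine ⟨(y : Om q), y.2, ?_⟩
  have := congrArg (fun w : ↥K => (w : Om q)) hy
  simpa using this

theorem h34lf_lfUnif : LFUnif := by
  intro q _ K _
  constructor
  · obtain ⟨π, hπ0, hπ1, hπ⟩ := h34lf_exists_unif_local q (↥K)
    refine ⟨(π : Om q), π.2, ?_, hπ1, fun x hx hx1 => hπ ⟨x, hx⟩ hx1⟩
    intro h
    apply hπ0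
    exact Subtype.ext h
  · rintro π ⟨hπK, hπ0, hπ1, hπ⟩ x hx hx0
    have h0 : (⟨π, hπK⟩ : ↥K) ≠ 0 := by
      intro h
      apply hπ0
      exact congrArg (fun w : ↥K => (w : Om q)) h
    have hx0' : (⟨x, hx⟩ : ↥K) ≠ 0 := by
      intro h
      apply hx0
      exact congrArg (fun w : ↥K => (w : Om q)) h
    exact h34lf_valueGroup_local q (↥K) (π := ⟨π, hπK⟩) h0 hπ1
      (fun y hy => hπ (y : Om q) y.2 hy) ⟨x, hx⟩ hx0'

/-- A finite system of representatives of the residue field of `K`. -/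
theorem h34lf_residue_system (q : ℕ) [Fact q.Prime] (K : LF q) [FiniteDimensional ℚ_[q] K] :
    ∃ R : Finset (Om q), (∀ r ∈ R, r ∈ K ∧ ‖r‖ ≤ 1) ∧
      ∀ x ∈ K, ‖x‖ ≤ 1 → ∃ r ∈ R, ‖x - r‖ < 1 := by
  classical
  have hP := h34lf_properSpace q (↥K)
  have hD := h34lf_isDiscreteValuationRing (↥K)
  have hF := h34lf_finite_residueField (↥K)
  have : Fintype (ResidueField 𝒪[↥K]) := Fintype.ofFinite _
  have hsurj : Function.Surjective (IsLocalRing.residue 𝒪[↥K]) :=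
    IsLocalRing.residue_surjective
  choose s hs using hsurj
  refine ⟨Finset.univ.image (fun c : ResidueField 𝒪[↥K] => (((s c : 𝒪[↥K]) : ↥K) : Om q)),
    ?_, ?_⟩
  · intro r hr
    obtain ⟨c, -, rfl⟩ := Finset.mem_image.mp hr
    exact ⟨(s c : ↥K).2, Valued.integer.mem_iff.mp (s c).2⟩
  · intro x hx hx1
    let x0 : 𝒪[↥K] := ⟨⟨x, hx⟩, Valued.integer.mem_iff.mpr hx1⟩
    refine ⟨_, Finset.mem_image.mpr ⟨IsLocalRing.residue 𝒪[↥K] x0, Finset.mem_univ _, rfl⟩, ?_⟩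
    have h1 : IsLocalRing.residue 𝒪[↥K] (x0 - s (IsLocalRing.residue 𝒪[↥K] x0)) = 0 := by
      rw [map_sub, hs, sub_self]
    rw [IsLocalRing.residue_eq_zero_iff, IsLocalRing.mem_maximalIdeal, mem_nonunits_iff,
      Valued.integer.isUnit_iff_norm_eq_one] at h1
    have h2 : ‖(x0 - s (IsLocalRing.residue 𝒪[↥K] x0) : 𝒪[↥K])‖ ≤ 1 :=
      Valued.integer.norm_le_one _
    exact lt_of_le_of_ne h2 h1

end Fermat.Agent.PT.Loc
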