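import Mathlib
import Fermat.Agent.PT.Loc.Iface
import Fermat.Agent.PT.Loc.H74URValEF

/-!
# W3-PT / PT-LOC, leaf UR-VAL (helper74)

`h74v_urVal : LFUnif → LFTeich → URVal`: the extension `Kur K n = K(μ_{N^n - 1})` is finite,
has the same value group as `K` and residue cardinality `N ^ n`.

Proof: with `e, e'` the ramification indices of `K`, `Kur K n` over `ℚ_q` (`‖q‖ = ‖π‖ ^ e`),
`N ^ (n e) ≤ N ^ (n e') ≤ N' ^ e' = q ^ [Kur : ℚ_q] ≤ q ^ ([K : ℚ_q] n) = N ^ (e n)`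
by the counting identity `h74v_ef`, the degree bound `h74v_finrank_Kur_le` and
`N ^ n ≤ N'` (all `(N ^ n - 1)`-th roots of unity lie in `Kur K n`).  Hence equality everywhere.
Also exported: `h74v_finrank_Kur : [Kur K n : ℚ_q] = [K : ℚ_q] * n`.
-/

set_option autoImplicit false

open scoped Classical

noncomputable section

namespace Fermat.Agent.PT.Loc

variable {q : ℕ} [Fact q.Prime]

/-- A uniformizer together with the absolute ramification index. -/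
theorem h74v_exists_e (hU : LFUnif) (L : LF q) [FiniteDimensional ℚ_[q] L] :
    ∃ π, IsUnif L π ∧ (∀ x ∈ L, x ≠ 0 → ∃ k : ℤ, ‖x‖ = ‖π‖ ^ k) ∧
      ∃ e : ℕ, 0 < e ∧ ‖(q : Om q)‖ = ‖π‖ ^ e := by
  obtain ⟨⟨π, hπ⟩, hval⟩ := hU q L
  refine ⟨π, hπ, hval π hπ, ?_⟩
  have hq0 : (q : Om q) ≠ 0 := by
    have : ((q : ℕ) : Om q) ≠ 0 := by exact_mod_cast (Fact.out : q.Prime).ne_zero
    exact this
  obtain ⟨k, hk⟩ := hval π hπ (q : Om q) (natCast_mem L q) hq0
  have hπ0 : 0 < ‖π‖ := norm_pos_iff.2 hπ.2.1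
  have hkpos : 0 < k := by
    by_contra hcon
    have h1 : 1 ≤ ‖π‖ ^ k := one_le_zpow_of_nonpos₀ hπ0 hπ.2.2.1.le (not_lt.1 hcon)
    rw [← hk] at h1
    exact absurd h74v_norm_q_lt_one (not_lt.2 h1)
  refine ⟨k.toNat, by omega, ?_⟩
  rw [hk, ← zpow_natCast, Int.toNat_of_nonneg hkpos.le]

/-- `N ^ n ≤ resCard (Kur K n)`. -/
theorem h74v_resCard_Kur_ge (hT : LFTeich) (K : LF q) [FiniteDimensional ℚ_[q] K] {n : ℕ}
    (hn : 0 < n) : resCard K ^ n ≤ resCard (Kur K n) := by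
  have hfinK' : FiniteDimensional ℚ_[q] (Kur K n) := h74v_finiteDimensional_Kur hT K hn
  obtain ⟨hfin, -⟩ := hT q (Kur K n)
  have hpos := h74v_pred_pos hT K hn
  obtain ⟨w₀, hw₀⟩ := h74v_exists_primitiveRoot (q := q) (resCard K ^ n - 1) hpos
  have hcard := hw₀.card_nthRootsFinset
  have hsub : ((Polynomial.nthRootsFinset (resCard K ^ n - 1) (1 : Om q) : Finset (Om q)) :
      Set (Om q)) ⊆ muPrime (Kur K n) := by
    intro w hw
    rw [Finset.mem_coe, Polynomial.mem_nthRootsFinset hpos] at hw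
    exact h74v_mem_muPrime_Kur hT K hn hw
  have h1 := Set.ncard_le_ncard hsub hfin
  rw [Set.ncard_coe_finset, hcard] at h1
  have h3 : resCard (Kur K n) = (muPrime (Kur K n)).ncard + 1 := by
    unfold resCard
    rw [Nat.card_coe_set_eq]
  rw [h3]
  omega

/-- The squeeze. -/
theorem h74v_squeeze (hU : LFUnif) (hT : LFTeich) (K : LF q) [FiniteDimensional ℚ_[q] K]
    {n : ℕ} (hn : 0 < n) :
    resCard (Kur K n) = resCard K ^ n ∧
      Module.finrank ℚ_[q] (Kur K n) = Module.finrank ℚ_[q] K * n ∧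
      ∃ π π', IsUnif K π ∧ IsUnif (Kur K n) π' ∧ ‖π‖ = ‖π'‖ ∧
        (∀ x ∈ Kur K n, x ≠ 0 → ∃ k : ℤ, ‖x‖ = ‖π'‖ ^ k) := by
  have hfinK' : FiniteDimensional ℚ_[q] (Kur K n) := h74v_finiteDimensional_Kur hT K hn
  obtain ⟨π, hπ, -, e, hepos, he⟩ := h74v_exists_e hU K
  obtain ⟨π', hπ', hval', e', he'pos, he'⟩ := h74v_exists_e hU (Kur K n)
  have hEF := h74v_ef K hT hπ he
  have hEF' := h74v_ef (Kur K n) hT hπ' he'
  have hdeg := h74v_finrank_Kur_le hT K hn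
  have hN' := h74v_resCard_Kur_ge hT K hn
  have hN2 := h74v_resCard_ge_two hT K
  have hq2 : 2 ≤ q := (Fact.out : q.Prime).two_le
  -- `e ≤ e'`
  have hπ0 : 0 < ‖π‖ := norm_pos_iff.2 hπ.2.1
  have hπ'0 : 0 < ‖π'‖ := norm_pos_iff.2 hπ'.2.1
  have hππ' : ‖π‖ ≤ ‖π'‖ := hπ'.2.2.2 π (h74v_le_Kur K n hπ.1) hπ.2.2.1
  have hee' : e ≤ e' := by
    have h1 : ‖π'‖ ^ e' ≤ ‖π'‖ ^ e := by
      rw [← he', he]
      exact pow_le_pow_left₀ hπ0.le hππ' e
    exact (pow_le_pow_iff_right_of_lt_one₀ hπ'0 hπ'.2.2.1).1 h1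
  -- the chain of inequalities
  have c1 : resCard K ^ (n * e) ≤ resCard K ^ (n * e') :=
    Nat.pow_le_pow_right (by omega) (Nat.mul_le_mul_left n hee')
  have c2 : resCard K ^ (n * e') ≤ resCard (Kur K n) ^ e' := by
    rw [pow_mul]
    exact Nat.pow_le_pow_left hN' e'
  have c3 : resCard (Kur K n) ^ e' ≤ resCard K ^ (n * e) := by
    rw [hEF']
    calc q ^ Module.finrank ℚ_[q] (Kur K n) ≤ q ^ (Module.finrank ℚ_[q] K * n) :=
          Nat.pow_le_pow_right (by omega) hdeg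
      _ = (q ^ Module.finrank ℚ_[q] K) ^ n := pow_mul _ _ _
      _ = (resCard K ^ e) ^ n := by rw [hEF]
      _ = resCard K ^ (n * e) := by rw [← pow_mul, mul_comm]
  have e1 : resCard K ^ (n * e) = resCard K ^ (n * e') :=
    le_antisymm c1 (le_trans c2 c3)
  have e2 : resCard K ^ (n * e') = resCard (Kur K n) ^ e' :=
    le_antisymm c2 (le_trans c3 c1)
  have e3 : resCard (Kur K n) ^ e' = resCard K ^ (n * e) :=
    le_antisymm c3 (le_trans c1 c2)
  have hee : e = e' := by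
    have h1 : n * e = n * e' := Nat.pow_right_injective hN2 e1
    exact Nat.eq_of_mul_eq_mul_left hn h1
  have hNN : resCard (Kur K n) = resCard K ^ n := by
    rw [pow_mul] at e2
    exact (Nat.pow_left_injective he'pos.ne' e2).symm
  have hdd : Module.finrank ℚ_[q] (Kur K n) = Module.finrank ℚ_[q] K * n := by
    have h1 : q ^ Module.finrank ℚ_[q] (Kur K n) = q ^ (Module.finrank ℚ_[q] K * n) := by
      rw [← hEF', e3, pow_mul q, ← hEF, ← pow_mul, mul_comm]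
    exact Nat.pow_right_injective hq2 h1
  have hnorm : ‖π‖ = ‖π'‖ := by
    have h1 : ‖π‖ ^ e = ‖π'‖ ^ e := by
      rw [← he, he', hee]
    exact (pow_left_inj₀ hπ0.le hπ'0.le hepos.ne').1 h1
  exact ⟨hNN, hdd, π, π', hπ, hπ', hnorm, hval'⟩

/-- **UR-VAL**. -/
theorem h74v_urVal (hU : LFUnif) (hT : LFTeich) : URVal := by
  intro q _ K _ n hn
  have hfinK' : FiniteDimensional ℚ_[q] (Kur K n) := h74v_finiteDimensional_Kur hT K hn
  obtain ⟨hNN, -, π, π', hπ, -, hnorm, hval'⟩ := h74v_squeeze hU hT K hn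
  refine ⟨hfinK', ?_, hNN⟩
  intro x hx
  by_cases hx0 : x = 0
  · exact ⟨0, K.zero_mem, by rw [hx0]⟩
  · obtain ⟨k, hk⟩ := hval' x hx hx0
    refine ⟨π ^ k, zpow_mem hπ.1 k, ?_⟩
    rw [norm_zpow, hnorm, hk]

/-- The degree of the unramified extension: `[Kur K n : ℚ_q] = [K : ℚ_q] * n`. -/
theorem h74v_finrank_Kur (hU : LFUnif) (hT : LFTeich) (K : LF q) [FiniteDimensional ℚ_[q] K]
    {n : ℕ} (hn : 0 < n) :
    Module.finrank ℚ_[q] (Kur K n) = Module.finrank ℚ_[q] K * n :=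
  (h74v_squeeze hU hT K hn).2.1

end Fermat.Agent.PT.Loc
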