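import Mathlib
import Fermat.Agent.PT.Loc.Iface2
import Fermat.Agent.PT.Loc.H34LFPow
import Fermat.Agent.PT.Loc.H34LFTeich
import Fermat.Agent.PT.Loc.H74URVal

/-!
# W3-PT / PT-LOC, leaves RD-RESDEG and RD-EF (helper28)

* `h28r_lfResDeg : LFResDeg` — for `K ≤ E` finite over `ℚ_q`, `resCard E = resCard K ^ f` with
  `0 < f` (a primitive `(N_K - 1)`-th root of unity lies in `K ⊆ E`, so `N_K - 1 ∣ N_E - 1`, and
  `q ^ a - 1 ∣ q ^ b - 1` forces `a ∣ b`);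
* `h28r_lfEF : LFEF` — the fundamental identity `e f = [E : ℚ_q]` (from the counting identity
  `h74v_ef : N ^ e = q ^ [E : ℚ_q]`).

Both are unconditional (they use the landed leaves `h34lf_lfTeich`, `h34lf_lfUnif`).
Also exported, with the leaves as hypotheses: `h28r_resDeg_of`, `h28r_ef_of`.
-/

set_option autoImplicit false

open scoped Classical

noncomputable section

namespace Fermat.Agent.PT.Loc

variable {q : ℕ} [Fact q.Prime]

/-- `q ^ a - 1 ∣ q ^ b - 1` forces `a ∣ b` (for `2 ≤ q`). -/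
theorem h28r_dvd_of_pow_sub_one_dvd {n a b : ℕ} (hn : 2 ≤ n)
    (h : n ^ a - 1 ∣ n ^ b - 1) : a ∣ b := by
  have h5 := Nat.pow_sub_one_gcd_pow_sub_one n a b
  rw [Nat.gcd_eq_left h] at h5
  have h1 : 1 ≤ n ^ a := Nat.one_le_pow a n (by omega)
  have h2 : 1 ≤ n ^ Nat.gcd a b := Nat.one_le_pow _ n (by omega)
  have h6 : n ^ a = n ^ Nat.gcd a b := by omega
  have h7 : a = Nat.gcd a b := Nat.pow_right_injective hn h6
  rw [h7]
  exact Nat.gcd_dvd_right a b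

/-- RD-RESDEG from `LFTeich`. -/
theorem h28r_resDeg_of (hT : LFTeich) (K E : LF q) [FiniteDimensional ℚ_[q] K]
    [FiniteDimensional ℚ_[q] E] (hKE : K ≤ E) :
    ∃ f : ℕ, 0 < f ∧ resCard E = resCard K ^ f := by
  obtain ⟨hposK, -, hrootsK⟩ := h74n_roots hT K
  obtain ⟨-, -, hrootsE⟩ := h74n_roots hT E
  obtain ⟨-, ⟨a, ha, hNa⟩, -⟩ := hT q K
  obtain ⟨-, ⟨b, hb, hNb⟩, -⟩ := hT q E
  obtain ⟨w₀, hw₀⟩ := h74v_exists_primitiveRoot (q := q) (resCard K - 1) hposK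
  have h1 : w₀ ∈ muPrime K := (hrootsK w₀).1 hw₀.pow_eq_one
  have h2 : w₀ ∈ muPrime E := ⟨hKE h1.1, h1.2⟩
  have h3 : w₀ ^ (resCard E - 1) = 1 := (hrootsE w₀).2 h2
  have h4 : resCard K - 1 ∣ resCard E - 1 := hw₀.dvd_of_pow_eq_one _ h3
  rw [hNa, hNb] at h4
  have hq : q.Prime := Fact.out
  obtain ⟨f, hf⟩ := h28r_dvd_of_pow_sub_one_dvd hq.two_le h4
  refine ⟨f, ?_, ?_⟩
  · rcases Nat.eq_zero_or_pos f with h | h
    · subst h
      omega
    · exact h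
  · rw [hNb, hNa, hf, pow_mul]

/-- **RD-RESDEG** (unconditional). -/
theorem h28r_lfResDeg : LFResDeg := by
  intro q _ K E _ _ hKE
  exact h28r_resDeg_of h34lf_lfTeich K E hKE

/-- RD-EF from `LFUnif` and `LFTeich`. -/
theorem h28r_ef_of (hU : LFUnif) (hT : LFTeich) (E : LF q) [FiniteDimensional ℚ_[q] E]
    (π : Om q) (hπ : IsUnif E π) :
    ∃ e f : ℕ, 0 < e ∧ 0 < f ∧ ‖((q : ℕ) : Om q)‖ = ‖π‖ ^ e ∧ resCard E = q ^ f ∧
      e * f = Module.finrank ℚ_[q] E := by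
  obtain ⟨-, hval⟩ := hU q E
  have hq0 : ((q : ℕ) : Om q) ≠ 0 := by exact_mod_cast (Fact.out : q.Prime).ne_zero
  obtain ⟨k, hk⟩ := hval π hπ ((q : ℕ) : Om q) (natCast_mem E q) hq0
  have hπ0 : 0 < ‖π‖ := norm_pos_iff.2 hπ.2.1
  have hkpos : 0 < k := by
    by_contra hcon
    have h1 : 1 ≤ ‖π‖ ^ k := one_le_zpow_of_nonpos₀ hπ0 hπ.2.2.1.le (not_lt.1 hcon)
    rw [← hk] at h1
    exact absurd h74v_norm_q_lt_one (not_lt.2 h1)
  have he : ‖((q : ℕ) : Om q)‖ = ‖π‖ ^ k.toNat := by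
    rw [hk, ← zpow_natCast, Int.toNat_of_nonneg hkpos.le]
  obtain ⟨-, ⟨f, hf, hN⟩, -⟩ := hT q E
  have hef := h74v_ef E hT hπ he
  rw [hN, ← pow_mul] at hef
  have h2 : f * k.toNat = Module.finrank ℚ_[q] E :=
    Nat.pow_right_injective (Fact.out : q.Prime).two_le hef
  refine ⟨k.toNat, f, by omega, hf, he, hN, ?_⟩
  rw [mul_comm]
  exact h2

/-- **RD-EF** (unconditional). -/
theorem h28r_lfEF : LFEF := by
  intro q _ E _ π hπ
  exact h28r_ef_of h34lf_lfUnif h34lf_lfTeich E π hπ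

end Fermat.Agent.PT.Loc
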