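import Mathlib
import Fermat.Agent.PT.Loc.Iface2

/-!
# W3-PT / PT-LOC2 (helper29): `CorTw` (LOC2-COR-TW)

The additive twisted corestriction corresponds to the multiplicative corestriction under
`t ↦ ζ ^ t`.
-/

set_option autoImplicit false

open scoped Classical

noncomputable section

namespace Fermat.Agent.PT.Loc

variable {q : ℕ} [Fact q.Prime]

theorem h29i_isGalois : IsGalois ℚ_[q] (PadicAlgCl q) :=
  haveI : IsAlgClosure ℚ_[q] (PadicAlgCl q) := ⟨inferInstance, AlgebraicClosure.isAlgebraic _⟩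
  IsAlgClosure.isGalois ℚ_[q] (PadicAlgCl q)

theorem h29i_finite_quot (E : LF q) [FiniteDimensional ℚ_[q] E] : Finite (Gq q ⧸ GK E) := by
  have := h29i_isGalois (q := q)
  have h : (GK E).index = Module.finrank ℚ_[q] E :=
    (IntermediateField.finrank_eq_fixingSubgroup_index (E' := PadicAlgCl q) E).symm
  have h0 : (GK E).index ≠ 0 := by
    rw [h]
    exact Module.finrank_pos.ne'
  have hfi : (GK E).FiniteIndex := ⟨h0⟩
  exact Subgroup.finite_quotient_of_finiteIndex

variable {p : ℕ}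

theorem h29i_pow_val_add [NeZero p] {ζ : (Om q)ˣ} (hζ : ζ ^ p = 1) (a b : ZMod p) :
    ζ ^ (a + b).val = ζ ^ a.val * ζ ^ b.val := by
  rw [ZMod.val_add, ← pow_add, ← pow_eq_pow_mod _ hζ]

theorem h29i_pow_val_mul [NeZero p] {ζ : (Om q)ˣ} (hζ : ζ ^ p = 1) (a b : ZMod p) :
    ζ ^ (a * b).val = (ζ ^ b.val) ^ a.val := by
  rw [ZMod.val_mul, ← pow_mul, ← pow_eq_pow_mod _ hζ, mul_comm]

theorem h29i_pow_val_sum [NeZero p] {ζ : (Om q)ˣ} (hζ : ζ ^ p = 1) {X : Type*}
    (S : Finset X) (f : X → ZMod p) :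
    ζ ^ (∑ a ∈ S, f a).val = ∏ a ∈ S, ζ ^ (f a).val := by
  induction S using Finset.induction_on with
  | empty => simp
  | insert a S ha ih =>
    rw [Finset.sum_insert ha, Finset.prod_insert ha, h29i_pow_val_add hζ, ih]

theorem h29i_corTw : CorTw := by
  intro q _ p _ E _ s ζ χ hζ hχ b
  have : NeZero p := ⟨(Fact.out : p.Prime).ne_zero⟩
  have := h29i_finite_quot E
  let _ : Fintype (Gq q ⧸ GK E) := Fintype.ofFinite _
  funext y
  simp only [zpw, acor, mcor]
  rw [finsum_eq_sum_of_fintype, finprod_eq_prod_of_fintype, h29i_pow_val_sum hζ]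
  refine Finset.prod_congr rfl fun a _ => ?_
  rw [h29i_pow_val_mul hζ, smul_pow', hχ, ← pow_mul, ← pow_mul, mul_comm]

end Fermat.Agent.PT.Loc
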