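import Mathlib
import Fermat.Agent.PT.Loc.Basic

/-!
# W3-PT / PT-LOC (helper57): calculus of `IsCyc`, `cycIdx`, characters and cup products

Small reusable lemmas in the vocabulary of `Loc/Basic.lean`:

* `h57_cycIdx_lt`, `h57_cycIdx_spec`, `h57_cycIdx_eq` : `cycIdx` is the unique `i < n` with
  `g ∈ σ^i G_{K₁}`;
* `h57_cycIdx_mul` : `cycIdx` is additive modulo `n` on `G_K`;
* `h57_cycIdx_acoc1`, `h57_cycIdx_cont1` : `g ↦ (cycIdx g : ZMod n)` is a continuous character;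
* `h57_acup_acoc2`, `h57_acup_cont2` : the cup product of continuous characters is a continuous
  `2`-cocycle;
* `h57_mcob_mul`, `h57_mcob_inv`, `MCohom` calculus.
-/

set_option autoImplicit false

open scoped Classical

noncomputable section

namespace Fermat.Agent.PT.Loc

variable {q : ℕ} [Fact q.Prime]

/-! ## `cycIdx` -/

section CycIdx

variable {K K₁ : LF q} {n : ℕ} {σ : Gq q}

lemma h57_cycIdx_spec' (K₁ : LF q) (σ : Gq q) (n : ℕ) (g : Gq q)
    (h : ∃ i, i < n ∧ (σ ^ i)⁻¹ * g ∈ GK K₁) :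
    cycIdx K₁ σ n g < n ∧ (σ ^ cycIdx K₁ σ n g)⁻¹ * g ∈ GK K₁ := by
  unfold cycIdx
  rw [dif_pos h]
  exact Nat.find_spec h

lemma h57_cycIdx_lt (hC : IsCyc K K₁ n σ) (g : Gq q) : cycIdx K₁ σ n g < n := by
  by_cases h : ∃ i, i < n ∧ (σ ^ i)⁻¹ * g ∈ GK K₁
  · exact (h57_cycIdx_spec' K₁ σ n g h).1
  · unfold cycIdx
    rw [dif_neg h]
    exact hC.pos

lemma h57_cycIdx_spec (hC : IsCyc K K₁ n σ) {g : Gq q} (hg : g ∈ GK K) :
    (σ ^ cycIdx K₁ σ n g)⁻¹ * g ∈ GK K₁ :=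
  (h57_cycIdx_spec' K₁ σ n g (hC.gen g hg)).2

lemma h57_pow_mem_of_lt (hC : IsCyc K K₁ n σ) {i : ℕ} (hi : i < n) (h : σ ^ i ∈ GK K₁) :
    i = 0 := by
  by_contra h0
  exact hC.ord i (Nat.pos_of_ne_zero h0) hi h

lemma h57_cycIdx_eq (hC : IsCyc K K₁ n σ) {g : Gq q} {i : ℕ} (hi : i < n)
    (h : (σ ^ i)⁻¹ * g ∈ GK K₁) : cycIdx K₁ σ n g = i := by
  have hex : ∃ i, i < n ∧ (σ ^ i)⁻¹ * g ∈ GK K₁ := ⟨i, hi, h⟩
  obtain ⟨hj, hjm⟩ := h57_cycIdx_spec' K₁ σ n g hex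
  have hle : cycIdx K₁ σ n g ≤ i := by
    unfold cycIdx
    rw [dif_pos hex]
    exact Nat.find_min' hex ⟨hi, h⟩
  set j := cycIdx K₁ σ n g with hjdef
  have h1 : (σ ^ j)⁻¹ * g * ((σ ^ i)⁻¹ * g)⁻¹ ∈ GK K₁ :=
    (GK K₁).mul_mem hjm ((GK K₁).inv_mem h)
  have h2 : (σ ^ j)⁻¹ * g * ((σ ^ i)⁻¹ * g)⁻¹ = σ ^ (i - j) := by
    have : σ ^ i = σ ^ j * σ ^ (i - j) := by rw [← pow_add, Nat.add_sub_cancel' hle]
    rw [this]
    group
  rw [h2] at h1
  have h3 := h57_pow_mem_of_lt hC (lt_of_le_of_lt (Nat.sub_le i j) hi) h1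
  omega

lemma h57_pow_n_mem (hC : IsCyc K K₁ n σ) : σ ^ n ∈ GK K₁ := by
  obtain ⟨i, hi, h⟩ := hC.gen (σ ^ n) ((GK K).pow_mem hC.mem n)
  have h1 : (σ ^ i)⁻¹ * σ ^ n = σ ^ (n - i) := by
    have : σ ^ n = σ ^ i * σ ^ (n - i) := by rw [← pow_add, Nat.add_sub_cancel' hi.le]
    rw [this]
    group
  rw [h1] at h
  by_cases h0 : i = 0
  · simpa [h0] using h
  · exact absurd h (hC.ord (n - i) (by omega) (by omega))

lemma h57_GK_le (hC : IsCyc K K₁ n σ) : GK K₁ ≤ GK K :=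
  IntermediateField.fixingSubgroup_antitone hC.le

lemma h57_conj_mem (hC : IsCyc K K₁ n σ) {g s : Gq q} (hg : g ∈ GK K) (hs : s ∈ GK K₁) :
    g⁻¹ * s * g ∈ GK K₁ := by
  have := hC.normal g⁻¹ ((GK K).inv_mem hg) s hs
  simpa using this

lemma h57_cycIdx_of_mem (hC : IsCyc K K₁ n σ) {s : Gq q} (hs : s ∈ GK K₁) :
    cycIdx K₁ σ n s = 0 :=
  h57_cycIdx_eq hC hC.pos (by simpa using hs)

lemma h57_cycIdx_self (hC : IsCyc K K₁ n σ) (hn : 1 < n) : cycIdx K₁ σ n σ = 1 :=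
  h57_cycIdx_eq hC hn (by simp)

lemma h57_cycIdx_mul_right (K₁ : LF q) (σ : Gq q) (n : ℕ) (g : Gq q) {s : Gq q}
    (hs : s ∈ GK K₁) : cycIdx K₁ σ n (g * s) = cycIdx K₁ σ n g := by
  have hiff : ∀ i, (i < n ∧ (σ ^ i)⁻¹ * (g * s) ∈ GK K₁) ↔ (i < n ∧ (σ ^ i)⁻¹ * g ∈ GK K₁) := by
    intro i
    rw [← mul_assoc]
    constructor
    · rintro ⟨hi, h⟩
      refine ⟨hi, ?_⟩
      have := (GK K₁).mul_mem h ((GK K₁).inv_mem hs)
      simpa [mul_assoc] using this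
    · rintro ⟨hi, h⟩
      exact ⟨hi, (GK K₁).mul_mem h hs⟩
  unfold cycIdx
  simp only [hiff]

/-- `cycIdx` is additive modulo `n` on `G_K`. -/
lemma h57_cycIdx_mul (hC : IsCyc K K₁ n σ) {g h : Gq q} (hg : g ∈ GK K) (hh : h ∈ GK K) :
    (cycIdx K₁ σ n (g * h) : ZMod n) = cycIdx K₁ σ n g + cycIdx K₁ σ n h := by
  set i := cycIdx K₁ σ n g with hi
  set j := cycIdx K₁ σ n h with hj
  have hil : i < n := h57_cycIdx_lt hC g
  have hjl : j < n := h57_cycIdx_lt hC h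
  have hgi := h57_cycIdx_spec hC hg
  have hhj := h57_cycIdx_spec hC hh
  rw [← hi] at hgi
  rw [← hj] at hhj
  -- `(σ^(i+j))⁻¹ g h = (σ^j)⁻¹ ((σ^i)⁻¹ g) σ^j · (σ^j)⁻¹ h`
  have hσj : σ ^ j ∈ GK K := (GK K).pow_mem hC.mem j
  have h1 : (σ ^ (i + j))⁻¹ * (g * h) ∈ GK K₁ := by
    have e : (σ ^ (i + j))⁻¹ * (g * h)
        = ((σ ^ j)⁻¹ * ((σ ^ i)⁻¹ * g) * σ ^ j) * ((σ ^ j)⁻¹ * h) := by
      rw [pow_add]
      group
    rw [e]
    exact (GK K₁).mul_mem (h57_conj_mem hC hσj hgi) hhj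
  by_cases hlt : i + j < n
  · rw [h57_cycIdx_eq hC hlt h1]
    push_cast
    rfl
  · have hge : n ≤ i + j := not_lt.1 hlt
    have h2 : (σ ^ (i + j - n))⁻¹ * (g * h) ∈ GK K₁ := by
      have e : (σ ^ (i + j - n))⁻¹ * (g * h) = σ ^ n * ((σ ^ (i + j))⁻¹ * (g * h)) := by
        have : σ ^ (i + j) = σ ^ (i + j - n) * σ ^ n := by
          rw [← pow_add, Nat.sub_add_cancel hge]
        rw [this]
        group
      rw [e]
      exact (GK K₁).mul_mem (h57_pow_n_mem hC) h1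
    rw [h57_cycIdx_eq hC (by omega) h2]
    have : ((i + j - n : ℕ) : ZMod n) = (i : ZMod n) + (j : ZMod n) := by
      rw [Nat.cast_sub hge]
      push_cast
      simp
    exact this

/-- The character `g ↦ cycIdx g mod n` of a cyclic extension is additive on `G_K`. -/
lemma h57_cycIdx_acoc1 {p : ℕ} (hC : IsCyc K K₁ p σ) :
    ACoc1 K (fun g => (cycIdx K₁ σ p g : ZMod p)) :=
  fun _ hg _ hh => h57_cycIdx_mul hC hg hh

/-- The character `g ↦ cycIdx g mod n` is continuous on `G_K`. -/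
lemma h57_cycIdx_cont1 {p : ℕ} (hC : IsCyc K K₁ p σ) :
    Cont1 K (fun g => (cycIdx K₁ σ p g : ZMod p)) :=
  ⟨K₁, hC.fin, hC.le, fun g _ s hs => by
    simp only [h57_cycIdx_mul_right K₁ σ p g hs]⟩

end CycIdx

/-! ## Characters and cup products -/

section Cup

variable {p : ℕ} {K : LF q}

lemma h57_acoc1_one (a : Gq q → ZMod p) (ha : ACoc1 K a) : a 1 = 0 := by
  have := ha 1 (GK K).one_mem 1 (GK K).one_mem
  rw [mul_one] at this
  have h2 : a 1 + 0 = a 1 + a 1 := by rw [add_zero]; exact this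
  exact (add_left_cancel h2).symm

lemma h57_acoc1_pow (a : Gq q → ZMod p) (ha : ACoc1 K a) {g : Gq q} (hg : g ∈ GK K) (i : ℕ) :
    a (g ^ i) = i * a g := by
  induction i with
  | zero => simp [h57_acoc1_one a ha]
  | succ i ih =>
    rw [pow_succ, ha _ ((GK K).pow_mem hg i) _ hg, ih]
    push_cast
    ring

lemma h57_acup_acoc2 (a b : Gq q → ZMod p) (ha : ACoc1 K a) (hb : ACoc1 K b) :
    ACoc2 K (acup a b) := by
  intro g hg h hh j hj
  simp only [acup]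
  rw [ha g hg h hh, hb h hh j hj]
  ring

lemma h57_cont1_mono {X : Type*} {K K' : LF q} (hle : K ≤ K') {f : Gq q → X} (hf : Cont1 K f)
    [FiniteDimensional ℚ_[q] K'] : Cont1 K' f := by
  obtain ⟨F, hF, hKF, h⟩ := hf
  have := hF
  refine ⟨F ⊔ K', IntermediateField.finiteDimensional_sup F K', le_sup_right, fun g hg s hs => ?_⟩
  exact h g (IntermediateField.fixingSubgroup_antitone hle hg) s
    (IntermediateField.fixingSubgroup_antitone le_sup_left hs)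

lemma h57_acup_cont2 (a b : Gq q → ZMod p) (ha : Cont1 K a) (hb : Cont1 K b) :
    Cont2 K (acup a b) := by
  obtain ⟨F, hF, hKF, h⟩ := ha
  obtain ⟨F', hF', hKF', h'⟩ := hb
  have := hF
  have := hF'
  refine ⟨F ⊔ F', IntermediateField.finiteDimensional_sup F F', hKF.trans le_sup_left,
    fun g hg g' hg' s hs s' hs' => ?_⟩
  simp only [acup]
  rw [h g hg s (IntermediateField.fixingSubgroup_antitone le_sup_left hs),
    h' g' hg' s' (IntermediateField.fixingSubgroup_antitone le_sup_right hs')]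

lemma h57_cont1_add {K : LF q} (a b : Gq q → ZMod p) (ha : Cont1 K a) (hb : Cont1 K b) :
    Cont1 K (fun g => a g + b g) := by
  obtain ⟨F, hF, hKF, h⟩ := ha
  obtain ⟨F', hF', hKF', h'⟩ := hb
  have := hF
  have := hF'
  refine ⟨F ⊔ F', IntermediateField.finiteDimensional_sup F F', hKF.trans le_sup_left,
    fun g hg s hs => ?_⟩
  simp only
  rw [h g hg s (IntermediateField.fixingSubgroup_antitone le_sup_left hs),
    h' g hg s (IntermediateField.fixingSubgroup_antitone le_sup_right hs)]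

lemma h57_cont1_smul {K : LF q} (t : ZMod p) (a : Gq q → ZMod p) (ha : Cont1 K a) :
    Cont1 K (fun g => t * a g) := by
  obtain ⟨F, hF, hKF, h⟩ := ha
  exact ⟨F, hF, hKF, fun g hg s hs => by simp only [h g hg s hs]⟩

lemma h57_cont2_sub_smul {K : LF q} (t : ZMod p) (c c' : Gq q × Gq q → ZMod p)
    (hc : Cont2 K c) (hc' : Cont2 K c') : Cont2 K (fun y => c y - t * c' y) := by
  obtain ⟨F, hF, hKF, h⟩ := hc
  obtain ⟨F', hF', hKF', h'⟩ := hc'
  have := hF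
  have := hF'
  refine ⟨F ⊔ F', IntermediateField.finiteDimensional_sup F F', hKF.trans le_sup_left,
    fun g hg g' hg' s hs s' hs' => ?_⟩
  simp only
  rw [h g hg g' hg' s (IntermediateField.fixingSubgroup_antitone le_sup_left hs) s'
      (IntermediateField.fixingSubgroup_antitone le_sup_left hs'),
    h' g hg g' hg' s (IntermediateField.fixingSubgroup_antitone le_sup_right hs) s'
      (IntermediateField.fixingSubgroup_antitone le_sup_right hs')]

lemma h57_acoc2_sub_smul {K : LF q} (t : ZMod p) (c c' : Gq q × Gq q → ZMod p)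
    (hc : ACoc2 K c) (hc' : ACoc2 K c') : ACoc2 K (fun y => c y - t * c' y) := by
  intro g hg h hh j hj
  have h1 := hc g hg h hh j hj
  have h2 := hc' g hg h hh j hj
  simp only
  linear_combination h1 - t * h2

end Cup

/-! ## Multiplicative coboundaries -/

section MCob

lemma h57_mcob_mul (x x' : Gq q → (Om q)ˣ) (y : Gq q × Gq q) :
    mcob (fun g => x g * x' g) y = mcob x y * mcob x' y := by
  simp only [mcob, smul_mul', div_eq_mul_inv, mul_inv_rev]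
  ac_rfl

lemma h57_mcob_inv (x : Gq q → (Om q)ˣ) (y : Gq q × Gq q) :
    mcob (fun g => (x g)⁻¹) y = (mcob x y)⁻¹ := by
  simp only [mcob, smul_inv', div_eq_mul_inv, mul_inv_rev, inv_inv]
  rw [mul_comm ((x y.1)⁻¹), mul_comm (x (y.1 * y.2))]

lemma h57_cont1_mul_inv {K : LF q} (x z : Gq q → (Om q)ˣ) (hx : Cont1 K x) (hz : Cont1 K z) :
    Cont1 K (fun g => x g * (z g)⁻¹) := by
  obtain ⟨F, hF, hKF, h⟩ := hx
  obtain ⟨F', hF', hKF', h'⟩ := hz
  have := hF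
  have := hF'
  refine ⟨F ⊔ F', IntermediateField.finiteDimensional_sup F F', hKF.trans le_sup_left,
    fun g hg s hs => ?_⟩
  simp only
  rw [h g hg s (IntermediateField.fixingSubgroup_antitone le_sup_left hs),
    h' g hg s (IntermediateField.fixingSubgroup_antitone le_sup_right hs)]

/-- If `c ∼ d⁻¹` and `d ∼ 1` then `c ∼ 1`. -/
lemma h57_mcohom_one_of_inv {K : LF q} (c d : Gq q × Gq q → (Om q)ˣ)
    (h1 : MCohom K c (fun y => (d y)⁻¹)) (h2 : MCohom K d 1) : MCohom K c 1 := by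
  obtain ⟨x, hx, hcx⟩ := h1
  obtain ⟨z, hz, hdz⟩ := h2
  refine ⟨fun g => x g * (z g)⁻¹, h57_cont1_mul_inv x z hx hz, fun g hg h hh => ?_⟩
  have e1 := hcx g hg h hh
  have e2 := hdz g hg h hh
  simp only [Pi.one_apply, one_mul] at e2
  rw [h57_mcob_mul x (fun g => (z g)⁻¹), h57_mcob_inv, e1]
  simp only [Pi.one_apply, one_mul, e2]
  rw [mul_comm]

end MCob

end Fermat.Agent.PT.Loc
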