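import Mathlib
import Fermat.Agent.PT.Loc.Iface
import Fermat.Agent.PT.Loc.H57Cyc
import Fermat.Agent.PT.Loc.MC.H79Cyc

/-!
# W3-PT / PT-LOC (helper76): `MCohom` is a congruence

Reusable calculus for the relation `MCohom K c c'` ("`c` and `c'` are cohomologous on `G_K` by a
continuous `1`-cochain") of `Loc/Basic.lean`:

* `h76m_refl`, `h76m_of_eq` (pointwise equality on `G_K × G_K`), `h76m_symm`, `h76m_trans`;
* `h76m_mul`, `h76m_inv`, `h76m_pow` (pointwise products, inverses, powers);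
* `h76m_res` (restriction from `G_K` to `G_{K'}`, `K ≤ K'` finite);
* `h76m_carry_mul`, `h76m_carry_one`, `h76m_carry_pow` (the carry cocycle is multiplicative
  in `b`).
-/

set_option autoImplicit false

open scoped Classical

noncomputable section

namespace Fermat.Agent.PT.Loc

variable {q : ℕ} [Fact q.Prime]

/-! ## Continuity of `1`-cochains -/

theorem h76m_cont1_const (K : LF q) [FiniteDimensional ℚ_[q] K] {X : Type*} (a : X) :
    Cont1 K (fun _ : Gq q => a) :=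
  ⟨K, inferInstance, le_rfl, fun _ _ _ _ => rfl⟩

theorem h76m_cont1_mul {K : LF q} (x z : Gq q → (Om q)ˣ) (hx : Cont1 K x) (hz : Cont1 K z) :
    Cont1 K (fun g => x g * z g) := by
  obtain ⟨F, hF, hKF, h⟩ := hx
  obtain ⟨F', hF', hKF', h'⟩ := hz
  have := hF
  have := hF'
  refine ⟨F ⊔ F', IntermediateField.finiteDimensional_sup F F', hKF.trans le_sup_left,
    fun g hg s hs => ?_⟩
  simp only
  rw [h g hg s (IntermediateField.fixingSubgroup_antitone le_sup_left hs),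
    h' g hg s (IntermediateField.fixingSubgroup_antitone le_sup_right hs)]

theorem h76m_cont1_inv {K : LF q} (x : Gq q → (Om q)ˣ) (hx : Cont1 K x) :
    Cont1 K (fun g => (x g)⁻¹) := by
  obtain ⟨F, hF, hKF, h⟩ := hx
  exact ⟨F, hF, hKF, fun g hg s hs => by simp only [h g hg s hs]⟩

theorem h76m_cont1_pow {K : LF q} (x : Gq q → (Om q)ˣ) (hx : Cont1 K x) (k : ℕ) :
    Cont1 K (fun g => (x g) ^ k) := by
  obtain ⟨F, hF, hKF, h⟩ := hx
  exact ⟨F, hF, hKF, fun g hg s hs => by simp only [h g hg s hs]⟩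

theorem h76m_cont1_res {K K' : LF q} {X : Type*} (hK' : FiniteDimensional ℚ_[q] K')
    (hle : K ≤ K') {f : Gq q → X} (hf : Cont1 K f) : Cont1 K' f := by
  obtain ⟨F, hF, hKF, h⟩ := hf
  have := hF
  have := hK'
  refine ⟨F ⊔ K', IntermediateField.finiteDimensional_sup F K', le_sup_right, fun g hg s hs => ?_⟩
  exact h g (IntermediateField.fixingSubgroup_antitone hle hg) s
    (IntermediateField.fixingSubgroup_antitone le_sup_left hs)

/-! ## Coboundaries -/

theorem h76m_mcob_one (y : Gq q × Gq q) : mcob (fun _ : Gq q => (1 : (Om q)ˣ)) y = 1 := by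
  simp [mcob]

theorem h76m_mcob_pow (x : Gq q → (Om q)ˣ) (k : ℕ) (y : Gq q × Gq q) :
    mcob (fun g => (x g) ^ k) y = (mcob x y) ^ k := by
  induction k with
  | zero => simp [mcob]
  | succ k ih =>
    have h1 : (fun g => (x g) ^ (k + 1)) = fun g => (fun g => (x g) ^ k) g * x g := by
      funext g
      rw [pow_succ]
    rw [h1, h57_mcob_mul, ih, pow_succ]

/-! ## `MCohom` is an equivalence relation compatible with products -/

theorem h76m_of_eq (K : LF q) [FiniteDimensional ℚ_[q] K] {c c' : Gq q × Gq q → (Om q)ˣ}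
    (h : ∀ g ∈ GK K, ∀ h ∈ GK K, c (g, h) = c' (g, h)) : MCohom K c c' :=
  ⟨fun _ => 1, h76m_cont1_const K 1, fun g hg h' hh' => by
    rw [h76m_mcob_one, mul_one]
    exact h g hg h' hh'⟩

theorem h76m_refl (K : LF q) [FiniteDimensional ℚ_[q] K] (c : Gq q × Gq q → (Om q)ˣ) :
    MCohom K c c :=
  h76m_of_eq K (fun _ _ _ _ => rfl)

theorem h76m_symm {K : LF q} {c c' : Gq q × Gq q → (Om q)ˣ} (h : MCohom K c c') :
    MCohom K c' c := by
  obtain ⟨x, hx, hcx⟩ := h
  refine ⟨fun g => (x g)⁻¹, h76m_cont1_inv x hx, fun g hg h hh => ?_⟩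
  rw [h57_mcob_inv, hcx g hg h hh]
  simp

theorem h76m_trans {K : LF q} {c c' c'' : Gq q × Gq q → (Om q)ˣ} (h : MCohom K c c')
    (h' : MCohom K c' c'') : MCohom K c c'' := by
  obtain ⟨x, hx, hcx⟩ := h
  obtain ⟨z, hz, hcz⟩ := h'
  refine ⟨fun g => z g * x g, h76m_cont1_mul z x hz hx, fun g hg h hh => ?_⟩
  rw [h57_mcob_mul, hcx g hg h hh, hcz g hg h hh, mul_assoc]

theorem h76m_mul {K : LF q} {c c' d d' : Gq q × Gq q → (Om q)ˣ} (h : MCohom K c c')
    (h' : MCohom K d d') : MCohom K (fun y => c y * d y) (fun y => c' y * d' y) := by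
  obtain ⟨x, hx, hcx⟩ := h
  obtain ⟨z, hz, hdz⟩ := h'
  refine ⟨fun g => x g * z g, h76m_cont1_mul x z hx hz, fun g hg h hh => ?_⟩
  rw [h57_mcob_mul]
  simp only
  rw [hcx g hg h hh, hdz g hg h hh]
  ac_rfl

theorem h76m_inv {K : LF q} {c c' : Gq q × Gq q → (Om q)ˣ} (h : MCohom K c c') :
    MCohom K (fun y => (c y)⁻¹) (fun y => (c' y)⁻¹) := by
  obtain ⟨x, hx, hcx⟩ := h
  refine ⟨fun g => (x g)⁻¹, h76m_cont1_inv x hx, fun g hg h hh => ?_⟩
  rw [h57_mcob_inv]
  simp only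
  rw [hcx g hg h hh, mul_inv]

theorem h76m_pow {K : LF q} {c c' : Gq q × Gq q → (Om q)ˣ} (h : MCohom K c c') (k : ℕ) :
    MCohom K (fun y => (c y) ^ k) (fun y => (c' y) ^ k) := by
  obtain ⟨x, hx, hcx⟩ := h
  refine ⟨fun g => (x g) ^ k, h76m_cont1_pow x hx k, fun g hg h hh => ?_⟩
  rw [h76m_mcob_pow]
  simp only
  rw [hcx g hg h hh, mul_pow]

/-- restriction from `G_K` to `G_{K'}`. -/
theorem h76m_res {K K' : LF q} (hK' : FiniteDimensional ℚ_[q] K') (hle : K ≤ K')
    {c c' : Gq q × Gq q → (Om q)ˣ} (h : MCohom K c c') : MCohom K' c c' := by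
  obtain ⟨x, hx, hcx⟩ := h
  exact ⟨x, h76m_cont1_res hK' hle hx, fun g hg h hh =>
    hcx g (IntermediateField.fixingSubgroup_antitone hle hg) h
      (IntermediateField.fixingSubgroup_antitone hle hh)⟩

/-- `c ∼ c' · d` and `d ∼ 1` give `c ∼ c'`. -/
theorem h76m_mul_one {K : LF q} [FiniteDimensional ℚ_[q] K] {c c' d : Gq q × Gq q → (Om q)ˣ}
    (h : MCohom K c (fun y => c' y * d y)) (hd : MCohom K d 1) : MCohom K c c' := by
  refine h76m_trans h ?_
  have := h76m_mul (h76m_refl K c') hd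
  refine h76m_trans this (h76m_of_eq K (fun g _ h _ => ?_))
  simp

/-! ## The carry cocycle is multiplicative in `b` -/

theorem h76m_carry_mul (K₁ : LF q) (σ : Gq q) (n : ℕ) (b b' : (Om q)ˣ) (y : Gq q × Gq q) :
    carry K₁ σ n (b * b') y = carry K₁ σ n b y * carry K₁ σ n b' y := by
  unfold carry
  split_ifs <;> simp

theorem h76m_carry_one (K₁ : LF q) (σ : Gq q) (n : ℕ) (y : Gq q × Gq q) :
    carry K₁ σ n 1 y = 1 := by
  unfold carry
  split_ifs <;> rfl

theorem h76m_carry_pow (K₁ : LF q) (σ : Gq q) (n : ℕ) (b : (Om q)ˣ) (k : ℕ)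
    (y : Gq q × Gq q) : carry K₁ σ n (b ^ k) y = (carry K₁ σ n b y) ^ k := by
  unfold carry
  split_ifs <;> simp

theorem h76m_carry_inv (K₁ : LF q) (σ : Gq q) (n : ℕ) (b : (Om q)ˣ) (y : Gq q × Gq q) :
    carry K₁ σ n b⁻¹ y = (carry K₁ σ n b y)⁻¹ := by
  unfold carry
  split_ifs <;> simp

end Fermat.Agent.PT.Loc
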