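import Mathlib
import Fermat.Agent.PT.Loc.Iface2
import Fermat.Agent.PT.Loc.H76MC
import Fermat.Agent.PT.Loc.H29CorTw

/-!
# W3-PT / PT-LOC2 (helper29): `InvAdd` and `InvEx` (LOC2-INV-ADD, LOC2-INV-EX)

* `h29i_invAdd : InvY → InvAdd` : `HasInv` is additive, compatible with scalars, and the
  invariant is unique;
* `h29i_invEx : InvY → InvEx` (and `h29i_invEx_of_invAdd : InvAdd → InvEx`): a linear functional
  computing the invariant exists;
* `h29i_invSpec_invQ : InvY → InvSpec p q (invQ p q)`.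
-/

set_option autoImplicit false

open scoped Classical

noncomputable section

namespace Fermat.Agent.PT.Loc

variable {q : ℕ} [Fact q.Prime]

/-! ## The coherent root of unity has order dividing `p` -/

theorem h29i_zetaG_pow (p : ℕ) : zetaG p ^ p = 1 := by
  unfold zetaG
  split_ifs with h
  · exact h.choose_spec.pow_eq_one
  · exact one_pow p

theorem h29i_zetaL_pow (p : ℕ) (q : ℕ) [Fact q.Prime] : zetaL p q ^ p = 1 := by
  unfold zetaL
  rw [← map_pow, h29i_zetaG_pow, map_one]

theorem h29i_zetaU_pow (p : ℕ) (q : ℕ) [Fact q.Prime] : zetaU p q ^ p = 1 := by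
  unfold zetaU
  split_ifs with h
  · exact one_pow p
  · ext
    rw [Units.val_pow_eq_pow_val, Units.val_mk0, h29i_zetaL_pow, Units.val_one]

/-! ## Powers of `Yq` modulo `p` -/

theorem h29i_mcohom_congr {K : LF q} {c c' d d' : Gq q × Gq q → (Om q)ˣ} (hc : c = d)
    (hc' : c' = d') (h : MCohom K d d') : MCohom K c c' := by
  subst hc hc'
  exact h

theorem h29i_Yq_pow_add_mul (hY : InvY) (p : ℕ) [Fact p.Prime] (q : ℕ) [Fact q.Prime]
    (m k : ℕ) :
    MCohom (⊥ : LF q) (fun y => Yq p q y ^ (m + p * k)) (fun y => Yq p q y ^ m) := by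
  have h1 : MCohom (⊥ : LF q) (fun y => Yq p q y ^ (p * k)) 1 :=
    (hY q p (p * k)).2 (dvd_mul_right p k)
  have h2 := h76m_mul (h76m_refl (⊥ : LF q) (fun y => Yq p q y ^ m)) h1
  refine h29i_mcohom_congr ?_ ?_ h2
  · funext y
    exact pow_add _ _ _
  · funext y
    simp

theorem h29i_Yq_pow_congr (hY : InvY) (p : ℕ) [Fact p.Prime] (q : ℕ) [Fact q.Prime]
    {n m : ℕ} (h : n ≡ m [MOD p]) :
    MCohom (⊥ : LF q) (fun y => Yq p q y ^ n) (fun y => Yq p q y ^ m) := by
  rcases le_total m n with hle | hle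
  · obtain ⟨k, hk⟩ := (Nat.modEq_iff_dvd' hle).1 h.symm
    have : n = m + p * k := by omega
    rw [this]
    exact h29i_Yq_pow_add_mul hY p q m k
  · obtain ⟨k, hk⟩ := (Nat.modEq_iff_dvd' hle).1 h
    have : m = n + p * k := by omega
    rw [this]
    exact h76m_symm (h29i_Yq_pow_add_mul hY p q n k)

theorem h29i_Yq_pow_inj (hY : InvY) (p : ℕ) [Fact p.Prime] (q : ℕ) [Fact q.Prime]
    {n m : ℕ} (hle : n ≤ m)
    (h : MCohom (⊥ : LF q) (fun y => Yq p q y ^ n) (fun y => Yq p q y ^ m)) :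
    p ∣ m - n := by
  refine (hY q p (m - n)).1 ?_
  have h2 := h76m_mul (h76m_symm h) (h76m_refl (⊥ : LF q) (fun y => (Yq p q y ^ n)⁻¹))
  refine h29i_mcohom_congr ?_ ?_ h2
  · funext y
    rw [eq_mul_inv_iff_mul_eq, ← pow_add, Nat.sub_add_cancel hle]
  · funext y
    simp

/-! ## `InvAdd` -/

theorem h29i_invAdd (hY : InvY) : InvAdd := by
  intro q _ p _ z z' t t' a hz hz'
  have hp : NeZero p := ⟨(Fact.out : p.Prime).ne_zero⟩
  have hζ := h29i_zetaU_pow p q
  refine ⟨?_, ?_, ?_⟩
  · -- additivity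
    unfold HasInv at *
    have h1 := h76m_mul hz hz'
    have h2 : MCohom (⊥ : LF q) (fun y => Yq p q y ^ (t.val + t'.val))
        (fun y => Yq p q y ^ (t + t').val) := by
      refine h29i_Yq_pow_congr hY p q ?_
      rw [ZMod.val_add]
      exact (Nat.mod_modEq _ _).symm
    refine h76m_trans (h29i_mcohom_congr ?_ ?_ h1) h2
    · funext y
      simp only [zpw, Pi.add_apply]
      exact h29i_pow_val_add hζ _ _
    · funext y
      exact pow_add _ _ _
  · -- scalars
    unfold HasInv at *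
    have h1 := h76m_pow hz a.val
    have h2 : MCohom (⊥ : LF q) (fun y => Yq p q y ^ (t.val * a.val))
        (fun y => Yq p q y ^ (a * t).val) := by
      refine h29i_Yq_pow_congr hY p q ?_
      rw [ZMod.val_mul, mul_comm]
      exact (Nat.mod_modEq _ _).symm
    refine h76m_trans (h29i_mcohom_congr ?_ ?_ h1) h2
    · funext y
      simp only [zpw, Pi.smul_apply, smul_eq_mul]
      exact h29i_pow_val_mul hζ _ _
    · funext y
      exact pow_mul _ _ _
  · -- uniqueness
    intro hz''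
    unfold HasInv at *
    have h1 : MCohom (⊥ : LF q) (fun y => Yq p q y ^ t.val) (fun y => Yq p q y ^ t'.val) :=
      h76m_trans (h76m_symm hz) hz''
    have ht : t.val < p := ZMod.val_lt t
    have ht' : t'.val < p := ZMod.val_lt t'
    apply ZMod.val_injective p
    rcases le_total t.val t'.val with hle | hle
    · have hd := h29i_Yq_pow_inj hY p q hle h1
      have := Nat.eq_zero_of_dvd_of_lt hd (by omega)
      omega
    · have hd := h29i_Yq_pow_inj hY p q hle (h76m_symm h1)
      have := Nat.eq_zero_of_dvd_of_lt hd (by omega)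
      omega

/-! ## `InvEx` -/

theorem h29i_hasInv_zero (p : ℕ) [Fact p.Prime] (q : ℕ) [Fact q.Prime] :
    HasInv p q (0 : Gq q × Gq q → ZMod p) 0 := by
  unfold HasInv
  refine h76m_of_eq (⊥ : LF q) fun g _ h _ => ?_
  simp [zpw]

theorem h29i_invEx_of_invAdd (hA : InvAdd) : InvEx := by
  intro q _ p _
  let D : Submodule (ZMod p) (Gq q × Gq q → ZMod p) :=
    { carrier := {z | ∃ t, HasInv p q z t}
      zero_mem' := ⟨0, h29i_hasInv_zero p q⟩
      add_mem' := by
        rintro z z' ⟨t, ht⟩ ⟨t', ht'⟩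
        exact ⟨t + t', (hA q p z z' t t' 0 ht ht').1⟩
      smul_mem' := by
        rintro a z ⟨t, ht⟩
        exact ⟨a * t, (hA q p z z t t a ht ht).2.1⟩ }
  have hD : ∀ z : D, ∃ t, HasInv p q (z : Gq q × Gq q → ZMod p) t := fun z => z.2
  have huniq : ∀ (z : Gq q × Gq q → ZMod p) (t t' : ZMod p), HasInv p q z t →
      HasInv p q z t' → t = t' := fun z t t' h h' => (hA q p z z t t' 0 h h').2.2 h'
  let f : D →ₗ[ZMod p] ZMod p :=
    { toFun := fun z => (hD z).choose
      map_add' := by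
        intro z z'
        have h1 := (hD z).choose_spec
        have h2 := (hD z').choose_spec
        have h3 := (hD (z + z')).choose_spec
        exact huniq _ _ _ h3 (hA q p z z' _ _ 0 h1 h2).1
      map_smul' := by
        intro a z
        have h1 := (hD z).choose_spec
        have h3 := (hD (a • z)).choose_spec
        exact huniq _ _ _ h3 (hA q p z z _ _ a h1 h1).2.1 }
  obtain ⟨g, hg⟩ := LinearMap.exists_extend f
  refine ⟨g, fun z t hzt => ?_⟩
  have h1 : g z = f ⟨z, ⟨t, hzt⟩⟩ := by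
    rw [← hg]
    rfl
  rw [h1]
  exact huniq z _ _ (hD ⟨z, ⟨t, hzt⟩⟩).choose_spec hzt

theorem h29i_invEx (hY : InvY) : InvEx := h29i_invEx_of_invAdd (h29i_invAdd hY)

/-- `invQ` computes the invariant (given `InvEx`). -/
theorem h29i_invSpec_invQ_of_invEx (hE : InvEx) (p : ℕ) [Fact p.Prime] (q : ℕ) [Fact q.Prime] :
    InvSpec p q (invQ p q) := by
  unfold invQ
  rw [dif_pos (hE q p)]
  exact (hE q p).choose_spec

theorem h29i_invSpec_invQ (hY : InvY) (p : ℕ) [Fact p.Prime] (q : ℕ) [Fact q.Prime] :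
    InvSpec p q (invQ p q) :=
  h29i_invSpec_invQ_of_invEx (h29i_invEx hY) p q

end Fermat.Agent.PT.Loc
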