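import Mathlib
import Fermat.Agent.PT.Loc.Iface

/-!
# W3-PT / PT-LOC, leaf LOC-UR-BC (helper36): base change of the unramified tower

`h36_urBaseChange (hT : LFTeich) (hV : URVal) : URBaseChange`.

* `Kur K₁ n = K₁ ⊔ Kur K n` if `K ≤ K₁` have the same `resCard` : lattice identity;
* `Kur (Kur K m) n = Kur K (m * n)` : `resCard (Kur K m) = N ^ m` (`URVal`) and
  `N ^ m - 1 ∣ N ^ (m * n) - 1`;
* `φ ^ m` is a Frobenius element of `Kur K m` : `φ ^ j` raises the roots of unity of order prime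
  to `q` to the power `N ^ j`; `q ∤ N ^ m - 1` because `N` is a power of `q` (`LFTeich`).
-/

set_option autoImplicit false

open scoped Classical

noncomputable section

namespace Fermat.Agent.PT.Loc

variable {q : ℕ} [Fact q.Prime]

/-- the set of roots of unity adjoined in `Kur K n`. -/
theorem h36bc_kur_def (K : LF q) (n : ℕ) :
    Kur K n = K ⊔ IntermediateField.adjoin ℚ_[q] {w : Om q | w ^ (resCard K ^ n - 1) = 1} :=
  rfl

theorem h36bc_part1 (K K₁ : LF q) (n : ℕ) (hle : K ≤ K₁) (hres : resCard K₁ = resCard K) :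
    Kur K₁ n = K₁ ⊔ Kur K n := by
  rw [h36bc_kur_def K₁ n, h36bc_kur_def K n, hres, ← sup_assoc, sup_eq_left.mpr hle]

theorem h36bc_adjoin_mono (N m n : ℕ) :
    IntermediateField.adjoin ℚ_[q] {w : Om q | w ^ (N ^ m - 1) = 1} ≤
      IntermediateField.adjoin ℚ_[q] {w : Om q | w ^ (N ^ (m * n) - 1) = 1} := by
  apply IntermediateField.adjoin.mono
  intro w hw
  have hdvd : N ^ m - 1 ∣ N ^ (m * n) - 1 := by
    have h := Nat.sub_dvd_pow_sub_pow (N ^ m) 1 n
    rwa [one_pow, ← pow_mul] at h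
  obtain ⟨c, hc⟩ := hdvd
  show w ^ (N ^ (m * n) - 1) = 1
  rw [hc, pow_mul, show w ^ (N ^ m - 1) = 1 from hw, one_pow]

theorem h36bc_part2 (K : LF q) (m n : ℕ) (hres : resCard (Kur K m) = resCard K ^ m) :
    Kur (Kur K m) n = Kur K (m * n) := by
  rw [h36bc_kur_def (Kur K m) n, hres, ← pow_mul, h36bc_kur_def K m, h36bc_kur_def K (m * n),
    sup_assoc, sup_eq_right.mpr (h36bc_adjoin_mono (resCard K) m n)]

/-- powers of a Frobenius element on roots of unity of order prime to `q`. -/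
theorem h36bc_frob_pow (K : LF q) (φ : Gq q) (hφ : IsFrob K φ) (w : Om q) (k : ℕ)
    (hk : 0 < k) (hqk : ¬ q ∣ k) (hw : w ^ k = 1) (j : ℕ) :
    (φ ^ j) w = w ^ (resCard K ^ j) := by
  induction j with
  | zero => simp
  | succ j ih =>
    rw [pow_succ, AlgEquiv.mul_apply, hφ.2 w k hk hqk hw, map_pow, ih, ← pow_mul, ← pow_succ]

/-- `N ^ m - 1` is positive and prime to `q` when `N` is a positive power of `q`. -/
theorem h36bc_pred_pow (N f m : ℕ) (hf : 0 < f) (hN : N = q ^ f) (hm : 0 < m) :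
    0 < N ^ m - 1 ∧ ¬ q ∣ N ^ m - 1 := by
  have hq : q.Prime := Fact.out
  have hq2 : 2 ≤ q := hq.two_le
  have hNm : N ^ m = q ^ (f * m) := by rw [hN, pow_mul]
  have hfm : 0 < f * m := Nat.mul_pos hf hm
  have h2 : 2 ≤ N ^ m := by
    rw [hNm]
    calc 2 ≤ q := hq2
      _ = q ^ 1 := (pow_one q).symm
      _ ≤ q ^ (f * m) := Nat.pow_le_pow_right (by omega) hfm
  refine ⟨by omega, fun hdvd => ?_⟩
  have hdvd2 : q ∣ N ^ m := by
    rw [hNm]
    exact dvd_pow_self q (by omega)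
  have h1 : q ∣ 1 := by
    have := (Nat.dvd_sub hdvd2 hdvd)
    have e : N ^ m - (N ^ m - 1) = 1 := by omega
    rwa [e] at this
  exact hq.one_lt.ne' (Nat.dvd_one.mp h1)

theorem h36bc_part3 (K : LF q) (m : ℕ) (φ : Gq q) (hm : 0 < m) (hφ : IsFrob K φ)
    (hN : ∃ f : ℕ, 0 < f ∧ resCard K = q ^ f) (hres : resCard (Kur K m) = resCard K ^ m) :
    IsFrob (Kur K m) (φ ^ m) := by
  obtain ⟨f, hf, hNf⟩ := hN
  obtain ⟨hpos, hnd⟩ := h36bc_pred_pow (resCard K) f m hf hNf hm
  refine ⟨?_, ?_⟩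
  · show φ ^ m ∈ (Kur K m).fixingSubgroup
    rw [h36bc_kur_def K m, IntermediateField.fixingSubgroup_sup]
    refine ⟨Subgroup.pow_mem _ hφ.1 m, ?_⟩
    show φ ^ m ∈ (IntermediateField.adjoin ℚ_[q]
      {w : Om q | w ^ (resCard K ^ m - 1) = 1}).fixingSubgroup
    rw [← Subgroup.zpowers_le, ← IntermediateField.le_iff_le, IntermediateField.adjoin_le_iff]
    intro w hw
    have hw' : w ^ (resCard K ^ m - 1) = 1 := hw
    have hfix : (φ ^ m) w = w := by
      rw [h36bc_frob_pow K φ hφ w _ hpos hnd hw' m]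
      have e : resCard K ^ m = (resCard K ^ m - 1) + 1 := by omega
      rw [e, pow_succ, hw', one_mul]
    show w ∈ IntermediateField.fixedField (Subgroup.zpowers (φ ^ m))
    rw [IntermediateField.mem_fixedField_iff]
    intro g hg
    obtain ⟨z, rfl⟩ := Subgroup.mem_zpowers_iff.mp hg
    -- `(φ^m)^z` fixes `w`
    have hmem : φ ^ m ∈ MulAction.stabilizer (Gq q) w := by
      rw [MulAction.mem_stabilizer_iff]
      exact hfix
    have := Subgroup.zpow_mem _ hmem z
    rw [MulAction.mem_stabilizer_iff] at this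
    exact this
  · intro w k hk hqk hw
    rw [hres]
    exact h36bc_frob_pow K φ hφ w k hk hqk hw m

/-- **LOC-UR-BC.** -/
theorem h36_urBaseChange (hT : LFTeich) (hV : URVal) : URBaseChange := by
  intro q _ K _
  refine ⟨?_, ?_, ?_⟩
  · intro K₁ _ n hle hres
    exact h36bc_part1 K K₁ n hle hres
  · intro m n hm _
    exact h36bc_part2 K m n (hV q K m hm).2.2
  · intro m φ hm hφ
    exact h36bc_part3 K m φ hm hφ (hT q K).2.1 (hV q K m hm).2.2

end Fermat.Agent.PT.Loc
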