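import Fermat.Agent.PT.Loc.Iface2

/-!
# W3-PT / PT-LOC, row LOC2-VAN-H3 (helper39): `H³(G_K, 𝔽_p) = 0` from the three leaves

`h39v_h3Van_of : Tower3 → VanCoprime3 → VanStep → H3Van`.

Proof.  Let `c` be a continuous `3`-cocycle of `G_K`.  `Tower3` gives a tower
`K ≤ T 0 ≤ … ≤ T m` with `[T 0 : K]` prime to `p`, cyclic steps of degree `p`, and `c` constant on
`G_{T m}³`.  The cocycle identity at `(1, 1, 1, 1)` shows that the constant is `0`, so `c` is the
coboundary of `0` on `G_{T m}`.  The cocycle identity and continuity pass from `K` to every `T i`,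
so `VanStep` descends from `T (i + 1)` to `T i` and `VanCoprime3` from `T 0` to `K`.
-/

set_option autoImplicit false
set_option linter.style.haveILetI false

open scoped Classical

noncomputable section

namespace Fermat.Agent.PT.Loc

variable {q : ℕ} [Fact q.Prime]

theorem h39v_GK_anti {K K' : LF q} (h : K ≤ K') : GK K' ≤ GK K := by
  intro g hg
  rw [IntermediateField.mem_fixingSubgroup_iff] at hg ⊢
  exact fun x hx => hg x (h hx)

theorem h39v_ACoc3_mono {p : ℕ} {K K' : LF q} (h : K ≤ K')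
    {c : Gq q × Gq q × Gq q → ZMod p} (hc : ACoc3 K c) : ACoc3 K' c :=
  fun g hg k hk j hj l hl =>
    hc g (h39v_GK_anti h hg) k (h39v_GK_anti h hk) j (h39v_GK_anti h hj) l (h39v_GK_anti h hl)

theorem h39v_Cont3_mono {K K' : LF q} [FiniteDimensional ℚ_[q] K'] (h : K ≤ K') {X : Type*}
    {f : Gq q × Gq q × Gq q → X} (hf : Cont3 K f) : Cont3 K' f := by
  obtain ⟨F, hF, -, hinv⟩ := hf
  haveI := hF
  refine ⟨F ⊔ K', inferInstance, le_sup_right, ?_⟩
  intro g hg g' hg' g'' hg'' s hs s' hs' s'' hs''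
  exact hinv g (h39v_GK_anti h hg) g' (h39v_GK_anti h hg') g'' (h39v_GK_anti h hg'') s
    (h39v_GK_anti le_sup_left hs) s' (h39v_GK_anti le_sup_left hs') s''
    (h39v_GK_anti le_sup_left hs'')

/-- A `3`-cocycle which is constant on `G_K³` vanishes there, hence is the coboundary of `0`. -/
theorem h39v_acob3_of_const {p : ℕ} (K : LF q) [FiniteDimensional ℚ_[q] K]
    (c : Gq q × Gq q × Gq q → ZMod p) (hc : ACoc3 K c)
    (hconst : ∀ g ∈ GK K, ∀ h ∈ GK K, ∀ j ∈ GK K, c (g, h, j) = c (1, 1, 1)) : ACob3 K c := by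
  have h1 : (1 : Gq q) ∈ GK K := (GK K).one_mem
  have h0 : c (1, 1, 1) = 0 := by
    have := hc 1 h1 1 h1 1 h1 1 h1
    simpa using this
  refine ⟨0, ⟨K, inferInstance, le_rfl, fun _ _ _ _ _ _ _ _ => rfl⟩, ?_⟩
  intro g hg h hh j hj
  rw [hconst g hg h hh j hj, h0]
  simp [acob2]

/-- **LOC2-VAN-H3.** `H³(G_K, 𝔽_p) = 0` for `μ_p ⊆ K`, from the tower and the two descent
steps. -/
theorem h39v_h3Van_of (hT : Tower3) (hC : VanCoprime3) (hS : VanStep) : H3Van := by
  intro q _ p _ K _ ζ hζK hζ c hcoc hcont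
  obtain ⟨m, T, σ, hK0, hfin, hidx, hcyc, hconst⟩ := hT q p K c hcont
  have hle : ∀ i, i ≤ m → K ≤ T i := by
    intro i
    induction i with
    | zero => exact fun _ => hK0
    | succ i ih =>
      intro hi
      exact (ih (Nat.le_of_succ_le hi)).trans (hcyc i hi).le
  have hdown : ∀ k, k ≤ m → ACob3 (T (m - k)) c := by
    intro k
    induction k with
    | zero =>
      intro _
      haveI := hfin m le_rfl
      exact h39v_acob3_of_const (T m) c (h39v_ACoc3_mono (hle m le_rfl) hcoc) hconst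
    | succ k ih =>
      intro hk
      have hk' : k ≤ m := Nat.le_of_succ_le hk
      have hi : m - (k + 1) < m := by omega
      have hi' : m - (k + 1) ≤ m := hi.le
      have hsucc : m - (k + 1) + 1 = m - k := by omega
      haveI := hfin (m - (k + 1)) hi'
      have hstep := hcyc (m - (k + 1)) hi
      rw [hsucc] at hstep
      exact hS q p (T (m - (k + 1))) (T (m - k)) ζ (σ (m - (k + 1)))
        (hle _ hi' hζK) hζ hstep c (h39v_ACoc3_mono (hle _ hi') hcoc)
        (h39v_Cont3_mono (hle _ hi') hcont) (ih hk')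
  have h0 : ACob3 (T 0) c := by
    have := hdown m le_rfl
    rwa [Nat.sub_self] at this
  haveI := hfin 0 (Nat.zero_le m)
  exact hC q p K (T 0) hK0 hidx c hcoc hcont h0

end Fermat.Agent.PT.Loc
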