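import Mathlib
import Fermat.Agent.PT.Loc.Basic
import Fermat.Agent.PT.Loc.Iface

/-!
# W3-PT / PT-LOC leaf KUM-CYC (helper40)

A Kummer character `κ_B` with `κ_B(σ) = 1` cuts out the cyclic extension `K(B)/K` of degree `p`
with generator `σ`, and the index in the cyclic quotient is the Kummer character.

`h40k_kumCyc : KumCyc` (unconditional; the needed part of `KumBasic` is proved inline).
-/

set_option autoImplicit false

open scoped Classical

namespace Fermat.Agent.PT.Loc

variable {q : ℕ} [Fact q.Prime]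

lemma h40k_inv_apply_eq_iff (g : Gq q) (x y : Om q) : g⁻¹ x = y ↔ x = g y := by
  constructor
  · intro h
    rw [← h, ← AlgEquiv.mul_apply, mul_inv_cancel, AlgEquiv.one_apply]
  · intro h
    rw [h, ← AlgEquiv.mul_apply, inv_mul_cancel, AlgEquiv.one_apply]

/-- `G_{K(B)}` is the stabiliser of `B` in `G_K`. -/
lemma h40k_mem_GK_sup (K : LF q) (B : Om q) (g : Gq q) :
    g ∈ GK (K ⊔ IntermediateField.adjoin ℚ_[q] {B}) ↔ g ∈ GK K ∧ g B = B := by
  constructor
  · intro h
    rw [IntermediateField.mem_fixingSubgroup_iff] at h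
    refine ⟨?_, h B ?_⟩
    · rw [IntermediateField.mem_fixingSubgroup_iff]
      intro x hx
      exact h x ((le_sup_left : K ≤ K ⊔ IntermediateField.adjoin ℚ_[q] {B}) hx)
    · exact (le_sup_right : IntermediateField.adjoin ℚ_[q] {B} ≤
        K ⊔ IntermediateField.adjoin ℚ_[q] {B}) (IntermediateField.mem_adjoin_simple_self _ B)
  · rintro ⟨hK, hB⟩
    have h1 : K ⊔ IntermediateField.adjoin ℚ_[q] {B} ≤
        IntermediateField.fixedField (Subgroup.zpowers g) := by
      apply sup_le
      · rw [IntermediateField.le_iff_le, Subgroup.zpowers_le]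
        exact hK
      · rw [IntermediateField.adjoin_le_iff]
        intro x hx
        rw [Set.mem_singleton_iff] at hx
        subst hx
        rw [SetLike.mem_coe, IntermediateField.mem_fixedField_iff]
        intro h hh
        have h2 : Subgroup.zpowers g ≤ MulAction.stabilizer (Gq q) x := by
          rw [Subgroup.zpowers_le, MulAction.mem_stabilizer_iff]
          exact hB
        exact MulAction.mem_stabilizer_iff.1 (h2 hh)
    rw [IntermediateField.le_iff_le] at h1
    exact h1 (Subgroup.mem_zpowers g)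

theorem h40k_kumCyc : KumCyc := by
  intro q _ p _ K _ ζ B σ hζK hζ hB0 hBp hσ hkσ
  have hp : p.Prime := Fact.out
  have hfix : ∀ g ∈ GK K, ∀ x ∈ K, g x = x := fun g hg x hx =>
    (IntermediateField.mem_fixingSubgroup_iff K g).1 hg x hx
  -- the Kummer relation
  have hkum : ∀ g ∈ GK K, g B = ζ ^ (kum p ζ B g).val * B := by
    intro g hg
    have hex : ∃ k : ZMod p, g B = ζ ^ k.val * B := by
      have h1 : (g B / B) ^ p = 1 := by
        rw [div_pow, ← map_pow, hfix g hg _ hBp, div_self (pow_ne_zero _ hB0)]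
      obtain ⟨i, hi, hi'⟩ := hζ.eq_pow_of_pow_eq_one h1
      refine ⟨(i : ZMod p), ?_⟩
      rw [ZMod.val_natCast, Nat.mod_eq_of_lt hi, hi', div_mul_cancel₀ _ hB0]
    unfold kum
    rw [dif_pos hex]
    exact hex.choose_spec
  have hσB : σ B = ζ * B := by
    have h := hkum σ hσ
    have h1 : (1 : ZMod p).val = 1 := by
      have : Fact (1 < p) := ⟨hp.one_lt⟩
      exact ZMod.val_one p
    rw [hkσ, h1, pow_one] at h
    exact h
  have hσpow : ∀ i : ℕ, (σ ^ i) B = ζ ^ i * B := by
    intro i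
    induction i with
    | zero => simp
    | succ i ih =>
      rw [pow_succ', AlgEquiv.mul_apply, ih, map_mul, map_pow, hfix σ hσ ζ hζK, hσB, pow_succ]
      ring
  have hval : ∀ g : Gq q, (kum p ζ B g).val < p := fun g => ZMod.val_lt _
  -- the key equivalence
  have hkey : ∀ g ∈ GK K, ∀ i : ℕ, i < p →
      ((σ ^ i)⁻¹ * g ∈ GK (K ⊔ IntermediateField.adjoin ℚ_[q] {B}) ↔
        i = (kum p ζ B g).val) := by
    intro g hg i hi
    rw [h40k_mem_GK_sup]
    have hmem : (σ ^ i)⁻¹ * g ∈ GK K :=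
      Subgroup.mul_mem _ (Subgroup.inv_mem _ (Subgroup.pow_mem _ hσ i)) hg
    rw [AlgEquiv.mul_apply, h40k_inv_apply_eq_iff, hkum g hg, hσpow i]
    constructor
    · rintro ⟨-, h⟩
      exact (hζ.pow_inj (hval g) hi (mul_right_cancel₀ hB0 h)).symm
    · intro h
      exact ⟨hmem, by rw [← h]⟩
  have hex : ∀ g ∈ GK K, ∃ i, i < p ∧
      (σ ^ i)⁻¹ * g ∈ GK (K ⊔ IntermediateField.adjoin ℚ_[q] {B}) := fun g hg =>
    ⟨(kum p ζ B g).val, hval g, (hkey g hg _ (hval g)).2 rfl⟩
  refine ⟨⟨le_sup_left, ?_, hσ, ?_, hex, ?_, hp.pos⟩, ?_⟩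
  · -- finite dimensional
    have : FiniteDimensional ℚ_[q] (IntermediateField.adjoin ℚ_[q] {B}) :=
      IntermediateField.adjoin.finiteDimensional (Algebra.IsIntegral.isIntegral B)
    exact IntermediateField.finiteDimensional_sup K _
  · -- normal
    intro g hg s hs
    rw [h40k_mem_GK_sup] at hs ⊢
    obtain ⟨hsK, hsB⟩ := hs
    have hginv : g⁻¹ ∈ GK K := Subgroup.inv_mem _ hg
    refine ⟨Subgroup.mul_mem _ (Subgroup.mul_mem _ hg hsK) hginv, ?_⟩
    rw [AlgEquiv.mul_apply, AlgEquiv.mul_apply, hkum g⁻¹ hginv, map_mul, map_pow,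
      hfix s hsK ζ hζK, hsB, ← hkum g⁻¹ hginv, ← AlgEquiv.mul_apply, mul_inv_cancel,
      AlgEquiv.one_apply]
  · -- order
    intro i hi0 hip hmem
    have h1 := (h40k_mem_GK_sup K B (σ ^ i)).1 hmem
    have h2 := h1.2
    rw [hσpow i] at h2
    have h3 : ζ ^ i = 1 := by
      have : ζ ^ i * B = 1 * B := by rw [h2, one_mul]
      exact mul_right_cancel₀ hB0 this
    have h4 := hζ.pow_inj hip hp.pos (by rw [h3, pow_zero])
    omega
  · -- the index
    intro g hg
    have h1 : cycIdx (K ⊔ IntermediateField.adjoin ℚ_[q] {B}) σ p g = (kum p ζ B g).val := by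
      unfold cycIdx
      rw [dif_pos (hex g hg)]
      rw [Nat.find_eq_iff]
      refine ⟨⟨hval g, (hkey g hg _ (hval g)).2 rfl⟩, ?_⟩
      rintro n hn ⟨hnp, hmem⟩
      have := (hkey g hg n hnp).1 hmem
      omega
    rw [h1]
    exact ZMod.natCast_zmod_val _

end Fermat.Agent.PT.Loc
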