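import Mathlib
import Fermat.Agent.PT.Loc.Basic
import Fermat.Agent.PT.Loc.Iface
import Fermat.Agent.PT.Loc.Iface2
import Fermat.Agent.PT.Loc.B0Tower12

/-!
# PT-LOC, leaf LOC2-VAN-TOWER3 (helper45)

`theorem h45t_tower3 : Tower3`: every continuous `3`-cochain on `G_K` is constant on `G_{T m}`
for a tower `K ≤ T 0 ≤ … ≤ T m` with `[T 0 : K]` prime to `p` and all other steps cyclic of
degree `p`.  Port of helper12's `h12t_b0Tower`; the tower itself is isolated in
`h45t_tower_below` (a tower ending in a field `T m` with `G_{T m} ≤ G_F`, for any finite `F ⊇ K`).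
-/

set_option autoImplicit false

open scoped Classical

noncomputable section

namespace Fermat.Agent.PT.Loc

variable {q : ℕ} [Fact q.Prime]

/-- **the tower below a finite extension**: for `K ≤ F` finite over `ℚ_q` there is a tower
`K ≤ T 0 ≤ … ≤ T m` with `[T 0 : K]` prime to `p`, cyclic steps of degree `p`, and
`G_{T m} ≤ G_F`. -/
theorem h45t_tower_below (p : ℕ) [Fact p.Prime] (K F : LF q) [FiniteDimensional ℚ_[q] F]
    (hKF : K ≤ F) :
    ∃ (m : ℕ) (T : ℕ → LF q) (σ : ℕ → Gq q),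
      K ≤ T 0 ∧ (∀ i, i ≤ m → FiniteDimensional ℚ_[q] (T i)) ∧
      ¬ p ∣ ((GK (T 0)).subgroupOf (GK K)).index ∧
      (∀ i, i < m → IsCyc (T i) (T (i + 1)) p (σ i)) ∧ GK (T m) ≤ GK F := by
  have := h12t_isGalois q
  -- the normal closure of `F`
  let F' : LF q := IntermediateField.normalClosure ℚ_[q] F (Om q)
  have hF'fin : FiniteDimensional ℚ_[q] F' := normalClosure.is_finiteDimensional ℚ_[q] F (Om q)
  have hF'gal : IsGalois ℚ_[q] F' := IsGalois.normalClosure ℚ_[q] F (Om q)
  have hFF' : F ≤ F' := IntermediateField.le_normalClosure F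
  have hNF : GK F' ≤ GK F := IntermediateField.fixingSubgroup_antitone hFF'
  have hNK : GK F' ≤ GK K := IntermediateField.fixingSubgroup_antitone (hKF.trans hFF')
  have hnorm : (GK F').Normal := (InfiniteGalois.normal_iff_isGalois F').2 hF'gal
  have hfinq : Finite (Gq q ⧸ GK F') :=
    Subgroup.quotient_finite_of_isOpen _ (IntermediateField.fixingSubgroup_isOpen F')
  obtain ⟨m, H, σ, hNH, hH0, hidx, hHm, hstep⟩ := h12t_tower p (GK F') (GK K) hNK
  have hd : ∀ i, GK (IntermediateField.fixedField (H i)) = H i ∧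
      FiniteDimensional ℚ_[q] (IntermediateField.fixedField (H i)) :=
    fun i => h12t_dict F' (H i) (hNH i)
  refine ⟨m, fun i => IntermediateField.fixedField (H i), σ, ?_, ?_, ?_, ?_, ?_⟩
  · exact (IntermediateField.le_iff_le (H 0) K).2 hH0
  · intro i _
    exact (hd i).2
  · show ¬ p ∣ ((GK (IntermediateField.fixedField (H 0))).subgroupOf (GK K)).index
    rw [(hd 0).1]
    exact hidx
  · intro i hi
    obtain ⟨h1, h2, h3, h4, h5⟩ := hstep i hi
    refine ⟨IntermediateField.fixedField_antitone h1, (hd (i + 1)).2, ?_, ?_, ?_, ?_,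
      (Fact.out : p.Prime).pos⟩
    · show σ i ∈ GK (IntermediateField.fixedField (H i))
      rw [(hd i).1]; exact h2
    · intro g hg s hs
      have hg' : g ∈ H i := (hd i).1 ▸ hg
      have hs' : s ∈ H (i + 1) := (hd (i + 1)).1 ▸ hs
      show g * s * g⁻¹ ∈ GK (IntermediateField.fixedField (H (i + 1)))
      rw [(hd (i + 1)).1]
      exact h3 g hg' s hs'
    · intro g hg
      have hg' : g ∈ H i := (hd i).1 ▸ hg
      obtain ⟨k, hk, h⟩ := h4 g hg'
      refine ⟨k, hk, ?_⟩
      show (σ i ^ k)⁻¹ * g ∈ GK (IntermediateField.fixedField (H (i + 1)))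
      rw [(hd (i + 1)).1]
      exact h
    · intro k h0 hk h
      have h' : σ i ^ k ∈ H (i + 1) := (hd (i + 1)).1 ▸ h
      exact h5 k h0 hk h'
  · show GK (IntermediateField.fixedField (H m)) ≤ GK F
    rw [(hd m).1, hHm]
    exact hNF

/-- **VAN-TOWER3.** -/
theorem h45t_tower3 : Tower3 := by
  intro q _ p _ K _ c hc
  obtain ⟨F, hFfin, hKF, hinv⟩ := hc
  have := hFfin
  obtain ⟨m, T, σ, h0, hfin, hidx, hcyc, hle⟩ := h45t_tower_below p K F hKF
  refine ⟨m, T, σ, h0, hfin, hidx, hcyc, ?_⟩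
  intro g hg h hh j hj
  have := hinv 1 (one_mem _) 1 (one_mem _) 1 (one_mem _) g (hle hg) h (hle hh) j (hle hj)
  simpa using this

end Fermat.Agent.PT.Loc
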