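import Mathlib
import Fermat.Agent.PT.Loc.Top
import Fermat.Agent.PT.Bridge.DQGood

/-!
# W3-PT / PT-LOC (helper48): the adapters `AdGood`, `AdCor` and the assembly of `LocBase`
-/

set_option autoImplicit false

open scoped Classical

noncomputable section

namespace Fermat.Agent.PT.Loc

open ExtCitation Fermat.Agent.PT Fermat.Agent.PT.Shap Fermat.Agent.PT.Bridge

/-- AD-GOOD. -/
theorem h48_adGood : AdGood := by
  intro q _
  refine ⟨h23b_comap_good _ h23b_levFin_good _, fun K => ?_⟩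
  exact h23b_comap_good _ (h23b_comap_good _ h23b_levFin_good _) _

/-- AD-COR. -/
theorem h48_adCor : AdCor := by
  intro q _ p _ E _ _ s inv b
  refine ⟨⟨s.gsec_mk, s.gsec_one⟩, ?_⟩
  change inv _ = inv _
  congr 1

/-- The local cyclotomic character is trivial on a level. -/
theorem h48_chiQ_level (q : ℕ) [Fact q.Prime] (p : ℕ) [Fact p.Prime] :
    ∃ N ∈ (levLoc q).sets, ∀ s ∈ N, chiQ p q s = 1 := by
  obtain ⟨N, hN, h⟩ := h23b_exists_cyclotomic_level p {pPrime p} (Finset.mem_singleton_self _)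
  refine ⟨N.comap (localGaloisToGlobal q), ⟨N, h23b_levQ_sets_subset_levFin _ hN, rfl⟩, ?_⟩
  intro s hs
  exact h _ hs

/-- LOC-BASE from LOC-TRIV by Shapiro. -/
theorem h48_locBase_of (hS : h56s_ShapLocal) (hI : InvOKq) (hT : LocTriv) : LocBase := by
  intro q _ p _ V hp2 hV hχ
  have hgood : (levLoc q).Good := (h48_adGood q).1
  have : V.FiniteIndex := h56s_finiteIndex_of_isOpen hgood hV
  obtain ⟨s⟩ := h56s_Sec.nonempty (Gq q) V
  obtain ⟨h1, h2⟩ := hT q p V hp2 hV hχ s
  exact hS (ZMod p) (Gq q) (levLoc q) (chiQ p q) (invQ p q) hgood (h48_chiQ_level q p)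
    (hI q p) V hV hχ s h1 h2

end Fermat.Agent.PT.Loc
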