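import Fermat.Agent.PT.Loc.H66URCyc

/-!
# W3-PT / PT-LOC, leaf UR-IDX (helper49)

`h49_urIdx_of : LFTeich → URCyc → URIdx` and the composite
`h49_urIdx : LFTeich → URVal → LFImm → URIdx` (through `h66u_urCyc`).

For `g ∈ G_K` the index `i = cycIdx (Kur K n) φ n g` satisfies `(φ ^ i)⁻¹ * g ∈ G_{Kur K n}`
(`IsCyc.gen`), so `g w = φ ^ i w = w ^ (N ^ i)` for every `w` with `w ^ (N ^ n - 1) = 1`.
-/

set_option autoImplicit false

open scoped Classical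

noncomputable section

namespace Fermat.Agent.PT.Loc

variable {q : ℕ} [Fact q.Prime]

/-- The specification of `cycIdx` when an index exists. -/
theorem h49_cycIdx_spec (K₁ : LF q) (σ : Gq q) (n : ℕ) (g : Gq q)
    (h : ∃ i, i < n ∧ (σ ^ i)⁻¹ * g ∈ GK K₁) :
    cycIdx K₁ σ n g < n ∧ (σ ^ cycIdx K₁ σ n g)⁻¹ * g ∈ GK K₁ := by
  unfold cycIdx
  rw [dif_pos h]
  exact Nat.find_spec h

/-- `cycIdx` is minimal. -/
theorem h49_cycIdx_le (K₁ : LF q) (σ : Gq q) (n : ℕ) (g : Gq q) {i : ℕ} (hi : i < n)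
    (hmem : (σ ^ i)⁻¹ * g ∈ GK K₁) : cycIdx K₁ σ n g ≤ i := by
  have h : ∃ i, i < n ∧ (σ ^ i)⁻¹ * g ∈ GK K₁ := ⟨i, hi, hmem⟩
  unfold cycIdx
  rw [dif_pos h]
  exact Nat.find_min' h ⟨hi, hmem⟩

/-- For a cyclic extension the index is `< n` and `g ∈ σ ^ idx · G_{K₁}`. -/
theorem h49_cycIdx_spec_of_isCyc {K K₁ : LF q} {n : ℕ} {σ : Gq q} (hc : IsCyc K K₁ n σ)
    {g : Gq q} (hg : g ∈ GK K) :
    cycIdx K₁ σ n g < n ∧ (σ ^ cycIdx K₁ σ n g)⁻¹ * g ∈ GK K₁ :=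
  h49_cycIdx_spec K₁ σ n g (hc.gen g hg)

/-- **UR-IDX** from `LFTeich` and `URCyc`. -/
theorem h49_urIdx_of (hT : LFTeich) (hC : URCyc) : URIdx := by
  intro q _ K _ n φ hn hφ g hg w hw
  have hq : q.Prime := Fact.out
  obtain ⟨-, ⟨f, hf, hN⟩, -, -, -⟩ := hT q K
  have h2 : 2 ≤ resCard K ^ n := h66u_two_le_pow hq hf hN hn
  have hMpos : 0 < resCard K ^ n - 1 := by omega
  have hqM : ¬ q ∣ resCard K ^ n - 1 := h66u_not_dvd_pred hq hf hN hn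
  have hcyc : IsCyc K (Kur K n) n φ := hC q K n φ hn hφ
  obtain ⟨-, hmem⟩ := h49_cycIdx_spec_of_isCyc hcyc hg
  set i := cycIdx (Kur K n) φ n g with hi
  have hfix : ((φ ^ i)⁻¹ * g) w = w := ((h66u_mem_GK_Kur K n _).1 hmem).2 w hw
  have h1 : g w = (φ ^ i) w := by
    have h3 := congrArg (fun x => (φ ^ i) x) hfix
    simp only [AlgEquiv.mul_apply] at h3
    rw [← AlgEquiv.mul_apply, mul_inv_cancel, AlgEquiv.one_apply] at h3
    exact h3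
  rw [h1]
  exact h66u_frob_pow hφ i w (resCard K ^ n - 1) hMpos hqM hw

/-- **UR-IDX** from the arithmetic leaves (through `h66u_urCyc`). -/
theorem h49_urIdx (hT : LFTeich) (hV : URVal) (hI : LFImm) : URIdx :=
  h49_urIdx_of hT (h66u_urCyc hT hV hI)

end Fermat.Agent.PT.Loc
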