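import Mathlib
import Fermat.Agent.PT.Loc.Iface
import Fermat.Agent.PT.Loc.H55B1Fin

/-!
# W3-PT / PT-LOC, leaf LOC-B0-GEN (helper55): the standard generator of `H²(G_K, 𝔽_p)`

Assembly: `LFUnif`, `URFrob`, `URCyc`, `KumBasic`, `MCKum`, `MCCarryNorm`, `URNormGrp` give
`B0Gen`: the class `κ_ϖ ∪ χ_ur` (`ϖ^p = π` a uniformizer) exists, is a continuous `2`-cocycle and is
not a coboundary (`ζ^{κ_ϖ ∪ χ_ur} ∼ carry(π)⁻¹` and `π` is not a norm from `Kur K p`).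

Reusable by-products on the cyclic index: `h55g_cycIdx_spec`, `h55g_pow_n_mem`,
`h55g_zpow_mem_iff`, `h55g_cycIdx_mul` (additivity mod `n`), `h55g_cycIdx_mul_right`
(right invariance under `G_{K₁}`).
-/

set_option autoImplicit false

open scoped Classical

noncomputable section

namespace Fermat.Agent.PT.Loc

variable {q : ℕ} [Fact q.Prime]

/-! ## The cyclic index -/

section Cyc

variable {K K₁ : LF q} {n : ℕ} {σ : Gq q}

theorem h55g_cycIdx_spec (h : IsCyc K K₁ n σ) {g : Gq q} (hg : g ∈ GK K) :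
    cycIdx K₁ σ n g < n ∧ (σ ^ cycIdx K₁ σ n g)⁻¹ * g ∈ GK K₁ := by
  have hex := h.gen g hg
  rw [cycIdx, dif_pos hex]
  exact Nat.find_spec hex

theorem h55g_pow_n_mem (h : IsCyc K K₁ n σ) : σ ^ n ∈ GK K₁ := by
  obtain ⟨i, hi, hmem⟩ := h.gen (σ ^ n) (pow_mem h.mem n)
  have hrw : (σ ^ i)⁻¹ * σ ^ n = σ ^ (n - i) := by
    rw [inv_mul_eq_iff_eq_mul, ← pow_add, Nat.add_sub_cancel' hi.le]
  rw [hrw] at hmem
  by_cases hi0 : i = 0
  · subst hi0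
    simpa using hmem
  · exact absurd hmem (h.ord (n - i) (by omega) (by omega))

theorem h55g_zpow_mem_iff (h : IsCyc K K₁ n σ) (m : ℤ) : σ ^ m ∈ GK K₁ ↔ (n : ℤ) ∣ m := by
  have hn0 : (n : ℤ) ≠ 0 := by exact_mod_cast h.pos.ne'
  have hnpos : (0 : ℤ) < n := by exact_mod_cast h.pos
  have hmod_nonneg := Int.emod_nonneg m hn0
  have hmod_lt := Int.emod_lt_of_pos m hnpos
  obtain ⟨r, hr⟩ := Int.eq_ofNat_of_zero_le hmod_nonneg
  have hdecomp : σ ^ m = (σ ^ n) ^ (m / n) * σ ^ r := by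
    rw [← zpow_natCast σ n, ← zpow_mul, ← zpow_natCast σ r, ← zpow_add, ← hr,
      Int.mul_ediv_add_emod]
  have hN : (σ ^ n) ^ (m / (n : ℤ)) ∈ GK K₁ := zpow_mem (h55g_pow_n_mem h) _
  constructor
  · intro hm
    have hr_mem : σ ^ r ∈ GK K₁ := by
      have : σ ^ r = ((σ ^ n) ^ (m / (n : ℤ)))⁻¹ * σ ^ m := by
        rw [hdecomp]; group
      rw [this]
      exact mul_mem (inv_mem hN) hm
    have hr0 : r = 0 := by
      by_contra h0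
      exact h.ord r (Nat.pos_of_ne_zero h0) (by omega) hr_mem
    rw [Int.dvd_iff_emod_eq_zero, hr, hr0]
    rfl
  · intro hd
    have hm0 : m % (n : ℤ) = 0 := Int.emod_eq_zero_of_dvd hd
    have hr0 : r = 0 := by omega
    rw [hdecomp, hr0, pow_zero, mul_one]
    exact hN

/-- the cyclic index is additive modulo `n` on `G_K`. -/
theorem h55g_cycIdx_mul (h : IsCyc K K₁ n σ) {g g' : Gq q} (hg : g ∈ GK K) (hg' : g' ∈ GK K) :
    ((cycIdx K₁ σ n (g * g') : ℕ) : ZMod n)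
      = (cycIdx K₁ σ n g : ZMod n) + (cycIdx K₁ σ n g' : ZMod n) := by
  obtain ⟨-, hi⟩ := h55g_cycIdx_spec h hg
  obtain ⟨-, hj⟩ := h55g_cycIdx_spec h hg'
  obtain ⟨-, hk⟩ := h55g_cycIdx_spec h (mul_mem hg hg')
  generalize cycIdx K₁ σ n g = i at hi ⊢
  generalize cycIdx K₁ σ n g' = j at hj ⊢
  generalize cycIdx K₁ σ n (g * g') = k at hk ⊢
  have ha' : (σ ^ j)⁻¹ * ((σ ^ i)⁻¹ * g) * ((σ ^ j)⁻¹)⁻¹ ∈ GK K₁ :=
    h.normal _ (inv_mem (pow_mem h.mem j)) _ hi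
  have hprod : (σ ^ j)⁻¹ * ((σ ^ i)⁻¹ * g) * ((σ ^ j)⁻¹)⁻¹ * ((σ ^ j)⁻¹ * g') ∈ GK K₁ :=
    mul_mem ha' hj
  have hsimp : (σ ^ j)⁻¹ * ((σ ^ i)⁻¹ * g) * ((σ ^ j)⁻¹)⁻¹ * ((σ ^ j)⁻¹ * g')
      = (σ ^ (i + j))⁻¹ * (g * g') := by
    rw [pow_add]; group
  rw [hsimp] at hprod
  have hq : (σ ^ (i + j))⁻¹ * (g * g') * ((σ ^ k)⁻¹ * (g * g'))⁻¹ ∈ GK K₁ :=
    mul_mem hprod (inv_mem hk)
  have hq' : (σ ^ (i + j))⁻¹ * (g * g') * ((σ ^ k)⁻¹ * (g * g'))⁻¹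
      = σ ^ ((k : ℤ) - ((i + j : ℕ) : ℤ)) := by
    have e1 : (σ ^ (i + j))⁻¹ * (g * g') * ((σ ^ k)⁻¹ * (g * g'))⁻¹
        = (σ ^ (i + j))⁻¹ * σ ^ k := by group
    rw [e1, sub_eq_neg_add, zpow_add, zpow_neg, zpow_natCast, zpow_natCast]
  rw [hq', h55g_zpow_mem_iff h] at hq
  have := (ZMod.intCast_eq_intCast_iff_dvd_sub ((i + j : ℕ) : ℤ) (k : ℤ) n).mpr hq
  have h2 : (((i + j : ℕ) : ℤ) : ZMod n) = ((k : ℤ) : ZMod n) := this
  push_cast at h2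
  exact h2.symm

/-- the cyclic index is right invariant under `G_{K₁}`. -/
theorem h55g_cycIdx_mul_right (K₁ : LF q) (σ : Gq q) (n : ℕ) (g s : Gq q) (hs : s ∈ GK K₁) :
    cycIdx K₁ σ n (g * s) = cycIdx K₁ σ n g := by
  have hiff : ∀ i, (i < n ∧ (σ ^ i)⁻¹ * (g * s) ∈ GK K₁) ↔ (i < n ∧ (σ ^ i)⁻¹ * g ∈ GK K₁) := by
    intro i
    rw [← mul_assoc, Subgroup.mul_mem_cancel_right _ hs]
  unfold cycIdx
  by_cases h : ∃ i, i < n ∧ (σ ^ i)⁻¹ * g ∈ GK K₁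
  · have h' : ∃ i, i < n ∧ (σ ^ i)⁻¹ * (g * s) ∈ GK K₁ := h.imp fun i hi => (hiff i).mpr hi
    rw [dif_pos h, dif_pos h']
    exact Nat.find_congr' (fun {i} => hiff i)
  · have h' : ¬ ∃ i, i < n ∧ (σ ^ i)⁻¹ * (g * s) ∈ GK K₁ :=
      fun ⟨i, hi⟩ => h ⟨i, (hiff i).mp hi⟩
    rw [dif_neg h, dif_neg h']

end Cyc

/-! ## Exponent arithmetic -/

theorem h55g_zpw_add (ζ : (Om q)ˣ) (p : ℕ) [NeZero p] (hζ : ζ ^ p = 1) (a b : ZMod p) :
    ζ ^ (a + b).val = ζ ^ a.val * ζ ^ b.val := by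
  rw [ZMod.val_add, ← pow_add]
  conv_rhs => rw [← Nat.mod_add_div (a.val + b.val) p, pow_add, pow_mul, hζ, one_pow, mul_one]

theorem h55g_zpw_neg (ζ : (Om q)ˣ) (p : ℕ) [NeZero p] (hζ : ζ ^ p = 1) (a : ZMod p) :
    ζ ^ (-a).val = (ζ ^ a.val)⁻¹ := by
  rw [eq_inv_iff_mul_eq_one, ← h55g_zpw_add ζ p hζ, neg_add_cancel, ZMod.val_zero, pow_zero]

theorem h55g_smul_eq {K : LF q} {g : Gq q} (hg : g ∈ GK K) (u : (Om q)ˣ) (hu : (u : Om q) ∈ K) :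
    g • u = u := by
  apply Units.ext
  show g (u : Om q) = u
  exact h55f_fixed hg hu

/-- an additive coboundary gives a multiplicative coboundary. -/
theorem h55g_mcohom_of_acohom (p : ℕ) [Fact p.Prime] (K : LF q) (ζ : (Om q)ˣ)
    (hζK : (ζ : Om q) ∈ K) (hζp : ζ ^ p = 1) (c : Gq q × Gq q → ZMod p)
    (h : ACohom K c 0) : MCohom K (zpw ζ c) 1 := by
  have : NeZero p := ⟨(Fact.out : p.Prime).ne_zero⟩
  obtain ⟨f, ⟨F, hFfin, hKF, hF⟩, hf⟩ := h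
  refine ⟨fun g => ζ ^ (f g).val, ⟨F, hFfin, hKF, fun g hg s hs => ?_⟩, fun g hg h hh => ?_⟩
  · show ζ ^ (f (g * s)).val = ζ ^ (f g).val
    rw [hF g hg s hs]
  · have hc : c (g, h) = f h + (-(f (g * h))) + f g := by
      rw [hf g hg h hh]
      simp only [Pi.zero_apply, zero_add, acob]
      ring
    show ζ ^ (c (g, h)).val = (1 : Gq q × Gq q → (Om q)ˣ) (g, h)
      * (g • (ζ ^ (f h).val) / ζ ^ (f (g * h)).val * ζ ^ (f g).val)
    rw [hc, h55g_zpw_add ζ p hζp, h55g_zpw_add ζ p hζp, h55g_zpw_neg ζ p hζp, smul_pow',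
      h55g_smul_eq hg ζ hζK, Pi.one_apply, one_mul, div_eq_mul_inv]

/-- `mcob` of a quotient. -/
theorem h55g_mcob_div (x x' : Gq q → (Om q)ˣ) (y : Gq q × Gq q) :
    mcob (fun g => x' g / x g) y = mcob x' y / mcob x y := by
  simp only [mcob, smul_div']
  simp only [div_eq_mul_inv, mul_inv_rev, inv_inv, mul_assoc, mul_comm, mul_left_comm]

theorem h55g_cont1_div {K : LF q} {x x' : Gq q → (Om q)ˣ} (hx : Cont1 K x) (hx' : Cont1 K x') :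
    Cont1 K (fun g => x' g / x g) := by
  obtain ⟨F, hFfin, hKF, hF⟩ := hx
  obtain ⟨F', hF'fin, hKF', hF'⟩ := hx'
  have := hFfin
  have := hF'fin
  refine ⟨F ⊔ F', IntermediateField.finiteDimensional_sup F F', hKF.trans le_sup_left,
    fun g hg s hs => ?_⟩
  have hs1 : s ∈ GK F := IntermediateField.fixingSubgroup_le (le_sup_left : F ≤ F ⊔ F') hs
  have hs2 : s ∈ GK F' := IntermediateField.fixingSubgroup_le (le_sup_right : F' ≤ F ⊔ F') hs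
  show x' (g * s) / x (g * s) = x' g / x g
  rw [hF g hg s hs1, hF' g hg s hs2]

/-! ## The generator -/

section Gen

variable (p : ℕ) [Fact p.Prime] (K : LF q) [FiniteDimensional ℚ_[q] K]

omit [FiniteDimensional ℚ_[q] K] in
/-- the cup product `κ ∪ idx` is a `2`-cocycle. -/
theorem h55g_acoc2 {K₁ : LF q} {σ : Gq q} (hcyc : IsCyc K K₁ p σ) (κ : Gq q → ZMod p)
    (hκ : ACoc1 K κ) :
    ACoc2 K (acup κ (fun g => (cycIdx K₁ σ p g : ZMod p))) := by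
  intro g hg h hh j hj
  simp only [acup]
  rw [hκ g hg h hh, h55g_cycIdx_mul hcyc hh hj]
  ring

omit [FiniteDimensional ℚ_[q] K] in
/-- the cup product `κ ∪ idx` is continuous. -/
theorem h55g_cont2 {K₁ : LF q} {σ : Gq q} (hcyc : IsCyc K K₁ p σ) (κ : Gq q → ZMod p)
    (hκ : Cont1 K κ) :
    Cont2 K (acup κ (fun g => (cycIdx K₁ σ p g : ZMod p))) := by
  obtain ⟨F, hFfin, hKF, hF⟩ := hκ
  have := hFfin
  have := hcyc.fin
  refine ⟨F ⊔ K₁, IntermediateField.finiteDimensional_sup F K₁, hKF.trans le_sup_left,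
    fun g hg g' _ s hs s' hs' => ?_⟩
  have hs1 : s ∈ GK F := IntermediateField.fixingSubgroup_le (le_sup_left : F ≤ F ⊔ K₁) hs
  have hs2 : s' ∈ GK K₁ := IntermediateField.fixingSubgroup_le (le_sup_right : K₁ ≤ F ⊔ K₁) hs'
  simp only [acup]
  rw [hF g hg s hs1, h55g_cycIdx_mul_right K₁ σ p g' s' hs2]

/-- a uniformizer is not a norm from the unramified extension of degree `p`. -/
theorem h55g_not_isNorm (hN : URNormGrp) (φ : Gq q) (π : Om q) (hφ : IsFrob K φ)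
    (hπ : IsUnif K π) : ¬ IsNorm (Kur K p) φ p π := by
  have hp : p.Prime := Fact.out
  intro hnorm
  obtain ⟨m, hm⟩ := (hN q K p φ π hp.pos hφ hπ π hπ.1 hπ.2.1).mp hnorm
  have h0 : 0 < ‖π‖ := norm_pos_iff.mpr hπ.2.1
  have h1 : ‖π‖ < 1 := hπ.2.2.1
  have hinj := zpow_right_injective₀ h0 h1.ne
  have h2 : (1 : ℤ) = (p : ℤ) * m := by
    apply hinj
    show ‖π‖ ^ (1 : ℤ) = ‖π‖ ^ ((p : ℤ) * m)
    rw [zpow_one]
    exact hm
  have h3 : (p : ℤ) ∣ 1 := ⟨m, h2⟩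
  have h4 : (p : ℤ) ≤ 1 := Int.le_of_dvd one_pos h3
  have h5 : 2 ≤ p := hp.two_le
  omega

end Gen

/-- **LOC-B0-GEN.** -/
theorem h55g_b0Gen (hU : LFUnif) (hFr : URFrob) (hCy : URCyc) (hKB : KumBasic) (hMK : MCKum)
    (hCN : MCCarryNorm) (hNG : URNormGrp) : B0Gen := by
  intro q _ p _ K _ ζ hζK hζ
  have hp : p.Prime := Fact.out
  refine ⟨?_, ?_⟩
  · obtain ⟨π, hπ⟩ := (hU q K).1
    obtain ⟨φ, hφ⟩ := hFr q K
    refine ⟨_, h55f_root p π, φ, ?_, hφ, rfl⟩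
    rw [h55f_root_pow p hp.pos π]
    exact hπ
  · rintro c₀ ⟨ϖ, φ, hπ, hφ, rfl⟩
    have hϖ0 : ϖ ≠ 0 := by
      intro h0
      apply hπ.2.1
      rw [h0, zero_pow hp.ne_zero]
    have hζ0 : ζ ≠ 0 := hζ.ne_zero hp.ne_zero
    have hcyc : IsCyc K (Kur K p) p φ := hCy q K p φ hp.pos hφ
    obtain ⟨hκ1, hκc, -⟩ := hKB q p K ζ ϖ hζK hζ hϖ0 hπ.1
    refine ⟨h55g_acoc2 p K hcyc _ hκ1, h55g_cont2 p K hcyc _ hκc, ?_⟩
    intro hcoh
    -- multiplicative version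
    have hζp : (Units.mk0 ζ hζ0) ^ p = 1 := by
      apply Units.ext
      rw [Units.val_pow_eq_pow_val, Units.val_mk0, Units.val_one]
      exact hζ.pow_eq_one
    obtain ⟨x, hxc, hx⟩ := h55g_mcohom_of_acohom p K (Units.mk0 ζ hζ0) hζK hζp _ hcoh
    obtain ⟨x', hx'c, hx'⟩ := hMK q p K (Kur K p) φ (Units.mk0 ζ hζ0) (Units.mk0 ϖ hϖ0)
      hζK hζ hcyc hπ.1
    have hcarry : MCohom K (carry (Kur K p) φ p ((Units.mk0 ϖ hϖ0) ^ p)) 1 := by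
      refine ⟨fun g => x' g / x g, h55g_cont1_div hxc hx'c, fun g hg h hh => ?_⟩
      have e1 := hx g hg h hh
      have e2 := hx' g hg h hh
      rw [Units.val_mk0, Units.val_mk0] at e2
      rw [e1, Pi.one_apply, one_mul] at e2
      rw [h55g_mcob_div, Pi.one_apply, one_mul, e2, div_eq_mul_inv, mul_inv_rev, inv_inv,
        mul_inv_cancel_left]
    have hnorm : IsNorm (Kur K p) φ p (ϖ ^ p) := by
      have := (hCN q K (Kur K p) p φ ((Units.mk0 ϖ hϖ0) ^ p) hcyc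
        (by rw [Units.val_pow_eq_pow_val, Units.val_mk0]; exact hπ.1)).mp hcarry
      rwa [Units.val_pow_eq_pow_val, Units.val_mk0] at this
    exact h55g_not_isNorm p K hNG φ (ϖ ^ p) hφ hπ hnorm

end Fermat.Agent.PT.Loc
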