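import Mathlib
import Fermat.Agent.PT.Loc.Basic

/-!
# W3-PT / PT-LOC (helper57): restriction is injective on `H²` in index prime to `p`

Explicit transfer (no homogeneous cochains, no Shapiro): for `H ≤ G` of finite index `n`
invertible in the field of coefficients `A` (trivial action), a `2`-cocycle `c` of `G` whose
restriction to `H` is the coboundary of `y` is the coboundary of
`f(g) = n⁻¹ ∑_{x ∈ G/H} [ y(η(g,x)) + c(g, s(x)) - c(s(g x), η(g,x)) ]`,
`η(g,x) = s(g x)⁻¹ g s(x) ∈ H`, `s = Quotient.out`.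

* `h57_cob_of_res`       : the statement for a group `G` and a subgroup `H`;
* `h57_cob_of_res_rel`   : the relative form (subgroups `H ≤ G` of an ambient group, cochains are
                           total functions on the ambient group), with invariance under a normal
                           subgroup `N ≤ H`;
* `h57_acohom_zero_of_res` : the form in the vocabulary of `Loc/Basic.lean`:
  `ACoc2 K c → Cont2 K c → ACohom K₁ c 0 → ACohom K c 0` for `K ≤ K₁`, `p ∤ [G_K : G_{K₁}]`.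
-/

set_option autoImplicit false

open scoped Classical

noncomputable section

namespace Fermat.Agent.PT.Loc

section Abstract

variable {G : Type*} [Group G] (H : Subgroup G)

/-- `η(g, x) = s(g x)⁻¹ g s(x)`. -/
def h57_eta (g : G) (x : G ⧸ H) : G :=
  (Quotient.out (g • x))⁻¹ * g * Quotient.out x

lemma h57_eta_mem (g : G) (x : G ⧸ H) : h57_eta H g x ∈ H := by
  unfold h57_eta
  rw [mul_assoc, ← QuotientGroup.eq, QuotientGroup.out_eq']
  conv_lhs => rw [← QuotientGroup.out_eq' x]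
  rfl

lemma h57_eta_mul (g g' : G) (x : G ⧸ H) :
    h57_eta H (g * g') x = h57_eta H g (g' • x) * h57_eta H g' x := by
  simp only [h57_eta, mul_smul]
  group

lemma h57_mul_out (g : G) (x : G ⧸ H) :
    g * Quotient.out x = Quotient.out (g • x) * h57_eta H g x := by
  simp only [h57_eta]
  group

variable {A : Type*} [Field A]

/-- The summand of the transfer formula. -/
def h57_term (c : G × G → A) (y : G → A) (g : G) (x : G ⧸ H) : A :=
  y (h57_eta H g x) + c (g, Quotient.out x) - c (Quotient.out (g • x), h57_eta H g x)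

lemma h57_term_identity (c : G × G → A) (y : G → A)
    (hc : ∀ g h j : G, c (h, j) - c (g * h, j) + c (g, h * j) - c (g, h) = 0)
    (hy : ∀ g ∈ H, ∀ h ∈ H, c (g, h) = y h - y (g * h) + y g) (g g' : G) (x : G ⧸ H) :
    h57_term H c y g' x - h57_term H c y (g * g') x + h57_term H c y g (g' • x) = c (g, g') := by
  have ha := h57_eta_mem H g (g' • x)
  have hb := h57_eta_mem H g' x
  have h1 := hc g g' (Quotient.out x)
  have h2 := hc g (Quotient.out (g' • x)) (h57_eta H g' x)
  have h3 := hc (Quotient.out (g • g' • x)) (h57_eta H g (g' • x)) (h57_eta H g' x)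
  have h4 := hy _ ha _ hb
  rw [← h57_mul_out H g' x, h57_mul_out H g (g' • x)] at h2
  simp only [h57_term, h57_eta_mul, mul_smul]
  linear_combination (-1 : A) * h4 + h1 - h2 + h3

/-- Restriction is injective on `H²` (trivial coefficients in a field in which the index is
invertible): the explicit transfer formula. -/
theorem h57_cob_of_res [Fintype (G ⧸ H)] (hn : (Fintype.card (G ⧸ H) : A) ≠ 0)
    (c : G × G → A) (y : G → A)
    (hc : ∀ g h j : G, c (h, j) - c (g * h, j) + c (g, h * j) - c (g, h) = 0)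
    (hy : ∀ g ∈ H, ∀ h ∈ H, c (g, h) = y h - y (g * h) + y g) (g g' : G) :
    c (g, g') = (Fintype.card (G ⧸ H) : A)⁻¹ * ∑ x, h57_term H c y g' x
      - (Fintype.card (G ⧸ H) : A)⁻¹ * ∑ x, h57_term H c y (g * g') x
      + (Fintype.card (G ⧸ H) : A)⁻¹ * ∑ x, h57_term H c y g x := by
  have hre : ∑ x, h57_term H c y g x = ∑ x, h57_term H c y g (g' • x) :=
    (Fintype.sum_equiv (MulAction.toPerm g') (fun x => h57_term H c y g (g' • x))
      (fun x => h57_term H c y g x) (fun x => rfl)).symm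
  have hsum : ∑ x, h57_term H c y g' x - ∑ x, h57_term H c y (g * g') x
      + ∑ x, h57_term H c y g x = (Fintype.card (G ⧸ H) : A) * c (g, g') := by
    rw [hre, ← Finset.sum_sub_distrib, ← Finset.sum_add_distrib]
    simp only [h57_term_identity H c y hc hy, Finset.sum_const, Finset.card_univ, nsmul_eq_mul]
  rw [← mul_sub, ← mul_add, hsum, ← mul_assoc, inv_mul_cancel₀ hn, one_mul]

lemma h57_smul_eq_of_mem_normal (N : Subgroup G) [N.Normal] (hNH : N ≤ H) (s : G) (hs : s ∈ N)
    (x : G ⧸ H) : s • x = x := by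
  induction x using QuotientGroup.induction_on with
  | H a =>
    change ((s * a : G) : G ⧸ H) = (a : G ⧸ H)
    rw [eq_comm, QuotientGroup.eq]
    apply hNH
    have h := ‹N.Normal›.conj_mem s hs a⁻¹
    simpa [mul_assoc] using h

lemma h57_term_mul_right (N : Subgroup G) [N.Normal] (hNH : N ≤ H) (c : G × G → A) (y : G → A)
    (hcN : ∀ g g' : G, ∀ s ∈ N, ∀ s' ∈ N, c (g * s, g' * s') = c (g, g'))
    (hyN : ∀ g ∈ H, ∀ s ∈ N, y (g * s) = y g) (g s : G) (hs : s ∈ N) (x : G ⧸ H) :
    h57_term H c y (g * s) x = h57_term H c y g x := by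
  have hx : s • x = x := h57_smul_eq_of_mem_normal H N hNH s hs x
  have hs' : (Quotient.out x)⁻¹ * s * Quotient.out x ∈ N := by
    have h := ‹N.Normal›.conj_mem s hs (Quotient.out x)⁻¹
    simpa [mul_assoc] using h
  have hη : h57_eta H (g * s) x = h57_eta H g x * ((Quotient.out x)⁻¹ * s * Quotient.out x) := by
    simp only [h57_eta, mul_smul, hx]
    group
  have hgx : (g * s) • x = g • x := by rw [mul_smul, hx]
  unfold h57_term
  rw [hη, hgx, hyN _ (h57_eta_mem H g x) _ hs']
  have e1 : c (g * s, Quotient.out x) = c (g, Quotient.out x) := by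
    have := hcN g (Quotient.out x) s hs 1 N.one_mem
    rwa [mul_one] at this
  have e2 : c (Quotient.out (g • x), h57_eta H g x * ((Quotient.out x)⁻¹ * s * Quotient.out x))
      = c (Quotient.out (g • x), h57_eta H g x) := by
    have := hcN (Quotient.out (g • x)) (h57_eta H g x) 1 N.one_mem _ hs'
    rwa [mul_one] at this
  rw [e1, e2]

end Abstract

section Relative

variable {Γ : Type*} [Group Γ] {A : Type*} [Field A]

/-- The relative form: `H ≤ G` subgroups of an ambient group `Γ`, cochains are total functions on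
`Γ`, all conditions are required on `G` (resp. `H`) only; invariance under a normal subgroup
`N ≤ H` is preserved. -/
theorem h57_cob_of_res_rel (G H N : Subgroup Γ) (hHG : H ≤ G) (hNH : N ≤ H) [hN : N.Normal]
    (hidx : (((H.subgroupOf G).index : ℕ) : A) ≠ 0) (c : Γ × Γ → A) (y : Γ → A)
    (hc : ∀ g ∈ G, ∀ h ∈ G, ∀ j ∈ G, c (h, j) - c (g * h, j) + c (g, h * j) - c (g, h) = 0)
    (hy : ∀ g ∈ H, ∀ h ∈ H, c (g, h) = y h - y (g * h) + y g)
    (hcN : ∀ g ∈ G, ∀ g' ∈ G, ∀ s ∈ N, ∀ s' ∈ N, c (g * s, g' * s') = c (g, g'))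
    (hyN : ∀ g ∈ H, ∀ s ∈ N, y (g * s) = y g) :
    ∃ f : Γ → A, (∀ g ∈ G, ∀ s ∈ N, f (g * s) = f g) ∧
      ∀ g ∈ G, ∀ h ∈ G, c (g, h) = f h - f (g * h) + f g := by
  have hne : (H.subgroupOf G).index ≠ 0 := by
    intro h0
    rw [h0] at hidx
    exact hidx Nat.cast_zero
  have : Fintype (↥G ⧸ H.subgroupOf G) := Subgroup.fintypeOfIndexNeZero hne
  have hcard : (Fintype.card (↥G ⧸ H.subgroupOf G) : A) ≠ 0 := by
    have h1 : Fintype.card (↥G ⧸ H.subgroupOf G) = (H.subgroupOf G).index := by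
      rw [Subgroup.index, Nat.card_eq_fintype_card]
    rw [h1]
    exact hidx
  let c' : ↥G × ↥G → A := fun z => c ((z.1 : Γ), (z.2 : Γ))
  let y' : ↥G → A := fun g => y (g : Γ)
  have hc' : ∀ g h j : ↥G, c' (h, j) - c' (g * h, j) + c' (g, h * j) - c' (g, h) = 0 :=
    fun g h j => hc g g.2 h h.2 j j.2
  have hy' : ∀ g ∈ H.subgroupOf G, ∀ h ∈ H.subgroupOf G, c' (g, h) = y' h - y' (g * h) + y' g :=
    fun g hg h hh => hy g (Subgroup.mem_subgroupOf.1 hg) h (Subgroup.mem_subgroupOf.1 hh)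
  have hN' : (N.subgroupOf G).Normal := hN.subgroupOf G
  have hNH' : N.subgroupOf G ≤ H.subgroupOf G := fun g hg =>
    Subgroup.mem_subgroupOf.2 (hNH (Subgroup.mem_subgroupOf.1 hg))
  have hcN' : ∀ g g' : ↥G, ∀ s ∈ N.subgroupOf G, ∀ s' ∈ N.subgroupOf G,
      c' (g * s, g' * s') = c' (g, g') := fun g g' s hs s' hs' =>
    hcN g g.2 g' g'.2 s (Subgroup.mem_subgroupOf.1 hs) s' (Subgroup.mem_subgroupOf.1 hs')
  have hyN' : ∀ g ∈ H.subgroupOf G, ∀ s ∈ N.subgroupOf G, y' (g * s) = y' g :=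
    fun g hg s hs => hyN g (Subgroup.mem_subgroupOf.1 hg) s (Subgroup.mem_subgroupOf.1 hs)
  let f' : ↥G → A := fun g =>
    (Fintype.card (↥G ⧸ H.subgroupOf G) : A)⁻¹ * ∑ x, h57_term (H.subgroupOf G) c' y' g x
  refine ⟨fun g => if hg : g ∈ G then f' ⟨g, hg⟩ else 0, ?_, ?_⟩
  · intro g hg s hs
    have hgs : g * s ∈ G := G.mul_mem hg (hHG (hNH hs))
    simp only [dif_pos hg, dif_pos hgs]
    have hs' : (⟨s, hHG (hNH hs)⟩ : ↥G) ∈ N.subgroupOf G := Subgroup.mem_subgroupOf.2 hs
    have hmul : (⟨g * s, hgs⟩ : ↥G) = ⟨g, hg⟩ * ⟨s, hHG (hNH hs)⟩ := rfl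
    simp only [f', hmul]
    congr 1
    refine Finset.sum_congr rfl fun x _ => ?_
    exact h57_term_mul_right (H.subgroupOf G) (N.subgroupOf G) hNH' c' y' hcN' hyN' _ _ hs' x
  · intro g hg h hh
    have hgh : g * h ∈ G := G.mul_mem hg hh
    simp only [dif_pos hg, dif_pos hh, dif_pos hgh]
    exact h57_cob_of_res (H.subgroupOf G) hcard c' y' hc' hy' ⟨g, hg⟩ ⟨h, hh⟩

end Relative

/-! ## The form in the vocabulary of `Loc/Basic.lean` -/

section LocForm

variable {q : ℕ} [Fact q.Prime] {p : ℕ} [Fact p.Prime]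

/-- `ℚ̄_q / ℚ_q` is Galois. -/
theorem h57_isGalois_Om (q : ℕ) [Fact q.Prime] : IsGalois ℚ_[q] (Om q) :=
  have : IsAlgClosure ℚ_[q] (Om q) := ⟨inferInstance, AlgebraicClosure.isAlgebraic ℚ_[q]⟩
  IsAlgClosure.isGalois ℚ_[q] (Om q)

/-- Every finite extension is contained in a finite normal extension, whose absolute Galois group
is a normal subgroup of `Gq q`. -/
theorem h57_exists_normal_ge (F : LF q) [FiniteDimensional ℚ_[q] F] :
    ∃ F' : LF q, F ≤ F' ∧ FiniteDimensional ℚ_[q] F' ∧ (GK F').Normal := by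
  have : IsGalois ℚ_[q] (Om q) := h57_isGalois_Om q
  refine ⟨IntermediateField.normalClosure ℚ_[q] F (Om q), IntermediateField.le_normalClosure F,
    inferInstance, ?_⟩
  have : Normal ℚ_[q] (IntermediateField.normalClosure ℚ_[q] F (Om q)) := inferInstance
  have : IsGalois ℚ_[q] (IntermediateField.normalClosure ℚ_[q] F (Om q)) := ⟨⟩
  exact IsGalois.fixingSubgroup_normal_of_isGalois _

/-- **Restriction is injective on `H²(G_K, 𝔽_p)` in index prime to `p`.** -/
theorem h57_acohom_zero_of_res (K K₁ : LF q) (hle : K ≤ K₁)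
    (hp : ¬ p ∣ ((GK K₁).subgroupOf (GK K)).index)
    (c : Gq q × Gq q → ZMod p) (hc : ACoc2 K c) (hcont : Cont2 K c) (h : ACohom K₁ c 0) :
    ACohom K c 0 := by
  obtain ⟨y, ⟨F₁, hF₁fin, hK₁F₁, hyF₁⟩, hy⟩ := h
  obtain ⟨F, hFfin, hKF, hcF⟩ := hcont
  have := hF₁fin
  have := hFfin
  have : FiniteDimensional ℚ_[q] ↥(F ⊔ F₁) := IntermediateField.finiteDimensional_sup F F₁
  obtain ⟨F', hFF', hF'fin, hF'n⟩ := h57_exists_normal_ge (F ⊔ F₁)
  have hF'F : GK F' ≤ GK F := IntermediateField.fixingSubgroup_antitone (le_sup_left.trans hFF')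
  have hF'F₁ : GK F' ≤ GK F₁ := IntermediateField.fixingSubgroup_antitone (le_sup_right.trans hFF')
  have hF₁K₁ : GK F₁ ≤ GK K₁ := IntermediateField.fixingSubgroup_antitone hK₁F₁
  have hK₁K : GK K₁ ≤ GK K := IntermediateField.fixingSubgroup_antitone hle
  have hidx : ((((GK K₁).subgroupOf (GK K)).index : ℕ) : ZMod p) ≠ 0 := by
    intro h0
    exact hp ((ZMod.natCast_eq_zero_iff _ _).1 h0)
  obtain ⟨f, hfN, hf⟩ := h57_cob_of_res_rel (A := ZMod p) (GK K) (GK K₁) (GK F') hK₁K
    (hF'F₁.trans hF₁K₁) hidx c y hc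
    (fun g hg h hh => by
      have := hy g hg h hh
      simpa [acob] using this)
    (fun g hg g' hg' s hs s' hs' => hcF g hg g' hg' s (hF'F hs) s' (hF'F hs'))
    (fun g hg s hs => hyF₁ g hg s (hF'F₁ hs))
  refine ⟨f, ⟨F', hF'fin, hKF.trans (le_sup_left.trans hFF'), hfN⟩, fun g hg h hh => ?_⟩
  have := hf g hg h hh
  simpa [acob] using this

end LocForm

end Fermat.Agent.PT.Loc
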