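import Mathlib
import Fermat.Agent.PT.Loc.Basic
import Fermat.Agent.PT.Loc.Iface
import Fermat.Agent.PT.Loc.H57ResInj
import Fermat.Agent.PT.Loc.H57Cyc

/-!
# W3-PT / PT-LOC, leaf LOC-B0-COPRIME (helper57)

`h57_b0Coprime : LFUnif → LFTeich → URCyc → URIdx → URNormGrp → KumBasic → MCKum →
  MCCarryNorm → MCMu → B0Gen → B0Coprime`.

For `K ≤ K₁` of index prime to `p` and standard generators `c₀ = κ_ϖ ∪ χ`, `c₁ = κ_{ϖ₁} ∪ χ₁`: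

* (A) `χ = f · χ₁` on `G_{K₁}` (`h57_ur_res`);
* (B) `κ_ϖ = e · κ_{ϖ₁} + κ_v` on `G_{K₁}`, `v = ϖ / ϖ₁^e`, `v^p` a unit of `K₁`
  (`h57_kum_mul_zpow`);
* (C) `κ_v ∪ χ₁ ∼ 0` on `G_{K₁}` (a unit is an unramified norm; `h57_unit_cup_ur`);
* (D) hence `c₀ ∼ (e f) · c₁` on `G_{K₁}`; `e f ≠ 0` in `𝔽_p` because `c₀` is not a coboundary
  and restriction is injective (`h57_acohom_zero_of_res`);
* (E) `c - (t / (e f)) c₀` restricts to a coboundary, hence is a coboundary.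
-/

set_option autoImplicit false

open scoped Classical

noncomputable section

namespace Fermat.Agent.PT.Loc

variable {q : ℕ} [Fact q.Prime] {p : ℕ} [Fact p.Prime]

/-! ## Exponents of a primitive root -/

lemma h57_zmod_eq_of_zpow_eq {ζ : Om q} (hζ : IsPrimitiveRoot ζ p) {a b : ℤ}
    (h : ζ ^ a = ζ ^ b) : (a : ZMod p) = (b : ZMod p) := by
  have hζ0 : ζ ≠ 0 := hζ.ne_zero (Fact.out : p.Prime).ne_zero
  have h1 : ζ ^ (b - a) = 1 := by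
    rw [zpow_sub₀ hζ0, h, div_self (zpow_ne_zero _ hζ0)]
  have h2 : (p : ℤ) ∣ b - a := (hζ.zpow_eq_one_iff_dvd _).1 h1
  exact (ZMod.intCast_eq_intCast_iff_dvd_sub a b p).2 h2

/-! ## Step (B): Kummer characters -/

lemma h57_kum_mul_zpow (hKB : KumBasic) (K₁ : LF q) [FiniteDimensional ℚ_[q] K₁] (ζ : Om q)
    (hζK : ζ ∈ K₁) (hζ : IsPrimitiveRoot ζ p) (ϖ ϖ₁ : Om q) (hϖ : ϖ ≠ 0) (hϖ₁ : ϖ₁ ≠ 0)
    (hϖp : ϖ ^ p ∈ K₁) (hϖ₁p : ϖ₁ ^ p ∈ K₁) (e : ℤ) :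
    ∀ g ∈ GK K₁, kum p ζ ϖ g = (e : ZMod p) * kum p ζ ϖ₁ g + kum p ζ (ϖ / ϖ₁ ^ e) g := by
  have hζ0 : ζ ≠ 0 := hζ.ne_zero (Fact.out : p.Prime).ne_zero
  have hv0 : ϖ / ϖ₁ ^ e ≠ 0 := div_ne_zero hϖ (zpow_ne_zero _ hϖ₁)
  have hvp : (ϖ / ϖ₁ ^ e) ^ p ∈ K₁ := by
    have : (ϖ / ϖ₁ ^ e) ^ p = ϖ ^ p / (ϖ₁ ^ p) ^ e := by
      rw [div_pow, ← zpow_natCast (ϖ₁ ^ e) p, ← zpow_mul, mul_comm, zpow_mul, zpow_natCast]
    rw [this]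
    exact K₁.div_mem hϖp (zpow_mem hϖ₁p e)
  obtain ⟨-, -, h1⟩ := hKB q p K₁ ζ ϖ hζK hζ hϖ hϖp
  obtain ⟨-, -, h2⟩ := hKB q p K₁ ζ ϖ₁ hζK hζ hϖ₁ hϖ₁p
  obtain ⟨-, -, h3⟩ := hKB q p K₁ ζ (ϖ / ϖ₁ ^ e) hζK hζ hv0 hvp
  have key : ∀ (a b c : ℕ), ζ ^ a * ϖ = (ζ ^ b * ϖ₁) ^ e * (ζ ^ c * (ϖ / ϖ₁ ^ e)) →
      ζ ^ (a : ℤ) = ζ ^ ((b : ℤ) * e + (c : ℤ)) := by
    intro a b c h
    have hne : ϖ₁ ^ e ≠ 0 := zpow_ne_zero _ hϖ₁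
    apply mul_right_cancel₀ hϖ
    rw [zpow_natCast, h, mul_zpow, zpow_add₀ hζ0, zpow_mul, zpow_natCast, zpow_natCast]
    field_simp
  intro g hg
  have e1 := h1 g hg
  have e2 := h2 g hg
  have e3 := h3 g hg
  have hdec : ϖ = ϖ₁ ^ e * (ϖ / ϖ₁ ^ e) := by
    field_simp
  have e4 : g ϖ = (g ϖ₁) ^ e * g (ϖ / ϖ₁ ^ e) := by
    conv_lhs => rw [hdec]
    rw [map_mul, map_zpow₀]
  rw [e1, e2, e3] at e4
  have e6 := h57_zmod_eq_of_zpow_eq hζ (key _ _ _ e4)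
  push_cast at e6
  rw [ZMod.natCast_zmod_val, ZMod.natCast_zmod_val, ZMod.natCast_zmod_val] at e6
  rw [e6]
  ring

/-! ## Step (C): `κ_unit ∪ χ_ur ∼ 0` -/

lemma h57_unit_cup_ur (hURC : URCyc) (hURN : URNormGrp) (hKB : KumBasic) (hMK : MCKum)
    (hMCN : MCCarryNorm) (hMU : MCMu)
    (K₁ : LF q) [FiniteDimensional ℚ_[q] K₁] (ζ : Om q) (hζK : ζ ∈ K₁)
    (hζ : IsPrimitiveRoot ζ p) (φ₁ : Gq q) (hφ₁ : IsFrob K₁ φ₁) (π₁ : Om q)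
    (hπ₁ : IsUnif K₁ π₁) (v : Om q) (hv : v ≠ 0) (hvp : v ^ p ∈ K₁) (hvn : ‖v ^ p‖ = 1) :
    ACohom K₁ (acup (kum p ζ v) (fun g => (cycIdx (Kur K₁ p) φ₁ p g : ZMod p))) 0 := by
  have hp : 0 < p := (Fact.out : p.Prime).pos
  have hζ0 : ζ ≠ 0 := hζ.ne_zero (Fact.out : p.Prime).ne_zero
  have hC : IsCyc K₁ (Kur K₁ p) p φ₁ := hURC q K₁ p φ₁ hp hφ₁
  obtain ⟨hk1, hk2, -⟩ := hKB q p K₁ ζ v hζK hζ hv hvp
  have hco : ACoc2 K₁ (acup (kum p ζ v) (fun g => (cycIdx (Kur K₁ p) φ₁ p g : ZMod p))) :=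
    h57_acup_acoc2 _ _ hk1 (h57_cycIdx_acoc1 hC)
  have hct : Cont2 K₁ (acup (kum p ζ v) (fun g => (cycIdx (Kur K₁ p) φ₁ p g : ZMod p))) :=
    h57_acup_cont2 _ _ hk2 (h57_cycIdx_cont1 hC)
  have hBp : (((Units.mk0 v hv) ^ p : (Om q)ˣ) : Om q) = v ^ p := by
    rw [Units.val_pow_eq_pow_val, Units.val_mk0]
  have hm1 := hMK q p K₁ (Kur K₁ p) φ₁ (Units.mk0 ζ hζ0) (Units.mk0 v hv) hζK hζ hC
    (by rw [Units.val_mk0]; exact hvp)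
  have hnorm : IsNorm (Kur K₁ p) φ₁ p (v ^ p) :=
    (hURN q K₁ p φ₁ π₁ hp hφ₁ hπ₁ (v ^ p) hvp (pow_ne_zero _ hv)).2
      ⟨0, by rw [hvn, mul_zero, zpow_zero]⟩
  have hm2 : MCohom K₁ (carry (Kur K₁ p) φ₁ p ((Units.mk0 v hv) ^ p)) 1 :=
    (hMCN q K₁ (Kur K₁ p) p φ₁ ((Units.mk0 v hv) ^ p) hC (by rw [hBp]; exact hvp)).2
      (by rw [hBp]; exact hnorm)
  have hm3 := h57_mcohom_one_of_inv _ _ hm1 hm2
  exact hMU q p K₁ (Units.mk0 ζ hζ0) hζK hζ _ hco hct hm3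

/-! ## Step (A): unramified characters -/

lemma h57_resCard_ge_two (hT : LFTeich) (K : LF q) [FiniteDimensional ℚ_[q] K] :
    2 ≤ resCard K ∧ ∀ n : ℕ, 0 < n → ¬ q ∣ resCard K ^ n - 1 := by
  obtain ⟨-, ⟨f, hf, hN⟩, -⟩ := hT q K
  have hq : q.Prime := Fact.out
  have h2 : 2 ≤ resCard K := by
    rw [hN]
    calc 2 ≤ q := hq.two_le
      _ = q ^ 1 := (pow_one q).symm
      _ ≤ q ^ f := Nat.pow_le_pow_right hq.pos hf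
  refine ⟨h2, fun n hn hdvd => ?_⟩
  have h3 : q ∣ resCard K ^ n := by
    rw [hN, ← pow_mul]
    exact dvd_pow_self q (Nat.mul_ne_zero hf.ne' hn.ne')
  have h4 : 1 ≤ resCard K ^ n := Nat.one_le_pow _ _ (by omega)
  have h5 : q ∣ 1 := by
    have := (Nat.dvd_sub h3 hdvd)
    rwa [Nat.sub_sub_self h4] at this
  exact hq.one_lt.ne' (Nat.dvd_one.1 h5)

lemma h57_Kur_le (hT : LFTeich) (hURI : URIdx) (K K₁ : LF q) [FiniteDimensional ℚ_[q] K]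
    [FiniteDimensional ℚ_[q] K₁] (hle : K ≤ K₁) (φ φ₁ : Gq q) (hφ : IsFrob K φ)
    (hφ₁ : IsFrob K₁ φ₁) : Kur K p ≤ Kur K₁ p := by
  have hp : 0 < p := (Fact.out : p.Prime).pos
  obtain ⟨hN2, hNq⟩ := h57_resCard_ge_two hT K
  obtain ⟨hN₁2, -⟩ := h57_resCard_ge_two hT K₁
  set N := resCard K with hN
  set N₁ := resCard K₁ with hN₁
  have hm1 : 1 ≤ N ^ p := Nat.one_le_pow _ _ (by omega)
  have hmpos : 0 < N ^ p - 1 := by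
    have : 2 ≤ N ^ p := by
      calc 2 ≤ N := hN2
        _ = N ^ 1 := (pow_one N).symm
        _ ≤ N ^ p := Nat.pow_le_pow_right (by omega) hp
    omega
  -- a primitive root of unity of order `N^p - 1`
  have : NeZero ((N ^ p - 1 : ℕ) : ℚ_[q]) := ⟨by exact_mod_cast hmpos.ne'⟩
  obtain ⟨w₀, hw₀⟩ := HasEnoughRootsOfUnity.exists_primitiveRoot (Om q) (N ^ p - 1)
  have hφ₁K : φ₁ ∈ GK K := IntermediateField.fixingSubgroup_antitone hle hφ₁.1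
  have e1 := hURI q K p φ hp hφ φ₁ hφ₁K w₀ hw₀.pow_eq_one
  have e2 := hφ₁.2 w₀ (N ^ p - 1) hmpos (hNq p hp) hw₀.pow_eq_one
  rw [e2] at e1
  -- `N₁ ≡ N^i₀ mod (N^p - 1)`
  have hmod : N₁ ≡ N ^ cycIdx (Kur K p) φ p φ₁ [MOD (N ^ p - 1)] := by
    have hfin : IsOfFinOrder w₀ := isOfFinOrder_iff_pow_eq_one.2 ⟨N ^ p - 1, hmpos, hw₀.pow_eq_one⟩
    have := hfin.pow_eq_pow_iff_modEq.1 e1
    rwa [← hw₀.eq_orderOf] at this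
  have hNp : N ^ p ≡ 1 [MOD (N ^ p - 1)] := by
    have h1 : N ^ p = (N ^ p - 1) + 1 := by omega
    show N ^ p % (N ^ p - 1) = 1 % (N ^ p - 1)
    conv_lhs => rw [h1]
    exact Nat.add_mod_left _ _
  have hN₁p : N₁ ^ p ≡ 1 [MOD (N ^ p - 1)] := by
    calc N₁ ^ p ≡ (N ^ cycIdx (Kur K p) φ p φ₁) ^ p [MOD (N ^ p - 1)] := hmod.pow p
      _ = (N ^ p) ^ cycIdx (Kur K p) φ p φ₁ := by rw [← pow_mul, ← pow_mul, mul_comm]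
      _ ≡ 1 ^ cycIdx (Kur K p) φ p φ₁ [MOD (N ^ p - 1)] := hNp.pow _
      _ = 1 := one_pow _
  have hdvd : N ^ p - 1 ∣ N₁ ^ p - 1 :=
    (Nat.modEq_iff_dvd' (Nat.one_le_pow _ _ (by omega))).1 hN₁p.symm
  -- the inclusion
  unfold Kur
  refine sup_le (hle.trans le_sup_left) (le_trans ?_ le_sup_right)
  apply IntermediateField.adjoin.mono
  intro w hw
  obtain ⟨k, hk⟩ := hdvd
  show w ^ (N₁ ^ p - 1) = 1
  rw [hk, pow_mul]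
  have hw' : w ^ (N ^ p - 1) = 1 := hw
  rw [hw', one_pow]

lemma h57_ur_res (hT : LFTeich) (hURC : URCyc) (hURI : URIdx) (K K₁ : LF q)
    [FiniteDimensional ℚ_[q] K] [FiniteDimensional ℚ_[q] K₁] (hle : K ≤ K₁) (φ φ₁ : Gq q)
    (hφ : IsFrob K φ) (hφ₁ : IsFrob K₁ φ₁) :
    ∃ f : ZMod p, ∀ g ∈ GK K₁, (cycIdx (Kur K p) φ p g : ZMod p)
      = f * (cycIdx (Kur K₁ p) φ₁ p g : ZMod p) := by
  have hp : 0 < p := (Fact.out : p.Prime).pos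
  have hC : IsCyc K (Kur K p) p φ := hURC q K p φ hp hφ
  have hC₁ : IsCyc K₁ (Kur K₁ p) p φ₁ := hURC q K₁ p φ₁ hp hφ₁
  have hKur : Kur K p ≤ Kur K₁ p := h57_Kur_le hT hURI K K₁ hle φ φ₁ hφ hφ₁
  have hGle : GK K₁ ≤ GK K := IntermediateField.fixingSubgroup_antitone hle
  have hχ : ACoc1 K (fun g => (cycIdx (Kur K p) φ p g : ZMod p)) := h57_cycIdx_acoc1 hC
  refine ⟨(cycIdx (Kur K p) φ p φ₁ : ZMod p), fun g hg => ?_⟩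
  set i₁ := cycIdx (Kur K₁ p) φ₁ p g with hi₁
  have hs : (φ₁ ^ i₁)⁻¹ * g ∈ GK (Kur K₁ p) := h57_cycIdx_spec hC₁ hg
  have hs' : (φ₁ ^ i₁)⁻¹ * g ∈ GK (Kur K p) := IntermediateField.fixingSubgroup_antitone hKur hs
  have hs0 : cycIdx (Kur K p) φ p ((φ₁ ^ i₁)⁻¹ * g) = 0 := h57_cycIdx_of_mem hC hs'
  have hφ₁K : φ₁ ∈ GK K := hGle hφ₁.1
  have hdec : g = φ₁ ^ i₁ * ((φ₁ ^ i₁)⁻¹ * g) := by group
  have h1 := hχ (φ₁ ^ i₁) ((GK K).pow_mem hφ₁K i₁) ((φ₁ ^ i₁)⁻¹ * g)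
    (h57_GK_le hC hs')
  beta_reduce at h1
  rw [← hdec, hs0, Nat.cast_zero, add_zero] at h1
  rw [h1]
  have h2 := h57_acoc1_pow _ hχ hφ₁K i₁
  beta_reduce at h2
  rw [h2, mul_comm]

/-! ## The leaf -/

/-- **LOC-B0-COPRIME**: descent of "`c` is a multiple of the standard generator" in a step of
index prime to `p`. -/
theorem h57_b0Coprime (hU : LFUnif) (hT : LFTeich) (hURC : URCyc) (hURI : URIdx)
    (hURN : URNormGrp) (hKB : KumBasic) (hMK : MCKum) (hMCN : MCCarryNorm) (hMU : MCMu)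
    (hGen : B0Gen) : B0Coprime := by
  intro q _ p _ K K₁ _ _ ζ hζK hζ hle hidx c₀ c₁ hc₀ hc₁ c hc hcont ⟨t, ht⟩
  have hp : 0 < p := (Fact.out : p.Prime).pos
  have hGle : GK K₁ ≤ GK K := IntermediateField.fixingSubgroup_antitone hle
  obtain ⟨hc₀coc, hc₀cont, hc₀ne⟩ := (hGen q p K ζ hζK hζ).2 c₀ hc₀
  obtain ⟨ϖ, φ, hπ, hφ, rfl⟩ := hc₀
  obtain ⟨ϖ₁, φ₁, hπ₁, hφ₁, rfl⟩ := hc₁
  have hζK₁ : ζ ∈ K₁ := hle hζK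
  -- the uniformizers
  have hϖ0 : ϖ ≠ 0 := fun h => hπ.2.1 (by rw [h, zero_pow hp.ne'])
  have hϖ₁0 : ϖ₁ ≠ 0 := fun h => hπ₁.2.1 (by rw [h, zero_pow hp.ne'])
  have hϖpK₁ : ϖ ^ p ∈ K₁ := hle hπ.1
  obtain ⟨e, he⟩ := (hU q K₁).2 (ϖ₁ ^ p) hπ₁ (ϖ ^ p) hϖpK₁ hπ.2.1
  -- the unit `v^p`
  have hv0 : ϖ / ϖ₁ ^ e ≠ 0 := div_ne_zero hϖ0 (zpow_ne_zero _ hϖ₁0)
  have hvpow : (ϖ / ϖ₁ ^ e) ^ p = ϖ ^ p / (ϖ₁ ^ p) ^ e := by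
    rw [div_pow, ← zpow_natCast (ϖ₁ ^ e) p, ← zpow_mul, mul_comm, zpow_mul, zpow_natCast]
  have hvp : (ϖ / ϖ₁ ^ e) ^ p ∈ K₁ := by
    rw [hvpow]
    exact K₁.div_mem hϖpK₁ (zpow_mem hπ₁.1 e)
  have hvn : ‖(ϖ / ϖ₁ ^ e) ^ p‖ = 1 := by
    rw [hvpow, norm_div, norm_zpow, he]
    exact div_self (zpow_ne_zero _ (norm_ne_zero_iff.2 hπ₁.2.1))
  -- steps (A), (B), (C)
  obtain ⟨f, hf⟩ := h57_ur_res (p := p) hT hURC hURI K K₁ hle φ φ₁ hφ hφ₁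
  have hB := h57_kum_mul_zpow hKB K₁ ζ hζK₁ hζ ϖ ϖ₁ hϖ0 hϖ₁0 hϖpK₁ hπ₁.1 e
  obtain ⟨yC, hyCc, hyC⟩ := h57_unit_cup_ur hURC hURN hKB hMK hMCN hMU K₁ ζ hζK₁ hζ φ₁ hφ₁
    (ϖ₁ ^ p) hπ₁ (ϖ / ϖ₁ ^ e) hv0 hvp hvn
  -- step (D): `c₀ = (e f) c₁ + acob (f yC)` on `G_{K₁}`
  set c₀ := acup (kum p ζ ϖ) (fun g => (cycIdx (Kur K p) φ p g : ZMod p)) with hc₀def
  set c₁ := acup (kum p ζ ϖ₁) (fun g => (cycIdx (Kur K₁ p) φ₁ p g : ZMod p)) with hc₁def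
  obtain ⟨m, hmdef⟩ : ∃ m : ZMod p, m = (e : ZMod p) * f := ⟨_, rfl⟩
  have hD : ∀ g ∈ GK K₁, ∀ h ∈ GK K₁,
      c₀ (g, h) = m * c₁ (g, h) + acob (fun g => f * yC g) (g, h) := by
    intro g hg h hh
    have h1 := hyC g hg h hh
    simp only [acup, Pi.zero_apply, zero_add, acob] at h1
    simp only [hc₀def, hc₁def, acup, acob]
    rw [hf h hh, hB g hg, hmdef]
    linear_combination f * h1
  obtain ⟨y, hyc, hy⟩ := ht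
  -- the case distinction
  by_cases hm : m = 0
  · exfalso
    apply hc₀ne
    apply h57_acohom_zero_of_res K K₁ hle hidx c₀ hc₀coc hc₀cont
    refine ⟨fun g => f * yC g, h57_cont1_smul f yC hyCc, fun g hg h hh => ?_⟩
    rw [hD g hg h hh, hm, zero_mul]
    rfl
  · refine ⟨t * m⁻¹, ?_⟩
    have hmm : t * m⁻¹ * m = t := inv_mul_cancel_right₀ hm t
    have hres : ACohom K₁ (fun z => c z - (t * m⁻¹) * c₀ z) 0 := by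
      refine ⟨fun g => y g + (-(t * m⁻¹)) * (f * yC g),
        h57_cont1_add _ _ hyc (h57_cont1_smul _ _ (h57_cont1_smul f yC hyCc)),
        fun g hg h hh => ?_⟩
      have h1 := hy g hg h hh
      have h2 := hD g hg h hh
      simp only [Pi.smul_apply, smul_eq_mul, acob] at h1 h2
      simp only [Pi.zero_apply, zero_add, acob]
      linear_combination h1 - (t * m⁻¹) * h2 - c₁ (g, h) * hmm
    obtain ⟨F, hFc, hF⟩ := h57_acohom_zero_of_res K K₁ hle hidx _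
      (h57_acoc2_sub_smul _ c c₀ hc hc₀coc) (h57_cont2_sub_smul _ c c₀ hcont hc₀cont) hres
    refine ⟨F, hFc, fun g hg h hh => ?_⟩
    have h3 := hF g hg h hh
    simp only [Pi.zero_apply, zero_add] at h3
    simp only [Pi.smul_apply, smul_eq_mul]
    rw [← h3]
    ring

end Fermat.Agent.PT.Loc
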