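import Mathlib
import Fermat.Agent.PT.Loc.Basic
import Fermat.Agent.PT.Loc.Iface

/-!
# W3-PT / PT-LOC, leaf LOC-B0 (helper76): `B0` from the tower, the two descents and the generators

`h76b_b0_of : B0Tower → B0Desc → B0Coprime → B0Gen → B0`.

A continuous `2`-cocycle `c` on `G_K` is constant on `G_{T m}` for a tower
`K ≤ T 0 ≤ … ≤ T m` (`B0Tower`), hence a coboundary there; descend through the cyclic steps of
degree `p` by `B0Desc` (generators exist at each level by `B0Gen`) and through `K ≤ T 0` by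
`B0Coprime`.
-/

set_option autoImplicit false

open scoped Classical

noncomputable section

namespace Fermat.Agent.PT.Loc

variable {q : ℕ} [Fact q.Prime] {p : ℕ}

/-- `G_{K'} ≤ G_K` for `K ≤ K'`. -/
theorem h76b_GK_mono {K K' : LF q} (h : K ≤ K') : GK K' ≤ GK K :=
  IntermediateField.fixingSubgroup_antitone h

/-- a `2`-cocycle on `G_K` is a `2`-cocycle on `G_{K'}`, `K ≤ K'`. -/
theorem h76b_acoc2_mono {K K' : LF q} (h : K ≤ K') {c : Gq q × Gq q → ZMod p}
    (hc : ACoc2 K c) : ACoc2 K' c :=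
  fun g hg h' hh j hj =>
    hc g (h76b_GK_mono h hg) h' (h76b_GK_mono h hh) j (h76b_GK_mono h hj)

/-- a continuous `2`-cochain on `G_K` is continuous on `G_{K'}`, `K ≤ K'` finite. -/
theorem h76b_cont2_mono {K K' : LF q} (hK' : FiniteDimensional ℚ_[q] K') (h : K ≤ K')
    {X : Type*} {c : Gq q × Gq q → X} (hc : Cont2 K c) : Cont2 K' c := by
  obtain ⟨F, hF, -, hinv⟩ := hc
  have := hF
  have := hK'
  refine ⟨F ⊔ K', IntermediateField.finiteDimensional_sup F K', le_sup_right, ?_⟩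
  intro g hg g' hg' s hs s' hs'
  exact hinv g (h76b_GK_mono h hg) g' (h76b_GK_mono h hg')
    s (h76b_GK_mono le_sup_left hs) s' (h76b_GK_mono le_sup_left hs')

/-- a cochain which is constant on `G_K` is a coboundary on `G_K`. -/
theorem h76b_acohom_zero_of_const {K : LF q} (hK : FiniteDimensional ℚ_[q] K)
    {c : Gq q × Gq q → ZMod p}
    (hconst : ∀ g ∈ GK K, ∀ h ∈ GK K, c (g, h) = c (1, 1)) (c' : Gq q × Gq q → ZMod p) :
    ACohom K c ((0 : ZMod p) • c') := by
  refine ⟨fun _ => c (1, 1), ⟨K, hK, le_rfl, fun _ _ _ _ => rfl⟩, ?_⟩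
  intro g hg h hh
  rw [hconst g hg h hh]
  simp [acob]

/-- **LOC-B0.**  `H²(G_K, 𝔽_p)` is spanned by any standard generator. -/
theorem h76b_b0_of (hT : B0Tower) (hD : B0Desc) (hC : B0Coprime) (hG : B0Gen) : B0 := by
  intro q _ p _ K _ ζ hζK hζ c₀ hc₀ c hcoc hcont
  obtain ⟨m, T, σ, hKT0, hfin, hidx, hcyc, hconst⟩ := hT q p K c hcont
  -- the tower is increasing
  have hmono : ∀ i, i ≤ m → K ≤ T i := by
    intro i
    induction i with
    | zero => intro _; exact hKT0
    | succ i ih =>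
      intro hi
      exact (ih (Nat.le_of_succ_le hi)).trans (hcyc i (Nat.lt_of_succ_le hi)).le
  -- descent through the cyclic steps
  have key : ∀ j, j ≤ m → ∀ c', IsGen p (T (m - j)) ζ c' →
      ∃ t : ZMod p, ACohom (T (m - j)) c (t • c') := by
    intro j
    induction j with
    | zero =>
      intro _ c' _
      exact ⟨0, h76b_acohom_zero_of_const (hfin m le_rfl) hconst c'⟩
    | succ j ih =>
      intro hj c' hc'
      have hj' : j ≤ m := Nat.le_of_succ_le hj
      have hlt : m - (j + 1) < m := by omega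
      have heq : m - (j + 1) + 1 = m - j := by omega
      have hcyc' := hcyc (m - (j + 1)) hlt
      rw [heq] at hcyc'
      have hf0 : FiniteDimensional ℚ_[q] (T (m - (j + 1))) := hfin _ (Nat.sub_le _ _)
      have hf1 : FiniteDimensional ℚ_[q] (T (m - j)) := hfin _ (Nat.sub_le _ _)
      have hK0 : K ≤ T (m - (j + 1)) := hmono _ (Nat.sub_le _ _)
      have hK1 : K ≤ T (m - j) := hmono _ (Nat.sub_le _ _)
      obtain ⟨c₁, hc₁⟩ := (hG q p (T (m - j)) ζ (hK1 hζK) hζ).1
      exact hD q p (T (m - (j + 1))) (T (m - j)) ζ (σ (m - (j + 1))) (hK0 hζK) hζ hcyc'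
        c' c₁ hc' hc₁ c (h76b_acoc2_mono hK0 hcoc) (h76b_cont2_mono hf0 hK0 hcont)
        (ih hj' c₁ hc₁)
  -- the step of index prime to `p`
  have hf0 : FiniteDimensional ℚ_[q] (T 0) := hfin 0 (Nat.zero_le m)
  obtain ⟨c₁, hc₁⟩ := (hG q p (T 0) ζ (hKT0 hζK) hζ).1
  have h0 : ∃ t : ZMod p, ACohom (T 0) c (t • c₁) := by
    have h := key m le_rfl
    rw [Nat.sub_self] at h
    exact h c₁ hc₁
  exact hC q p K (T 0) ζ hζK hζ hKT0 hidx c₀ c₁ hc₀ hc₁ c hcoc hcont h0

end Fermat.Agent.PT.Loc
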