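import Mathlib
import Fermat.Agent.PT.Loc.Iface

/-!
# W3-PT / PT-LOC, leaf LOC-UR-NORM (helper82): units are norms from unramified extensions

`h82n_urNorm : LFTeich → URCyc → URNorm`.

Proof.  `L = Kur K n`, `N = resCard K = q ^ f`, `M = N ^ n - 1`, `ζ` a primitive `M`-th root of
unity (it lies in `L` by definition of `Kur`), `φ` a Frobenius element.

* residue level: a Teichmüller representative `w ∈ μ'(K)` is the norm of a power of `ζ`
  (`h82n_teich_norm`);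
* trace: there is `b ∈ L`, `‖b‖ ≤ 1`, with `∑_{i<n} φ^i b = 1` (`h82n_exists_trace_one`); the
  proof uses the orthogonality relation `∑_k ζ^{-k} ∑_j (ζ^k)^{N^j} = M`, a unit;
* one approximation step: for `c ∈ K`, `‖c‖ < 1`, the norm of `1 + c b` is `1 + c` modulo `c²`
  (`h82n_step`);
* successive approximation in the complete group of principal units of `L`
  (`h82n_approx`, a variant of helper33's `h33n_approx`).
-/

set_option autoImplicit false

open scoped Classical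

noncomputable section

namespace Fermat.Agent.PT.Loc

variable {q : ℕ} [Fact q.Prime]

/-! ## Norm: Galois invariance and ultrametric estimates -/

theorem h82n_norm_map (σ : Gq q) (x : Om q) : ‖σ x‖ = ‖x‖ :=
  (spectralNorm_eq_of_equiv σ x).symm

theorem h82n_norm_eq_one_of_sub_one_lt {x : Om q} (h : ‖x - 1‖ < 1) : ‖x‖ = 1 := by
  have h1 : ‖x - 1‖ ≠ ‖(1 : Om q)‖ := by rw [norm_one]; exact h.ne
  have h2 := IsUltrametricDist.norm_add_eq_max_of_norm_ne_norm h1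
  rw [sub_add_cancel, norm_one, max_eq_right h.le] at h2
  exact h2

theorem h82n_norm_add_le {x y : Om q} {ε : ℝ} (hx : ‖x‖ ≤ ε) (hy : ‖y‖ ≤ ε) : ‖x + y‖ ≤ ε :=
  (IsUltrametricDist.norm_add_le_max x y).trans (max_le hx hy)

theorem h82n_norm_sub_le {x y : Om q} {ε : ℝ} (hx : ‖x‖ ≤ ε) (hy : ‖y‖ ≤ ε) : ‖x - y‖ ≤ ε := by
  rw [sub_eq_add_neg]
  exact h82n_norm_add_le hx (by rwa [norm_neg])

theorem h82n_norm_sum_le {ι : Type*} (s : Finset ι) (f : ι → Om q) {ε : ℝ} (hε : 0 ≤ ε)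
    (h : ∀ i ∈ s, ‖f i‖ ≤ ε) : ‖∑ i ∈ s, f i‖ ≤ ε := by
  induction s using Finset.induction_on with
  | empty => simpa using hε
  | insert a s ha ih =>
    rw [Finset.sum_insert ha]
    exact h82n_norm_add_le (h a (Finset.mem_insert_self a s))
      (ih fun i hi => h i (Finset.mem_insert_of_mem hi))

theorem h82n_norm_mul_sub_one_le {x y : Om q} {ε : ℝ} (hε : ε ≤ 1) (hx : ‖x - 1‖ ≤ ε)
    (hy : ‖y - 1‖ ≤ ε) : ‖x * y - 1‖ ≤ ε := by
  have hy1 : ‖y‖ ≤ 1 := by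
    have : ‖(y - 1) + 1‖ ≤ 1 := h82n_norm_add_le (hy.trans hε) (by rw [norm_one])
    rwa [sub_add_cancel] at this
  have h1 : x * y - 1 = (x - 1) * y + (y - 1) := by ring
  rw [h1]
  refine h82n_norm_add_le ?_ hy
  rw [norm_mul]
  calc ‖x - 1‖ * ‖y‖ ≤ ε * 1 :=
        mul_le_mul hx hy1 (norm_nonneg _) ((norm_nonneg _).trans hx)
    _ = ε := mul_one ε

theorem h82n_norm_prod_sub_one_le {ι : Type*} (s : Finset ι) (f : ι → Om q) {ε : ℝ}
    (hε0 : 0 ≤ ε) (hε : ε ≤ 1) (h : ∀ i ∈ s, ‖f i - 1‖ ≤ ε) : ‖∏ i ∈ s, f i - 1‖ ≤ ε := by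
  induction s using Finset.induction_on with
  | empty => simpa using hε0
  | insert a s ha ih =>
    rw [Finset.prod_insert ha]
    exact h82n_norm_mul_sub_one_le hε (h a (Finset.mem_insert_self a s))
      (ih fun i hi => h i (Finset.mem_insert_of_mem hi))

/-- `∏ (1 + c aᵢ) ≡ 1 + c ∑ aᵢ` modulo `c²` for integral `aᵢ`, `c`. -/
theorem h82n_prod_one_add {ι : Type*} (s : Finset ι) (a : ι → Om q) (c : Om q)
    (hc : ‖c‖ ≤ 1) (ha : ∀ i ∈ s, ‖a i‖ ≤ 1) :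
    ‖∏ i ∈ s, (1 + c * a i) - (1 + c * ∑ i ∈ s, a i)‖ ≤ ‖c‖ ^ 2 := by
  induction s using Finset.induction_on with
  | empty => simp
  | insert j s hj ih =>
    rw [Finset.prod_insert hj, Finset.sum_insert hj]
    have ih' := ih fun i hi => ha i (Finset.mem_insert_of_mem hi)
    have haj : ‖a j‖ ≤ 1 := ha j (Finset.mem_insert_self j s)
    have hsum : ‖∑ i ∈ s, a i‖ ≤ 1 :=
      h82n_norm_sum_le s a zero_le_one fun i hi => ha i (Finset.mem_insert_of_mem hi)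
    have hcaj : ‖c * a j‖ ≤ 1 := by
      rw [norm_mul]
      exact mul_le_one₀ hc (norm_nonneg _) haj
    have h1 : (1 + c * a j) * ∏ i ∈ s, (1 + c * a i) - (1 + c * (a j + ∑ i ∈ s, a i)) =
        (1 + c * a j) * (∏ i ∈ s, (1 + c * a i) - (1 + c * ∑ i ∈ s, a i)) +
          c ^ 2 * (a j * ∑ i ∈ s, a i) := by ring
    rw [h1]
    refine h82n_norm_add_le ?_ ?_
    · rw [norm_mul]
      have : ‖1 + c * a j‖ ≤ 1 := h82n_norm_add_le (by rw [norm_one]) hcaj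
      calc ‖1 + c * a j‖ * ‖∏ i ∈ s, (1 + c * a i) - (1 + c * ∑ i ∈ s, a i)‖
          ≤ 1 * ‖c‖ ^ 2 := mul_le_mul this ih' (norm_nonneg _) zero_le_one
        _ = ‖c‖ ^ 2 := one_mul _
    · rw [norm_mul, norm_pow, norm_mul]
      calc ‖c‖ ^ 2 * (‖a j‖ * ‖∑ i ∈ s, a i‖) ≤ ‖c‖ ^ 2 * 1 :=
            mul_le_mul_of_nonneg_left (mul_le_one₀ haj (norm_nonneg _) hsum) (by positivity)
        _ = ‖c‖ ^ 2 := mul_one _

/-! ## Galois theory of a cyclic step -/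

theorem h82n_mem_of_fixed (K : LF q) (x : Om q) (h : ∀ g ∈ GK K, g x = x) : x ∈ K := by
  have h1 : x ∈ IntermediateField.fixedField (GK K) := by
    rw [IntermediateField.mem_fixedField_iff]
    exact fun g hg => h g hg
  rwa [InfiniteGalois.fixedField_fixingSubgroup] at h1

theorem h82n_fixed_of_mem {K : LF q} {g : Gq q} (hg : g ∈ GK K) {x : Om q} (hx : x ∈ K) :
    g x = x :=
  (IntermediateField.mem_fixingSubgroup_iff K g).mp hg x hx

theorem h82n_cyc_pow_mem {K L : LF q} {n : ℕ} {φ : Gq q} (h : IsCyc K L n φ) : φ ^ n ∈ GK L := by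
  obtain ⟨i, hi, hmem⟩ := h.gen (φ ^ n) (Subgroup.pow_mem _ h.mem n)
  have h1 : (φ ^ i)⁻¹ * φ ^ n = φ ^ (n - i) := by
    rw [inv_mul_eq_iff_eq_mul, ← pow_add]
    congr 1
    omega
  rw [h1] at hmem
  rcases Nat.eq_zero_or_pos i with h0 | h0
  · subst h0
    simpa using hmem
  · exact absurd hmem (h.ord (n - i) (by omega) (by omega))

theorem h82n_cyc_map_mem {K L : LF q} {n : ℕ} {φ : Gq q} (h : IsCyc K L n φ) {g : Gq q}
    (hg : g ∈ GK K) {x : Om q} (hx : x ∈ L) : g x ∈ L := by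
  apply h82n_mem_of_fixed
  intro s hs
  have h1 : g⁻¹ * s * g⁻¹⁻¹ ∈ GK L := h.normal g⁻¹ (Subgroup.inv_mem _ hg) s hs
  have h2 := h82n_fixed_of_mem h1 hx
  rw [inv_inv] at h2
  have h3 : s (g x) = g ((g⁻¹ * s * g) x) := by
    simp [AlgEquiv.mul_apply]
  rw [h3, h2]

theorem h82n_cyc_mem_of_fixed {K L : LF q} {n : ℕ} {φ : Gq q} (h : IsCyc K L n φ) {x : Om q}
    (hx : x ∈ L) (hφ : φ x = x) : x ∈ K := by
  apply h82n_mem_of_fixed
  intro g hg
  obtain ⟨i, -, hmem⟩ := h.gen g hg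
  have h1 : g = φ ^ i * ((φ ^ i)⁻¹ * g) := by group
  have h2 : ∀ j : ℕ, (φ ^ j) x = x := by
    intro j
    induction j with
    | zero => simp
    | succ j ih => rw [pow_succ, AlgEquiv.mul_apply, hφ, ih]
  rw [h1, AlgEquiv.mul_apply, h82n_fixed_of_mem hmem hx, h2]

/-! ## The norm and the trace along `σ` -/

theorem h82n_normAlong_mul (σ : Gq q) (n : ℕ) (a b : Om q) :
    normAlong σ n (a * b) = normAlong σ n a * normAlong σ n b := by
  unfold normAlong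
  rw [← Finset.prod_mul_distrib]
  exact Finset.prod_congr rfl fun i _ => map_mul _ a b

theorem h82n_normAlong_one (σ : Gq q) (n : ℕ) : normAlong σ n 1 = 1 := by
  unfold normAlong
  exact Finset.prod_eq_one fun i _ => map_one _

theorem h82n_norm_normAlong (σ : Gq q) (n : ℕ) (β : Om q) : ‖normAlong σ n β‖ = ‖β‖ ^ n := by
  unfold normAlong
  rw [norm_prod, Finset.prod_congr rfl fun i _ => h82n_norm_map (σ ^ i) β, Finset.prod_const,
    Finset.card_range]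

theorem h82n_normAlong_mem_top {K L : LF q} {n : ℕ} {φ : Gq q} (h : IsCyc K L n φ) {β : Om q}
    (hβ : β ∈ L) : normAlong φ n β ∈ L :=
  prod_mem fun i _ => h82n_cyc_map_mem h (Subgroup.pow_mem _ h.mem i) hβ

theorem h82n_normAlong_mem {K L : LF q} {n : ℕ} {φ : Gq q} (h : IsCyc K L n φ) {β : Om q}
    (hβ : β ∈ L) : normAlong φ n β ∈ K := by
  rcases eq_or_ne β 0 with h0 | h0
  · subst h0
    have : normAlong φ n (0 : Om q) = 0 := by
      unfold normAlong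
      exact Finset.prod_eq_zero (Finset.mem_range.mpr h.pos) (map_zero _)
    rw [this]
    exact zero_mem K
  apply h82n_cyc_mem_of_fixed h (h82n_normAlong_mem_top h hβ)
  unfold normAlong
  rw [map_prod]
  have h1 : ∀ i, φ ((φ ^ i) β) = (φ ^ (i + 1)) β := by
    intro i
    rw [pow_succ', AlgEquiv.mul_apply]
  rw [Finset.prod_congr rfl fun i _ => h1 i]
  have h2 := Finset.prod_range_succ' (fun i => (φ ^ i) β) n
  have h3 := Finset.prod_range_succ (fun i => (φ ^ i) β) n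
  rw [h3] at h2
  have h4 : (φ ^ n) β = β := h82n_fixed_of_mem (h82n_cyc_pow_mem h) hβ
  simp only [h4, pow_zero, AlgEquiv.one_apply] at h2
  exact (mul_right_cancel₀ h0 h2).symm

theorem h82n_trace_fixed {K L : LF q} {n : ℕ} {φ : Gq q} (h : IsCyc K L n φ) {β : Om q}
    (hβ : β ∈ L) : φ (∑ i ∈ Finset.range n, (φ ^ i) β) = ∑ i ∈ Finset.range n, (φ ^ i) β := by
  rw [map_sum]
  have h1 : ∀ i, φ ((φ ^ i) β) = (φ ^ (i + 1)) β := by
    intro i
    rw [pow_succ', AlgEquiv.mul_apply]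
  rw [Finset.sum_congr rfl fun i _ => h1 i]
  have h2 := Finset.sum_range_succ' (fun i => (φ ^ i) β) n
  have h3 := Finset.sum_range_succ (fun i => (φ ^ i) β) n
  rw [h3] at h2
  have h4 : (φ ^ n) β = β := h82n_fixed_of_mem (h82n_cyc_pow_mem h) hβ
  simp only [h4, pow_zero, AlgEquiv.one_apply] at h2
  exact (add_right_cancel h2).symm

theorem h82n_trace_mem {K L : LF q} {n : ℕ} {φ : Gq q} (h : IsCyc K L n φ) {β : Om q}
    (hβ : β ∈ L) : ∑ i ∈ Finset.range n, (φ ^ i) β ∈ K :=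
  h82n_cyc_mem_of_fixed h
    (sum_mem fun i _ => h82n_cyc_map_mem h (Subgroup.pow_mem _ h.mem i) hβ)
    (h82n_trace_fixed h hβ)

/-! ## Roots of unity and Frobenius -/

theorem h82n_frob_pow {K : LF q} {φ : Gq q} (hφ : IsFrob K φ) {w : Om q} {m : ℕ} (hm : 0 < m)
    (hqm : ¬ q ∣ m) (hw : w ^ m = 1) (j : ℕ) : (φ ^ j) w = w ^ (resCard K ^ j) := by
  induction j with
  | zero => simp
  | succ j ih =>
    rw [pow_succ, AlgEquiv.mul_apply, hφ.2 w m hm hqm hw, map_pow, ih, ← pow_mul, pow_succ]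

theorem h82n_norm_root {w : Om q} {m : ℕ} (hm : 0 < m) (hw : w ^ m = 1) : ‖w‖ = 1 := by
  have h1 : ‖w‖ ^ m = 1 := by rw [← norm_pow, hw, norm_one]
  exact (pow_eq_one_iff_of_nonneg (norm_nonneg _) hm.ne').mp h1

theorem h82n_resCard_facts (hT : LFTeich) (K : LF q) [FiniteDimensional ℚ_[q] K] {n : ℕ}
    (hn : 0 < n) :
    2 ≤ resCard K ∧ 0 < resCard K ^ n - 1 ∧ ¬ q ∣ resCard K ^ n - 1 := by
  obtain ⟨-, ⟨f, hf, hN⟩, -, -, -⟩ := hT q K
  have hq : q.Prime := Fact.out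
  have h2 : 2 ≤ resCard K := by
    rw [hN]
    calc 2 ≤ q := hq.two_le
      _ = q ^ 1 := (pow_one q).symm
      _ ≤ q ^ f := Nat.pow_le_pow_right hq.pos hf
  have h3 : 2 ≤ resCard K ^ n :=
    calc 2 ≤ resCard K := h2
      _ = resCard K ^ 1 := (pow_one _).symm
      _ ≤ resCard K ^ n := Nat.pow_le_pow_right (by omega) hn
  refine ⟨h2, by omega, ?_⟩
  intro hdvd
  have h4 : q ∣ resCard K ^ n := by
    rw [hN, ← pow_mul]
    exact dvd_pow_self q (Nat.mul_ne_zero hf.ne' hn.ne')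
  have h5 : q ∣ resCard K ^ n - (resCard K ^ n - 1) := Nat.dvd_sub h4 hdvd
  have h6 : resCard K ^ n - (resCard K ^ n - 1) = 1 := by omega
  rw [h6] at h5
  exact hq.one_lt.ne' (Nat.dvd_one.mp h5)

theorem h82n_root_mem_Kur (K : LF q) (n : ℕ) {w : Om q} (hw : w ^ (resCard K ^ n - 1) = 1) :
    w ∈ Kur K n := by
  have h1 : w ∈ IntermediateField.adjoin ℚ_[q] {w : Om q | w ^ (resCard K ^ n - 1) = 1} :=
    IntermediateField.subset_adjoin _ _ hw
  exact (le_sup_right : _ ≤ Kur K n) h1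

theorem h82n_geom (N n : ℕ) (hN : 1 ≤ N) :
    (∑ j ∈ Finset.range n, N ^ j) * (N - 1) = N ^ n - 1 := by
  have h := geom_sum_mul_add (N - 1) n
  rw [Nat.sub_add_cancel hN] at h
  omega

/-- Residue level: every Teichmüller representative of `K` is the norm of a root of unity
of `Kur K n`. -/
theorem h82n_teich_norm (hT : LFTeich) (K : LF q) [FiniteDimensional ℚ_[q] K] {n : ℕ}
    (hn : 0 < n) {φ : Gq q} (hφ : IsFrob K φ) {w : Om q} (hw : w ∈ muPrime K) :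
    ∃ β ∈ Kur K n, ‖β‖ = 1 ∧ normAlong φ n β = w := by
  obtain ⟨hN2, hM, hqM⟩ := h82n_resCard_facts hT K hn
  obtain ⟨-, -, hpow, -, -⟩ := hT q K
  have hw1 : w ^ (resCard K - 1) = 1 := hpow w hw
  have : NeZero (resCard K ^ n - 1) := ⟨hM.ne'⟩
  have : NeZero (resCard K - 1) := ⟨by omega⟩
  obtain ⟨ζ, hζ⟩ := HasEnoughRootsOfUnity.exists_primitiveRoot (Om q) (resCard K ^ n - 1)
  have hgeom := h82n_geom (resCard K) n (by omega)
  have hζd : IsPrimitiveRoot (ζ ^ (∑ j ∈ Finset.range n, resCard K ^ j)) (resCard K - 1) :=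
    hζ.pow hM hgeom.symm
  obtain ⟨k, -, hk⟩ := hζd.eq_pow_of_pow_eq_one hw1
  have hβM : (ζ ^ k) ^ (resCard K ^ n - 1) = 1 := by
    rw [← pow_mul, mul_comm, pow_mul, hζ.pow_eq_one, one_pow]
  refine ⟨ζ ^ k, h82n_root_mem_Kur K n hβM, h82n_norm_root hM hβM, ?_⟩
  unfold normAlong
  rw [Finset.prod_congr rfl fun j _ => h82n_frob_pow hφ hM hqM hβM j, Finset.prod_pow_eq_pow_sum,
    ← pow_mul, mul_comm, pow_mul]
  exact hk

/-- Trace: there is an integral element of `Kur K n` of trace `1`. -/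
theorem h82n_exists_trace_one (hT : LFTeich) (K : LF q) [FiniteDimensional ℚ_[q] K] {n : ℕ}
    (hn : 0 < n) {φ : Gq q} (hφ : IsFrob K φ) (hcyc : IsCyc K (Kur K n) n φ) :
    ∃ b ∈ Kur K n, ‖b‖ ≤ 1 ∧ ∑ i ∈ Finset.range n, (φ ^ i) b = 1 := by
  obtain ⟨hN2, hM, hqM⟩ := h82n_resCard_facts hT K hn
  set N := resCard K with hNdef
  set M := N ^ n - 1 with hMdef
  have : NeZero M := ⟨hM.ne'⟩
  obtain ⟨ζ, hζ⟩ := HasEnoughRootsOfUnity.exists_primitiveRoot (Om q) M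
  have hζn : ‖ζ‖ = 1 := h82n_norm_root hM hζ.pow_eq_one
  have hζ0 : ζ ≠ 0 := by
    intro h
    rw [h, norm_zero] at hζn
    exact zero_ne_one hζn
  have hpowM : ∀ k : ℕ, (ζ ^ k) ^ M = 1 := by
    intro k
    rw [← pow_mul, mul_comm, pow_mul, hζ.pow_eq_one, one_pow]
  -- the orthogonality relation
  have hsum : ∑ k ∈ Finset.range M, (ζ⁻¹) ^ k * ∑ j ∈ Finset.range n, (φ ^ j) (ζ ^ k) =
      (M : Om q) := by
    have h1 : ∀ k ∈ Finset.range M, (ζ⁻¹) ^ k * ∑ j ∈ Finset.range n, (φ ^ j) (ζ ^ k) =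
        ∑ j ∈ Finset.range n, (ζ ^ (N ^ j - 1)) ^ k := by
      intro k _
      rw [Finset.mul_sum]
      refine Finset.sum_congr rfl fun j _ => ?_
      rw [h82n_frob_pow hφ hM hqM (hpowM k) j]
      have hNj : 1 ≤ N ^ j := Nat.one_le_pow _ _ (by omega)
      have h2 : (ζ ^ k) ^ (N ^ j) = (ζ ^ (N ^ j - 1)) ^ k * ζ ^ k := by
        rw [← pow_mul, ← pow_mul, ← pow_add]
        congr 1
        have : N ^ j = (N ^ j - 1) + 1 := by omega
        calc k * N ^ j = k * ((N ^ j - 1) + 1) := by rw [← this]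
          _ = (N ^ j - 1) * k + k := by ring
      rw [h2, inv_pow, mul_comm, mul_assoc, mul_inv_cancel₀ (pow_ne_zero k hζ0), mul_one]
    rw [Finset.sum_congr rfl h1, Finset.sum_comm]
    have h3 : ∀ j ∈ Finset.range n, ∑ k ∈ Finset.range M, (ζ ^ (N ^ j - 1)) ^ k =
        if j = 0 then (M : Om q) else 0 := by
      intro j hj
      split_ifs with h0
      · subst h0
        simp
      · have hjn : j < n := Finset.mem_range.mp hj
        have hlt : N ^ j - 1 < M := by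
          have := Nat.pow_lt_pow_right (show 1 < N by omega) hjn
          have hNj : 1 ≤ N ^ j := Nat.one_le_pow _ _ (by omega)
          omega
        have hpos : N ^ j - 1 ≠ 0 := by
          have : N ^ 1 ≤ N ^ j := Nat.pow_le_pow_right (by omega) (by omega)
          rw [pow_one] at this
          omega
        have hne : ζ ^ (N ^ j - 1) ≠ 1 := hζ.pow_ne_one_of_pos_of_lt hpos hlt
        have h4 := mul_geom_sum (ζ ^ (N ^ j - 1)) M
        rw [hpowM, sub_self] at h4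
        rcases mul_eq_zero.mp h4 with h5 | h5
        · exact absurd (sub_eq_zero.mp h5) hne
        · exact h5
    rw [Finset.sum_congr rfl h3, Finset.sum_ite_eq' (Finset.range n) 0 fun _ => (M : Om q),
      if_pos (Finset.mem_range.mpr hn)]
  have hMnorm : ‖(M : Om q)‖ = 1 := by
    have h1 : (M : Om q) = ((M : ℚ_[q]) : Om q) := (map_natCast (algebraMap ℚ_[q] (Om q)) M).symm
    rw [h1, PadicAlgCl.norm_extends, Padic.norm_natCast_eq_one_iff]
    exact (Nat.Prime.coprime_iff_not_dvd Fact.out).mpr hqM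
  have : Nonempty ℕ := ⟨0⟩
  obtain ⟨k, -, hk⟩ := IsUltrametricDist.exists_norm_finsetSum_le (Finset.range M)
    (fun k => (ζ⁻¹) ^ k * ∑ j ∈ Finset.range n, (φ ^ j) (ζ ^ k))
  rw [hsum, hMnorm, norm_mul, norm_pow, norm_inv, hζn, inv_one, one_pow, one_mul] at hk
  set w := ζ ^ k with hwdef
  set t := ∑ j ∈ Finset.range n, (φ ^ j) w with htdef
  have hwL : w ∈ Kur K n := h82n_root_mem_Kur K n (hpowM k)
  have htK : t ∈ K := h82n_trace_mem hcyc hwL
  have ht0 : t ≠ 0 := by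
    intro h
    rw [h, norm_zero] at hk
    linarith
  have htinvK : t⁻¹ ∈ K := inv_mem htK
  refine ⟨w * t⁻¹, mul_mem hwL (hcyc.le htinvK), ?_, ?_⟩
  · rw [norm_mul, norm_inv, h82n_norm_root hM (hpowM k), one_mul]
    exact inv_le_one_of_one_le₀ hk
  · have h1 : ∀ i ∈ Finset.range n, (φ ^ i) (w * t⁻¹) = (φ ^ i) w * t⁻¹ := by
      intro i _
      rw [map_mul, h82n_fixed_of_mem (Subgroup.pow_mem _ hcyc.mem i) htinvK]
    rw [Finset.sum_congr rfl h1, ← Finset.sum_mul]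
    exact mul_inv_cancel₀ ht0

/-! ## One approximation step -/

theorem h82n_step {K L : LF q} {n : ℕ} {φ : Gq q} (hcyc : IsCyc K L n φ) {b : Om q}
    (hb1 : ‖b‖ ≤ 1) (hb : ∑ i ∈ Finset.range n, (φ ^ i) b = 1) {c : Om q} (hcK : c ∈ K)
    (hc : ‖c‖ ≤ 1) : ‖normAlong φ n (1 + c * b) - (1 + c)‖ ≤ ‖c‖ ^ 2 := by
  have h1 : normAlong φ n (1 + c * b) = ∏ i ∈ Finset.range n, (1 + c * (φ ^ i) b) := by
    unfold normAlong
    refine Finset.prod_congr rfl fun i _ => ?_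
    rw [map_add, map_one, map_mul, h82n_fixed_of_mem (Subgroup.pow_mem _ hcyc.mem i) hcK]
  have h2 := h82n_prod_one_add (Finset.range n) (fun i => (φ ^ i) b) c hc
    (fun i _ => by rw [h82n_norm_map]; exact hb1)
  rw [hb, mul_one] at h2
  rw [h1]
  exact h2

/-! ## Successive approximation (variant of helper33's `h33n_approx`) -/

theorem h82n_approx {W : Type*} [CommGroup W] (Wn : ℕ → Subgroup W)
    (hsep : ∀ x, (∀ n, x ∈ Wn n) → x = 1)
    (hcomp : ∀ y : ℕ → W, (∀ n, y n ∈ Wn n) →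
      ∃ z, ∀ n, z / ∏ i ∈ Finset.range n, y i ∈ Wn n)
    (F : W →* W) (hF : ∀ n, ∀ x ∈ Wn n, F x ∈ Wn n)
    (P : Subgroup W) (hFP : ∀ n, ∀ x ∈ Wn n, F x ∈ P)
    (hstep : ∀ n, ∀ x ∈ Wn n, x ∈ P → ∃ y ∈ Wn n, x / F y ∈ Wn (n + 1))
    (x : W) (hx0 : x ∈ Wn 0) (hxP : x ∈ P) : ∃ y ∈ Wn 0, F y = x := by
  have hstep' : ∀ n, ∀ x : {x : W // x ∈ Wn n ∧ x ∈ P},
      ∃ y : W, y ∈ Wn n ∧ x.1 / F y ∈ Wn (n + 1) := by
    intro n x
    obtain ⟨y, hy, hxy⟩ := hstep n x.1 x.2.1 x.2.2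
    exact ⟨y, hy, hxy⟩
  choose ystep hystep1 hystep2 using hstep'
  let seq : (n : ℕ) → {x : W // x ∈ Wn n ∧ x ∈ P} := fun n =>
    Nat.rec (motive := fun n => {x : W // x ∈ Wn n ∧ x ∈ P}) ⟨x, hx0, hxP⟩
      (fun n xn => ⟨xn.1 / F (ystep n xn), hystep2 n xn,
        P.div_mem xn.2.2 (hFP n _ (hystep1 n xn))⟩) n
  have hseq_succ : ∀ n, (seq (n + 1)).1 = (seq n).1 / F (ystep n (seq n)) := fun n => rfl
  have hseq_zero : (seq 0).1 = x := rfl
  let y : ℕ → W := fun n => ystep n (seq n)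
  have hy : ∀ n, y n ∈ Wn n := fun n => hystep1 n (seq n)
  have hprod : ∀ n, x = (seq n).1 * F (∏ i ∈ Finset.range n, y i) := by
    intro n
    induction n with
    | zero => simp [hseq_zero]
    | succ n ih =>
      rw [Finset.prod_range_succ, map_mul, hseq_succ]
      show x = (seq n).1 / F (y n) * (F (∏ i ∈ Finset.range n, y i) * F (y n))
      rw [mul_comm (F (∏ i ∈ Finset.range n, y i)) (F (y n)), ← mul_assoc, div_mul_cancel]
      exact ih
  obtain ⟨z, hz⟩ := hcomp y hy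
  refine ⟨z, by simpa using hz 0, ?_⟩
  have key : ∀ n, x / F z ∈ Wn n := by
    intro n
    have h1 : x / F z = (seq n).1 * (F (z / ∏ i ∈ Finset.range n, y i))⁻¹ := by
      rw [map_div, inv_div, ← mul_div_assoc, ← hprod n]
    rw [h1]
    exact (Wn n).mul_mem (seq n).2.1 ((Wn n).inv_mem (hF n _ (hz n)))
  have := hsep _ key
  rw [div_eq_one] at this
  exact this.symm

/-! ## The groups of principal units -/

/-- The units of `L` congruent to `1` modulo `ε < 1`, as a subgroup of `(Om q)ˣ`. -/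
def h82n_U (L : LF q) (ε : ℝ) (hε0 : 0 ≤ ε) (hε : ε < 1) : Subgroup (Om q)ˣ where
  carrier := {β | (β : Om q) ∈ L ∧ ‖(β : Om q) - 1‖ ≤ ε}
  mul_mem' := by
    rintro a b ⟨ha, ha'⟩ ⟨hb, hb'⟩
    refine ⟨?_, ?_⟩
    · rw [Units.val_mul]
      exact mul_mem ha hb
    · rw [Units.val_mul]
      exact h82n_norm_mul_sub_one_le hε.le ha' hb'
  one_mem' := by
    refine ⟨?_, ?_⟩
    · rw [Units.val_one]
      exact one_mem L
    · rw [Units.val_one, sub_self, norm_zero]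
      exact hε0
  inv_mem' := by
    rintro a ⟨ha, ha'⟩
    have hn1 : ‖(a : Om q)‖ = 1 := h82n_norm_eq_one_of_sub_one_lt (lt_of_le_of_lt ha' hε)
    refine ⟨?_, ?_⟩
    · rw [Units.val_inv_eq_inv_val]
      exact inv_mem ha
    · rw [Units.val_inv_eq_inv_val]
      have h1 : (a : Om q)⁻¹ - 1 = -((a : Om q) - 1) * (a : Om q)⁻¹ := by
        field_simp
        ring
      rw [h1, norm_mul, norm_neg, norm_inv, hn1, inv_one, mul_one]
      exact ha'

theorem h82n_mem_U {L : LF q} {ε : ℝ} {hε0 : 0 ≤ ε} {hε : ε < 1} {β : (Om q)ˣ} :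
    β ∈ h82n_U L ε hε0 hε ↔ (β : Om q) ∈ L ∧ ‖(β : Om q) - 1‖ ≤ ε := Iff.rfl

/-- The units lying in `K`, as a subgroup of `(Om q)ˣ`. -/
def h82n_P (K : LF q) : Subgroup (Om q)ˣ where
  carrier := {β | (β : Om q) ∈ K}
  mul_mem' := by
    intro a b ha hb
    show ((a * b : (Om q)ˣ) : Om q) ∈ K
    rw [Units.val_mul]
    exact mul_mem ha hb
  one_mem' := by
    show ((1 : (Om q)ˣ) : Om q) ∈ K
    rw [Units.val_one]
    exact one_mem K
  inv_mem' := by
    intro a ha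
    show ((a⁻¹ : (Om q)ˣ) : Om q) ∈ K
    rw [Units.val_inv_eq_inv_val]
    exact inv_mem ha

theorem h82n_mem_P {K : LF q} {β : (Om q)ˣ} : β ∈ h82n_P K ↔ (β : Om q) ∈ K := Iff.rfl

/-- The norm along `σ` as an endomorphism of `(Om q)ˣ`. -/
def h82n_F (σ : Gq q) (n : ℕ) : (Om q)ˣ →* (Om q)ˣ :=
  ∏ i ∈ Finset.range n, Units.map (((σ ^ i : Gq q) : Om q →+* Om q) : Om q →* Om q)

theorem h82n_F_val (σ : Gq q) (n : ℕ) (β : (Om q)ˣ) :
    ((h82n_F σ n β : (Om q)ˣ) : Om q) = normAlong σ n (β : Om q) := by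
  unfold h82n_F normAlong
  rw [MonoidHom.finsetProd_apply, Units.coe_prod]
  rfl

/-- The filtration `‖β - 1‖ ≤ r ^ (i + 1)` of the principal units of `L`. -/
def h82n_W (L : LF q) (r : ℝ) (hr0 : 0 ≤ r) (hr : r < 1) (i : ℕ) : Subgroup (Om q)ˣ :=
  h82n_U L (r ^ (i + 1)) (pow_nonneg hr0 _) (pow_lt_one₀ hr0 hr (Nat.succ_ne_zero i))

theorem h82n_mem_W {L : LF q} {r : ℝ} {hr0 : 0 ≤ r} {hr : r < 1} {i : ℕ} {β : (Om q)ˣ} :
    β ∈ h82n_W L r hr0 hr i ↔ (β : Om q) ∈ L ∧ ‖(β : Om q) - 1‖ ≤ r ^ (i + 1) := Iff.rfl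

theorem h82n_isComplete (L : LF q) [FiniteDimensional ℚ_[q] L] :
    IsComplete (L : Set (Om q)) := by
  have : FiniteDimensional ℚ_[q] (L.toSubalgebra.toSubmodule) := ‹FiniteDimensional ℚ_[q] L›
  exact Submodule.complete_of_finiteDimensional L.toSubalgebra.toSubmodule

theorem h82n_pow_le_self {r : ℝ} (hr0 : 0 ≤ r) (hr : r < 1) (i : ℕ) : r ^ (i + 1) ≤ r := by
  calc r ^ (i + 1) ≤ r ^ 1 := pow_le_pow_of_le_one hr0 hr.le (by omega)
    _ = r := pow_one r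

/-- Completeness of the principal units: infinite products converge. -/
theorem h82n_hcomp (L : LF q) [FiniteDimensional ℚ_[q] L] (r : ℝ) (hr0 : 0 ≤ r) (hr : r < 1)
    (y : ℕ → (Om q)ˣ) (hy : ∀ i, y i ∈ h82n_W L r hr0 hr i) :
    ∃ z : (Om q)ˣ, ∀ m, z / ∏ i ∈ Finset.range m, y i ∈ h82n_W L r hr0 hr m := by
  set Pm : ℕ → Om q := fun m => ∏ i ∈ Finset.range m, (y i : Om q) with hPm
  have hPL : ∀ m, Pm m ∈ L := fun m => prod_mem fun i _ => (h82n_mem_W.mp (hy i)).1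
  have hP1 : ∀ m, ‖Pm m - 1‖ ≤ r := fun m =>
    h82n_norm_prod_sub_one_le _ _ hr0 hr.le fun i _ =>
      ((h82n_mem_W.mp (hy i)).2).trans (h82n_pow_le_self hr0 hr i)
  have hPn : ∀ m, ‖Pm m‖ = 1 := fun m =>
    h82n_norm_eq_one_of_sub_one_lt (lt_of_le_of_lt (hP1 m) hr)
  have hsucc : ∀ m, ‖Pm (m + 1) - Pm m‖ ≤ r ^ (m + 1) := by
    intro m
    have h1 : Pm (m + 1) - Pm m = Pm m * ((y m : Om q) - 1) := by
      simp only [hPm, Finset.prod_range_succ]
      ring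
    rw [h1, norm_mul, hPn, one_mul]
    exact (h82n_mem_W.mp (hy m)).2
  have hdist : ∀ m k, m ≤ k → ‖Pm k - Pm m‖ ≤ r ^ (m + 1) := by
    intro m k hmk
    induction k, hmk using Nat.le_induction with
    | base => rw [sub_self, norm_zero]; exact pow_nonneg hr0 _
    | succ k hk ih =>
      have h1 : Pm (k + 1) - Pm m = (Pm (k + 1) - Pm k) + (Pm k - Pm m) := by ring
      rw [h1]
      refine h82n_norm_add_le ((hsucc k).trans ?_) ih
      exact pow_le_pow_of_le_one hr0 hr.le (by omega)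
  have hcau : CauchySeq Pm := by
    refine cauchySeq_of_le_geometric r 1 hr fun m => ?_
    rw [dist_eq_norm, ← norm_neg, neg_sub, one_mul]
    exact (hsucc m).trans (pow_le_pow_of_le_one hr0 hr.le (by omega))
  obtain ⟨z, hzL, hz⟩ := cauchySeq_tendsto_of_isComplete (h82n_isComplete L) hPL hcau
  have hzdist : ∀ m, ‖z - Pm m‖ ≤ r ^ (m + 1) := by
    intro m
    have h1 : ∀ᶠ k in Filter.atTop, Pm k ∈ Metric.closedBall (Pm m) (r ^ (m + 1)) := by
      filter_upwards [Filter.eventually_ge_atTop m] with k hk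
      rw [Metric.mem_closedBall, dist_eq_norm]
      exact hdist m k hk
    have h2 := Metric.isClosed_closedBall.mem_of_tendsto hz h1
    rwa [Metric.mem_closedBall, dist_eq_norm] at h2
  have hz1 : ‖z - 1‖ ≤ r := by
    have := hzdist 0
    simpa [hPm] using this
  have hzn : ‖z‖ = 1 := h82n_norm_eq_one_of_sub_one_lt (lt_of_le_of_lt hz1 hr)
  have hz0 : z ≠ 0 := by
    intro h
    rw [h, norm_zero] at hzn
    exact zero_ne_one hzn
  refine ⟨Units.mk0 z hz0, fun m => ?_⟩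
  have hval : ((Units.mk0 z hz0 / ∏ i ∈ Finset.range m, y i : (Om q)ˣ) : Om q) = z / Pm m := by
    rw [Units.val_div_eq_div_val, Units.coe_prod, Units.val_mk0]
  have hPm0 : Pm m ≠ 0 := by
    intro h
    have := hPn m
    rw [h, norm_zero] at this
    exact zero_ne_one this
  rw [h82n_mem_W, hval]
  refine ⟨div_mem hzL (hPL m), ?_⟩
  have h1 : z / Pm m - 1 = (z - Pm m) / Pm m := by
    field_simp
  rw [h1, norm_div, hPn, div_one]
  exact hzdist m

/-! ## Principal units are norms -/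

theorem h82n_principal (hT : LFTeich) (K : LF q) [FiniteDimensional ℚ_[q] K] {n : ℕ}
    (hn : 0 < n) {φ : Gq q} (hφ : IsFrob K φ) (hcyc : IsCyc K (Kur K n) n φ) {x : Om q}
    (hxK : x ∈ K) (hx : ‖x - 1‖ < 1) :
    ∃ β ∈ Kur K n, ‖β‖ = 1 ∧ normAlong φ n β = x := by
  have : FiniteDimensional ℚ_[q] (Kur K n) := hcyc.fin
  obtain ⟨b, hbL, hb1, hb⟩ := h82n_exists_trace_one hT K hn hφ hcyc
  have hr0 : (0 : ℝ) ≤ ‖x - 1‖ := norm_nonneg _
  have hxn : ‖x‖ = 1 := h82n_norm_eq_one_of_sub_one_lt hx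
  have hx0 : x ≠ 0 := by
    intro h
    rw [h, norm_zero] at hxn
    exact zero_ne_one hxn
  -- the hypotheses of the approximation lemma
  have hsep : ∀ β : (Om q)ˣ, (∀ i, β ∈ h82n_W (Kur K n) ‖x - 1‖ hr0 hx i) → β = 1 := by
    intro β hβ
    have h1 : ‖(β : Om q) - 1‖ ≤ 0 := by
      have hlim : Filter.Tendsto (fun i : ℕ => ‖x - 1‖ ^ (i + 1)) Filter.atTop (nhds 0) :=
        (tendsto_pow_atTop_nhds_zero_of_lt_one hr0 hx).comp (Filter.tendsto_add_atTop_nat 1)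
      exact ge_of_tendsto' hlim fun i => (h82n_mem_W.mp (hβ i)).2
    have h2 : (β : Om q) - 1 = 0 := norm_le_zero_iff.mp h1
    exact Units.ext (sub_eq_zero.mp h2)
  have hF : ∀ i, ∀ β ∈ h82n_W (Kur K n) ‖x - 1‖ hr0 hx i,
      h82n_F φ n β ∈ h82n_W (Kur K n) ‖x - 1‖ hr0 hx i := by
    intro i β hβ
    obtain ⟨hβL, hβ1⟩ := h82n_mem_W.mp hβ
    rw [h82n_mem_W, h82n_F_val]
    refine ⟨h82n_normAlong_mem_top hcyc hβL, ?_⟩
    unfold normAlong
    refine h82n_norm_prod_sub_one_le _ _ (pow_nonneg hr0 _)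
      (pow_le_one₀ hr0 hx.le) fun j _ => ?_
    have h1 : (φ ^ j) (β : Om q) - 1 = (φ ^ j) ((β : Om q) - 1) := by
      rw [map_sub, map_one]
    rw [h1, h82n_norm_map]
    exact hβ1
  have hFP : ∀ i, ∀ β ∈ h82n_W (Kur K n) ‖x - 1‖ hr0 hx i, h82n_F φ n β ∈ h82n_P K := by
    intro i β hβ
    rw [h82n_mem_P, h82n_F_val]
    exact h82n_normAlong_mem hcyc (h82n_mem_W.mp hβ).1
  have hstep : ∀ i, ∀ β ∈ h82n_W (Kur K n) ‖x - 1‖ hr0 hx i, β ∈ h82n_P K →
      ∃ γ ∈ h82n_W (Kur K n) ‖x - 1‖ hr0 hx i,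
        β / h82n_F φ n γ ∈ h82n_W (Kur K n) ‖x - 1‖ hr0 hx (i + 1) := by
    intro i β hβ hβP
    obtain ⟨hβL, hβ1⟩ := h82n_mem_W.mp hβ
    have hβK : (β : Om q) ∈ K := h82n_mem_P.mp hβP
    set c : Om q := (β : Om q) - 1 with hc
    have hcK : c ∈ K := sub_mem hβK (one_mem K)
    have hri : ‖x - 1‖ ^ (i + 1) < 1 := pow_lt_one₀ hr0 hx (Nat.succ_ne_zero i)
    have hc1 : ‖c‖ ≤ 1 := (hβ1.trans hri.le)
    have hcb : ‖c * b‖ ≤ ‖x - 1‖ ^ (i + 1) := by
      rw [norm_mul]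
      calc ‖c‖ * ‖b‖ ≤ ‖c‖ * 1 := mul_le_mul_of_nonneg_left hb1 (norm_nonneg _)
        _ = ‖c‖ := mul_one _
        _ ≤ ‖x - 1‖ ^ (i + 1) := hβ1
    have hγ1 : ‖(1 + c * b) - 1‖ ≤ ‖x - 1‖ ^ (i + 1) := by
      rw [add_sub_cancel_left]
      exact hcb
    have hγn : ‖1 + c * b‖ = 1 := h82n_norm_eq_one_of_sub_one_lt (lt_of_le_of_lt hγ1 hri)
    have hγ0 : 1 + c * b ≠ 0 := by
      intro h
      rw [h, norm_zero] at hγn
      exact zero_ne_one hγn
    have hγL : 1 + c * b ∈ Kur K n := add_mem (one_mem _) (mul_mem (hcyc.le hcK) hbL)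
    refine ⟨Units.mk0 (1 + c * b) hγ0, h82n_mem_W.mpr ⟨hγL, hγ1⟩, ?_⟩
    have hNn : ‖normAlong φ n (1 + c * b)‖ = 1 := by
      rw [h82n_norm_normAlong, hγn, one_pow]
    have hN0 : normAlong φ n (1 + c * b) ≠ 0 := by
      intro h
      rw [h, norm_zero] at hNn
      exact zero_ne_one hNn
    have hval : ((β / h82n_F φ n (Units.mk0 (1 + c * b) hγ0) : (Om q)ˣ) : Om q) =
        (β : Om q) / normAlong φ n (1 + c * b) := by
      rw [Units.val_div_eq_div_val, h82n_F_val, Units.val_mk0]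
    rw [h82n_mem_W, hval]
    refine ⟨div_mem hβL (h82n_normAlong_mem_top hcyc hγL), ?_⟩
    have h1c : 1 + c = (β : Om q) := by rw [hc]; ring
    have h1 : ∀ N : Om q, N ≠ 0 → (β : Om q) / N - 1 = -(N - (1 + c)) / N := by
      intro N hN
      rw [h1c]
      field_simp
      ring
    rw [h1 _ hN0, norm_div, norm_neg, hNn, div_one]
    refine (h82n_step hcyc hb1 hb hcK hc1).trans ?_
    calc ‖c‖ ^ 2 ≤ (‖x - 1‖ ^ (i + 1)) ^ 2 := by
          exact pow_le_pow_left₀ (norm_nonneg _) hβ1 2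
      _ = ‖x - 1‖ ^ ((i + 1) * 2) := (pow_mul _ _ _).symm
      _ ≤ ‖x - 1‖ ^ (i + 1 + 1) := pow_le_pow_of_le_one hr0 hx.le (by omega)
  have hxW : Units.mk0 x hx0 ∈ h82n_W (Kur K n) ‖x - 1‖ hr0 hx 0 := by
    rw [h82n_mem_W, Units.val_mk0]
    refine ⟨hcyc.le hxK, ?_⟩
    rw [zero_add, pow_one]
  have hxP : Units.mk0 x hx0 ∈ h82n_P K := by
    rw [h82n_mem_P, Units.val_mk0]
    exact hxK
  obtain ⟨β, hβW, hβ⟩ := h82n_approx (h82n_W (Kur K n) ‖x - 1‖ hr0 hx) hsep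
    (h82n_hcomp (Kur K n) ‖x - 1‖ hr0 hx) (h82n_F φ n) hF (h82n_P K) hFP hstep
    (Units.mk0 x hx0) hxW hxP
  obtain ⟨hβL, hβ1⟩ := h82n_mem_W.mp hβW
  refine ⟨(β : Om q), hβL, ?_, ?_⟩
  · refine h82n_norm_eq_one_of_sub_one_lt (lt_of_le_of_lt hβ1 ?_)
    rw [zero_add, pow_one]
    exact hx
  · have := congrArg (fun u : (Om q)ˣ => (u : Om q)) hβ
    simpa only [h82n_F_val, Units.val_mk0] using this

/-! ## The leaf -/

/-- **LOC-UR-NORM**: every unit of `K` is the norm of a unit of `Kur K n`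
(from the Teichmüller representatives `LFTeich` and the cyclicity `URCyc`). -/
theorem h82n_urNorm (hT : LFTeich) (hC : URCyc) : URNorm := by
  intro q _ K _ n φ hn hφ u huK hu
  have hcyc : IsCyc K (Kur K n) n φ := hC q K n φ hn hφ
  obtain ⟨-, -, -, happrox, -⟩ := hT q K
  obtain ⟨w, hw, huw⟩ := happrox u huK hu
  obtain ⟨β₀, hβ₀L, hβ₀n, hβ₀⟩ := h82n_teich_norm hT K hn hφ hw
  obtain ⟨hwK, m, hm, -, hwm⟩ := hw
  have hwn : ‖w‖ = 1 := h82n_norm_root hm hwm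
  have hw0 : w ≠ 0 := by
    intro h
    rw [h, norm_zero] at hwn
    exact zero_ne_one hwn
  have hxK : u * w⁻¹ ∈ K := mul_mem huK (inv_mem hwK)
  have hx1 : ‖u * w⁻¹ - 1‖ < 1 := by
    have h1 : u * w⁻¹ - 1 = (u - w) * w⁻¹ := by
      field_simp
    rw [h1, norm_mul, norm_inv, hwn, inv_one, mul_one]
    exact huw
  obtain ⟨β₁, hβ₁L, hβ₁n, hβ₁⟩ := h82n_principal hT K hn hφ hcyc hxK hx1
  refine ⟨β₀ * β₁, mul_mem hβ₀L hβ₁L, ?_, ?_⟩
  · rw [norm_mul, hβ₀n, hβ₁n, one_mul]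
  · rw [h82n_normAlong_mul, hβ₀, hβ₁, mul_comm, mul_assoc, inv_mul_cancel₀ hw0, mul_one]

end Fermat.Agent.PT.Loc
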