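import Mathlib
import Fermat.Agent.PT.Loc.Basic
import Fermat.Agent.PT.Loc.Iface
import Fermat.Prelude.Def_GaloisRep_CompletionBridge

/-!
# W3-PT / PT-LOC, leaf LOC-UR-NORMGRP (helper8): the norm group of `Kur K n / K`

`b ∈ Kˣ` is a norm from the unramified extension `Kur K n` iff `n ∣ ord b`:

  `h8ng_urNormGrp : URNorm → URVal → LFUnif → URNormGrp`.

* `h8ng_norm_map` : `‖g x‖ = ‖x‖` for `g ∈ Gal(ℚ̄_q/ℚ_q)`.
* `h8ng_norm_normAlong` : `‖normAlong σ n β‖ = ‖β‖ ^ n`.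
* `h8ng_normAlong_mul`, `h8ng_normAlong_of_mem` : `normAlong` is multiplicative, and is the
  `n`-th power on `K` for `σ ∈ G_K`.
-/

set_option autoImplicit false

open scoped Classical

noncomputable section

namespace Fermat.Agent.PT.Loc

variable {q : ℕ} [Fact q.Prime]

/-- Galois invariance of the ambient norm. -/
theorem h8ng_norm_map (g : Gq q) (x : Om q) : ‖g x‖ = ‖x‖ := by
  have h := nnnorm_padicAlgCl_algEquiv q g x
  exact congrArg NNReal.toReal h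

theorem h8ng_norm_normAlong (σ : Gq q) (n : ℕ) (β : Om q) : ‖normAlong σ n β‖ = ‖β‖ ^ n := by
  unfold normAlong
  rw [norm_prod]
  simp only [h8ng_norm_map, Finset.prod_const, Finset.card_range]

theorem h8ng_normAlong_mul (σ : Gq q) (n : ℕ) (x y : Om q) :
    normAlong σ n (x * y) = normAlong σ n x * normAlong σ n y := by
  unfold normAlong
  simp only [map_mul, Finset.prod_mul_distrib]

theorem h8ng_pow_apply_of_mem {K : LF q} {σ : Gq q} (hσ : σ ∈ GK K) (i : ℕ) {x : Om q}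
    (hx : x ∈ K) : (σ ^ i) x = x := by
  have h : σ ^ i ∈ GK K := Subgroup.pow_mem _ hσ i
  exact (IntermediateField.mem_fixingSubgroup_iff K (σ ^ i)).1 h x hx

theorem h8ng_normAlong_of_mem {K : LF q} {σ : Gq q} (hσ : σ ∈ GK K) (n : ℕ) {x : Om q}
    (hx : x ∈ K) : normAlong σ n x = x ^ n := by
  unfold normAlong
  rw [Finset.prod_congr rfl (fun i _ => h8ng_pow_apply_of_mem hσ i hx)]
  simp

theorem h8ng_le_Kur (K : LF q) (n : ℕ) : K ≤ Kur K n := le_sup_left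

/-- **LOC-UR-NORMGRP.** -/
theorem h8ng_urNormGrp (hN : URNorm) (hV : URVal) (hU : LFUnif) : URNormGrp := by
  intro q _ K _ n φ π hn hφ hπ b hbK hb0
  have hπK : π ∈ K := hπ.1
  have hπ0 : π ≠ 0 := hπ.2.1
  have hnπ : ‖π‖ ≠ 0 := norm_ne_zero_iff.2 hπ0
  constructor
  · rintro ⟨β, hβ, hβ0, hβb⟩
    obtain ⟨-, hval, -⟩ := hV q K n hn
    obtain ⟨y, hyK, hy⟩ := hval β hβ
    have hy0 : y ≠ 0 := by
      rintro rfl
      rw [norm_zero] at hy
      exact hβ0 (norm_eq_zero.1 hy)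
    obtain ⟨m, hm⟩ := (hU q K).2 π hπ y hyK hy0
    refine ⟨m, ?_⟩
    rw [← hβb, h8ng_norm_normAlong, hy, hm, ← zpow_natCast, ← zpow_mul, mul_comm]
  · rintro ⟨m, hm⟩
    -- the unit part
    have hπm : π ^ m ∈ K := zpow_mem hπK m
    have hπm0 : π ^ m ≠ 0 := zpow_ne_zero m hπ0
    set u : Om q := b * ((π ^ m) ^ n)⁻¹ with hu
    have huK : u ∈ K := mul_mem hbK (inv_mem (pow_mem hπm n))
    have hun : ‖u‖ = 1 := by
      rw [hu, norm_mul, norm_inv, norm_pow, norm_zpow, hm, ← zpow_natCast (‖π‖ ^ m) n,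
        ← zpow_mul, mul_comm m (n : ℤ)]
      exact mul_inv_cancel₀ (zpow_ne_zero _ hnπ)
    obtain ⟨β₀, hβ₀, hβ₀n, hβ₀u⟩ := hN q K n φ hn hφ u huK hun
    have hβ₀0 : β₀ ≠ 0 := by
      rintro rfl
      rw [norm_zero] at hβ₀n
      exact zero_ne_one hβ₀n
    refine ⟨β₀ * π ^ m, mul_mem hβ₀ (h8ng_le_Kur K n hπm), mul_ne_zero hβ₀0 hπm0, ?_⟩
    rw [h8ng_normAlong_mul, hβ₀u, h8ng_normAlong_of_mem hφ.1 n hπm, hu, mul_assoc,
      inv_mul_cancel₀ (pow_ne_zero n hπm0), mul_one]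

end Fermat.Agent.PT.Loc
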