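import Mathlib

/-!
# W3-PT / PT-LOC, block NI (helper33): frozen interface for the norm index theorem `NIMain`

Abstract setting (no `PadicAlgCl` here): a field `L : Type` with a valuation `v : L → ℝ≥0`,
an automorphism `σ` of exact order `ℓ` preserving `v`, a uniformizer `ϖ` (discrete value group),
completeness (in series form) and a finite system of representatives of the residue field.
This is the structure `H33LF L`.  With `T = 1 + σ + ⋯ + σ^(ℓ-1)` (`h33n_T`) and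
`N x = ∏_{i<ℓ} σ^i x` (`h33n_N`):

* `H33NormalBasis` : normal basis `σ^i β` with trace-dual family `δ_i` (pure algebra, from
  Mathlib's `IsGalois.normalBasis` and the trace form).
* `H33Hilbert90`   : `N x = 1 → x = σ y / y` (pure algebra).
* `H33FinIdx`      : a subgroup of `Lˣ` containing a ball `{u | v (u - 1) ≤ c}` has finite
  index in the unit group `h33n_U v = {u | v u = 1}`.
* `H33CohTriv`     : there is a `σ`-stable subgroup `W ≤ U`, containing a ball around `1`, with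
  `Ĥ⁰(⟨σ⟩, W) = Ĥ¹(⟨σ⟩, W) = 0`  (helper33: `H33NormalBasis → H33CohTriv`).
* `H33NormIndex`   : for `ℓ` prime, `(Lˣ)^σ / N(Lˣ)` is cyclic of order `ℓ`, in the shape of
  `NIMain` (Herbrand quotient assembly: `H33CohTriv → H33FinIdx → H33Hilbert90 → H33NormIndex`).
* adapter: `H33NormIndex → NIMain` (`L := ↥K₁`).

Definitions and statements only; FROZEN once landed.
-/

set_option autoImplicit false

open Finset

open scoped NNReal

namespace Fermat.Agent.PT.Loc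

/-- the trace along `σ`: `x ↦ ∑_{i<ℓ} σ^i x`. -/
def h33n_T {L : Type*} [Field L] (σ : L ≃+* L) (ℓ : ℕ) (x : L) : L := ∑ i ∈ range ℓ, (σ ^ i) x

/-- the norm along `σ`: `x ↦ ∏_{i<ℓ} σ^i x`. -/
def h33n_N {L : Type*} [Field L] (σ : L ≃+* L) (ℓ : ℕ) (x : L) : L := ∏ i ∈ range ℓ, (σ ^ i) x

/-- A "local field with a cyclic automorphism": the abstract data of the norm index theorem. -/
structure H33LF (L : Type) [Field L] where
  /-- the valuation (multiplicative, values in `ℝ≥0`) -/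
  v : Valuation L ℝ≥0
  /-- the automorphism -/
  σ : L ≃+* L
  /-- its order -/
  ℓ : ℕ
  hℓ : 0 < ℓ
  hσℓ : σ ^ ℓ = 1
  hord : ∀ i, 0 < i → i < ℓ → σ ^ i ≠ 1
  hvσ : ∀ x, v (σ x) = v x
  /-- a uniformizer -/
  ϖ : L
  hϖ0 : ϖ ≠ 0
  hϖ1 : v ϖ < 1
  hdisc : ∀ x : L, x ≠ 0 → ∃ n : ℤ, v x = v ϖ ^ n
  hcomp : ∀ π : L, v π < 1 → ∀ s : ℕ → L, (∀ n, v (s n) ≤ v π ^ n) →
    ∃ z : L, ∀ n, v (z - ∑ i ∈ range n, s i) ≤ v π ^ n
  hres : ∃ R : Finset L, ∀ x : L, v x ≤ 1 → ∃ r ∈ R, v (x - r) < 1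

/-- the unit group `{u | v u = 1}` of a valuation. -/
def h33n_U {L : Type} [Field L] (v : Valuation L ℝ≥0) : Subgroup Lˣ where
  carrier := {u | v (u : L) = 1}
  one_mem' := by simp
  mul_mem' := by
    intro a b ha hb
    change v (a : L) = 1 at ha
    change v (b : L) = 1 at hb
    change v ((a * b : Lˣ) : L) = 1
    rw [Units.val_mul, map_mul, ha, hb, one_mul]
  inv_mem' := by
    intro a ha
    change v (a : L) = 1 at ha
    change v ((a⁻¹ : Lˣ) : L) = 1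
    rw [Units.val_inv_eq_inv_val, map_inv₀, ha, inv_one]

theorem h33n_mem_U {L : Type} [Field L] (v : Valuation L ℝ≥0) (u : Lˣ) :
    u ∈ h33n_U v ↔ v (u : L) = 1 := Iff.rfl

/-- NI-NB: normal basis with its trace-dual family. -/
def H33NormalBasis : Prop :=
  ∀ (L : Type) [Field L] (σ : L ≃+* L) (ℓ : ℕ), 0 < ℓ → σ ^ ℓ = 1 →
    (∀ i, 0 < i → i < ℓ → σ ^ i ≠ 1) →
    ∃ (β : L) (δ : ℕ → L),
      (∀ i, i < ℓ → ∀ j, j < ℓ → h33n_T σ ℓ (δ i * (σ ^ j) β) = if i = j then 1 else 0) ∧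
      (∀ x : L, x = ∑ i ∈ range ℓ, h33n_T σ ℓ (δ i * x) * (σ ^ i) β)

/-- NI-H90: Hilbert 90 for the cyclic group generated by `σ`. -/
def H33Hilbert90 : Prop :=
  ∀ (L : Type) [Field L] (σ : L ≃+* L) (ℓ : ℕ), 0 < ℓ → σ ^ ℓ = 1 →
    (∀ i, 0 < i → i < ℓ → σ ^ i ≠ 1) →
    ∀ x : L, h33n_N σ ℓ x = 1 → ∃ y : L, y ≠ 0 ∧ σ y / y = x

/-- NI-FIN: subgroups of `Lˣ` containing a ball around `1` have finite index in the units. -/
def H33FinIdx : Prop :=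
  ∀ (L : Type) [Field L] (D : H33LF L) (c : ℝ≥0), c ≠ 0 →
    ∀ W : Subgroup Lˣ, (∀ u : Lˣ, D.v ((u : L) - 1) ≤ c → u ∈ W) →
      W.relIndex (h33n_U D.v) ≠ 0

/-- NI-COH: a cohomologically trivial `σ`-stable open subgroup of the units. -/
def H33CohTriv : Prop :=
  ∀ (L : Type) [Field L] (D : H33LF L),
    ∃ W : Subgroup Lˣ, W ≤ h33n_U D.v ∧
      (∃ c : ℝ≥0, c ≠ 0 ∧ ∀ u : Lˣ, D.v ((u : L) - 1) ≤ c → u ∈ W) ∧
      (∀ u ∈ W, ∀ u' : Lˣ, (u' : L) = D.σ (u : L) → u' ∈ W) ∧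
      (∀ x ∈ W, D.σ (x : L) = (x : L) → ∃ y ∈ W, h33n_N D.σ D.ℓ (y : L) = (x : L)) ∧
      (∀ x ∈ W, h33n_N D.σ D.ℓ (x : L) = 1 → ∃ y ∈ W, D.σ (y : L) / (y : L) = (x : L))

/-- NI-IDX: the norm index theorem in abstract form (shape of `NIMain`). -/
def H33NormIndex : Prop :=
  ∀ (L : Type) [Field L] (D : H33LF L), D.ℓ.Prime →
    (∃ b : L, D.σ b = b ∧ b ≠ 0 ∧ ¬ ∃ β : L, β ≠ 0 ∧ h33n_N D.σ D.ℓ β = b) ∧
    (∀ b : L, D.σ b = b → b ≠ 0 → (¬ ∃ β : L, β ≠ 0 ∧ h33n_N D.σ D.ℓ β = b) →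
      ∀ b' : L, D.σ b' = b' → b' ≠ 0 →
        ∃ k, k < D.ℓ ∧ ∃ β : L, β ≠ 0 ∧ h33n_N D.σ D.ℓ β = b' * b ^ k)

end Fermat.Agent.PT.Loc
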