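import Mathlib
import Fermat.Agent.PT.Loc.H33NIIface

/-!
# W3-PT / PT-LOC, block NI, leaf LOC-NI-H90 (helper24): Hilbert 90 for a cyclic automorphism

`h24h9_hilbert90 : H33Hilbert90` — for a field automorphism `σ` of exact order `ℓ` and `x` with
`∏_{i<ℓ} σ^i x = 1` there is `y ≠ 0` with `σ y / y = x`.  Direct proof by Dedekind independence
of the characters `σ^i`, `i < ℓ` (Lagrange resolvent).
-/

set_option autoImplicit false

open Finset

namespace Fermat.Agent.PT.Loc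

/-- the partial norms `a_i = ∏_{j<i} σ^j x`. -/
def h24h9_a {L : Type} [Field L] (σ : L ≃+* L) (x : L) (i : ℕ) : L := h33n_N σ i x

theorem h24h9_a_zero {L : Type} [Field L] (σ : L ≃+* L) (x : L) : h24h9_a σ x 0 = 1 := by
  simp [h24h9_a, h33n_N]

theorem h24h9_a_succ {L : Type} [Field L] (σ : L ≃+* L) (x : L) (i : ℕ) :
    h24h9_a σ x (i + 1) = x * σ (h24h9_a σ x i) := by
  unfold h24h9_a h33n_N
  rw [Finset.prod_range_succ', map_prod, mul_comm]
  have h0 : (σ ^ 0) x = x := by rw [pow_zero]; rfl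
  rw [h0]
  congr 1
  refine Finset.prod_congr rfl fun j _ => ?_
  rw [pow_succ']
  rfl

/-- the resolvent identity: `x * σ (∑_{i<ℓ} a_i σ^i c) = ∑_{i<ℓ} a_i σ^i c` if `N x = 1`,
`σ^ℓ = 1`. -/
theorem h24h9_resolvent {L : Type} [Field L] (σ : L ≃+* L) (ℓ : ℕ) (hσ : σ ^ ℓ = 1) (x : L)
    (hx : h33n_N σ ℓ x = 1) (c : L) :
    x * σ (∑ i ∈ range ℓ, h24h9_a σ x i * (σ ^ i) c)
      = ∑ i ∈ range ℓ, h24h9_a σ x i * (σ ^ i) c := by
  have h1 : x * σ (∑ i ∈ range ℓ, h24h9_a σ x i * (σ ^ i) c)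
      = ∑ i ∈ range ℓ, h24h9_a σ x (i + 1) * (σ ^ (i + 1)) c := by
    rw [map_sum, Finset.mul_sum]
    refine Finset.sum_congr rfl fun i _ => ?_
    rw [map_mul, h24h9_a_succ, pow_succ']
    simp only [RingAut.mul_apply]
    ring
  rw [h1]
  have h2 := Finset.sum_range_succ' (fun i => h24h9_a σ x i * (σ ^ i) c) ℓ
  have h3 := Finset.sum_range_succ (fun i => h24h9_a σ x i * (σ ^ i) c) ℓ
  have hl : h24h9_a σ x ℓ * (σ ^ ℓ) c = c := by
    rw [hσ]
    show h33n_N σ ℓ x * c = c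
    rw [hx, one_mul]
  have h0 : h24h9_a σ x 0 * (σ ^ 0) c = c := by
    rw [h24h9_a_zero, pow_zero, one_mul]
    rfl
  rw [hl] at h3
  rw [h0] at h2
  have : (∑ i ∈ range ℓ, h24h9_a σ x (i + 1) * (σ ^ (i + 1)) c) + c
      = (∑ i ∈ range ℓ, h24h9_a σ x i * (σ ^ i) c) + c := by
    rw [← h2, ← h3]
  exact add_right_cancel this

/-- Dedekind: some resolvent is nonzero. -/
theorem h24h9_exists_ne {L : Type} [Field L] (σ : L ≃+* L) (ℓ : ℕ) (hℓ : 0 < ℓ)
    (hord : ∀ i, 0 < i → i < ℓ → σ ^ i ≠ 1) (a : ℕ → L) (ha : a 0 = 1) :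
    ∃ c : L, ∑ i ∈ range ℓ, a i * (σ ^ i) c ≠ 0 := by
  by_contra hcon
  have hcon : ∀ c : L, ∑ i ∈ range ℓ, a i * (σ ^ i) c = 0 := by
    intro c
    by_contra h
    exact hcon ⟨c, h⟩
  -- the characters `σ^i`, `i : Fin ℓ`, are pairwise distinct
  let χ : Fin ℓ → (L →* L) := fun i => ((σ ^ (i : ℕ) : L ≃+* L) : L →+* L).toMonoidHom
  have hχ : Function.Injective χ := by
    intro i j hij
    by_contra hne
    wlog hlt : (i : ℕ) < (j : ℕ) generalizing i j
    · have hji : (j : ℕ) < (i : ℕ) := by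
        rcases Nat.lt_trichotomy (i : ℕ) (j : ℕ) with h | h | h
        · exact absurd h hlt
        · exact absurd (Fin.ext h) hne
        · exact h
      exact this hij.symm (fun h => hne h.symm) hji
    have hpow : σ ^ ((j : ℕ) - (i : ℕ)) = 1 := by
      ext z
      have hz : (σ ^ (j : ℕ)) z = (σ ^ (i : ℕ)) z := by
        have := DFunLike.congr_fun hij z
        exact this.symm
      have hsplit : σ ^ (j : ℕ) = σ ^ (i : ℕ) * σ ^ ((j : ℕ) - (i : ℕ)) := by
        rw [← pow_add]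
        congr 1
        omega
      rw [hsplit, RingAut.mul_apply] at hz
      have := (σ ^ (i : ℕ)).injective hz
      simpa using this
    exact hord _ (by omega) (by have := j.isLt; omega) hpow
  have hli : LinearIndependent L (fun i : Fin ℓ => (χ i : L → L)) :=
    (linearIndependent_monoidHom L L).comp χ hχ
  have hzero : ∑ i : Fin ℓ, a (i : ℕ) • (χ i : L → L) = 0 := by
    funext c
    rw [Finset.sum_apply]
    have := hcon c
    rw [← Fin.sum_univ_eq_sum_range (fun i => a i * (σ ^ i) c) ℓ] at this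
    simpa [χ] using this
  have hall := (Fintype.linearIndependent_iff.mp hli) (fun i => a (i : ℕ)) hzero ⟨0, hℓ⟩
  simp only at hall
  rw [ha] at hall
  exact one_ne_zero hall

/-- LOC-NI-H90: Hilbert 90 for the cyclic group generated by `σ`. -/
theorem h24h9_hilbert90 : H33Hilbert90 := by
  intro L _ σ ℓ hℓ hσ hord x hx
  -- `x ≠ 0`
  have hx0 : x ≠ 0 := by
    rintro rfl
    obtain ⟨k, rfl⟩ : ∃ k, ℓ = k + 1 := ⟨ℓ - 1, by omega⟩
    have : h33n_N σ (k + 1) (0 : L) = 0 := by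
      unfold h33n_N
      rw [Finset.prod_range_succ']
      simp
    rw [this] at hx
    exact zero_ne_one hx
  -- work with `x' = x⁻¹`
  have hx' : h33n_N σ ℓ x⁻¹ = 1 := by
    have : h33n_N σ ℓ x⁻¹ = (h33n_N σ ℓ x)⁻¹ := by
      unfold h33n_N
      rw [← Finset.prod_inv_distrib]
      refine Finset.prod_congr rfl fun i _ => ?_
      rw [map_inv₀]
    rw [this, hx, inv_one]
  obtain ⟨c, hc⟩ := h24h9_exists_ne σ ℓ hℓ hord (h24h9_a σ x⁻¹) (h24h9_a_zero σ x⁻¹)
  refine ⟨_, hc, ?_⟩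
  have hres := h24h9_resolvent σ ℓ hσ x⁻¹ hx' c
  set y := ∑ i ∈ range ℓ, h24h9_a σ x⁻¹ i * (σ ^ i) c with hy
  rw [div_eq_iff hc]
  have : σ y = x * (x⁻¹ * σ y) := by
    rw [← mul_assoc, mul_inv_cancel₀ hx0, one_mul]
  rw [this, hres]

end Fermat.Agent.PT.Loc
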