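import Fermat.Agent.PT.Loc.NormLattice

/-!
# W3-PT / PT-LOC, block NI (helper33): `H33NormalBasis → H33CohTriv`

From a normal basis with trace-dual family and the `σ`-fixed element `π = N(ϖ)` we build a scaled
normal basis lattice (`h33n_NData`) and take `W = 1 + M`; its Tate cohomology vanishes by
`h33n_NData.h0_vanish`, `h33n_NData.h1_vanish`.
-/

set_option autoImplicit false
set_option linter.unusedSectionVars false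
set_option linter.unusedVariables false

open Finset

open scoped NNReal

namespace Fermat.Agent.PT.Loc

theorem h33n_exists_pow_mul_le {a : ℝ≥0} (ha1 : a < 1) (C : ℝ≥0) : ∃ k : ℕ, a ^ k * C ≤ 1 := by
  by_cases hC : C = 0
  · exact ⟨0, by rw [hC, mul_zero]; exact zero_le_one⟩
  · obtain ⟨k, hk⟩ := exists_pow_lt_of_lt_one (pos_iff_ne_zero.2 (inv_ne_zero hC)) ha1
    refine ⟨k, ?_⟩
    calc a ^ k * C ≤ C⁻¹ * C := mul_le_mul' hk.le le_rfl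
      _ = 1 := inv_mul_cancel₀ hC

/-- the scaled lattice data. -/
theorem h33n_exists_NData {L : Type} [Field L] (D₀ : H33LF L) (hNB : H33NormalBasis) :
    ∃ D : h33n_NData L, D.v = D₀.v ∧ D.σ = D₀.σ ∧ D.ℓ = D₀.ℓ := by
  obtain ⟨β, δ, hD1, hD2⟩ := hNB L D₀.σ D₀.ℓ D₀.hℓ D₀.hσℓ D₀.hord
  have hπσ : D₀.σ (h33n_N D₀.σ D₀.ℓ D₀.ϖ) = h33n_N D₀.σ D₀.ℓ D₀.ϖ :=
    h33n_N_fixed D₀.σ D₀.hσℓ _
  have hπ0 : h33n_N D₀.σ D₀.ℓ D₀.ϖ ≠ 0 := h33n_N_ne_zero D₀.σ D₀.ℓ D₀.hϖ0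
  have hπ1 : D₀.v (h33n_N D₀.σ D₀.ℓ D₀.ϖ) < 1 := by
    rw [h33n_v_N D₀.v D₀.σ D₀.hvσ]
    exact pow_lt_one' D₀.hϖ1 D₀.hℓ.ne'
  generalize h33n_N D₀.σ D₀.ℓ D₀.ϖ = π at hπσ hπ0 hπ1
  obtain ⟨k₁, hk₁⟩ := h33n_exists_pow_mul_le hπ1
    (D₀.v β + ∑ m ∈ range D₀.ℓ, ∑ i ∈ range D₀.ℓ, ∑ j ∈ range D₀.ℓ,
      D₀.v (h33n_T D₀.σ D₀.ℓ (δ m * ((D₀.σ ^ i) β * (D₀.σ ^ j) β))))
  have hβC : D₀.v π ^ k₁ * D₀.v β ≤ 1 :=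
    le_trans (mul_le_mul' le_rfl (le_add_of_nonneg_right zero_le)) hk₁
  have htermC : ∀ m, m < D₀.ℓ → ∀ i, i < D₀.ℓ → ∀ j, j < D₀.ℓ →
      D₀.v π ^ k₁ * D₀.v (h33n_T D₀.σ D₀.ℓ (δ m * ((D₀.σ ^ i) β * (D₀.σ ^ j) β))) ≤ 1 := by
    intro m hm i hi j hj
    refine le_trans (mul_le_mul' le_rfl ?_) hk₁
    refine le_trans ?_ (le_add_of_nonneg_left zero_le)
    have h1 : D₀.v (h33n_T D₀.σ D₀.ℓ (δ m * ((D₀.σ ^ i) β * (D₀.σ ^ j) β)))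
        ≤ ∑ j ∈ range D₀.ℓ, D₀.v (h33n_T D₀.σ D₀.ℓ (δ m * ((D₀.σ ^ i) β * (D₀.σ ^ j) β))) :=
      single_le_sum (f := fun j => D₀.v (h33n_T D₀.σ D₀.ℓ (δ m * ((D₀.σ ^ i) β * (D₀.σ ^ j) β))))
        (fun _ _ => zero_le) (mem_range.2 hj)
    have h2 : (∑ j ∈ range D₀.ℓ,
          D₀.v (h33n_T D₀.σ D₀.ℓ (δ m * ((D₀.σ ^ i) β * (D₀.σ ^ j) β))))
        ≤ ∑ i ∈ range D₀.ℓ, ∑ j ∈ range D₀.ℓ,
          D₀.v (h33n_T D₀.σ D₀.ℓ (δ m * ((D₀.σ ^ i) β * (D₀.σ ^ j) β))) :=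
      single_le_sum (f := fun i => ∑ j ∈ range D₀.ℓ,
          D₀.v (h33n_T D₀.σ D₀.ℓ (δ m * ((D₀.σ ^ i) β * (D₀.σ ^ j) β))))
        (fun _ _ => zero_le) (mem_range.2 hi)
    have h3 : (∑ i ∈ range D₀.ℓ, ∑ j ∈ range D₀.ℓ,
          D₀.v (h33n_T D₀.σ D₀.ℓ (δ m * ((D₀.σ ^ i) β * (D₀.σ ^ j) β))))
        ≤ ∑ m ∈ range D₀.ℓ, ∑ i ∈ range D₀.ℓ, ∑ j ∈ range D₀.ℓ,
          D₀.v (h33n_T D₀.σ D₀.ℓ (δ m * ((D₀.σ ^ i) β * (D₀.σ ^ j) β))) :=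
      single_le_sum (f := fun m => ∑ i ∈ range D₀.ℓ, ∑ j ∈ range D₀.ℓ,
          D₀.v (h33n_T D₀.σ D₀.ℓ (δ m * ((D₀.σ ^ i) β * (D₀.σ ^ j) β))))
        (fun _ _ => zero_le) (mem_range.2 hm)
    exact le_trans h1 (le_trans h2 h3)
  -- the scaling factor
  have hPσ : D₀.σ (π ^ (k₁ + 1)) = π ^ (k₁ + 1) := by rw [map_pow, hπσ]
  have hP0 : π ^ (k₁ + 1) ≠ 0 := pow_ne_zero _ hπ0
  have hPinvσ : D₀.σ ((π ^ (k₁ + 1))⁻¹) = (π ^ (k₁ + 1))⁻¹ := by rw [map_inv₀, hPσ]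
  have hvP : D₀.v (π ^ (k₁ + 1)) = D₀.v π * D₀.v π ^ k₁ := by rw [map_pow, pow_succ']
  have hσP : ∀ (i : ℕ) (x : L), (D₀.σ ^ i) (π ^ (k₁ + 1) * x) = π ^ (k₁ + 1) * (D₀.σ ^ i) x := by
    intro i x
    rw [map_mul, h33n_pow_fixed D₀.σ hPσ i]
  obtain ⟨K₀, hK₀⟩ := h33n_exists_pow_mul_le hπ1
    (∑ m ∈ range D₀.ℓ, D₀.v ((π ^ (k₁ + 1))⁻¹ * δ m))
  refine ⟨{
    v := D₀.v
    σ := D₀.σ
    ℓ := D₀.ℓ
    hσℓ := D₀.hσℓ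
    hvσ := D₀.hvσ
    π := π
    hπσ := hπσ
    hπ0 := hπ0
    hπ1 := hπ1
    β := π ^ (k₁ + 1) * β
    δ := fun i => (π ^ (k₁ + 1))⁻¹ * δ i
    hD1 := ?_
    hD2 := ?_
    hS1 := ?_
    hS2 := ?_
    K₀ := K₀
    hK₀ := ?_
    hcomp := D₀.hcomp π hπ1 }, rfl, rfl, rfl⟩
  · intro i hi j hj
    rw [← hD1 i hi j hj, hσP]
    congr 1
    field_simp
  · intro x
    conv_lhs => rw [hD2 x]
    refine sum_congr rfl fun i _ => ?_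
    rw [hσP, mul_assoc, h33n_T_fix_mul D₀.σ D₀.ℓ hPinvσ]
    field_simp
  · rw [map_mul, hvP]
    calc D₀.v π * D₀.v π ^ k₁ * D₀.v β = D₀.v π * (D₀.v π ^ k₁ * D₀.v β) := mul_assoc _ _ _
      _ ≤ D₀.v π * 1 := mul_le_mul' le_rfl hβC
      _ = D₀.v π := mul_one _
  · intro m hm i hi j hj
    have h1 : (π ^ (k₁ + 1))⁻¹ * δ m
          * ((D₀.σ ^ i) (π ^ (k₁ + 1) * β) * (D₀.σ ^ j) (π ^ (k₁ + 1) * β))
        = π ^ (k₁ + 1) * (δ m * ((D₀.σ ^ i) β * (D₀.σ ^ j) β)) := by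
      rw [hσP, hσP]
      field_simp
    rw [h1, h33n_T_fix_mul D₀.σ D₀.ℓ hPσ, map_mul, hvP]
    calc D₀.v π * D₀.v π ^ k₁ * D₀.v (h33n_T D₀.σ D₀.ℓ (δ m * ((D₀.σ ^ i) β * (D₀.σ ^ j) β)))
        = D₀.v π * (D₀.v π ^ k₁
          * D₀.v (h33n_T D₀.σ D₀.ℓ (δ m * ((D₀.σ ^ i) β * (D₀.σ ^ j) β)))) := mul_assoc _ _ _
      _ ≤ D₀.v π * 1 := mul_le_mul' le_rfl (htermC m hm i hi j hj)
      _ = D₀.v π := mul_one _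
  · intro m hm
    refine le_trans (mul_le_mul' le_rfl ?_) hK₀
    exact single_le_sum (f := fun m => D₀.v ((π ^ (k₁ + 1))⁻¹ * δ m))
      (fun _ _ => zero_le) (mem_range.2 hm)

/-- **LOC-NI-COH**: a cohomologically trivial `σ`-stable open subgroup of the units exists. -/
theorem h33n_cohTriv_of (hNB : H33NormalBasis) : H33CohTriv := by
  intro L _ D₀
  obtain ⟨D, hv, hσ, hℓ⟩ := h33n_exists_NData D₀ hNB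
  rw [← hv, ← hσ, ← hℓ]
  refine ⟨D.W 0, ?_, ⟨D.v D.π ^ D.K₀, ?_, ?_⟩, ?_, ?_, ?_⟩
  · intro u hu
    exact D.v_W hu
  · exact pow_ne_zero _ ((Valuation.ne_zero_iff _).2 D.hπ0)
  · intro u hu
    refine D.I_big ?_
    rwa [zero_add]
  · intro u hu u' h
    exact D.W_sigma hu h
  · intro x hx hfix
    exact D.h0_vanish hx hfix
  · intro x hx hN
    exact D.h1_vanish hx hN

end Fermat.Agent.PT.Loc
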