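import Fermat.Agent.PT.Loc.H33NIIface

/-!
# W3-PT / PT-LOC, block NI (helper33, hedge for LOC-NI-NB): `H33NormalBasis`

The normal basis theorem (`IsGalois.normalBasis`) for `L` over the fixed field of the finite cyclic
group generated by `σ`, together with the dual basis for the trace form.
-/

set_option autoImplicit false

open Finset

namespace Fermat.Agent.PT.Loc

theorem h33nb_sum_gal {Gal : Type*} [Group Gal] [Fintype Gal] {M : Type*} [AddCommMonoid M]
    (τ : Gal) (ℓ : ℕ) (hsurj : ∀ e : Gal, ∃ i, i < ℓ ∧ τ ^ i = e)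
    (hinj : ∀ i, i < ℓ → ∀ j, j < ℓ → τ ^ i = τ ^ j → i = j) (f : Gal → M) :
    ∑ e, f e = ∑ i ∈ range ℓ, f (τ ^ i) := by
  classical
  symm
  apply Finset.sum_bij (fun i _ => τ ^ i)
  · intro i _; exact mem_univ _
  · intro i hi j hj h; exact hinj i (mem_range.1 hi) j (mem_range.1 hj) h
  · intro e _
    obtain ⟨i, hi, rfl⟩ := hsurj e
    exact ⟨i, mem_range.2 hi, rfl⟩
  · intro i _; rfl

theorem h33nb_normalBasis : H33NormalBasis := by
  classical
  intro L _ σ ℓ hℓ hσℓ hord
  have hord' : orderOf σ = ℓ := (orderOf_eq_iff hℓ).2 ⟨hσℓ, fun m hm hm0 => hord m hm0 hm⟩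
  have hfin : IsOfFinOrder σ := isOfFinOrder_iff_pow_eq_one.2 ⟨ℓ, hℓ, hσℓ⟩
  have : Finite (Subgroup.zpowers σ) := Finite.of_equiv _ (finEquivZPowers hfin)
  -- the generator as an algebra automorphism over the fixed field
  obtain ⟨τ, hτ⟩ : ∃ τ : L ≃ₐ[FixedPoints.subfield (Subgroup.zpowers σ) L] L, ∀ x, τ x = σ x :=
    ⟨FixedPoints.toAlgAutMulEquiv (Subgroup.zpowers σ) L ⟨σ, Subgroup.mem_zpowers σ⟩,
      fun x => rfl⟩
  have hτpow : ∀ (i : ℕ) (x : L), (τ ^ i) x = (σ ^ i) x := by
    intro i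
    induction i with
    | zero => intro x; rfl
    | succ i ih =>
      intro x
      rw [pow_succ, pow_succ, AlgEquiv.mul_apply, ih, hτ]
      rfl
  have hsurj : ∀ e : L ≃ₐ[FixedPoints.subfield (Subgroup.zpowers σ) L] L,
      ∃ i, i < ℓ ∧ τ ^ i = e := by
    intro e
    obtain ⟨g, rfl⟩ := (FixedPoints.toAlgAutMulEquiv (Subgroup.zpowers σ) L).surjective e
    have hg := g.2
    rw [hfin.mem_zpowers_iff_mem_range_orderOf, hord', mem_image] at hg
    obtain ⟨i, hi, hgi⟩ := hg
    refine ⟨i, mem_range.1 hi, ?_⟩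
    ext x
    rw [hτpow]
    change (σ ^ i) x = (g : L ≃+* L) x
    rw [← hgi]
  have hinj : ∀ i, i < ℓ → ∀ j, j < ℓ → τ ^ i = τ ^ j → i = j := by
    intro i hi j hj h
    have h1 : σ ^ i = σ ^ j := by
      ext x
      rw [← hτpow, ← hτpow, h]
    have h2 := (pow_inj_mod (x := σ) (n := i) (m := j)).1 h1
    rw [hord', Nat.mod_eq_of_lt hi, Nat.mod_eq_of_lt hj] at h2
    exact h2
  have hT : ∀ y : L, h33n_T σ ℓ y
      = algebraMap (FixedPoints.subfield (Subgroup.zpowers σ) L) L
        (Algebra.trace (FixedPoints.subfield (Subgroup.zpowers σ) L) L y) := by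
    intro y
    rw [trace_eq_sum_automorphisms, h33nb_sum_gal τ ℓ hsurj hinj]
    unfold h33n_T
    exact sum_congr rfl fun i _ => (hτpow i y).symm
  have hB := traceForm_nondegenerate (FixedPoints.subfield (Subgroup.zpowers σ) L) L
  refine ⟨IsGalois.normalBasis (FixedPoints.subfield (Subgroup.zpowers σ) L) L 1,
    fun i => (Algebra.traceForm (FixedPoints.subfield (Subgroup.zpowers σ) L) L).dualBasis hB
      (IsGalois.normalBasis (FixedPoints.subfield (Subgroup.zpowers σ) L) L) (τ ^ i), ?_, ?_⟩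
  · intro i hi j hj
    rw [hT, ← hτpow, ← IsGalois.normalBasis_apply, ← Algebra.traceForm_apply,
      LinearMap.BilinForm.apply_dualBasis_left]
    by_cases hij : i = j
    · rw [if_pos (by rw [hij]), if_pos hij, map_one]
    · rw [if_neg (fun h => hij (hinj i hi j hj h.symm)), if_neg hij, map_zero]
  · intro x
    have h1 := (IsGalois.normalBasis (FixedPoints.subfield (Subgroup.zpowers σ) L) L).sum_repr x
    have h2 : ∀ e, (IsGalois.normalBasis (FixedPoints.subfield (Subgroup.zpowers σ) L) L).repr x e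
        = Algebra.trace (FixedPoints.subfield (Subgroup.zpowers σ) L) L
          ((Algebra.traceForm (FixedPoints.subfield (Subgroup.zpowers σ) L) L).dualBasis hB
            (IsGalois.normalBasis (FixedPoints.subfield (Subgroup.zpowers σ) L) L) e * x) := by
      intro e
      have h3 := LinearMap.BilinForm.dualBasis_repr_apply hB
        ((Algebra.traceForm (FixedPoints.subfield (Subgroup.zpowers σ) L) L).dualBasis hB
          (IsGalois.normalBasis (FixedPoints.subfield (Subgroup.zpowers σ) L) L)) x e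
      rw [LinearMap.BilinForm.dualBasis_dualBasis hB (Algebra.traceForm_isSymm _)] at h3
      rw [h3, Algebra.traceForm_apply, mul_comm]
    conv_lhs => rw [← h1]
    rw [h33nb_sum_gal τ ℓ hsurj hinj]
    refine sum_congr rfl fun i _ => ?_
    rw [h2, Algebra.smul_def, hT, ← hτpow, ← IsGalois.normalBasis_apply]

end Fermat.Agent.PT.Loc
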