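import Mathlib
import Fermat.Agent.PT.Loc.Iface
import Fermat.Agent.PT.Loc.H33NIIface
import Fermat.Agent.PT.Loc.H74NIDich
import Fermat.Agent.PT.Loc.H34LFPow

/-!
# W3-PT / PT-LOC, row LOC-NI-ADAPT (helper54): `H33NormIndex → NIMain`

The abstract norm index theorem `H33NormIndex` (a field `L` with a valuation, an automorphism of
prime order, a uniformizer, completeness, finite residue system) is applied to `L := ↥K₁` for a
cyclic extension `K₁/K` of local fields inside `PadicAlgCl q`, with `σ₁ :=` the restriction of `σ`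
and `v := NormedField.valuation`.

* `h54n_res`        : the restriction of `g ∈ G_K` to `K₁` as a ring automorphism of `↥K₁`.
* `h54n_lf`         : the `H33LF ↥K₁` structure.
* `h54n_niMain_of`  : `H33NormIndex → NIMain`.
-/

set_option autoImplicit false

open Finset

open scoped NNReal

namespace Fermat.Agent.PT.Loc

variable {q : ℕ} [Fact q.Prime]

section Restrict

variable {K K₁ : LF q} {n : ℕ} {σ : Gq q}

/-- `K₁` is stable under `G_K`. -/
theorem h54n_map_mem (h : IsCyc K K₁ n σ) {g : Gq q} (hg : g ∈ GK K) {x : Om q}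
    (hx : x ∈ K₁) : g x ∈ K₁ := by
  apply h74n_mem_of_fixed
  intro s hs
  have h1 : g⁻¹ * s * g ∈ GK K₁ := h74n_conj h hg hs
  have h2 := (IntermediateField.mem_fixingSubgroup_iff K₁ _).1 h1 x hx
  have h3 : s (g x) = g ((g⁻¹ * s * g) x) := by
    simp [AlgEquiv.mul_apply]
  rw [h3, h2]

/-- The restriction of `g ∈ G_K` to `K₁`. -/
noncomputable def h54n_res (h : IsCyc K K₁ n σ) (g : Gq q) (hg : g ∈ GK K) : ↥K₁ ≃+* ↥K₁ where
  toFun x := ⟨g x, h54n_map_mem h hg x.2⟩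
  invFun x := ⟨g⁻¹ x, h54n_map_mem h ((GK K).inv_mem hg) x.2⟩
  left_inv x := by
    apply Subtype.ext
    show g⁻¹ (g (x : Om q)) = x
    rw [← AlgEquiv.mul_apply, inv_mul_cancel]
    rfl
  right_inv x := by
    apply Subtype.ext
    show g (g⁻¹ (x : Om q)) = x
    rw [← AlgEquiv.mul_apply, mul_inv_cancel]
    rfl
  map_mul' x y := by
    apply Subtype.ext
    show g ((x : Om q) * y) = g x * g y
    exact map_mul g _ _
  map_add' x y := by
    apply Subtype.ext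
    show g ((x : Om q) + y) = g x + g y
    exact map_add g _ _

@[simp] theorem h54n_res_coe (h : IsCyc K K₁ n σ) (g : Gq q) (hg : g ∈ GK K) (x : ↥K₁) :
    ((h54n_res h g hg x : ↥K₁) : Om q) = g (x : Om q) := rfl

theorem h54n_res_pow_coe (h : IsCyc K K₁ n σ) (g : Gq q) (hg : g ∈ GK K) (i : ℕ) (x : ↥K₁) :
    (((h54n_res h g hg ^ i) x : ↥K₁) : Om q) = (g ^ i) (x : Om q) := by
  induction i generalizing x with
  | zero => simp
  | succ i ih =>
    rw [pow_succ, pow_succ, RingAut.mul_apply, AlgEquiv.mul_apply, ih, h54n_res_coe]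

/-- The abstract norm is the norm along `σ`. -/
theorem h54n_norm_coe (h : IsCyc K K₁ n σ) (m : ℕ) (x : ↥K₁) :
    ((h33n_N (h54n_res h σ h.mem) m x : ↥K₁) : Om q) = normAlong σ m (x : Om q) := by
  unfold h33n_N normAlong
  rw [← IntermediateField.coe_val, map_prod]
  refine Finset.prod_congr rfl (fun i _ => ?_)
  exact h54n_res_pow_coe h σ h.mem i x

/-- Elements of `K₁` fixed by `σ` lie in `K`. -/
theorem h54n_mem_of_sigma_fixed (h : IsCyc K K₁ n σ) {x : Om q} (hx : x ∈ K₁)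
    (hσ : σ x = x) : x ∈ K := by
  apply h74n_mem_of_fixed
  have hpow : ∀ i : ℕ, (σ ^ i) x = x := by
    intro i
    induction i with
    | zero => simp
    | succ i ih => rw [pow_succ, AlgEquiv.mul_apply, hσ, ih]
  intro g hg
  obtain ⟨i, -, hmem⟩ := h.gen g hg
  have h2 := (IntermediateField.mem_fixingSubgroup_iff K₁ _).1 hmem x hx
  have h3 : g = σ ^ i * ((σ ^ i)⁻¹ * g) := by group
  rw [h3, AlgEquiv.mul_apply, h2, hpow]

end Restrict

section LFstruct

/-- Completeness of a local field in series form. -/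
theorem h54n_series (K₁ : LF q) [FiniteDimensional ℚ_[q] K₁] (π : ↥K₁) (hπ : ‖π‖ < 1)
    (s : ℕ → ↥K₁) (hs : ∀ n, ‖s n‖ ≤ ‖π‖ ^ n) :
    ∃ z : ↥K₁, ∀ n, ‖z - ∑ i ∈ range n, s i‖ ≤ ‖π‖ ^ n := by
  have hc : CompleteSpace ↥K₁ := FiniteDimensional.complete ℚ_[q] ↥K₁
  have hsum : Summable s :=
    Summable.of_norm_bounded (summable_geometric_of_lt_one (norm_nonneg π) hπ) hs
  refine ⟨∑' i, s i, fun n => ?_⟩
  have h1 : ∑' i, s i - ∑ i ∈ range n, s i = ∑' i, s (i + n) := by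
    rw [← hsum.sum_add_tsum_nat_add n]
    abel
  rw [h1]
  refine (IsUltrametricDist.norm_tsum_le _).trans ?_
  apply ciSup_le
  intro i
  exact (hs (i + n)).trans (pow_le_pow_of_le_one (norm_nonneg π) hπ.le (Nat.le_add_left n i))

theorem h54n_val_le_iff (K₁ : LF q) (x y : ↥K₁) (n : ℕ) :
    (NormedField.valuation x : ℝ≥0) ≤ (NormedField.valuation y : ℝ≥0) ^ n ↔ ‖x‖ ≤ ‖y‖ ^ n := by
  rw [NormedField.valuation_apply, NormedField.valuation_apply, ← NNReal.coe_le_coe,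
    NNReal.coe_pow, coe_nnnorm, coe_nnnorm]

theorem h54n_val_lt_one_iff (K₁ : LF q) (x : ↥K₁) :
    (NormedField.valuation x : ℝ≥0) < 1 ↔ ‖x‖ < 1 := by
  rw [NormedField.valuation_apply, ← NNReal.coe_lt_coe, coe_nnnorm, NNReal.coe_one]

theorem h54n_val_le_one_iff (K₁ : LF q) (x : ↥K₁) :
    (NormedField.valuation x : ℝ≥0) ≤ 1 ↔ ‖x‖ ≤ 1 := by
  rw [NormedField.valuation_apply, ← NNReal.coe_le_coe, coe_nnnorm, NNReal.coe_one]

variable {K K₁ : LF q} {p : ℕ} {σ : Gq q}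

/-- The `H33LF` structure of a cyclic extension of local fields. -/
theorem h54n_exists_lf (h : IsCyc K K₁ p σ) :
    ∃ D : H33LF ↥K₁, D.σ = h54n_res h σ h.mem ∧ D.ℓ = p := by
  classical
  have hfin : FiniteDimensional ℚ_[q] K₁ := h.fin
  obtain ⟨⟨π, hπK, hπ0, hπ1, hπmax⟩, hval⟩ := h34lf_lfUnif q K₁
  obtain ⟨R, hR, hRes⟩ := h34lf_residue_system q K₁
  refine ⟨{
    v := NormedField.valuation
    σ := h54n_res h σ h.mem
    ℓ := p
    hℓ := h.pos
    hσℓ := ?_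
    hord := ?_
    hvσ := ?_
    ϖ := ⟨π, hπK⟩
    hϖ0 := ?_
    hϖ1 := ?_
    hdisc := ?_
    hcomp := ?_
    hres := ?_ }, rfl, rfl⟩
  · -- σ₁ ^ p = 1
    ext x
    rw [h54n_res_pow_coe]
    exact (IntermediateField.mem_fixingSubgroup_iff K₁ _).1 (h74n_sigma_n h) x x.2
  · -- exact order
    intro i hi hip hone
    apply h.ord i hi hip
    rw [IntermediateField.mem_fixingSubgroup_iff]
    intro x hx
    have h1 : ((h54n_res h σ h.mem ^ i) ⟨x, hx⟩ : ↥K₁) = ⟨x, hx⟩ := by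
      rw [hone]
      rfl
    have h2 := congrArg (fun w : ↥K₁ => (w : Om q)) h1
    simp only [h54n_res_pow_coe] at h2
    exact h2
  · -- invariance of the valuation
    intro x
    rw [NormedField.valuation_apply, NormedField.valuation_apply]
    apply NNReal.eq
    rw [coe_nnnorm, coe_nnnorm]
    exact h74n_norm_map σ (x : Om q)
  · intro h0
    exact hπ0 (congrArg (fun w : ↥K₁ => (w : Om q)) h0)
  · rw [h54n_val_lt_one_iff]
    exact hπ1
  · -- discreteness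
    intro x hx
    have hx0 : (x : Om q) ≠ 0 := fun h0 => hx (Subtype.ext h0)
    obtain ⟨m, hm⟩ := hval π ⟨hπK, hπ0, hπ1, hπmax⟩ (x : Om q) x.2 hx0
    refine ⟨m, ?_⟩
    rw [NormedField.valuation_apply, NormedField.valuation_apply]
    apply NNReal.eq
    rw [NNReal.coe_zpow, coe_nnnorm, coe_nnnorm]
    exact hm
  · -- completeness
    intro ϖ hϖ s hs
    rw [h54n_val_lt_one_iff] at hϖ
    obtain ⟨z, hz⟩ := h54n_series K₁ ϖ hϖ s (fun n => (h54n_val_le_iff K₁ _ _ n).1 (hs n))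
    exact ⟨z, fun n => (h54n_val_le_iff K₁ _ _ n).2 (hz n)⟩
  · -- residue system
    refine ⟨R.subtype (fun r => r ∈ K₁), fun x hx => ?_⟩
    rw [h54n_val_le_one_iff] at hx
    obtain ⟨r, hr, hxr⟩ := hRes (x : Om q) x.2 hx
    refine ⟨⟨r, (hR r hr).1⟩, Finset.mem_subtype.2 hr, ?_⟩
    rw [h54n_val_lt_one_iff]
    exact hxr

end LFstruct

/-- **LOC-NI-ADAPT**: the abstract norm index theorem gives `NIMain`. -/
theorem h54n_niMain_of (H : H33NormIndex) : NIMain := by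
  intro q _ p _ K K₁ _ σ h
  obtain ⟨D, hDσ, hDℓ⟩ := h54n_exists_lf h
  have hp : D.ℓ.Prime := by
    rw [hDℓ]
    exact Fact.out
  obtain ⟨⟨b, hbσ, hb0, hbn⟩, H2⟩ := H ↥K₁ D hp
  rw [hDσ, hDℓ] at hbn
  rw [hDσ] at hbσ
  have hfix : ∀ x : Om q, x ∈ K → σ x = x := fun x hx =>
    (IntermediateField.mem_fixingSubgroup_iff K σ).1 h.mem x hx
  constructor
  · refine ⟨(b : Om q), ?_, ?_, ?_⟩
    · refine h54n_mem_of_sigma_fixed h b.2 ?_
      have := congrArg (fun w : ↥K₁ => (w : Om q)) hbσ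
      simpa using this
    · exact fun h0 => hb0 (Subtype.ext h0)
    · rintro ⟨β, hβ, hβ0, hβn⟩
      apply hbn
      refine ⟨⟨β, hβ⟩, fun h0 => hβ0 (congrArg (fun w : ↥K₁ => (w : Om q)) h0), ?_⟩
      apply Subtype.ext
      rw [h54n_norm_coe]
      exact hβn
  · intro c hc hc0 hcn c' hc' hc'0
    have hcK₁ : c ∈ K₁ := h.le hc
    have hc'K₁ : c' ∈ K₁ := h.le hc'
    have h1 : D.σ ⟨c, hcK₁⟩ = ⟨c, hcK₁⟩ := by
      rw [hDσ]
      exact Subtype.ext (hfix c hc)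
    have h2 : (⟨c, hcK₁⟩ : ↥K₁) ≠ 0 := fun h0 => hc0 (congrArg (fun w : ↥K₁ => (w : Om q)) h0)
    have h3 : ¬ ∃ β : ↥K₁, β ≠ 0 ∧ h33n_N D.σ D.ℓ β = ⟨c, hcK₁⟩ := by
      rintro ⟨β, hβ0, hβn⟩
      apply hcn
      refine ⟨(β : Om q), β.2, fun h0 => hβ0 (Subtype.ext h0), ?_⟩
      rw [hDσ, hDℓ] at hβn
      have := congrArg (fun w : ↥K₁ => (w : Om q)) hβn
      rw [h54n_norm_coe] at this
      exact this
    have h4 : D.σ ⟨c', hc'K₁⟩ = ⟨c', hc'K₁⟩ := by
      rw [hDσ]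
      exact Subtype.ext (hfix c' hc')
    have h5 : (⟨c', hc'K₁⟩ : ↥K₁) ≠ 0 :=
      fun h0 => hc'0 (congrArg (fun w : ↥K₁ => (w : Om q)) h0)
    obtain ⟨k, hk, β, hβ0, hβn⟩ := H2 ⟨c, hcK₁⟩ h1 h2 h3 ⟨c', hc'K₁⟩ h4 h5
    rw [hDℓ] at hk
    refine ⟨k, hk, (β : Om q), β.2, fun h0 => hβ0 (Subtype.ext h0), ?_⟩
    rw [hDσ, hDℓ] at hβn
    have := congrArg (fun w : ↥K₁ => (w : Om q)) hβn
    rw [h54n_norm_coe] at this
    rw [this]
    rfl

end Fermat.Agent.PT.Loc
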