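import Mathlib
import Fermat.Agent.PT.Loc.H33NIIface

/-!
# W3-PT / PT-LOC, block NI, leaf LOC-NI-FIN (helper57): `H33FinIdx`

A subgroup of `Lˣ` containing a ball `{u | v (u - 1) ≤ c}` has finite index in the unit group.
-/

set_option autoImplicit false

open Finset

open scoped NNReal

namespace Fermat.Agent.PT.Loc

section

variable {L : Type} [Field L] (D : H33LF L)

/-- `v x < 1 → v x ≤ v ϖ`. -/
lemma h57_le_unif_of_lt_one (x : L) (hx : D.v x < 1) : D.v x ≤ D.v D.ϖ := by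
  by_cases h0 : x = 0
  · rw [h0, map_zero]
    exact zero_le
  obtain ⟨n, hn⟩ := D.hdisc x h0
  have hϖpos : 0 < D.v D.ϖ := by
    rw [pos_iff_ne_zero]
    exact (D.v.ne_zero_iff).2 D.hϖ0
  have hn1 : 1 ≤ n := by
    by_contra hlt
    have hle : n ≤ 0 := by omega
    have : 1 ≤ D.v D.ϖ ^ n := by
      obtain ⟨m, rfl⟩ : ∃ m : ℕ, n = -(m : ℤ) := ⟨n.natAbs, by omega⟩
      rw [zpow_neg, zpow_natCast]
      exact (one_le_inv₀ (pow_pos hϖpos m)).2 (pow_le_one₀ zero_le D.hϖ1.le)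
    rw [← hn] at this
    exact absurd hx (not_lt.2 this)
  rw [hn]
  obtain ⟨m, rfl⟩ : ∃ m : ℕ, n = (m : ℤ) + 1 := ⟨(n - 1).toNat, by omega⟩
  rw [zpow_add₀ hϖpos.ne', zpow_natCast, zpow_one]
  calc D.v D.ϖ ^ m * D.v D.ϖ ≤ 1 * D.v D.ϖ :=
        mul_le_mul' (pow_le_one₀ zero_le D.hϖ1.le) le_rfl
    _ = D.v D.ϖ := one_mul _

/-- Finite systems of representatives modulo `ϖ^k`. -/
lemma h57_exists_reps (k : ℕ) :
    ∃ R : Finset L, ∀ x : L, D.v x ≤ 1 → ∃ r ∈ R, D.v (x - r) ≤ D.v D.ϖ ^ k := by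
  classical
  obtain ⟨R₀, hR₀⟩ := D.hres
  induction k with
  | zero =>
    refine ⟨{0}, fun x hx => ⟨0, Finset.mem_singleton_self 0, ?_⟩⟩
    rw [sub_zero, pow_zero]
    exact hx
  | succ k ih =>
    obtain ⟨R, hR⟩ := ih
    refine ⟨(R ×ˢ R₀).image (fun z => z.1 + D.ϖ ^ k * z.2), fun x hx => ?_⟩
    obtain ⟨r, hr, hxr⟩ := hR x hx
    have hϖk : D.v (D.ϖ ^ k) ≠ 0 := (D.v.ne_zero_iff).2 (pow_ne_zero _ D.hϖ0)
    have hx' : D.v ((x - r) / D.ϖ ^ k) ≤ 1 := by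
      rw [map_div₀, map_pow]
      rw [map_pow] at hϖk
      exact (div_le_one₀ (pos_iff_ne_zero.2 hϖk)).2 hxr
    obtain ⟨s, hs, hxs⟩ := hR₀ _ hx'
    refine ⟨r + D.ϖ ^ k * s, Finset.mem_image.2 ⟨(r, s), Finset.mem_product.2 ⟨hr, hs⟩, rfl⟩, ?_⟩
    have e : x - (r + D.ϖ ^ k * s) = D.ϖ ^ k * ((x - r) / D.ϖ ^ k - s) := by
      field_simp [pow_ne_zero k D.hϖ0]
      ring
    rw [e, map_mul, map_pow, pow_succ]
    exact mul_le_mul' le_rfl (h57_le_unif_of_lt_one D _ hxs)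

end

/-- **LOC-NI-FIN**. -/
theorem h57_finIdx : H33FinIdx := by
  classical
  intro L _ D c hc W hW
  have hϖpos : 0 < D.v D.ϖ := by
    rw [pos_iff_ne_zero]
    exact (D.v.ne_zero_iff).2 D.hϖ0
  -- choose `k ≥ 1` with `v ϖ ^ k ≤ c`
  obtain ⟨k₀, hk₀⟩ := exists_pow_lt_of_lt_one (pos_iff_ne_zero.2 hc) D.hϖ1
  have hk : D.v D.ϖ ^ (k₀ + 1) ≤ c := by
    rw [pow_succ]
    calc D.v D.ϖ ^ k₀ * D.v D.ϖ ≤ D.v D.ϖ ^ k₀ * 1 := mul_le_mul' le_rfl D.hϖ1.le
      _ = D.v D.ϖ ^ k₀ := mul_one _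
      _ ≤ c := hk₀.le
  have hk1 : D.v D.ϖ ^ (k₀ + 1) < 1 := by
    rw [pow_succ]
    calc D.v D.ϖ ^ k₀ * D.v D.ϖ ≤ 1 * D.v D.ϖ :=
          mul_le_mul' (pow_le_one₀ zero_le D.hϖ1.le) le_rfl
      _ = D.v D.ϖ := one_mul _
      _ < 1 := D.hϖ1
  obtain ⟨R, hR⟩ := h57_exists_reps D (k₀ + 1)
  -- the map from the representatives onto the quotient
  let f : {r : L // r ∈ R} → (↥(h33n_U D.v) ⧸ W.subgroupOf (h33n_U D.v)) := fun r =>
    if h : D.v (r : L) = 1 then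
      QuotientGroup.mk ⟨Units.mk0 (r : L) (fun h0 => by rw [h0, map_zero] at h; exact zero_ne_one h),
        h⟩
    else 1
  have hf : Function.Surjective f := by
    intro x
    induction x using QuotientGroup.induction_on with
    | H u =>
      have hu : D.v ((u : Lˣ) : L) = 1 := u.2
      obtain ⟨r, hr, hur⟩ := hR ((u : Lˣ) : L) hu.le
      have hlt : D.v (((u : Lˣ) : L) - r) < 1 := lt_of_le_of_lt hur hk1
      have hvr : D.v r = 1 := by
        have h1 : D.v (r - ((u : Lˣ) : L)) < D.v ((u : Lˣ) : L) := by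
          rw [hu, ← Valuation.map_sub_swap]
          exact hlt
        have h2 := Valuation.map_add_eq_of_lt_left D.v h1
        rw [show ((u : Lˣ) : L) + (r - ((u : Lˣ) : L)) = r by ring] at h2
        rw [h2, hu]
      have hr0 : r ≠ 0 := fun h0 => by rw [h0, map_zero] at hvr; exact zero_ne_one hvr
      refine ⟨⟨r, hr⟩, ?_⟩
      simp only [f, dif_pos hvr]
      rw [QuotientGroup.eq, Subgroup.mem_subgroupOf]
      apply hW
      have e : ((((⟨Units.mk0 r hr0, hvr⟩ : ↥(h33n_U D.v))⁻¹ * u : ↥(h33n_U D.v)) : Lˣ) : L) - 1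
          = (((u : Lˣ) : L) - r) / r := by
        simp only [Subgroup.coe_mul, Subgroup.coe_inv, Units.val_mul, Units.val_inv_eq_inv_val,
          Units.val_mk0]
        field_simp
      rw [e, map_div₀, hvr, div_one]
      exact hur.trans hk
  have : Finite (↥(h33n_U D.v) ⧸ W.subgroupOf (h33n_U D.v)) := Finite.of_surjective f hf
  exact Subgroup.index_ne_zero_of_finite

end Fermat.Agent.PT.Loc
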