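import Fermat.Agent.PT.Loc.H90NIHQ
import Fermat.Agent.PT.Loc.H33NINB
import Fermat.Agent.PT.Loc.H33NICoh
import Fermat.Agent.PT.Loc.H57NIFin
import Fermat.Agent.PT.Loc.H24NIH90
import Fermat.Agent.PT.Loc.H54NIAdapt

/-!
# W3-PT / PT-LOC, block NI (helper90): the local norm index theorem, assembled

`h90q_niMain : NIMain` : for `K₁/K` cyclic of prime degree `p` (`q = p` allowed) the norm group
has index exactly `p` in `Kˣ`.

Leaves: normal basis (helper33), cohomologically trivial unit lattice (helper33), finite index
of balls (helper57), Hilbert 90 (helper24), Herbrand quotient assembly (helper90), adapter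
(helper54).
-/

set_option autoImplicit false

namespace Fermat.Agent.PT.Loc

/-- the abstract norm index theorem. -/
theorem h90q_normIndex : H33NormIndex :=
  h90q_normIndex_of (h33n_cohTriv_of h33nb_normalBasis) h57_finIdx h24h9_hilbert90

/-- **NI-MAIN.** -/
theorem h90q_niMain : NIMain :=
  h54n_niMain_of h90q_normIndex

end Fermat.Agent.PT.Loc
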