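import Fermat.Agent.PT.Loc.LFImm39
import Fermat.Agent.PT.Loc.H34LFPow
import Fermat.Agent.PT.Loc.H34LFTeich
import Fermat.Agent.PT.Loc.H34LFDim
import Fermat.Agent.PT.Loc.H36URFrob
import Fermat.Agent.PT.Loc.H66URVal
import Fermat.Agent.PT.Loc.H66URConj
import Fermat.Agent.PT.Loc.H49URIdx
import Fermat.Agent.PT.Loc.H82URNorm
import Fermat.Agent.PT.Loc.H8URNormGrp
import Fermat.Agent.PT.Loc.H36URBaseChange
import Fermat.Agent.PT.Loc.H74NIDich
import Fermat.Agent.PT.Loc.H90CarryNorm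
import Fermat.Agent.PT.Loc.H81H90
import Fermat.Agent.PT.Loc.Kum.H7KumClass
import Fermat.Agent.PT.Loc.Kum.H79KumBasic
import Fermat.Agent.PT.Loc.H10B1
import Fermat.Agent.PT.Loc.H40KumCyc
import Fermat.Agent.PT.Loc.MC.H65Kum
import Fermat.Agent.PT.Loc.MC.H79MuFinal
import Fermat.Agent.PT.Loc.H55B1Fin
import Fermat.Agent.PT.Loc.H55B0Gen
import Fermat.Agent.PT.Loc.H57Coprime
import Fermat.Agent.PT.Loc.B0DescFinal12
import Fermat.Agent.PT.Loc.H76B0
import Fermat.Agent.PT.Loc.B0Tower12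
import Fermat.Agent.PT.Loc.H90NIMain

/-!
# W3-PT / PT-LOC (helper90): all frozen leaf statements of `Loc/Iface.lean`, unconditionally

Pure wiring of the landed leaves.  Main results: `h90l_b1 : B1` (the Hilbert symbol is
nondegenerate), `h90l_b1Fin : B1Fin`, `h90l_b0Gen : B0Gen`, `h90l_b0 : B0`
(`H²(G_K, 𝔽_p)` is one dimensional).
-/

set_option autoImplicit false

namespace Fermat.Agent.PT.Loc

theorem h90l_lfImm : LFImm := h39lf_imm_of h34lf_lfUnif h34lf_lfTeich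

theorem h90l_urFrob : URFrob := h36_urFrob h34lf_lfTeich

theorem h90l_urVal : URVal := h66v_urVal h34lf_lfTeich

theorem h90l_urCyc : URCyc := h66v_urCyc h34lf_lfTeich

theorem h90l_urIdx : URIdx := h49_urIdx_of h34lf_lfTeich h90l_urCyc

theorem h90l_urNorm : URNorm := h82n_urNorm h34lf_lfTeich h90l_urCyc

theorem h90l_urNormGrp : URNormGrp := h8ng_urNormGrp h90l_urNorm h90l_urVal h34lf_lfUnif

theorem h90l_urBaseChange : URBaseChange := h36_urBaseChange h34lf_lfTeich h90l_urVal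

theorem h90l_niDich : NIDich :=
  h74n_nidich_of h34lf_lfUnif h34lf_lfTeich h90l_lfImm h90l_urFrob h90l_urCyc

theorem h90l_mcCarryNorm : MCCarryNorm := h90c_carryNorm h81h_mcH90

theorem h90l_kumClass : KumClass := h7kc_kumClass_of h81h_mcH90

/-- **B1**: the Hilbert symbol is nondegenerate. -/
theorem h90l_b1 : B1 :=
  h10b_B1 h90l_kumClass h79k_kumBasic h40k_kumCyc h65_mcKum h90l_mcCarryNorm h90q_niMain

/-- **B1-FIN**: `H¹(G_K, 𝔽_p)` is finite. -/
theorem h90l_b1Fin : B1Fin := h55f_b1Fin h90l_kumClass h79k_kumBasic h34lf_lfDim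

/-- **B0-GEN**. -/
theorem h90l_b0Gen : B0Gen :=
  h55g_b0Gen h34lf_lfUnif h90l_urFrob h90l_urCyc h79k_kumBasic h65_mcKum h90l_mcCarryNorm
    h90l_urNormGrp

/-- **B0-COPRIME**. -/
theorem h90l_b0Coprime : B0Coprime :=
  h57_b0Coprime h34lf_lfUnif h34lf_lfTeich h90l_urCyc h90l_urIdx h90l_urNormGrp h79k_kumBasic
    h65_mcKum h90l_mcCarryNorm h79m_mcMu h90l_b0Gen

/-- **B0-DESC**. -/
theorem h90l_b0Desc : B0Desc :=
  h12d_b0Desc h90l_mcCarryNorm h90q_niMain h90l_niDich h90l_urCyc h90l_urNormGrp h90l_urIdx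
    h90l_urVal h90l_b0Gen

/-- **B0**: `H²(G_K, 𝔽_p)` is one dimensional, generated by any standard generator. -/
theorem h90l_b0 : B0 := h76b_b0_of h12t_b0Tower h90l_b0Desc h90l_b0Coprime h90l_b0Gen

end Fermat.Agent.PT.Loc
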