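import Mathlib
import Fermat.Agent.PT.Loc.Iface2
import Fermat.Agent.PT.Loc.H90Final
import Fermat.Agent.PT.Loc.H96RDBase

/-!
# W3-PT / PT-LOC part 2, leaf LOC2-INV-Y (helper49)

`h49y_invY : InvY` — the class of the standard unramified `2`-cocycle `Yq p q` of `G_{ℚ_q}` has
order exactly `p`: `Yq ^ j ∼ 1` iff `p ∣ j`.

Proof: `Yq ^ j = carry (Kur ⊥ p) (frobQ q) p (q ^ j)` pointwise; `frobQ q` is a Frobenius element
(`URFrob`); by `MCCarryNorm` the carry cocycle of `b` is a coboundary iff `b` is a norm from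
`Kur ⊥ p`; by `URNormGrp` (uniformizer `q`) this holds iff `‖q ^ j‖ = ‖q‖ ^ (p m)` for some `m`,
i.e. iff `p ∣ j`.
-/

set_option autoImplicit false

open scoped Classical

noncomputable section

namespace Fermat.Agent.PT.Loc

variable (q : ℕ) [Fact q.Prime]

/-- `frobQ q` is a Frobenius element of `ℚ_q`. -/
theorem h49y_isFrob_frobQ (hF : URFrob) : IsFrob (⊥ : LF q) (frobQ q) := by
  have h : ∃ φ : Gq q, IsFrob (⊥ : LF q) φ := hF q ⊥
  unfold frobQ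
  rw [dif_pos h]
  exact h.choose_spec

/-- `qU q` is the element `q`. -/
theorem h49y_qU_coe : ((qU q : (Om q)ˣ) : Om q) = ((q : ℕ) : Om q) := by
  unfold qU
  rw [dif_neg (h96b_q_ne_zero q)]
  rfl

/-- powers of a carry cocycle. -/
theorem h49y_carry_pow (K₁ : LF q) (σ : Gq q) (n : ℕ) (b : (Om q)ˣ) (j : ℕ) :
    (fun y => carry K₁ σ n b y ^ j) = carry K₁ σ n (b ^ j) := by
  funext y
  unfold carry
  split_ifs
  · rfl
  · exact one_pow j

/-- `Yq ^ j` is the carry cocycle of `q ^ j`. -/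
theorem h49y_Yq_pow (p : ℕ) (j : ℕ) :
    (fun y => Yq p q y ^ j) = carry (Kur (⊥ : LF q) p) (frobQ q) p (qU q ^ j) :=
  h49y_carry_pow q _ _ _ _ j

/-- `‖q‖ ^ a = ‖q‖ ^ b` (integer exponents) forces `a = b`. -/
theorem h49y_zpow_inj {a b : ℤ} (h : ‖((q : ℕ) : Om q)‖ ^ a = ‖((q : ℕ) : Om q)‖ ^ b) : a = b := by
  have hq : q.Prime := Fact.out
  have hq1 : (1 : ℝ) < q := by exact_mod_cast hq.one_lt
  have h0 : (0 : ℝ) < ‖((q : ℕ) : Om q)‖ := by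
    rw [h96b_norm_q]
    exact inv_pos.mpr (by linarith)
  have h1 : ‖((q : ℕ) : Om q)‖ ≠ 1 := by
    rw [h96b_norm_q]
    exact (inv_lt_one_of_one_lt₀ hq1).ne
  exact zpow_right_injective₀ h0 h1 h

/-- **LOC2-INV-Y** from the leaves `URFrob`, `URCyc`, `MCCarryNorm`, `URNormGrp`. -/
theorem h49y_invY_of (hF : URFrob) (hC : URCyc) (hCN : MCCarryNorm) (hNG : URNormGrp) :
    InvY := by
  intro q _ p _ j
  have hp : p.Prime := Fact.out
  have hφ : IsFrob (⊥ : LF q) (frobQ q) := h49y_isFrob_frobQ q hF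
  have hcyc : IsCyc (⊥ : LF q) (Kur (⊥ : LF q) p) p (frobQ q) := hC q ⊥ p (frobQ q) hp.pos hφ
  have hcoe : (((qU q ^ j : (Om q)ˣ)) : Om q) = ((q : ℕ) : Om q) ^ j := by
    rw [Units.val_pow_eq_pow_val, h49y_qU_coe]
  have hmem : (((qU q ^ j : (Om q)ˣ)) : Om q) ∈ (⊥ : LF q) := by
    rw [hcoe]
    exact pow_mem (natCast_mem _ q) j
  have hne : (((qU q ^ j : (Om q)ˣ)) : Om q) ≠ 0 := Units.ne_zero _
  rw [h49y_Yq_pow q p j, hCN q ⊥ (Kur ⊥ p) p (frobQ q) (qU q ^ j) hcyc hmem,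
    hNG q ⊥ p (frobQ q) ((q : ℕ) : Om q) hp.pos hφ (h96b_isUnif_q q) _ hmem hne, hcoe, norm_pow]
  constructor
  · rintro ⟨m, hm⟩
    have h1 : ‖((q : ℕ) : Om q)‖ ^ ((j : ℕ) : ℤ) = ‖((q : ℕ) : Om q)‖ ^ ((p : ℤ) * m) := by
      rw [zpow_natCast]
      exact hm
    have h2 : ((j : ℕ) : ℤ) = (p : ℤ) * m := h49y_zpow_inj q h1
    have h3 : (p : ℤ) ∣ (j : ℤ) := ⟨m, h2⟩
    exact Int.natCast_dvd_natCast.mp h3
  · rintro ⟨m, rfl⟩
    refine ⟨(m : ℤ), ?_⟩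
    rw [← zpow_natCast]
    congr 1

/-- **LOC2-INV-Y**, unconditional. -/
theorem h49y_invY : InvY :=
  h49y_invY_of h90l_urFrob h90l_urCyc h90l_mcCarryNorm h90l_urNormGrp

end Fermat.Agent.PT.Loc

end
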