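import Mathlib
import Fermat.Agent.PT.Loc.Iface2
import Fermat.Agent.PT.Loc.H57ResInj

/-!
# PT-LOC, leaf LOC2-COR-COHOM (helper66): corestriction respects "cohomologous"

`theorem h66c_corCohom : CorCohom`: if `β = β' · ∂x` on `G_E` (`x` continuous on `G_E`) then
`mcor β = mcor β' · ∂(mcor1 x)` on `G_{ℚ_q}` and `mcor1 x` is continuous.

Reusable lemmas: `h66c_finite_quot`, `h66c_secC_mem`, `h66c_secC_mul`, `h66c_mul_secC`,
`h66c_secC_mul_right` (right translation by a normal subgroup inside `G_E`),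
`h66c_mcor_eq_prod`, `h66c_mcor1_eq_prod`, `h66c_mcor_mul` (multiplicativity of `mcor`),
`h66c_mcor_congr` (only the values on `G_E × G_E` enter), `h66c_mcor_mcob`
(`mcor (∂x) = ∂(mcor1 x)`), `h66c_cont1_mcor1` (continuity of `mcor1 x`).
-/

set_option autoImplicit false

open scoped Classical

noncomputable section

namespace Fermat.Agent.PT.Loc

variable {q : ℕ} [Fact q.Prime]

/-- The quotient `Gq q ⧸ G_E` is finite for `E` finite over `ℚ_q`. -/
theorem h66c_finite_quot (E : LF q) [FiniteDimensional ℚ_[q] E] : Finite (Gq q ⧸ GK E) := by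
  have := h57_isGalois_Om q
  exact Subgroup.quotient_finite_of_isOpen _ (IntermediateField.fixingSubgroup_isOpen E)

/-- The cocycle of a section has values in `G_E`. -/
lemma h66c_secC_mem (E : LF q) (s : Gq q ⧸ GK E → Gq q) (hs : IsSec E s) (g : Gq q)
    (a : Gq q ⧸ GK E) : secC E s g a ∈ GK E := by
  have h1 : ((s a : Gq q) : Gq q ⧸ GK E) = ((g * s (g⁻¹ • a) : Gq q) : Gq q ⧸ GK E) := by
    rw [hs.1 a]
    have h0 : ((g * s (g⁻¹ • a) : Gq q) : Gq q ⧸ GK E) =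
        g • ((s (g⁻¹ • a) : Gq q) : Gq q ⧸ GK E) := rfl
    rw [h0, hs.1, smul_inv_smul]
  have h2 := QuotientGroup.eq.1 h1
  unfold secC
  rw [mul_assoc]
  exact h2

/-- The cocycle relation of `secC`. -/
lemma h66c_secC_mul (E : LF q) (s : Gq q ⧸ GK E → Gq q) (g h : Gq q) (a : Gq q ⧸ GK E) :
    secC E s (g * h) a = secC E s g a * secC E s h (g⁻¹ • a) := by
  unfold secC
  rw [mul_inv_rev, mul_smul]
  group

/-- `s(a) · secC(g, a) = g · s(g⁻¹ a)`. -/
lemma h66c_mul_secC (E : LF q) (s : Gq q ⧸ GK E → Gq q) (g : Gq q) (a : Gq q ⧸ GK E) :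
    s a * secC E s g a = g * s (g⁻¹ • a) := by
  unfold secC
  group

/-- Right translation by an element of a normal subgroup `N ≤ G_E`: the cocycle of the section
changes by an element of `N`. -/
lemma h66c_secC_mul_right (E : LF q) (s : Gq q ⧸ GK E → Gq q) (N : Subgroup (Gq q)) [N.Normal]
    (hN : N ≤ GK E) (g t : Gq q) (ht : t ∈ N) (a : Gq q ⧸ GK E) :
    ∃ t' ∈ N, secC E s (g * t) a = secC E s g a * t' := by
  have h1 : t⁻¹ • (g⁻¹ • a) = g⁻¹ • a :=
    h57_smul_eq_of_mem_normal (GK E) N hN t⁻¹ (N.inv_mem ht) (g⁻¹ • a)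
  refine ⟨(s (g⁻¹ • a))⁻¹ * t * s (g⁻¹ • a), ?_, ?_⟩
  · have := ‹N.Normal›.conj_mem t ht (s (g⁻¹ • a))⁻¹
    simpa using this
  · unfold secC
    rw [mul_inv_rev, mul_smul, h1]
    group

/-- `mcor` as a finite product. -/
lemma h66c_mcor_eq_prod (E : LF q) [Fintype (Gq q ⧸ GK E)] (s : Gq q ⧸ GK E → Gq q)
    (β : Gq q × Gq q → (Om q)ˣ) (y : Gq q × Gq q) :
    mcor E s β y = ∏ a : Gq q ⧸ GK E, s a • β (secC E s y.1 a, secC E s y.2 (y.1⁻¹ • a)) := by
  unfold mcor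
  exact finprod_eq_prod_of_fintype _

/-- `mcor1` as a finite product. -/
lemma h66c_mcor1_eq_prod (E : LF q) [Fintype (Gq q ⧸ GK E)] (s : Gq q ⧸ GK E → Gq q)
    (x : Gq q → (Om q)ˣ) (g : Gq q) :
    mcor1 E s x g = ∏ a : Gq q ⧸ GK E, s a • x (secC E s g a) := by
  unfold mcor1
  exact finprod_eq_prod_of_fintype _

/-- `mcor` is multiplicative. -/
lemma h66c_mcor_mul (E : LF q) [FiniteDimensional ℚ_[q] E] (s : Gq q ⧸ GK E → Gq q)
    (β β' : Gq q × Gq q → (Om q)ˣ) (y : Gq q × Gq q) :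
    mcor E s (fun v => β v * β' v) y = mcor E s β y * mcor E s β' y := by
  have := h66c_finite_quot E
  letI : Fintype (Gq q ⧸ GK E) := Fintype.ofFinite _
  rw [h66c_mcor_eq_prod, h66c_mcor_eq_prod, h66c_mcor_eq_prod, ← Finset.prod_mul_distrib]
  refine Finset.prod_congr rfl fun a _ => ?_
  rw [smul_mul']

/-- Only the values on `G_E × G_E` enter `mcor`. -/
lemma h66c_mcor_congr (E : LF q) (s : Gq q ⧸ GK E → Gq q) (hs : IsSec E s)
    (β β' : Gq q × Gq q → (Om q)ˣ) (h : ∀ g ∈ GK E, ∀ h ∈ GK E, β (g, h) = β' (g, h))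
    (y : Gq q × Gq q) : mcor E s β y = mcor E s β' y := by
  unfold mcor
  refine finprod_congr fun a => ?_
  rw [h _ (h66c_secC_mem E s hs _ _) _ (h66c_secC_mem E s hs _ _)]

/-- `mcor (∂x) = ∂(mcor1 x)`. -/
theorem h66c_mcor_mcob (E : LF q) [FiniteDimensional ℚ_[q] E] (s : Gq q ⧸ GK E → Gq q)
    (x : Gq q → (Om q)ˣ) (y : Gq q × Gq q) :
    mcor E s (mcob x) y = mcob (mcor1 E s x) y := by
  have := h66c_finite_quot E
  letI : Fintype (Gq q ⧸ GK E) := Fintype.ofFinite _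
  obtain ⟨g, h⟩ := y
  rw [h66c_mcor_eq_prod]
  show (∏ a : Gq q ⧸ GK E, s a • mcob x (secC E s g a, secC E s h (g⁻¹ • a))) =
    g • mcor1 E s x h / mcor1 E s x (g * h) * mcor1 E s x g
  rw [h66c_mcor1_eq_prod, h66c_mcor1_eq_prod, h66c_mcor1_eq_prod]
  have hA : g • (∏ a : Gq q ⧸ GK E, s a • x (secC E s h a)) =
      ∏ a : Gq q ⧸ GK E, (s a * secC E s g a) • x (secC E s h (g⁻¹ • a)) := by
    rw [Finset.smul_prod']
    rw [← Equiv.prod_comp (MulAction.toPerm g⁻¹ : Gq q ⧸ GK E ≃ Gq q ⧸ GK E)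
      (fun a => g • s a • x (secC E s h a))]
    refine Finset.prod_congr rfl fun a _ => ?_
    show g • s (g⁻¹ • a) • x (secC E s h (g⁻¹ • a)) = _
    rw [h66c_mul_secC, mul_smul]
  rw [hA, ← Finset.prod_div_distrib, ← Finset.prod_mul_distrib]
  refine Finset.prod_congr rfl fun a _ => ?_
  show s a • (secC E s g a • x (secC E s h (g⁻¹ • a)) /
      x (secC E s g a * secC E s h (g⁻¹ • a)) * x (secC E s g a)) = _
  rw [smul_mul', smul_div', ← mul_smul, ← h66c_secC_mul]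

/-- `mcor1 x` is continuous on `G_{ℚ_q}` when `x` is continuous on `G_E`. -/
theorem h66c_cont1_mcor1 (E : LF q) [FiniteDimensional ℚ_[q] E] (s : Gq q ⧸ GK E → Gq q)
    (hs : IsSec E s) (x : Gq q → (Om q)ˣ) (hx : Cont1 E x) :
    Cont1 (⊥ : LF q) (mcor1 E s x) := by
  obtain ⟨F₀, hF₀, hEF₀, hinv⟩ := hx
  have := hF₀
  obtain ⟨F, hF₀F, hFfin, hFn⟩ := h57_exists_normal_ge F₀
  have hNE : GK F ≤ GK E := IntermediateField.fixingSubgroup_antitone (hEF₀.trans hF₀F)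
  have hNF₀ : GK F ≤ GK F₀ := IntermediateField.fixingSubgroup_antitone hF₀F
  refine ⟨F, hFfin, bot_le, ?_⟩
  intro g _ t ht
  unfold mcor1
  refine finprod_congr fun a => ?_
  obtain ⟨t', ht', h⟩ := h66c_secC_mul_right E s (GK F) hNE g t ht a
  rw [h, hinv _ (h66c_secC_mem E s hs g a) t' (hNF₀ ht')]

/-- **COR-COHOM.** -/
theorem h66c_corCohom : CorCohom := by
  intro q _ E _ s hs β β' hββ'
  obtain ⟨x, hx, hβ⟩ := hββ'
  refine ⟨mcor1 E s x, h66c_cont1_mcor1 E s hs x hx, ?_⟩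
  intro g _ h _
  rw [← h66c_mcor_mcob, ← h66c_mcor_mul]
  exact h66c_mcor_congr E s hs _ _ hβ (g, h)

end Fermat.Agent.PT.Loc
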