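import Mathlib
import Fermat.Agent.PT.Loc.H48Top
import Fermat.Agent.PT.Bridge.Open
import Fermat.Agent.PT.Shap.Local

/-!
# W3-PT / PT-LOC, row LOC2-TRIV (helper69): `LocTriv` from `AdCoh`, `H3Van`, `LocPerfRel`

For `V ≤ Gq q` open with `χ|_V = 1`: `V = GK E` with `E/ℚ_q` finite and `ζ_p ∈ E`; then

* `H³(V, 𝔽_p) = 0` is `H3Van` read through the adapter `AdCoh`;
* `LPerf2` for the trivial module of `V` and the restricted invariant is `LocPerfRel` read
  through `AdCoh` and `AdCor` (`h48_adCor`).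
-/

set_option autoImplicit false
set_option linter.unusedSectionVars false
set_option linter.style.haveILetI false

open scoped Classical

noncomputable section

namespace Fermat.Agent.PT.Loc

open ExtCitation Fermat.Agent.PT Fermat.Agent.PT.Shap Fermat.Agent.PT.Bridge

/-- the fixed global root of unity is primitive. -/
theorem h69t_zetaG_primitive (p : ℕ) [Fact p.Prime] : IsPrimitiveRoot (zetaG p) p := by
  haveI : NeZero p := ⟨(Fact.out : p.Prime).ne_zero⟩
  have h : ∃ ζ : AlgebraicClosure ℚ, IsPrimitiveRoot ζ p :=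
    HasEnoughRootsOfUnity.exists_primitiveRoot (AlgebraicClosure ℚ) p
  unfold zetaG
  rw [dif_pos h]
  exact h.choose_spec

/-- the local image of the fixed root of unity is primitive. -/
theorem h69t_zetaL_primitive (p : ℕ) [Fact p.Prime] (q : ℕ) [Fact q.Prime] :
    IsPrimitiveRoot (zetaL p q) p :=
  (h69t_zetaG_primitive p).map_of_injective (padicEmbedding q).injective

/-- `χ|_{G_E} = 1` iff `ζ_p ∈ E`. -/
theorem h69t_zetaL_mem_iff (p : ℕ) [Fact p.Prime] (q : ℕ) [Fact q.Prime] (E : LF q) :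
    (∀ u ∈ GK E, chiQ p q u = 1) ↔ zetaL p q ∈ E :=
  h23b_cycloChar_loc_trivial_iff (q := q) p E (h69t_zetaG_primitive p)

/-- an open subgroup of `Gq q` is `GK E` for a finite `E`. -/
theorem h69t_exists_field (q : ℕ) [Fact q.Prime] (V : Subgroup (Gq q))
    (hV : (levLoc q).IsOpen V) : ∃ E : LF q, FiniteDimensional ℚ_[q] E ∧ V = GK E :=
  (h23b_isOpen_levLoc_iff (q := q) V).1 hV

section Main

variable {q : ℕ} [Fact q.Prime] {p : ℕ} [Fact p.Prime]

/-- **`H³ = 0`** for the trivial module of `G_E`, in frame language. -/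
theorem h69t_h3Vanishes (hA : AdCoh) (hH : H3Van) (E : LF q) [FiniteDimensional ℚ_[q] E]
    (hζ : zetaL p q ∈ E) :
    H3Vanishes (levK E) (Representation.trivial (ZMod p) ↥(GK E) (ZMod p)) := by
  intro c hc
  obtain ⟨-, -, -, hZ3, hB3⟩ := hA q p E
  rw [← rst3_ext3 E c] at hc ⊢
  obtain ⟨h1, h2⟩ := (hZ3 _).1 hc
  exact (hB3 _).2 (hH q p E (zetaL p q) hζ (h69t_zetaL_primitive p q) _ h1 h2)

/-- the restricted invariant on the restriction of a total cochain. -/
theorem h69t_invR_rst (E : LF q)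
    [FiniteDimensional ℚ_[q] E] [(GK E).FiniteIndex] (s : h56s_Sec (Gq q) (GK E))
    (b : Gq q × Gq q → ZMod p) :
    h56s_invR s (chiQ p q) (invQ p q) (rst2 E b) = invQ p q (acor E s.gsec (chiL p q) b) :=
  (h48_adCor q p E s (invQ p q) b).2

/-- **`LPerf2`** for the trivial module of `G_E`, in frame language. -/
theorem h69t_lPerf2 (hA : AdCoh) (hP : LocPerfRel) (E : LF q) [FiniteDimensional ℚ_[q] E]
    [(GK E).FiniteIndex] (hζ : zetaL p q ∈ E) (s : h56s_Sec (Gq q) (GK E)) :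
    LPerf2 (levK E) (h56s_invR s (chiQ p q) (invQ p q))
      (Representation.trivial (ZMod p) ↥(GK E) (ZMod p))
      (Representation.trivial (ZMod p) ↥(GK E) (ZMod p)) (LinearMap.mul (ZMod p) (ZMod p)) := by
  obtain ⟨-, hZ2, hB2, -, -⟩ := hA q p E
  obtain ⟨hP1, b₀, hb1, hb2, hb3⟩ := hP q p E s.gsec ⟨s.gsec_mk, s.gsec_one⟩ hζ
  refine ⟨fun b hb hz => ?_, fun w _ hz => ?_⟩
  · have h1 := hz 1 (fun _ => rfl)
    rw [h69l_cup20_mul, one_smul] at h1
    rw [← rst2_ext2 E b] at hb h1 ⊢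
    rw [h69t_invR_rst] at h1
    obtain ⟨h2, h3⟩ := (hZ2 _).1 hb
    exact (hB2 _).2 (hP1 _ h2 h3 h1)
  · have h1 := hz (rst2 E b₀) ((hZ2 _).2 ⟨hb1, hb2⟩)
    rw [h69l_cup20_mul, map_smul, h69t_invR_rst, smul_eq_mul] at h1
    rcases mul_eq_zero.1 h1 with h | h
    · exact h
    · exact absurd h hb3

end Main

/-- **LOC-TRIV** from the adapter `AdCoh`, the vanishing `H3Van` and `LocPerfRel`. -/
theorem h69t_locTriv_of (hA : AdCoh) (hH : H3Van) (hP : LocPerfRel) : LocTriv := by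
  intro q _ p _ V _ _ hV hχ s
  obtain ⟨E, hE, rfl⟩ := h69t_exists_field q V hV
  have hζ : zetaL p q ∈ E := (h69t_zetaL_mem_iff p q E).1 hχ
  exact ⟨h69t_h3Vanishes hA hH E hζ, h69t_lPerf2 hA hP E hζ s⟩

end Fermat.Agent.PT.Loc
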