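import Mathlib
import Fermat.Agent.PT.Loc.Iface2

/-!
# W3-PT / PT-LOC2, leaf LOC2-INV-ZETA (helper6): `ChiZeta`

The coherent root of unity `zetaL p q` (image in `PadicAlgCl q` of the fixed primitive `p`-th root
of unity `zetaG p` of `ℚ̄`) is primitive, `zetaU p q` is `zetaL p q` as a unit, and the local
Galois group acts on it through the local cyclotomic character `chiL p q`.
-/

set_option autoImplicit false

open scoped Classical

noncomputable section

namespace Fermat.Agent.PT.Loc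

open ExtCitation

/-- `zetaG p` is a primitive `p`-th root of unity of `ℚ̄`. -/
theorem h6z_zetaG_primitive (p : ℕ) (hp : p ≠ 0) : IsPrimitiveRoot (zetaG p) p := by
  haveI : NeZero (p : AlgebraicClosure ℚ) := ⟨Nat.cast_ne_zero.mpr hp⟩
  have h : ∃ ζ : AlgebraicClosure ℚ, IsPrimitiveRoot ζ p :=
    HasEnoughRootsOfUnity.exists_primitiveRoot (AlgebraicClosure ℚ) p
  unfold zetaG
  rw [dif_pos h]
  exact h.choose_spec

/-- `zetaL p q` is a primitive `p`-th root of unity of `PadicAlgCl q`. -/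
theorem h6z_zetaL_primitive (p : ℕ) (q : ℕ) [Fact q.Prime] (hp : p ≠ 0) :
    IsPrimitiveRoot (zetaL p q) p :=
  (h6z_zetaG_primitive p hp).map_of_injective (f := padicEmbedding q)
    (padicEmbedding q).toRingHom.injective

/-- `zetaU p q` is `zetaL p q`. -/
theorem h6z_zetaU_val (p : ℕ) (q : ℕ) [Fact q.Prime] (hp : p ≠ 0) :
    ((zetaU p q : (Om q)ˣ) : Om q) = zetaL p q := by
  have hne : zetaL p q ≠ 0 := (h6z_zetaL_primitive p q hp).ne_zero hp
  unfold zetaU
  rw [dif_neg hne]
  rfl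

/-- The global cyclotomic character computes the action on `zetaG p`. -/
theorem h6z_cycloChar_spec (p : ℕ) [Fact p.Prime]
    (σ : AlgebraicClosure ℚ ≃ₐ[ℚ] AlgebraicClosure ℚ) :
    σ (zetaG p) = zetaG p ^ ((cycloChar p σ : (ZMod p)ˣ) : ZMod p).val := by
  have hp : p ≠ 0 := (Fact.out : p.Prime).ne_zero
  haveI : NeZero p := ⟨hp⟩
  have hζ := h6z_zetaG_primitive p hp
  have hζ0 : zetaG p ≠ 0 := hζ.ne_zero hp
  have hmem : Units.mk0 (zetaG p) hζ0 ∈ rootsOfUnity p (AlgebraicClosure ℚ) := by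
    rw [mem_rootsOfUnity]
    ext
    simpa using hζ.pow_eq_one
  exact modularCyclotomicCharacter.spec (AlgebraicClosure ℚ) (card_rootsOfUnity_eq_self p)
    (σ : AlgebraicClosure ℚ ≃+* AlgebraicClosure ℚ) hmem

/-- **(LOC2-INV-ZETA)** -/
theorem h6z_chiZeta : ChiZeta := by
  intro q _ p _
  have hp : p ≠ 0 := (Fact.out : p.Prime).ne_zero
  have hU := h6z_zetaU_val p q hp
  refine ⟨h6z_zetaL_primitive p q hp, hU, ?_⟩
  intro g
  apply Units.ext
  rw [Units.val_pow_eq_pow_val, hU, AlgEquiv.smul_units_def, Units.coe_map]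
  show g ((zetaU p q : (Om q)ˣ) : Om q) = _
  rw [hU]
  show g (padicEmbedding q (zetaG p)) = (padicEmbedding q (zetaG p)) ^ (chiL p q g).val
  rw [← padicEmbedding_localGaloisToGlobal, h6z_cycloChar_spec p (localGaloisToGlobal q g),
    map_pow]
  rfl

end Fermat.Agent.PT.Loc
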