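import Mathlib
import Fermat.Agent.PT.Loc.Iface2
import Fermat.Agent.PT.Loc.H10B1

/-!
# W3-PT / PT-LOC leaf LOC2-INV-COB (helper73)

`h73_invCob : CorTw → CorCohom → ChiZeta → InvCob`: the (twisted additive) corestriction of a
continuous additive coboundary of `G_E` (`μ_p ⊆ E`) has invariant `0`.

Proof: `ζ ^ acor(b) = mcor(ζ ^ b)` (`CorTw`); on `G_E` the cochain `ζ ^ b` is the multiplicative
coboundary of `g ↦ ζ ^ f(g)` (`G_E` fixes `ζ`), so `mcor(ζ ^ b) ∼ mcor 1 = 1` (`CorCohom`),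
and `Yq ^ 0 = 1`.
-/

set_option autoImplicit false

open scoped Classical

noncomputable section

namespace Fermat.Agent.PT.Loc

variable {q : ℕ} [Fact q.Prime] {p : ℕ}

/-- The multiplicative corestriction of the trivial `2`-cochain is trivial. -/
theorem h73_mcor_one (E : LF q) (s : Gq q ⧸ GK E → Gq q) :
    mcor E s (1 : Gq q × Gq q → (Om q)ˣ) = 1 := by
  funext y
  simp [mcor]

/-- An additive coboundary of `G_E` gives a multiplicative coboundary `ζ ^ b` (`ζ ∈ E`). -/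
theorem h73_mcohom_zpw_of_acohom_zero [NeZero p] {E : LF q} {ζ : (Om q)ˣ}
    (hζE : (ζ : Om q) ∈ E) (hζ : ζ ^ p = 1) {b : Gq q × Gq q → ZMod p}
    (hb : ACohom E b 0) : MCohom E (zpw ζ b) 1 := by
  obtain ⟨f, hf, hfb⟩ := hb
  refine ⟨fun g => ζ ^ (f g).val, h10b_cont1_map hf (fun a => ζ ^ a.val), fun g hg h hh => ?_⟩
  rw [h10b_mcob_zeta ζ hζE hζ f hg, Pi.one_apply, one_mul]
  show ζ ^ (b (g, h)).val = _
  rw [hfb g hg h hh, Pi.zero_apply, zero_add]

/-- **LOC2-INV-COB**: the corestriction of a continuous additive coboundary of `G_E` has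
invariant `0`. -/
theorem h73_invCob (hTw : CorTw) (hCoh : CorCohom) (hZ : ChiZeta) : InvCob := by
  intro q _ p _ E _ s b hs hζE hb
  have : NeZero p := ⟨(Fact.out : p.Prime).ne_zero⟩
  obtain ⟨hprim, hU, hact⟩ := hZ q p
  have hζp : zetaU p q ^ p = 1 := by
    apply Units.ext
    rw [Units.val_pow_eq_pow_val, hU, hprim.pow_eq_one]
    rfl
  have hζUE : ((zetaU p q : (Om q)ˣ) : Om q) ∈ E := by
    rw [hU]
    exact hζE
  have h1 : zpw (zetaU p q) (acor E s (chiL p q) b) = mcor E s (zpw (zetaU p q) b) :=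
    hTw q p E s (zetaU p q) (chiL p q) hζp hact b
  have h2 : MCohom E (zpw (zetaU p q) b) 1 :=
    h73_mcohom_zpw_of_acohom_zero hζUE hζp hb
  have h3 : MCohom (⊥ : LF q) (mcor E s (zpw (zetaU p q) b)) (mcor E s 1) :=
    hCoh q E s hs _ _ h2
  rw [h73_mcor_one] at h3
  have h4 : (fun y => Yq p q y ^ (0 : ZMod p).val) = (1 : Gq q × Gq q → (Om q)ˣ) := by
    funext y
    rw [ZMod.val_zero, pow_zero]
    rfl
  show MCohom (⊥ : LF q) (zpw (zetaU p q) (acor E s (chiL p q) b))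
    (fun y => Yq p q y ^ (0 : ZMod p).val)
  rw [h1, h4]
  exact h3

end Fermat.Agent.PT.Loc
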