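import Mathlib
import Fermat.Agent.PT.Loc.Iface2
import Fermat.Agent.PT.Loc.H57ResInj

/-!
# W3-PT / PT-LOC, leaf LOC2-COR-COC (helper75): corestriction of `2`-cocycles

`h75c_corCoc : CorCoc` : the multiplicative corestriction `mcor E s β` of a continuous
`2`-cocycle `β` of `G_E` with values in `(Om q)ˣ` is a continuous `2`-cocycle of `G_{ℚ_q}`.

The abstract core (`h75c_cor_cocycle`, `h75c_cor_mul_right`) is pure group theory:
`G` a group, `H` a subgroup of finite index, `s` a section of `G → G ⧸ H`, `M` a commutative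
group with a `G`-action.
-/

set_option autoImplicit false

open scoped Classical

noncomputable section

namespace Fermat.Agent.PT.Loc

section Abs

variable {G : Type*} [Group G] (H : Subgroup G) {M : Type*} [CommGroup M]
  [MulDistribMulAction G M] (s : G ⧸ H → G)

/-- the `H`-valued cocycle of a section: `c(g, x) = s(x)⁻¹ · g · s(g⁻¹ x)`. -/
def h75c_sec (g : G) (x : G ⧸ H) : G := (s x)⁻¹ * g * s (g⁻¹ • x)

/-- corestriction of `2`-cochains along a section. -/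
def h75c_cor (β : G × G → M) : G × G → M :=
  fun y => ∏ᶠ a : G ⧸ H, s a • β (h75c_sec H s y.1 a, h75c_sec H s y.2 (y.1⁻¹ • a))

variable {H s}

lemma h75c_sec_mem (hs : ∀ x, (QuotientGroup.mk (s x) : G ⧸ H) = x) (g : G) (x : G ⧸ H) :
    h75c_sec H s g x ∈ H := by
  unfold h75c_sec
  rw [mul_assoc, ← QuotientGroup.eq, hs]
  have h1 : ((g * s (g⁻¹ • x) : G) : G ⧸ H) = g • ((s (g⁻¹ • x) : G) : G ⧸ H) := rfl
  rw [h1, hs, smul_inv_smul]

lemma h75c_sec_mul (g h : G) (x : G ⧸ H) :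
    h75c_sec H s (g * h) x = h75c_sec H s g x * h75c_sec H s h (g⁻¹ • x) := by
  simp only [h75c_sec, mul_inv_rev, mul_smul]
  group

lemma h75c_mul_sec (g : G) (x : G ⧸ H) :
    s x * h75c_sec H s g x = g * s (g⁻¹ • x) := by
  simp only [h75c_sec]
  group

/-- **the corestriction of a `2`-cocycle of `H` is a `2`-cocycle of `G`.** -/
theorem h75c_cor_cocycle [Finite (G ⧸ H)] (hs : ∀ x, (QuotientGroup.mk (s x) : G ⧸ H) = x)
    (β : G × G → M)
    (hβ : ∀ g ∈ H, ∀ h ∈ H, ∀ j ∈ H, β (g * h, j) * β (g, h) = g • β (h, j) * β (g, h * j))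
    (g h j : G) :
    h75c_cor H s β (g * h, j) * h75c_cor H s β (g, h) =
      g • h75c_cor H s β (h, j) * h75c_cor H s β (g, h * j) := by
  have : Fintype (G ⧸ H) := Fintype.ofFinite _
  simp only [h75c_cor, finprod_eq_prod_of_fintype]
  rw [← Finset.prod_mul_distrib, Finset.smul_prod']
  have hre : ∏ a : G ⧸ H, g • s a • β (h75c_sec H s h a, h75c_sec H s j (h⁻¹ • a)) =
      ∏ a : G ⧸ H, g • s (g⁻¹ • a) •
        β (h75c_sec H s h (g⁻¹ • a), h75c_sec H s j (h⁻¹ • g⁻¹ • a)) :=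
    (Equiv.prod_comp (MulAction.toPerm g⁻¹ : Equiv.Perm (G ⧸ H))
      (fun a => g • s a • β (h75c_sec H s h a, h75c_sec H s j (h⁻¹ • a)))).symm
  rw [hre, ← Finset.prod_mul_distrib]
  refine Finset.prod_congr rfl fun a _ => ?_
  have hu := h75c_sec_mem hs g a
  have hv := h75c_sec_mem hs h (g⁻¹ • a)
  have hw := h75c_sec_mem hs j (h⁻¹ • g⁻¹ • a)
  have e1 : (g * h)⁻¹ • a = h⁻¹ • g⁻¹ • a := by rw [mul_inv_rev, mul_smul]
  rw [e1, h75c_sec_mul g h a, ← smul_mul', hβ _ hu _ hv _ hw, smul_mul', ← mul_smul,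
    h75c_mul_sec, mul_smul, ← h75c_sec_mul]

/-- **continuity**: if `β` is right-invariant under the normal subgroup `N ≤ H` on `H × H`,
then so is its corestriction on `G × G`. -/
theorem h75c_cor_mul_right (hs : ∀ x, (QuotientGroup.mk (s x) : G ⧸ H) = x)
    (N : Subgroup G) [hN : N.Normal] (hNH : N ≤ H) (β : G × G → M)
    (hβ : ∀ g ∈ H, ∀ g' ∈ H, ∀ t ∈ N, ∀ t' ∈ N, β (g * t, g' * t') = β (g, g'))
    (g g' t t' : G) (ht : t ∈ N) (ht' : t' ∈ N) :
    h75c_cor H s β (g * t, g' * t') = h75c_cor H s β (g, g') := by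
  simp only [h75c_cor]
  refine finprod_congr fun a => ?_
  have hta : ∀ x : G ⧸ H, t⁻¹ • x = x := fun x =>
    h57_smul_eq_of_mem_normal H N hNH t⁻¹ (N.inv_mem ht) x
  have ht'a : ∀ x : G ⧸ H, t'⁻¹ • x = x := fun x =>
    h57_smul_eq_of_mem_normal H N hNH t'⁻¹ (N.inv_mem ht') x
  have e1 : (g * t)⁻¹ • a = g⁻¹ • a := by rw [mul_inv_rev, mul_smul, hta]
  have e2 : h75c_sec H s (g * t) a =
      h75c_sec H s g a * ((s (g⁻¹ • a))⁻¹ * t * s (g⁻¹ • a)) := by
    simp only [h75c_sec, e1]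
    group
  have e3 : ∀ x : G ⧸ H, h75c_sec H s (g' * t') x =
      h75c_sec H s g' x * ((s (g'⁻¹ • x))⁻¹ * t' * s (g'⁻¹ • x)) := by
    intro x
    have e4 : (g' * t')⁻¹ • x = g'⁻¹ • x := by rw [mul_inv_rev, mul_smul, ht'a]
    simp only [h75c_sec, e4]
    group
  have c1 : ∀ (y u : G), u ∈ N → y⁻¹ * u * y ∈ N := by
    intro y u hu
    have := hN.conj_mem u hu y⁻¹
    simpa using this
  rw [e1, e2, e3, hβ _ (h75c_sec_mem hs g a) _ (h75c_sec_mem hs g' _) _ (c1 _ _ ht) _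
    (c1 _ _ ht')]

end Abs

/-! ## The leaf -/

variable {q : ℕ} [Fact q.Prime]

lemma h75c_mcor_eq (E : LF q) (s : Gq q ⧸ GK E → Gq q) (β : Gq q × Gq q → (Om q)ˣ) :
    mcor E s β = h75c_cor (GK E) s β := rfl

/-- **LOC2-COR-COC**: the corestriction of a continuous `2`-cocycle of `G_E` is a continuous
`2`-cocycle of `G_{ℚ_q}`. -/
theorem h75c_corCoc : CorCoc := by
  intro q _ E _ s hs β hβ hcont
  have hfinq : Finite (Gq q ⧸ GK E) :=
    Subgroup.quotient_finite_of_isOpen _ (IntermediateField.fixingSubgroup_isOpen E)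
  refine ⟨?_, ?_⟩
  · intro g _ h _ j _
    rw [h75c_mcor_eq]
    exact h75c_cor_cocycle hs.1 β hβ g h j
  · obtain ⟨F, hFfin, hEF, hF⟩ := hcont
    have := hFfin
    obtain ⟨F', hFF', hF'fin, hF'n⟩ := h57_exists_normal_ge F
    refine ⟨F', hF'fin, bot_le, ?_⟩
    intro g _ g' _ t ht t' ht'
    rw [h75c_mcor_eq]
    have hNF : GK F' ≤ GK F := IntermediateField.fixingSubgroup_antitone hFF'
    have hNE : GK F' ≤ GK E := IntermediateField.fixingSubgroup_antitone (hEF.trans hFF')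
    exact h75c_cor_mul_right hs.1 (GK F') hNE β
      (fun u hu u' hu' v hv v' hv' => hF u hu u' hu' v (hNF hv) v' (hNF hv')) g g' t t' ht ht'

end Fermat.Agent.PT.Loc
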