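import Mathlib
import Fermat.Agent.PT.Loc.Iface

/-!
# W3-PT / PT-LOC, leaf MC-CARRY-NORM (helper90)

`h90c_carryNorm : MCH90 → MCCarryNorm` : for `K₁/K` cyclic of degree `n` with generator `σ` and
`b ∈ Kˣ`, the carry cocycle of `b` is a continuous coboundary on `G_K` iff `b` is a norm
from `K₁`.

* (`⇐`) `b = N β`: `carry b = ∂ z`, `z g = ∏_{k < idx g} σ^k β`.
* (`⇒`) `carry b = ∂ x`: `x` is a cocycle on `G_{K₁}`, hence `x s = s a / a` there (Hilbert 90);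
  `z g = x g · a / g a` is trivial on `G_{K₁}`, bi-invariant, with values in `K₁`, and
  `b = N (z σ)` by telescoping.
-/

set_option autoImplicit false
set_option linter.style.haveILetI false

open scoped Classical

noncomputable section

namespace Fermat.Agent.PT.Loc

variable {q : ℕ} [Fact q.Prime]

/-! ### Fixed points -/

theorem h90c_mem_of_fixed (K : LF q) (x : Om q) (h : ∀ s ∈ GK K, s x = x) : x ∈ K := by
  have h1 : x ∈ IntermediateField.fixedField K.fixingSubgroup :=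
    (IntermediateField.mem_fixedField_iff _ x).2 h
  rwa [InfiniteGalois.fixedField_fixingSubgroup] at h1

theorem h90c_GK_anti {K K₁ : LF q} (h : K ≤ K₁) : GK K₁ ≤ GK K := fun s hs =>
  (IntermediateField.mem_fixingSubgroup_iff K s).2 fun x hx =>
    (IntermediateField.mem_fixingSubgroup_iff K₁ s).1 hs x (h hx)

theorem h90c_smul_unit_eq {K : LF q} {s : Gq q} (hs : s ∈ GK K) {u : (Om q)ˣ}
    (hu : (u : Om q) ∈ K) : s • u = u :=
  Units.ext ((IntermediateField.mem_fixingSubgroup_iff K s).1 hs _ hu)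

/-! ### The index -/

section Idx

variable {K K₁ : LF q} {n : ℕ} {σ : Gq q}

theorem h90c_idx_spec (h : IsCyc K K₁ n σ) {g : Gq q} (hg : g ∈ GK K) :
    cycIdx K₁ σ n g < n ∧ (σ ^ cycIdx K₁ σ n g)⁻¹ * g ∈ GK K₁ := by
  unfold cycIdx
  rw [dif_pos (h.gen g hg)]
  exact Nat.find_spec (h.gen g hg)

theorem h90c_pow_sub_mem {g : Gq q} {i j : ℕ} (hi : (σ ^ i)⁻¹ * g ∈ GK K₁)
    (hj : (σ ^ j)⁻¹ * g ∈ GK K₁) (hij : i ≤ j) : σ ^ (j - i) ∈ GK K₁ := by
  have h1 := (GK K₁).mul_mem hi ((GK K₁).inv_mem hj)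
  have e : (σ ^ i)⁻¹ * g * ((σ ^ j)⁻¹ * g)⁻¹ = σ ^ (j - i) := by
    have hj' : σ ^ j = σ ^ i * σ ^ (j - i) := by rw [← pow_add, Nat.add_sub_cancel' hij]
    rw [hj']
    group
  rwa [e] at h1

theorem h90c_idx_eq (h : IsCyc K K₁ n σ) {g : Gq q} {i : ℕ} (hi : i < n)
    (hig : (σ ^ i)⁻¹ * g ∈ GK K₁) : cycIdx K₁ σ n g = i := by
  have hex : ∃ i, i < n ∧ (σ ^ i)⁻¹ * g ∈ GK K₁ := ⟨i, hi, hig⟩
  unfold cycIdx
  rw [dif_pos hex]
  have hle : Nat.find hex ≤ i := Nat.find_min' hex ⟨hi, hig⟩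
  rcases Nat.lt_or_ge (Nat.find hex) i with hlt | hge
  · exfalso
    have hspec := Nat.find_spec hex
    have hm := h90c_pow_sub_mem hspec.2 hig hlt.le
    exact h.ord (i - Nat.find hex) (by omega) (by omega) hm
  · omega

theorem h90c_pow_n_mem (h : IsCyc K K₁ n σ) : σ ^ n ∈ GK K₁ := by
  obtain ⟨i, hi, hmem⟩ := h.gen (σ ^ n) ((GK K).pow_mem h.mem n)
  have e : (σ ^ i)⁻¹ * σ ^ n = σ ^ (n - i) := by
    have hn : σ ^ n = σ ^ i * σ ^ (n - i) := by rw [← pow_add, Nat.add_sub_cancel' hi.le]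
    rw [hn]
    group
  rw [e] at hmem
  rcases Nat.eq_zero_or_pos i with h0 | hpos
  · subst h0
    simpa using hmem
  · exfalso
    exact h.ord (n - i) (by omega) (by omega) hmem

theorem h90c_idx_of_mem (h : IsCyc K K₁ n σ) {s : Gq q} (hs : s ∈ GK K₁) :
    cycIdx K₁ σ n s = 0 :=
  h90c_idx_eq h h.pos (by simpa using hs)

theorem h90c_idx_pow (h : IsCyc K K₁ n σ) {i : ℕ} (hi : i < n) :
    cycIdx K₁ σ n (σ ^ i) = i :=
  h90c_idx_eq h hi (by simp)

theorem h90c_idx_mul_right (h : IsCyc K K₁ n σ) {g s : Gq q} (hg : g ∈ GK K)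
    (hs : s ∈ GK K₁) : cycIdx K₁ σ n (g * s) = cycIdx K₁ σ n g := by
  obtain ⟨h1, h2⟩ := h90c_idx_spec h hg
  refine h90c_idx_eq h h1 ?_
  rw [← mul_assoc]
  exact (GK K₁).mul_mem h2 hs

theorem h90c_idx_mul_mem (h : IsCyc K K₁ n σ) {g g' : Gq q} (hg : g ∈ GK K)
    (hg' : g' ∈ GK K) :
    (σ ^ (cycIdx K₁ σ n g + cycIdx K₁ σ n g'))⁻¹ * (g * g') ∈ GK K₁ := by
  obtain ⟨-, h2⟩ := h90c_idx_spec h hg
  obtain ⟨-, h2'⟩ := h90c_idx_spec h hg'
  set i := cycIdx K₁ σ n g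
  set j := cycIdx K₁ σ n g'
  have hconj := h.normal _ ((GK K).inv_mem ((GK K).pow_mem h.mem j)) _ h2
  have h3 := (GK K₁).mul_mem hconj h2'
  have e : (σ ^ j)⁻¹ * ((σ ^ i)⁻¹ * g) * ((σ ^ j)⁻¹)⁻¹ * ((σ ^ j)⁻¹ * g') =
      (σ ^ (i + j))⁻¹ * (g * g') := by
    rw [pow_add]
    group
  rwa [e] at h3

theorem h90c_idx_mul_lt (h : IsCyc K K₁ n σ) {g g' : Gq q} (hg : g ∈ GK K)
    (hg' : g' ∈ GK K) (hlt : cycIdx K₁ σ n g + cycIdx K₁ σ n g' < n) :
    cycIdx K₁ σ n (g * g') = cycIdx K₁ σ n g + cycIdx K₁ σ n g' :=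
  h90c_idx_eq h hlt (h90c_idx_mul_mem h hg hg')

theorem h90c_idx_mul_ge (h : IsCyc K K₁ n σ) {g g' : Gq q} (hg : g ∈ GK K)
    (hg' : g' ∈ GK K) (hge : n ≤ cycIdx K₁ σ n g + cycIdx K₁ σ n g') :
    cycIdx K₁ σ n (g * g') = cycIdx K₁ σ n g + cycIdx K₁ σ n g' - n := by
  have h1 := (h90c_idx_spec h hg).1
  have h1' := (h90c_idx_spec h hg').1
  refine h90c_idx_eq h (by omega) ?_
  have h3 := (GK K₁).mul_mem (h90c_pow_n_mem h) (h90c_idx_mul_mem h hg hg')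
  have e : σ ^ n * ((σ ^ (cycIdx K₁ σ n g + cycIdx K₁ σ n g'))⁻¹ * (g * g')) =
      (σ ^ (cycIdx K₁ σ n g + cycIdx K₁ σ n g' - n))⁻¹ * (g * g') := by
    have hs : σ ^ (cycIdx K₁ σ n g + cycIdx K₁ σ n g') =
        σ ^ (cycIdx K₁ σ n g + cycIdx K₁ σ n g' - n) * σ ^ n := by
      rw [← pow_add, Nat.sub_add_cancel hge]
    rw [hs]
    group
  rwa [e] at h3

theorem h90c_smul_pow_smul (h : IsCyc K K₁ n σ) {g : Gq q} (hg : g ∈ GK K) {u : (Om q)ˣ}
    (hu : (u : Om q) ∈ K₁) (k : ℕ) :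
    g • σ ^ k • u = σ ^ (cycIdx K₁ σ n g + k) • u := by
  obtain ⟨-, hs⟩ := h90c_idx_spec h hg
  set i := cycIdx K₁ σ n g
  have hconj := h.normal _ ((GK K).inv_mem ((GK K).pow_mem h.mem k)) _ hs
  have e : g * σ ^ k = σ ^ (i + k) * ((σ ^ k)⁻¹ * ((σ ^ i)⁻¹ * g) * ((σ ^ k)⁻¹)⁻¹) := by
    rw [pow_add]
    group
  rw [← mul_smul, e, mul_smul, h90c_smul_unit_eq hconj hu]

theorem h90c_pow_add_smul (h : IsCyc K K₁ n σ) {u : (Om q)ˣ} (hu : (u : Om q) ∈ K₁)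
    (k : ℕ) : σ ^ (n + k) • u = σ ^ k • u := by
  rw [add_comm, pow_add, mul_smul, h90c_smul_unit_eq (h90c_pow_n_mem h) hu]

end Idx

/-! ### Partial norms -/

/-- the partial norm `∏_{k < m} σ^k u`. -/
def h90c_part (σ : Gq q) (u : (Om q)ˣ) (m : ℕ) : (Om q)ˣ :=
  ∏ k ∈ Finset.range m, σ ^ k • u

theorem h90c_coe_part (σ : Gq q) (u : (Om q)ˣ) (m : ℕ) :
    ((h90c_part σ u m : (Om q)ˣ) : Om q) = normAlong σ m (u : Om q) := by
  unfold h90c_part normAlong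
  rw [Units.coe_prod]
  rfl

theorem h90c_part_zero (σ : Gq q) (u : (Om q)ˣ) : h90c_part σ u 0 = 1 := by
  simp [h90c_part]

theorem h90c_part_succ (σ : Gq q) (u : (Om q)ˣ) (m : ℕ) :
    h90c_part σ u (m + 1) = h90c_part σ u m * σ ^ m • u :=
  Finset.prod_range_succ _ m

section Part

variable {K K₁ : LF q} {n : ℕ} {σ : Gq q}

theorem h90c_part_mul_smul (h : IsCyc K K₁ n σ) {g : Gq q} (hg : g ∈ GK K) {u : (Om q)ˣ}
    (hu : (u : Om q) ∈ K₁) (m : ℕ) :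
    h90c_part σ u (cycIdx K₁ σ n g) * g • h90c_part σ u m =
      h90c_part σ u (cycIdx K₁ σ n g + m) := by
  unfold h90c_part
  rw [Finset.prod_range_add, Finset.smul_prod']
  congr 1
  exact Finset.prod_congr rfl fun k _ => h90c_smul_pow_smul h hg hu k

theorem h90c_part_add_n (h : IsCyc K K₁ n σ) {u : (Om q)ˣ} (hu : (u : Om q) ∈ K₁) (m : ℕ) :
    h90c_part σ u (n + m) = h90c_part σ u n * h90c_part σ u m := by
  unfold h90c_part
  rw [Finset.prod_range_add]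
  congr 1
  exact Finset.prod_congr rfl fun k _ => h90c_pow_add_smul h hu k

end Part

/-! ### Norms give coboundaries -/

theorem h90c_cohom_of_isNorm {K K₁ : LF q} {n : ℕ} {σ : Gq q} (h : IsCyc K K₁ n σ)
    (b : (Om q)ˣ) (hN : IsNorm K₁ σ n (b : Om q)) : MCohom K (carry K₁ σ n b) 1 := by
  obtain ⟨β, hβ, hβ0, hNβ⟩ := hN
  have hu : ((Units.mk0 β hβ0 : (Om q)ˣ) : Om q) ∈ K₁ := hβ
  have hb : h90c_part σ (Units.mk0 β hβ0) n = b :=
    Units.ext (by rw [h90c_coe_part]; exact hNβ)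
  refine ⟨fun g => h90c_part σ (Units.mk0 β hβ0) (cycIdx K₁ σ n g), ⟨K₁, h.fin, h.le, ?_⟩, ?_⟩
  · intro g hg s hs
    show h90c_part σ _ (cycIdx K₁ σ n (g * s)) = h90c_part σ _ (cycIdx K₁ σ n g)
    rw [h90c_idx_mul_right h hg hs]
  · intro g hg g' hg'
    rw [Pi.one_apply, one_mul]
    have key := h90c_part_mul_smul h hg hu (cycIdx K₁ σ n g')
    show carry K₁ σ n b (g, g') =
      g • h90c_part σ _ (cycIdx K₁ σ n g') / h90c_part σ _ (cycIdx K₁ σ n (g * g')) *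
        h90c_part σ _ (cycIdx K₁ σ n g)
    rw [div_mul_eq_mul_div, mul_comm (g • _), key]
    unfold carry
    simp only
    split_ifs with hge
    · rw [h90c_idx_mul_ge h hg hg' hge]
      have e : cycIdx K₁ σ n g + cycIdx K₁ σ n g' =
          n + (cycIdx K₁ σ n g + cycIdx K₁ σ n g' - n) := by omega
      rw [eq_div_iff_mul_eq', mul_comm]
      conv_rhs => rw [e]
      rw [h90c_part_add_n h hu, hb]
      exact mul_comm _ _
    · rw [h90c_idx_mul_lt h hg hg' (not_le.1 hge), div_self']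

/-! ### Coboundaries give norms -/

section Conv

variable {K K₁ : LF q} {n : ℕ} {σ : Gq q}

theorem h90c_carry_of_lt (b : (Om q)ˣ) {g g' : Gq q}
    (hlt : cycIdx K₁ σ n g + cycIdx K₁ σ n g' < n) : carry K₁ σ n b (g, g') = 1 := by
  unfold carry
  simp only
  rw [if_neg (not_le.2 hlt)]

theorem h90c_carry_of_ge (b : (Om q)ˣ) {g g' : Gq q}
    (hge : n ≤ cycIdx K₁ σ n g + cycIdx K₁ σ n g') : carry K₁ σ n b (g, g') = b := by
  unfold carry
  simp only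
  rw [if_pos hge]

theorem h90c_cg1 {M : Type*} [CommGroup M] (x a c : M) : x * (a / x * c) = a * c := by
  rw [div_mul_eq_mul_div, mul_div_cancel]

theorem h90c_isNorm_of_cohom (hH : MCH90) (h : IsCyc K K₁ n σ) (b : (Om q)ˣ)
    (hb : (b : Om q) ∈ K) (hc : MCohom K (carry K₁ σ n b) 1) : IsNorm K₁ σ n (b : Om q) := by
  rcases Nat.lt_or_ge 1 n with hn | hn
  swap
  · have hn1 : n = 1 := by
      have := h.pos
      omega
    subst hn1
    exact ⟨(b : Om q), h.le hb, b.ne_zero, by simp [normAlong]⟩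
  obtain ⟨x, ⟨F, hFfin, hKF, hxF⟩, hx⟩ := hc
  have hle : GK K₁ ≤ GK K := h90c_GK_anti h.le
  have hidx0 : ∀ s ∈ GK K₁, cycIdx K₁ σ n s = 0 := fun s hs => h90c_idx_of_mem h hs
  have hidxlt : ∀ g ∈ GK K, cycIdx K₁ σ n g < n := fun g hg => (h90c_idx_spec h hg).1
  -- the basic relation
  have R : ∀ g ∈ GK K, ∀ g' ∈ GK K,
      x (g * g') * carry K₁ σ n b (g, g') = g • x g' * x g := by
    intro g hg g' hg'
    have h1 := hx g hg g' hg'
    rw [Pi.one_apply, one_mul] at h1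
    rw [h1]
    exact h90c_cg1 _ _ _
  -- Hilbert 90 on `G_{K₁}`
  have hcoc : MCoc1 K₁ x := by
    intro g hg g' hg'
    have h1 := R g (hle hg) g' (hle hg')
    rwa [h90c_carry_of_lt b (by rw [hidx0 g hg, hidx0 g' hg']; exact h.pos), mul_one] at h1
  have hcont : Cont1 K₁ x := by
    haveI := hFfin
    haveI := h.fin
    exact ⟨F ⊔ K₁, inferInstance, le_sup_right, fun g hg s hs =>
      hxF g (hle hg) s (h90c_GK_anti le_sup_left hs)⟩
  haveI := h.fin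
  obtain ⟨a, ha⟩ := hH q K₁ x hcoc hcont
  -- the normalised cochain
  have hy : ∀ g g' : Gq q, (g * g') • a / a = g • (g' • a / a) * (g • a / a) := by
    intro g g'
    rw [smul_div', mul_smul, div_mul_div_cancel]
  obtain ⟨z, hz⟩ : ∃ z : Gq q → (Om q)ˣ, ∀ g, z g = x g / (g • a / a) := ⟨_, fun _ => rfl⟩
  have hz1 : ∀ s ∈ GK K₁, z s = 1 := by
    intro s hs
    rw [hz, ha s hs, div_self']
  have R' : ∀ g ∈ GK K, ∀ g' ∈ GK K,
      z (g * g') * carry K₁ σ n b (g, g') = g • z g' * z g := by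
    intro g hg g' hg'
    rw [hz, hz, hz, div_mul_eq_mul_div, R g hg g' hg', hy, mul_div_mul_comm]
    simp only [smul_div']
  have hzr : ∀ g ∈ GK K, ∀ s ∈ GK K₁, z (g * s) = z g := by
    intro g hg s hs
    have h1 := R' g hg s (hle hs)
    rwa [h90c_carry_of_lt b (by rw [hidx0 s hs, add_zero]; exact hidxlt g hg), mul_one,
      hz1 s hs, smul_one, one_mul] at h1
  have hzl : ∀ s ∈ GK K₁, ∀ g ∈ GK K, z (s * g) = s • z g := by
    intro s hs g hg
    have h1 := R' s (hle hs) g hg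
    rwa [h90c_carry_of_lt b (by rw [hidx0 s hs, zero_add]; exact hidxlt g hg), mul_one,
      hz1 s hs, mul_one] at h1
  have hfix : ∀ g ∈ GK K, ∀ s ∈ GK K₁, s • z g = z g := by
    intro g hg s hs
    have hconj := h.normal g⁻¹ ((GK K).inv_mem hg) s hs
    have e : s * g = g * (g⁻¹ * s * g⁻¹⁻¹) := by group
    rw [← hzl s hs g hg, e, hzr g hg _ hconj]
  have hβ : ((z σ : (Om q)ˣ) : Om q) ∈ K₁ :=
    h90c_mem_of_fixed K₁ _ fun s hs => congrArg Units.val (hfix σ h.mem s hs)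
  have hσ1 : cycIdx K₁ σ n σ = 1 := by
    have := h90c_idx_pow h hn
    rwa [pow_one] at this
  have tel : ∀ m, m < n → z (σ ^ m) = h90c_part σ (z σ) m := by
    intro m
    induction m with
    | zero =>
      intro _
      rw [pow_zero, h90c_part_zero]
      exact hz1 1 (GK K₁).one_mem
    | succ m ih =>
      intro hm
      have h1 := R' (σ ^ m) ((GK K).pow_mem h.mem m) σ h.mem
      rw [h90c_carry_of_lt b (by rw [h90c_idx_pow h (by omega), hσ1]; exact hm), mul_one,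
        ih (by omega)] at h1
      rw [pow_succ, h1, h90c_part_succ, mul_comm]
  have hfin : b = h90c_part σ (z σ) n := by
    have h1 := R' (σ ^ (n - 1)) ((GK K).pow_mem h.mem _) σ h.mem
    have e : σ ^ (n - 1) * σ = σ ^ n := by
      rw [← pow_succ, Nat.sub_add_cancel h.pos]
    rw [h90c_carry_of_ge b (by rw [h90c_idx_pow h (by omega), hσ1]; omega), e,
      hz1 _ (h90c_pow_n_mem h), one_mul, tel (n - 1) (by omega)] at h1
    have e2 : n = (n - 1) + 1 := by omega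
    rw [h1]
    conv_rhs => rw [e2]
    rw [h90c_part_succ, mul_comm]
  refine ⟨((z σ : (Om q)ˣ) : Om q), hβ, Units.ne_zero _, ?_⟩
  rw [← h90c_coe_part, ← hfin]

end Conv

/-- **MC-CARRY-NORM.** -/
theorem h90c_carryNorm (hH : MCH90) : MCCarryNorm := by
  intro q _ K K₁ _ n σ b h hb
  exact ⟨h90c_isNorm_of_cohom hH h b hb, h90c_cohom_of_isNorm h b⟩

end Fermat.Agent.PT.Loc
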