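import Mathlib
import Fermat.Agent.PT.Loc.Iface2

/-!
# W3-PT / PT-LOC (helper94): restriction is injective on `H³` in index prime to `p`

Explicit transfer in degree three (the prism homotopy of Shapiro's lemma, summed over the
cosets): for `H ≤ G` of finite index `n` invertible in the field of coefficients `A` (trivial
action), a `3`-cocycle `c` of `G` whose restriction to `H` is the coboundary of `f` is the
coboundary of

`F(g, h) = n⁻¹ ∑_{x ∈ G/H} [ f(a, b) - c(s x, a, b) + c(g, s(g⁻¹ x), b) - c(g, h, s((g h)⁻¹ x)) ]`,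

`a = η(g, x)`, `b = η(h, g⁻¹ x)`, `η(g, x) = s(x)⁻¹ g s(g⁻¹ x) ∈ H`, `s = Quotient.out`.

* `h94v_cob_of_res`     : the statement for a group `G` and a subgroup `H`;
* `h94v_cob_of_res_rel` : the relative form (subgroups `H ≤ G` of an ambient group, cochains are
                          total functions on the ambient group), with invariance under a normal
                          subgroup `N ≤ H`;
* `h94v_vanCoprime3 : VanCoprime3` : the leaf LOC2-VAN-COPRIME3.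
-/

set_option autoImplicit false

open scoped Classical

noncomputable section

namespace Fermat.Agent.PT.Loc

section Abstract

variable {G : Type*} [Group G] (H : Subgroup G)

/-- `η(g, x) = s(x)⁻¹ g s(g⁻¹ x)`. -/
def h94v_eta (g : G) (x : G ⧸ H) : G :=
  (Quotient.out x)⁻¹ * g * Quotient.out (g⁻¹ • x)

lemma h94v_eta_mem (g : G) (x : G ⧸ H) : h94v_eta H g x ∈ H := by
  unfold h94v_eta
  rw [mul_assoc, ← QuotientGroup.eq, QuotientGroup.out_eq']
  have h : ((g * Quotient.out (g⁻¹ • x) : G) : G ⧸ H) = g • (g⁻¹ • x) := by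
    conv_rhs => rw [← QuotientGroup.out_eq' (g⁻¹ • x)]
    rfl
  rw [h, smul_inv_smul]

lemma h94v_eta_mul (g g' : G) (x : G ⧸ H) :
    h94v_eta H (g * g') x = h94v_eta H g x * h94v_eta H g' (g⁻¹ • x) := by
  simp only [h94v_eta, mul_inv_rev, mul_smul]
  group

lemma h94v_out_mul (g : G) (x : G ⧸ H) :
    Quotient.out x * h94v_eta H g x = g * Quotient.out (g⁻¹ • x) := by
  simp only [h94v_eta]
  group

variable {A : Type*} [Field A]

/-- The summand of the transfer formula. -/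
def h94v_term (c : G × G × G → A) (f : G × G → A) (g h : G) (x : G ⧸ H) : A :=
  f (h94v_eta H g x, h94v_eta H h (g⁻¹ • x))
    - c (Quotient.out x, h94v_eta H g x, h94v_eta H h (g⁻¹ • x))
    + c (g, Quotient.out (g⁻¹ • x), h94v_eta H h (g⁻¹ • x))
    - c (g, h, Quotient.out (h⁻¹ • g⁻¹ • x))

lemma h94v_term_identity (c : G × G × G → A) (f : G × G → A)
    (hc : ∀ g h j l : G,
      c (h, j, l) - c (g * h, j, l) + c (g, h * j, l) - c (g, h, j * l) + c (g, h, j) = 0)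
    (hf : ∀ g ∈ H, ∀ h ∈ H, ∀ j ∈ H,
      c (g, h, j) = f (h, j) - f (g * h, j) + f (g, h * j) - f (g, h))
    (g h j : G) (x : G ⧸ H) :
    h94v_term H c f h j (g⁻¹ • x) - h94v_term H c f (g * h) j x + h94v_term H c f g (h * j) x
      - h94v_term H c f g h x = c (g, h, j) := by
  have ha := h94v_eta_mem H g x
  have hb := h94v_eta_mem H h (g⁻¹ • x)
  have he := h94v_eta_mem H j (h⁻¹ • g⁻¹ • x)
  have h0 := hf _ ha _ hb _ he
  have h1 := hc (Quotient.out x) (h94v_eta H g x) (h94v_eta H h (g⁻¹ • x))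
    (h94v_eta H j (h⁻¹ • g⁻¹ • x))
  have h2 := hc g (Quotient.out (g⁻¹ • x)) (h94v_eta H h (g⁻¹ • x))
    (h94v_eta H j (h⁻¹ • g⁻¹ • x))
  have h3 := hc g h (Quotient.out (h⁻¹ • g⁻¹ • x)) (h94v_eta H j (h⁻¹ • g⁻¹ • x))
  have h4 := hc g h j (Quotient.out (j⁻¹ • h⁻¹ • g⁻¹ • x))
  rw [h94v_out_mul H g x] at h1
  rw [h94v_out_mul H h (g⁻¹ • x)] at h2
  rw [h94v_out_mul H j (h⁻¹ • g⁻¹ • x)] at h3
  simp only [h94v_term, h94v_eta_mul, mul_inv_rev, mul_smul]
  linear_combination (-1 : A) * h0 + h1 - h2 + h3 - h4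

/-- Restriction is injective on `H³` (trivial coefficients in a field in which the index is
invertible): the explicit transfer formula. -/
theorem h94v_cob_of_res [Fintype (G ⧸ H)] (hn : (Fintype.card (G ⧸ H) : A) ≠ 0)
    (c : G × G × G → A) (f : G × G → A)
    (hc : ∀ g h j l : G,
      c (h, j, l) - c (g * h, j, l) + c (g, h * j, l) - c (g, h, j * l) + c (g, h, j) = 0)
    (hf : ∀ g ∈ H, ∀ h ∈ H, ∀ j ∈ H,
      c (g, h, j) = f (h, j) - f (g * h, j) + f (g, h * j) - f (g, h)) (g h j : G) :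
    c (g, h, j) = (Fintype.card (G ⧸ H) : A)⁻¹ * ∑ x, h94v_term H c f h j x
      - (Fintype.card (G ⧸ H) : A)⁻¹ * ∑ x, h94v_term H c f (g * h) j x
      + (Fintype.card (G ⧸ H) : A)⁻¹ * ∑ x, h94v_term H c f g (h * j) x
      - (Fintype.card (G ⧸ H) : A)⁻¹ * ∑ x, h94v_term H c f g h x := by
  have hre : ∑ x, h94v_term H c f h j x = ∑ x, h94v_term H c f h j (g⁻¹ • x) :=
    (Fintype.sum_equiv (MulAction.toPerm g⁻¹) (fun x => h94v_term H c f h j (g⁻¹ • x))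
      (fun x => h94v_term H c f h j x) (fun x => rfl)).symm
  have hsum : ∑ x, h94v_term H c f h j x - ∑ x, h94v_term H c f (g * h) j x
      + ∑ x, h94v_term H c f g (h * j) x - ∑ x, h94v_term H c f g h x
      = (Fintype.card (G ⧸ H) : A) * c (g, h, j) := by
    rw [hre, ← Finset.sum_sub_distrib, ← Finset.sum_add_distrib, ← Finset.sum_sub_distrib]
    simp only [h94v_term_identity H c f hc hf, Finset.sum_const, Finset.card_univ, nsmul_eq_mul]
  rw [← mul_sub, ← mul_add, ← mul_sub, hsum, ← mul_assoc, inv_mul_cancel₀ hn, one_mul]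

lemma h94v_smul_eq_of_mem_normal (N : Subgroup G) [N.Normal] (hNH : N ≤ H) (s : G) (hs : s ∈ N)
    (x : G ⧸ H) : s • x = x := by
  induction x using QuotientGroup.induction_on with
  | H a =>
    change ((s * a : G) : G ⧸ H) = (a : G ⧸ H)
    rw [eq_comm, QuotientGroup.eq]
    apply hNH
    have h := ‹N.Normal›.conj_mem s hs a⁻¹
    simpa [mul_assoc] using h

lemma h94v_eta_mul_right (N : Subgroup G) [N.Normal] (hNH : N ≤ H) (g s : G) (hs : s ∈ N)
    (x : G ⧸ H) :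
    ∃ n ∈ N, h94v_eta H (g * s) x = h94v_eta H g x * n ∧ (g * s)⁻¹ • x = g⁻¹ • x := by
  have hx : s⁻¹ • (g⁻¹ • x) = g⁻¹ • x :=
    h94v_smul_eq_of_mem_normal H N hNH s⁻¹ (N.inv_mem hs) _
  have hgx : (g * s)⁻¹ • x = g⁻¹ • x := by rw [mul_inv_rev, mul_smul, hx]
  refine ⟨(Quotient.out (g⁻¹ • x))⁻¹ * s * Quotient.out (g⁻¹ • x), ?_, ?_, hgx⟩
  · have h := ‹N.Normal›.conj_mem s hs (Quotient.out (g⁻¹ • x))⁻¹
    simpa [mul_assoc] using h
  · simp only [h94v_eta, hgx]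
    group

lemma h94v_term_mul_right (N : Subgroup G) [N.Normal] (hNH : N ≤ H) (c : G × G × G → A)
    (f : G × G → A)
    (hcN : ∀ g g' g'' : G, ∀ s ∈ N, ∀ s' ∈ N, ∀ s'' ∈ N,
      c (g * s, g' * s', g'' * s'') = c (g, g', g''))
    (hfN : ∀ g ∈ H, ∀ g' ∈ H, ∀ s ∈ N, ∀ s' ∈ N, f (g * s, g' * s') = f (g, g'))
    (g h s s' : G) (hs : s ∈ N) (hs' : s' ∈ N) (x : G ⧸ H) :
    h94v_term H c f (g * s) (h * s') x = h94v_term H c f g h x := by
  obtain ⟨n₁, hn₁, e₁, hgx⟩ := h94v_eta_mul_right H N hNH g s hs x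
  obtain ⟨n₂, hn₂, e₂, hhx⟩ := h94v_eta_mul_right H N hNH h s' hs' (g⁻¹ • x)
  unfold h94v_term
  rw [hgx, e₁, e₂, hhx, hfN _ (h94v_eta_mem H g x) _ (h94v_eta_mem H h (g⁻¹ • x)) _ hn₁ _ hn₂]
  have e1 : c (Quotient.out x, h94v_eta H g x * n₁, h94v_eta H h (g⁻¹ • x) * n₂)
      = c (Quotient.out x, h94v_eta H g x, h94v_eta H h (g⁻¹ • x)) := by
    have := hcN (Quotient.out x) (h94v_eta H g x) (h94v_eta H h (g⁻¹ • x)) 1 N.one_mem _ hn₁ _ hn₂
    rwa [mul_one] at this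
  have e2 : c (g * s, Quotient.out (g⁻¹ • x), h94v_eta H h (g⁻¹ • x) * n₂)
      = c (g, Quotient.out (g⁻¹ • x), h94v_eta H h (g⁻¹ • x)) := by
    have := hcN g (Quotient.out (g⁻¹ • x)) (h94v_eta H h (g⁻¹ • x)) s hs 1 N.one_mem _ hn₂
    rwa [mul_one] at this
  have e3 : c (g * s, h * s', Quotient.out (h⁻¹ • g⁻¹ • x))
      = c (g, h, Quotient.out (h⁻¹ • g⁻¹ • x)) := by
    have := hcN g h (Quotient.out (h⁻¹ • g⁻¹ • x)) s hs s' hs' 1 N.one_mem
    rwa [mul_one] at this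
  rw [e1, e2, e3]

end Abstract

section Relative

variable {Γ : Type*} [Group Γ] {A : Type*} [Field A]

/-- The relative form: `H ≤ G` subgroups of an ambient group `Γ`, cochains are total functions on
`Γ`, all conditions are required on `G` (resp. `H`) only; invariance under a normal subgroup
`N ≤ H` is preserved. -/
theorem h94v_cob_of_res_rel (G H N : Subgroup Γ) (hHG : H ≤ G) (hNH : N ≤ H) [hN : N.Normal]
    (hidx : (((H.subgroupOf G).index : ℕ) : A) ≠ 0) (c : Γ × Γ × Γ → A) (f : Γ × Γ → A)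
    (hc : ∀ g ∈ G, ∀ h ∈ G, ∀ j ∈ G, ∀ l ∈ G,
      c (h, j, l) - c (g * h, j, l) + c (g, h * j, l) - c (g, h, j * l) + c (g, h, j) = 0)
    (hf : ∀ g ∈ H, ∀ h ∈ H, ∀ j ∈ H,
      c (g, h, j) = f (h, j) - f (g * h, j) + f (g, h * j) - f (g, h))
    (hcN : ∀ g ∈ G, ∀ g' ∈ G, ∀ g'' ∈ G, ∀ s ∈ N, ∀ s' ∈ N, ∀ s'' ∈ N,
      c (g * s, g' * s', g'' * s'') = c (g, g', g''))
    (hfN : ∀ g ∈ H, ∀ g' ∈ H, ∀ s ∈ N, ∀ s' ∈ N, f (g * s, g' * s') = f (g, g')) :
    ∃ F : Γ × Γ → A,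
      (∀ g ∈ G, ∀ g' ∈ G, ∀ s ∈ N, ∀ s' ∈ N, F (g * s, g' * s') = F (g, g')) ∧
      ∀ g ∈ G, ∀ h ∈ G, ∀ j ∈ G,
        c (g, h, j) = F (h, j) - F (g * h, j) + F (g, h * j) - F (g, h) := by
  have hne : (H.subgroupOf G).index ≠ 0 := by
    intro h0
    rw [h0] at hidx
    exact hidx Nat.cast_zero
  have : Fintype (↥G ⧸ H.subgroupOf G) := Subgroup.fintypeOfIndexNeZero hne
  have hcard : (Fintype.card (↥G ⧸ H.subgroupOf G) : A) ≠ 0 := by
    have h1 : Fintype.card (↥G ⧸ H.subgroupOf G) = (H.subgroupOf G).index := by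
      rw [Subgroup.index, Nat.card_eq_fintype_card]
    rw [h1]
    exact hidx
  let c' : ↥G × ↥G × ↥G → A := fun z => c ((z.1 : Γ), (z.2.1 : Γ), (z.2.2 : Γ))
  let f' : ↥G × ↥G → A := fun z => f ((z.1 : Γ), (z.2 : Γ))
  have hc' : ∀ g h j l : ↥G,
      c' (h, j, l) - c' (g * h, j, l) + c' (g, h * j, l) - c' (g, h, j * l) + c' (g, h, j) = 0 :=
    fun g h j l => hc g g.2 h h.2 j j.2 l l.2
  have hf' : ∀ g ∈ H.subgroupOf G, ∀ h ∈ H.subgroupOf G, ∀ j ∈ H.subgroupOf G,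
      c' (g, h, j) = f' (h, j) - f' (g * h, j) + f' (g, h * j) - f' (g, h) :=
    fun g hg h hh j hj => hf g (Subgroup.mem_subgroupOf.1 hg) h (Subgroup.mem_subgroupOf.1 hh)
      j (Subgroup.mem_subgroupOf.1 hj)
  have hN' : (N.subgroupOf G).Normal := hN.subgroupOf G
  have hNH' : N.subgroupOf G ≤ H.subgroupOf G := fun g hg =>
    Subgroup.mem_subgroupOf.2 (hNH (Subgroup.mem_subgroupOf.1 hg))
  have hcN' : ∀ g g' g'' : ↥G, ∀ s ∈ N.subgroupOf G, ∀ s' ∈ N.subgroupOf G,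
      ∀ s'' ∈ N.subgroupOf G, c' (g * s, g' * s', g'' * s'') = c' (g, g', g'') :=
    fun g g' g'' s hs s' hs' s'' hs'' =>
      hcN g g.2 g' g'.2 g'' g''.2 s (Subgroup.mem_subgroupOf.1 hs) s'
        (Subgroup.mem_subgroupOf.1 hs') s'' (Subgroup.mem_subgroupOf.1 hs'')
  have hfN' : ∀ g ∈ H.subgroupOf G, ∀ g' ∈ H.subgroupOf G, ∀ s ∈ N.subgroupOf G,
      ∀ s' ∈ N.subgroupOf G, f' (g * s, g' * s') = f' (g, g') :=
    fun g hg g' hg' s hs s' hs' =>
      hfN g (Subgroup.mem_subgroupOf.1 hg) g' (Subgroup.mem_subgroupOf.1 hg') s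
        (Subgroup.mem_subgroupOf.1 hs) s' (Subgroup.mem_subgroupOf.1 hs')
  let F' : ↥G → ↥G → A := fun g h =>
    (Fintype.card (↥G ⧸ H.subgroupOf G) : A)⁻¹ * ∑ x, h94v_term (H.subgroupOf G) c' f' g h x
  refine ⟨fun z => if hz : z.1 ∈ G ∧ z.2 ∈ G then F' ⟨z.1, hz.1⟩ ⟨z.2, hz.2⟩ else 0, ?_, ?_⟩
  · intro g hg g' hg' s hs s' hs'
    have hsG : s ∈ G := hHG (hNH hs)
    have hs'G : s' ∈ G := hHG (hNH hs')
    have hgs : g * s ∈ G := G.mul_mem hg hsG
    have hgs' : g' * s' ∈ G := G.mul_mem hg' hs'G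
    simp only [dif_pos (And.intro hgs hgs'), dif_pos (And.intro hg hg')]
    have hsN : (⟨s, hsG⟩ : ↥G) ∈ N.subgroupOf G := Subgroup.mem_subgroupOf.2 hs
    have hs'N : (⟨s', hs'G⟩ : ↥G) ∈ N.subgroupOf G := Subgroup.mem_subgroupOf.2 hs'
    have hmul : (⟨g * s, hgs⟩ : ↥G) = ⟨g, hg⟩ * ⟨s, hsG⟩ := rfl
    have hmul' : (⟨g' * s', hgs'⟩ : ↥G) = ⟨g', hg'⟩ * ⟨s', hs'G⟩ := rfl
    simp only [F', hmul, hmul']
    congr 1
    refine Finset.sum_congr rfl fun x _ => ?_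
    exact h94v_term_mul_right (H.subgroupOf G) (N.subgroupOf G) hNH' c' f' hcN' hfN' _ _ _ _
      hsN hs'N x
  · intro g hg h hh j hj
    have hgh : g * h ∈ G := G.mul_mem hg hh
    have hhj : h * j ∈ G := G.mul_mem hh hj
    simp only [dif_pos (And.intro hh hj), dif_pos (And.intro hgh hj),
      dif_pos (And.intro hg hhj), dif_pos (And.intro hg hh)]
    exact h94v_cob_of_res (H.subgroupOf G) hcard c' f' hc' hf' ⟨g, hg⟩ ⟨h, hh⟩ ⟨j, hj⟩

end Relative

/-! ## The form in the vocabulary of `Loc/Basic.lean` -/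

section LocForm

variable {q : ℕ} [Fact q.Prime] {p : ℕ} [Fact p.Prime]

/-- Every finite extension is contained in a finite normal extension, whose absolute Galois group
is a normal subgroup of `Gq q`. -/
theorem h94v_exists_normal_ge (F : LF q) [FiniteDimensional ℚ_[q] F] :
    ∃ F' : LF q, F ≤ F' ∧ FiniteDimensional ℚ_[q] F' ∧ (GK F').Normal := by
  have : IsAlgClosure ℚ_[q] (Om q) := ⟨inferInstance, AlgebraicClosure.isAlgebraic ℚ_[q]⟩
  have : IsGalois ℚ_[q] (Om q) := IsAlgClosure.isGalois ℚ_[q] (Om q)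
  refine ⟨IntermediateField.normalClosure ℚ_[q] F (Om q), IntermediateField.le_normalClosure F,
    inferInstance, ?_⟩
  have : Normal ℚ_[q] (IntermediateField.normalClosure ℚ_[q] F (Om q)) := inferInstance
  have : IsGalois ℚ_[q] (IntermediateField.normalClosure ℚ_[q] F (Om q)) := ⟨⟩
  exact IsGalois.fixingSubgroup_normal_of_isGalois _

/-- **Restriction is injective on `H³(G_K, 𝔽_p)` in index prime to `p`.** -/
theorem h94v_acob3_of_res (K K₁ : LF q) (hle : K ≤ K₁)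
    (hp : ¬ p ∣ ((GK K₁).subgroupOf (GK K)).index)
    (c : Gq q × Gq q × Gq q → ZMod p) (hc : ACoc3 K c) (hcont : Cont3 K c) (h : ACob3 K₁ c) :
    ACob3 K c := by
  obtain ⟨f, ⟨F₁, hF₁fin, hK₁F₁, hfF₁⟩, hf⟩ := h
  obtain ⟨F, hFfin, hKF, hcF⟩ := hcont
  have := hF₁fin
  have := hFfin
  have : FiniteDimensional ℚ_[q] ↥(F ⊔ F₁) := IntermediateField.finiteDimensional_sup F F₁
  obtain ⟨F', hFF', hF'fin, hF'n⟩ := h94v_exists_normal_ge (F ⊔ F₁)
  have hF'F : GK F' ≤ GK F := IntermediateField.fixingSubgroup_antitone (le_sup_left.trans hFF')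
  have hF'F₁ : GK F' ≤ GK F₁ := IntermediateField.fixingSubgroup_antitone (le_sup_right.trans hFF')
  have hF₁K₁ : GK F₁ ≤ GK K₁ := IntermediateField.fixingSubgroup_antitone hK₁F₁
  have hK₁K : GK K₁ ≤ GK K := IntermediateField.fixingSubgroup_antitone hle
  have hidx : ((((GK K₁).subgroupOf (GK K)).index : ℕ) : ZMod p) ≠ 0 := by
    intro h0
    exact hp ((ZMod.natCast_eq_zero_iff _ _).1 h0)
  obtain ⟨F₀, hF₀N, hF₀⟩ := h94v_cob_of_res_rel (A := ZMod p) (GK K) (GK K₁) (GK F') hK₁K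
    (hF'F₁.trans hF₁K₁) hidx c f hc
    (fun g hg h hh j hj => by
      have := hf g hg h hh j hj
      simpa [acob2] using this)
    (fun g hg g' hg' g'' hg'' s hs s' hs' s'' hs'' =>
      hcF g hg g' hg' g'' hg'' s (hF'F hs) s' (hF'F hs') s'' (hF'F hs''))
    (fun g hg g' hg' s hs s' hs' => hfF₁ g hg g' hg' s (hF'F₁ hs) s' (hF'F₁ hs'))
  refine ⟨F₀, ⟨F', hF'fin, hKF.trans (le_sup_left.trans hFF'), hF₀N⟩, fun g hg h hh j hj => ?_⟩
  have := hF₀ g hg h hh j hj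
  simpa [acob2] using this

/-- **LOC2-VAN-COPRIME3.** -/
theorem h94v_vanCoprime3 : VanCoprime3 := by
  intro q _ p _ K K₁ _ _ hle hp c hc hcont h
  exact h94v_acob3_of_res K K₁ hle hp c hc hcont h

end LocForm

end Fermat.Agent.PT.Loc
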