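/-
W3-PT (S55), PT-LOC part 2, leaf LOC2-UR-RESIDX (helper96): compatibility of the unramified
indices of `K` and `E ⊇ K`.

`h96r_urResIdx : URResIdx` (unconditional): for `g ∈ G_E`,
`cycIdx (Kur K (f m)) φ (f m) g = f · cycIdx (Kur E m) φ' m g` when `N_E = N_K ^ f`.
Proof: evaluate `URIdx` for `K` (degree `f m`) and for `E` (degree `m`) on a primitive
`(N_K^(f m) - 1)`-th root of unity.
-/
import Mathlib
import Fermat.Agent.PT.Loc.Iface2
import Fermat.Agent.PT.Loc.H49URIdx
import Fermat.Agent.PT.Loc.H66URConj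
import Fermat.Agent.PT.Loc.H66URVal
import Fermat.Agent.PT.Loc.H74URValGal
import Fermat.Agent.PT.Loc.H34LFTeich

set_option autoImplicit false

namespace Fermat.Agent.PT.Loc

variable {q : ℕ} [Fact q.Prime]

/-- `cycIdx` is always `< n` for `0 < n`. -/
theorem h96r_cycIdx_lt (K₁ : LF q) (σ : Gq q) {n : ℕ} (hn : 0 < n) (g : Gq q) :
    cycIdx K₁ σ n g < n := by
  classical
  by_cases h : ∃ i, i < n ∧ (σ ^ i)⁻¹ * g ∈ GK K₁
  · exact (h49_cycIdx_spec K₁ σ n g h).1
  · unfold cycIdx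
    rw [dif_neg h]
    exact hn

/-- **LOC2-UR-RESIDX.** -/
theorem h96r_urResIdx : URResIdx := by
  intro q _ K E _ _ f m φ φ' hKE hf hm hres hφ hφ' g hg
  have hT : LFTeich := h34lf_lfTeich
  have hI : URIdx := h49_urIdx_of hT (h66v_urCyc hT)
  have hN2 : 2 ≤ resCard K := h66v_two_le_resCard hT K
  have hn : 0 < f * m := Nat.mul_pos hf hm
  have hgK : g ∈ GK K := IntermediateField.fixingSubgroup_antitone hKE hg
  have hi := h96r_cycIdx_lt (Kur K (f * m)) φ hn g
  have hj := h96r_cycIdx_lt (Kur E m) φ' hm g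
  rcases Nat.lt_or_ge (f * m) 2 with h1 | h2
  · -- degree one: both indices vanish
    have hfm : f * m = 1 := by omega
    have hm1 : m = 1 := Nat.eq_one_of_mul_eq_one_left hfm
    have hi0 : cycIdx (Kur K (f * m)) φ (f * m) g = 0 := by omega
    have hj0 : cycIdx (Kur E m) φ' m g = 0 := by omega
    rw [hi0, hj0, mul_zero]
  · have hpow2 : 2 ≤ resCard K ^ (f * m) :=
      calc 2 ≤ resCard K := hN2
        _ = resCard K ^ 1 := (pow_one _).symm
        _ ≤ resCard K ^ (f * m) := Nat.pow_le_pow_right (by omega) hn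
    have hMpos : 0 < resCard K ^ (f * m) - 1 := by omega
    obtain ⟨w, hw⟩ := h74v_exists_primitiveRoot (q := q) (resCard K ^ (f * m) - 1) hMpos
    have e1 := hI q K (f * m) φ hn hφ g hgK w hw.pow_eq_one
    have hw' : w ^ (resCard E ^ m - 1) = 1 := by
      rw [hres, ← pow_mul]
      exact hw.pow_eq_one
    have e2 := hI q E m φ' hm hφ' g hg w hw'
    rw [e1, hres, ← pow_mul] at e2
    have hlt1 : resCard K ^ cycIdx (Kur K (f * m)) φ (f * m) g < resCard K ^ (f * m) - 1 :=
      h66v_pow_lt hN2 h2 hi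
    have hfj : f * cycIdx (Kur E m) φ' m g < f * m := Nat.mul_lt_mul_of_pos_left hj hf
    have hlt2 : resCard K ^ (f * cycIdx (Kur E m) φ' m g) < resCard K ^ (f * m) - 1 :=
      h66v_pow_lt hN2 h2 hfj
    have e3 := hw.pow_inj hlt1 hlt2 e2
    exact Nat.pow_right_injective hN2 e3

end Fermat.Agent.PT.Loc
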