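import Fermat.Agent.PT.Shap.LC
import Fermat.Agent.PT.Shap.SecLC
import Fermat.Agent.PT.Loc.Iface2
import Fermat.Agent.PT.Loc.H57ResInj

/-!
# W3-PT / PT-LOC, leaf LOC2-COR-RES (helper97): `cor ∘ res = [E : ℚ_q]`

* abstract part (Shapiro core, helper56): for a finite `G`-set `X` with orbit data `D` and a
  `2`-cocycle `y` of `G` with values in `B`, the constant family `f = const y` satisfies
  `Σ_X ex₂ (sh₂ f) = #X • y + d w`, `w = Σ_X hh₂ f` (`h97c_sum_ex2`), and `w` is right-invariant
  under a normal subgroup acting trivially on `X` under which `y` is right-invariant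
  (`h97c_w_inv`);
* `h97c_dma`   : the additive form of a multiplicative distributive action;
* `h97c_corRes : CorRes`.
-/

set_option autoImplicit false
set_option linter.unusedSectionVars false
set_option linter.style.haveILetI false

open scoped Classical

namespace Fermat.Agent.PT.Loc

open MulAction Fermat.Agent.PT.Shap

/-! ## Abstract part: `cor ∘ res = index` on the level of cochains -/

section abstract

variable {G X B : Type*} [Group G] [MulAction G X] [AddCommGroup B] [DistribMulAction G B]
variable [Fintype X] (D : h56s_OrbitData G X)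

/-- the constant family attached to a `2`-cochain. -/
def h97c_const (y : G × G → B) : G × G → X → B := fun p _ => y p

/-- the homotopy cochain `w = Σ_X hh₂ (const y)`. -/
def h97c_w (y : G × G → B) : G → B := fun g => ∑ x : X, D.hh2 (h97c_const (X := X) y) g x

lemma h97c_dX2_const (y : G × G → B)
    (hy : ∀ g h j : G, g • y (h, j) - y (g * h, j) + y (g, h * j) - y (g, h) = 0) :
    h56s_dX2 (h97c_const (X := X) y) = 0 := by
  funext p x
  obtain ⟨g, h, j⟩ := p
  simp only [h56s_dX2, h97c_const, Pi.zero_apply]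
  exact hy g h j

lemma h97c_hh3_zero : D.hh3 (0 : G × G × G → X → B) = 0 := by
  funext p x
  simp [h56s_OrbitData.hh3]

/-- pointwise: `ex₂ (sh₂ (const y)) = y + d (hh₂ (const y))`. -/
lemma h97c_pointwise (y : G × G → B)
    (hy : ∀ g h j : G, g • y (h, j) - y (g * h, j) + y (g, h * j) - y (g, h) = 0)
    (g h : G) (x : X) :
    D.ex2 (D.sh2 (h97c_const (X := X) y)) (g, h) x
      = y (g, h) + h56s_dX1 (D.hh2 (h97c_const (X := X) y)) (g, h) x := by
  have e := D.hom2 (h97c_const (X := X) y) g h x
  rw [h97c_dX2_const y hy, h97c_hh3_zero] at e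
  simp only [Pi.zero_apply, sub_zero] at e
  have e' : h97c_const (X := X) y (g, h) x = y (g, h) := rfl
  rw [e'] at e
  rw [e]
  abel

/-- **`cor ∘ res = #X`** on cochains: `Σ_X ex₂ (sh₂ (const y)) = #X • y + d w`. -/
theorem h97c_sum_ex2 (y : G × G → B)
    (hy : ∀ g h j : G, g • y (h, j) - y (g * h, j) + y (g, h * j) - y (g, h) = 0)
    (g h : G) :
    ∑ x : X, D.ex2 (D.sh2 (h97c_const (X := X) y)) (g, h) x
      = Fintype.card X • y (g, h) + (g • h97c_w D y h - h97c_w D y (g * h) + h97c_w D y g) := by
  simp only [h97c_pointwise D y hy, Finset.sum_add_distrib, Finset.sum_const, Finset.card_univ]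
  congr 1
  simp only [h56s_dX1, Finset.sum_add_distrib, Finset.sum_sub_distrib, h97c_w]
  congr 2
  rw [Finset.smul_sum]
  exact Equiv.sum_comp (MulAction.toPerm g⁻¹) (fun x => g • D.hh2 (h97c_const (X := X) y) h x)

/-- `w` is right-invariant under a normal subgroup acting trivially on `X` under which `y` is
right-invariant. -/
theorem h97c_w_inv (N : Subgroup G) [N.Normal] (hN : ∀ n ∈ N, ∀ x : X, n • x = x)
    (y : G × G → B) (hy : ∀ g g' s s' : G, s ∈ N → s' ∈ N → y (g * s, g' * s') = y (g, g'))
    (g n : G) (hn : n ∈ N) : h97c_w D y (g * n) = h97c_w D y g := by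
  simp only [h97c_w]
  rw [D.h69s_hh2_inv N hN (h97c_const (X := X) y)
    (fun g g' s s' hs hs' => by funext x; exact hy g g' s s' hs hs') g n hn]

end abstract

/-! ## The local statement -/

section loc

variable {q : ℕ} [Fact q.Prime]

/-- the action of a group on `Additive M` coming from a multiplicative distributive action. -/
@[reducible] def h97c_dma (G M : Type*) [Group G] [CommGroup M] [MulDistribMulAction G M] :
    DistribMulAction G (Additive M) where
  smul g b := Additive.ofMul (g • b.toMul)
  one_smul b := by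
    change Additive.ofMul ((1 : G) • b.toMul) = b
    rw [one_smul]; rfl
  mul_smul g h b := by
    change Additive.ofMul ((g * h) • b.toMul) = Additive.ofMul (g • (h • b.toMul))
    rw [mul_smul]
  smul_zero g := by
    change Additive.ofMul (g • (1 : M)) = 0
    rw [smul_one]; rfl
  smul_add g b c := by
    change Additive.ofMul (g • (b.toMul * c.toMul)) = _
    rw [smul_mul']; rfl

/-- the Shapiro section attached to a section in the sense of `IsSec`. -/
def h97c_sec (E : LF q) (s : Gq q ⧸ GK E → Gq q) (hs : IsSec E s) : h56s_Sec (Gq q) (GK E) :=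
  ⟨s, hs.1, hs.2⟩

lemma h97c_mem_bot (g : Gq q) : g ∈ GK (⊥ : LF q) := by
  have h : GK (⊥ : LF q) = ⊤ := IntermediateField.fixingSubgroup_bot
  rw [h]
  trivial

/-- **COR-RES**: `cor ∘ res = [E : ℚ_q]`. -/
theorem h97c_corRes : CorRes := by
  intro q _ E _ s hs y hy hcont
  haveI hGal := h57_isGalois_Om q
  have hidx : (GK E).index = Module.finrank ℚ_[q] E :=
    (IntermediateField.finrank_eq_fixingSubgroup_index (L := E)).symm
  haveI : (GK E).FiniteIndex := ⟨by rw [hidx]; exact Module.finrank_pos.ne'⟩
  haveI : Finite (Gq q ⧸ GK E) := Subgroup.finite_quotient_of_finiteIndex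
  letI : Fintype (Gq q ⧸ GK E) := Fintype.ofFinite _
  have hcard : Fintype.card (Gq q ⧸ GK E) = Module.finrank ℚ_[q] E := by
    rw [← hidx, Subgroup.index_eq_card, Nat.card_eq_fintype_card]
  letI : DistribMulAction (Gq q) (Additive (Om q)ˣ) := h97c_dma (Gq q) (Om q)ˣ
  let D := (h97c_sec E s hs).god
  let ya : Gq q × Gq q → Additive (Om q)ˣ := fun p => Additive.ofMul (y p)
  have hya : ∀ g h j : Gq q, g • ya (h, j) - ya (g * h, j) + ya (g, h * j) - ya (g, h) = 0 := by
    intro g h j
    have e := hy g (h97c_mem_bot g) h (h97c_mem_bot h) j (h97c_mem_bot j)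
    have e' : g • ya (h, j) + ya (g, h * j) = ya (g * h, j) + ya (g, h) :=
      congrArg Additive.ofMul e.symm
    rw [sub_add_eq_add_sub, e']
    abel
  obtain ⟨F, hFfin, -, hF⟩ := hcont
  haveI := hFfin
  haveI : FiniteDimensional ℚ_[q] ↥(F ⊔ E) := IntermediateField.finiteDimensional_sup F E
  obtain ⟨F', hFF', hF'fin, hF'n⟩ := h57_exists_normal_ge (F ⊔ E)
  have hF'F : GK F' ≤ GK F := IntermediateField.fixingSubgroup_antitone (le_sup_left.trans hFF')
  have hF'E : GK F' ≤ GK E := IntermediateField.fixingSubgroup_antitone (le_sup_right.trans hFF')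
  have htriv : ∀ n ∈ GK F', ∀ x : Gq q ⧸ GK E, n • x = x :=
    fun n hn x => h56s_smul_eq_of_normal_le hF'n hF'E n hn x
  have hyinv : ∀ g g' s s' : Gq q, s ∈ GK F' → s' ∈ GK F' → ya (g * s, g' * s') = ya (g, g') :=
    fun g g' s s' hs hs' => congrArg Additive.ofMul
      (hF g (h97c_mem_bot g) g' (h97c_mem_bot g') s (hF'F hs) s' (hF'F hs'))
  refine ⟨fun g => (h97c_w D ya g).toMul, ⟨F', hF'fin, bot_le, fun g _ n hn => ?_⟩,
    fun g _ h _ => ?_⟩
  · exact congrArg Additive.toMul (h97c_w_inv D (GK F') htriv ya hyinv g n hn)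
  · have key := h97c_sum_ex2 D ya hya g h
    rw [hcard] at key
    apply Additive.ofMul.injective
    have e1 : Additive.ofMul (mcor E s y (g, h))
        = ∑ x : Gq q ⧸ GK E, D.ex2 (D.sh2 (h97c_const (X := Gq q ⧸ GK E) ya)) (g, h) x := by
      simp only [mcor]
      rw [finprod_eq_prod_of_fintype, ofMul_prod]
      rfl
    rw [e1, key]
    rfl

end loc

end Fermat.Agent.PT.Loc
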