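import Mathlib
import Fermat.Agent.PT.Loc.Basic
import Fermat.Agent.PT.Loc.Iface

/-!
# W3-PT / PT-LOC, leaf LF-IMM (helper39): immediate extensions of local fields are trivial

`h39lf_imm_of : LFUnif → LFTeich → LFImm`.

If `K ≤ L` are finite over `ℚ_q` inside `PadicAlgCl q`, every norm of `L` is a norm of `K` and
`resCard L = resCard K`, then `L ≤ K`.

Proof (successive approximation).  `μ'(K) = μ'(L)` (finite sets of the same cardinality), and a
uniformizer `π` of `K` bounds the norm of every element of `L` of norm `< 1`.  For `x ∈ L`,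
`x ≠ 0`, pick `y₀ ∈ K` with `‖y₀‖ = ‖x‖` and a Teichmüller representative `w ∈ μ'(L) = μ'(K)` of
the unit `x / y₀`; then `‖x - w y₀‖ ≤ ‖π‖ ‖x‖`.  Iterating, `x` is a limit of elements of `K`,
and `K` is closed (finite dimensional over the complete field `ℚ_q`).
-/

set_option autoImplicit false

open scoped Classical

noncomputable section

namespace Fermat.Agent.PT.Loc

variable {q : ℕ} [Fact q.Prime]

/-- A subfield of `PadicAlgCl q` which is finite over `ℚ_q` is closed. -/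
theorem h39lf_isClosed (K : LF q) [FiniteDimensional ℚ_[q] K] :
    IsClosed (K : Set (Om q)) := by
  have : FiniteDimensional ℚ_[q] (K.toSubalgebra.toSubmodule) := ‹FiniteDimensional ℚ_[q] K›
  exact Submodule.closed_of_finiteDimensional (K.toSubalgebra.toSubmodule)

/-- `μ'` is monotone. -/
theorem h39lf_muPrime_mono {K L : LF q} (h : K ≤ L) : muPrime K ⊆ muPrime L :=
  fun _ hw => ⟨h hw.1, hw.2⟩

/-- Same residue cardinality: the roots of unity of order prime to `q` coincide. -/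
theorem h39lf_muPrime_eq (hT : LFTeich) {K L : LF q} [FiniteDimensional ℚ_[q] K]
    [FiniteDimensional ℚ_[q] L] (h : K ≤ L) (hres : resCard L = resCard K) :
    muPrime K = muPrime L := by
  have hfinL : (muPrime L).Finite := (hT q L).1
  have hcard : Nat.card (muPrime L) = Nat.card (muPrime K) := by
    unfold resCard at hres
    omega
  refine Set.eq_of_subset_of_ncard_le (h39lf_muPrime_mono h) ?_ hfinL
  rw [← Nat.card_coe_set_eq, ← Nat.card_coe_set_eq]
  exact hcard.le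

/-- One step of the approximation. -/
theorem h39lf_step (hT : LFTeich) {K L : LF q} [FiniteDimensional ℚ_[q] K]
    [FiniteDimensional ℚ_[q] L] (hKL : K ≤ L) (hval : ∀ x ∈ L, ∃ y ∈ K, ‖x‖ = ‖y‖)
    (hres : resCard L = resCard K) {π : Om q} (hπ : IsUnif K π) (x : Om q) (hx : x ∈ L) :
    ∃ y ∈ K, ‖x - y‖ ≤ ‖π‖ * ‖x‖ := by
  by_cases hx0 : x = 0
  · exact ⟨0, K.zero_mem, by simp [hx0]⟩
  obtain ⟨y₀, hy₀K, hy₀⟩ := hval x hx
  have hy₀ne : y₀ ≠ 0 := by
    intro h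
    rw [h, norm_zero, norm_eq_zero] at hy₀
    exact hx0 hy₀
  have hu : ‖x / y₀‖ = 1 := by
    rw [norm_div, hy₀, div_self]
    exact norm_ne_zero_iff.mpr hy₀ne
  have huL : x / y₀ ∈ L := L.div_mem hx (hKL hy₀K)
  obtain ⟨w, hwL, hw⟩ := (hT q L).2.2.2.1 (x / y₀) huL hu
  have hwK : w ∈ muPrime K := by
    rw [h39lf_muPrime_eq hT hKL hres]
    exact hwL
  have hzL : x / y₀ - w ∈ L := L.sub_mem huL hwL.1
  obtain ⟨z', hz'K, hz'⟩ := hval _ hzL
  have hzle : ‖x / y₀ - w‖ ≤ ‖π‖ := by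
    rw [hz']
    exact hπ.2.2.2 z' hz'K (by rw [← hz']; exact hw)
  refine ⟨w * y₀, K.mul_mem hwK.1 hy₀K, ?_⟩
  have hsplit : x - w * y₀ = (x / y₀ - w) * y₀ := by
    field_simp
  rw [hsplit, norm_mul, hy₀]
  exact mul_le_mul_of_nonneg_right hzle (norm_nonneg _)

/-- `n` steps of the approximation. -/
theorem h39lf_approx (hT : LFTeich) {K L : LF q} [FiniteDimensional ℚ_[q] K]
    [FiniteDimensional ℚ_[q] L] (hKL : K ≤ L) (hval : ∀ x ∈ L, ∃ y ∈ K, ‖x‖ = ‖y‖)
    (hres : resCard L = resCard K) {π : Om q} (hπ : IsUnif K π) (x : Om q) (hx : x ∈ L)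
    (n : ℕ) : ∃ y ∈ K, ‖x - y‖ ≤ ‖π‖ ^ n * ‖x‖ := by
  induction n with
  | zero => exact ⟨0, K.zero_mem, by simp⟩
  | succ n ih =>
    obtain ⟨y, hyK, hy⟩ := ih
    obtain ⟨y', hy'K, hy'⟩ :=
      h39lf_step hT hKL hval hres hπ (x - y) (L.sub_mem hx (hKL hyK))
    refine ⟨y + y', K.add_mem hyK hy'K, ?_⟩
    calc ‖x - (y + y')‖ = ‖x - y - y'‖ := by rw [sub_sub]
      _ ≤ ‖π‖ * ‖x - y‖ := hy'
      _ ≤ ‖π‖ * (‖π‖ ^ n * ‖x‖) := mul_le_mul_of_nonneg_left hy (norm_nonneg _)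
      _ = ‖π‖ ^ (n + 1) * ‖x‖ := by ring

/-- **LF-IMM**, given the existence of a uniformizer of `K`. -/
theorem h39lf_imm_of_unif (hT : LFTeich) (K L : LF q) [FiniteDimensional ℚ_[q] K]
    [FiniteDimensional ℚ_[q] L] (hKL : K ≤ L) (hval : ∀ x ∈ L, ∃ y ∈ K, ‖x‖ = ‖y‖)
    (hres : resCard L = resCard K) {π : Om q} (hπ : IsUnif K π) : L ≤ K := by
  intro x hx
  have hmem : x ∈ closure (K : Set (Om q)) := by
    rw [Metric.mem_closure_iff]
    intro ε hε
    have hπ1 : ‖π‖ < 1 := hπ.2.2.1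
    have hpos : 0 < ε / (‖x‖ + 1) := div_pos hε (by positivity)
    obtain ⟨n, hn⟩ := exists_pow_lt_of_lt_one hpos hπ1
    obtain ⟨y, hyK, hy⟩ := h39lf_approx hT hKL hval hres hπ x hx n
    refine ⟨y, hyK, ?_⟩
    rw [dist_eq_norm]
    have h1 : ‖π‖ ^ n * ‖x‖ ≤ ‖π‖ ^ n * (‖x‖ + 1) :=
      mul_le_mul_of_nonneg_left (by linarith) (pow_nonneg (norm_nonneg _) _)
    have h2 : ‖π‖ ^ n * (‖x‖ + 1) < ε / (‖x‖ + 1) * (‖x‖ + 1) :=
      mul_lt_mul_of_pos_right hn (by positivity)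
    have h3 : ε / (‖x‖ + 1) * (‖x‖ + 1) = ε := by
      field_simp
    linarith
  rw [(h39lf_isClosed K).closure_eq] at hmem
  exact hmem

/-- **LF-IMM** from LF-UNIF and LF-TEICH. -/
theorem h39lf_imm_of (hU : LFUnif) (hT : LFTeich) : LFImm := by
  intro q _ K L _ _ hKL hval hres
  obtain ⟨π, hπ⟩ := (hU q K).1
  exact h39lf_imm_of_unif hT K L hKL hval hres hπ

end Fermat.Agent.PT.Loc
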