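import Fermat.Agent.PT.Loc.H33NIIface
import Fermat.Agent.S14.B.HerbrandIdx

/-!
# W3-PT / PT-LOC, block NI (helper33, hedge for LOC-NI-HQ): Herbrand quotient assembly

`h33q_normIndex_of : H33CohTriv → H33FinIdx → H33Hilbert90 → H33NormIndex`.
-/

set_option autoImplicit false
set_option linter.unusedSectionVars false
set_option linter.unusedVariables false

open Finset

open scoped NNReal

open Fermat.Agent.S14.HQ

namespace Fermat.Agent.PT.Loc

section Restrict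

variable {M : Type*} [AddCommGroup M]

/-- restriction of an endomorphism to a stable subgroup. -/
def h33q_res (s : AddMonoid.End M) (S : AddSubgroup M) (hS : ∀ x ∈ S, s x ∈ S) :
    AddMonoid.End ↥S :=
  AddMonoidHom.codRestrict ((s : M →+ M).comp S.subtype) S (fun x => hS x.1 x.2)

theorem h33q_res_val (s : AddMonoid.End M) (S : AddSubgroup M) (hS : ∀ x ∈ S, s x ∈ S)
    (x : ↥S) : ((h33q_res s S hS x : ↥S) : M) = s (x : M) := rfl

theorem h33q_res_iter (s : AddMonoid.End M) (S : AddSubgroup M) (hS : ∀ x ∈ S, s x ∈ S)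
    (i : ℕ) (x : ↥S) : ((((h33q_res s S hS)^[i]) x : ↥S) : M) = (s^[i]) (x : M) := by
  induction i with
  | zero => rfl
  | succ i ih =>
    rw [Function.iterate_succ_apply', Function.iterate_succ_apply', h33q_res_val, ih]

theorem h33q_res_hs (s : AddMonoid.End M) (S : AddSubgroup M) (hS : ∀ x ∈ S, s x ∈ S)
    {n : ℕ} (hs : ∀ x, (s^[n]) x = x) (x : ↥S) : ((h33q_res s S hS)^[n]) x = x := by
  apply Subtype.ext
  rw [h33q_res_iter, hs]

theorem h33q_res_del (s : AddMonoid.End M) (S : AddSubgroup M) (hS : ∀ x ∈ S, s x ∈ S)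
    (x : ↥S) : ((del (h33q_res s S hS) x : ↥S) : M) = del s (x : M) :=
  map_del S.subtype (h33q_res s S hS) s (fun _ => rfl) x

theorem h33q_res_nrm (s : AddMonoid.End M) (S : AddSubgroup M) (hS : ∀ x ∈ S, s x ∈ S)
    (n : ℕ) (x : ↥S) : ((nrm (h33q_res s S hS) n x : ↥S) : M) = nrm s n (x : M) :=
  map_nrm S.subtype (h33q_res s S hS) s (fun _ => rfl) n x

/-- vanishing of `Ĥ⁰` and `Ĥ¹` gives Herbrand quotient `1`. -/
theorem h33q_hq_of_vanish (s : AddMonoid.End M) (n : ℕ) (S : AddSubgroup M)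
    (hS : ∀ x ∈ S, s x ∈ S)
    (hv0 : ∀ x ∈ S, del s x = 0 → ∃ y ∈ S, nrm s n y = x)
    (hv1 : ∀ x ∈ S, nrm s n x = 0 → ∃ y ∈ S, del s y = x) :
    IsHQ (h33q_res s S hS) n 1 := by
  have e0 : h0 (h33q_res s S hS) n = 1 := by
    rw [h0_def, AddSubgroup.relIndex_eq_one]
    intro x hx
    have hx' : del s (x : M) = 0 := by
      rw [← h33q_res_del s S hS x, (AddMonoidHom.mem_ker).1 hx]
      rfl
    obtain ⟨y, hy, hyx⟩ := hv0 x x.2 hx'
    refine ⟨⟨y, hy⟩, Subtype.ext ?_⟩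
    rw [h33q_res_nrm]
    exact hyx
  have e1 : h1 (h33q_res s S hS) n = 1 := by
    rw [h1_def, AddSubgroup.relIndex_eq_one]
    intro x hx
    have hx' : nrm s n (x : M) = 0 := by
      rw [← h33q_res_nrm s S hS n x, (AddMonoidHom.mem_ker).1 hx]
      rfl
    obtain ⟨y, hy, hyx⟩ := hv1 x x.2 hx'
    refine ⟨⟨y, hy⟩, Subtype.ext ?_⟩
    rw [h33q_res_del]
    exact hyx
  have := hq_of_eq e0 e1 one_ne_zero one_ne_zero
  simpa using this

/-- passage to a larger stable subgroup in which `S` has finite index. -/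
theorem h33q_hq_of_finiteIndex (s : AddMonoid.End M) (n : ℕ) (hs : ∀ x, (s^[n]) x = x)
    (S T : AddSubgroup M) (hST : S ≤ T) (hS : ∀ x ∈ S, s x ∈ S) (hT : ∀ x ∈ T, s x ∈ T)
    (hfin : S.relIndex T ≠ 0) {q : ℚ} (h : IsHQ (h33q_res s S hS) n q) :
    IsHQ (h33q_res s T hT) n q := by
  refine (hq_iff_of_finiteIndex (φ := AddSubgroup.inclusion hST)
    (AddSubgroup.inclusion_injective hST) ?_ (h33q_res_hs s T hT hs) (fun a => rfl)).1 h
  rw [AddSubgroup.inclusion_range]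
  exact hfin

/-- the middle term of `0 → T → M → ℤ → 0`. -/
theorem h33q_hq_mid (s : AddMonoid.End M) (n : ℕ) (hn : n ≠ 0) (hs : ∀ x, (s^[n]) x = x)
    (T : AddSubgroup M) (hT : ∀ x ∈ T, s x ∈ T) (ψ : M →+ ℤ) (hψ : Function.Surjective ψ)
    (hker : ψ.ker = T) (hψs : ∀ x, ψ (s x) = ψ x) (h : IsHQ (h33q_res s T hT) n 1) :
    IsHQ s n (n : ℚ) := by
  have h2 := hq_mid (φ := T.subtype) (ψ := ψ) (sA := h33q_res s T hT) (sB := s)
    (sC := (1 : AddMonoid.End ℤ)) T.subtype_injective hψ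
    (by rw [AddSubgroup.range_subtype, hker]) hs (fun a => rfl) (fun b => hψs b) h (hq_int hn)
  rwa [one_mul] at h2

end Restrict

section Units

variable {L : Type} [Field L]

/-- `σ` on units, in additive form. -/
def h33q_s (σ : L ≃+* L) : AddMonoid.End (Additive Lˣ) :=
  MonoidHom.toAdditive (Units.map σ.toMulEquiv.toMonoidHom)

theorem h33q_s_val (σ : L ≃+* L) (x : Additive Lˣ) :
    ((Additive.toMul (h33q_s σ x) : Lˣ) : L) = σ ((Additive.toMul x : Lˣ) : L) := rfl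

theorem h33q_iter_val (σ : L ≃+* L) (i : ℕ) (x : Additive Lˣ) :
    ((Additive.toMul (((h33q_s σ)^[i]) x) : Lˣ) : L) = (σ ^ i) ((Additive.toMul x : Lˣ) : L) := by
  induction i with
  | zero => rfl
  | succ i ih =>
    rw [Function.iterate_succ_apply', h33q_s_val, ih, pow_succ']
    rfl

theorem h33q_nrm_val (σ : L ≃+* L) (ℓ : ℕ) (x : Additive Lˣ) :
    ((Additive.toMul (nrm (h33q_s σ) ℓ x) : Lˣ) : L)
      = h33n_N σ ℓ ((Additive.toMul x : Lˣ) : L) := by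
  rw [nrm_apply, toMul_sum, Units.coe_prod]
  exact prod_congr rfl fun i _ => h33q_iter_val σ i x

theorem h33q_del_val (σ : L ≃+* L) (x : Additive Lˣ) :
    ((Additive.toMul (del (h33q_s σ) x) : Lˣ) : L)
      = σ ((Additive.toMul x : Lˣ) : L) / ((Additive.toMul x : Lˣ) : L) := by
  rw [del_apply, toMul_sub, Units.val_div_eq_div_val, h33q_s_val]

theorem h33q_hs (σ : L ≃+* L) (ℓ : ℕ) (hσ : σ ^ ℓ = 1) (x : Additive Lˣ) :
    ((h33q_s σ)^[ℓ]) x = x := by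
  apply Additive.toMul.injective
  apply Units.ext
  rw [h33q_iter_val, hσ]
  rfl

theorem h33q_eq_zero_iff (x : Additive Lˣ) : x = 0 ↔ ((Additive.toMul x : Lˣ) : L) = 1 := by
  constructor
  · rintro rfl
    rfl
  · intro h
    apply Additive.toMul.injective
    apply Units.ext
    exact h

theorem h33q_del_eq_zero_iff (σ : L ≃+* L) (x : Additive Lˣ) :
    del (h33q_s σ) x = 0 ↔ σ ((Additive.toMul x : Lˣ) : L) = ((Additive.toMul x : Lˣ) : L) := by
  rw [h33q_eq_zero_iff, h33q_del_val, div_eq_one_iff_eq (Units.ne_zero _)]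

theorem h33q_nrm_eq_zero_iff (σ : L ≃+* L) (ℓ : ℕ) (x : Additive Lˣ) :
    nrm (h33q_s σ) ℓ x = 0 ↔ h33n_N σ ℓ ((Additive.toMul x : Lˣ) : L) = 1 := by
  rw [h33q_eq_zero_iff, h33q_nrm_val]

theorem h33q_ext {x y : Additive Lˣ}
    (h : ((Additive.toMul x : Lˣ) : L) = ((Additive.toMul y : Lˣ) : L)) : x = y := by
  apply Additive.toMul.injective
  apply Units.ext
  exact h

/-! ### the order function -/

variable (D : H33LF L)

theorem h33q_vϖ_pos : 0 < D.v D.ϖ := pos_iff_ne_zero.2 ((Valuation.ne_zero_iff _).2 D.hϖ0)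

theorem h33q_zpow_inj {a b : ℤ} (h : D.v D.ϖ ^ a = D.v D.ϖ ^ b) : a = b :=
  zpow_right_injective₀ (h33q_vϖ_pos D) (ne_of_lt D.hϖ1) h

/-- the order of a unit. -/
noncomputable def h33q_ord (u : Lˣ) : ℤ := (D.hdisc (u : L) u.ne_zero).choose

theorem h33q_ord_spec (u : Lˣ) : D.v (u : L) = D.v D.ϖ ^ h33q_ord D u :=
  (D.hdisc (u : L) u.ne_zero).choose_spec

theorem h33q_ord_eq (u : Lˣ) (n : ℤ) (h : D.v (u : L) = D.v D.ϖ ^ n) : h33q_ord D u = n :=
  h33q_zpow_inj D ((h33q_ord_spec D u).symm.trans h)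

theorem h33q_ord_mul (u u' : Lˣ) : h33q_ord D (u * u') = h33q_ord D u + h33q_ord D u' := by
  apply h33q_ord_eq
  rw [Units.val_mul, map_mul, h33q_ord_spec D u, h33q_ord_spec D u',
    zpow_add₀ (h33q_vϖ_pos D).ne']

/-- the order homomorphism. -/
noncomputable def h33q_ordHom : Additive Lˣ →+ ℤ :=
  AddMonoidHom.mk' (fun x => h33q_ord D (Additive.toMul x)) (fun a b => h33q_ord_mul D _ _)

theorem h33q_ordHom_apply (x : Additive Lˣ) :
    h33q_ordHom D x = h33q_ord D (Additive.toMul x) := rfl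

theorem h33q_ordHom_surj : Function.Surjective (h33q_ordHom D) := by
  intro n
  refine ⟨Additive.ofMul ((Units.mk0 D.ϖ D.hϖ0) ^ n), ?_⟩
  rw [h33q_ordHom_apply]
  apply h33q_ord_eq
  rw [toMul_ofMul, Units.val_zpow_eq_zpow_val, Units.val_mk0, map_zpow₀]

theorem h33q_ordHom_ker : (h33q_ordHom D).ker = Subgroup.toAddSubgroup (h33n_U D.v) := by
  ext x
  rw [AddMonoidHom.mem_ker, h33q_ordHom_apply]
  change _ ↔ D.v ((Additive.toMul x : Lˣ) : L) = 1
  constructor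
  · intro h
    rw [h33q_ord_spec D, h, zpow_zero]
  · intro h
    apply h33q_ord_eq
    rw [h, zpow_zero]

theorem h33q_ordHom_s (x : Additive Lˣ) : h33q_ordHom D (h33q_s D.σ x) = h33q_ordHom D x := by
  rw [h33q_ordHom_apply, h33q_ordHom_apply]
  apply h33q_ord_eq
  rw [← h33q_ord_spec]
  exact D.hvσ _

end Units

section Prime

theorem h33q_exists_nsmul {Q : Type*} [AddGroup Q] {ℓ : ℕ} (hℓ : ℓ.Prime)
    (hcard : Nat.card Q = ℓ) {q : Q} (hq : q ≠ 0) (g : Q) : ∃ k, k < ℓ ∧ g + k • q = 0 := by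
  have : Fact ℓ.Prime := ⟨hℓ⟩
  have hfinite : Finite Q := Nat.finite_of_card_ne_zero (by rw [hcard]; exact hℓ.ne_zero)
  have htop := zmultiples_eq_top_of_prime_card hcard hq
  have hmem : -g ∈ AddSubgroup.zmultiples q := by rw [htop]; exact AddSubgroup.mem_top _
  obtain ⟨n, hn⟩ := AddSubgroup.mem_zmultiples_iff.1 hmem
  have hℓq : (ℓ : ℤ) • q = 0 := by
    rw [natCast_zsmul, ← hcard]
    exact card_nsmul_eq_zero'
  have hℓpos : (0 : ℤ) < (ℓ : ℤ) := by exact_mod_cast hℓ.pos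
  have h1 : (n % (ℓ : ℤ)) • q = n • q := by
    conv_rhs => rw [← Int.emod_add_mul_ediv n ℓ]
    rw [add_zsmul, mul_zsmul', hℓq, zsmul_zero, add_zero]
  have h2 : 0 ≤ n % (ℓ : ℤ) := Int.emod_nonneg n hℓpos.ne'
  have h3 : n % (ℓ : ℤ) < ℓ := Int.emod_lt_of_pos n hℓpos
  refine ⟨(n % (ℓ : ℤ)).toNat, ?_, ?_⟩
  · have : ((n % (ℓ : ℤ)).toNat : ℤ) < ℓ := by rw [Int.toNat_of_nonneg h2]; exact h3
    exact_mod_cast this
  · have h4 : ((n % (ℓ : ℤ)).toNat : ℤ) • q = n • q := by rw [Int.toNat_of_nonneg h2, h1]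
    rw [natCast_zsmul] at h4
    rw [h4, hn, add_neg_cancel]

end Prime

/-- **LOC-NI-HQ**: the Herbrand quotient assembly. -/
theorem h33q_normIndex_of (hC : H33CohTriv) (hF : H33FinIdx) (hH : H33Hilbert90) :
    H33NormIndex := by
  intro L _ D hℓ
  obtain ⟨W, hWU, ⟨c, hc, hball⟩, hWσ, hW0, hW1⟩ := hC L D
  have hfin := hF L D c hc W hball
  have hs := h33q_hs D.σ D.ℓ D.hσℓ
  have hWst : ∀ x ∈ Subgroup.toAddSubgroup W, h33q_s D.σ x ∈ Subgroup.toAddSubgroup W := by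
    intro x hx
    exact hWσ (Additive.toMul x) hx _ rfl
  have hUst : ∀ x ∈ Subgroup.toAddSubgroup (h33n_U D.v),
      h33q_s D.σ x ∈ Subgroup.toAddSubgroup (h33n_U D.v) := by
    intro x hx
    change D.v _ = 1
    rw [h33q_s_val, D.hvσ]
    exact hx
  have hA : IsHQ (h33q_res (h33q_s D.σ) _ hWst) D.ℓ 1 := by
    apply h33q_hq_of_vanish
    · intro x hx hdel
      obtain ⟨y, hy, hyx⟩ := hW0 (Additive.toMul x) hx ((h33q_del_eq_zero_iff D.σ x).1 hdel)
      refine ⟨Additive.ofMul y, hy, h33q_ext ?_⟩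
      rw [h33q_nrm_val]
      exact hyx
    · intro x hx hnrm
      obtain ⟨y, hy, hyx⟩ := hW1 (Additive.toMul x) hx
        ((h33q_nrm_eq_zero_iff D.σ D.ℓ x).1 hnrm)
      refine ⟨Additive.ofMul y, hy, h33q_ext ?_⟩
      rw [h33q_del_val]
      exact hyx
  have hB : IsHQ (h33q_res (h33q_s D.σ) _ hUst) D.ℓ 1 :=
    h33q_hq_of_finiteIndex (h33q_s D.σ) D.ℓ hs _ _ (fun x hx => hWU hx) hWst hUst
      (by rw [Subgroup.relIndex_toAddSubgroup]; exact hfin) hA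
  have hCq : IsHQ (h33q_s D.σ) D.ℓ (D.ℓ : ℚ) :=
    h33q_hq_mid (h33q_s D.σ) D.ℓ D.hℓ.ne' hs _ hUst (h33q_ordHom D) (h33q_ordHom_surj D)
      (h33q_ordHom_ker D) (h33q_ordHom_s D) hB
  have e1 : h1 (h33q_s D.σ) D.ℓ = 1 := by
    rw [h1_def, AddSubgroup.relIndex_eq_one]
    intro x hx
    obtain ⟨y, hy0, hy⟩ := hH L D.σ D.ℓ D.hℓ D.hσℓ D.hord _
      ((h33q_nrm_eq_zero_iff D.σ D.ℓ x).1 ((AddMonoidHom.mem_ker).1 hx))
    refine ⟨Additive.ofMul (Units.mk0 y hy0), h33q_ext ?_⟩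
    rw [h33q_del_val]
    exact hy
  have e0 : h0 (h33q_s D.σ) D.ℓ = D.ℓ := by
    have := hCq.h0_eq_nat
    rw [e1, mul_one] at this
    exact this
  rw [h0_def] at e0
  -- membership dictionaries
  have hmemF : ∀ x : Additive Lˣ, x ∈ (del (h33q_s D.σ)).ker ↔
      D.σ ((Additive.toMul x : Lˣ) : L) = ((Additive.toMul x : Lˣ) : L) := fun x => by
    rw [AddMonoidHom.mem_ker, h33q_del_eq_zero_iff]
  have hmemN : ∀ x : Additive Lˣ, x ∈ (nrm (h33q_s D.σ) D.ℓ).range ↔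
      ∃ β : L, β ≠ 0 ∧ h33n_N D.σ D.ℓ β = ((Additive.toMul x : Lˣ) : L) := by
    intro x
    constructor
    · rintro ⟨y, rfl⟩
      exact ⟨((Additive.toMul y : Lˣ) : L), Units.ne_zero _, (h33q_nrm_val D.σ D.ℓ y).symm⟩
    · rintro ⟨β, hβ0, hβ⟩
      refine ⟨Additive.ofMul (Units.mk0 β hβ0), h33q_ext ?_⟩
      rw [h33q_nrm_val]
      exact hβ
  constructor
  · -- a fixed element which is not a norm
    have hne : ¬ ((del (h33q_s D.σ)).ker ≤ (nrm (h33q_s D.σ) D.ℓ).range) := by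
      intro h
      have h1 := AddSubgroup.relIndex_eq_one.2 h
      rw [e0] at h1
      exact hℓ.one_lt.ne' h1
    obtain ⟨x, hxF, hxN⟩ := SetLike.not_le_iff_exists.1 hne
    exact ⟨((Additive.toMul x : Lˣ) : L), (hmemF x).1 hxF, Units.ne_zero _,
      fun h => hxN ((hmemN x).2 h)⟩
  · intro b hbσ hb0 hbN b' hb'σ hb'0
    have hxF : Additive.ofMul (Units.mk0 b hb0) ∈ (del (h33q_s D.σ)).ker := (hmemF _).2 hbσ
    have hx'F : Additive.ofMul (Units.mk0 b' hb'0) ∈ (del (h33q_s D.σ)).ker := (hmemF _).2 hb'σ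
    have hxN : Additive.ofMul (Units.mk0 b hb0) ∉ (nrm (h33q_s D.σ) D.ℓ).range :=
      fun h => hbN ((hmemN _).1 h)
    have hcard : Nat.card (↥(del (h33q_s D.σ)).ker ⧸
        ((nrm (h33q_s D.σ) D.ℓ).range.addSubgroupOf (del (h33q_s D.σ)).ker)) = D.ℓ := by
      rw [← AddSubgroup.index_eq_card]
      exact e0
    have hq : (QuotientAddGroup.mk (⟨_, hxF⟩ : ↥(del (h33q_s D.σ)).ker) :
        ↥(del (h33q_s D.σ)).ker ⧸
          ((nrm (h33q_s D.σ) D.ℓ).range.addSubgroupOf (del (h33q_s D.σ)).ker)) ≠ 0 := by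
      intro h
      rw [QuotientAddGroup.eq_zero_iff, AddSubgroup.mem_addSubgroupOf] at h
      exact hxN h
    obtain ⟨k, hk, hkq⟩ := h33q_exists_nsmul hℓ hcard hq
      (QuotientAddGroup.mk (⟨_, hx'F⟩ : ↥(del (h33q_s D.σ)).ker))
    refine ⟨k, hk, ?_⟩
    have h5 : (QuotientAddGroup.mk ((⟨_, hx'F⟩ : ↥(del (h33q_s D.σ)).ker)
        + k • (⟨_, hxF⟩ : ↥(del (h33q_s D.σ)).ker)) :
        ↥(del (h33q_s D.σ)).ker ⧸
          ((nrm (h33q_s D.σ) D.ℓ).range.addSubgroupOf (del (h33q_s D.σ)).ker)) = 0 := by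
      rw [QuotientAddGroup.mk_add, QuotientAddGroup.mk_nsmul]
      exact hkq
    rw [QuotientAddGroup.eq_zero_iff, AddSubgroup.mem_addSubgroupOf] at h5
    obtain ⟨β, hβ0, hβ⟩ := (hmemN _).1 h5
    refine ⟨β, hβ0, ?_⟩
    rw [hβ]
    rfl

end Fermat.Agent.PT.Loc
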