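import Mathlib
import Fermat.Agent.PT.Loc.Top
import Fermat.Agent.PT.Loc.H48Top
import Fermat.Agent.PT.Loc.H48Wire
import Fermat.Agent.PT.Loc.H34LFPow
import Fermat.Agent.PT.Loc.H34LFDim
import Fermat.Agent.PT.Loc.H34LFTeich
import Fermat.Agent.PT.Loc.LFImm39
import Fermat.Agent.PT.Loc.H66URConj
import Fermat.Agent.PT.Loc.H36URFrob
import Fermat.Agent.PT.Loc.H74URVal
import Fermat.Agent.PT.Loc.H49URIdx
import Fermat.Agent.PT.Loc.H82URNorm
import Fermat.Agent.PT.Loc.H8URNormGrp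
import Fermat.Agent.PT.Loc.H36URBaseChange
import Fermat.Agent.PT.Loc.NI.Main
import Fermat.Agent.PT.Loc.H74NIDich
import Fermat.Agent.PT.Loc.H81H90
import Fermat.Agent.PT.Loc.MC.H65Carry
import Fermat.Agent.PT.Loc.MC.H65Kum
import Fermat.Agent.PT.Loc.H77InfResPerFinal
import Fermat.Agent.PT.Loc.H90CarryNorm
import Fermat.Agent.PT.Loc.MC.H79CarryPow
import Fermat.Agent.PT.Loc.MC.H79MuFinal
import Fermat.Agent.PT.Loc.Kum.H79KumBasic
import Fermat.Agent.PT.Loc.Kum.H7KumClass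
import Fermat.Agent.PT.Loc.H40KumCyc
import Fermat.Agent.PT.Loc.H10B1
import Fermat.Agent.PT.Loc.H55B1Fin
import Fermat.Agent.PT.Loc.H55B0Gen
import Fermat.Agent.PT.Loc.B0DescFinal12
import Fermat.Agent.PT.Loc.H57Coprime
import Fermat.Agent.PT.Loc.B0Tower12
import Fermat.Agent.PT.Loc.H76B0
import Fermat.Agent.PT.Loc.H23Ad
import Fermat.Agent.PT.Loc.AdCyc99
import Fermat.Agent.PT.Loc.H75CorCoc
import Fermat.Agent.PT.Loc.H66CorCohom
import Fermat.Agent.PT.Loc.H97CorRes
import Fermat.Agent.PT.Loc.H29CorTw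
import Fermat.Agent.PT.Loc.H29InvAdd
import Fermat.Agent.PT.Loc.H73InvCob
import Fermat.Agent.PT.Loc.H24InvGen
import Fermat.Agent.PT.Loc.H49InvY
import Fermat.Agent.PT.Loc.H6ChiZeta
import Fermat.Agent.PT.Loc.H24LocPerf
import Fermat.Agent.PT.Loc.H96RDBase
import Fermat.Agent.PT.Loc.H28RD
import Fermat.Agent.PT.Loc.H69Triv
import Fermat.Agent.PT.Loc.H96URResIdx
import Fermat.Agent.PT.Loc.H94Coprime3
import Fermat.Agent.PT.Loc.H39H3Van
import Fermat.Agent.PT.Loc.H78VanStep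
import Fermat.Agent.PT.Loc.H45Tower3

/-!
# W3-PT / PT-LOC (helper48): the integration of all landed local leaves

Unconditional forms of the frozen leaves of `Loc/Iface.lean`, `Loc/Iface2.lean`, `Loc/Top.lean`
(prefix `h48f_`), and the local deliverable from the leaves which are still open:

`h48f_locBase_of : VanCycAbs → ResZero → InvLG → InvOKq → h56s_ShapLocal → LocBase`.
-/

set_option autoImplicit false

namespace Fermat.Agent.PT.Loc

open Fermat.Agent.PT Fermat.Agent.PT.Shap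

theorem h48f_lfUnif : LFUnif := h34lf_lfUnif
theorem h48f_lfTeich : LFTeich := h34lf_lfTeich
theorem h48f_lfPow : LFPow := h34lf_lfPow
theorem h48f_lfDim : LFDim := h34lf_lfDim
theorem h48f_lfImm : LFImm := h39lf_imm_of h48f_lfUnif h48f_lfTeich
theorem h48f_urCyc : URCyc := h66v_urCyc h48f_lfTeich
theorem h48f_urFrob : URFrob := h36_urFrob h48f_lfTeich
theorem h48f_urVal : URVal := h74v_urVal h48f_lfUnif h48f_lfTeich
theorem h48f_urIdx : URIdx := h49_urIdx_of h48f_lfTeich h48f_urCyc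
theorem h48f_urNorm : URNorm := h82n_urNorm h48f_lfTeich h48f_urCyc
theorem h48f_urNormGrp : URNormGrp := h8ng_urNormGrp h48f_urNorm h48f_urVal h48f_lfUnif
theorem h48f_urBaseChange : URBaseChange := h36_urBaseChange h48f_lfTeich h48f_urVal
theorem h48f_niMain : NIMain := niMain_holds
theorem h48f_niDich : NIDich :=
  h74n_nidich_of h48f_lfUnif h48f_lfTeich h48f_lfImm h48f_urFrob h48f_urCyc
theorem h48f_mcH90 : MCH90 := h81h_mcH90
theorem h48f_mcCarry : MCCarry := h65_mcCarry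
theorem h48f_mcKum : MCKum := h65_mcKum
theorem h48f_mcInfResPer : MCInfResPer := h77p_mcInfResPer_holds
theorem h48f_mcCarryNorm : MCCarryNorm := h90c_carryNorm h48f_mcH90
theorem h48f_mcCarryPow : MCCarryPow := h79c_mcCarryPow
theorem h48f_mcMu : MCMu := h79m_mcMu
theorem h48f_kumBasic : KumBasic := h79k_kumBasic
theorem h48f_kumClass : KumClass := h7kc_kumClass_of h48f_mcH90
theorem h48f_kumCyc : KumCyc := h40k_kumCyc
theorem h48f_b1 : B1 :=
  h10b_B1 h48f_kumClass h48f_kumBasic h48f_kumCyc h48f_mcKum h48f_mcCarryNorm h48f_niMain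
theorem h48f_b1Fin : B1Fin := h55f_b1Fin h48f_kumClass h48f_kumBasic h48f_lfDim
theorem h48f_b0Gen : B0Gen :=
  h55g_b0Gen h48f_lfUnif h48f_urFrob h48f_urCyc h48f_kumBasic h48f_mcKum h48f_mcCarryNorm
    h48f_urNormGrp
theorem h48f_b0Desc : B0Desc :=
  h12d_b0Desc h48f_mcCarryNorm h48f_niMain h48f_niDich h48f_urCyc h48f_urNormGrp h48f_urIdx
    h48f_urVal h48f_b0Gen
theorem h48f_b0Coprime : B0Coprime :=
  h57_b0Coprime h48f_lfUnif h48f_lfTeich h48f_urCyc h48f_urIdx h48f_urNormGrp h48f_kumBasic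
    h48f_mcKum h48f_mcCarryNorm h48f_mcMu h48f_b0Gen
theorem h48f_b0Tower : B0Tower := h12t_b0Tower
theorem h48f_b0 : B0 := h76b_b0_of h48f_b0Tower h48f_b0Desc h48f_b0Coprime h48f_b0Gen

theorem h48f_adCont : AdCont := h23a_adCont
theorem h48f_adCoh : AdCoh := h23a_adCoh
theorem h48f_adSub : AdSub := h23a_adSub
theorem h48f_adCyc : AdCyc := h99ac_adCyc
theorem h48f_corCoc : CorCoc := h75c_corCoc
theorem h48f_corCohom : CorCohom := h66c_corCohom
theorem h48f_corRes : CorRes := h97c_corRes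
theorem h48f_corTw : CorTw := h29i_corTw
theorem h48f_invY : InvY := h49y_invY
theorem h48f_invAdd : InvAdd := h29i_invAdd h48f_invY
theorem h48f_invEx : InvEx := h29i_invEx h48f_invY
theorem h48f_chiZeta : ChiZeta := h6z_chiZeta
theorem h48f_invCob : InvCob := h73_invCob h48f_corTw h48f_corCohom h48f_chiZeta
theorem h48f_lfBase : LFBase := h96b_lfBase
theorem h48f_lfEF : LFEF := h28r_lfEF
theorem h48f_lfResDeg : LFResDeg := h28r_lfResDeg
theorem h48f_urResIdx : URResIdx := h96r_urResIdx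
theorem h48f_vanCoprime3 : VanCoprime3 := h94v_vanCoprime3
theorem h48f_tower3 : Tower3 := h45t_tower3

/-- `LocPerfRel` from the local symbol formula. -/
theorem h48f_locPerfRel_of (hLG : InvLG) : LocPerfRel :=
  h24lp_locPerfRel_of h48f_chiZeta h48f_invEx h48f_b0 h48f_b0Gen (h24ig_invGen_of hLG)
    h48f_invCob

/-- `H3Van` from the abstract cyclic step and the vanishing of restriction on `H²`. -/
theorem h48f_h3Van_of (hAbs : VanCycAbs) (hRZ : ResZero) : H3Van :=
  h39v_h3Van_of h48f_tower3 h48f_vanCoprime3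
    (h78l_vanStep_of hAbs hRZ h48f_b0 h48f_b0Gen h48f_b1 h48_adGood h48f_adCoh h48f_adCyc
      h48f_adSub)

/-- `LocTriv` from the open leaves. -/
theorem h48f_locTriv_of (hAbs : VanCycAbs) (hRZ : ResZero) (hLG : InvLG) : LocTriv :=
  h69t_locTriv_of h48f_adCoh (h48f_h3Van_of hAbs hRZ) (h48f_locPerfRel_of hLG)

/-- **The local deliverable** from the open leaves. -/
theorem h48f_locBase_of (hAbs : VanCycAbs) (hRZ : ResZero) (hLG : InvLG) (hOK : InvOKq)
    (hS : h56s_ShapLocal) : LocBase :=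
  h48_locBase_of hS hOK (h48f_locTriv_of hAbs hRZ hLG)

end Fermat.Agent.PT.Loc
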