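import Mathlib
import Fermat.Agent.PT.Loc.Basic
import Fermat.Agent.PT.Loc.Iface
import Fermat.Agent.PT.Loc.MC.H79Cyc
import Fermat.Agent.PT.Loc.H66URConj
import Fermat.Agent.PT.Loc.H36URFrob
import Fermat.Agent.PT.Loc.H34LFTeich

/-!
# W3-PT / PT-LOC, leaf LOC-UNR (helper36): unramified `2`-cocycles are coboundaries

`H36LocUnr` : a continuous `2`-cocycle `c` of `G_K` with values in `ZMod p` (trivial action) which
is right invariant under the inertia group in both arguments is a continuous coboundary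
(`H²(Ẑ, 𝔽_p) = 0` in the relative language of `Loc/Basic.lean`).  No `μ_p ⊆ K` hypothesis.

Proof.
* `h36n_exists_level` (compactness of the Krull topology): if `c` has level `F` then there is
  `n > 0` with `G_{Kur K n} ⊆ I_K · G_F`, so `c` is right invariant under `G_{Kur K n}`.
* `a i j := c (φ ^ i, φ ^ j)` (`φ` a Frobenius element) is a `2`-cocycle of the monoid `ℕ`, hence
  `a = ∂ F` for the explicit primitive `F = h36n_prim a`; since `a n i = a 0 i`, one has
  `F (i + n) = F i + A`, so `F` is periodic modulo `n * p`.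
* `f := F ∘ cycIdx (Kur K (n * p)) φ (n * p)` is a continuous cochain of `G_K` with `∂ f = c`.

Main results: `h36n_locUnr_of (hT : LFTeich) : H36LocUnr`, `h36n_locUnr : H36LocUnr`.
-/

set_option autoImplicit false
set_option linter.style.haveILetI false

open scoped Classical

noncomputable section

namespace Fermat.Agent.PT.Loc

/-- LOC-UNR: unramified continuous `2`-cocycles with coefficients `ZMod p` are coboundaries. -/
def H36LocUnr : Prop :=
  ∀ (q : ℕ) [Fact q.Prime] (p : ℕ) [Fact p.Prime] (K : LF q) [FiniteDimensional ℚ_[q] K]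
    (c : Gq q × Gq q → ZMod p), ACoc2 K c → Cont2 K c →
    (∀ g ∈ GK K, ∀ g' ∈ GK K, ∀ i i', IsInert K i → IsInert K i' →
      c (g * i, g' * i') = c (g, g')) →
    ACohom K c 0

/-! ### `2`-cocycles of the monoid `ℕ` -/

section Nat

variable {A : Type*} [AddCommGroup A]

/-- the explicit primitive of a `2`-cocycle of `ℕ`. -/
def h36n_prim (a : ℕ → ℕ → A) : ℕ → A
  | 0 => a 0 0
  | (i + 1) => h36n_prim a i + a 0 0 - a 1 i

theorem h36n_prim_zero (a : ℕ → ℕ → A) : h36n_prim a 0 = a 0 0 := rfl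

theorem h36n_prim_succ (a : ℕ → ℕ → A) (i : ℕ) :
    h36n_prim a (i + 1) = h36n_prim a i + a 0 0 - a 1 i := rfl

theorem h36n_zero_left (a : ℕ → ℕ → A)
    (hco : ∀ i j k, a j k - a (i + j) k + a i (j + k) - a i j = 0) (k : ℕ) :
    a 0 k = a 0 0 := by
  have h := hco 0 0 k
  simp only [zero_add] at h
  have h2 : a 0 k - a 0 0 = 0 := by
    rw [← h]
    abel
  exact sub_eq_zero.1 h2

theorem h36n_prim_spec (a : ℕ → ℕ → A)
    (hco : ∀ i j k, a j k - a (i + j) k + a i (j + k) - a i j = 0) (i j : ℕ) :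
    a i j = h36n_prim a j - h36n_prim a (i + j) + h36n_prim a i := by
  induction i with
  | zero =>
    rw [zero_add, h36n_zero_left a hco j, h36n_prim_zero]
    abel
  | succ i ih =>
    have h := hco 1 i j
    have e1 : a (i + 1) j = a i j + a 1 (i + j) - a 1 i := by
      have h' : a i j - a (i + 1) j + a 1 (i + j) - a 1 i = 0 := by
        rw [add_comm i 1]
        exact h
      have h3 : a (i + 1) j - (a i j + a 1 (i + j) - a 1 i) = 0 := by
        rw [← neg_eq_zero, ← h']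
        abel
      exact sub_eq_zero.1 h3
    have e2 : a 1 (i + j) = h36n_prim a (i + j) + a 0 0 - h36n_prim a (i + j + 1) := by
      rw [h36n_prim_succ]
      abel
    have e3 : a 1 i = h36n_prim a i + a 0 0 - h36n_prim a (i + 1) := by
      rw [h36n_prim_succ]
      abel
    have e4 : i + 1 + j = i + j + 1 := by omega
    rw [e1, ih, e2, e3, e4]
    abel

theorem h36n_prim_add_period (a : ℕ → ℕ → A)
    (hco : ∀ i j k, a j k - a (i + j) k + a i (j + k) - a i j = 0) (n : ℕ)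
    (hn : ∀ i, a n i = a 0 i) (i : ℕ) :
    h36n_prim a (i + n) = h36n_prim a i + (h36n_prim a n - h36n_prim a 0) := by
  have h1 := h36n_prim_spec a hco n i
  rw [hn i, h36n_zero_left a hco i, ← h36n_prim_zero a, add_comm n i] at h1
  have h2 : h36n_prim a (i + n) - (h36n_prim a i + (h36n_prim a n - h36n_prim a 0)) = 0 := by
    have h3 : h36n_prim a 0 - (h36n_prim a i - h36n_prim a (i + n) + h36n_prim a n) = 0 :=
      sub_eq_zero.2 h1
    rw [← h3]
    abel
  exact sub_eq_zero.1 h2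

theorem h36n_prim_add_mul (a : ℕ → ℕ → A)
    (hco : ∀ i j k, a j k - a (i + j) k + a i (j + k) - a i j = 0) (n : ℕ)
    (hn : ∀ i, a n i = a 0 i) (i k : ℕ) :
    h36n_prim a (i + n * k) = h36n_prim a i + k • (h36n_prim a n - h36n_prim a 0) := by
  induction k with
  | zero => simp
  | succ k ih =>
    have e : i + n * (k + 1) = (i + n * k) + n := by ring
    rw [e, h36n_prim_add_period a hco n hn, ih, succ_nsmul]
    abel

theorem h36n_prim_mod (a : ℕ → ℕ → A)
    (hco : ∀ i j k, a j k - a (i + j) k + a i (j + k) - a i j = 0) (n : ℕ)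
    (hn : ∀ i, a n i = a 0 i) (p : ℕ) (hp : ∀ x : A, p • x = 0) (i : ℕ) :
    h36n_prim a (i % (n * p)) = h36n_prim a i := by
  have e : i = i % (n * p) + n * (p * (i / (n * p))) := by
    rw [← mul_assoc]
    exact (Nat.mod_add_div i (n * p)).symm
  conv_rhs => rw [e]
  rw [h36n_prim_add_mul a hco n hn, mul_comm p, mul_nsmul, hp, add_zero]

end Nat

variable {q : ℕ} [Fact q.Prime]

/-! ### Roots of unity and the tower `Kur K n` -/

omit [Fact q.Prime] in
theorem h36n_pow_of_dvd {R : Type*} [Monoid R] (N : ℕ) {a b : ℕ} (hab : a ∣ b) {w : R}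
    (hw : w ^ (N ^ a - 1) = 1) : w ^ (N ^ b - 1) = 1 := by
  obtain ⟨t, rfl⟩ := hab
  have hdvd : N ^ a - 1 ∣ N ^ (a * t) - 1 := by
    have h := Nat.sub_dvd_pow_sub_pow (N ^ a) 1 t
    rwa [one_pow, ← pow_mul] at h
  obtain ⟨s, hs⟩ := hdvd
  rw [hs, pow_mul, hw, one_pow]

theorem h36n_GK_Kur_anti (K : LF q) {a b : ℕ} (hab : a ∣ b) : GK (Kur K b) ≤ GK (Kur K a) := by
  intro g hg
  rw [h66u_mem_GK_Kur] at hg ⊢
  exact ⟨hg.1, fun w hw => hg.2 w (h36n_pow_of_dvd (resCard K) hab hw)⟩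

/-- every root of unity of order prime to `q` has order dividing `N ^ m - 1` for some `m > 0`. -/
theorem h36n_exists_pow (hT : LFTeich) (K : LF q) [FiniteDimensional ℚ_[q] K] {w : Om q} {k : ℕ}
    (hk : 0 < k) (hqk : ¬ q ∣ k) (hw : w ^ k = 1) :
    ∃ m : ℕ, 0 < m ∧ w ^ (resCard K ^ m - 1) = 1 := by
  obtain ⟨-, ⟨f, hf, hN⟩, -, -, -⟩ := hT q K
  have hq : q.Prime := Fact.out
  have hcop : Nat.Coprime (resCard K) k := by
    rw [hN]
    exact Nat.Coprime.pow_left f ((Nat.Prime.coprime_iff_not_dvd hq).2 hqk)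
  have hmod := Nat.ModEq.pow_totient hcop
  have hpos : 0 < Nat.totient k := Nat.totient_pos.2 hk
  refine ⟨Nat.totient k, hpos, ?_⟩
  have h1 : 1 ≤ resCard K ^ Nat.totient k := Nat.one_le_pow _ _ (by rw [hN]; exact pow_pos hq.pos f)
  have hdvd : k ∣ resCard K ^ Nat.totient k - 1 :=
    (Nat.modEq_iff_dvd' h1).1 hmod.symm
  obtain ⟨s, hs⟩ := hdvd
  rw [hs, pow_mul, hw, one_pow]

theorem h36n_frob_pow_mem (hT : LFTeich) (K : LF q) [FiniteDimensional ℚ_[q] K] {φ : Gq q}
    (hφ : IsFrob K φ) {n : ℕ} (hn : 0 < n) : φ ^ n ∈ GK (Kur K n) := by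
  obtain ⟨-, ⟨f, hf, hN⟩, -, -, -⟩ := hT q K
  have hq : q.Prime := Fact.out
  rw [h66u_mem_GK_Kur]
  refine ⟨(GK K).pow_mem hφ.1 n, fun w hw => ?_⟩
  have h2 := h66u_two_le_pow hq hf hN hn
  have h3 := h66u_not_dvd_pred hq hf hN hn
  rw [h66u_frob_pow hφ n w (resCard K ^ n - 1) (by omega) h3 hw]
  have e : resCard K ^ n = (resCard K ^ n - 1) + 1 := by omega
  conv_lhs => rw [e]
  rw [pow_succ, hw, one_mul]

/-! ### The compactness step -/

theorem h36n_isGalois : IsGalois ℚ_[q] (Om q) :=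
  IsAlgClosure.isGalois ℚ_[q] (Om q)

/-- an open subgroup containing the inertia group contains some `G_{Kur K n}`. -/
theorem h36n_exists_level (hT : LFTeich) (K F : LF q) [FiniteDimensional ℚ_[q] K]
    [FiniteDimensional ℚ_[q] F] :
    ∃ n : ℕ, 0 < n ∧ ∀ g ∈ GK (Kur K n), ∃ i, IsInert K i ∧ i⁻¹ * g ∈ GK F := by
  haveI := h36n_isGalois (q := q)
  let V : ℕ → Set (Gq q) := fun m => (GK (Kur K m.factorial) : Set (Gq q))
  let U : Set (Gq q) := {g | ∃ i, IsInert K i ∧ i⁻¹ * g ∈ GK F}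
  have hdir : Directed (· ⊇ ·) V := by
    refine directed_of_isDirected_le ?_
    intro a b hab
    exact h36n_GK_Kur_anti K (Nat.factorial_dvd_factorial hab)
  have hclosed : ∀ m, IsClosed (V m) := fun m =>
    InfiniteGalois.fixingSubgroup_isClosed (Kur K m.factorial)
  have hcpct : ∀ m, IsCompact (V m) := fun m => (hclosed m).isCompact
  have hU : ∀ x ∈ ⋂ m, V m, U ∈ nhds x := by
    intro x hx
    rw [Set.mem_iInter] at hx
    have hxK : x ∈ GK K := ((h66u_mem_GK_Kur K _ x).1 (hx 0)).1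
    have hxI : IsInert K x := by
      refine ⟨hxK, fun w k hk hqk hw => ?_⟩
      obtain ⟨m, hm, hwm⟩ := h36n_exists_pow hT K hk hqk hw
      have h1 : w ^ (resCard K ^ m.factorial - 1) = 1 :=
        h36n_pow_of_dvd (resCard K) (Nat.dvd_factorial hm le_rfl) hwm
      exact ((h66u_mem_GK_Kur K _ x).1 (hx m)).2 w h1
    rw [mem_nhds_iff]
    refine ⟨(fun g => x⁻¹ * g) ⁻¹' (GK F : Set (Gq q)), ?_, ?_, ?_⟩
    · intro g hg
      exact ⟨x, hxI, hg⟩
    · exact (IntermediateField.fixingSubgroup_isOpen F).preimage (continuous_const_mul x⁻¹)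
    · show x⁻¹ * x ∈ GK F
      rw [inv_mul_cancel]
      exact (GK F).one_mem
  obtain ⟨m, hm⟩ := exists_subset_nhds_of_isCompact' hdir hcpct hclosed hU
  exact ⟨m.factorial, Nat.factorial_pos m, fun g hg => hm hg⟩

/-! ### The main theorem -/

theorem h36n_locUnr_of (hT : LFTeich) : H36LocUnr := by
  intro q _ p _ K _ c hco hcont hin
  obtain ⟨F, hFfin, hKF, hF⟩ := hcont
  haveI := hFfin
  have hp : p.Prime := Fact.out
  obtain ⟨n, hn, hlev⟩ := h36n_exists_level hT K F
  obtain ⟨φ, hφ⟩ := h36_urFrob hT q K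
  have hnp : 0 < n * p := Nat.mul_pos hn hp.pos
  have hcyc : IsCyc K (Kur K (n * p)) (n * p) φ := h66v_urCyc hT q K (n * p) φ hnp hφ
  have hle : GK (Kur K (n * p)) ≤ GK (Kur K n) := h36n_GK_Kur_anti K (Dvd.intro p rfl)
  have hleK : GK (Kur K n) ≤ GK K :=
    IntermediateField.fixingSubgroup_antitone (h66u_le_Kur K n)
  -- invariance under `G_{Kur K n}`
  have hinv : ∀ g ∈ GK K, ∀ g' ∈ GK K, ∀ s ∈ GK (Kur K n), ∀ s' ∈ GK (Kur K n),
      c (g * s, g' * s') = c (g, g') := by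
    intro g hg g' hg' s hs s' hs'
    obtain ⟨i, hi, his⟩ := hlev s hs
    obtain ⟨i', hi', his'⟩ := hlev s' hs'
    have e1 : g * s = (g * i) * (i⁻¹ * s) := by group
    have e2 : g' * s' = (g' * i') * (i'⁻¹ * s') := by group
    rw [e1, e2, hF (g * i) ((GK K).mul_mem hg hi.1) (g' * i') ((GK K).mul_mem hg' hi'.1)
      _ his _ his']
    exact hin g hg g' hg' i i' hi hi'
  have hφK : ∀ i : ℕ, φ ^ i ∈ GK K := fun i => (GK K).pow_mem hφ.1 i
  set a : ℕ → ℕ → ZMod p := fun i j => c (φ ^ i, φ ^ j) with ha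
  have hcoa : ∀ i j k, a j k - a (i + j) k + a i (j + k) - a i j = 0 := by
    intro i j k
    have h := hco (φ ^ i) (hφK i) (φ ^ j) (hφK j) (φ ^ k) (hφK k)
    rw [← pow_add, ← pow_add] at h
    exact h
  have hper : ∀ i, a n i = a 0 i := by
    intro i
    have h := hinv 1 (GK K).one_mem (φ ^ i) (hφK i) (φ ^ n) (h36n_frob_pow_mem hT K hφ hn)
      1 (GK (Kur K n)).one_mem
    rw [one_mul, mul_one] at h
    show c (φ ^ n, φ ^ i) = c (φ ^ 0, φ ^ i)
    rw [h, pow_zero]
  have hpx : ∀ x : ZMod p, p • x = 0 := by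
    intro x
    rw [nsmul_eq_mul, ZMod.natCast_self, zero_mul]
  set Fp : ℕ → ZMod p := h36n_prim a with hFp
  have hspec : ∀ i j, a i j = Fp j - Fp (i + j) + Fp i := h36n_prim_spec a hcoa
  have hmod : ∀ i, Fp (i % (n * p)) = Fp i := h36n_prim_mod a hcoa n hper p hpx
  refine ⟨fun g => Fp (cycIdx (Kur K (n * p)) φ (n * p) g), ?_, ?_⟩
  · refine ⟨Kur K (n * p), hcyc.fin, hcyc.le, ?_⟩
    intro g hg s hs
    show Fp (cycIdx (Kur K (n * p)) φ (n * p) (g * s)) = Fp (cycIdx (Kur K (n * p)) φ (n * p) g)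
    rw [h79c_cycIdx_mul_right hcyc hg hs]
  · intro g hg h hh
    have hg1 := h79c_cycIdx_mem hcyc hg
    have hh1 := h79c_cycIdx_mem hcyc hh
    set I := cycIdx (Kur K (n * p)) φ (n * p) g with hI
    set J := cycIdx (Kur K (n * p)) φ (n * p) h with hJ
    have e1 : g = φ ^ I * ((φ ^ I)⁻¹ * g) := by group
    have e2 : h = φ ^ J * ((φ ^ J)⁻¹ * h) := by group
    have hc1 : c (g, h) = a I J := by
      conv_lhs => rw [e1, e2]
      exact hinv (φ ^ I) (hφK I) (φ ^ J) (hφK J) _ (hle hg1) _ (hle hh1)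
    have hmul : cycIdx (Kur K (n * p)) φ (n * p) (g * h) = (I + J) % (n * p) :=
      h79c_cycIdx_mul hcyc hg hh
    show c (g, h) = (0 : Gq q × Gq q → ZMod p) (g, h) +
      (Fp (cycIdx (Kur K (n * p)) φ (n * p) h) - Fp (cycIdx (Kur K (n * p)) φ (n * p) (g * h))
        + Fp (cycIdx (Kur K (n * p)) φ (n * p) g))
    rw [hmul, hmod, hc1, hspec I J, Pi.zero_apply, zero_add]

/-- **LOC-UNR**, unconditional. -/
theorem h36n_locUnr : H36LocUnr := h36n_locUnr_of h34lf_lfTeich

end Fermat.Agent.PT.Loc
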