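import Mathlib
import Fermat.Agent.PT.Loc.Iface3
import Fermat.Agent.PT.Loc.H36Unr

/-!
# W3-PT / PT-LOC part 3, leaf LOC3-UNR (helper49)

`h49u_locUnr : LocUnr` — a continuous `2`-cocycle of `G_K` with values in `ZMod p` which is right
invariant under the inertia group in both variables is a continuous coboundary.

The frozen Prop `LocUnr` (`Loc/Iface3.lean`) has the same body as `H36LocUnr`
(`Loc/H36Unr.lean`, helper36), proved there unconditionally by compactness of the Krull topology
and the explicit primitive of a `2`-cocycle of `ℕ`; this file is the wiring.
-/

set_option autoImplicit false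

namespace Fermat.Agent.PT.Loc

/-- **LOC3-UNR**, unconditional. -/
theorem h49u_locUnr : LocUnr := h36n_locUnr

/-- **LOC3-UNR** in the conditional shape of the task row (the leaves are not needed). -/
theorem h49u_locUnr_of (_hR : LFResDeg) (_hI : InertExt) (_hU : URH2) : LocUnr := h36n_locUnr

end Fermat.Agent.PT.Loc
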