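import Mathlib
import Fermat.Agent.PT.Loc.Iface3
import Fermat.Agent.PT.Loc.H36Unr
import Fermat.Agent.PT.Loc.H90Final
import Fermat.Agent.PT.Loc.H74URValGal

/-!
# W3-PT / PT-LOC part 2, leaf LOC2-UR-H2 (helper49, second seat)

`h49h_urH2 : URH2` — a `2`-cocycle of `G_E` with values in `ZMod p` which is right invariant under
`G_{Kur E n}` in both variables (for some `n > 0`) is a continuous coboundary.

Reduction to `LocUnr` (helper36, `Loc/H36Unr.lean`): such a cocycle is continuous of level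
`Kur E n`, and the inertia group of `E` is contained in `G_{Kur E n}`.
-/

set_option autoImplicit false

namespace Fermat.Agent.PT.Loc

variable {q : ℕ} [Fact q.Prime]

/-- the inertia group of `K` fixes `Kur K n`. -/
theorem h49h_inert_mem_GK_Kur (hT : LFTeich) (K : LF q) [FiniteDimensional ℚ_[q] K] {n : ℕ}
    (hn : 0 < n) {i : Gq q} (hi : IsInert K i) : i ∈ GK (Kur K n) := by
  rw [h66u_mem_GK_Kur]
  exact ⟨hi.1, fun w hw => hi.2 w _ (h74v_pred_pos hT K hn) (h74v_pred_not_dvd hT K hn) hw⟩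

/-- **LOC2-UR-H2** from `LFTeich`, `URVal` and `LocUnr`. -/
theorem h49h_urH2_of (hT : LFTeich) (hV : URVal) (hU : LocUnr) : URH2 := by
  intro q _ p _ E _ c hco hlev
  obtain ⟨n, hn, hinv⟩ := hlev
  have hcont : Cont2 E c := ⟨Kur E n, (hV q E n hn).1, h66u_le_Kur E n, hinv⟩
  refine hU q p E c hco hcont ?_
  intro g hg g' hg' i i' hi hi'
  exact hinv g hg g' hg' i (h49h_inert_mem_GK_Kur hT E hn hi) i'
    (h49h_inert_mem_GK_Kur hT E hn hi')

/-- **LOC2-UR-H2**, unconditional. -/
theorem h49h_urH2 : URH2 := h49h_urH2_of h34lf_lfTeich h90l_urVal h36n_locUnr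

end Fermat.Agent.PT.Loc
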