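import Mathlib
import Fermat.Agent.PT.Loc.Top
import Fermat.Agent.PT.Bridge.LocGrpD

/-!
# W3-PT / PT-LOC, leaf LOC2-INV-OK (helper70): `invQ p q` kills the continuous coboundaries

`h70k_invOKq : InvEx → ChiZeta → InvOKq`.

For `c = d¹ x` with `x` level-constant, `ζ ^ c` is the multiplicative coboundary of
`g ↦ ζ ^ (x g)` (because `g • ζ = ζ ^ χ(g)`), which is continuous; hence `HasInv p q c 0`, and
`invQ p q c = 0` as soon as `invQ p q` satisfies `InvSpec`.
-/

set_option autoImplicit false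

open scoped Classical

noncomputable section

namespace Fermat.Agent.PT.Loc

open ExtCitation Fermat.Agent.PT Fermat.Agent.PT.Bridge

section Pow

variable {M : Type*} [CommGroup M] {p : ℕ} [NeZero p]

/-- `t ↦ ζ ^ t.val` is additive when `ζ ^ p = 1`. -/
theorem h70k_pow_val_add {ζ : M} (hζ : ζ ^ p = 1) (a b : ZMod p) :
    ζ ^ (a + b).val = ζ ^ a.val * ζ ^ b.val := by
  rw [ZMod.val_add, ← pow_add, ← pow_eq_pow_mod _ hζ]

omit [NeZero p] in
theorem h70k_pow_val_mul {ζ : M} (hζ : ζ ^ p = 1) (a b : ZMod p) :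
    ζ ^ (a * b).val = (ζ ^ a.val) ^ b.val := by
  rw [ZMod.val_mul, ← pow_mul, ← pow_eq_pow_mod _ hζ]

theorem h70k_pow_val_neg {ζ : M} (hζ : ζ ^ p = 1) (a : ZMod p) :
    ζ ^ (-a).val = (ζ ^ a.val)⁻¹ := by
  rw [eq_inv_iff_mul_eq_one, ← h70k_pow_val_add hζ, neg_add_cancel, ZMod.val_zero, pow_zero]

theorem h70k_pow_val_sub {ζ : M} (hζ : ζ ^ p = 1) (a b : ZMod p) :
    ζ ^ (a - b).val = ζ ^ a.val / ζ ^ b.val := by
  rw [sub_eq_add_neg, h70k_pow_val_add hζ, h70k_pow_val_neg hζ, div_eq_mul_inv]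

end Pow

section Main

variable {q : ℕ} [Fact q.Prime] {p : ℕ} [Fact p.Prime]

/-- a level-constant cochain of `Gq q` is continuous in the relative sense. -/
theorem h70k_cont1_of_isLC1 {X : Type*} (f : Gq q → X) (hf : IsLC1 (levLoc q) f) :
    Cont1 (⊥ : LF q) f := by
  obtain ⟨N, ⟨N₀, ⟨F, hF, -, rfl⟩, rfl⟩, h⟩ := hf
  have := hF
  refine ⟨h23b_localField q F, h23b_finiteDimensional_localField q F, bot_le, ?_⟩
  intro g _ s hs
  refine h g s ?_
  rw [h23b_comap_fixingSubgroup]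
  exact hs

/-- `invQ p q` satisfies its specification as soon as some functional does. -/
theorem h70k_invSpec (hEx : InvEx) : InvSpec p q (invQ p q) := by
  have h := hEx q p
  unfold invQ
  rw [dif_pos h]
  exact h.choose_spec

/-- a continuous coboundary of `𝔽_p(χ)` has invariant `0`. -/
theorem h70k_hasInv_cob (hZ : ChiZeta) (x : Gq q → ZMod p) (hx : IsLC1 (levLoc q) x) :
    HasInv p q (d1 (chiRep (chiQ p q)) x) 0 := by
  obtain ⟨hprim, hU, hact⟩ := hZ q p
  have hζ : zetaU p q ^ p = 1 := by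
    apply Units.ext
    rw [Units.val_pow_eq_pow_val, hU, hprim.pow_eq_one]
    rfl
  refine ⟨fun g => zetaU p q ^ (x g).val, ?_, ?_⟩
  · obtain ⟨F, hF, hle, h⟩ := h70k_cont1_of_isLC1 x hx
    exact ⟨F, hF, hle, fun g hg s hs => by
      show zetaU p q ^ (x (g * s)).val = zetaU p q ^ (x g).val
      rw [h g hg s hs]⟩
  · intro g _ h _
    show zetaU p q ^ (d1 (chiRep (chiQ p q)) x (g, h)).val =
      Yq p q (g, h) ^ (0 : ZMod p).val *
        (g • (zetaU p q ^ (x h).val) / zetaU p q ^ (x (g * h)).val * zetaU p q ^ (x g).val)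
    rw [ZMod.val_zero, pow_zero, one_mul, d1_apply, chiRep_apply, smul_pow', hact g,
      h70k_pow_val_add hζ, h70k_pow_val_sub hζ, h70k_pow_val_mul hζ]
    rfl

/-- **LOC2-INV-OK**. -/
theorem h70k_invOKq (hEx : InvEx) (hZ : ChiZeta) : InvOKq := by
  intro q _ p _ c hc
  obtain ⟨x, hx, rfl⟩ := (mem_B2 _ _ c).mp hc
  exact h70k_invSpec hEx _ 0 (h70k_hasInv_cob hZ x hx)

end Main

end Fermat.Agent.PT.Loc
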