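import Mathlib
import Fermat.Agent.PT.Loc.Iface
import Fermat.Agent.PT.Loc.H76MC
import Fermat.Agent.PT.Loc.H66URCyc
import Fermat.Agent.PT.Loc.H36URBaseChange

/-!
# W3-PT / PT-LOC (helper76): step (1) of LOC-B0-DESC — restriction of the class of invariant `1/p²`

For `K₁/K` cyclic of prime degree `p`, `π`, `π₁` uniformizers and `φ`, `φ₁` Frobenius elements of
`K`, `K₁`, the cyclic class `Y = carry (Kur K (p·p)) φ (p·p) π` of `K` (invariant `1/p²`)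
restricts on `G_{K₁}` to the class `U₁ = carry (Kur K₁ p) φ₁ p π₁` (invariant `1/p`):

`h76d_resY : LFTeich → URCyc → URVal → URBaseChange → URNormGrp → NIDich → MCCarryNorm →
  MCCarryPow → h76d_ResY`.

Ingredients (all reusable):
* `h76d_frob_inv_mul_mem` : two Frobenius elements of `K` agree modulo `G_{Kur K n}`;
* `h76d_cycIdx_gen_indep` : `cycIdx` does not depend on the generator modulo `G_{K₁}`;
* `h76d_cycIdx_tower_res` : `idx_{K₂/K, σ} = n · idx_{K₂/K₁, σ^n}` on `G_{K₁}`;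
* `h76d_cycIdx_bc` : base change `idx_{L/K, σ} = idx_{L'/K', σ}` on `G_{K'}`;
* `h76d_carry_unit` : the carry cocycle of a unit along an unramified extension is a coboundary;
* `h76d_carry_unif_indep` : independence of the uniformizer.
-/

set_option autoImplicit false

open scoped Classical

noncomputable section

namespace Fermat.Agent.PT.Loc

variable {q : ℕ} [Fact q.Prime]

/-- Step (1) of LOC-B0-DESC: `res_{K₁/K} [Y] = [U₁]`. -/
def h76d_ResY : Prop :=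
  ∀ (q : ℕ) [Fact q.Prime] (p : ℕ) [Fact p.Prime] (K K₁ : LF q) [FiniteDimensional ℚ_[q] K]
    (σ : Gq q), IsCyc K K₁ p σ →
    ∀ (π π₁ : (Om q)ˣ) (φ φ₁ : Gq q), IsUnif K (π : Om q) → IsFrob K φ →
      IsUnif K₁ (π₁ : Om q) → IsFrob K₁ φ₁ →
      MCohom K₁ (carry (Kur K (p * p)) φ (p * p) π) (carry (Kur K₁ p) φ₁ p π₁)

/-! ## Uniformizers -/

theorem h76d_unif_norm_eq {K : LF q} {π π' : Om q} (h : IsUnif K π) (h' : IsUnif K π') :
    ‖π‖ = ‖π'‖ :=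
  le_antisymm (h'.2.2.2 π h.1 h.2.2.1) (h.2.2.2 π' h'.1 h'.2.2.1)

/-! ## Frobenius elements -/

/-- Two Frobenius elements of `K` agree modulo `G_{Kur K n}`. -/
theorem h76d_frob_inv_mul_mem (hT : LFTeich) (K : LF q) [FiniteDimensional ℚ_[q] K] (n : ℕ)
    (hn : 0 < n) {φ φ' : Gq q} (h : IsFrob K φ) (h' : IsFrob K φ') :
    φ⁻¹ * φ' ∈ GK (Kur K n) := by
  rw [h66u_mem_GK_Kur]
  refine ⟨(GK K).mul_mem ((GK K).inv_mem h.1) h'.1, fun w hw => ?_⟩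
  obtain ⟨-, ⟨f, hf, hN⟩, -, -, -⟩ := hT q K
  have hq : q.Prime := Fact.out
  have h2 := h66u_two_le_pow hq hf hN hn
  have hpos : 0 < resCard K ^ n - 1 := by omega
  have hnd := h66u_not_dvd_pred hq hf hN hn
  rw [AlgEquiv.mul_apply, h'.2 w _ hpos hnd hw, ← h.2 w _ hpos hnd hw]
  show φ⁻¹ (φ w) = w
  rw [← AlgEquiv.mul_apply, inv_mul_cancel, AlgEquiv.one_apply]

/-! ## The index in a cyclic quotient -/

section Idx

variable {K K₁ : LF q} {n : ℕ} {σ : Gq q}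

/-- if `σ' ∈ σ G_{K₁}` then `σ'^j ∈ σ^j G_{K₁}`. -/
theorem h76d_pow_coset (hc : IsCyc K K₁ n σ) {σ' : Gq q} (hσ' : σ' ∈ GK K)
    (h : σ⁻¹ * σ' ∈ GK K₁) (j : ℕ) : (σ ^ j)⁻¹ * σ' ^ j ∈ GK K₁ := by
  induction j with
  | zero => simp
  | succ j ih =>
    have h1 : (σ ^ (j + 1))⁻¹ * σ' ^ (j + 1)
        = (σ⁻¹ * σ') * (σ'⁻¹ * ((σ ^ j)⁻¹ * σ' ^ j) * σ') := by
      rw [pow_succ, pow_succ]
      group
    rw [h1]
    exact (GK K₁).mul_mem h (h79c_conj_mem hc hσ' ih)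

/-- the index does not depend on the generator modulo `G_{K₁}`. -/
theorem h76d_cycIdx_gen_indep {σ' : Gq q} (hc : IsCyc K K₁ n σ) (hc' : IsCyc K K₁ n σ')
    (h : σ⁻¹ * σ' ∈ GK K₁) {g : Gq q} (hg : g ∈ GK K) :
    cycIdx K₁ σ n g = cycIdx K₁ σ' n g := by
  refine h79c_cycIdx_unique hc hg (h79c_cycIdx_lt hc' hg) ?_
  have h1 := h76d_pow_coset hc hc'.mem h (cycIdx K₁ σ' n g)
  have h2 := h79c_cycIdx_mem hc' hg
  have h3 : (σ ^ cycIdx K₁ σ' n g)⁻¹ * g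
      = ((σ ^ cycIdx K₁ σ' n g)⁻¹ * σ' ^ cycIdx K₁ σ' n g) *
        ((σ' ^ cycIdx K₁ σ' n g)⁻¹ * g) := by
    group
  rw [h3]
  exact (GK K₁).mul_mem h1 h2

/-- tower: `idx_{K₂/K, σ} = n · idx_{K₂/K₁, σ^n}` on `G_{K₁}`. -/
theorem h76d_cycIdx_tower_res {K₂ : LF q} {m : ℕ} (hc₂ : IsCyc K K₂ (n * m) σ)
    (hc₁₂ : IsCyc K₁ K₂ m (σ ^ n)) (hle : K ≤ K₁) (hn : 0 < n) {g : Gq q} (hg : g ∈ GK K₁) :
    cycIdx K₂ σ (n * m) g = n * cycIdx K₂ (σ ^ n) m g := by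
  have hgK : g ∈ GK K := IntermediateField.fixingSubgroup_antitone hle hg
  refine h79c_cycIdx_unique hc₂ hgK
    (Nat.mul_lt_mul_of_pos_left (h79c_cycIdx_lt hc₁₂ hg) hn) ?_
  have h2 := h79c_cycIdx_mem hc₁₂ hg
  rwa [← pow_mul] at h2

/-- base change: `idx_{L/K, σ} = idx_{L'/K', σ}` on `G_{K'}` when `K ≤ K'`, `L ≤ L'`. -/
theorem h76d_cycIdx_bc {K' L L' : LF q} (hc : IsCyc K L n σ) (hc' : IsCyc K' L' n σ)
    (hK : K ≤ K') (hL : L ≤ L') {g : Gq q} (hg : g ∈ GK K') :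
    cycIdx L σ n g = cycIdx L' σ n g := by
  have hgK : g ∈ GK K := IntermediateField.fixingSubgroup_antitone hK hg
  exact h79c_cycIdx_unique hc hgK (h79c_cycIdx_lt hc' hg)
    (IntermediateField.fixingSubgroup_antitone hL (h79c_cycIdx_mem hc' hg))

end Idx

/-! ## Carry cocycles of units and uniformizers -/

/-- the carry cocycle of a unit along an unramified extension is a coboundary. -/
theorem h76d_carry_unit (hNG : URNormGrp) (hCN : MCCarryNorm) (hCy : URCyc) (K : LF q)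
    [FiniteDimensional ℚ_[q] K] (n : ℕ) (hn : 0 < n) (φ : Gq q) (hφ : IsFrob K φ) (π : Om q)
    (hπ : IsUnif K π) (u : (Om q)ˣ) (huK : (u : Om q) ∈ K) (hu : ‖(u : Om q)‖ = 1) :
    MCohom K (carry (Kur K n) φ n u) 1 := by
  refine (hCN q K (Kur K n) n φ u (hCy q K n φ hn hφ) huK).2 ?_
  refine (hNG q K n φ π hn hφ hπ (u : Om q) huK u.ne_zero).2 ⟨0, ?_⟩
  rw [hu]
  simp

/-- the class of `carry (Kur K n) φ n b` only depends on `‖b‖`. -/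
theorem h76d_carry_norm_indep (hNG : URNormGrp) (hCN : MCCarryNorm) (hCy : URCyc) (K : LF q)
    [FiniteDimensional ℚ_[q] K] (n : ℕ) (hn : 0 < n) (φ : Gq q) (hφ : IsFrob K φ) (π : Om q)
    (hπ : IsUnif K π) (b b' : (Om q)ˣ) (hb : (b : Om q) ∈ K) (hb' : (b' : Om q) ∈ K)
    (hnorm : ‖(b : Om q)‖ = ‖(b' : Om q)‖) :
    MCohom K (carry (Kur K n) φ n b) (carry (Kur K n) φ n b') := by
  have hu : MCohom K (carry (Kur K n) φ n (b'⁻¹ * b)) 1 := by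
    refine h76d_carry_unit hNG hCN hCy K n hn φ hφ π hπ (b'⁻¹ * b) ?_ ?_
    · rw [Units.val_mul, Units.val_inv_eq_inv_val]
      exact K.mul_mem (K.inv_mem hb') hb
    · rw [Units.val_mul, Units.val_inv_eq_inv_val, norm_mul, norm_inv, hnorm]
      exact inv_mul_cancel₀ (norm_ne_zero_iff.2 b'.ne_zero)
  refine h76m_mul_one (h76m_of_eq K (fun g _ h _ => ?_)) hu
  rw [← h76m_carry_mul, mul_inv_cancel_left]

/-! ## The two cases -/

/-- carry cocycles with pointwise equal indices coincide. -/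
theorem h76d_carry_congr {L L' : LF q} {σ σ' : Gq q} {n n' k : ℕ} (hk : 0 < k) (hn : n = k * n')
    (b : (Om q)ˣ) {g h : Gq q} (hg : cycIdx L σ n g = k * cycIdx L' σ' n' g)
    (hh : cycIdx L σ n h = k * cycIdx L' σ' n' h) :
    carry L σ n b (g, h) = carry L' σ' n' b (g, h) := by
  unfold carry
  simp only
  rw [hg, hh, hn, ← Nat.mul_add]
  by_cases hle : n' ≤ cycIdx L' σ' n' g + cycIdx L' σ' n' h
  · rw [if_pos hle, if_pos (Nat.mul_le_mul_left k hle)]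
  · rw [if_neg hle, if_neg (fun h' => hle (Nat.le_of_mul_le_mul_left h' hk))]

/-- Unramified case `K₁ = Kur K p`. -/
theorem h76d_resY_unram (hT : LFTeich) (hCy : URCyc) (hV : URVal) (hBC : URBaseChange)
    (hNG : URNormGrp) (hCN : MCCarryNorm) (p : ℕ) [Fact p.Prime] (K : LF q)
    [FiniteDimensional ℚ_[q] K] (π π₁ : (Om q)ˣ) (φ φ₁ : Gq q) (hπ : IsUnif K (π : Om q))
    (hφ : IsFrob K φ) (hπ₁ : IsUnif (Kur K p) (π₁ : Om q)) (hφ₁ : IsFrob (Kur K p) φ₁) :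
    MCohom (Kur K p) (carry (Kur K (p * p)) φ (p * p) π) (carry (Kur (Kur K p) p) φ₁ p π₁) := by
  have hp : p.Prime := Fact.out
  obtain ⟨hfin, hval, hres⟩ := hV q K p hp.pos
  have := hfin
  obtain ⟨-, hBC2, hBC3⟩ := hBC q K
  have hL : Kur (Kur K p) p = Kur K (p * p) := hBC2 p p hp.pos hp.pos
  have hφp : IsFrob (Kur K p) (φ ^ p) := hBC3 p φ hp.pos hφ
  have hcY : IsCyc K (Kur K (p * p)) (p * p) φ :=
    hCy q K (p * p) φ (Nat.mul_pos hp.pos hp.pos) hφ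
  have hc1 : IsCyc (Kur K p) (Kur (Kur K p) p) p φ₁ := hCy q (Kur K p) p φ₁ hp.pos hφ₁
  have hc1' : IsCyc (Kur K p) (Kur (Kur K p) p) p (φ ^ p) :=
    hCy q (Kur K p) p (φ ^ p) hp.pos hφp
  have hdiff : (φ ^ p)⁻¹ * φ₁ ∈ GK (Kur (Kur K p) p) :=
    h76d_frob_inv_mul_mem hT (Kur K p) p hp.pos hφp hφ₁
  have hleK : K ≤ Kur K p := le_sup_left
  -- `π` is a uniformizer of `Kur K p`
  have hπ' : IsUnif (Kur K p) (π : Om q) := by
    refine ⟨hleK hπ.1, hπ.2.1, hπ.2.2.1, fun x hx hx1 => ?_⟩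
    obtain ⟨y, hy, hxy⟩ := hval x hx
    rw [hxy]
    exact hπ.2.2.2 y hy (hxy ▸ hx1)
  -- pointwise equality on `G_{K₁}`
  have hpt : ∀ g ∈ GK (Kur K p), ∀ h ∈ GK (Kur K p),
      carry (Kur K (p * p)) φ (p * p) π (g, h) = carry (Kur (Kur K p) p) φ₁ p π (g, h) := by
    intro g hg h hh
    have key : ∀ x ∈ GK (Kur K p),
        cycIdx (Kur K (p * p)) φ (p * p) x = p * cycIdx (Kur (Kur K p) p) φ₁ p x := by
      intro x hx
      rw [← h76d_cycIdx_gen_indep hc1' hc1 hdiff hx]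
      have hc12 : IsCyc (Kur K p) (Kur K (p * p)) p (φ ^ p) := hL ▸ hc1'
      rw [h76d_cycIdx_tower_res hcY hc12 hleK hp.pos hx, hL]
    exact h76d_carry_congr hp.pos rfl π (key g hg) (key h hh)
  refine h76m_trans (h76m_of_eq (Kur K p) hpt) ?_
  exact h76d_carry_norm_indep hNG hCN hCy (Kur K p) p hp.pos φ₁ hφ₁ (π₁ : Om q) hπ₁ π π₁
    hπ'.1 hπ₁.1 (h76d_unif_norm_eq hπ' hπ₁)

/-- Totally ramified case. -/
theorem h76d_resY_ram (hT : LFTeich) (hCy : URCyc) (hNG : URNormGrp) (hCN : MCCarryNorm)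
    (hCP : MCCarryPow) (p : ℕ) [Fact p.Prime] (K K₁ : LF q) [FiniteDimensional ℚ_[q] K]
    [FiniteDimensional ℚ_[q] K₁] (hle : K ≤ K₁) (hres : resCard K₁ = resCard K)
    (ϖ π' : Om q) (hπ'K : IsUnif K π') (hϖ : IsUnif K₁ ϖ) (hnorm : ‖ϖ‖ ^ p = ‖π'‖)
    (π π₁ : (Om q)ˣ) (φ φ₁ : Gq q) (hπ : IsUnif K (π : Om q))
    (hφ : IsFrob K φ) (hπ₁ : IsUnif K₁ (π₁ : Om q)) (hφ₁ : IsFrob K₁ φ₁) :
    MCohom K₁ (carry (Kur K (p * p)) φ (p * p) π) (carry (Kur K₁ p) φ₁ p π₁) := by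
  have hp : p.Prime := Fact.out
  have hpp : 0 < p * p := Nat.mul_pos hp.pos hp.pos
  have hφ₁K : IsFrob K φ₁ :=
    ⟨IntermediateField.fixingSubgroup_antitone hle hφ₁.1, fun w m hm hq hw => by
      rw [← hres]
      exact hφ₁.2 w m hm hq hw⟩
  have hcY : IsCyc K (Kur K (p * p)) (p * p) φ := hCy q K (p * p) φ hpp hφ
  have hcY₁ : IsCyc K (Kur K (p * p)) (p * p) φ₁ := hCy q K (p * p) φ₁ hpp hφ₁K
  have hc2 : IsCyc K₁ (Kur K₁ (p * p)) (p * p) φ₁ := hCy q K₁ (p * p) φ₁ hpp hφ₁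
  have hc1 : IsCyc K₁ (Kur K₁ p) p φ₁ := hCy q K₁ p φ₁ hp.pos hφ₁
  have hdiff : φ⁻¹ * φ₁ ∈ GK (Kur K (p * p)) :=
    h76d_frob_inv_mul_mem hT K (p * p) hpp hφ hφ₁K
  have hKur : Kur K (p * p) ≤ Kur K₁ (p * p) := by
    rw [h36bc_part1 K K₁ (p * p) hle hres]
    exact le_sup_right
  have hKur' : Kur K₁ p ≤ Kur K₁ (p * p) := by
    rw [h36bc_kur_def K₁ p, h36bc_kur_def K₁ (p * p)]
    exact sup_le_sup_left (h36bc_adjoin_mono (resCard K₁) p p) K₁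
  -- pointwise equality on `G_{K₁}`
  have hpt : ∀ g ∈ GK K₁, ∀ h ∈ GK K₁,
      carry (Kur K (p * p)) φ (p * p) π (g, h) = carry (Kur K₁ (p * p)) φ₁ (p * p) π (g, h) := by
    intro g hg h hh
    have key : ∀ x ∈ GK K₁,
        cycIdx (Kur K (p * p)) φ (p * p) x = 1 * cycIdx (Kur K₁ (p * p)) φ₁ (p * p) x := by
      intro x hx
      rw [one_mul, h76d_cycIdx_gen_indep hcY hcY₁ hdiff
        (IntermediateField.fixingSubgroup_antitone hle hx)]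
      exact h76d_cycIdx_bc hcY₁ hc2 hle hKur hx
    exact h76d_carry_congr one_pos (one_mul _).symm π (key g hg) (key h hh)
  refine h76m_trans (h76m_of_eq K₁ hpt) ?_
  -- `π ∼ π₁ ^ p`
  have h1 : MCohom K₁ (carry (Kur K₁ (p * p)) φ₁ (p * p) π)
      (carry (Kur K₁ (p * p)) φ₁ (p * p) (π₁ ^ p)) := by
    refine h76d_carry_norm_indep hNG hCN hCy K₁ (p * p) hpp φ₁ hφ₁ (π₁ : Om q) hπ₁ π (π₁ ^ p)
      (hle hπ.1) ?_ ?_
    · rw [Units.val_pow_eq_pow_val]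
      exact pow_mem hπ₁.1 p
    · rw [Units.val_pow_eq_pow_val, norm_pow, h76d_unif_norm_eq hπ hπ'K, ← hnorm,
        h76d_unif_norm_eq hϖ hπ₁]
  exact h76m_trans h1 (hCP q K₁ (Kur K₁ p) (Kur K₁ (p * p)) p p φ₁ π₁ hc1 hc2 hKur' hπ₁.1)

/-- **Step (1) of LOC-B0-DESC**: `res_{K₁/K} [Y] = [U₁]`. -/
theorem h76d_resY (hT : LFTeich) (hCy : URCyc) (hV : URVal) (hBC : URBaseChange)
    (hNG : URNormGrp) (hD : NIDich) (hCN : MCCarryNorm) (hCP : MCCarryPow) : h76d_ResY := by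
  intro q _ p _ K K₁ _ σ hc π π₁ φ φ₁ hπ hφ hπ₁ hφ₁
  have := hc.fin
  rcases hD q p K K₁ σ hc with h | ⟨hres, ϖ, -, π', hπ'K, hϖ, hnorm⟩
  · subst h
    exact h76d_resY_unram hT hCy hV hBC hNG hCN p K π π₁ φ φ₁ hπ hφ hπ₁ hφ₁
  · exact h76d_resY_ram hT hCy hNG hCN hCP p K K₁ hc.le hres ϖ π' hπ'K hϖ hnorm π π₁ φ φ₁
      hπ hφ hπ₁ hφ₁

end Fermat.Agent.PT.Loc
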