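import Mathlib
import Fermat.Agent.PT.Loc.Iface2
import Fermat.Agent.PT.Loc.H90Final
import Fermat.Agent.PT.Loc.H76ResY
import Fermat.Agent.PT.Loc.MC.H79CarryPow

/-!
# W3-PT / PT-LOC, leaves LOC2-VAN-RESGEN and LOC2-VAN-RESZERO (helper76)

* `h76z_resZeroGen : ResZeroGen` — a standard generator of `H²(G_K, 𝔽_p)` dies on `G_{K₁}` for
  `K₁/K` cyclic of degree `p`;
* `h76z_resZero : ResZero` — restriction `H²(G_K, 𝔽_p) → H²(G_{K₁}, 𝔽_p)` is zero.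

Route (Brauer classes by explicit cocycles; `U = carry (Kur K p) φ p π` has invariant `1/p`,
`Y = carry (Kur K p²) φ p² π` has invariant `1/p²`):
`ζ^{c₀} ∼ U⁻¹` (`MCKum`), `U ∼ Y^p` (`MCCarryPow`), `Y|G_{K₁} ∼ U₁` (`h76d_resY`),
`U₁^p = carry(π₁^p) ∼ 1` (`π₁^p` is a norm from `Kur K₁ p`), hence `ζ^{c₀} ∼ 1` on `G_{K₁}` and
`c₀ ∼ 0` by `MCMu`.
-/

set_option autoImplicit false

open scoped Classical

noncomputable section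

namespace Fermat.Agent.PT.Loc

variable {q : ℕ} [Fact q.Prime] {p : ℕ}

/-! ## Additive calculus -/

/-- restriction of `ACohom` from `G_K` to `G_{K'}`. -/
theorem h76z_acohom_res {K K' : LF q} (hK' : FiniteDimensional ℚ_[q] K') (hle : K ≤ K')
    {c c' : Gq q × Gq q → ZMod p} (h : ACohom K c c') : ACohom K' c c' := by
  obtain ⟨f, hf, hcf⟩ := h
  exact ⟨f, h76m_cont1_res hK' hle hf, fun g hg h hh =>
    hcf g (IntermediateField.fixingSubgroup_antitone hle hg) h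
      (IntermediateField.fixingSubgroup_antitone hle hh)⟩

/-- `c ∼ t • c₀` and `c₀ ∼ 0` give `c ∼ 0`. -/
theorem h76z_acohom_zero_of_smul {K : LF q} {c c₀ : Gq q × Gq q → ZMod p} {t : ZMod p}
    (h : ACohom K c (t • c₀)) (h₀ : ACohom K c₀ 0) : ACohom K c 0 := by
  obtain ⟨f, hf, hcf⟩ := h
  obtain ⟨f₀, hf₀, hcf₀⟩ := h₀
  refine ⟨fun g => t * f₀ g + f g, h57_cont1_add _ _ (h57_cont1_smul t f₀ hf₀) hf,
    fun g hg h hh => ?_⟩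
  have e1 := hcf g hg h hh
  have e2 := hcf₀ g hg h hh
  simp only [Pi.smul_apply, smul_eq_mul, Pi.zero_apply, zero_add, acob] at e1 e2 ⊢
  rw [e1, e2]
  ring

/-! ## The standard generator dies in a cyclic extension of degree `p` -/

/-- **LOC2-VAN-RESGEN**, conditional form. -/
theorem h76z_resZeroGen_of (hU : LFUnif) (hFr : URFrob) (hCy : URCyc) (hNG : URNormGrp)
    (hCN : MCCarryNorm) (hCP : MCCarryPow) (hMK : MCKum) (hMu : MCMu) (hG : B0Gen)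
    (hRY : h76d_ResY) : ResZeroGen := by
  intro q _ p _ K K₁ _ ζ σ hζK hζ hc c₀ hgen
  have hp : p.Prime := Fact.out
  have hK₁ : FiniteDimensional ℚ_[q] K₁ := hc.fin
  obtain ⟨hcoc, hcont, -⟩ := (hG q p K ζ hζK hζ).2 c₀ hgen
  obtain ⟨ϖ, φ, hπ, hφ, rfl⟩ := hgen
  have hϖ0 : ϖ ≠ 0 := fun h0 => hπ.2.1 (by rw [h0, zero_pow hp.ne_zero])
  have hζ0 : ζ ≠ 0 := hζ.ne_zero hp.ne_zero
  obtain ⟨φ₁, hφ₁⟩ := hFr q K₁
  obtain ⟨⟨π₁, hπ₁⟩, -⟩ := hU q K₁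
  set ζu : (Om q)ˣ := Units.mk0 ζ hζ0 with hζu
  set ϖu : (Om q)ˣ := Units.mk0 ϖ hϖ0 with hϖu
  set π₁u : (Om q)ˣ := Units.mk0 π₁ hπ₁.2.1 with hπ₁u
  have hpp : 0 < p * p := Nat.mul_pos hp.pos hp.pos
  have hcU : IsCyc K (Kur K p) p φ := hCy q K p φ hp.pos hφ
  have hcY : IsCyc K (Kur K (p * p)) (p * p) φ := hCy q K (p * p) φ hpp hφ
  have hc1 : IsCyc K₁ (Kur K₁ p) p φ₁ := hCy q K₁ p φ₁ hp.pos hφ₁
  have hle : Kur K p ≤ Kur K (p * p) := by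
    rw [h36bc_kur_def K p, h36bc_kur_def K (p * p)]
    exact sup_le_sup_left (h36bc_adjoin_mono (resCard K) p p) K
  have hπval : ((ϖu ^ p : (Om q)ˣ) : Om q) = ϖ ^ p := by
    rw [Units.val_pow_eq_pow_val]
    rfl
  have hπu : IsUnif K ((ϖu ^ p : (Om q)ˣ) : Om q) := by
    rw [hπval]
    exact hπ
  -- (A) `ζ^{c₀} ∼ U⁻¹` on `G_K`
  have hA : MCohom K
      (zpw ζu (acup (kum p ζ ϖ) (fun g => (cycIdx (Kur K p) φ p g : ZMod p))))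
      (fun y => (carry (Kur K p) φ p (ϖu ^ p) y)⁻¹) :=
    hMK q p K (Kur K p) φ ζu ϖu hζK hζ hcU hπ.1
  -- (C) `Y^p ∼ U` on `G_K`
  have hC : MCohom K (carry (Kur K (p * p)) φ (p * p) ((ϖu ^ p) ^ p))
      (carry (Kur K p) φ p (ϖu ^ p)) :=
    hCP q K (Kur K p) (Kur K (p * p)) p p φ (ϖu ^ p) hcU hcY hle hπu.1
  -- (D) `Y ∼ U₁` on `G_{K₁}`
  have hD : MCohom K₁ (carry (Kur K (p * p)) φ (p * p) (ϖu ^ p)) (carry (Kur K₁ p) φ₁ p π₁u) :=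
    hRY q p K K₁ σ hc (ϖu ^ p) π₁u φ φ₁ hπu hφ hπ₁ hφ₁
  -- (E) `U₁^p ∼ 1` on `G_{K₁}`
  have hπ₁val : ((π₁u ^ p : (Om q)ˣ) : Om q) = π₁ ^ p := by
    rw [Units.val_pow_eq_pow_val]
    rfl
  have hmem₁ : ((π₁u ^ p : (Om q)ˣ) : Om q) ∈ K₁ := by
    rw [hπ₁val]
    exact pow_mem hπ₁.1 p
  have hE : MCohom K₁ (carry (Kur K₁ p) φ₁ p (π₁u ^ p)) 1 := by
    refine (hCN q K₁ (Kur K₁ p) p φ₁ (π₁u ^ p) hc1 hmem₁).2 ?_
    refine (hNG q K₁ p φ₁ π₁ hp.pos hφ₁ hπ₁ _ hmem₁ (Units.ne_zero _)).2 ⟨1, ?_⟩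
    rw [hπ₁val, norm_pow, mul_one, zpow_natCast]
  -- `U ∼ 1` on `G_{K₁}`
  have hU1 : MCohom K₁ (carry (Kur K p) φ p (ϖu ^ p)) 1 := by
    have h1 : MCohom K₁ (carry (Kur K p) φ p (ϖu ^ p))
        (carry (Kur K (p * p)) φ (p * p) ((ϖu ^ p) ^ p)) :=
      h76m_symm (h76m_res hK₁ hc.le hC)
    have h2 : MCohom K₁ (carry (Kur K (p * p)) φ (p * p) ((ϖu ^ p) ^ p))
        (fun y => carry (Kur K (p * p)) φ (p * p) (ϖu ^ p) y ^ p) :=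
      h76m_of_eq K₁ (fun g _ h _ => h76m_carry_pow _ _ _ _ p (g, h))
    have h3 : MCohom K₁ (fun y => carry (Kur K (p * p)) φ (p * p) (ϖu ^ p) y ^ p)
        (fun y => carry (Kur K₁ p) φ₁ p π₁u y ^ p) :=
      h76m_pow hD p
    have h4 : MCohom K₁ (fun y => carry (Kur K₁ p) φ₁ p π₁u y ^ p)
        (carry (Kur K₁ p) φ₁ p (π₁u ^ p)) :=
      h76m_of_eq K₁ (fun g _ h _ => (h76m_carry_pow _ _ _ _ p (g, h)).symm)
    exact h76m_trans h1 (h76m_trans h2 (h76m_trans h3 (h76m_trans h4 hE)))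
  -- `ζ^{c₀} ∼ 1` on `G_{K₁}`
  have hZ : MCohom K₁
      (zpw ζu (acup (kum p ζ ϖ) (fun g => (cycIdx (Kur K p) φ p g : ZMod p)))) 1 := by
    have h5 : MCohom K₁ (fun y => (carry (Kur K p) φ p (ϖu ^ p) y)⁻¹)
        (fun y => ((1 : Gq q × Gq q → (Om q)ˣ) y)⁻¹) := h76m_inv hU1
    have h6 : MCohom K₁ (fun y => ((1 : Gq q × Gq q → (Om q)ˣ) y)⁻¹) 1 :=
      h76m_of_eq K₁ (fun g _ h _ => by simp)
    exact h76m_trans (h76m_res hK₁ hc.le hA) (h76m_trans h5 h6)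
  exact hMu q p K₁ ζu (hc.le hζK) hζ _ (h76b_acoc2_mono hc.le hcoc)
    (h76b_cont2_mono hK₁ hc.le hcont) hZ

/-- **LOC2-VAN-RESGEN**: a standard generator of `H²(G_K, 𝔽_p)` dies on `G_{K₁}`. -/
theorem h76z_resZeroGen : ResZeroGen :=
  h76z_resZeroGen_of h34lf_lfUnif h90l_urFrob h90l_urCyc h90l_urNormGrp h90l_mcCarryNorm
    h79c_mcCarryPow h65_mcKum h79m_mcMu h90l_b0Gen
    (h76d_resY h34lf_lfTeich h90l_urCyc h90l_urVal h90l_urBaseChange h90l_urNormGrp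
      h90l_niDich h90l_mcCarryNorm h79c_mcCarryPow)

/-! ## Restriction is zero on `H²` -/

/-- **LOC2-VAN-RESZERO**, conditional form. -/
theorem h76z_resZero_of (hB0 : B0) (hG : B0Gen) (hRG : ResZeroGen) : ResZero := by
  intro q _ p _ K K₁ _ ζ σ hζK hζ hc c hcoc hcont
  obtain ⟨c₀, hc₀⟩ := (hG q p K ζ hζK hζ).1
  obtain ⟨t, ht⟩ := hB0 q p K ζ hζK hζ c₀ hc₀ c hcoc hcont
  exact h76z_acohom_zero_of_smul (h76z_acohom_res hc.fin hc.le ht)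
    (hRG q p K K₁ ζ σ hζK hζ hc c₀ hc₀)

/-- **LOC2-VAN-RESZERO**: restriction `H²(G_K, 𝔽_p) → H²(G_{K₁}, 𝔽_p)` is zero for `K₁/K`
cyclic of degree `p`, `μ_p ⊆ K`. -/
theorem h76z_resZero : ResZero :=
  h76z_resZero_of h90l_b0 h90l_b0Gen h76z_resZeroGen

end Fermat.Agent.PT.Loc
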