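import Mathlib
import Fermat.Agent.PT.Loc.Iface2
import Fermat.Agent.PT.Loc.H76MC
import Fermat.Agent.PT.Loc.B0Desc12
import Fermat.Agent.PT.Loc.H90Final
import Fermat.Agent.PT.Loc.MC.H79CarryPow
import Fermat.Agent.PT.Loc.MC.H65Carry
import Fermat.Agent.PT.Loc.H96RDBase
import Fermat.Agent.PT.Loc.H96URResIdx
import Fermat.Agent.PT.Loc.H66CorCohom
import Fermat.Agent.PT.Loc.H97CorRes
import Fermat.Agent.PT.Loc.H28RD

/-!
# W3-PT / PT-LOC, leaf LOC2-INV-COR (helper83)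

`h83i_invCor : InvCor` — corestriction preserves invariants: for `E/ℚ_q` finite, `φ` a Frobenius
of `E`, `π` a uniformizer of `E`,
`cor_{E/ℚ_q} (carry (Kur E p) φ p π) ∼ Yq p q = carry (Kur ⊥ p) (frobQ q) p q` on `G_{ℚ_q}`.

Proof (`e`, `f` from `LFEF`, `N = p e f`, `y = carry (Kur ⊥ N) frobQ N q`):
1. `y = carry (Kur E (p e)) φ (p e) q` on `G_E × G_E` (`URResIdx`);
2. `q = u π^e`, `u` a unit of `E`: `carry(u) ∼ 1` (`URNorm`, `MCCarryNorm`),
   `carry (Kur E (p e)) φ (p e) (π^e) ∼ carry (Kur E p) φ p π` (`MCCarryPow`);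
   hence `carry (Kur E p) φ p π ∼ y` on `G_E`;
3. `CorCohom`, `CorRes`: `cor (carry (Kur E p) φ p π) ∼ cor y ∼ y^{e f} = carry (…) (q^{e f})
   ∼ Yq` (`MCCarryPow`).

* `h83i_invCor_of` : the conditional form (all leaves as hypotheses);
* `h83i_invCor`    : unconditional.
-/

set_option autoImplicit false

open scoped Classical

noncomputable section

namespace Fermat.Agent.PT.Loc

/-- `frobQ q` is a Frobenius element of `ℚ_q`. -/
theorem h83i_frobQ (hUF : URFrob) (q : ℕ) [Fact q.Prime] : IsFrob (⊥ : LF q) (frobQ q) := by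
  have h : ∃ φ : Gq q, IsFrob (⊥ : LF q) φ := hUF q ⊥
  unfold frobQ
  rw [dif_pos h]
  exact h.choose_spec

/-- Step (1): on `G_E × G_E` the carry cocycle of `ℚ_q` of degree `f m` is the carry cocycle of
`E` of degree `m`. -/
theorem h83i_carry_res (hRI : URResIdx) {q : ℕ} [Fact q.Prime] (K E : LF q)
    [FiniteDimensional ℚ_[q] K] [FiniteDimensional ℚ_[q] E] (f m : ℕ) (φ φ' : Gq q)
    (hKE : K ≤ E) (hf : 0 < f) (hm : 0 < m) (hres : resCard E = resCard K ^ f)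
    (hφ : IsFrob K φ) (hφ' : IsFrob E φ') (b : (Om q)ˣ) :
    ∀ g ∈ GK E, ∀ h ∈ GK E,
      carry (Kur K (f * m)) φ (f * m) b (g, h) = carry (Kur E m) φ' m b (g, h) := by
  intro g hg h hh
  have e1 := hRI q K E f m φ φ' hKE hf hm hres hφ hφ' g hg
  have e2 := hRI q K E f m φ φ' hKE hf hm hres hφ hφ' h hh
  simp only [carry]
  rw [e1, e2, ← Nat.mul_add]
  by_cases hc : m ≤ cycIdx (Kur E m) φ' m g + cycIdx (Kur E m) φ' m h
  · rw [if_pos (Nat.mul_le_mul_left f hc), if_pos hc]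
  · rw [if_neg (fun h' => hc (Nat.le_of_mul_le_mul_left h' hf)), if_neg hc]

/-- Step (2): if `‖b‖ = ‖π‖ ^ e` (`b ∈ E`, `π` a uniformizer of `E`, `e > 0`) then
`carry (Kur E (n e)) φ (n e) b ∼ carry (Kur E n) φ n π` on `G_E`. -/
theorem h83i_carry_unif (hUN : URNorm) (hCN : MCCarryNorm) (hCP : MCCarryPow) (hUC : URCyc)
    {q : ℕ} [Fact q.Prime] (E : LF q) [FiniteDimensional ℚ_[q] E] (n e : ℕ) (hn : 0 < n)
    (he : 0 < e) (φ : Gq q) (hφ : IsFrob E φ) (π b : (Om q)ˣ) (hπ : IsUnif E (π : Om q))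
    (hb : (b : Om q) ∈ E) (hnorm : ‖(b : Om q)‖ = ‖(π : Om q)‖ ^ e) :
    MCohom E (carry (Kur E (n * e)) φ (n * e) b) (carry (Kur E n) φ n π) := by
  have hne : 0 < n * e := Nat.mul_pos hn he
  have hcyc : IsCyc E (Kur E (n * e)) (n * e) φ := hUC q E (n * e) φ hne hφ
  have hcyc1 : IsCyc E (Kur E n) n φ := hUC q E n φ hn hφ
  -- the unit `u = b / π^e`
  set u : (Om q)ˣ := b * (π ^ e)⁻¹ with hu
  have hbu : b = u * π ^ e := by rw [hu, inv_mul_cancel_right]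
  have huval : ((u : (Om q)ˣ) : Om q) = (b : Om q) / (π : Om q) ^ e := by
    rw [hu, Units.val_mul, Units.val_inv_eq_inv_val, Units.val_pow_eq_pow_val, div_eq_mul_inv]
  have humem : ((u : (Om q)ˣ) : Om q) ∈ E := by
    rw [huval]
    exact E.div_mem hb (pow_mem hπ.1 e)
  have hunorm : ‖((u : (Om q)ˣ) : Om q)‖ = 1 := by
    rw [huval, norm_div, norm_pow, hnorm]
    exact div_self (pow_ne_zero _ (norm_ne_zero_iff.2 hπ.2.1))
  -- `carry(u) ∼ 1`
  obtain ⟨β, hβmem, hβnorm, hβ⟩ := hUN q E (n * e) φ hne hφ (u : Om q) humem hunorm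
  have hβ0 : β ≠ 0 := by
    intro h0
    rw [h0, norm_zero] at hβnorm
    exact zero_ne_one hβnorm
  have hu1 : MCohom E (carry (Kur E (n * e)) φ (n * e) u) 1 :=
    (hCN q E (Kur E (n * e)) (n * e) φ u hcyc humem).2 ⟨β, hβmem, hβ0, hβ⟩
  -- `carry(π^e) ∼ carry(π)`
  have hπe : MCohom E (carry (Kur E (n * e)) φ (n * e) (π ^ e)) (carry (Kur E n) φ n π) :=
    hCP q E (Kur E n) (Kur E (n * e)) n e φ π hcyc1 hcyc (h12d_Kur_le E n e) hπ.1
  -- assembly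
  have h1 : MCohom E (carry (Kur E (n * e)) φ (n * e) b)
      (fun v => carry (Kur E (n * e)) φ (n * e) u v * carry (Kur E (n * e)) φ (n * e) (π ^ e) v) :=
    h76m_of_eq E (fun g _ h _ => by rw [hbu, h76m_carry_mul])
  have h2 := h76m_mul hu1 hπe
  refine h76m_trans h1 (h76m_trans h2 (h76m_of_eq E (fun g _ h _ => ?_)))
  simp

/-- **LOC2-INV-COR**, conditional form. -/
theorem h83i_invCor_of (hEF : LFEF) (hB : LFBase) (hRI : URResIdx) (hUN : URNorm)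
    (hCN : MCCarryNorm) (hCP : MCCarryPow) (hC : MCCarry) (hUC : URCyc) (hUF : URFrob)
    (hCC : CorCohom) (hCR : CorRes) : InvCor := by
  intro q _ p _ E _ s φ π hs hφ hπ
  have hp : 0 < p := (Fact.out : p.Prime).pos
  obtain ⟨e, f, he, hf, hnorm, hres, hef⟩ := hEF q E (π : Om q) hπ
  obtain ⟨-, hresbot, hqU⟩ := hB q
  have hφ0 : IsFrob (⊥ : LF q) (frobQ q) := h83i_frobQ hUF q
  have hpe : 0 < p * e := Nat.mul_pos hp he
  have hNpos : 0 < f * (p * e) := Nat.mul_pos hf hpe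
  have hN : f * (p * e) = p * (e * f) := by ring
  have hcyc0 : IsCyc (⊥ : LF q) (Kur (⊥ : LF q) (f * (p * e))) (f * (p * e)) (frobQ q) :=
    hUC q ⊥ (f * (p * e)) (frobQ q) hNpos hφ0
  have hqmem : ((qU q : (Om q)ˣ) : Om q) ∈ (⊥ : LF q) := by
    rw [hqU]
    exact natCast_mem _ q
  obtain ⟨hycoc, hycont⟩ :=
    hC q ⊥ (Kur (⊥ : LF q) (f * (p * e))) (f * (p * e)) (frobQ q) (qU q) hcyc0 hqmem
  -- (1)
  have hresE : resCard E = resCard (⊥ : LF q) ^ f := by rw [hres, hresbot]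
  have h1 : MCohom E (carry (Kur (⊥ : LF q) (f * (p * e))) (frobQ q) (f * (p * e)) (qU q))
      (carry (Kur E (p * e)) φ (p * e) (qU q)) :=
    h76m_of_eq E (h83i_carry_res hRI ⊥ E f (p * e) (frobQ q) φ bot_le hf hpe hresE hφ0 hφ (qU q))
  -- (2)
  have hqE : ((qU q : (Om q)ˣ) : Om q) ∈ E := (bot_le : (⊥ : LF q) ≤ E) hqmem
  have hqnorm : ‖((qU q : (Om q)ˣ) : Om q)‖ = ‖(π : Om q)‖ ^ e := by rw [hqU, hnorm]
  have h2 : MCohom E (carry (Kur E (p * e)) φ (p * e) (qU q)) (carry (Kur E p) φ p π) :=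
    h83i_carry_unif hUN hCN hCP hUC E p e hp he φ hφ π (qU q) hπ hqE hqnorm
  have hYE : MCohom E (carry (Kur E p) φ p π)
      (carry (Kur (⊥ : LF q) (f * (p * e))) (frobQ q) (f * (p * e)) (qU q)) :=
    h76m_symm (h76m_trans h1 h2)
  -- (3)
  have h3 := hCC q E s hs _ _ hYE
  have h4 := hCR q E s hs _ hycoc hycont
  have h5 : MCohom (⊥ : LF q)
      (fun v => carry (Kur (⊥ : LF q) (f * (p * e))) (frobQ q) (f * (p * e)) (qU q) v ^
        Module.finrank ℚ_[q] E)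
      (carry (Kur (⊥ : LF q) (p * (e * f))) (frobQ q) (p * (e * f)) (qU q ^ (e * f))) :=
    h76m_of_eq ⊥ (fun g _ h _ => by rw [← hef, ← h76m_carry_pow, hN])
  have hcyc0' : IsCyc (⊥ : LF q) (Kur (⊥ : LF q) (p * (e * f))) (p * (e * f)) (frobQ q) := by
    rw [← hN]
    exact hcyc0
  have h6 : MCohom (⊥ : LF q)
      (carry (Kur (⊥ : LF q) (p * (e * f))) (frobQ q) (p * (e * f)) (qU q ^ (e * f)))
      (carry (Kur (⊥ : LF q) p) (frobQ q) p (qU q)) :=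
    hCP q ⊥ (Kur (⊥ : LF q) p) (Kur (⊥ : LF q) (p * (e * f))) p (e * f) (frobQ q) (qU q)
      (hUC q ⊥ p (frobQ q) hp hφ0) hcyc0' (h12d_Kur_le ⊥ p (e * f)) hqmem
  exact h76m_trans h3 (h76m_trans h4 (h76m_trans h5 h6))

/-- **LOC2-INV-COR**: corestriction preserves invariants (unconditional). -/
theorem h83i_invCor : InvCor :=
  h83i_invCor_of h28r_lfEF h96b_lfBase h96r_urResIdx h90l_urNorm h90l_mcCarryNorm
    h79c_mcCarryPow h65_mcCarry h90l_urCyc h90l_urFrob h66c_corCohom h97c_corRes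

end Fermat.Agent.PT.Loc
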