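import Fermat.Agent.PT.Loc.InvLG99
import Fermat.Agent.PT.Loc.H6ChiZeta
import Fermat.Agent.PT.Loc.H29CorTw
import Fermat.Agent.PT.Loc.H66CorCohom
import Fermat.Agent.PT.Loc.MC.H65Kum
import Fermat.Agent.PT.Loc.H90CarryNorm
import Fermat.Agent.PT.Loc.H81H90
import Fermat.Agent.PT.Loc.H8URNormGrp
import Fermat.Agent.PT.Loc.H82URNorm
import Fermat.Agent.PT.Loc.H66URVal
import Fermat.Agent.PT.Loc.H66URConj
import Fermat.Agent.PT.Loc.H34LFPow
import Fermat.Agent.PT.Loc.H34LFTeich

/-!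
# W3-PT / PT-LOC, leaf LOC2-INV-LG (helper99): `InvCor → InvLG`

`h99lg_invLG_of_invCor : InvCor → InvLG` : the local symbol formula with every landed leaf
discharged (`ChiZeta` helper6, `CorTw` helper29, `CorCohom` helper66, `MCKum` helper65,
`MCCarryNorm` helper90/helper81, `URNormGrp` helper8/helper82/helper66/helper34, `URCyc`
helper66); only `InvCor` (LOC2-INV-COR) remains as a hypothesis.
-/

set_option autoImplicit false

namespace Fermat.Agent.PT.Loc

theorem h99lg_invLG_of_invCor (hIC : InvCor) : InvLG :=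
  h99lg_invLG h6z_chiZeta h29i_corTw h66c_corCohom hIC h65_mcKum (h90c_carryNorm h81h_mcH90)
    (h8ng_urNormGrp (h82n_urNorm h34lf_lfTeich (h66v_urCyc h34lf_lfTeich))
      (h66v_urVal h34lf_lfTeich) h34lf_lfUnif)
    (h66v_urCyc h34lf_lfTeich)

end Fermat.Agent.PT.Loc
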