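import Mathlib
import Fermat.Agent.PT.Loc.H48Final
import Fermat.Agent.PT.Loc.Iface3
import Fermat.Agent.PT.Loc.H83InvCor
import Fermat.Agent.PT.Loc.InvLG99Final
import Fermat.Agent.PT.Loc.H70InvOK
import Fermat.Agent.PT.Loc.H76ResZero
import Fermat.Agent.PT.Loc.H24L3Nondeg
import Fermat.Agent.PT.Loc.H49LocUnr
import Fermat.Agent.PT.Loc.H49URH2
import Fermat.Agent.PT.Shap.Local

/-!
# W3-PT / PT-LOC (helper48): integration, part 2

Everything of PT-LOC is unconditional except the abstract cyclic step `VanCycAbs`: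

* `h48f_locPerfRel : LocPerfRel`, `h48f_invOKq : InvOKq`, `h48f_locInvOK` (the local invariant);
* `h48f_h3Van_of_vanCyc : VanCycAbs → H3Van`;
* `h48f_locBase_of_vanCyc : VanCycAbs → LocBase`;
* `h48f_locBaseFor_of_vanCyc : VanCycAbs → LocBaseFor p (invFam p)` (`p ≠ 2`), the local clause
  of `ArithInputs` (`PT/Arith/Iface.lean`).
-/

set_option autoImplicit false

namespace Fermat.Agent.PT.Loc

open Fermat.Agent.PT Fermat.Agent.PT.Shap

theorem h48f_invCor : InvCor := h83i_invCor
theorem h48f_invLG : InvLG := h99lg_invLG_of_invCor h48f_invCor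
theorem h48f_invGen : InvGen := h24ig_invGen_of h48f_invLG
theorem h48f_locPerfRel : LocPerfRel := h48f_locPerfRel_of h48f_invLG
theorem h48f_invOKq : InvOKq := h70k_invOKq h48f_invEx h48f_chiZeta
theorem h48f_resZero : ResZero := h76z_resZero
theorem h48f_locUnr : LocUnr := h49u_locUnr
theorem h48f_urH2 : URH2 := h49h_urH2
theorem h48f_locNondegRel : LocNondegRel :=
  h24nd_locNondegRel_of h48f_chiZeta h48f_b1 h48f_locPerfRel

/-- `H³(G_K, 𝔽_p) = 0` from the abstract cyclic step. -/
theorem h48f_h3Van_of_vanCyc (hAbs : VanCycAbs) : H3Van := h48f_h3Van_of hAbs h48f_resZero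

/-- `LocTriv` from the abstract cyclic step. -/
theorem h48f_locTriv_of_vanCyc (hAbs : VanCycAbs) : LocTriv :=
  h48f_locTriv_of hAbs h48f_resZero h48f_invLG

/-- **The local deliverable** from the abstract cyclic step. -/
theorem h48f_locBase_of_vanCyc (hAbs : VanCycAbs) : LocBase :=
  h48f_locBase_of hAbs h48f_resZero h48f_invLG h48f_invOKq h69l_shapLocal

/-- The local invariants kill the coboundaries (first local clause of `ArithInputs`). -/
theorem h48f_locInvOK (p : ℕ) [Fact p.Prime] : Fermat.Agent.PT.LocInvOK p (invFam p) :=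
  h48_locInvOK h48f_invOKq p

/-- The local base case (second local clause of `ArithInputs`) from the abstract cyclic step. -/
theorem h48f_locBaseFor_of_vanCyc (hAbs : VanCycAbs) (p : ℕ) [Fact p.Prime] (hp2 : p ≠ 2) :
    Fermat.Agent.PT.LocBaseFor p (invFam p) :=
  h48_locBaseFor (h48f_locBase_of_vanCyc hAbs) p hp2

end Fermat.Agent.PT.Loc
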