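import Mathlib
import Fermat.Agent.PT.Loc.H48Final2
import Fermat.Agent.PT.Alg.Chi2

/-!
# W3-PT / PT-LOC (helper48): local `H³ = 0` from the Euler characteristic (`chi2Van`)

For `E` finite over `ℚ_q` with `μ_p ⊆ E`: `h¹(G_E, 𝔽_p) = 2 + [E : ℚ_q]·[q = p]` (`H1DimRel`) and
`h²(G_E, 𝔽_p) = 1` (`B0`, `B0Gen`), so `χ₂(G_E) = 1 - h¹ + h² = -[E : ℚ_q]·[q = p]` is
multiplicative in the steps of degree `p`; `chi2Van` (PT/Alg/Chi2.lean) gives `H³(G_E, 𝔽_p) = 0`.

* `h48c_h3Vanishes_of_dim : H1DimRel → H3Vanishes (levK E) (trivial)`;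
* `h48c_locTriv_of_dim : H1DimRel → LocTriv`, `h48c_locBase_of_dim : H1DimRel → LocBase`.
-/

set_option autoImplicit false
set_option linter.style.haveILetI false

open scoped Classical

namespace Fermat.Agent.PT.Loc

open Fermat.Agent.PT Fermat.Agent.PT.Shap Fermat.Agent.PT.Bridge

variable {q : ℕ} [Fact q.Prime] {p : ℕ} [Fact p.Prime]

/-- the coboundaries of degree `1` of the trivial module vanish. -/
lemma h48c_B1_triv (E : LF q) :
    Fermat.Agent.PT.B1 (Representation.trivial (ZMod p) ↥(GK E) (ZMod p)) = ⊥ := by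
  rw [eq_bot_iff]
  rintro f ⟨v, rfl⟩
  rw [Submodule.mem_bot]
  funext g
  simp [d0_apply]

/-- `h¹(G_E, 𝔽_p)`. -/
theorem h48c_h1 (hDim : H1DimRel) (E : LF q) [FiniteDimensional ℚ_[q] E] (ζ : Om q)
    (hζE : ζ ∈ E) (hζ : IsPrimitiveRoot ζ p) :
    Module.Finite (ZMod p) (HH1 (levK E) (Representation.trivial (ZMod p) ↥(GK E) (ZMod p))) ∧
    Module.finrank (ZMod p)
        (HH1 (levK E) (Representation.trivial (ZMod p) ↥(GK E) (ZMod p))) =
      2 + if q = p then Module.finrank ℚ_[q] E else 0 := by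
  obtain ⟨T, hcard, hT⟩ := hDim q p E ζ hζE hζ
  obtain ⟨hZ1, -, -, -, -⟩ := h48f_adCoh q p E
  -- the cocycles are the elements of `T`
  have hmem : ∀ χ : ↥(GK E) → ZMod p,
      χ ∈ Z1 (levK E) (Representation.trivial (ZMod p) ↥(GK E) (ZMod p)) ↔ χ ∈ T := by
    intro χ
    rw [hT χ]
    have h1 := hZ1 (ext1 E χ)
    rw [rst1_ext1] at h1
    rw [h1]
    constructor
    · rintro ⟨ha, F, hF, hEF, hc⟩
      refine ⟨fun g h => ?_, F, hF, hEF, fun g s hs => ?_⟩
      · have := ha g g.2 h h.2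
        simp only [ext1, Subgroup.mul_mem _ g.2 h.2, g.2, h.2, dite_true] at this
        exact this
      · have hsE : (s : Gq q) ∈ GK E := s.2
        have := hc g g.2 s hs
        simp only [ext1, Subgroup.mul_mem _ g.2 hsE, g.2, dite_true] at this
        exact this
    · rintro ⟨ha, F, hF, hEF, hc⟩
      refine ⟨fun g hg h hh => ?_, F, hF, hEF, fun g hg s hs => ?_⟩
      · have := ha ⟨g, hg⟩ ⟨h, hh⟩
        simp only [ext1, hg, hh, Subgroup.mul_mem _ hg hh, dite_true]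
        exact this
      · have hsE : s ∈ GK E := IntermediateField.fixingSubgroup_antitone hEF hs
        have := hc ⟨g, hg⟩ ⟨s, hsE⟩ hs
        simp only [ext1, hg, Subgroup.mul_mem _ hg hsE, dite_true]
        exact this
  -- hence `Z¹` is finite of cardinality `p ^ m`
  have hset : ((Z1 (levK E) (Representation.trivial (ZMod p) ↥(GK E) (ZMod p)) :
      Submodule (ZMod p) (↥(GK E) → ZMod p)) : Set (↥(GK E) → ZMod p)) = (T : Set _) := by
    ext χ
    exact hmem χ
  have hfinZ : Finite ↥(Z1 (levK E) (Representation.trivial (ZMod p) ↥(GK E) (ZMod p))) := by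
    have : ((Z1 (levK E) (Representation.trivial (ZMod p) ↥(GK E) (ZMod p)) :
      Submodule (ZMod p) (↥(GK E) → ZMod p)) : Set (↥(GK E) → ZMod p)).Finite := by
      rw [hset]; exact T.finite_toSet
    exact this
  have hcardZ : Nat.card ↥(Z1 (levK E) (Representation.trivial (ZMod p) ↥(GK E) (ZMod p))) =
      p ^ (2 + if q = p then Module.finrank ℚ_[q] E else 0) := by
    rw [← hcard]
    have h1 : Nat.card ↥(Z1 (levK E) (Representation.trivial (ZMod p) ↥(GK E) (ZMod p))) =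
        Nat.card ↥((T : Set (↥(GK E) → ZMod p))) := by
      apply Nat.card_congr
      exact Equiv.setCongr hset
    rw [h1, Nat.card_coe_set_eq, Set.ncard_coe_finset]
  -- `H¹ ≃ Z¹`
  have hbot : (Fermat.Agent.PT.B1 (Representation.trivial (ZMod p) ↥(GK E) (ZMod p))).comap
      (Z1 (levK E) (Representation.trivial (ZMod p) ↥(GK E) (ZMod p))).subtype = ⊥ := by
    rw [h48c_B1_triv, Submodule.comap_bot, LinearMap.ker_eq_bot]
    exact Subtype.val_injective
  have e := Submodule.quotEquivOfEqBot _ hbot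
  haveI : Module.Finite (ZMod p)
      ↥(Z1 (levK E) (Representation.trivial (ZMod p) ↥(GK E) (ZMod p))) := Module.Finite.of_finite
  have hfin : Module.Finite (ZMod p)
      (HH1 (levK E) (Representation.trivial (ZMod p) ↥(GK E) (ZMod p))) :=
    Module.Finite.equiv e.symm
  refine ⟨hfin, ?_⟩
  rw [e.finrank_eq]
  have h2 := Module.natCard_eq_pow_finrank (K := ZMod p)
    (V := ↥(Z1 (levK E) (Representation.trivial (ZMod p) ↥(GK E) (ZMod p))))
  rw [hcardZ, Nat.card_zmod] at h2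
  exact (Nat.pow_right_injective (Fact.out : p.Prime).two_le h2).symm


/-- `h²(G_E, 𝔽_p) = 1`. -/
theorem h48c_h2 (E : LF q) [FiniteDimensional ℚ_[q] E] (ζ : Om q)
    (hζE : ζ ∈ E) (hζ : IsPrimitiveRoot ζ p) :
    Module.Finite (ZMod p) (HH2 (levK E) (Representation.trivial (ZMod p) ↥(GK E) (ZMod p))) ∧
    Module.finrank (ZMod p)
        (HH2 (levK E) (Representation.trivial (ZMod p) ↥(GK E) (ZMod p))) = 1 := by
  obtain ⟨-, hZ2, hB2, -, -⟩ := h48f_adCoh q p E
  obtain ⟨⟨c₀, hgen⟩, hall⟩ := h48f_b0Gen q p E ζ hζE hζ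
  obtain ⟨hc1, hc2, hc3⟩ := hall c₀ hgen
  have hz0 : rst2 E c₀ ∈ Z2 (levK E) (Representation.trivial (ZMod p) ↥(GK E) (ZMod p)) :=
    (hZ2 c₀).2 ⟨hc1, hc2⟩
  have hb0 : rst2 E c₀ ∉ B2 (levK E) (Representation.trivial (ZMod p) ↥(GK E) (ZMod p)) :=
    fun h => hc3 ((hB2 c₀).1 h)
  set v : HH2 (levK E) (Representation.trivial (ZMod p) ↥(GK E) (ZMod p)) :=
    Submodule.Quotient.mk ⟨rst2 E c₀, hz0⟩ with hv
  have hv0 : v ≠ 0 := by
    intro h
    rw [hv, Submodule.Quotient.mk_eq_zero] at h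
    exact hb0 h
  have hspan : ∀ w : HH2 (levK E) (Representation.trivial (ZMod p) ↥(GK E) (ZMod p)),
      ∃ t : ZMod p, t • v = w := by
    intro w
    obtain ⟨⟨z, hz⟩, rfl⟩ := Submodule.Quotient.mk_surjective _ w
    have hz' := hz
    rw [← rst2_ext2 E z] at hz'
    obtain ⟨h1, h2⟩ := (hZ2 _).1 hz'
    obtain ⟨t, f, hf, hcob⟩ := h48f_b0 q p E ζ hζE hζ c₀ hgen (ext2 E z) h1 h2
    refine ⟨t, ?_⟩
    rw [hv, ← Submodule.Quotient.mk_smul, eq_comm, ← sub_eq_zero, ← Submodule.Quotient.mk_sub,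
      Submodule.Quotient.mk_eq_zero]
    have h3 : ACohom E (ext2 E z - t • c₀) 0 := by
      refine ⟨f, hf, fun g hg h hh => ?_⟩
      have := hcob g hg h hh
      simp only [Pi.sub_apply, Pi.smul_apply, Pi.zero_apply, zero_add] at this ⊢
      rw [this]
      ring
    have h4 := (hB2 _).2 h3
    have h5 : rst2 E (ext2 E z - t • c₀) = z - t • rst2 E c₀ := by
      funext y
      have h6 := congrFun (rst2_ext2 E z) y
      simp only [rst2, Pi.sub_apply, Pi.smul_apply] at h6 ⊢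
      rw [h6]
    rw [h5] at h4
    exact h4
  have hfr : Module.finrank (ZMod p)
      (HH2 (levK E) (Representation.trivial (ZMod p) ↥(GK E) (ZMod p))) = 1 :=
    finrank_eq_one v hv0 hspan
  exact ⟨Module.finite_of_finrank_pos (by rw [hfr]; exact Nat.one_pos), hfr⟩

/-- the degree in an index-`p` step. -/
lemma h48c_finrank_step (E E₁ : LF q) (hle : GK E₁ ≤ GK E) (n : ℕ)
    (hidx : (GK E₁).relIndex (GK E) = n) :
    Module.finrank ℚ_[q] E₁ = n * Module.finrank ℚ_[q] E := by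
  rw [← h23b_index_fixingSubgroup_loc q E₁, ← h23b_index_fixingSubgroup_loc q E, ← hidx]
  exact (Subgroup.relIndex_mul_index hle).symm

/-- **`H³(G_E, 𝔽_p) = 0`** from the dimension of `H¹` (Euler characteristic argument). -/
theorem h48c_h3Vanishes_of_dim (hDim : H1DimRel) (E : LF q) [FiniteDimensional ℚ_[q] E]
    (hζ : zetaL p q ∈ E) :
    H3Vanishes (levK E) (Representation.trivial (ZMod p) ↥(GK E) (ZMod p)) := by
  have hgood : (levLoc q).Good := (h48_adGood q).1
  have hprim := h69t_zetaL_primitive p q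
  refine chi2Van p (ZMod p) (Gq q) (levLoc q) hgood
    {U | (levLoc q).IsOpen U ∧ ∀ u ∈ U, chiQ p q u = 1} (fun U hU => hU.1)
    (fun U hU V hVU hV => ⟨hV, fun u hu => hU.2 u (hVU hu)⟩) ?_ ?_ (GK E)
    ⟨(h23b_isOpen_levLoc_iff (q := q) (GK E)).2 ⟨E, inferInstance, rfl⟩,
      (h69t_zetaL_mem_iff p q E).2 hζ⟩
  · rintro U ⟨hU, hχ⟩
    obtain ⟨F, hF, rfl⟩ := h69t_exists_field q U hU
    have hζF : zetaL p q ∈ F := (h69t_zetaL_mem_iff p q F).1 hχ
    exact ⟨(h48c_h1 hDim F _ hζF hprim).1, (h48c_h2 F _ hζF hprim).1⟩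
  · rintro U ⟨hU, hχ⟩ V hVU hV _ hidx
    obtain ⟨F, hF, rfl⟩ := h69t_exists_field q U hU
    obtain ⟨F₁, hF₁, rfl⟩ := h69t_exists_field q V hV
    have hζF : zetaL p q ∈ F := (h69t_zetaL_mem_iff p q F).1 hχ
    have hζF₁ : zetaL p q ∈ F₁ :=
      (h69t_zetaL_mem_iff p q F₁).1 (fun u hu => hχ u (hVU hu))
    have hstep := h48c_finrank_step F F₁ hVU p hidx
    have e1 := (h48c_h1 hDim F _ hζF hprim).2
    have e2 := (h48c_h2 F _ hζF hprim).2
    have e3 := (h48c_h1 hDim F₁ _ hζF₁ hprim).2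
    have e4 := (h48c_h2 F₁ _ hζF₁ hprim).2
    unfold chi2U chi2Lev chi2Triv
    change (1 : ℤ) - (Module.finrank (ZMod p)
        (HH1 (levK F₁) (Representation.trivial (ZMod p) ↥(GK F₁) (ZMod p))) : ℤ)
      + (Module.finrank (ZMod p)
        (HH2 (levK F₁) (Representation.trivial (ZMod p) ↥(GK F₁) (ZMod p))) : ℤ)
      = (p : ℤ) * (1 - (Module.finrank (ZMod p)
        (HH1 (levK F) (Representation.trivial (ZMod p) ↥(GK F) (ZMod p))) : ℤ)
      + (Module.finrank (ZMod p)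
        (HH2 (levK F) (Representation.trivial (ZMod p) ↥(GK F) (ZMod p))) : ℤ))
    rw [e1, e2, e3, e4]
    by_cases hqp : q = p
    · simp only [hqp, if_true]
      have hstep' : Module.finrank ℚ_[q] F₁ = p * Module.finrank ℚ_[q] F := hstep
      subst hqp
      rw [hstep']
      push_cast
      ring
    · simp only [hqp, if_false]
      push_cast
      ring

/-- `LocTriv` from the dimension of `H¹`. -/
theorem h48c_locTriv_of_dim (hDim : H1DimRel) : LocTriv := by
  intro q _ p _ V _ _ hV hχ s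
  obtain ⟨E, hE, rfl⟩ := h69t_exists_field q V hV
  have hζ : zetaL p q ∈ E := (h69t_zetaL_mem_iff p q E).1 hχ
  exact ⟨h48c_h3Vanishes_of_dim hDim E hζ, h69t_lPerf2 h48f_adCoh h48f_locPerfRel E hζ s⟩

/-- **The local deliverable** from the dimension of `H¹`. -/
theorem h48c_locBase_of_dim (hDim : H1DimRel) : LocBase :=
  h48_locBase_of h69l_shapLocal h48f_invOKq (h48c_locTriv_of_dim hDim)

end Fermat.Agent.PT.Loc
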