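import Mathlib
import Fermat.Agent.PT.Loc.H48Chi2
import Fermat.Agent.PT.Loc.H39H1Dim

/-!
# W3-PT / PT-LOC (helper48): THE LOCAL DELIVERABLE, unconditional

* `h48_locBase : LocBase` : for every prime `q`, odd prime `p` and open `V ≤ Gal(ℚ̄_q/ℚ_q)` on
  which the cyclotomic character is trivial: `H³(G_{ℚ_q}, Ind 𝔽_p) = 0` and the local duality
  `H² × H⁰` is perfect for the invariant `invQ p q`;
* `h48_locInvOK`, `h48_locBaseFor` : the two local clauses of `ArithInputs`
  (`PT/Arith/Iface.lean`) for the family `invFam p`.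

Route: Euler characteristic (`chi2Van`) with `h¹ = 2 + [E:ℚ_q]·[q = p]` (`h39d_h1DimRel`) and
`h² = 1`.  (An independent route through `VanCycAbs` is in `Loc/H48LocBaseA.lean`.)
-/

set_option autoImplicit false

namespace Fermat.Agent.PT.Loc

/-- `H¹(G_E, 𝔽_p)` has order `p ^ (2 + [E:ℚ_q]·[q = p])`. -/
theorem h48_h1DimRel : H1DimRel := h39d_h1DimRel

/-- **LOC-TRIV.** -/
theorem h48_locTriv : LocTriv := h48c_locTriv_of_dim h48_h1DimRel

/-- **LOC-BASE**: the deliverable of PT-LOC. -/
theorem h48_locBase : LocBase := h48c_locBase_of_dim h48_h1DimRel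

/-- The local invariants kill the coboundaries. -/
theorem h48_locInvOK_final (p : ℕ) [Fact p.Prime] : Fermat.Agent.PT.LocInvOK p (invFam p) :=
  h48f_locInvOK p

/-- The local base case of `ArithInputs`. -/
theorem h48_locBaseFor_final (p : ℕ) [Fact p.Prime] (hp2 : p ≠ 2) :
    Fermat.Agent.PT.LocBaseFor p (invFam p) :=
  h48_locBaseFor h48_locBase p hp2

end Fermat.Agent.PT.Loc
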