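import Mathlib
import Fermat.Agent.PT.Loc.Top
import Fermat.Agent.PT.Loc.H76MC
import Fermat.Agent.PT.Bridge.Open
import Fermat.Agent.PT.Bridge.LocGrpD

/-!
# W3-PT / PT-LOC leaf LOC2-INV-TOTAL (helper95): tools

* `h95l_pow_val_*`     : exponents in `ZMod p` for an element of order dividing `p`;
* `h95l_zpw_*`         : the map `c ↦ ζ ^ c` from additive to multiplicative cochains;
* `h95l_mcor_*`        : the multiplicative corestriction is multiplicative;
* `h95l_exists_isSec`  : normalised sections exist;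
* `h95l_finrank_cyclo_dvd` : `[ℚ_q(ζ_p) : ℚ_q]` divides `p - 1`.
-/

set_option autoImplicit false
set_option linter.style.haveILetI false
set_option linter.unusedSectionVars false

open scoped Classical

noncomputable section

namespace Fermat.Agent.PT.Loc

variable {q : ℕ} [Fact q.Prime] {p : ℕ} [Fact p.Prime]

/-! ## Exponents modulo `p` -/

section Pow

variable {M : Type*} [Monoid M]

lemma h95l_pow_eq_of_modEq {ζ : M} (hζ : ζ ^ p = 1) {m n : ℕ} (h : m ≡ n [MOD p]) :
    ζ ^ m = ζ ^ n := by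
  have key : ∀ k : ℕ, ζ ^ k = ζ ^ (k % p) := by
    intro k
    conv_lhs => rw [← Nat.div_add_mod k p, pow_add, pow_mul, hζ, one_pow, one_mul]
  rw [key m, key n]
  exact congrArg _ h

lemma h95l_pow_eq_of_cast_eq {ζ : M} (hζ : ζ ^ p = 1) {m n : ℕ}
    (h : (m : ZMod p) = (n : ZMod p)) : ζ ^ m = ζ ^ n :=
  h95l_pow_eq_of_modEq hζ ((ZMod.natCast_eq_natCast_iff m n p).1 h)

lemma h95l_pow_val_add {ζ : M} (hζ : ζ ^ p = 1) (a b : ZMod p) :
    ζ ^ (a + b).val = ζ ^ a.val * ζ ^ b.val := by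
  rw [← pow_add]
  apply h95l_pow_eq_of_cast_eq hζ
  simp

lemma h95l_pow_val_mul {ζ : M} (hζ : ζ ^ p = 1) (a b : ZMod p) :
    ζ ^ (a * b).val = (ζ ^ b.val) ^ a.val := by
  rw [← pow_mul]
  apply h95l_pow_eq_of_cast_eq hζ
  simp [mul_comm]

lemma h95l_pow_val_natCast {ζ : M} (hζ : ζ ^ p = 1) (n : ℕ) :
    ζ ^ ((n : ZMod p)).val = ζ ^ n := by
  apply h95l_pow_eq_of_cast_eq hζ
  simp

end Pow

/-! ## Sections -/

lemma h95l_exists_isSec (E : LF q) : ∃ s : Gq q ⧸ GK E → Gq q, IsSec E s := by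
  refine ⟨fun x => if x = QuotientGroup.mk 1 then 1 else Quotient.out x, ?_, ?_⟩
  · intro x
    by_cases hx : x = QuotientGroup.mk 1
    · simp only [hx, if_true]
    · simp only [hx, if_false]
      exact QuotientGroup.out_eq' x
  · simp

/-! ## The multiplicative corestriction is multiplicative -/

section Cor

variable (E : LF q) (s : Gq q ⧸ GK E → Gq q)

lemma h95l_mcor_one (y : Gq q × Gq q) :
    mcor E s (fun _ => (1 : (Om q)ˣ)) y = 1 := by
  simp [mcor]

lemma h95l_mcor_mul [Finite (Gq q ⧸ GK E)] (β β' : Gq q × Gq q → (Om q)ˣ) (y : Gq q × Gq q) :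
    mcor E s (fun v => β v * β' v) y = mcor E s β y * mcor E s β' y := by
  simp only [mcor, smul_mul']
  exact finprod_mul_distrib (Set.toFinite _) (Set.toFinite _)

lemma h95l_mcor_pow [Finite (Gq q ⧸ GK E)] (β : Gq q × Gq q → (Om q)ˣ) (k : ℕ)
    (y : Gq q × Gq q) :
    mcor E s (fun v => β v ^ k) y = mcor E s β y ^ k := by
  induction k with
  | zero => simp [mcor]
  | succ k ih =>
    have h1 : (fun v => β v ^ (k + 1)) = fun v => (fun v => β v ^ k) v * β v := by
      funext v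
      rw [pow_succ]
    rw [h1, h95l_mcor_mul, ih, pow_succ]

end Cor

/-! ## The degree of `ℚ_q(ζ_p)` -/

lemma h95l_finite_quot (E : LF q) [FiniteDimensional ℚ_[q] E] : Finite (Gq q ⧸ GK E) := by
  have h := Fermat.Agent.PT.Bridge.h23b_index_fixingSubgroup_loc q E
  have hpos : 0 < Module.finrank ℚ_[q] E := Module.finrank_pos
  have hne : (GK E).index ≠ 0 := by
    rw [h]
    exact hpos.ne'
  haveI : (GK E).FiniteIndex := ⟨hne⟩
  exact Subgroup.finite_quotient_of_finiteIndex

lemma h95l_finrank_cyclo_dvd {ζ : Om q} (hζ : IsPrimitiveRoot ζ p) :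
    Module.finrank ℚ_[q] (IntermediateField.adjoin ℚ_[q] {ζ}) ∣ p - 1 := by
  haveI : NeZero p := ⟨(Fact.out : p.Prime).ne_zero⟩
  haveI : IsCyclotomicExtension {p} ℚ_[q] (IntermediateField.adjoin ℚ_[q] {ζ}) :=
    hζ.intermediateField_adjoin_isCyclotomicExtension ℚ_[q]
  haveI : IsGalois ℚ_[q] (IntermediateField.adjoin ℚ_[q] {ζ}) :=
    IsCyclotomicExtension.isGalois {p} ℚ_[q] _
  haveI : FiniteDimensional ℚ_[q] (IntermediateField.adjoin ℚ_[q] {ζ}) :=
    IsCyclotomicExtension.finiteDimensional {p} ℚ_[q] _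
  have hz := IsCyclotomicExtension.zeta_spec p ℚ_[q] (IntermediateField.adjoin ℚ_[q] {ζ})
  have hinj := hz.autToPow_injective ℚ_[q]
  have hcard := Subgroup.card_dvd_of_injective _ hinj
  rw [IsGalois.card_aut_eq_finrank, Nat.card_eq_fintype_card, ZMod.card_units_eq_totient,
    Nat.totient_prime Fact.out] at hcard
  exact hcard

end Fermat.Agent.PT.Loc
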