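import Mathlib
import Fermat.Agent.PT.Loc.H95InvTotalTools

/-!
# W3-PT / PT-LOC leaf LOC2-INV-TOTAL (helper95)

`h95l_invTotal_of : B0 → B0Gen → MCKum → URCyc → InvCor → CorCohom → CorRes → ChiZeta → InvY →
InvTotal` : every continuous `2`-cocycle `z` of `G_{ℚ_q}` with values in `μ_p = 𝔽_p(χ)` has an
invariant, i.e. `ζ ^ z` is cohomologous to a power of the standard unramified class `Yq`.

Proof. `E = ℚ_q(ζ)`, `d = [E : ℚ_q]` divides `p - 1`. On `G_E` the coefficients are trivial, so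
`z ∼ t c₀` on `G_E` (`B0`), `ζ ^ c₀ ∼ carry(π)⁻¹` (`MCKum`), hence `ζ^z · carry(π)^t ∼ 1` on `G_E`.
Corestriction (`CorCohom`, `CorRes`, `InvCor`): `(ζ^z)^d · Yq^t ∼ 1` on `G_{ℚ_q}`. Raise to the
power `d' = d⁻¹ mod p`.
-/

set_option autoImplicit false
set_option linter.style.haveILetI false
set_option linter.unusedSectionVars false

open scoped Classical

noncomputable section

namespace Fermat.Agent.PT.Loc

open ExtCitation Fermat.Agent.PT

variable {q : ℕ} [Fact q.Prime] {p : ℕ} [Fact p.Prime]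

/-! ## The root of unity -/

lemma h95l_zetaU_pow (hZ : ChiZeta) : (zetaU p q) ^ p = 1 := by
  obtain ⟨h1, h2, -⟩ := hZ q p
  apply Units.ext
  rw [Units.val_pow_eq_pow_val, h2, Units.val_one]
  exact h1.pow_eq_one

lemma h95l_smul_zetaU (hZ : ChiZeta) {g : Gq q} (hg : g (zetaL p q) = zetaL p q) :
    g • zetaU p q = zetaU p q := by
  obtain ⟨-, h2, -⟩ := hZ q p
  apply Units.ext
  rw [AlgEquiv.smul_units_def, Units.coe_map, h2]
  exact hg

lemma h95l_chiL_eq_one (hZ : ChiZeta) {g : Gq q} (hg : g (zetaL p q) = zetaL p q) :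
    chiL p q g = 1 := by
  obtain ⟨h1, h2, h3⟩ := hZ q p
  have h4 : zetaL p q ^ (chiL p q g).val = zetaL p q ^ 1 := by
    have := congrArg (fun u : (Om q)ˣ => (u : Om q)) (h3 g)
    simp only [Units.val_pow_eq_pow_val, h2] at this
    rw [← this, pow_one, h95l_smul_zetaU hZ hg, h2]
  have h5 := h1.pow_inj (ZMod.val_lt _) (Fact.out : p.Prime).one_lt h4
  rw [← ZMod.natCast_zmod_val (chiL p q g), h5, Nat.cast_one]

/-! ## The cocycle `ζ ^ z` -/

lemma h95l_d2_apply {z : Gq q × Gq q → ZMod p}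
    (hz : d2 (chiRep (chiQ p q)) z = 0) (g h j : Gq q) :
    chiL p q g * z (h, j) - z (g * h, j) + z (g, h * j) - z (g, h) = 0 := by
  have := congrFun hz (g, h, j)
  rw [d2_apply, chiRep_apply] at this
  exact this

lemma h95l_cont2_of_isLC2 {X : Type*} {z : Gq q × Gq q → X} (hz : IsLC2 (levLoc q) z) :
    Cont2 (⊥ : LF q) z := by
  obtain ⟨N, ⟨N₀, ⟨F, hF, -, rfl⟩, rfl⟩, h⟩ := hz
  haveI := hF
  refine ⟨Fermat.Agent.PT.Bridge.h23b_localField q F,
    Fermat.Agent.PT.Bridge.h23b_finiteDimensional_localField q F, bot_le,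
    fun g _ g' _ s hs s' hs' => h g g' s s' ?_ ?_⟩
  · rw [Fermat.Agent.PT.Bridge.h23b_comap_fixingSubgroup]
    exact hs
  · rw [Fermat.Agent.PT.Bridge.h23b_comap_fixingSubgroup]
    exact hs'

lemma h95l_mcoc2_zpw (hZ : ChiZeta) {z : Gq q × Gq q → ZMod p}
    (hz : d2 (chiRep (chiQ p q)) z = 0) : MCoc2 (⊥ : LF q) (zpw (zetaU p q) z) := by
  intro g _ h _ j _
  obtain ⟨-, -, h3⟩ := hZ q p
  have hp := h95l_zetaU_pow (q := q) (p := p) hZ
  simp only [zpw, smul_pow', h3 g]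
  rw [← h95l_pow_val_mul hp, ← h95l_pow_val_add hp, ← h95l_pow_val_add hp]
  congr 2
  have := h95l_d2_apply hz g h j
  linear_combination -this

lemma h95l_cont2_zpw {K : LF q} (ζ : (Om q)ˣ) {z : Gq q × Gq q → ZMod p} (hz : Cont2 K z) :
    Cont2 K (zpw ζ z) := by
  obtain ⟨F, hF, hKF, h⟩ := hz
  exact ⟨F, hF, hKF, fun g hg g' hg' s hs s' hs' => by
    simp only [zpw, h g hg g' hg' s hs s' hs']⟩

lemma h95l_cont2_res {K K' : LF q} {X : Type*} (hK' : FiniteDimensional ℚ_[q] K') (hle : K ≤ K')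
    {f : Gq q × Gq q → X} (hf : Cont2 K f) : Cont2 K' f := by
  obtain ⟨F, hF, hKF, h⟩ := hf
  have := hF
  have := hK'
  refine ⟨F ⊔ K', IntermediateField.finiteDimensional_sup F K', le_sup_right,
    fun g hg g' hg' s hs s' hs' => ?_⟩
  exact h g (IntermediateField.fixingSubgroup_antitone hle hg) g'
    (IntermediateField.fixingSubgroup_antitone hle hg') s
    (IntermediateField.fixingSubgroup_antitone le_sup_left hs) s'
    (IntermediateField.fixingSubgroup_antitone le_sup_left hs')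

/-- On a field containing `ζ`: `z ∼ t c₀` additively gives `ζ^z ∼ (ζ^c₀)^t` multiplicatively. -/
lemma h95l_mcohom_of_acohom (hZ : ChiZeta) {E : LF q} (hfix : ∀ g ∈ GK E, g (zetaL p q) = zetaL p q)
    {z c₀ : Gq q × Gq q → ZMod p} {t : ZMod p} (h : ACohom E z (t • c₀)) :
    MCohom E (zpw (zetaU p q) z) (fun y => (zpw (zetaU p q) c₀ y) ^ t.val) := by
  have hp := h95l_zetaU_pow (q := q) (p := p) hZ
  obtain ⟨f, hf, hzf⟩ := h
  refine ⟨fun g => zetaU p q ^ (f g).val, ?_, fun g hg h hh => ?_⟩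
  · obtain ⟨F, hF, hKF, hc⟩ := hf
    exact ⟨F, hF, hKF, fun g hg s hs => by simp only [hc g hg s hs]⟩
  · have h1 := hzf g hg h hh
    simp only [zpw, mcob, smul_pow', h95l_smul_zetaU hZ (hfix g hg)]
    rw [h1]
    simp only [Pi.smul_apply, smul_eq_mul, acob]
    rw [h95l_pow_val_add hp, h95l_pow_val_mul hp]
    congr 1
    have h2 : zetaU p q ^ (f h - f (g * h) + f g).val * zetaU p q ^ (f (g * h)).val
        = zetaU p q ^ (f h).val * zetaU p q ^ (f g).val := by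
      rw [← h95l_pow_val_add hp, ← h95l_pow_val_add hp]
      congr 2
      ring
    rw [div_mul_eq_mul_div, eq_div_iff_mul_eq', ← h2, mul_comm]

/-- **LOC2-INV-TOTAL** (conditional on the leaves it uses). -/
theorem h95l_invTotal_of (hB0 : B0) (hB0Gen : B0Gen) (hKum : MCKum) (hURCyc : URCyc)
    (hInvCor : InvCor) (hCorCohom : CorCohom) (hCorRes : CorRes) (hZ : ChiZeta) (hInvY : InvY) :
    InvTotal := by
  intro q _ p _ z hz
  have hzc : d2 (chiRep (chiQ p q)) z = 0 := hz.1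
  have hzl : IsLC2 (levLoc q) z := hz.2
  obtain ⟨hprim, hcoe, hact⟩ := hZ q p
  have hp := h95l_zetaU_pow (q := q) (p := p) hZ
  have hppos : 0 < p := (Fact.out : p.Prime).pos
  -- the field `E = ℚ_q(ζ)`
  have hint : IsIntegral ℚ_[q] (zetaL p q) := (hprim.isIntegral hppos).tower_top
  have hEfin : FiniteDimensional ℚ_[q] (IntermediateField.adjoin ℚ_[q] {zetaL p q}) :=
    IntermediateField.adjoin.finiteDimensional hint
  have hd : Module.finrank ℚ_[q] (IntermediateField.adjoin ℚ_[q] {zetaL p q}) ∣ p - 1 :=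
    h95l_finrank_cyclo_dvd hprim
  generalize hE : IntermediateField.adjoin ℚ_[q] {zetaL p q} = E at hEfin hd
  have hζE : zetaL p q ∈ E := by
    rw [← hE]
    exact IntermediateField.mem_adjoin_simple_self _ _
  haveI := hEfin
  haveI := h95l_finite_quot E
  have hfix : ∀ g ∈ GK E, g (zetaL p q) = zetaL p q := fun g hg =>
    (IntermediateField.mem_fixingSubgroup_iff E g).1 hg _ hζE
  -- `z` on `G_E`
  have hcont0 : Cont2 (⊥ : LF q) z := h95l_cont2_of_isLC2 hzl
  have hcontE : Cont2 E z := h95l_cont2_res hEfin bot_le hcont0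
  have hcocE : ACoc2 E z := by
    intro g hg h _ j _
    have := h95l_d2_apply hzc g h j
    rw [h95l_chiL_eq_one hZ (hfix g hg), one_mul] at this
    exact this
  -- the standard generator
  obtain ⟨⟨c₀, hc₀⟩, -⟩ := hB0Gen q p E (zetaL p q) hζE hprim
  obtain ⟨t, hzt⟩ := hB0 q p E (zetaL p q) hζE hprim c₀ hc₀ z hcocE hcontE
  obtain ⟨ϖ, φ, hunif, hfrob, rfl⟩ := hc₀
  have hϖ0 : ϖ ≠ 0 := by
    intro h
    apply hunif.2.1
    rw [h, zero_pow hppos.ne']
  have hcyc := hURCyc q E p φ hppos hfrob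
  have hkum := hKum q p E (Kur E p) φ (zetaU p q) (Units.mk0 ϖ hϖ0) (by rw [hcoe]; exact hζE)
    (by rw [hcoe]; exact hprim) hcyc (by rw [Units.val_mk0]; exact hunif.1)
  rw [hcoe, Units.val_mk0] at hkum
  -- on `G_E`: `ζ^z · carry(π)^t ∼ 1`
  have hF3 := h76m_trans (h95l_mcohom_of_acohom hZ hfix hzt) (h76m_pow hkum t.val)
  have hF4 : MCohom E (fun y => zpw (zetaU p q) z y *
      (carry (Kur E p) φ p (Units.mk0 ϖ hϖ0 ^ p) y) ^ t.val) 1 := by
    refine h76m_trans (h76m_mul hF3 (h76m_refl E _)) (h76m_of_eq E (fun g _ h _ => ?_))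
    simp
  -- corestriction
  obtain ⟨s, hs⟩ := h95l_exists_isSec E
  have hcor := hCorCohom q E s hs _ _ hF4
  have hres := hCorRes q E s hs (zpw (zetaU p q) z) (h95l_mcoc2_zpw hZ hzc)
    (h95l_cont2_zpw _ hcont0)
  have hinv := hInvCor q p E s φ (Units.mk0 ϖ hϖ0 ^ p) hs hfrob
    (by rw [Units.val_pow_eq_pow_val, Units.val_mk0]; exact hunif)
  have hG : MCohom (⊥ : LF q) (fun y => zpw (zetaU p q) z y ^ Module.finrank ℚ_[q] E *
      Yq p q y ^ t.val) 1 := by
    refine h76m_trans (h76m_symm (h76m_mul hres (h76m_pow hinv t.val))) ?_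
    refine h76m_trans (h76m_of_eq _ (fun g _ h _ => ?_)) (h76m_trans hcor
      (h76m_of_eq _ (fun g _ h _ => ?_)))
    · rw [h95l_mcor_mul, h95l_mcor_pow]
    · exact h95l_mcor_one E s (g, h)
  -- the inverse of `d` modulo `p`
  have hdne : ((Module.finrank ℚ_[q] E : ℕ) : ZMod p) ≠ 0 := by
    intro h0
    rw [ZMod.natCast_eq_zero_iff] at h0
    have h1 : p ∣ p - 1 := h0.trans hd
    have h2 : p ≤ p - 1 := Nat.le_of_dvd (by have := (Fact.out : p.Prime).two_le; omega) h1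
    omega
  have hdd : ((Module.finrank ℚ_[q] E * (((Module.finrank ℚ_[q] E : ℕ) : ZMod p)⁻¹).val : ℕ) :
      ZMod p) = ((1 : ℕ) : ZMod p) := by
    rw [Nat.cast_mul, ZMod.natCast_zmod_val, Nat.cast_one, mul_inv_cancel₀ hdne]
  have hH := h76m_pow hG (((Module.finrank ℚ_[q] E : ℕ) : ZMod p)⁻¹).val
  have hH' : MCohom (⊥ : LF q) (fun y => zpw (zetaU p q) z y *
      Yq p q y ^ (t.val * (((Module.finrank ℚ_[q] E : ℕ) : ZMod p)⁻¹).val)) 1 := by
    refine h76m_trans (h76m_of_eq _ (fun g _ h _ => ?_)) (h76m_trans hH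
      (h76m_of_eq _ (fun g _ h _ => ?_)))
    · rw [mul_pow, ← pow_mul, ← pow_mul]
      congr 1
      have hz1 : (zpw (zetaU p q) z (g, h)) ^ p = 1 := by
        simp only [zpw]
        rw [← pow_mul, mul_comm, pow_mul, hp, one_pow]
      rw [h95l_pow_eq_of_cast_eq hz1 hdd, pow_one]
    · simp
  -- conclusion
  refine ⟨-((t.val * (((Module.finrank ℚ_[q] E : ℕ) : ZMod p)⁻¹).val : ℕ) : ZMod p), ?_⟩
  set n : ℕ := t.val * (((Module.finrank ℚ_[q] E : ℕ) : ZMod p)⁻¹).val with hn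
  have hY : MCohom (⊥ : LF q) (fun y => Yq p q y ^ ((-(n : ZMod p)).val + n)) 1 := by
    refine (hInvY q p _).2 ?_
    rw [← ZMod.natCast_eq_zero_iff]
    simp
  have h3 := h76m_mul hH' (h76m_refl (⊥ : LF q) (fun y => Yq p q y ^ (-(n : ZMod p)).val))
  have h4 := h76m_mul (h76m_refl (⊥ : LF q) (zpw (zetaU p q) z)) (h76m_symm hY)
  unfold HasInv
  refine h76m_trans (h76m_of_eq _ (fun g _ h _ => ?_)) (h76m_trans h4
    (h76m_trans (h76m_of_eq _ (fun g _ h _ => ?_)) (h76m_trans h3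
      (h76m_of_eq _ (fun g _ h _ => ?_)))))
  · exact (mul_one _).symm
  · rw [pow_add]
    ac_rfl
  · exact one_mul _

end Fermat.Agent.PT.Loc
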