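import Mathlib
import Fermat.Agent.PT.Loc.H95InvTotal
import Fermat.Agent.PT.Loc.H48Final
import Fermat.Agent.PT.Loc.H83InvCor
import Fermat.Agent.PT.Loc.H66CorCohom
import Fermat.Agent.PT.Loc.H97CorRes
import Fermat.Agent.PT.Loc.H6ChiZeta
import Fermat.Agent.PT.Loc.H49InvY

/-!
# W3-PT / PT-LOC leaf LOC2-INV-TOTAL, unconditional form (helper95)

`h95l_invTotal : InvTotal` : every continuous `2`-cocycle of `G_{ℚ_q}` with values in `μ_p` has an
invariant (`Br(ℚ_q)[p]` is generated by the class of `Yq`).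
-/

set_option autoImplicit false

namespace Fermat.Agent.PT.Loc

theorem h95l_invTotal : InvTotal :=
  h95l_invTotal_of h48f_b0 h48f_b0Gen h65_mcKum h48f_urCyc h83i_invCor h66c_corCohom h97c_corRes
    h6z_chiZeta h49y_invY

end Fermat.Agent.PT.Loc
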