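import Mathlib
import Fermat.Agent.PT.Shap.Core
import Fermat.Agent.PT.Loc.Inv

/-!
# W3-PT / LOC3-K-NONDEG (helper2), part (B): the orbit sum of the Shapiro map is `acor`

Pure group theory.  `H` acts on `X`, `od` are orbit data, `w` an orbit representative with
stabiliser `V`.  The section `h2k_sec od w V : H ⧸ V → H`, `a ↦ od.sec (a • w)`, is a normalised
section of `H → H ⧸ V`, and the sum over the orbit of `w` is the sum over `H ⧸ V`.

For `H = Gq q`, `V = GK E` this identifies the orbit sum of `ex₂` (PT-SHAP) with the twisted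
corestriction `acor E s (chiL p q)` of `Loc/Inv.lean`.
-/

set_option autoImplicit false

noncomputable section

namespace Fermat.Agent.PT.Loc

open MulAction Fermat.Agent.PT.Shap

section Abstract

variable {H X : Type} [Group H] [MulAction H X]

/-- the section `a ↦ od.sec (a • w)` of `H → H ⧸ V`, `V` the stabiliser of `w`. -/
def h2k_sec (od : h56s_OrbitData H X) (w : od.W) (V : Subgroup H) (a : H ⧸ V) : H :=
  od.sec ((Quotient.out a : H) • w.1)

variable (od : h56s_OrbitData H X) (w : od.W) {V : Subgroup H} (hV : V = stabilizer H w.1)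

omit od w in
lemma h2k_mem_iff {x : X} (hV : V = stabilizer H x) (g : H) : g ∈ V ↔ g • x = x := by
  subst hV
  exact mem_stabilizer_iff

include hV

lemma h2k_out_smul (g : H) : (Quotient.out (QuotientGroup.mk g : H ⧸ V) : H) • w.1 = g • w.1 := by
  have h1 : (QuotientGroup.mk (Quotient.out (QuotientGroup.mk g : H ⧸ V)) : H ⧸ V) =
      QuotientGroup.mk g := Quotient.out_eq' _
  have h2 := (h2k_mem_iff hV _).1 (QuotientGroup.eq.1 h1)
  rw [mul_smul, inv_smul_eq_iff] at h2
  exact h2.symm

lemma h2k_out_smul' (g : H) (a : H ⧸ V) :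
    (Quotient.out (g • a) : H) • w.1 = g • ((Quotient.out a : H) • w.1) := by
  obtain ⟨b, rfl⟩ := QuotientGroup.mk_surjective a
  have : g • (QuotientGroup.mk b : H ⧸ V) = QuotientGroup.mk (g * b) := rfl
  rw [this, h2k_out_smul od w hV, h2k_out_smul od w hV, mul_smul]

lemma h2k_sec_apply (g : H) (a : H ⧸ V) :
    h2k_sec od w V (g • a) = od.sec (g • ((Quotient.out a : H) • w.1)) := by
  unfold h2k_sec
  rw [h2k_out_smul' od w hV]

omit hV in
lemma h2k_rep_out (a : H ⧸ V) : od.rep ((Quotient.out a : H) • w.1) = w.1 := by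
  rw [od.rep_smul, w.2]

omit hV in
lemma h2k_sec_smul (a : H ⧸ V) : h2k_sec od w V a • w.1 = (Quotient.out a : H) • w.1 := by
  have h := od.sec_smul ((Quotient.out a : H) • w.1)
  rw [od.rep_smul, w.2] at h
  exact h

lemma h2k_mk_sec (a : H ⧸ V) : (QuotientGroup.mk (h2k_sec od w V a) : H ⧸ V) = a := by
  conv_rhs => rw [← Quotient.out_eq' a]
  apply QuotientGroup.eq.2
  rw [h2k_mem_iff hV, mul_smul, inv_smul_eq_iff]
  exact (h2k_sec_smul od w a).symm

lemma h2k_sec_one : h2k_sec od w V (QuotientGroup.mk 1) = 1 := by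
  unfold h2k_sec
  rw [h2k_out_smul od w hV, one_smul, ← w.2, od.sec_rep]

lemma h2k_orb_injective : Function.Injective (fun a : H ⧸ V => (Quotient.out a : H) • w.1) := by
  intro a b h
  simp only at h
  rw [← Quotient.out_eq' a, ← Quotient.out_eq' b]
  apply QuotientGroup.eq.2
  rw [h2k_mem_iff hV, mul_smul, inv_smul_eq_iff]
  exact h.symm

lemma h2k_orb_range :
    Set.range (fun a : H ⧸ V => (Quotient.out a : H) • w.1) = {x | od.repW x = w} := by
  ext x
  constructor
  · rintro ⟨a, rfl⟩
    exact Subtype.ext (h2k_rep_out od w a)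
  · intro hx
    have hx' : od.rep x = w.1 := congrArg Subtype.val hx
    refine ⟨QuotientGroup.mk (od.sec x), ?_⟩
    simp only
    rw [h2k_out_smul od w hV, ← hx', od.sec_smul]

/-- **The orbit sum**: the sum over the orbit of `w` is the sum over `H ⧸ V`. -/
theorem h2k_orbit_sum {k : Type} [AddCommMonoid k] (F : X → k)
    [∀ x, Decidable (od.repW x = w)] :
    ∑ᶠ x, (if od.repW x = w then F x else 0) =
      ∑ᶠ a : H ⧸ V, F ((Quotient.out a : H) • w.1) := by
  have h1 : ∑ᶠ x, (if od.repW x = w then F x else 0) = ∑ᶠ x ∈ {x | od.repW x = w}, F x := by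
    rw [finsum_mem_def]
    refine finsum_congr fun x => ?_
    by_cases h : od.repW x = w
    · rw [if_pos h, Set.indicator_of_mem (by exact h)]
    · rw [if_neg h, Set.indicator_of_notMem (by exact h)]
  rw [h1, ← h2k_orb_range od w hV]
  exact finsum_mem_range (h2k_orb_injective od w hV)

end Abstract

/-! ## The local Galois group -/

section Local

variable {q : ℕ} [Fact q.Prime] {p : ℕ} [Fact p.Prime] {X : Type} [MulAction (Gq q) X]
variable (od : h56s_OrbitData (Gq q) X) (w : od.W) (E : LF q)
  (hE : GK E = stabilizer (Gq q) w.1)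

include hE

/-- the orbit section is a normalised section of `Gq q → Gq q ⧸ G_E`. -/
theorem h2k_isSec : IsSec E (h2k_sec od w (GK E)) :=
  ⟨h2k_mk_sec od w hE, h2k_sec_one od w hE⟩

/-- the cocycle of the orbit data on the orbit of `w` is the cocycle of the section. -/
theorem h2k_c_eq (g : Gq q) (a : Gq q ⧸ GK E) :
    od.c g ((Quotient.out a : Gq q) • w.1) = secC E (h2k_sec od w (GK E)) g a := by
  unfold h56s_OrbitData.c secC
  rw [h2k_sec_apply od w hE]
  rfl

/-- the cocycle of the orbit data on the orbit of `w`, shifted. -/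
theorem h2k_c_eq' (k g : Gq q) (a : Gq q ⧸ GK E) :
    od.c g (k • ((Quotient.out a : Gq q) • w.1)) = secC E (h2k_sec od w (GK E)) g (k • a) := by
  rw [← h2k_c_eq od w E hE, h2k_out_smul' od w hE]

/-- **(B)**: the orbit sum of the Shapiro extension is the twisted corestriction. -/
theorem h2k_acor_eq (χ : Gq q → ZMod p) (a : ZMod p) (c : Gq q × Gq q → ZMod p)
    (g : Gq q × Gq q) [∀ x, Decidable (od.repW x = w)] :
    ∑ᶠ x, (if od.repW x = w then
        χ (od.sec x) * (a * c (od.c g.1 x, od.c g.2 (g.1⁻¹ • x))) else 0) =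
      a * acor E (h2k_sec od w (GK E)) χ c g := by
  rw [h2k_orbit_sum od w hE
    (fun x => χ (od.sec x) * (a * c (od.c g.1 x, od.c g.2 (g.1⁻¹ • x))))]
  unfold acor
  rw [← smul_eq_mul, smul_finsum]
  refine finsum_congr fun b => ?_
  rw [h2k_c_eq od w E hE, h2k_c_eq' od w E hE, smul_eq_mul]
  show χ (h2k_sec od w (GK E) b) * _ = _
  ring

end Local

end Fermat.Agent.PT.Loc
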