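import Mathlib
import Fermat.Agent.PT.Alg.Tools

/-!
# W3-PT / PT-LOC, row LOC2-VAN-CYCABS (helper84): the abstract Jordan-block induction

`ρ` a discrete representation of `G` on `V`, with a nilpotent equivariant operator `Δ`
(`Δ ^ (r+1) = 0`), vectors `e 0, …, e r` with `Δ (e (j+1)) = e j`, `ker Δ = k • e 0`,
`e 0` invariant and `g e 1 = e 1 - χ g • e 0`.

* `h84_stepA`  : the induction `A_i` (a `2`-cocycle with values in `ker Δ^(i+1)` whose image
  under `Δ^i` is a coboundary of `k` is `d (Δ ∘ n)`);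
* `h84_vanCyc_alg` : the final step, in abstract form.
-/

set_option autoImplicit false

namespace Fermat.Agent.PT.Loc

open Fermat.Agent.PT

/-- the abstract Jordan block data for the cyclic step. -/
structure h84_Jordan {k : Type} [Field k] {G : Type} [Group G] {V : Type} [AddCommGroup V]
    [Module k V] (ρ : Representation k G V) (r : ℕ) (χ : G → k) where
  /-- the nilpotent operator -/
  Δ : V →ₗ[k] V
  /-- the Jordan chain -/
  e : ℕ → V
  /-- a functional detecting the coefficient of `e 0` on `ker Δ` -/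
  lam : V →ₗ[k] k
  comm : ∀ g v, Δ (ρ g v) = ρ g (Δ v)
  e_zero : Δ (e 0) = 0
  e_succ : ∀ j, j < r → Δ (e (j + 1)) = e j
  inv_zero : ∀ g, ρ g (e 0) = e 0
  inv_one : ∀ g, ρ g (e 1) = e 1 - χ g • e 0
  ker : ∀ v, Δ v = 0 → v = lam v • e 0
  lam_zero : lam (e 0) = 1
  nil : ∀ v, (Δ ^ (r + 1)) v = 0

section H84Alg

variable {k : Type} [Field k] {G : Type} [Group G] {L : Lev G}
variable {V : Type} [AddCommGroup V] [Module k V] {ρ : Representation k G V}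
variable {r : ℕ} {χ : G → k}

local notation "𝟙T" => Representation.trivial k G k

namespace h84_Jordan

variable (J : h84_Jordan ρ r χ)

lemma pow_comm (i : ℕ) (g : G) (v : V) : (J.Δ ^ i) (ρ g v) = ρ g ((J.Δ ^ i) v) := by
  induction i generalizing v with
  | zero => simp
  | succ i ih =>
    rw [pow_succ, Module.End.mul_apply, Module.End.mul_apply, J.comm, ih]

lemma pow_e (i j : ℕ) (h : i + j ≤ r) : (J.Δ ^ i) (J.e (i + j)) = J.e j := by
  induction i generalizing j with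
  | zero => simp
  | succ i ih =>
    rw [pow_succ, Module.End.mul_apply]
    have h1 : i + 1 + j = (i + j) + 1 := by omega
    rw [h1, J.e_succ (i + j) (by omega)]
    exact ih j (by omega)

lemma pow_e0 (i : ℕ) (hi : 0 < i) : (J.Δ ^ i) (J.e 0) = 0 := by
  obtain ⟨i, rfl⟩ := Nat.exists_eq_succ_of_ne_zero hi.ne'
  rw [pow_succ, Module.End.mul_apply, J.e_zero, map_zero]

lemma d1_pow (i : ℕ) (n : G → V) (x : G × G) :
    d1 ρ (fun g => (J.Δ ^ i) (n g)) x = (J.Δ ^ i) (d1 ρ n x) := by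
  obtain ⟨g, h⟩ := x
  simp only [d1_apply, map_sub, map_add, J.pow_comm]

lemma d2_pow (i : ℕ) (m : G × G → V) (x : G × G × G) :
    d2 ρ (fun p => (J.Δ ^ i) (m p)) x = (J.Δ ^ i) (d2 ρ m x) := by
  obtain ⟨g, h, j⟩ := x
  simp only [d2_apply, map_sub, map_add, J.pow_comm]

lemma d1_comp (n : G → V) (x : G × G) :
    d1 ρ (fun g => J.Δ (n g)) x = J.Δ (d1 ρ n x) := by
  obtain ⟨g, h⟩ := x
  simp only [d1_apply, map_sub, map_add, J.comm]

lemma d2_comp (m : G × G → V) (x : G × G × G) :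
    d2 ρ (fun p => J.Δ (m p)) x = J.Δ (d2 ρ m x) := by
  obtain ⟨g, h, j⟩ := x
  simp only [d2_apply, map_sub, map_add, J.comm]

lemma d1_smul_e0 (a : G → k) (x : G × G) :
    d1 ρ (fun g => a g • J.e 0) x = d1 𝟙T a x • J.e 0 := by
  obtain ⟨g, h⟩ := x
  simp only [d1_apply, map_smul, J.inv_zero, Representation.trivial_apply, add_smul, sub_smul]

lemma d2_smul_e0 (c : G × G → k) (x : G × G × G) :
    d2 ρ (fun p => c p • J.e 0) x = d2 𝟙T c x • J.e 0 := by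
  obtain ⟨g, h, j⟩ := x
  simp only [d2_apply, map_smul, J.inv_zero, Representation.trivial_apply, add_smul, sub_smul]

lemma d1_smul_e1 {ψ : G → k} (hψ : d1 𝟙T ψ = 0) (g h : G) :
    d1 ρ (fun g => ψ g • J.e 1) (g, h) = -(χ g * ψ h) • J.e 0 := by
  have h1 : ψ (g * h) = ψ g + ψ h := by
    have := congrFun hψ (g, h)
    simp only [d1_apply, Representation.trivial_apply, Pi.zero_apply] at this
    linear_combination -this
  simp only [d1_apply, map_smul, J.inv_one, h1, smul_sub, add_smul, smul_smul, neg_smul]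
  rw [mul_comm (ψ h) (χ g)]
  abel

lemma eq_lam {v : V} (hv : J.Δ v = 0) : v = J.lam v • J.e 0 := J.ker v hv

lemma smul_e0_inj {a b : k} (h : a • J.e 0 = b • J.e 0) : a = b := by
  have := congrArg J.lam h
  simpa [J.lam_zero] using this

end h84_Jordan

lemma h84_isLC2_sub {Y : Type*} [AddGroup Y] {f f' : G × G → Y} (hf : IsLC2 L f)
    (hf' : IsLC2 L f') : IsLC2 L (f - f') := by
  rw [sub_eq_add_neg]
  exact hf.add (hf'.comp (fun y => -y))

/-- the cup product of two characters is a `2`-cocycle. -/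
lemma h84_cup_mem_Z2 {χ ψ : G → k} (hχ : χ ∈ Z1 L 𝟙T) (hψ : ψ ∈ Z1 L 𝟙T) :
    cup11 (LinearMap.mul k k) 𝟙T χ ψ ∈ Z2 L 𝟙T := by
  rw [mem_Z1] at hχ hψ
  rw [mem_Z2]
  have aχ : ∀ g h, χ (g * h) = χ g + χ h := fun g h => by
    have := congrFun hχ.1 (g, h)
    simp only [d1_apply, Representation.trivial_apply, Pi.zero_apply] at this
    linear_combination -this
  have aψ : ∀ g h, ψ (g * h) = ψ g + ψ h := fun g h => by
    have := congrFun hψ.1 (g, h)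
    simp only [d1_apply, Representation.trivial_apply, Pi.zero_apply] at this
    linear_combination -this
  refine ⟨?_, ?_⟩
  · funext ⟨g, h, j⟩
    simp only [d2_apply, cup11_apply, Representation.trivial_apply, LinearMap.mul_apply',
      Pi.zero_apply, aχ, aψ]
    ring
  · obtain ⟨N₁, h₁, hf⟩ := hχ.2
    obtain ⟨N₂, h₂, hf'⟩ := hψ.2
    obtain ⟨N, hN, hle⟩ := L.directed N₁ h₁ N₂ h₂
    refine ⟨N, hN, fun g g' s s' hs hs' => ?_⟩
    simp only [cup11_apply, Representation.trivial_apply, LinearMap.mul_apply']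
    rw [hf g s (hle hs).1, hf' g' s' (hle hs').2]

/-- from (i) `dim H² ≤ 1` and (ii) `χ ∪ ψ₀ ≠ 0`: every class is `-(χ ∪ ψ)`. -/
lemma h84_span {χ : G → k} (hχ : χ ∈ Z1 L 𝟙T)
    (h1 : ∃ c₀ ∈ Z2 L 𝟙T, ∀ c ∈ Z2 L 𝟙T, ∃ t : k, c - t • c₀ ∈ B2 L 𝟙T)
    (h2 : ∃ ψ ∈ Z1 L 𝟙T, cup11 (LinearMap.mul k k) 𝟙T χ ψ ∉ B2 L 𝟙T) :
    ∀ c ∈ Z2 L 𝟙T, ∃ ψ ∈ Z1 L 𝟙T, ∃ a : G → k, IsLC1 L a ∧
      ∀ x, c x + cup11 (LinearMap.mul k k) 𝟙T χ ψ x = d1 𝟙T a x := by
  obtain ⟨c₀, hc₀, hgen⟩ := h1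
  obtain ⟨ψ₀, hψ₀, hne⟩ := h2
  intro c hc
  obtain ⟨t₀, ht₀⟩ := hgen _ (h84_cup_mem_Z2 hχ hψ₀)
  obtain ⟨t, ht⟩ := hgen c hc
  have ht₀ne : t₀ ≠ 0 := by
    rintro rfl
    rw [zero_smul, sub_zero] at ht₀
    exact hne ht₀
  refine ⟨(-(t / t₀)) • ψ₀, Submodule.smul_mem _ _ hψ₀, ?_⟩
  have hmem : (c - t • c₀) - (t / t₀) • (cup11 (LinearMap.mul k k) 𝟙T χ ψ₀ - t₀ • c₀)
      ∈ B2 L 𝟙T := Submodule.sub_mem _ ht (Submodule.smul_mem _ _ ht₀)
  obtain ⟨a, ha, hda⟩ := (mem_B2 L 𝟙T _).1 hmem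
  refine ⟨a, ha, fun x => ?_⟩
  have := congrFun hda x
  rw [this]
  obtain ⟨g, h⟩ := x
  simp only [Pi.sub_apply, Pi.smul_apply, cup11_apply, Representation.trivial_apply,
    LinearMap.mul_apply', smul_eq_mul]
  field_simp
  ring

variable (hL : L.Good) (hρ : IsDisc L ρ)
include hL hρ

/-- **the induction `A_i`.** -/
theorem h84_stepA (J : h84_Jordan ρ r χ)
    (hspan : ∀ c ∈ Z2 L 𝟙T, ∃ ψ ∈ Z1 L 𝟙T, ∃ a : G → k, IsLC1 L a ∧
      ∀ x, c x + cup11 (LinearMap.mul k k) 𝟙T χ ψ x = d1 𝟙T a x) :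
    ∀ i, i < r → ∀ m : G × G → V, IsLC2 L m → d2 ρ m = 0 →
      (∀ x, (J.Δ ^ (i + 1)) (m x) = 0) →
      ∀ a : G → k, IsLC1 L a → (∀ x, (J.Δ ^ i) (m x) = d1 𝟙T a x • J.e 0) →
      ∃ n : G → V, IsLC1 L n ∧ d1 ρ (fun g => J.Δ (n g)) = m := by
  intro i
  induction i with
  | zero =>
    intro hr m _ _ _ a ha hm
    refine ⟨fun g => a g • J.e 1, ha.comp (fun c => c • J.e 1), ?_⟩
    funext x
    have h1 : (fun g => J.Δ (a g • J.e 1)) = fun g => a g • J.e 0 := by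
      funext g
      rw [map_smul, J.e_succ 0 hr]
    rw [h1, J.d1_smul_e0, ← hm x, pow_zero, Module.End.one_apply]
  | succ i ih =>
    intro hr m hmLC hmd hmk a ha hm
    have hi : i < r := by omega
    -- first correction
    set m1 : G × G → V := m - d1 ρ (fun g => a g • J.e (i + 1)) with hm1
    have hm1LC : IsLC2 L m1 :=
      h84_isLC2_sub hmLC (Tools.isLC2_d1 hL hρ (ha.comp (fun c => c • J.e (i + 1))))
    have hm1d : d2 ρ m1 = 0 := by
      rw [hm1, map_sub, hmd, Tools.d2_d1, sub_zero]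
    have hm1k : ∀ x, (J.Δ ^ (i + 1)) (m1 x) = 0 := by
      intro x
      rw [hm1, Pi.sub_apply, map_sub, hm x, ← J.d1_pow]
      have h1 : (fun g => (J.Δ ^ (i + 1)) (a g • J.e (i + 1))) = fun g => a g • J.e 0 := by
        funext g
        rw [map_smul]
        have := J.pow_e (i + 1) 0 (by omega)
        rw [add_zero] at this
        rw [this]
      rw [h1, J.d1_smul_e0, sub_self]
    -- the class of `Δ^i m1`
    set c' : G × G → k := fun x => J.lam ((J.Δ ^ i) (m1 x)) with hc'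
    have hc'e : ∀ x, (J.Δ ^ i) (m1 x) = c' x • J.e 0 := by
      intro x
      apply J.eq_lam
      have := hm1k x
      rwa [pow_succ', Module.End.mul_apply] at this
    have hc'Z : c' ∈ Z2 L 𝟙T := by
      rw [mem_Z2]
      refine ⟨?_, hm1LC.comp (fun v => J.lam ((J.Δ ^ i) v))⟩
      funext x
      apply J.smul_e0_inj
      rw [← J.d2_smul_e0, Pi.zero_apply, zero_smul]
      have h1 : (fun p => c' p • J.e 0) = fun p => (J.Δ ^ i) (m1 p) := by
        funext p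
        rw [hc'e p]
      rw [h1, J.d2_pow, hm1d, Pi.zero_apply, map_zero]
    obtain ⟨ψ, hψ, a2, ha2, hcup⟩ := hspan c' hc'Z
    rw [mem_Z1] at hψ
    -- second correction
    set m2 : G × G → V := m1 - d1 ρ (fun g => ψ g • J.e (i + 1)) with hm2
    have hm2LC : IsLC2 L m2 :=
      h84_isLC2_sub hm1LC (Tools.isLC2_d1 hL hρ (hψ.2.comp (fun c => c • J.e (i + 1))))
    have hm2d : d2 ρ m2 = 0 := by
      rw [hm2, map_sub, hm1d, Tools.d2_d1, sub_zero]
    have hm2k : ∀ x, (J.Δ ^ (i + 1)) (m2 x) = 0 := by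
      intro x
      rw [hm2, Pi.sub_apply, map_sub, hm1k x, ← J.d1_pow]
      have h1 : (fun g => (J.Δ ^ (i + 1)) (ψ g • J.e (i + 1))) = fun g => ψ g • J.e 0 := by
        funext g
        rw [map_smul]
        have := J.pow_e (i + 1) 0 (by omega)
        rw [add_zero] at this
        rw [this]
      rw [h1, J.d1_smul_e0, hψ.1, Pi.zero_apply, zero_smul, sub_zero]
    have hm2i : ∀ x, (J.Δ ^ i) (m2 x) = d1 𝟙T a2 x • J.e 0 := by
      intro x
      rw [hm2, Pi.sub_apply, map_sub, hc'e x, ← J.d1_pow]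
      have h1 : (fun g => (J.Δ ^ i) (ψ g • J.e (i + 1))) = fun g => ψ g • J.e 1 := by
        funext g
        rw [map_smul, J.pow_e i 1 (by omega)]
      rw [h1, ← hcup x]
      obtain ⟨g, h⟩ := x
      rw [J.d1_smul_e1 hψ.1, cup11_apply, Representation.trivial_apply, LinearMap.mul_apply',
        neg_smul, sub_neg_eq_add, add_smul]
    obtain ⟨n2, hn2, hdn2⟩ := ih hi m2 hm2LC hm2d hm2k a2 ha2 hm2i
    refine ⟨fun g => n2 g + (a g + ψ g) • J.e (i + 2),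
      hn2.add ((ha.add hψ.2).comp (fun c => c • J.e (i + 2))), ?_⟩
    have h1 : (fun g => J.Δ (n2 g + (a g + ψ g) • J.e (i + 2)))
        = (fun g => J.Δ (n2 g)) + ((fun g => a g • J.e (i + 1)) + fun g => ψ g • J.e (i + 1)) := by
      funext g
      simp only [Pi.add_apply, map_add, map_smul, add_smul]
      rw [J.e_succ (i + 1) hr]
    rw [h1, map_add, map_add, hdn2, hm2, hm1]
    abel

/-- lifting step: if `Δ^r M` is a coboundary of `k` and `d M` has values in `ker Δ`,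
then `M - d n` has values in `ker Δ` for a level-constant `n`. -/
lemma h84_lift (J : h84_Jordan ρ r χ) (hr : 0 < r)
    (hspan : ∀ c ∈ Z2 L 𝟙T, ∃ ψ ∈ Z1 L 𝟙T, ∃ a : G → k, IsLC1 L a ∧
      ∀ x, c x + cup11 (LinearMap.mul k k) 𝟙T χ ψ x = d1 𝟙T a x)
    (M : G × G → V) (hM : IsLC2 L M) (hdM : ∀ x, J.Δ (d2 ρ M x) = 0)
    (a : G → k) (ha : IsLC1 L a) (hMa : ∀ x, (J.Δ ^ r) (M x) = d1 𝟙T a x • J.e 0) :
    ∃ E : G × G → k, IsLC2 L E ∧ ∃ n : G → V, IsLC1 L n ∧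
      M = (fun x => E x • J.e 0) + d1 ρ n := by
  obtain ⟨r, rfl⟩ := Nat.exists_eq_succ_of_ne_zero hr.ne'
  obtain ⟨n, hn, hdn⟩ := h84_stepA hL hρ J hspan r (by omega) (fun x => J.Δ (M x))
    (hM.comp (fun v => J.Δ v))
    (by
      funext x
      rw [J.d2_comp, hdM x, Pi.zero_apply])
    (fun x => by
      have := J.nil (M x)
      rwa [pow_succ, Module.End.mul_apply] at this)
    a ha
    (fun x => by
      rw [← hMa x, pow_succ (n := r), Module.End.mul_apply])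
  have hker : ∀ x, J.Δ (M x - d1 ρ n x) = 0 := by
    intro x
    rw [map_sub, ← J.d1_comp, hdn, sub_self]
  refine ⟨fun x => J.lam (M x - d1 ρ n x), ?_, n, hn, ?_⟩
  · exact (h84_isLC2_sub hM (Tools.isLC2_d1 hL hρ hn)).comp (fun v => J.lam v)
  · funext x
    rw [Pi.add_apply, ← J.eq_lam (hker x)]
    abel

/-- **the cyclic step for `H³`, abstract form.** -/
theorem h84_vanCyc_alg (J : h84_Jordan ρ r χ) (hr : 0 < r)
    (hχ : χ ∈ Z1 L 𝟙T)
    (h1 : ∃ c₀ ∈ Z2 L 𝟙T, ∀ c ∈ Z2 L 𝟙T, ∃ t : k, c - t • c₀ ∈ B2 L 𝟙T)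
    (h2 : ∃ ψ ∈ Z1 L 𝟙T, cup11 (LinearMap.mul k k) 𝟙T χ ψ ∉ B2 L 𝟙T)
    (hb : ∃ m0 ∈ Z2 L ρ, m0 ∉ B2 L ρ)
    (hc : ∀ c' ∈ Z2 L 𝟙T, (fun x => c' x • J.e 0) ∈ B2 L ρ)
    (c : G × G × G → k)
    (ha : ∃ m : G × G → V, IsLC2 L m ∧ d2 ρ m = fun x => c x • J.e 0) :
    c ∈ B3 L 𝟙T := by
  have hspan := h84_span hχ h1 h2
  obtain ⟨c₀, hc₀, hgen⟩ := h1
  obtain ⟨m0, hm0, hm0B⟩ := hb
  obtain ⟨m, hmLC, hmd⟩ := ha
  rw [mem_Z2] at hm0
  -- the class of `Δ^r m0`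
  have hk0 : ∀ x, (J.Δ ^ r) (m0 x) = J.lam ((J.Δ ^ r) (m0 x)) • J.e 0 := by
    intro x
    apply J.eq_lam
    have := J.nil (m0 x)
    rwa [pow_succ', Module.End.mul_apply] at this
  have hc1Z : (fun x => J.lam ((J.Δ ^ r) (m0 x))) ∈ Z2 L 𝟙T := by
    rw [mem_Z2]
    refine ⟨?_, hm0.2.comp (fun v => J.lam ((J.Δ ^ r) v))⟩
    funext x
    apply J.smul_e0_inj
    rw [← J.d2_smul_e0, Pi.zero_apply, zero_smul]
    have h1 : (fun p => J.lam ((J.Δ ^ r) (m0 p)) • J.e 0) = fun p => (J.Δ ^ r) (m0 p) := by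
      funext p
      rw [← hk0 p]
    rw [h1, J.d2_pow, hm0.1, Pi.zero_apply, map_zero]
  have hc1B : (fun x => J.lam ((J.Δ ^ r) (m0 x))) ∉ B2 L 𝟙T := by
    intro hB
    obtain ⟨a, ha, hda⟩ := (mem_B2 L 𝟙T _).1 hB
    obtain ⟨E, hE, n, hn, hMn⟩ := h84_lift hL hρ J hr hspan m0 hm0.2
      (fun x => by rw [hm0.1, Pi.zero_apply, map_zero]) a ha
      (fun x => by rw [hk0 x, hda])
    have hEZ : E ∈ Z2 L 𝟙T := by
      rw [mem_Z2]
      refine ⟨?_, hE⟩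
      funext x
      apply J.smul_e0_inj
      rw [← J.d2_smul_e0, Pi.zero_apply, zero_smul]
      have h3 : (fun p => E p • J.e 0) = m0 - d1 ρ n := by
        rw [hMn]
        abel
      rw [h3, map_sub, hm0.1, Tools.d2_d1, sub_zero, Pi.zero_apply]
    apply hm0B
    rw [hMn]
    exact Submodule.add_mem _ (hc E hEZ) ((mem_B2 L ρ _).2 ⟨n, hn, rfl⟩)
  -- the class of `Δ^r m`
  have hk : ∀ x, (J.Δ ^ r) (m x) = J.lam ((J.Δ ^ r) (m x)) • J.e 0 := by
    intro x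
    apply J.eq_lam
    have := J.nil (m x)
    rwa [pow_succ', Module.End.mul_apply] at this
  have hc2Z : (fun x => J.lam ((J.Δ ^ r) (m x))) ∈ Z2 L 𝟙T := by
    rw [mem_Z2]
    refine ⟨?_, hmLC.comp (fun v => J.lam ((J.Δ ^ r) v))⟩
    funext x
    apply J.smul_e0_inj
    rw [← J.d2_smul_e0, Pi.zero_apply, zero_smul]
    have h1 : (fun p => J.lam ((J.Δ ^ r) (m p)) • J.e 0) = fun p => (J.Δ ^ r) (m p) := by
      funext p
      rw [← hk p]
    rw [h1, J.d2_pow, hmd, map_smul, J.pow_e0 r hr, smul_zero]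
  obtain ⟨t₁, ht₁⟩ := hgen _ hc1Z
  obtain ⟨t₂, ht₂⟩ := hgen _ hc2Z
  have ht₁ne : t₁ ≠ 0 := by
    rintro rfl
    rw [zero_smul, sub_zero] at ht₁
    exact hc1B ht₁
  have hmem := Submodule.sub_mem _ ht₂ (Submodule.smul_mem _ (t₂ / t₁) ht₁)
  obtain ⟨a, ha, hda⟩ := (mem_B2 L 𝟙T _).1 hmem
  have hda' : ∀ x, d1 𝟙T a x
      = J.lam ((J.Δ ^ r) (m x)) - (t₂ / t₁) * J.lam ((J.Δ ^ r) (m0 x)) := by
    intro x
    rw [hda]
    simp only [Pi.sub_apply, Pi.smul_apply, smul_eq_mul]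
    field_simp
    ring
  obtain ⟨E, hE, n, hn, hMn⟩ := h84_lift hL hρ J hr hspan (m - (t₂ / t₁) • m0)
    (h84_isLC2_sub hmLC (hm0.2.comp (fun v => (t₂ / t₁) • v)))
    (fun x => by
      rw [map_sub, map_smul, hm0.1, smul_zero, sub_zero, hmd, map_smul, J.e_zero, smul_zero])
    a ha
    (fun x => by
      rw [Pi.sub_apply, Pi.smul_apply, map_sub, map_smul, hk x, hk0 x, hda' x, sub_smul,
        smul_smul])
  rw [mem_B3]
  refine ⟨E, hE, ?_⟩
  funext x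
  apply J.smul_e0_inj
  rw [← J.d2_smul_e0]
  have h3 : (fun p => E p • J.e 0) = (m - (t₂ / t₁) • m0) - d1 ρ n := by
    rw [hMn]
    abel
  rw [h3, map_sub, map_sub, map_smul, hm0.1, smul_zero, sub_zero, Tools.d2_d1, sub_zero, hmd]

end H84Alg

end Fermat.Agent.PT.Loc
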