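import Mathlib

/-!
# W3-PT / PT-LOC, row LOC2-VAN-CYCABS (helper84): the regular module of a cyclic group of order `p`

`Q` a group with `E : Q ≃* Multiplicative (ZMod p)`; on `Q → ZMod p`:
* `h84_Delta E`  : `Δ f (x) = f (x * γ) - f x`, `γ` the generator with coordinate `1`;
* `h84_e E j`    : the binomial functions `x ↦ C(idx x, j)`;
* `Δ (e (j+1)) = e j` (`j + 1 < p`), `Δ (e 0) = 0`, `ker Δ` = constants, `Δ ^ p = 0`,
  `Δ` commutes with left translations.
-/

set_option autoImplicit false

namespace Fermat.Agent.PT.Loc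

section H84Mod

variable {p : ℕ} [Fact p.Prime] {Q : Type} [Group Q] (E : Q ≃* Multiplicative (ZMod p))

/-- the coordinate `Q → ZMod p`. -/
def h84_idx (x : Q) : ZMod p := Multiplicative.toAdd (E x)

lemma h84_idx_mul (x y : Q) : h84_idx E (x * y) = h84_idx E x + h84_idx E y := by
  simp [h84_idx]

lemma h84_idx_one : h84_idx E 1 = 0 := by simp [h84_idx]

lemma h84_idx_inv (x : Q) : h84_idx E x⁻¹ = - h84_idx E x := by simp [h84_idx]

lemma h84_idx_injective : Function.Injective (h84_idx E) := fun _ _ h =>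
  E.injective (Multiplicative.toAdd.injective h)

/-- the generator with coordinate `1`. -/
def h84_gen : Q := E.symm (Multiplicative.ofAdd 1)

lemma h84_idx_gen : h84_idx E (h84_gen E) = 1 := by simp [h84_idx, h84_gen]

lemma h84_idx_gen_pow (n : ℕ) : h84_idx E (h84_gen E ^ n) = n := by
  induction n with
  | zero => simp [h84_idx_one]
  | succ n ih => rw [pow_succ, h84_idx_mul, ih, h84_idx_gen]; push_cast; rfl

lemma h84_gen_pow_p : h84_gen E ^ p = 1 := by
  apply h84_idx_injective E
  rw [h84_idx_gen_pow, h84_idx_one, ZMod.natCast_self]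

lemma h84_eq_gen_pow (x : Q) : x = h84_gen E ^ (h84_idx E x).val := by
  apply h84_idx_injective E
  rw [h84_idx_gen_pow, ZMod.natCast_zmod_val]

/-- right translation by the generator. -/
def h84_R : (Q → ZMod p) →ₗ[ZMod p] (Q → ZMod p) where
  toFun f x := f (x * h84_gen E)
  map_add' f f' := by funext x; simp
  map_smul' c f := by funext x; simp

/-- `Δ f (x) = f (x γ) - f x`. -/
def h84_Delta : (Q → ZMod p) →ₗ[ZMod p] (Q → ZMod p) := h84_R E - 1

@[simp] lemma h84_R_apply (f : Q → ZMod p) (x : Q) : h84_R E f x = f (x * h84_gen E) := rfl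

@[simp] lemma h84_Delta_apply (f : Q → ZMod p) (x : Q) :
    h84_Delta E f x = f (x * h84_gen E) - f x := rfl

lemma h84_R_pow (n : ℕ) (f : Q → ZMod p) (x : Q) :
    (h84_R E ^ n) f x = f (x * h84_gen E ^ n) := by
  induction n generalizing x with
  | zero => simp
  | succ n ih =>
    rw [pow_succ', Module.End.mul_apply, h84_R_apply, ih, pow_succ', mul_assoc]

lemma h84_R_pow_p : h84_R E ^ p = 1 := by
  ext f x
  rw [h84_R_pow, h84_gen_pow_p, mul_one]
  rfl

/-- `Δ ^ p = 0`. -/
lemma h84_Delta_pow_p : h84_Delta E ^ p = 0 := by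
  have h : ((Polynomial.X : Polynomial (ZMod p)) - 1) ^ p = Polynomial.X ^ p - 1 := by
    rw [sub_pow_char, one_pow]
  have h2 := congrArg (Polynomial.aeval (h84_R E)) h
  simp only [map_sub, map_pow, Polynomial.aeval_X, map_one] at h2
  rw [h84_Delta, h2, h84_R_pow_p, sub_self]

/-- `Δ` commutes with left translations. -/
lemma h84_Delta_translate (y : Q) (f : Q → ZMod p) :
    h84_Delta E (fun x => f (y * x)) = fun x => h84_Delta E f (y * x) := by
  funext x
  simp only [h84_Delta_apply, mul_assoc]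

/-- the kernel of `Δ` consists of the constant functions. -/
lemma h84_Delta_ker (f : Q → ZMod p) (hf : h84_Delta E f = 0) (x : Q) : f x = f 1 := by
  have h1 : ∀ y, f (y * h84_gen E) = f y := fun y => by
    have := congrFun hf y
    simp only [h84_Delta_apply, Pi.zero_apply] at this
    exact sub_eq_zero.1 this
  have h2 : ∀ n : ℕ, f (h84_gen E ^ n) = f 1 := by
    intro n
    induction n with
    | zero => simp
    | succ n ih => rw [pow_succ, h1, ih]
  rw [h84_eq_gen_pow E x]
  exact h2 _

/-- the binomial functions. -/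
def h84_e (j : ℕ) : Q → ZMod p := fun x => ((Nat.choose (h84_idx E x).val j : ℕ) : ZMod p)

lemma h84_e_zero : h84_e E 0 = fun _ => 1 := by
  funext x
  simp [h84_e]

lemma h84_e_one (x : Q) : h84_e E 1 x = h84_idx E x := by
  simp [h84_e]

lemma h84_choose_succ (y : ZMod p) (j : ℕ) (hj : j + 1 < p) :
    (((y + 1).val.choose (j + 1) : ℕ) : ZMod p)
      = ((y.val.choose (j + 1) : ℕ) : ZMod p) + ((y.val.choose j : ℕ) : ZMod p) := by
  have hp : p.Prime := Fact.out
  have hlt : y.val < p := ZMod.val_lt y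
  rw [ZMod.val_add, ZMod.val_one]
  by_cases h : y.val + 1 < p
  · rw [Nat.mod_eq_of_lt h, Nat.choose_succ_succ]
    push_cast
    ring
  · have h1 : y.val + 1 = p := by omega
    rw [h1, Nat.mod_self, Nat.choose_zero_succ, Nat.cast_zero]
    have h2 : (((y.val + 1).choose (j + 1) : ℕ) : ZMod p) = 0 := by
      rw [h1, ZMod.natCast_eq_zero_iff]
      exact hp.dvd_choose_self (Nat.succ_ne_zero j) hj
    rw [Nat.choose_succ_succ] at h2
    push_cast at h2
    rw [← h2]
    ring

lemma h84_Delta_e_zero : h84_Delta E (h84_e E 0) = 0 := by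
  funext x
  simp [h84_e]

lemma h84_Delta_e_succ (j : ℕ) (hj : j + 1 < p) : h84_Delta E (h84_e E (j + 1)) = h84_e E j := by
  funext x
  simp only [h84_Delta_apply, h84_e, h84_idx_mul, h84_idx_gen]
  rw [h84_choose_succ _ j hj]
  ring

end H84Mod

end Fermat.Agent.PT.Loc
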