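import Fermat.Agent.PT.Loc.Top
import Fermat.Agent.PT.Shap.SecVan
import Fermat.Agent.PT.Loc.H84VanCycAlg
import Fermat.Agent.PT.Loc.H84VanCycMod

/-!
# W3-PT / PT-LOC, row LOC2-VAN-CYCABS (helper84): `VanCycAbs`

`theorem h84_vanCycAbs : VanCycAbs` — the abstract cyclic step for the vanishing of `H³`.
The module is `G ⧸ H → ZMod p` (one-group Shapiro of PT-SHAP), the Jordan data are the
difference operator and the binomial functions of `H84VanCycMod.lean`, the induction is
`H84VanCycAlg.lean`.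
-/

set_option autoImplicit false

open scoped Classical

noncomputable section

namespace Fermat.Agent.PT.Loc

open Fermat.Agent.PT Fermat.Agent.PT.Shap

section H84Asm

variable {p : ℕ} [Fact p.Prime] {G : Type} [Group G] (H : Subgroup G) [H.Normal]
variable (E : (G ⧸ H) ≃* Multiplicative (ZMod p))

lemma h84_smul_eq_mul (g : G) (x : G ⧸ H) : g • x = (QuotientGroup.mk g : G ⧸ H) * x := by
  induction x using QuotientGroup.induction_on with
  | H a => rfl

/-- the character of `G` with kernel `H`. -/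
def h84_chi (g : G) : ZMod p := h84_idx E (QuotientGroup.mk g : G ⧸ H)

lemma h84_chi_mul (g h : G) : h84_chi H E (g * h) = h84_chi H E g + h84_chi H E h := by
  simp only [h84_chi, QuotientGroup.mk_mul, h84_idx_mul]

lemma h84_chi_of_mem {h : G} (hh : h ∈ H) : h84_chi H E h = 0 := by
  have : (QuotientGroup.mk h : G ⧸ H) = 1 := (QuotientGroup.eq_one_iff h).2 hh
  simp only [h84_chi, this, h84_idx_one]

/-- the Jordan data on `G ⧸ H → ZMod p`. -/
def h84_jordan :
    h84_Jordan (h56s_ind (X := G ⧸ H) (Representation.trivial (ZMod p) G (ZMod p))) (p - 1)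
      (h84_chi H E) where
  Δ := h84_Delta E
  e := h84_e E
  lam := LinearMap.proj 1
  comm g f := by
    funext x
    simp only [h84_Delta_apply, h56s_ind_apply, Representation.trivial_apply, h84_smul_eq_mul,
      mul_assoc]
  e_zero := h84_Delta_e_zero E
  e_succ j hj := h84_Delta_e_succ E j (by omega)
  inv_zero g := by
    funext x
    simp [h84_e]
  inv_one g := by
    funext x
    simp only [h56s_ind_apply, Representation.trivial_apply, h84_e_one, Pi.sub_apply,
      Pi.smul_apply, h84_smul_eq_mul, h84_idx_mul, h84_e_zero, smul_eq_mul, mul_one, h84_chi,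
      QuotientGroup.mk_inv, h84_idx_inv]
    ring
  ker f hf := by
    funext x
    simp only [LinearMap.proj_apply, Pi.smul_apply, h84_e_zero, smul_eq_mul, mul_one]
    exact h84_Delta_ker E f hf x
  lam_zero := by simp [h84_e]
  nil f := by
    have hp : p - 1 + 1 = p := by
      have := (Fact.out : p.Prime).two_le
      omega
    rw [hp, h84_Delta_pow_p]
    rfl

end H84Asm

/-- **LOC2-VAN-CYCABS**: the abstract cyclic step for the vanishing of `H³`. -/
theorem h84_vanCycAbs : VanCycAbs := by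
  intro p _ G _ L hL H hHn hHo hidx h1 h2 h3 h4 c hc hres
  have := hHn
  have hp2 : 2 ≤ p := (Fact.out : p.Prime).two_le
  -- the coordinate
  have hcard : Nat.card (G ⧸ H) = p := hidx
  have : IsCyclic (G ⧸ H) := isCyclic_of_prime_card hcard
  let E : (G ⧸ H) ≃* Multiplicative (ZMod p) :=
    (zmodCyclicMulEquiv (inferInstance : IsCyclic (G ⧸ H))).symm.trans
      (AddEquiv.toMultiplicative (ZMod.ringEquivCongr hcard).toAddEquiv)
  obtain ⟨N₀, hN₀, hle⟩ := hHo
  -- the character
  have hχZ : h84_chi H E ∈ Z1 L (Representation.trivial (ZMod p) G (ZMod p)) := by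
    rw [mem_Z1]
    refine ⟨?_, N₀, hN₀, fun g s hs => ?_⟩
    · funext ⟨g, h⟩
      simp only [d1_apply, Representation.trivial_apply, h84_chi_mul, Pi.zero_apply]
      ring
    · rw [h84_chi_mul, h84_chi_of_mem H E (hle hs), add_zero]
  have hχne : h84_chi H E ≠ 0 := by
    intro h0
    obtain ⟨g, hg⟩ := QuotientGroup.mk_surjective (s := H) (h84_gen E)
    have := congrFun h0 g
    rw [h84_chi, hg, h84_idx_gen, Pi.zero_apply] at this
    exact one_ne_zero this
  obtain ⟨ψ, hψ, hne⟩ := h2 _ hχZ (fun h hh => h84_chi_of_mem H E hh) hχne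
  -- the module
  set τ : Representation (ZMod p) G (ZMod p) := Representation.trivial (ZMod p) G (ZMod p)
    with hτ
  have hτH : resRep τ H.subtype = Representation.trivial (ZMod p) ↥H (ZMod p) := rfl
  have hρ : IsDisc L (h56s_ind (X := G ⧸ H) τ) := by
    intro f
    refine ⟨N₀, hN₀, fun s hs => ?_⟩
    funext x
    have : (QuotientGroup.mk s⁻¹ : G ⧸ H) = 1 :=
      (QuotientGroup.eq_one_iff _).2 (H.inv_mem (hle hs))
    simp only [h56s_ind_apply, hτ, Representation.trivial_apply, h84_smul_eq_mul, this, one_mul]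
  have hHo' : L.IsOpen H := ⟨N₀, hN₀, hle⟩
  obtain ⟨s⟩ := h56s_Sec.nonempty G H
  have he0 : ∀ (X : Type) (f : X → ZMod p),
      (fun x => f x • (h84_jordan H E).e 0) = fun x (_ : G ⧸ H) => f x := by
    intro X f
    funext x y
    simp [h84_jordan, h84_e]
  refine h84_vanCyc_alg hL hρ (h84_jordan H E) (by omega) hχZ h1 ⟨ψ, hψ, hne⟩ ?_ ?_ c ?_
  · -- a non-trivial class of the induced module
    obtain ⟨cH, hcH, hcHB⟩ := h3
    rw [← hτH] at hcH hcHB
    refine ⟨s.exU2 τ cH, s.exU2_mem_Z2 τ hL hHo' hcH, fun hB => hcHB ?_⟩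
    obtain ⟨n, hn, hdn⟩ := (mem_B2 L _ _).1 hB
    rw [mem_B2]
    refine ⟨s.shU1 n, s.isLC1_shU n hn, ?_⟩
    rw [← s.shU_d1, hdn, s.shU_exU2]
  · -- classes inflated from `k` die
    intro c' hc'
    rw [he0]
    have hf : (fun x (_ : G ⧸ H) => c' x) ∈ Z2 L (h56s_ind (X := G ⧸ H) τ) := by
      rw [mem_Z2] at hc' ⊢
      refine ⟨?_, ?_⟩
      · funext ⟨g, h, j⟩
        funext x
        have := congrFun hc'.1 (g, h, j)
        simpa [hτ] using this
      · obtain ⟨N, hN, hcN⟩ := hc'.2
        exact ⟨N, hN, fun g g' s s' hs hs' => by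
          funext x
          exact hcN g g' s s' hs hs'⟩
    have h5 := s.sub_exU_shU2_mem_B2 τ hL hHo' hf
    have h6 : s.shU2 (fun x (_ : G ⧸ H) => c' x)
        ∈ B2 (L.comap H.subtype) (resRep τ H.subtype) := by
      rw [hτH]
      exact h4 c' hc'
    have h7 := s.exU2_mem_B2 τ hL hHo' h6
    have := Submodule.add_mem _ h5 h7
    rwa [sub_add_cancel] at this
  · -- Shapiro in degree 3
    rw [he0]
    have hf : (fun x (_ : G ⧸ H) => c x) ∈ Z3 L (h56s_ind (X := G ⧸ H) τ) := by
      rw [mem_Z3] at hc ⊢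
      refine ⟨?_, ?_⟩
      · funext ⟨g, h, j, l⟩
        funext x
        have := congrFun hc.1 (g, h, j, l)
        simpa [hτ] using this
      · obtain ⟨N, hN, hcN⟩ := hc.2
        exact ⟨N, hN, fun g g' g'' s s' s'' hs hs' hs'' => by
          funext x
          exact hcN g g' g'' s s' s'' hs hs' hs''⟩
    have h6 : s.shU3 (fun x (_ : G ⧸ H) => c x)
        ∈ B3 (L.comap H.subtype) (resRep τ H.subtype) := by
      rw [hτH]
      exact hres
    rw [mem_B3] at h6
    obtain ⟨b, hb, hbf⟩ := h6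
    rw [mem_Z3] at hf
    refine ⟨s.exU2 τ b - s.god.hh3 (fun x (_ : G ⧸ H) => c x),
      h56s_isLC2_sub (s.isLC2_exU τ hL hHo' b hb) (s.isLC2_hh3 hL hHo' _ hf.2), ?_⟩
    have h3' := s.homU3 τ (fun x (_ : G ⧸ H) => c x)
    rw [hf.1, h56s_Sec.hh4_zero, sub_zero] at h3'
    rw [map_sub, s.exU_d2, hbf]
    exact h3'.symm

end Fermat.Agent.PT.Loc
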