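import Mathlib
import Fermat.Agent.PT.Loc.H33NIIface

/-!
# PT-LOC, block NI, leaf NI-COH (helper34, hedge): the coordinate lattice of a normal basis

Setting: a field `L` with a valuation `v : L → ℝ≥0`, an automorphism `σ` with `σ ^ ℓ = 1`
preserving `v`, a normal basis `σ^i β` with trace-dual family `δ i` (`H34NB`).

* `h34c_co i x = T (δ i * x)` : the `i`-th coordinate of `x` in the normal basis;
* `h34c_M s x` : all coordinates of `x` have valuation `≤ s` (a `σ`-stable lattice);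
* `h34c_M_mul` : `M s · M t ⊆ M (C s t)`;
* `h34c_exists_trace` : `σ m = m`, `m ∈ M s` ⟹ `m = T m'` with `m' ∈ M s`;
* `h34c_exists_cob` : `m ∈ M s`, `T m ∈ M t` ⟹ `m ≡ σ m' - m'` mod `M t` with `m' ∈ M s`.
-/

set_option autoImplicit false

open Finset

open scoped NNReal

namespace Fermat.Agent.PT.Loc

section Coord

variable {L : Type} [Field L]

theorem h34c_pow_succ_apply (σ : L ≃+* L) (i : ℕ) (x : L) :
    (σ ^ (i + 1)) x = σ ((σ ^ i) x) := by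
  rw [pow_succ']
  rfl

theorem h34c_pow_succ_apply' (σ : L ≃+* L) (i : ℕ) (x : L) :
    (σ ^ (i + 1)) x = (σ ^ i) (σ x) := by
  rw [pow_succ]
  rfl

theorem h34c_pow_zero_apply (σ : L ≃+* L) (x : L) : (σ ^ 0) x = x := by
  rw [pow_zero]
  rfl

theorem h34c_pow_fixed (σ : L ≃+* L) {c : L} (hc : σ c = c) (i : ℕ) : (σ ^ i) c = c := by
  induction i with
  | zero => exact h34c_pow_zero_apply σ c
  | succ i ih => rw [h34c_pow_succ_apply, ih, hc]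

theorem h34c_v_pow (v : Valuation L ℝ≥0) (σ : L ≃+* L) (hvσ : ∀ x, v (σ x) = v x) (i : ℕ)
    (x : L) : v ((σ ^ i) x) = v x := by
  induction i with
  | zero => rw [h34c_pow_zero_apply]
  | succ i ih => rw [h34c_pow_succ_apply, hvσ, ih]

/-! ### The trace `T` -/

theorem h34c_T_zero (σ : L ≃+* L) (ℓ : ℕ) : h33n_T σ ℓ 0 = 0 := by
  unfold h33n_T
  simp

theorem h34c_T_add (σ : L ≃+* L) (ℓ : ℕ) (x y : L) :
    h33n_T σ ℓ (x + y) = h33n_T σ ℓ x + h33n_T σ ℓ y := by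
  unfold h33n_T
  rw [← Finset.sum_add_distrib]
  exact Finset.sum_congr rfl fun i _ => map_add _ _ _

theorem h34c_T_neg (σ : L ≃+* L) (ℓ : ℕ) (x : L) : h33n_T σ ℓ (-x) = -h33n_T σ ℓ x := by
  unfold h33n_T
  rw [← Finset.sum_neg_distrib]
  exact Finset.sum_congr rfl fun i _ => map_neg _ _

theorem h34c_T_sub (σ : L ≃+* L) (ℓ : ℕ) (x y : L) :
    h33n_T σ ℓ (x - y) = h33n_T σ ℓ x - h33n_T σ ℓ y := by
  rw [sub_eq_add_neg, h34c_T_add, h34c_T_neg, ← sub_eq_add_neg]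

theorem h34c_T_sum (σ : L ≃+* L) (ℓ : ℕ) {ι : Type*} (s : Finset ι) (f : ι → L) :
    h33n_T σ ℓ (∑ j ∈ s, f j) = ∑ j ∈ s, h33n_T σ ℓ (f j) := by
  classical
  induction s using Finset.induction_on with
  | empty => simp [h34c_T_zero]
  | insert a s ha ih => rw [Finset.sum_insert ha, Finset.sum_insert ha, h34c_T_add, ih]

theorem h34c_T_mul_fixed (σ : L ≃+* L) (ℓ : ℕ) {c : L} (hc : σ c = c) (y : L) :
    h33n_T σ ℓ (c * y) = c * h33n_T σ ℓ y := by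
  unfold h33n_T
  rw [Finset.mul_sum]
  refine Finset.sum_congr rfl fun i _ => ?_
  rw [map_mul, h34c_pow_fixed σ hc]

theorem h34c_T_comp (σ : L ≃+* L) (ℓ : ℕ) (hσℓ : σ ^ ℓ = 1) (y : L) :
    h33n_T σ ℓ (σ y) = h33n_T σ ℓ y := by
  unfold h33n_T
  have h1 : ∑ i ∈ range ℓ, (σ ^ i) (σ y) = ∑ i ∈ range ℓ, (σ ^ (i + 1)) y :=
    Finset.sum_congr rfl fun i _ => (h34c_pow_succ_apply' σ i y).symm
  have h2 := Finset.sum_range_succ' (fun i => (σ ^ i) y) ℓ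
  have h3 := Finset.sum_range_succ (fun i => (σ ^ i) y) ℓ
  have h4 : (σ ^ ℓ) y = (σ ^ 0) y := by
    rw [hσℓ, pow_zero]
  rw [h1]
  have h5 : ∑ i ∈ range ℓ, (σ ^ (i + 1)) y + (σ ^ 0) y
      = ∑ i ∈ range ℓ, (σ ^ i) y + (σ ^ ℓ) y := by rw [← h2, ← h3]
  rw [h4] at h5
  exact add_right_cancel h5

theorem h34c_T_fixed (σ : L ≃+* L) (ℓ : ℕ) (hσℓ : σ ^ ℓ = 1) (y : L) :
    σ (h33n_T σ ℓ y) = h33n_T σ ℓ y := by
  have h1 : σ (h33n_T σ ℓ y) = h33n_T σ ℓ (σ y) := by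
    unfold h33n_T
    rw [map_sum]
    refine Finset.sum_congr rfl fun i _ => ?_
    rw [← h34c_pow_succ_apply, h34c_pow_succ_apply']
  rw [h1, h34c_T_comp σ ℓ hσℓ]

theorem h34c_T_pow_comp (σ : L ≃+* L) (ℓ : ℕ) (hσℓ : σ ^ ℓ = 1) (j : ℕ) (y : L) :
    h33n_T σ ℓ ((σ ^ j) y) = h33n_T σ ℓ y := by
  induction j with
  | zero => rw [h34c_pow_zero_apply]
  | succ j ih => rw [h34c_pow_succ_apply, h34c_T_comp σ ℓ hσℓ, ih]

theorem h34c_v_T_le (v : Valuation L ℝ≥0) (σ : L ≃+* L) (hvσ : ∀ x, v (σ x) = v x) (ℓ : ℕ)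
    (y : L) : v (h33n_T σ ℓ y) ≤ v y := by
  unfold h33n_T
  refine Valuation.map_sum_le v fun i _ => ?_
  rw [h34c_v_pow v σ hvσ]

/-! ### Normal basis data and coordinates -/

/-- Normal basis data: `σ ^ ℓ = 1`, `σ` preserves `v`, `σ^i β` is a basis with trace-dual family
`δ i`. -/
structure H34NB (v : Valuation L ℝ≥0) (σ : L ≃+* L) (ℓ : ℕ) (β : L) (δ : ℕ → L) : Prop where
  hℓ : 0 < ℓ
  hσℓ : σ ^ ℓ = 1
  hvσ : ∀ x, v (σ x) = v x
  hdual : ∀ i, i < ℓ → ∀ j, j < ℓ → h33n_T σ ℓ (δ i * (σ ^ j) β) = if i = j then 1 else 0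
  hrep : ∀ x : L, x = ∑ i ∈ range ℓ, h33n_T σ ℓ (δ i * x) * (σ ^ i) β

/-- The `i`-th coordinate of `x` with respect to the normal basis. -/
def h34c_co (σ : L ≃+* L) (ℓ : ℕ) (δ : ℕ → L) (i : ℕ) (x : L) : L := h33n_T σ ℓ (δ i * x)

/-- The lattice of elements all of whose coordinates have valuation `≤ s`. -/
def h34c_M (v : Valuation L ℝ≥0) (σ : L ≃+* L) (ℓ : ℕ) (δ : ℕ → L) (s : ℝ≥0) (x : L) : Prop :=
  ∀ i, i < ℓ → v (h34c_co σ ℓ δ i x) ≤ s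

variable {v : Valuation L ℝ≥0} {σ : L ≃+* L} {ℓ : ℕ} {β : L} {δ : ℕ → L}

theorem h34c_co_zero (i : ℕ) : h34c_co σ ℓ δ i 0 = 0 := by
  unfold h34c_co
  rw [mul_zero, h34c_T_zero]

theorem h34c_co_add (i : ℕ) (x y : L) :
    h34c_co σ ℓ δ i (x + y) = h34c_co σ ℓ δ i x + h34c_co σ ℓ δ i y := by
  unfold h34c_co
  rw [mul_add, h34c_T_add]

theorem h34c_co_neg (i : ℕ) (x : L) : h34c_co σ ℓ δ i (-x) = -h34c_co σ ℓ δ i x := by
  unfold h34c_co
  rw [mul_neg, h34c_T_neg]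

theorem h34c_co_sub (i : ℕ) (x y : L) :
    h34c_co σ ℓ δ i (x - y) = h34c_co σ ℓ δ i x - h34c_co σ ℓ δ i y := by
  unfold h34c_co
  rw [mul_sub, h34c_T_sub]

theorem h34c_co_sum (i : ℕ) {ι : Type*} (s : Finset ι) (f : ι → L) :
    h34c_co σ ℓ δ i (∑ j ∈ s, f j) = ∑ j ∈ s, h34c_co σ ℓ δ i (f j) := by
  unfold h34c_co
  rw [Finset.mul_sum, h34c_T_sum]

theorem h34c_co_mul_fixed {c : L} (hc : σ c = c) (i : ℕ) (x : L) :
    h34c_co σ ℓ δ i (c * x) = c * h34c_co σ ℓ δ i x := by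
  unfold h34c_co
  rw [mul_left_comm, h34c_T_mul_fixed σ ℓ hc]

theorem h34c_co_fixed (h : H34NB v σ ℓ β δ) (i : ℕ) (x : L) :
    σ (h34c_co σ ℓ δ i x) = h34c_co σ ℓ δ i x :=
  h34c_T_fixed σ ℓ h.hσℓ _

theorem h34c_co_basis (h : H34NB v σ ℓ β δ) {i j : ℕ} (hi : i < ℓ) (hj : j < ℓ) :
    h34c_co σ ℓ δ i ((σ ^ j) β) = if i = j then 1 else 0 :=
  h.hdual i hi j hj

theorem h34c_rep (h : H34NB v σ ℓ β δ) (x : L) :
    x = ∑ i ∈ range ℓ, h34c_co σ ℓ δ i x * (σ ^ i) β :=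
  h.hrep x

/-- Coordinates of a combination with `σ`-fixed coefficients. -/
theorem h34c_co_comb (h : H34NB v σ ℓ β δ) (c : ℕ → L) (hc : ∀ j, σ (c j) = c j) {i : ℕ}
    (hi : i < ℓ) : h34c_co σ ℓ δ i (∑ j ∈ range ℓ, c j * (σ ^ j) β) = c i := by
  rw [h34c_co_sum]
  have h1 : ∀ j ∈ range ℓ, h34c_co σ ℓ δ i (c j * (σ ^ j) β) = if i = j then c j else 0 := by
    intro j hj
    rw [h34c_co_mul_fixed (hc j), h34c_co_basis h hi (Finset.mem_range.mp hj)]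
    split_ifs <;> simp
  rw [Finset.sum_congr rfl h1, Finset.sum_ite_eq (range ℓ) i c, if_pos (Finset.mem_range.mpr hi)]

/-- The coordinates of a basis vector `σ^k β`, any `k`, are integral. -/
theorem h34c_v_co_basis_le (h : H34NB v σ ℓ β δ) {i : ℕ} (hi : i < ℓ) (k : ℕ) :
    v (h34c_co σ ℓ δ i ((σ ^ k) β)) ≤ 1 := by
  have hk : (σ ^ k) β = (σ ^ (k % ℓ)) β := by
    conv_lhs => rw [← Nat.div_add_mod k ℓ, pow_add, pow_mul, h.hσℓ, one_pow, one_mul]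
  rw [hk, h34c_co_basis h hi (Nat.mod_lt k h.hℓ)]
  split_ifs <;> simp

/-! ### The lattices `M s` -/

theorem h34c_M_zero (s : ℝ≥0) : h34c_M v σ ℓ δ s 0 := by
  intro i _
  rw [h34c_co_zero, map_zero]
  exact zero_le

theorem h34c_M_mono {s t : ℝ≥0} (hst : s ≤ t) {x : L} (hx : h34c_M v σ ℓ δ s x) :
    h34c_M v σ ℓ δ t x := fun i hi => (hx i hi).trans hst

theorem h34c_M_add {s : ℝ≥0} {x y : L} (hx : h34c_M v σ ℓ δ s x) (hy : h34c_M v σ ℓ δ s y) :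
    h34c_M v σ ℓ δ s (x + y) := by
  intro i hi
  rw [h34c_co_add]
  exact (v.map_add _ _).trans (max_le (hx i hi) (hy i hi))

theorem h34c_M_neg {s : ℝ≥0} {x : L} (hx : h34c_M v σ ℓ δ s x) : h34c_M v σ ℓ δ s (-x) := by
  intro i hi
  rw [h34c_co_neg, Valuation.map_neg]
  exact hx i hi

theorem h34c_M_sub {s : ℝ≥0} {x y : L} (hx : h34c_M v σ ℓ δ s x) (hy : h34c_M v σ ℓ δ s y) :
    h34c_M v σ ℓ δ s (x - y) := by
  rw [sub_eq_add_neg]
  exact h34c_M_add hx (h34c_M_neg hy)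

theorem h34c_M_sum {s : ℝ≥0} {ι : Type*} (t : Finset ι) (f : ι → L)
    (hf : ∀ j ∈ t, h34c_M v σ ℓ δ s (f j)) : h34c_M v σ ℓ δ s (∑ j ∈ t, f j) := by
  intro i hi
  rw [h34c_co_sum]
  exact Valuation.map_sum_le v fun j hj => hf j hj i hi

/-- `M s` is stable under multiplication by `σ`-fixed elements of valuation `≤ 1`. -/
theorem h34c_M_mul_fixed {s t : ℝ≥0} {c x : L} (hc : σ c = c) (hvc : v c ≤ t)
    (hx : h34c_M v σ ℓ δ s x) : h34c_M v σ ℓ δ (t * s) (c * x) := by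
  intro i hi
  rw [h34c_co_mul_fixed hc, map_mul]
  exact mul_le_mul' hvc (hx i hi)

/-- A combination with small `σ`-fixed coefficients lies in `M s`. -/
theorem h34c_M_comb (h : H34NB v σ ℓ β δ) {s : ℝ≥0} (c : ℕ → L) (hc : ∀ j, σ (c j) = c j)
    (hv : ∀ j, j < ℓ → v (c j) ≤ s) : h34c_M v σ ℓ δ s (∑ j ∈ range ℓ, c j * (σ ^ j) β) := by
  intro i hi
  rw [h34c_co_comb h c hc hi]
  exact hv i hi

/-- The bound `D = ∑ v (δ i)`: the ball of radius `t` lies in `M (D t)`. -/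
theorem h34c_M_of_v_le (h : H34NB v σ ℓ β δ) {t : ℝ≥0} {x : L} (hx : v x ≤ t) :
    h34c_M v σ ℓ δ ((∑ i ∈ range ℓ, v (δ i)) * t) x := by
  intro i hi
  unfold h34c_co
  refine (h34c_v_T_le v σ h.hvσ ℓ _).trans ?_
  rw [map_mul]
  refine mul_le_mul' ?_ hx
  exact Finset.single_le_sum (f := fun i => v (δ i)) (fun _ _ => zero_le)
    (Finset.mem_range.mpr hi)

/-- Elements of `M s` have valuation `≤ s * v β`. -/
theorem h34c_v_le_of_M (h : H34NB v σ ℓ β δ) {s : ℝ≥0} {x : L} (hx : h34c_M v σ ℓ δ s x) :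
    v x ≤ s * v β := by
  conv_lhs => rw [h34c_rep h x]
  refine Valuation.map_sum_le v fun i hi => ?_
  rw [map_mul, h34c_v_pow v σ h.hvσ]
  exact mul_le_mul' (hx i (Finset.mem_range.mp hi)) le_rfl

/-- `M s` is `σ`-stable. -/
theorem h34c_M_sigma (h : H34NB v σ ℓ β δ) {s : ℝ≥0} {x : L} (hx : h34c_M v σ ℓ δ s x) :
    h34c_M v σ ℓ δ s (σ x) := by
  intro i hi
  have h1 : σ x = ∑ j ∈ range ℓ, h34c_co σ ℓ δ j x * (σ ^ (j + 1)) β := by
    conv_lhs => rw [h34c_rep h x]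
    rw [map_sum]
    refine Finset.sum_congr rfl fun j _ => ?_
    rw [map_mul, h34c_co_fixed h, h34c_pow_succ_apply]
  rw [h1, h34c_co_sum]
  refine Valuation.map_sum_le v fun j hj => ?_
  rw [h34c_co_mul_fixed (h34c_co_fixed h j x), map_mul]
  calc v (h34c_co σ ℓ δ j x) * v (h34c_co σ ℓ δ i ((σ ^ (j + 1)) β))
      ≤ s * 1 := mul_le_mul' (hx j (Finset.mem_range.mp hj)) (h34c_v_co_basis_le h hi _)
    _ = s := mul_one s

theorem h34c_M_sigma_pow (h : H34NB v σ ℓ β δ) {s : ℝ≥0} {x : L} (hx : h34c_M v σ ℓ δ s x)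
    (j : ℕ) : h34c_M v σ ℓ δ s ((σ ^ j) x) := by
  induction j with
  | zero => rw [h34c_pow_zero_apply]; exact hx
  | succ j ih => rw [h34c_pow_succ_apply]; exact h34c_M_sigma h ih

/-- The structure constant bound. -/
noncomputable def h34c_C (v : Valuation L ℝ≥0) (σ : L ≃+* L) (ℓ : ℕ) (β : L) (δ : ℕ → L) : ℝ≥0 :=
  ∑ i ∈ range ℓ, ∑ j ∈ range ℓ, ∑ k ∈ range ℓ,
    v (h34c_co σ ℓ δ i ((σ ^ j) β * (σ ^ k) β))

theorem h34c_le_C {i j k : ℕ} (hi : i < ℓ) (hj : j < ℓ) (hk : k < ℓ) :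
    v (h34c_co σ ℓ δ i ((σ ^ j) β * (σ ^ k) β)) ≤ h34c_C v σ ℓ β δ := by
  unfold h34c_C
  refine le_trans ?_ (Finset.single_le_sum (f := fun i => ∑ j ∈ range ℓ, ∑ k ∈ range ℓ,
    v (h34c_co σ ℓ δ i ((σ ^ j) β * (σ ^ k) β))) (fun _ _ => zero_le)
    (Finset.mem_range.mpr hi))
  refine le_trans ?_ (Finset.single_le_sum (f := fun j => ∑ k ∈ range ℓ,
    v (h34c_co σ ℓ δ i ((σ ^ j) β * (σ ^ k) β))) (fun _ _ => zero_le)
    (Finset.mem_range.mpr hj))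
  exact Finset.single_le_sum (f := fun k =>
    v (h34c_co σ ℓ δ i ((σ ^ j) β * (σ ^ k) β))) (fun _ _ => zero_le)
    (Finset.mem_range.mpr hk)

/-- `M s · M t ⊆ M (C s t)`. -/
theorem h34c_M_mul (h : H34NB v σ ℓ β δ) {s t : ℝ≥0} {x y : L} (hx : h34c_M v σ ℓ δ s x)
    (hy : h34c_M v σ ℓ δ t y) : h34c_M v σ ℓ δ (h34c_C v σ ℓ β δ * s * t) (x * y) := by
  intro i hi
  have h1 : x * y = ∑ j ∈ range ℓ, ∑ k ∈ range ℓ,
      (h34c_co σ ℓ δ j x * h34c_co σ ℓ δ k y) * ((σ ^ j) β * (σ ^ k) β) := by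
    conv_lhs => rw [h34c_rep h x, h34c_rep h y, Finset.sum_mul_sum]
    refine Finset.sum_congr rfl fun j _ => Finset.sum_congr rfl fun k _ => ?_
    ring
  rw [h1, h34c_co_sum]
  refine Valuation.map_sum_le v fun j hj => ?_
  rw [h34c_co_sum]
  refine Valuation.map_sum_le v fun k hk => ?_
  have hfix : σ (h34c_co σ ℓ δ j x * h34c_co σ ℓ δ k y)
      = h34c_co σ ℓ δ j x * h34c_co σ ℓ δ k y := by
    rw [map_mul, h34c_co_fixed h, h34c_co_fixed h]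
  rw [h34c_co_mul_fixed hfix, map_mul, map_mul]
  calc v (h34c_co σ ℓ δ j x) * v (h34c_co σ ℓ δ k y)
        * v (h34c_co σ ℓ δ i ((σ ^ j) β * (σ ^ k) β))
      ≤ s * t * h34c_C v σ ℓ β δ :=
        mul_le_mul' (mul_le_mul' (hx j (Finset.mem_range.mp hj)) (hy k (Finset.mem_range.mp hk)))
          (h34c_le_C hi (Finset.mem_range.mp hj) (Finset.mem_range.mp hk))
    _ = h34c_C v σ ℓ β δ * s * t := by ring

/-! ### Additive cohomological triviality of the lattice -/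

theorem h34c_Tbeta_mul_Tdelta (h : H34NB v σ ℓ β δ) {i : ℕ} (hi : i < ℓ) :
    h33n_T σ ℓ β * h33n_T σ ℓ (δ i) = 1 := by
  have h1 : h33n_T σ ℓ (δ i * h33n_T σ ℓ β) = 1 := by
    have h2 : δ i * h33n_T σ ℓ β = ∑ j ∈ range ℓ, δ i * (σ ^ j) β := by
      unfold h33n_T
      rw [Finset.mul_sum]
    rw [h2, h34c_T_sum]
    have h3 : ∀ j ∈ range ℓ, h33n_T σ ℓ (δ i * (σ ^ j) β) = if i = j then (1 : L) else 0 :=
      fun j hj => h.hdual i hi j (Finset.mem_range.mp hj)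
    rw [Finset.sum_congr rfl h3, Finset.sum_ite_eq (range ℓ) i (fun _ => (1 : L)),
      if_pos (Finset.mem_range.mpr hi)]
  rw [mul_comm (δ i), h34c_T_mul_fixed σ ℓ (h34c_T_fixed σ ℓ h.hσℓ β)] at h1
  exact h1

/-- The coordinates of a `σ`-fixed element are all equal to `m * T (δ i) = m / T β`. -/
theorem h34c_co_of_fixed {m : L} (hm : σ m = m) (i : ℕ) :
    h34c_co σ ℓ δ i m = m * h33n_T σ ℓ (δ i) := by
  unfold h34c_co
  rw [mul_comm, h34c_T_mul_fixed σ ℓ hm]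

/-- `Ĥ⁰` of the lattice vanishes: a `σ`-fixed element of `M s` is the trace of an element of
`M s`. -/
theorem h34c_exists_trace (h : H34NB v σ ℓ β δ) {s : ℝ≥0} {m : L} (hm : σ m = m)
    (hM : h34c_M v σ ℓ δ s m) : ∃ m', h34c_M v σ ℓ δ s m' ∧ h33n_T σ ℓ m' = m := by
  refine ⟨h34c_co σ ℓ δ 0 m * β, ?_, ?_⟩
  · intro i hi
    rw [h34c_co_mul_fixed (h34c_co_fixed h 0 m)]
    have h1 : h34c_co σ ℓ δ i β = if i = 0 then 1 else 0 := by
      have := h34c_co_basis h hi h.hℓ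
      rwa [h34c_pow_zero_apply] at this
    rw [h1, map_mul]
    split_ifs with h0
    · rw [map_one, mul_one]
      exact hM 0 h.hℓ
    · rw [map_zero, mul_zero]
      exact zero_le
  · rw [h34c_T_mul_fixed σ ℓ (h34c_co_fixed h 0 m), h34c_co_of_fixed hm, mul_assoc,
      mul_comm (h33n_T σ ℓ (δ 0)), h34c_Tbeta_mul_Tdelta h h.hℓ, mul_one]

/-- The trace in coordinates: `T m = (∑ co j m) * T β`. -/
theorem h34c_T_eq (h : H34NB v σ ℓ β δ) (m : L) :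
    h33n_T σ ℓ m = (∑ j ∈ range ℓ, h34c_co σ ℓ δ j m) * h33n_T σ ℓ β := by
  conv_lhs => rw [h34c_rep h m]
  rw [h34c_T_sum, Finset.sum_mul]
  refine Finset.sum_congr rfl fun j _ => ?_
  rw [h34c_T_mul_fixed σ ℓ (h34c_co_fixed h j m), h34c_T_pow_comp σ ℓ h.hσℓ]

/-- The coordinates of a trace: all equal to the sum of the coordinates. -/
theorem h34c_co_T (h : H34NB v σ ℓ β δ) (m : L) {i : ℕ} (hi : i < ℓ) :
    h34c_co σ ℓ δ i (h33n_T σ ℓ m) = ∑ j ∈ range ℓ, h34c_co σ ℓ δ j m := by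
  rw [h34c_co_of_fixed (h34c_T_fixed σ ℓ h.hσℓ m), h34c_T_eq h m, mul_assoc,
    h34c_Tbeta_mul_Tdelta h hi, mul_one]

/-- Abel summation identity behind `Ĥ¹ = 0`. -/
theorem h34c_abel (c X : ℕ → L) (n : ℕ) :
    ∑ i ∈ range n, (c 0 - ∑ j ∈ range (i + 1), c j) * (X (i + 1) - X i)
      = ∑ i ∈ range n, c i * X i - c 0 * X 0 + (c 0 - ∑ j ∈ range n, c j) * X n := by
  induction n with
  | zero => simp
  | succ n ih =>
    rw [Finset.sum_range_succ, ih, Finset.sum_range_succ (fun i => c i * X i),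
      Finset.sum_range_succ c]
    ring

/-- `Ĥ¹` of the lattice vanishes: an element of `M s` whose trace lies in `M t` is congruent
mod `M t` to `σ m' - m'` for some `m' ∈ M s`. -/
theorem h34c_exists_cob (h : H34NB v σ ℓ β δ) {s t : ℝ≥0} {m : L}
    (hM : h34c_M v σ ℓ δ s m) (hT : h34c_M v σ ℓ δ t (h33n_T σ ℓ m)) :
    ∃ m', h34c_M v σ ℓ δ s m' ∧ h34c_M v σ ℓ δ t (m - (σ m' - m')) := by
  set c : ℕ → L := fun j => h34c_co σ ℓ δ j m with hc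
  have hcfix : ∀ j, σ (c j) = c j := fun j => h34c_co_fixed h j m
  set b : ℕ → L := fun i => c 0 - ∑ j ∈ range (i + 1), c j with hb
  have hbfix : ∀ i, σ (b i) = b i := by
    intro i
    rw [hb]
    simp only [map_sub, map_sum, hcfix]
  have hvb : ∀ i, i < ℓ → v (b i) ≤ s := by
    intro i hi
    refine (Valuation.map_sub v _ _).trans (max_le (hM 0 h.hℓ) ?_)
    refine Valuation.map_sum_le v fun j hj => hM j ?_
    have := Finset.mem_range.mp hj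
    omega
  have hS : v (∑ j ∈ range ℓ, c j) ≤ t := by
    have := hT 0 h.hℓ
    rwa [h34c_co_T h m h.hℓ] at this
  refine ⟨∑ i ∈ range ℓ, b i * (σ ^ i) β, h34c_M_comb h b hbfix hvb, ?_⟩
  have h1 : σ (∑ i ∈ range ℓ, b i * (σ ^ i) β) - ∑ i ∈ range ℓ, b i * (σ ^ i) β
      = ∑ i ∈ range ℓ, b i * ((σ ^ (i + 1)) β - (σ ^ i) β) := by
    rw [map_sum, ← Finset.sum_sub_distrib]
    refine Finset.sum_congr rfl fun i _ => ?_
    rw [map_mul, hbfix, ← h34c_pow_succ_apply, mul_sub]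
  have h2 := h34c_abel c (fun i => (σ ^ i) β) ℓ
  have h3 : (σ ^ ℓ) β = (σ ^ 0) β := by rw [h.hσℓ, pow_zero]
  have h4 : m - (σ (∑ i ∈ range ℓ, b i * (σ ^ i) β) - ∑ i ∈ range ℓ, b i * (σ ^ i) β)
      = (∑ j ∈ range ℓ, c j) * β := by
    rw [h1, h2, h3, h34c_pow_zero_apply, ← h34c_rep h m]
    ring
  rw [h4]
  intro i hi
  have hSfix : σ (∑ j ∈ range ℓ, c j) = ∑ j ∈ range ℓ, c j := by
    simp only [map_sum, hcfix]
  rw [h34c_co_mul_fixed hSfix]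
  have h5 : h34c_co σ ℓ δ i β = if i = 0 then 1 else 0 := by
    have := h34c_co_basis h hi h.hℓ
    rwa [h34c_pow_zero_apply] at this
  rw [h5, map_mul]
  split_ifs with h0
  · rw [map_one, mul_one]
    exact hS
  · rw [map_zero, mul_zero]
    exact zero_le

end Coord

end Fermat.Agent.PT.Loc
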