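import Mathlib
import Fermat.Agent.PT.Loc.Iface2
import Fermat.Agent.PT.Loc.MC.H79Cyc
import Fermat.Agent.PT.Loc.H36URFrob
import Fermat.Agent.PT.Loc.H66URConj
import Fermat.Agent.PT.Loc.H34LFTeich

/-!
# W3-PT / PT-LOC, leaf LOC2-UR-H2 (helper16): `H²(Ẑ, 𝔽_p) = 0`

`h16u_urH2 : URH2`: a `2`-cocycle of `G_E` with values in `ZMod p` (trivial action) which factors
through `Gal(Kur E n / E)` is the coboundary of a `1`-cochain factoring through
`Gal(Kur E (n p) / E)`.

Proof.  Let `φ` be a Frobenius of `E` and `C i j := c (φ ^ i, φ ^ j)`, a `2`-cocycle of the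
monoid `ℕ`, `n`-periodic in the first variable.  On `ℕ` it is the coboundary of
`F i := C 0 0 - ∑_{k < i} C k 1` (`h16u_nat_cob`); periodicity of `C` gives
`F (i + n) = F i + T` with a constant `T`, hence `F (i + n p) = F i` because `p T = 0`
(`h16u_nat_per`).  So `f := F ∘ cycIdx (Kur E (n p)) φ (n p)` does the job.
-/

set_option autoImplicit false

open scoped Classical

noncomputable section

namespace Fermat.Agent.PT.Loc

/-! ## The abstract computation on `ℕ` -/

/-- The primitive of a `2`-cocycle of the monoid `ℕ`. -/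
def h16u_prim {A : Type*} [AddCommGroup A] (C : ℕ → ℕ → A) : ℕ → A
  | 0 => C 0 0
  | (i + 1) => h16u_prim C i - C i 1

theorem h16u_prim_zero {A : Type*} [AddCommGroup A] (C : ℕ → ℕ → A) :
    h16u_prim C 0 = C 0 0 := rfl

theorem h16u_prim_succ {A : Type*} [AddCommGroup A] (C : ℕ → ℕ → A) (i : ℕ) :
    h16u_prim C (i + 1) = h16u_prim C i - C i 1 := rfl

/-- A `2`-cocycle of the monoid `ℕ` (trivial action) is the coboundary of its primitive. -/
theorem h16u_nat_cob {A : Type*} [AddCommGroup A] (C : ℕ → ℕ → A)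
    (hcoc : ∀ i j k, C j k - C (i + j) k + C i (j + k) - C i j = 0) (i j : ℕ) :
    C i j = h16u_prim C j - h16u_prim C (i + j) + h16u_prim C i := by
  induction j with
  | zero =>
    have h := hcoc i 0 0
    simp only [add_zero] at h
    rw [h16u_prim_zero, add_zero]
    have h2 : C i 0 = C 0 0 := by
      rw [sub_add_cancel, sub_eq_zero] at h
      exact h.symm
    rw [h2]
    abel
  | succ j ih =>
    have h := hcoc i j 1
    rw [← add_assoc, h16u_prim_succ, h16u_prim_succ]
    have h3 : C i (j + 1) = C i j + C (i + j) 1 - C j 1 := by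
      rw [← sub_eq_zero]
      rw [← h]
      abel
    rw [h3, ih]
    abel

/-- If the cocycle is `n`-periodic then the primitive is `n`-periodic up to a constant. -/
theorem h16u_prim_shift {A : Type*} [AddCommGroup A] (C : ℕ → ℕ → A) (n : ℕ)
    (hper : ∀ i, C (i + n) 1 = C i 1) (i : ℕ) :
    h16u_prim C (i + n) = h16u_prim C i + (h16u_prim C n - h16u_prim C 0) := by
  induction i with
  | zero => rw [zero_add]; abel
  | succ i ih =>
    have e : i + 1 + n = (i + n) + 1 := by omega
    rw [e, h16u_prim_succ, h16u_prim_succ, ih, hper]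
    abel

theorem h16u_prim_shift_mul {A : Type*} [AddCommGroup A] (C : ℕ → ℕ → A) (n : ℕ)
    (hper : ∀ i, C (i + n) 1 = C i 1) (i k : ℕ) :
    h16u_prim C (i + n * k) = h16u_prim C i + k • (h16u_prim C n - h16u_prim C 0) := by
  induction k with
  | zero => simp
  | succ k ih =>
    have e : i + n * (k + 1) = (i + n * k) + n := by ring
    rw [e, h16u_prim_shift C n hper, ih, succ_nsmul]
    abel

/-- If moreover `p` kills `A`, the primitive is `n p`-periodic. -/
theorem h16u_nat_per {A : Type*} [AddCommGroup A] (C : ℕ → ℕ → A) (n p : ℕ)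
    (hpA : ∀ a : A, p • a = 0) (hper : ∀ i, C (i + n) 1 = C i 1) (i : ℕ) :
    h16u_prim C (i + n * p) = h16u_prim C i := by
  rw [h16u_prim_shift_mul C n hper, hpA, add_zero]

theorem h16u_nat_per_mod {A : Type*} [AddCommGroup A] (C : ℕ → ℕ → A) (n p : ℕ)
    (hpA : ∀ a : A, p • a = 0) (hper : ∀ i, C (i + n) 1 = C i 1) (i : ℕ) :
    h16u_prim C (i % (n * p)) = h16u_prim C i := by
  have key : ∀ k r : ℕ, h16u_prim C (r + n * p * k) = h16u_prim C r := by
    intro k
    induction k with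
    | zero => intro r; simp
    | succ k ih =>
      intro r
      have e : r + n * p * (k + 1) = (r + n * p * k) + n * p := by ring
      rw [e, h16u_nat_per C n p hpA hper, ih]
  have h := key (i / (n * p)) (i % (n * p))
  rw [Nat.mod_add_div] at h
  exact h.symm

/-! ## The leaf -/

variable {q : ℕ} [Fact q.Prime]

/-- **LOC2-UR-H2**, conditional on the two `UR` leaves. -/
theorem h16u_urH2_of (hF : URFrob) (hC : URCyc) : URH2 := by
  intro q _ p _ E _ c hcoc ⟨n, hn, hinv⟩
  obtain ⟨φ, hφ⟩ := hF q E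
  have hp : 0 < p := (Fact.out : p.Prime).pos
  have hc₁ : IsCyc E (Kur E n) n φ := hC q E n φ hn hφ
  have hc₂ : IsCyc E (Kur E (n * p)) (n * p) φ := hC q E (n * p) φ (Nat.mul_pos hn hp) hφ
  have hφE : ∀ i : ℕ, φ ^ i ∈ GK E := fun i => (GK E).pow_mem hc₁.mem i
  -- the cocycle on `ℕ`
  set C : ℕ → ℕ → ZMod p := fun i j => c (φ ^ i, φ ^ j) with hCdef
  have hCcoc : ∀ i j k, C j k - C (i + j) k + C i (j + k) - C i j = 0 := by
    intro i j k
    have h := hcoc (φ ^ i) (hφE i) (φ ^ j) (hφE j) (φ ^ k) (hφE k)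
    simp only [hCdef, pow_add]
    exact h
  have hCper : ∀ i, C (i + n) 1 = C i 1 := by
    intro i
    simp only [hCdef]
    have h := hinv (φ ^ i) (hφE i) (φ ^ 1) (hφE 1) (φ ^ n) (h79c_pow_mem hc₁) 1
      (Subgroup.one_mem _)
    rw [mul_one, ← pow_add] at h
    exact h
  have hpA : ∀ a : ZMod p, p • a = 0 := by
    intro a
    rw [nsmul_eq_mul, ZMod.natCast_self, zero_mul]
  -- `c` is computed on the indices at level `n p`
  have hle : Kur E n ≤ Kur E (n * p) := by
    unfold Kur
    refine sup_le_sup_left (IntermediateField.adjoin.mono _ _ _ ?_) E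
    intro w hw
    change w ^ (resCard E ^ n - 1) = 1 at hw
    change w ^ (resCard E ^ (n * p) - 1) = 1
    have hdvd : resCard E ^ n - 1 ∣ resCard E ^ (n * p) - 1 :=
      Nat.pow_sub_one_dvd_pow_sub_one (resCard E) (Dvd.intro p rfl)
    obtain ⟨d, hd⟩ := hdvd
    rw [hd, pow_mul, hw, one_pow]
  have hGle : GK (Kur E (n * p)) ≤ GK (Kur E n) :=
    IntermediateField.fixingSubgroup_antitone hle
  have hcidx : ∀ g ∈ GK E, ∀ h ∈ GK E,
      c (g, h) = C (cycIdx (Kur E (n * p)) φ (n * p) g) (cycIdx (Kur E (n * p)) φ (n * p) h) := by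
    intro g hg h hh
    have h1 := h79c_cycIdx_mem hc₂ hg
    have h2 := h79c_cycIdx_mem hc₂ hh
    have h := hinv (φ ^ cycIdx (Kur E (n * p)) φ (n * p) g) (hφE _)
      (φ ^ cycIdx (Kur E (n * p)) φ (n * p) h) (hφE _) _ (hGle h1) _ (hGle h2)
    rw [mul_inv_cancel_left, mul_inv_cancel_left] at h
    simp only [hCdef]
    exact h
  refine ⟨fun g => h16u_prim C (cycIdx (Kur E (n * p)) φ (n * p) g), ?_, ?_⟩
  · refine ⟨Kur E (n * p), hc₂.fin, hc₂.le, fun g hg s hs => ?_⟩
    simp only
    rw [h79c_cycIdx_mul_right hc₂ hg hs]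
  · intro g hg h hh
    rw [hcidx g hg h hh, h16u_nat_cob C hCcoc]
    simp only [acob, Pi.zero_apply, zero_add]
    rw [h79c_cycIdx_mul hc₂ hg hh, h16u_nat_per_mod C n p hpA hCper]

/-- **LOC2-UR-H2** (`H²(Ẑ, 𝔽_p) = 0`), unconditionally. -/
theorem h16u_urH2 : URH2 :=
  h16u_urH2_of (h36_urFrob h34lf_lfTeich) (h66v_urCyc h34lf_lfTeich)

end Fermat.Agent.PT.Loc

end
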