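import Mathlib
import Fermat.Agent.S14.B.HerbrandIdx

/-!
# W3-PT / PT-LOC, block NI, leaf LOC-NI-HQ (helper24): abstract Herbrand quotient assembly

Pure group theory (Mathlib + `S14/B/HerbrandIdx` only).  For an abelian group `M` with an
endomorphism `s`, `s^n = 1`, stable subgroups `W ≤ U` with `[U : W] < ∞`, `W` cohomologically
trivial, `M / U ≅ ℤ` with trivial action, and `Ĥ¹(M) = 0` (Hilbert 90):
`h0 s n = [ker (s - 1) : im Nm] = n` (`h24hq_h0_eq`).  For `n = p` prime this gives the shape of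
the norm index theorem (`h24hq_extract`).
-/

set_option autoImplicit false

namespace Fermat.Agent.PT.Loc

open Fermat.Agent.S14.HQ

section Abs

variable {M : Type*} [AddCommGroup M]

/-- restriction of an endomorphism to a stable subgroup. -/
def h24hq_res (s : AddMonoid.End M) (A : AddSubgroup M) (hA : ∀ a ∈ A, s a ∈ A) :
    AddMonoid.End A :=
  AddMonoidHom.codRestrict ((s : M →+ M).comp A.subtype) A (fun a => hA a a.2)

theorem h24hq_res_coe (s : AddMonoid.End M) (A : AddSubgroup M) (hA : ∀ a ∈ A, s a ∈ A)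
    (a : A) : ((h24hq_res s A hA a : A) : M) = s (a : M) := rfl

theorem h24hq_res_subtype (s : AddMonoid.End M) (A : AddSubgroup M) (hA : ∀ a ∈ A, s a ∈ A)
    (a : A) : A.subtype (h24hq_res s A hA a) = s (A.subtype a) := rfl

theorem h24hq_res_nrm (s : AddMonoid.End M) (A : AddSubgroup M) (hA : ∀ a ∈ A, s a ∈ A)
    (n : ℕ) (a : A) : ((nrm (h24hq_res s A hA) n a : A) : M) = nrm s n (a : M) :=
  map_nrm A.subtype (h24hq_res s A hA) s (h24hq_res_subtype s A hA) n a

theorem h24hq_res_del (s : AddMonoid.End M) (A : AddSubgroup M) (hA : ∀ a ∈ A, s a ∈ A)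
    (a : A) : ((del (h24hq_res s A hA) a : A) : M) = del s (a : M) :=
  map_del A.subtype (h24hq_res s A hA) s (h24hq_res_subtype s A hA) a

theorem h24hq_res_iter (s : AddMonoid.End M) (A : AddSubgroup M) (hA : ∀ a ∈ A, s a ∈ A)
    (n : ℕ) (hs : ∀ x, (s^[n]) x = x) (a : A) : ((h24hq_res s A hA)^[n]) a = a := by
  apply Subtype.ext
  have := iterate_semiconj A.subtype (h24hq_res s A hA) s (h24hq_res_subtype s A hA) n a
  exact this.trans (hs _)

/-- `Ĥ⁰` of a stable subgroup is trivial if every fixed element is a norm. -/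
theorem h24hq_h0_res_eq_one (s : AddMonoid.End M) (n : ℕ) (A : AddSubgroup M)
    (hA : ∀ a ∈ A, s a ∈ A) (h : ∀ x ∈ A, s x = x → ∃ y ∈ A, nrm s n y = x) :
    h0 (h24hq_res s A hA) n = 1 := by
  rw [h0_def, AddSubgroup.relIndex_eq_one]
  intro x hx
  have hx1 : del (h24hq_res s A hA) x = 0 := hx
  have hx2 : del s (x : M) = 0 := by
    rw [← h24hq_res_del s A hA x, hx1]
    rfl
  have hx3 : s (x : M) = (x : M) := by
    rw [del_apply] at hx2
    exact sub_eq_zero.mp hx2
  obtain ⟨y, hy, hyx⟩ := h x x.2 hx3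
  refine ⟨⟨y, hy⟩, Subtype.ext ?_⟩
  rw [h24hq_res_nrm]
  exact hyx

/-- `Ĥ¹` of a stable subgroup is trivial if every element of norm `0` is of the form
`s y - y`. -/
theorem h24hq_h1_res_eq_one (s : AddMonoid.End M) (n : ℕ) (A : AddSubgroup M)
    (hA : ∀ a ∈ A, s a ∈ A) (h : ∀ x ∈ A, nrm s n x = 0 → ∃ y ∈ A, s y - y = x) :
    h1 (h24hq_res s A hA) n = 1 := by
  rw [h1_def, AddSubgroup.relIndex_eq_one]
  intro x hx
  have hx1 : nrm (h24hq_res s A hA) n x = 0 := hx
  have hx2 : nrm s n (x : M) = 0 := by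
    rw [← h24hq_res_nrm s A hA n x, hx1]
    rfl
  obtain ⟨y, hy, hyx⟩ := h x x.2 hx2
  refine ⟨⟨y, hy⟩, Subtype.ext ?_⟩
  rw [h24hq_res_del, del_apply]
  exact hyx

theorem h24hq_h1_eq_one (s : AddMonoid.End M) (n : ℕ)
    (h : ∀ x, nrm s n x = 0 → ∃ y, s y - y = x) : h1 s n = 1 := by
  rw [h1_def, AddSubgroup.relIndex_eq_one]
  intro x hx
  obtain ⟨y, hy⟩ := h x hx
  exact ⟨y, by rw [del_apply]; exact hy⟩

/-- The Herbrand quotient assembly: `h0 s n = n`. -/
theorem h24hq_h0_eq (s : AddMonoid.End M) (n : ℕ) (hn : n ≠ 0) (hs : ∀ x, (s^[n]) x = x)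
    (W U : AddSubgroup M) (hW : ∀ a ∈ W, s a ∈ W) (hU : ∀ a ∈ U, s a ∈ U) (hWU : W ≤ U)
    (hidx : W.relIndex U ≠ 0)
    (hW0 : ∀ x ∈ W, s x = x → ∃ y ∈ W, nrm s n y = x)
    (hW1 : ∀ x ∈ W, nrm s n x = 0 → ∃ y ∈ W, s y - y = x)
    (ord : M →+ ℤ) (hsurj : Function.Surjective ord) (hker : ord.ker = U)
    (hords : ∀ x, ord (s x) = ord x)
    (h90 : ∀ x, nrm s n x = 0 → ∃ y, s y - y = x) :
    h0 s n = n := by
  -- (1) `W` has Herbrand quotient `1`
  have hqW : IsHQ (h24hq_res s W hW) n 1 := by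
    have := hq_of_eq (h24hq_h0_res_eq_one s n W hW hW0) (h24hq_h1_res_eq_one s n W hW hW1)
      one_ne_zero one_ne_zero
    simpa using this
  -- (2) so does `U`
  have hqU : IsHQ (h24hq_res s U hU) n 1 := by
    refine (hq_iff_of_finiteIndex (φ := AddSubgroup.inclusion hWU)
      (sA := h24hq_res s W hW) (sB := h24hq_res s U hU)
      (AddSubgroup.inclusion_injective hWU) ?_ (h24hq_res_iter s U hU n hs) ?_).mp hqW
    · rw [AddSubgroup.inclusion_range]
      exact hidx
    · intro a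
      rfl
  -- (3) `M / U = ℤ`
  have hqM : IsHQ s n ((1 : ℚ) * (n : ℚ)) := by
    refine hq_mid (φ := U.subtype) (ψ := ord) (sA := h24hq_res s U hU) (sB := s)
      (sC := (1 : AddMonoid.End ℤ)) U.subtype_injective hsurj ?_ hs
      (h24hq_res_subtype s U hU) ?_ hqU (hq_int hn)
    · rw [AddSubgroup.range_subtype, hker]
    · intro b
      exact hords b
  rw [one_mul] at hqM
  have h := hqM.h0_eq_nat
  rw [h24hq_h1_eq_one s n h90, mul_one] at h
  exact h

/-- extraction: if `[ker (s - 1) : im Nm] = p` is prime then there is a fixed non-norm and every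
fixed non-norm generates the quotient. -/
theorem h24hq_extract (s : AddMonoid.End M) (p : ℕ) (hp : p.Prime) (h : h0 s p = p) :
    (∃ b, s b = b ∧ b ∉ (nrm s p).range) ∧
    ∀ b, s b = b → b ∉ (nrm s p).range → ∀ b', s b' = b' →
      ∃ k, k < p ∧ b' + k • b ∈ (nrm s p).range := by
  have : Fact p.Prime := ⟨hp⟩
  rw [h0_def] at h
  have hmem : ∀ b, b ∈ (del s).ker ↔ s b = b := by
    intro b
    rw [AddMonoidHom.mem_ker, del_apply, sub_eq_zero]
  constructor
  · by_contra hcon
    have hle : (del s).ker ≤ (nrm s p).range := by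
      intro b hb
      by_contra hb'
      exact hcon ⟨b, (hmem b).mp hb, hb'⟩
    rw [AddSubgroup.relIndex_eq_one.mpr hle] at h
    exact hp.one_lt.ne h
  · intro b hb hbn b' hb'
    set K : AddSubgroup M := (del s).ker with hK
    set R : AddSubgroup K := (nrm s p).range.addSubgroupOf K with hR
    have hcard : Nat.card (K ⧸ R) = p := by
      rw [← AddSubgroup.index_eq_card]
      exact h
    have hbK : b ∈ K := (hmem b).mpr hb
    have hb'K : b' ∈ K := (hmem b').mpr hb'
    let β : K ⧸ R := QuotientAddGroup.mk ⟨b, hbK⟩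
    let β' : K ⧸ R := QuotientAddGroup.mk ⟨b', hb'K⟩
    have hβ : β ≠ 0 := by
      intro h0
      have : (⟨b, hbK⟩ : K) ∈ R := (QuotientAddGroup.eq_zero_iff _).mp h0
      rw [hR, AddSubgroup.mem_addSubgroupOf] at this
      exact hbn this
    obtain ⟨k, hk⟩ := mem_multiples_of_prime_card hcard hβ (g' := -β')
    have hk : k • β = -β' := hk
    have hpβ : p • β = 0 := by
      have := card_nsmul_eq_zero' (x := β)
      rwa [hcard] at this
    have hk' : (k % p) • β = -β' := by
      rw [← hk]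
      conv_rhs => rw [← Nat.mod_add_div k p]
      rw [add_nsmul, mul_nsmul, hpβ, nsmul_zero, add_zero]
    refine ⟨k % p, Nat.mod_lt _ hp.pos, ?_⟩
    have hsum : β' + (k % p) • β = 0 := by
      rw [hk']
      exact add_neg_cancel β'
    have hsum' : ((QuotientAddGroup.mk (⟨b', hb'K⟩ + (k % p) • ⟨b, hbK⟩ : K)) : K ⧸ R) = 0 := by
      rw [QuotientAddGroup.mk_add, QuotientAddGroup.mk_nsmul]
      exact hsum
    have := (QuotientAddGroup.eq_zero_iff _).mp hsum'
    rw [hR, AddSubgroup.mem_addSubgroupOf] at this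
    simpa using this

end Abs

end Fermat.Agent.PT.Loc
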