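import Mathlib
import Fermat.Agent.PT.Loc.H33NIIface
import Fermat.Agent.PT.Loc.H24NIHQAbs

/-!
# W3-PT / PT-LOC, block NI, leaf LOC-NI-HQ (helper24): Herbrand quotient assembly

`h24hq_normIndex_of : H33CohTriv → H33FinIdx → H33Hilbert90 → H33NormIndex`.

`M := Additive Lˣ`, `s :=` the endomorphism induced by `σ`; `W` (from `H33CohTriv`) has Herbrand
quotient `1`, hence so has `U = {v = 1}` (`H33FinIdx`); `M / U ≅ ℤ` via the order; hence
`h(M) = ℓ`, and `Ĥ¹(M) = 0` (`H33Hilbert90`) gives `[(Lˣ)^σ : N Lˣ] = ℓ`.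
-/

set_option autoImplicit false

open Finset

open scoped NNReal

namespace Fermat.Agent.PT.Loc

open Fermat.Agent.S14.HQ

section Concrete

variable {L : Type} [Field L]

/-- the endomorphism of `Additive Lˣ` induced by `σ`. -/
def h24hq_s (σ : L ≃+* L) : AddMonoid.End (Additive Lˣ) :=
  MonoidHom.toAdditive (Units.map ((σ : L →+* L) : L →* L))

theorem h24hq_ext {x y : Additive Lˣ} (h : ((Additive.toMul x : Lˣ) : L) = (Additive.toMul y : Lˣ)) :
    x = y := by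
  apply Additive.toMul.injective
  exact Units.ext h

theorem h24hq_s_apply (σ : L ≃+* L) (x : Additive Lˣ) :
    ((Additive.toMul (h24hq_s σ x) : Lˣ) : L) = σ ((Additive.toMul x : Lˣ) : L) := rfl

theorem h24hq_s_iter (σ : L ≃+* L) (n : ℕ) (x : Additive Lˣ) :
    ((Additive.toMul (((h24hq_s σ)^[n]) x) : Lˣ) : L) = (σ ^ n) ((Additive.toMul x : Lˣ) : L) := by
  induction n with
  | zero => rfl
  | succ k ih =>
    rw [Function.iterate_succ_apply', h24hq_s_apply, ih, pow_succ']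
    rfl

theorem h24hq_nrm (σ : L ≃+* L) (n : ℕ) (x : Additive Lˣ) :
    ((Additive.toMul (nrm (h24hq_s σ) n x) : Lˣ) : L)
      = h33n_N σ n ((Additive.toMul x : Lˣ) : L) := by
  rw [nrm_apply, toMul_sum, Units.coe_prod]
  unfold h33n_N
  exact Finset.prod_congr rfl fun i _ => h24hq_s_iter σ i x

theorem h24hq_del (σ : L ≃+* L) (x : Additive Lˣ) :
    ((Additive.toMul (h24hq_s σ x - x) : Lˣ) : L)
      = σ ((Additive.toMul x : Lˣ) : L) / ((Additive.toMul x : Lˣ) : L) := by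
  rw [toMul_sub, Units.val_div_eq_div_val]
  rfl

/-! ### the order -/

theorem h24hq_vϖ_ne (D : H33LF L) : D.v D.ϖ ≠ 0 := (Valuation.ne_zero_iff D.v).mpr D.hϖ0

theorem h24hq_zpow_inj (D : H33LF L) {m n : ℤ} (h : D.v D.ϖ ^ m = D.v D.ϖ ^ n) : m = n :=
  zpow_right_injective₀ (pos_iff_ne_zero.mpr (h24hq_vϖ_ne D)) (ne_of_lt D.hϖ1) h

/-- the order of a unit: `v u = v ϖ ^ ord u`. -/
noncomputable def h24hq_ordFun (D : H33LF L) (u : Lˣ) : ℤ :=
  Classical.choose (D.hdisc u u.ne_zero)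

theorem h24hq_ordFun_spec (D : H33LF L) (u : Lˣ) :
    D.v (u : L) = D.v D.ϖ ^ h24hq_ordFun D u :=
  Classical.choose_spec (D.hdisc u u.ne_zero)

theorem h24hq_ordFun_unique (D : H33LF L) (u : Lˣ) (n : ℤ) (h : D.v (u : L) = D.v D.ϖ ^ n) :
    h24hq_ordFun D u = n :=
  h24hq_zpow_inj D ((h24hq_ordFun_spec D u).symm.trans h)

/-- the order as an additive homomorphism. -/
noncomputable def h24hq_ord (D : H33LF L) : Additive Lˣ →+ ℤ :=
  AddMonoidHom.mk' (fun x => h24hq_ordFun D (Additive.toMul x)) (by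
    intro x y
    apply h24hq_ordFun_unique
    rw [toMul_add, Units.val_mul, map_mul, h24hq_ordFun_spec D (Additive.toMul x),
      h24hq_ordFun_spec D (Additive.toMul y), zpow_add₀ (h24hq_vϖ_ne D)])

theorem h24hq_ord_apply (D : H33LF L) (x : Additive Lˣ) :
    h24hq_ord D x = h24hq_ordFun D (Additive.toMul x) := rfl

theorem h24hq_ord_surj (D : H33LF L) : Function.Surjective (h24hq_ord D) := by
  intro n
  refine ⟨Additive.ofMul ((Units.mk0 D.ϖ D.hϖ0) ^ n), ?_⟩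
  rw [h24hq_ord_apply]
  apply h24hq_ordFun_unique
  rw [toMul_ofMul, Units.val_zpow_eq_zpow_val, map_zpow₀]
  rfl

theorem h24hq_ord_ker (D : H33LF L) :
    (h24hq_ord D).ker = Subgroup.toAddSubgroup (h33n_U D.v) := by
  ext x
  rw [AddMonoidHom.mem_ker, h24hq_ord_apply]
  show _ ↔ Additive.toMul x ∈ h33n_U D.v
  rw [h33n_mem_U]
  constructor
  · intro h
    rw [h24hq_ordFun_spec D (Additive.toMul x), h, zpow_zero]
  · intro h
    apply h24hq_ordFun_unique
    rw [h, zpow_zero]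

theorem h24hq_ord_s (D : H33LF L) (x : Additive Lˣ) :
    h24hq_ord D (h24hq_s D.σ x) = h24hq_ord D x := by
  rw [h24hq_ord_apply, h24hq_ord_apply]
  apply h24hq_ordFun_unique
  rw [h24hq_s_apply, D.hvσ]
  exact h24hq_ordFun_spec D _

theorem h24hq_s_period (D : H33LF L) (x : Additive Lˣ) : ((h24hq_s D.σ)^[D.ℓ]) x = x := by
  apply h24hq_ext
  rw [h24hq_s_iter, D.hσℓ]
  rfl

/-- LOC-NI-HQ: the Herbrand quotient assembly. -/
theorem h24hq_normIndex_of : H33CohTriv → H33FinIdx → H33Hilbert90 → H33NormIndex := by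
  intro hCT hFI hH90 L _ D hℓ
  obtain ⟨W, hWU, ⟨c, hc0, hball⟩, hstab, hW0, hW1⟩ := hCT L D
  have hidx := hFI L D c hc0 W hball
  have key : h0 (h24hq_s D.σ) D.ℓ = D.ℓ := by
    refine h24hq_h0_eq (h24hq_s D.σ) D.ℓ D.hℓ.ne' (h24hq_s_period D)
      (Subgroup.toAddSubgroup W) (Subgroup.toAddSubgroup (h33n_U D.v)) ?_ ?_ ?_ ?_ ?_ ?_
      (h24hq_ord D) (h24hq_ord_surj D) (h24hq_ord_ker D) (h24hq_ord_s D) ?_
    · -- `W` stable
      intro a ha
      exact hstab (Additive.toMul a) ha _ rfl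
    · -- `U` stable
      intro a ha
      show Additive.toMul (h24hq_s D.σ a) ∈ h33n_U D.v
      rw [h33n_mem_U, h24hq_s_apply, D.hvσ]
      exact ha
    · exact (OrderIso.le_iff_le Subgroup.toAddSubgroup).mpr hWU
    · rw [Subgroup.relIndex_toAddSubgroup]
      exact hidx
    · -- `Ĥ⁰(W) = 0`
      intro x hx hfix
      have hfix' : D.σ ((Additive.toMul x : Lˣ) : L) = ((Additive.toMul x : Lˣ) : L) := by
        have := congrArg (fun z : Additive Lˣ => ((Additive.toMul z : Lˣ) : L)) hfix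
        exact this
      obtain ⟨y, hy, hyx⟩ := hW0 (Additive.toMul x) hx hfix'
      refine ⟨Additive.ofMul y, hy, h24hq_ext ?_⟩
      rw [h24hq_nrm]
      exact hyx
    · -- `Ĥ¹(W) = 0`
      intro x hx hn
      have hn' : h33n_N D.σ D.ℓ ((Additive.toMul x : Lˣ) : L) = 1 := by
        rw [← h24hq_nrm, hn]
        rfl
      obtain ⟨y, hy, hyx⟩ := hW1 (Additive.toMul x) hx hn'
      refine ⟨Additive.ofMul y, hy, h24hq_ext ?_⟩
      rw [h24hq_del]
      exact hyx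
    · -- Hilbert 90
      intro x hn
      have hn' : h33n_N D.σ D.ℓ ((Additive.toMul x : Lˣ) : L) = 1 := by
        rw [← h24hq_nrm, hn]
        rfl
      obtain ⟨y, hy0, hyx⟩ := hH90 L D.σ D.ℓ D.hℓ D.hσℓ D.hord _ hn'
      refine ⟨Additive.ofMul (Units.mk0 y hy0), h24hq_ext ?_⟩
      rw [h24hq_del]
      exact hyx
  obtain ⟨⟨b, hb, hbn⟩, hgen⟩ := h24hq_extract (h24hq_s D.σ) D.ℓ hℓ key
  -- translation of "norm" statements
  have hnorm : ∀ x : Additive Lˣ, x ∈ (nrm (h24hq_s D.σ) D.ℓ).range ↔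
      ∃ β : L, β ≠ 0 ∧ h33n_N D.σ D.ℓ β = ((Additive.toMul x : Lˣ) : L) := by
    intro x
    constructor
    · rintro ⟨y, rfl⟩
      exact ⟨_, (Additive.toMul y).ne_zero, (h24hq_nrm D.σ D.ℓ y).symm⟩
    · rintro ⟨β, hβ0, hβ⟩
      refine ⟨Additive.ofMul (Units.mk0 β hβ0), h24hq_ext ?_⟩
      rw [h24hq_nrm]
      exact hβ
  have hfixed : ∀ x : Additive Lˣ, h24hq_s D.σ x = x ↔
      D.σ ((Additive.toMul x : Lˣ) : L) = ((Additive.toMul x : Lˣ) : L) := by
    intro x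
    constructor
    · intro h
      exact congrArg (fun z : Additive Lˣ => ((Additive.toMul z : Lˣ) : L)) h
    · intro h
      exact h24hq_ext h
  constructor
  · refine ⟨((Additive.toMul b : Lˣ) : L), (hfixed b).mp hb, (Additive.toMul b).ne_zero, ?_⟩
    intro h
    exact hbn ((hnorm b).mpr h)
  · intro b0 hb0 hb0ne hb0n b' hb' hb'ne
    have hx : h24hq_s D.σ (Additive.ofMul (Units.mk0 b0 hb0ne)) = Additive.ofMul (Units.mk0 b0 hb0ne) :=
      (hfixed _).mpr hb0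
    have hx' : h24hq_s D.σ (Additive.ofMul (Units.mk0 b' hb'ne)) = Additive.ofMul (Units.mk0 b' hb'ne) :=
      (hfixed _).mpr hb'
    have hxn : Additive.ofMul (Units.mk0 b0 hb0ne) ∉ (nrm (h24hq_s D.σ) D.ℓ).range := by
      intro h
      exact hb0n ((hnorm _).mp h)
    obtain ⟨k, hk, hmem⟩ := hgen _ hx hxn _ hx'
    obtain ⟨β, hβ0, hβ⟩ := (hnorm _).mp hmem
    refine ⟨k, hk, β, hβ0, ?_⟩
    rw [hβ, toMul_add, toMul_nsmul, Units.val_mul, Units.val_pow_eq_pow_val]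
    rfl

end Concrete

end Fermat.Agent.PT.Loc
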