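import Mathlib
import Fermat.Agent.PT.Loc.H34NICohAdd

/-!
# PT-LOC, block NI, leaf NI-COH (helper34, hedge): multiplicative estimates

For a radius `s` with `C * s < 1`: `1 + M s` is a group, `N (1 + x) ≡ 1 + T x` and
`σ (1 + y) / (1 + y) ≡ 1 + (σ y - y)` modulo `M (C s²)`; the two approximation steps
`h34c_step0` (`Ĥ⁰`) and `h34c_step1` (`Ĥ¹`).
-/

set_option autoImplicit false

open Finset

open scoped NNReal

namespace Fermat.Agent.PT.Loc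

section Mul

variable {L : Type} [Field L] {v : Valuation L ℝ≥0} {σ : L ≃+* L} {ℓ : ℕ} {β : L} {δ : ℕ → L}

theorem h34c_M_mul' (h : H34NB v σ ℓ β δ) {s t r : ℝ≥0} {x y : L} (hx : h34c_M v σ ℓ δ s x)
    (hy : h34c_M v σ ℓ δ t y) (hr : h34c_C v σ ℓ β δ * s * t ≤ r) :
    h34c_M v σ ℓ δ r (x * y) :=
  h34c_M_mono hr (h34c_M_mul h hx hy)

/-- `M t · (1 + M s) ⊆ M t` when `C s ≤ 1`. -/
theorem h34c_M_mul_one_add (h : H34NB v σ ℓ β δ) {s t : ℝ≥0} {e x : L}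
    (hCs : h34c_C v σ ℓ β δ * s ≤ 1) (he : h34c_M v σ ℓ δ t e) (hx : h34c_M v σ ℓ δ s x) :
    h34c_M v σ ℓ δ t (e * (1 + x)) := by
  rw [mul_add, mul_one]
  refine h34c_M_add he (h34c_M_mul' h he hx ?_)
  calc h34c_C v σ ℓ β δ * t * s = t * (h34c_C v σ ℓ β δ * s) := by ring
    _ ≤ t * 1 := mul_le_mul' le_rfl hCs
    _ = t := mul_one t

theorem h34c_M_mul_of_sub_one (h : H34NB v σ ℓ β δ) {s t : ℝ≥0} {e u : L}
    (hCs : h34c_C v σ ℓ β δ * s ≤ 1) (he : h34c_M v σ ℓ δ t e)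
    (hu : h34c_M v σ ℓ δ s (u - 1)) : h34c_M v σ ℓ δ t (e * u) := by
  have := h34c_M_mul_one_add h hCs he hu
  rwa [add_sub_cancel] at this

/-- `1 + M s` is closed under products. -/
theorem h34c_mul_sub_one (h : H34NB v σ ℓ β δ) {s : ℝ≥0} {u u' : L}
    (hCs : h34c_C v σ ℓ β δ * s ≤ 1) (hu : h34c_M v σ ℓ δ s (u - 1))
    (hu' : h34c_M v σ ℓ δ s (u' - 1)) : h34c_M v σ ℓ δ s (u * u' - 1) := by
  have h1 : u * u' - 1 = (u - 1) * u' + (u' - 1) := by ring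
  rw [h1]
  exact h34c_M_add (h34c_M_mul_of_sub_one h hCs hu hu') hu'

/-- `1 + M s` is closed under inverses. -/
theorem h34c_inv_sub_one (h : H34NB v σ ℓ β δ) {s : ℝ≥0} (hCs : h34c_C v σ ℓ β δ * s < 1)
    {u : L} (hu0 : u ≠ 0) (hu : h34c_M v σ ℓ δ s (u - 1)) :
    h34c_M v σ ℓ δ s (u⁻¹ - 1) := by
  obtain ⟨i₀, hi₀, hmax⟩ := Finset.exists_max_image (range ℓ)
    (fun i => v (h34c_co σ ℓ δ i (u⁻¹ - 1))) ⟨0, Finset.mem_range.mpr h.hℓ⟩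
  obtain ⟨m, hm⟩ : ∃ m, m = v (h34c_co σ ℓ δ i₀ (u⁻¹ - 1)) := ⟨_, rfl⟩
  have hMz : h34c_M v σ ℓ δ m (u⁻¹ - 1) := fun i hi => by
    rw [hm]
    exact hmax i (Finset.mem_range.mpr hi)
  have hz : u⁻¹ - 1 = -(u - 1) - (u - 1) * (u⁻¹ - 1) := by
    field_simp
    ring
  have h1 : m ≤ max s (h34c_C v σ ℓ β δ * s * m) := by
    have h2 : h34c_co σ ℓ δ i₀ (u⁻¹ - 1)
        = -h34c_co σ ℓ δ i₀ (u - 1) - h34c_co σ ℓ δ i₀ ((u - 1) * (u⁻¹ - 1)) := by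
      conv_lhs => rw [hz]
      rw [h34c_co_sub, h34c_co_neg]
    have h3 : v (h34c_co σ ℓ δ i₀ (u⁻¹ - 1)) ≤ max s (h34c_C v σ ℓ β δ * s * m) := by
      rw [h2]
      refine (Valuation.map_sub v _ _).trans (max_le_max ?_ ?_)
      · rw [Valuation.map_neg]
        exact hu i₀ (Finset.mem_range.mp hi₀)
      · exact h34c_M_mul h hu hMz i₀ (Finset.mem_range.mp hi₀)
    rw [hm]
    rw [hm] at h3
    exact h3
  by_cases hms : m ≤ s
  · exact h34c_M_mono hms hMz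
  · exfalso
    have hsm : s < m := lt_of_not_ge hms
    have hm0 : 0 < m := lt_of_le_of_lt zero_le hsm
    have h3 : m ≤ h34c_C v σ ℓ β δ * s * m := by
      rcases le_max_iff.mp h1 with h4 | h4
      · exact absurd h4 hms
      · exact h4
    have h5 : h34c_C v σ ℓ β δ * s * m < 1 * m := by
      exact mul_lt_mul_of_pos_right hCs hm0
    rw [one_mul] at h5
    exact absurd h3 (not_le.mpr h5)

/-- Elements of `1 + M s` are nonzero when `s * v β < 1`. -/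
theorem h34c_ne_zero_of_M (h : H34NB v σ ℓ β δ) {s : ℝ≥0} (hsβ : s * v β < 1) {u : L}
    (hu : h34c_M v σ ℓ δ s (u - 1)) : u ≠ 0 := by
  intro h0
  have h1 := h34c_v_le_of_M h hu
  rw [h0, zero_sub, Valuation.map_neg, map_one] at h1
  exact absurd (lt_of_le_of_lt h1 hsβ) (lt_irrefl 1)

/-- Elements of `1 + M s` are units of the valuation when `s * v β < 1`. -/
theorem h34c_v_eq_one_of_M (h : H34NB v σ ℓ β δ) {s : ℝ≥0} (hsβ : s * v β < 1) {u : L}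
    (hu : h34c_M v σ ℓ δ s (u - 1)) : v u = 1 := by
  have h1 : v (u - 1) < 1 := lt_of_le_of_lt (h34c_v_le_of_M h hu) hsβ
  have h2 : v u = v (u - 1 + 1) := by rw [sub_add_cancel]
  rw [h2]
  have h3 : v (u - 1) < v (1 : L) := by rwa [map_one]
  rw [Valuation.map_add_eq_of_lt_right v h3, map_one]

/-- `∏_{j<n} (1 + σ^j x) ≡ 1 + ∑_{j<n} σ^j x` modulo `M (C s²)`. -/
theorem h34c_prod_one_add (h : H34NB v σ ℓ β δ) {s : ℝ≥0} (hCs : h34c_C v σ ℓ β δ * s ≤ 1)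
    {x : L} (hx : h34c_M v σ ℓ δ s x) (n : ℕ) :
    h34c_M v σ ℓ δ (h34c_C v σ ℓ β δ * s * s)
      (∏ j ∈ range n, (1 + (σ ^ j) x) - 1 - ∑ j ∈ range n, (σ ^ j) x) := by
  induction n with
  | zero =>
    simp only [Finset.range_zero, Finset.prod_empty, Finset.sum_empty, sub_self]
    exact h34c_M_zero _
  | succ n ih =>
    rw [Finset.prod_range_succ, Finset.sum_range_succ]
    set P := ∏ j ∈ range n, (1 + (σ ^ j) x) with hP
    set A := ∑ j ∈ range n, (σ ^ j) x with hA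
    have hy : h34c_M v σ ℓ δ s ((σ ^ n) x) := h34c_M_sigma_pow h hx n
    have hAM : h34c_M v σ ℓ δ s A :=
      h34c_M_sum _ _ fun j _ => h34c_M_sigma_pow h hx j
    have h1 : P * (1 + (σ ^ n) x) - 1 - (A + (σ ^ n) x)
        = (P - 1 - A) * (1 + (σ ^ n) x) + A * (σ ^ n) x := by ring
    rw [h1]
    exact h34c_M_add (h34c_M_mul_one_add h hCs ih hy) (h34c_M_mul h hAM hy)

theorem h34c_N_one_add_eq (x : L) :
    h33n_N σ ℓ (1 + x) = ∏ j ∈ range ℓ, (1 + (σ ^ j) x) := by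
  unfold h33n_N
  refine Finset.prod_congr rfl fun j _ => ?_
  rw [map_add, map_one]

/-- `N (1 + x) ≡ 1 + T x` modulo `M (C s²)`. -/
theorem h34c_N_one_add (h : H34NB v σ ℓ β δ) {s : ℝ≥0} (hCs : h34c_C v σ ℓ β δ * s ≤ 1)
    {x : L} (hx : h34c_M v σ ℓ δ s x) :
    h34c_M v σ ℓ δ (h34c_C v σ ℓ β δ * s * s) (h33n_N σ ℓ (1 + x) - 1 - h33n_T σ ℓ x) := by
  rw [h34c_N_one_add_eq]
  exact h34c_prod_one_add h hCs hx ℓ

theorem h34c_Css_le {C s : ℝ≥0} (hCs : C * s ≤ 1) : C * s * s ≤ s := by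
  calc C * s * s ≤ 1 * s := mul_le_mul' hCs le_rfl
    _ = s := one_mul s

theorem h34c_T_mem (h : H34NB v σ ℓ β δ) {s : ℝ≥0} {x : L} (hx : h34c_M v σ ℓ δ s x) :
    h34c_M v σ ℓ δ s (h33n_T σ ℓ x) := by
  unfold h33n_T
  exact h34c_M_sum _ _ fun j _ => h34c_M_sigma_pow h hx j

/-- `N` preserves `1 + M s`. -/
theorem h34c_N_sub_one (h : H34NB v σ ℓ β δ) {s : ℝ≥0} (hCs : h34c_C v σ ℓ β δ * s ≤ 1)
    {u : L} (hu : h34c_M v σ ℓ δ s (u - 1)) : h34c_M v σ ℓ δ s (h33n_N σ ℓ u - 1) := by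
  have h1 := h34c_N_one_add h hCs hu
  rw [add_sub_cancel] at h1
  have h2 : h33n_N σ ℓ u - 1
      = (h33n_N σ ℓ u - 1 - h33n_T σ ℓ (u - 1)) + h33n_T σ ℓ (u - 1) := by ring
  rw [h2]
  exact h34c_M_add (h34c_M_mono (h34c_Css_le hCs) h1) (h34c_T_mem h hu)

theorem h34c_sigma_sub_one (h : H34NB v σ ℓ β δ) {s : ℝ≥0} {u : L}
    (hu : h34c_M v σ ℓ δ s (u - 1)) : h34c_M v σ ℓ δ s (σ u - 1) := by
  have h1 : σ u - 1 = σ (u - 1) := by rw [map_sub, map_one]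
  rw [h1]
  exact h34c_M_sigma h hu

theorem h34c_N_ne_zero {u : L} (hu : u ≠ 0) : h33n_N σ ℓ u ≠ 0 := by
  unfold h33n_N
  rw [Finset.prod_ne_zero_iff]
  intro j _
  exact (map_ne_zero_iff _ (σ ^ j).injective).mpr hu

/-- A quotient `x / w` with `x ≡ w` mod `M t` and `w ∈ 1 + M s` lies in `1 + M t`. -/
theorem h34c_div_sub_one (h : H34NB v σ ℓ β δ) {s t : ℝ≥0} (hCs : h34c_C v σ ℓ β δ * s < 1)
    {x w : L} (hw0 : w ≠ 0) (hw : h34c_M v σ ℓ δ s (w - 1)) (hxw : h34c_M v σ ℓ δ t (x - w)) :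
    h34c_M v σ ℓ δ t (x / w - 1) := by
  have h1 : x / w - 1 = (x - w) * w⁻¹ := by
    field_simp
  rw [h1]
  exact h34c_M_mul_of_sub_one h hCs.le hxw (h34c_inv_sub_one h hCs hw0 hw)

/-- The approximation step for `Ĥ⁰`. -/
theorem h34c_step0 (h : H34NB v σ ℓ β δ) {s : ℝ≥0} (hCs : h34c_C v σ ℓ β δ * s < 1)
    (hsβ : s * v β < 1) {x : L} (hx : h34c_M v σ ℓ δ s (x - 1)) (hfix : σ x = x) :
    ∃ y : L, y ≠ 0 ∧ h34c_M v σ ℓ δ s (y - 1) ∧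
      h34c_M v σ ℓ δ (h34c_C v σ ℓ β δ * s * s) (x / h33n_N σ ℓ y - 1) := by
  have hmfix : σ (x - 1) = x - 1 := by rw [map_sub, map_one, hfix]
  obtain ⟨m', hm', hTm'⟩ := h34c_exists_trace h hmfix hx
  have hy : h34c_M v σ ℓ δ s ((1 + m') - 1) := by rwa [add_sub_cancel_left]
  have hy0 : (1 + m') ≠ 0 := h34c_ne_zero_of_M h hsβ hy
  refine ⟨1 + m', hy0, hy, ?_⟩
  have hE := h34c_N_one_add h hCs.le hm'
  rw [hTm'] at hE
  refine h34c_div_sub_one h hCs (h34c_N_ne_zero hy0) (h34c_N_sub_one h hCs.le hy) ?_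
  have h2 : x - h33n_N σ ℓ (1 + m') = -(h33n_N σ ℓ (1 + m') - 1 - (x - 1)) := by ring
  rw [h2]
  exact h34c_M_neg hE

/-- The approximation step for `Ĥ¹`. -/
theorem h34c_step1 (h : H34NB v σ ℓ β δ) {s : ℝ≥0} (hCs : h34c_C v σ ℓ β δ * s < 1)
    (hsβ : s * v β < 1) {x : L} (hx : h34c_M v σ ℓ δ s (x - 1)) (hN : h33n_N σ ℓ x = 1) :
    ∃ y : L, y ≠ 0 ∧ h34c_M v σ ℓ δ s (y - 1) ∧
      h34c_M v σ ℓ δ (h34c_C v σ ℓ β δ * s * s) (x / (σ y / y) - 1) := by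
  -- the trace of `x - 1` is small
  have hE := h34c_N_one_add h hCs.le hx
  rw [add_sub_cancel, hN, sub_self, zero_sub] at hE
  have hT : h34c_M v σ ℓ δ (h34c_C v σ ℓ β δ * s * s) (h33n_T σ ℓ (x - 1)) := by
    have := h34c_M_neg hE
    rwa [neg_neg] at this
  obtain ⟨m', hm', hcob⟩ := h34c_exists_cob h hx hT
  have hy : h34c_M v σ ℓ δ s ((1 + m') - 1) := by rwa [add_sub_cancel_left]
  have hy0 : (1 + m') ≠ 0 := h34c_ne_zero_of_M h hsβ hy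
  have hσy0 : σ (1 + m') ≠ 0 := (map_ne_zero_iff _ σ.injective).mpr hy0
  refine ⟨1 + m', hy0, hy, ?_⟩
  have hz := h34c_inv_sub_one h hCs hy0 hy
  have hd : h34c_M v σ ℓ δ s (σ m' - m') := h34c_M_sub (h34c_M_sigma h hm') hm'
  -- `F y - 1 = (σ m' - m') * y⁻¹`
  have hF1 : σ (1 + m') / (1 + m') - 1 = (σ m' - m') * (1 + m')⁻¹ := by
    rw [map_add, map_one]
    field_simp
    ring
  have hFM : h34c_M v σ ℓ δ s (σ (1 + m') / (1 + m') - 1) := by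
    rw [hF1]
    exact h34c_M_mul_of_sub_one h hCs.le hd hz
  have hF0 : σ (1 + m') / (1 + m') ≠ 0 := div_ne_zero hσy0 hy0
  refine h34c_div_sub_one h hCs hF0 hFM ?_
  have h3 : x - σ (1 + m') / (1 + m')
      = (x - 1 - (σ m' - m')) - (σ m' - m') * ((1 + m')⁻¹ - 1) := by
    have : x - σ (1 + m') / (1 + m') = (x - 1) - (σ (1 + m') / (1 + m') - 1) := by ring
    rw [this, hF1]
    ring
  rw [h3]
  exact h34c_M_sub hcob (h34c_M_mul h hd hz)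

end Mul

end Fermat.Agent.PT.Loc
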