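import Mathlib

/-!
# W3-PT / PT-LOC: successive approximation in a complete filtered commutative group (helper33)

`h33n_approx`: let `W` be a commutative group with a decreasing filtration `Wn 0 ≥ Wn 1 ≥ …` by
subgroups which is separated and complete (every infinite product `y 0 * y 1 * ⋯` with
`y n ∈ Wn n` has a limit), `F : W →* W` an endomorphism respecting the filtration, `P` a subgroup
containing the image of `F`.  If every `x ∈ Wn n ∩ P` is of the form `F y` modulo `Wn (n + 1)` with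
`y ∈ Wn n`, then every `x ∈ Wn 0 ∩ P` is of the form `F y` with `y ∈ Wn 0`.
-/

set_option autoImplicit false

namespace Fermat.Agent.PT.Loc

section Approx

variable {W : Type*} [CommGroup W]

/-- **Successive approximation.** -/
theorem h33n_approx (Wn : ℕ → Subgroup W)
    (hsep : ∀ x, (∀ n, x ∈ Wn n) → x = 1)
    (hcomp : ∀ y : ℕ → W, (∀ n, y n ∈ Wn n) →
      ∃ z, ∀ n, z / ∏ i ∈ Finset.range n, y i ∈ Wn n)
    (F : W →* W) (hF : ∀ n, ∀ x ∈ Wn n, F x ∈ Wn n)
    (P : Subgroup W) (hFP : ∀ x, F x ∈ P)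
    (hstep : ∀ n, ∀ x ∈ Wn n, x ∈ P → ∃ y ∈ Wn n, x / F y ∈ Wn (n + 1))
    (x : W) (hx0 : x ∈ Wn 0) (hxP : x ∈ P) : ∃ y ∈ Wn 0, F y = x := by
  classical
  -- one step, with choice
  have hstep' : ∀ n, ∀ x : {x : W // x ∈ Wn n ∧ x ∈ P},
      ∃ y : W, y ∈ Wn n ∧ x.1 / F y ∈ Wn (n + 1) := by
    intro n x
    obtain ⟨y, hy, hxy⟩ := hstep n x.1 x.2.1 x.2.2
    exact ⟨y, hy, hxy⟩
  choose ystep hystep1 hystep2 using hstep'
  -- the sequence of remainders
  let seq : (n : ℕ) → {x : W // x ∈ Wn n ∧ x ∈ P} := fun n =>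
    Nat.rec (motive := fun n => {x : W // x ∈ Wn n ∧ x ∈ P}) ⟨x, hx0, hxP⟩
      (fun n xn => ⟨xn.1 / F (ystep n xn), hystep2 n xn,
        P.div_mem xn.2.2 (hFP _)⟩) n
  have hseq_succ : ∀ n, (seq (n + 1)).1 = (seq n).1 / F (ystep n (seq n)) := fun n => rfl
  have hseq_zero : (seq 0).1 = x := rfl
  let y : ℕ → W := fun n => ystep n (seq n)
  have hy : ∀ n, y n ∈ Wn n := fun n => hystep1 n (seq n)
  -- x = x_n * F (∏_{i<n} y_i)
  have hprod : ∀ n, x = (seq n).1 * F (∏ i ∈ Finset.range n, y i) := by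
    intro n
    induction n with
    | zero => simp [hseq_zero]
    | succ n ih =>
      rw [Finset.prod_range_succ, map_mul, hseq_succ]
      show x = (seq n).1 / F (y n) * (F (∏ i ∈ Finset.range n, y i) * F (y n))
      rw [mul_comm (F (∏ i ∈ Finset.range n, y i)) (F (y n)), ← mul_assoc, div_mul_cancel]
      exact ih
  obtain ⟨z, hz⟩ := hcomp y hy
  refine ⟨z, by simpa using hz 0, ?_⟩
  have key : ∀ n, x / F z ∈ Wn n := by
    intro n
    have h1 : x / F z = (seq n).1 * (F (z / ∏ i ∈ Finset.range n, y i))⁻¹ := by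
      rw [map_div, inv_div, ← mul_div_assoc, ← hprod n]
    rw [h1]
    exact (Wn n).mul_mem (seq n).2.1 ((Wn n).inv_mem (hF n _ (hz n)))
  have := hsep _ key
  rw [div_eq_one] at this
  exact this.symm

end Approx

end Fermat.Agent.PT.Loc
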