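import Mathlib
import Fermat.Agent.PT.Loc.H34NICohMul
import Fermat.Agent.PT.Loc.NormApprox

/-!
# PT-LOC, block NI, leaf NI-COH (helper34, hedge): `H33NormalBasis → H33CohTriv`

`h34c_cohTriv_of : H33NormalBasis → H33CohTriv`: the subgroup `W = 1 + M s₀` of the units
(`M s₀` the coordinate lattice of a normal basis, `s₀` small) is open, `σ`-stable and has trivial
Tate cohomology `Ĥ⁰`, `Ĥ¹` for the cyclic group generated by `σ`.  Proof: successive approximation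
(`h33n_approx`) along the filtration `1 + M (s₀ ρ^n)`, `ρ = v ϖ`, with the additive vanishing
`h34c_exists_trace`, `h34c_exists_cob` on the graded pieces.
Only `D.hcomp` (completeness) is used, neither discreteness nor the residue system.
-/

set_option autoImplicit false

open Finset

open scoped NNReal

namespace Fermat.Agent.PT.Loc

section Final

variable {L : Type} [Field L] {v : Valuation L ℝ≥0} {σ : L ≃+* L} {ℓ : ℕ} {β : L} {δ : ℕ → L}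

/-- The subgroup `1 + M s` of `Lˣ`. -/
def h34c_W (h : H34NB v σ ℓ β δ) (s : ℝ≥0) (hCs : h34c_C v σ ℓ β δ * s < 1) : Subgroup Lˣ where
  carrier := {u | h34c_M v σ ℓ δ s ((u : L) - 1)}
  mul_mem' := by
    intro a b ha hb
    change h34c_M v σ ℓ δ s (((a * b : Lˣ) : L) - 1)
    rw [Units.val_mul]
    exact h34c_mul_sub_one h hCs.le ha hb
  one_mem' := by
    change h34c_M v σ ℓ δ s (((1 : Lˣ) : L) - 1)
    rw [Units.val_one, sub_self]
    exact h34c_M_zero _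
  inv_mem' := by
    intro a ha
    change h34c_M v σ ℓ δ s (((a⁻¹ : Lˣ) : L) - 1)
    rw [Units.val_inv_eq_inv_val]
    exact h34c_inv_sub_one h hCs a.ne_zero ha

theorem h34c_mem_W (h : H34NB v σ ℓ β δ) (s : ℝ≥0) (hCs : h34c_C v σ ℓ β δ * s < 1) (u : Lˣ) :
    u ∈ h34c_W h s hCs ↔ h34c_M v σ ℓ δ s ((u : L) - 1) := Iff.rfl

/-- The norm as an endomorphism of `Lˣ`. -/
def h34c_FN (σ : L ≃+* L) (ℓ : ℕ) : Lˣ →* Lˣ where
  toFun u := ∏ i ∈ range ℓ, Units.map (σ ^ i).toRingHom.toMonoidHom u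
  map_one' := by simp
  map_mul' := by
    intro a b
    simp [Finset.prod_mul_distrib]

theorem h34c_FN_val (σ : L ≃+* L) (ℓ : ℕ) (u : Lˣ) :
    ((h34c_FN σ ℓ u : Lˣ) : L) = h33n_N σ ℓ (u : L) := by
  unfold h34c_FN h33n_N
  simp

/-- `u ↦ σ u / u` as an endomorphism of `Lˣ`. -/
def h34c_FS (σ : L ≃+* L) : Lˣ →* Lˣ where
  toFun u := Units.map σ.toRingHom.toMonoidHom u / u
  map_one' := by simp
  map_mul' := by
    intro a b
    rw [map_mul, mul_div_mul_comm]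

theorem h34c_FS_val (σ : L ≃+* L) (u : Lˣ) :
    ((h34c_FS σ u : Lˣ) : L) = σ (u : L) / (u : L) := by
  unfold h34c_FS
  simp [Units.val_div_eq_div_val]

theorem h34c_N_comp (hσℓ : σ ^ ℓ = 1) (y : L) : h33n_N σ ℓ (σ y) = h33n_N σ ℓ y := by
  unfold h33n_N
  have h1 : ∏ i ∈ range ℓ, (σ ^ i) (σ y) = ∏ i ∈ range ℓ, (σ ^ (i + 1)) y :=
    Finset.prod_congr rfl fun i _ => (h34c_pow_succ_apply' σ i y).symm
  have h2 := Finset.prod_range_succ' (fun i => (σ ^ i) y) ℓ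
  have h3 := Finset.prod_range_succ (fun i => (σ ^ i) y) ℓ
  have h4 : (σ ^ ℓ) y = (σ ^ 0) y := by
    rw [hσℓ, pow_zero]
  rw [h1]
  have h5 : (∏ i ∈ range ℓ, (σ ^ (i + 1)) y) * (σ ^ 0) y
      = (∏ i ∈ range ℓ, (σ ^ i) y) * (σ ^ ℓ) y := by rw [← h2, ← h3]
  rw [h4] at h5
  by_cases hy : y = 0
  · subst hy
    simp
  · have h6 : (σ ^ 0) y ≠ 0 := by
      rw [h34c_pow_zero_apply]
      exact hy
    exact mul_right_cancel₀ h6 h5

theorem h34c_N_fixed (hσℓ : σ ^ ℓ = 1) (y : L) : σ (h33n_N σ ℓ y) = h33n_N σ ℓ y := by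
  have h1 : σ (h33n_N σ ℓ y) = h33n_N σ ℓ (σ y) := by
    unfold h33n_N
    rw [map_prod]
    refine Finset.prod_congr rfl fun i _ => ?_
    rw [← h34c_pow_succ_apply, h34c_pow_succ_apply']
  rw [h1, h34c_N_comp hσℓ]

theorem h34c_exists_pow_le {ρ : ℝ≥0} (a : ℝ≥0) {ε : ℝ≥0} (hρ : ρ < 1) (hε : 0 < ε) (n : ℕ) :
    ∃ k, n ≤ k ∧ a * ρ ^ k ≤ ε := by
  have ha1 : 0 < a + 1 := by positivity
  obtain ⟨k₀, hk₀⟩ := NNReal.exists_pow_lt_of_lt_one (a := ε / (a + 1)) (div_pos hε ha1) hρ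
  refine ⟨max k₀ n, le_max_right _ _, ?_⟩
  calc a * ρ ^ max k₀ n ≤ (a + 1) * ρ ^ k₀ :=
        mul_le_mul' (le_add_of_nonneg_right zero_le)
          (pow_le_pow_of_le_one zero_le hρ.le (le_max_left _ _))
    _ ≤ (a + 1) * (ε / (a + 1)) := mul_le_mul' le_rfl hk₀.le
    _ = ε := mul_div_cancel₀ ε ha1.ne'

/-- The subgroup of `σ`-fixed units. -/
def h34c_P0 (σ : L ≃+* L) : Subgroup Lˣ where
  carrier := {u | σ (u : L) = (u : L)}
  mul_mem' := by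
    intro a b ha hb
    change σ (a : L) = (a : L) at ha
    change σ (b : L) = (b : L) at hb
    change σ ((a * b : Lˣ) : L) = ((a * b : Lˣ) : L)
    rw [Units.val_mul, map_mul, ha, hb]
  one_mem' := by
    change σ ((1 : Lˣ) : L) = ((1 : Lˣ) : L)
    rw [Units.val_one, map_one]
  inv_mem' := by
    intro a ha
    change σ (a : L) = (a : L) at ha
    change σ ((a⁻¹ : Lˣ) : L) = ((a⁻¹ : Lˣ) : L)
    rw [Units.val_inv_eq_inv_val, map_inv₀, ha]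

theorem h34c_mem_P0 (σ : L ≃+* L) (u : Lˣ) : u ∈ h34c_P0 σ ↔ σ (u : L) = (u : L) := Iff.rfl

theorem h34c_FN_FS (hσℓ : σ ^ ℓ = 1) (u : Lˣ) : h34c_FN σ ℓ (h34c_FS σ u) = 1 := by
  apply Units.ext
  rw [h34c_FN_val, h34c_FS_val, Units.val_one]
  have h1 : h33n_N σ ℓ (σ (u : L) / (u : L)) = h33n_N σ ℓ (σ (u : L)) / h33n_N σ ℓ (u : L) := by
    unfold h33n_N
    rw [← Finset.prod_div_distrib]
    exact Finset.prod_congr rfl fun i _ => map_div₀ _ _ _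
  rw [h1, h34c_N_comp hσℓ]
  exact div_self (h34c_N_ne_zero u.ne_zero)

/-- The filtration `1 + M (s₀ ρ^n)` is separated, complete, and the two approximation problems
are solvable. -/
theorem h34c_main (h : H34NB v σ ℓ β δ) {ρ s₀ : ℝ≥0} (hρ1 : ρ < 1) (hs0 : 0 < s₀)
    (hρ0 : 0 < ρ) (hC : h34c_C v σ ℓ β δ * s₀ ≤ ρ) (hβ : s₀ * v β ≤ ρ)
    (hcomp : ∀ s : ℕ → L, (∀ n, v (s n) ≤ ρ ^ n) →
      ∃ z : L, ∀ n, v (z - ∑ i ∈ range n, s i) ≤ ρ ^ n)
    (hCs0 : h34c_C v σ ℓ β δ * s₀ < 1) :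
    (∀ x ∈ h34c_W h s₀ hCs0, σ (x : L) = (x : L) →
      ∃ y ∈ h34c_W h s₀ hCs0, h33n_N σ ℓ (y : L) = (x : L)) ∧
    (∀ x ∈ h34c_W h s₀ hCs0, h33n_N σ ℓ (x : L) = 1 →
      ∃ y ∈ h34c_W h s₀ hCs0, σ (y : L) / (y : L) = (x : L)) := by
  have hpow_le : ∀ n : ℕ, ρ ^ n ≤ 1 := fun n => pow_le_one₀ zero_le hρ1.le
  have hsn_le : ∀ n : ℕ, s₀ * ρ ^ n ≤ s₀ := fun n =>
    (mul_le_mul' le_rfl (hpow_le n)).trans (mul_one s₀).le
  have hCsn : ∀ n : ℕ, h34c_C v σ ℓ β δ * (s₀ * ρ ^ n) ≤ ρ := fun n =>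
    (mul_le_mul' le_rfl (hsn_le n)).trans hC
  have hCs : ∀ n : ℕ, h34c_C v σ ℓ β δ * (s₀ * ρ ^ n) < 1 := fun n =>
    lt_of_le_of_lt (hCsn n) hρ1
  have hsβ : ∀ n : ℕ, (s₀ * ρ ^ n) * v β < 1 := fun n =>
    lt_of_le_of_lt ((mul_le_mul' (hsn_le n) le_rfl).trans hβ) hρ1
  have hstep_le : ∀ n : ℕ,
      h34c_C v σ ℓ β δ * (s₀ * ρ ^ n) * (s₀ * ρ ^ n) ≤ s₀ * ρ ^ (n + 1) := by
    intro n
    calc h34c_C v σ ℓ β δ * (s₀ * ρ ^ n) * (s₀ * ρ ^ n)
        ≤ ρ * (s₀ * ρ ^ n) := mul_le_mul' (hCsn n) le_rfl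
      _ = s₀ * ρ ^ (n + 1) := by ring
  have hsn_pos : ∀ n : ℕ, 0 < s₀ * ρ ^ n := fun n => mul_pos hs0 (pow_pos hρ0 n)
  have hsn_anti : ∀ n k : ℕ, n ≤ k → s₀ * ρ ^ k ≤ s₀ * ρ ^ n := fun n k hnk =>
    mul_le_mul' le_rfl (pow_le_pow_of_le_one zero_le hρ1.le hnk)
  -- the filtration
  let Wn : ℕ → Subgroup Lˣ := fun n => h34c_W h (s₀ * ρ ^ n) (hCs n)
  have hWn : ∀ n (u : Lˣ), u ∈ Wn n ↔ h34c_M v σ ℓ δ (s₀ * ρ ^ n) ((u : L) - 1) :=
    fun n u => Iff.rfl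
  have hW0 : ∀ u : Lˣ, u ∈ Wn 0 ↔ u ∈ h34c_W h s₀ hCs0 := by
    intro u
    rw [hWn, h34c_mem_W, pow_zero, mul_one]
  have hWn0 : ∀ n (u : Lˣ), u ∈ Wn n → h34c_M v σ ℓ δ s₀ ((u : L) - 1) := fun n u hu =>
    h34c_M_mono (hsn_le n) ((hWn n u).mp hu)
  -- separatedness
  have hsep : ∀ x : Lˣ, (∀ n, x ∈ Wn n) → x = 1 := by
    intro x hx
    apply Units.ext
    rw [Units.val_one]
    by_contra hne
    have hv : 0 < v ((x : L) - 1) :=
      pos_iff_ne_zero.mpr ((Valuation.ne_zero_iff v).mpr (sub_ne_zero.mpr hne))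
    obtain ⟨k, -, hk⟩ := h34c_exists_pow_le (ρ := ρ) (s₀ * v β) hρ1
      (half_pos hv) 0
    have h1 := h34c_v_le_of_M h ((hWn k x).mp (hx k))
    have h2 : v ((x : L) - 1) ≤ v ((x : L) - 1) / 2 := by
      calc v ((x : L) - 1) ≤ s₀ * ρ ^ k * v β := h1
        _ = s₀ * v β * ρ ^ k := by ring
        _ ≤ v ((x : L) - 1) / 2 := hk
    exact absurd h2 (not_le.mpr (half_lt_self hv))
  -- completeness
  have hcomp' : ∀ y : ℕ → Lˣ, (∀ n, y n ∈ Wn n) →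
      ∃ z, ∀ n, z / ∏ i ∈ Finset.range n, y i ∈ Wn n := by
    intro y hy
    set p : ℕ → Lˣ := fun n => ∏ i ∈ Finset.range n, y i with hp
    have hp0 : p 0 = 1 := by simp [hp]
    have hps : ∀ n, p (n + 1) = p n * y n := fun n => Finset.prod_range_succ _ _
    have hpM : ∀ n, h34c_M v σ ℓ δ s₀ ((p n : L) - 1) := by
      intro n
      induction n with
      | zero =>
        rw [hp0, Units.val_one, sub_self]
        exact h34c_M_zero _
      | succ n ih =>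
        rw [hps, Units.val_mul]
        exact h34c_mul_sub_one h hCs0.le ih (hWn0 n _ (hy n))
    set d : ℕ → L := fun n => ((p (n + 1) : Lˣ) : L) - (p n : L) with hd
    have hdM : ∀ n, h34c_M v σ ℓ δ (s₀ * ρ ^ n) (d n) := by
      intro n
      have h1 : d n = ((y n : L) - 1) * (p n : L) := by
        rw [hd]
        simp only
        rw [hps, Units.val_mul]
        ring
      rw [h1]
      exact h34c_M_mul_of_sub_one h hCs0.le ((hWn n _).mp (hy n)) (hpM n)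
    have hdv : ∀ n, v (d n) ≤ ρ ^ n := by
      intro n
      calc v (d n) ≤ s₀ * ρ ^ n * v β := h34c_v_le_of_M h (hdM n)
        _ = s₀ * v β * ρ ^ n := by ring
        _ ≤ ρ * ρ ^ n := mul_le_mul' hβ le_rfl
        _ ≤ 1 * ρ ^ n := mul_le_mul' hρ1.le le_rfl
        _ = ρ ^ n := one_mul _
    obtain ⟨z₀, hz₀⟩ := hcomp d hdv
    have hsum : ∀ n, ∑ i ∈ range n, d i = (p n : L) - 1 := by
      intro n
      rw [hd, Finset.sum_range_sub (fun n => ((p n : Lˣ) : L)) n, hp0, Units.val_one]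
    have hzp : ∀ n, v ((1 + z₀) - (p n : L)) ≤ ρ ^ n := by
      intro n
      have h1 : (1 + z₀) - (p n : L) = z₀ - ∑ i ∈ range n, d i := by
        rw [hsum]
        ring
      rw [h1]
      exact hz₀ n
    -- differences of partial products
    have hdiff : ∀ n k, n ≤ k → h34c_M v σ ℓ δ (s₀ * ρ ^ n) ((p k : L) - (p n : L)) := by
      intro n k hnk
      induction k, hnk using Nat.le_induction with
      | base =>
        rw [sub_self]
        exact h34c_M_zero _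
      | succ k hnk ih =>
        have h1 : ((p (k + 1) : Lˣ) : L) - (p n : L) = ((p k : L) - (p n : L)) + d k := by
          rw [hd]
          ring
        rw [h1]
        exact h34c_M_add ih (h34c_M_mono (hsn_anti n k hnk) (hdM k))
    have hzM : ∀ n, h34c_M v σ ℓ δ (s₀ * ρ ^ n) ((1 + z₀) - (p n : L)) := by
      intro n
      obtain ⟨k, hnk, hk⟩ := h34c_exists_pow_le (ρ := ρ) (∑ i ∈ range ℓ, v (δ i)) hρ1
        (hsn_pos n) n
      have h1 : (1 + z₀) - (p n : L) = ((1 + z₀) - (p k : L)) + ((p k : L) - (p n : L)) := by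
        ring
      rw [h1]
      refine h34c_M_add (h34c_M_mono ?_ (h34c_M_of_v_le h (hzp k))) (hdiff n k hnk)
      exact hk
    have hz1 : h34c_M v σ ℓ δ s₀ ((1 + z₀) - 1) := by
      have := hzM 0
      rwa [hp0, Units.val_one, pow_zero, mul_one] at this
    have hz0 : (1 + z₀) ≠ 0 := by
      have h2 : s₀ * v β < 1 := lt_of_le_of_lt hβ hρ1
      exact h34c_ne_zero_of_M h h2 hz1
    refine ⟨Units.mk0 (1 + z₀) hz0, fun n => ?_⟩
    rw [hWn, Units.val_div_eq_div_val, Units.val_mk0]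
    exact h34c_div_sub_one h hCs0 (p n).ne_zero (hpM n) (hzM n)
  constructor
  · -- `Ĥ⁰`
    intro x hx hfix
    have hF : ∀ n, ∀ u ∈ Wn n, h34c_FN σ ℓ u ∈ Wn n := by
      intro n u hu
      rw [hWn, h34c_FN_val]
      exact h34c_N_sub_one h (hCs n).le ((hWn n u).mp hu)
    have hFP : ∀ u, h34c_FN σ ℓ u ∈ h34c_P0 σ := by
      intro u
      rw [h34c_mem_P0, h34c_FN_val]
      exact h34c_N_fixed h.hσℓ _
    have hstep : ∀ n, ∀ u ∈ Wn n, u ∈ h34c_P0 σ →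
        ∃ y ∈ Wn n, u / h34c_FN σ ℓ y ∈ Wn (n + 1) := by
      intro n u hu hufix
      obtain ⟨y, hy0, hyM, hyE⟩ := h34c_step0 h (hCs n) (hsβ n) ((hWn n u).mp hu)
        ((h34c_mem_P0 σ u).mp hufix)
      refine ⟨Units.mk0 y hy0, ?_, ?_⟩
      · rw [hWn, Units.val_mk0]
        exact hyM
      · rw [hWn, Units.val_div_eq_div_val, h34c_FN_val, Units.val_mk0]
        exact h34c_M_mono (hstep_le n) hyE
    obtain ⟨y, hy, hyx⟩ := h33n_approx Wn hsep hcomp' (h34c_FN σ ℓ) hF (h34c_P0 σ) hFP hstep x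
      ((hW0 x).mpr hx) ((h34c_mem_P0 σ x).mpr hfix)
    refine ⟨y, (hW0 y).mp hy, ?_⟩
    rw [← h34c_FN_val, hyx]
  · -- `Ĥ¹`
    intro x hx hN
    have hF : ∀ n, ∀ u ∈ Wn n, h34c_FS σ u ∈ Wn n := by
      intro n u hu
      rw [hWn, h34c_FS_val]
      have h1 : h34c_M v σ ℓ δ (s₀ * ρ ^ n) (σ (u : L) - 1) :=
        h34c_sigma_sub_one h ((hWn n u).mp hu)
      have h2 : h34c_M v σ ℓ δ (s₀ * ρ ^ n) (σ (u : L) - (u : L)) := by
        have : σ (u : L) - (u : L) = (σ (u : L) - 1) - ((u : L) - 1) := by ring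
        rw [this]
        exact h34c_M_sub h1 ((hWn n u).mp hu)
      exact h34c_div_sub_one h (hCs n) u.ne_zero ((hWn n u).mp hu) h2
    have hFP : ∀ u, h34c_FS σ u ∈ (h34c_FN σ ℓ).ker := by
      intro u
      rw [MonoidHom.mem_ker]
      exact h34c_FN_FS h.hσℓ u
    have hstep : ∀ n, ∀ u ∈ Wn n, u ∈ (h34c_FN σ ℓ).ker →
        ∃ y ∈ Wn n, u / h34c_FS σ y ∈ Wn (n + 1) := by
      intro n u hu huN
      have huN' : h33n_N σ ℓ (u : L) = 1 := by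
        rw [MonoidHom.mem_ker] at huN
        rw [← h34c_FN_val, huN, Units.val_one]
      obtain ⟨y, hy0, hyM, hyE⟩ := h34c_step1 h (hCs n) (hsβ n) ((hWn n u).mp hu) huN'
      refine ⟨Units.mk0 y hy0, ?_, ?_⟩
      · rw [hWn, Units.val_mk0]
        exact hyM
      · rw [hWn, Units.val_div_eq_div_val, h34c_FS_val, Units.val_mk0]
        exact h34c_M_mono (hstep_le n) hyE
    have hxN : x ∈ (h34c_FN σ ℓ).ker := by
      rw [MonoidHom.mem_ker]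
      apply Units.ext
      rw [h34c_FN_val, hN, Units.val_one]
    obtain ⟨y, hy, hyx⟩ := h33n_approx Wn hsep hcomp' (h34c_FS σ) hF (h34c_FN σ ℓ).ker hFP hstep x
      ((hW0 x).mpr hx) hxN
    refine ⟨y, (hW0 y).mp hy, ?_⟩
    rw [← h34c_FS_val, hyx]

end Final

/-- **NI-COH**: a cohomologically trivial `σ`-stable open subgroup of the units. -/
theorem h34c_cohTriv_of (hNB : H33NormalBasis) : H33CohTriv := by
  intro L _ D
  obtain ⟨β, δ, hdual, hrep⟩ := hNB L D.σ D.ℓ D.hℓ D.hσℓ D.hord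
  have h : H34NB D.v D.σ D.ℓ β δ := ⟨D.hℓ, D.hσℓ, D.hvσ, hdual, hrep⟩
  have hρ0 : 0 < D.v D.ϖ := pos_iff_ne_zero.mpr ((Valuation.ne_zero_iff D.v).mpr D.hϖ0)
  have hρ1 : D.v D.ϖ < 1 := D.hϖ1
  have hden : 0 < 1 + h34c_C D.v D.σ D.ℓ β δ + D.v β := by positivity
  obtain ⟨s₀, hs₀⟩ : ∃ s₀ : ℝ≥0, s₀ = D.v D.ϖ / (1 + h34c_C D.v D.σ D.ℓ β δ + D.v β) :=
    ⟨_, rfl⟩
  have hs0 : 0 < s₀ := by rw [hs₀]; exact div_pos hρ0 hden
  have hC : h34c_C D.v D.σ D.ℓ β δ * s₀ ≤ D.v D.ϖ := by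
    rw [hs₀, ← mul_div_assoc, div_le_iff₀ hden, mul_comm]
    exact mul_le_mul' le_rfl (le_add_right (le_add_left le_rfl))
  have hβ : s₀ * D.v β ≤ D.v D.ϖ := by
    rw [hs₀, div_mul_eq_mul_div, div_le_iff₀ hden]
    exact mul_le_mul' le_rfl (le_add_left le_rfl)
  have hCs0 : h34c_C D.v D.σ D.ℓ β δ * s₀ < 1 := lt_of_le_of_lt hC hρ1
  obtain ⟨hH0, hH1⟩ := h34c_main h hρ1 hs0 hρ0 hC hβ (D.hcomp D.ϖ D.hϖ1) hCs0
  refine ⟨h34c_W h s₀ hCs0, ?_, ?_, ?_, hH0, hH1⟩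
  · intro u hu
    rw [h33n_mem_U]
    exact h34c_v_eq_one_of_M h (lt_of_le_of_lt hβ hρ1) ((h34c_mem_W h s₀ hCs0 u).mp hu)
  · have hD : 0 < 1 + ∑ i ∈ range D.ℓ, D.v (δ i) := by positivity
    refine ⟨s₀ / (1 + ∑ i ∈ range D.ℓ, D.v (δ i)), (div_pos hs0 hD).ne', fun u hu => ?_⟩
    rw [h34c_mem_W]
    refine h34c_M_mono ?_ (h34c_M_of_v_le h hu)
    rw [← mul_div_assoc, div_le_iff₀ hD, mul_comm]
    exact mul_le_mul' le_rfl (le_add_left le_rfl)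
  · intro u hu u' hu'
    rw [h34c_mem_W, hu']
    exact h34c_sigma_sub_one h ((h34c_mem_W h s₀ hCs0 u).mp hu)

end Fermat.Agent.PT.Loc
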