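import Fermat.Agent.PT.Loc.H40VanCycDefs
import Fermat.Agent.PT.Alg.Tools

/-!
# W3-PT, PT-LOC, leaf LOC2-VANCYC-CORE: the abstract cyclic step (helper40)

For an abstract cyclic datum `D : h40c_Cyc ρ n χ`:

* `h40c_A` : the claim `A_i` (`1 ≤ i ≤ n`): a `2`-cocycle `m` with values in `ker Δ^i` such that
  `Δ^(i-1) m = b • e₀` with `b` a coboundary of the trivial module is the coboundary of
  `ν = ∑_{j<i} a_j • e_j` with level-constant `a_j`.
* `h40c_final` : the final step.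
-/

set_option autoImplicit false

namespace Fermat.Agent.PT.Loc

open Fermat.Agent.PT

section Basic

variable {k : Type} [Field k] {G : Type} [Group G] {F : Type} [AddCommGroup F] [Module k F]
  {ρ : Representation k G F} {n : ℕ} {χ : G → k} (D : h40c_Cyc ρ n χ)

theorem h40c_pow_succ_apply (i : ℕ) (f : F) : (D.del ^ (i + 1)) f = D.del ((D.del ^ i) f) := by
  rw [pow_succ', Module.End.mul_apply]

theorem h40c_pow_succ_apply' (i : ℕ) (f : F) : (D.del ^ (i + 1)) f = (D.del ^ i) (D.del f) := by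
  rw [pow_succ, Module.End.mul_apply]

theorem h40c_pow_comm (i : ℕ) (g : G) (f : F) : (D.del ^ i) (ρ g f) = ρ g ((D.del ^ i) f) := by
  induction i with
  | zero => simp
  | succ i ih => rw [h40c_pow_succ_apply, ih, D.del_comm, ← h40c_pow_succ_apply]

theorem h40c_isHom_pow (i : ℕ) : Tools.IsHom ρ ρ (D.del ^ i) := fun g f => h40c_pow_comm D i g f

/-- `Δ^i e_{i+j} = e_j`. -/
theorem h40c_pow_e (i j : ℕ) (h : i + j < n) : (D.del ^ i) (D.e (i + j)) = D.e j := by
  induction i generalizing j with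
  | zero => simp
  | succ i ih =>
    rw [h40c_pow_succ_apply', show i + 1 + j = (i + j) + 1 by ring, D.del_e (i + j) (by omega)]
    exact ih j (by omega)

/-- `Δ^i e_i = e_0`. -/
theorem h40c_pow_e_self (i : ℕ) (h : i < n) : (D.del ^ i) (D.e i) = D.e 0 := by
  have := h40c_pow_e D i 0 (by omega)
  simpa using this

/-- `Δ^(i+1) e_i = 0`. -/
theorem h40c_pow_succ_e (i : ℕ) (h : i < n) : (D.del ^ (i + 1)) (D.e i) = 0 := by
  rw [h40c_pow_succ_apply, h40c_pow_e_self D i h, D.del_e0]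

/-- `Δ^i e_j = 0` for `j < i`. -/
theorem h40c_pow_e_lt (i j : ℕ) (hj : j < i) (h : j < n) : (D.del ^ i) (D.e j) = 0 := by
  obtain ⟨r, rfl⟩ : ∃ r, i = r + (j + 1) := ⟨i - (j + 1), by omega⟩
  rw [pow_add, Module.End.mul_apply, h40c_pow_succ_e D j h, map_zero]

/-- `Δ^(i-1) (g e_i - e_i) = - χ(g) e_0` for `1 ≤ i < n`. -/
theorem h40c_pow_act_e (i : ℕ) (hi : 1 ≤ i) (h : i < n) (g : G) :
    (D.del ^ (i - 1)) (ρ g (D.e i) - D.e i) = - χ g • D.e 0 := by
  have h1 : (D.del ^ (i - 1)) (D.e i) = D.e 1 := by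
    have := h40c_pow_e D (i - 1) 1 (by omega)
    rwa [show i - 1 + 1 = i by omega] at this
  rw [map_sub, h40c_pow_comm, h1, D.act_e1]

theorem h40c_eq_of_smul_e0 {a b : k} (h : a • D.e 0 = b • D.e 0) : a = b := by
  have := congrArg D.ev h
  simpa [D.ev_e0] using this

end Basic

section Cochains

variable {k : Type} [Field k] {G : Type} [Group G] {L : Lev G} {F : Type} [AddCommGroup F]
  [Module k F] {ρ : Representation k G F}

/-- `d¹ (a • v)` for a fixed vector `v`. -/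
theorem h40c_d1_smul_fixed (a : G → k) (v : F) (hv : ∀ g, ρ g v = v) :
    d1 ρ (fun g => a g • v) = fun x => d1 (Representation.trivial k G k) a x • v := by
  funext ⟨g, h⟩
  simp only [d1_apply, map_smul, hv, Representation.trivial_apply, add_smul, sub_smul]

/-- `d² (c • v)` for a fixed vector `v`. -/
theorem h40c_d2_smul_fixed (c : G × G → k) (v : F) (hv : ∀ g, ρ g v = v) :
    d2 ρ (fun x => c x • v) = fun x => d2 (Representation.trivial k G k) c x • v := by
  funext ⟨g, h, j⟩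
  simp only [d2_apply, map_smul, hv, Representation.trivial_apply, add_smul, sub_smul]

/-- `d¹ (ψ • v)` for an additive character `ψ`. -/
theorem h40c_d1_smul_char (ψ : G → k) (hψ : d1 (Representation.trivial k G k) ψ = 0) (v : F)
    (g h : G) : d1 ρ (fun g => ψ g • v) (g, h) = ψ h • (ρ g v - v) := by
  have h1 := congrFun hψ (g, h)
  simp only [d1_apply, Representation.trivial_apply, Pi.zero_apply] at h1
  have h2 : ψ (g * h) = ψ h + ψ g := by linear_combination -h1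
  simp only [d1_apply, map_smul, h2, add_smul, smul_sub]
  abel

/-- push-forward along an equivariant endomorphism commutes with `d¹`. -/
theorem h40c_d1_push (φ : F →ₗ[k] F) (hφ : Tools.IsHom ρ ρ φ) (ν : G → F) :
    d1 ρ (fun g => φ (ν g)) = fun x => φ (d1 ρ ν x) :=
  Tools.d1_push hφ ν

/-- push-forward along an equivariant endomorphism commutes with `d²`. -/
theorem h40c_d2_push (φ : F →ₗ[k] F) (hφ : Tools.IsHom ρ ρ φ) (m : G × G → F) :
    d2 ρ (fun x => φ (m x)) = fun x => φ (d2 ρ m x) :=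
  Tools.d2_push hφ m

theorem h40c_isLC1_smul {a : G → k} (ha : IsLC1 L a) (v : F) : IsLC1 L (fun g => a g • v) :=
  ha.comp (fun t => t • v)

theorem h40c_isLC1_sum (i : ℕ) (a : ℕ → G → k) (ha : ∀ j, IsLC1 L (a j)) (e : ℕ → F) :
    IsLC1 L (fun g => ∑ j ∈ Finset.range i, a j g • e j) := by
  induction i with
  | zero => simpa using isLC1_const L (0 : F)
  | succ i ih =>
    have h := ih.add (h40c_isLC1_smul (ha i) (e i))
    have e1 : (fun g => ∑ j ∈ Finset.range (i + 1), a j g • e j)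
        = (fun g => ∑ j ∈ Finset.range i, a j g • e j) + fun g => a i g • e i := by
      funext g
      simp [Finset.sum_range_succ]
    rw [e1]
    exact h

/-- the cup product of two characters is level-constant. -/
theorem h40c_isLC2_cup {χ ψ : G → k} (hχ : IsLC1 L χ) (hψ : IsLC1 L ψ) :
    IsLC2 L (cup11 (LinearMap.mul k k) (Representation.trivial k G k) χ ψ) := by
  obtain ⟨N₁, h₁, hχ⟩ := hχ
  obtain ⟨N₂, h₂, hψ⟩ := hψ
  obtain ⟨N, hN, hle⟩ := L.directed N₁ h₁ N₂ h₂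
  refine ⟨N, hN, fun g g' s s' hs hs' => ?_⟩
  simp only [cup11_apply, Representation.trivial_apply, LinearMap.mul_apply']
  rw [hχ g s (hle hs).1, hψ g' s' (hle hs').2]

/-- the cup product of two characters is a cocycle. -/
theorem h40c_cup_mem_Z2 {χ ψ : G → k} (hχ : χ ∈ Z1 L (Representation.trivial k G k))
    (hψ : ψ ∈ Z1 L (Representation.trivial k G k)) :
    cup11 (LinearMap.mul k k) (Representation.trivial k G k) χ ψ
      ∈ Z2 L (Representation.trivial k G k) := by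
  rw [mem_Z1] at hχ hψ
  rw [mem_Z2]
  refine ⟨?_, h40c_isLC2_cup hχ.2 hψ.2⟩
  funext ⟨g, h, j⟩
  have h1 := congrFun hχ.1 (g, h)
  have h2 := congrFun hψ.1 (h, j)
  simp only [d1_apply, Representation.trivial_apply, Pi.zero_apply] at h1 h2
  simp only [d2_apply, cup11_apply, Representation.trivial_apply, LinearMap.mul_apply',
    Pi.zero_apply]
  linear_combination (ψ j) * h1 - (χ g) * h2

theorem h40c_cup_smul (χ ψ : G → k) (t : k) :
    cup11 (LinearMap.mul k k) (Representation.trivial k G k) χ (t • ψ)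
      = t • cup11 (LinearMap.mul k k) (Representation.trivial k G k) χ ψ := by
  funext ⟨g, h⟩
  simp only [cup11_apply, Representation.trivial_apply, LinearMap.mul_apply', Pi.smul_apply,
    smul_eq_mul]
  ring

/-- by (i) and (ii), every class of `H²(G, k)` is a cup product `χ ∪ ψ`. -/
theorem h40c_fill {χ : G → k} (hχ : χ ∈ Z1 L (Representation.trivial k G k))
    (hi : ∃ c₀ ∈ Z2 L (Representation.trivial k G k),
      ∀ c ∈ Z2 L (Representation.trivial k G k),
        ∃ t : k, c - t • c₀ ∈ B2 L (Representation.trivial k G k))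
    (hii : ∃ ψ ∈ Z1 L (Representation.trivial k G k),
      cup11 (LinearMap.mul k k) (Representation.trivial k G k) χ ψ ∉
        B2 L (Representation.trivial k G k))
    (c : G × G → k) (hc : c ∈ Z2 L (Representation.trivial k G k)) :
    ∃ ψ ∈ Z1 L (Representation.trivial k G k),
      c - cup11 (LinearMap.mul k k) (Representation.trivial k G k) χ ψ
        ∈ B2 L (Representation.trivial k G k) := by
  obtain ⟨c₀, -, hc₀⟩ := hi
  obtain ⟨ψ₀, hψ₀, hcup⟩ := hii
  obtain ⟨s, hs⟩ := hc₀ _ (h40c_cup_mem_Z2 hχ hψ₀)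
  obtain ⟨t, ht⟩ := hc₀ c hc
  have hs0 : s ≠ 0 := by
    rintro rfl
    rw [zero_smul, sub_zero] at hs
    exact hcup hs
  refine ⟨(t / s) • ψ₀, Submodule.smul_mem _ _ hψ₀, ?_⟩
  rw [h40c_cup_smul]
  have e : c - (t / s) • cup11 (LinearMap.mul k k) (Representation.trivial k G k) χ ψ₀
      = (c - t • c₀)
        - (t / s) • (cup11 (LinearMap.mul k k) (Representation.trivial k G k) χ ψ₀ - s • c₀) := by
    rw [smul_sub, smul_smul, div_mul_cancel₀ t hs0]
    abel
  rw [e]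
  exact Submodule.sub_mem _ ht (Submodule.smul_mem _ _ hs)

/-- the same for a non-coboundary class instead of a cup product. -/
theorem h40c_fill' (hi : ∃ c₀ ∈ Z2 L (Representation.trivial k G k),
      ∀ c ∈ Z2 L (Representation.trivial k G k),
        ∃ t : k, c - t • c₀ ∈ B2 L (Representation.trivial k G k))
    (c₁ : G × G → k) (hc₁ : c₁ ∈ Z2 L (Representation.trivial k G k))
    (hc₁' : c₁ ∉ B2 L (Representation.trivial k G k))
    (c : G × G → k) (hc : c ∈ Z2 L (Representation.trivial k G k)) :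
    ∃ t : k, c - t • c₁ ∈ B2 L (Representation.trivial k G k) := by
  obtain ⟨c₀, -, hc₀⟩ := hi
  obtain ⟨s, hs⟩ := hc₀ c₁ hc₁
  obtain ⟨t, ht⟩ := hc₀ c hc
  have hs0 : s ≠ 0 := by
    rintro rfl
    rw [zero_smul, sub_zero] at hs
    exact hc₁' hs
  refine ⟨t / s, ?_⟩
  have e : c - (t / s) • c₁ = (c - t • c₀) - (t / s) • (c₁ - s • c₀) := by
    rw [smul_sub, smul_smul, div_mul_cancel₀ t hs0]
    abel
  rw [e]
  exact Submodule.sub_mem _ ht (Submodule.smul_mem _ _ hs)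

theorem h40c_isLC1_sub {X : Type*} [AddGroup X] {f f' : G → X} (hf : IsLC1 L f)
    (hf' : IsLC1 L f') : IsLC1 L (f - f') := by
  rw [sub_eq_add_neg]
  exact hf.add (hf'.comp (fun y => -y))

theorem h40c_isLC2_sub {X : Type*} [AddGroup X] {f f' : G × G → X} (hf : IsLC2 L f)
    (hf' : IsLC2 L f') : IsLC2 L (f - f') := by
  rw [sub_eq_add_neg]
  exact hf.add (hf'.comp (fun y => -y))

end Cochains

section Induction

variable {k : Type} [Field k] {G : Type} [Group G] {L : Lev G} {F : Type} [AddCommGroup F]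
  [Module k F] {ρ : Representation k G F} {n : ℕ} {χ : G → k} (D : h40c_Cyc ρ n χ)

/-- `Δ^i d¹(a • e_i) = d¹(a) • e_0`. -/
theorem h40c_pow_d1_smul_e (i : ℕ) (hi : i < n) (a : G → k) (x : G × G) :
    (D.del ^ i) (d1 ρ (fun g => a g • D.e i) x)
      = d1 (Representation.trivial k G k) a x • D.e 0 := by
  have h := congrFun (h40c_d1_push (D.del ^ i) (h40c_isHom_pow D i) (fun g => a g • D.e i)) x
  rw [← h]
  simp only [map_smul, h40c_pow_e_self D i hi]
  rw [h40c_d1_smul_fixed a (D.e 0) D.act_e0]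

/-- `Δ^(i-1) d¹(ψ • e_i) = - (χ ∪ ψ) • e_0` for an additive character `ψ`. -/
theorem h40c_pow_pred_d1_char_e (i : ℕ) (h1 : 1 ≤ i) (hi : i < n) (ψ : G → k)
    (hψ : d1 (Representation.trivial k G k) ψ = 0) (x : G × G) :
    (D.del ^ (i - 1)) (d1 ρ (fun g => ψ g • D.e i) x)
      = - (cup11 (LinearMap.mul k k) (Representation.trivial k G k) χ ψ x) • D.e 0 := by
  obtain ⟨g, h⟩ := x
  rw [h40c_d1_smul_char ψ hψ, map_smul, h40c_pow_act_e D i h1 hi]
  simp only [cup11_apply, Representation.trivial_apply, LinearMap.mul_apply', smul_smul,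
    neg_smul, smul_neg]
  rw [mul_comm]

/-- the claim `A_i`. -/
def h40c_A (L : Lev G) (D : h40c_Cyc ρ n χ) (i : ℕ) : Prop :=
  ∀ m ∈ Z2 L ρ, (∀ x, (D.del ^ i) (m x) = 0) →
    (∃ b ∈ B2 L (Representation.trivial k G k), ∀ x, (D.del ^ (i - 1)) (m x) = b x • D.e 0) →
    ∃ a : ℕ → G → k, (∀ j, IsLC1 L (a j)) ∧
      m = d1 ρ (fun g => ∑ j ∈ Finset.range i, a j g • D.e j)

theorem h40c_A_one : h40c_A L D 1 := by
  intro m _ _ ⟨b, hb, hmb⟩
  rw [mem_B2] at hb
  obtain ⟨a₀, ha₀, rfl⟩ := hb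
  refine ⟨fun _ => a₀, fun _ => ha₀, ?_⟩
  have e1 : (fun g => ∑ j ∈ Finset.range 1, a₀ g • D.e j) = fun g => a₀ g • D.e 0 := by
    funext g
    simp
  rw [e1, h40c_d1_smul_fixed a₀ (D.e 0) D.act_e0]
  funext x
  have := hmb x
  simpa using this

theorem h40c_A_succ (hL : L.Good) (hρ : IsDisc L ρ)
    (hχ : χ ∈ Z1 L (Representation.trivial k G k))
    (hi : ∃ c₀ ∈ Z2 L (Representation.trivial k G k),
      ∀ c ∈ Z2 L (Representation.trivial k G k),
        ∃ t : k, c - t • c₀ ∈ B2 L (Representation.trivial k G k))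
    (hii : ∃ ψ ∈ Z1 L (Representation.trivial k G k),
      cup11 (LinearMap.mul k k) (Representation.trivial k G k) χ ψ ∉
        B2 L (Representation.trivial k G k))
    (i : ℕ) (h1 : 1 ≤ i) (hin : i + 1 ≤ n) (ih : h40c_A L D i) : h40c_A L D (i + 1) := by
  intro m hm _ ⟨b, hb, hmb⟩
  rw [mem_B2] at hb
  obtain ⟨a₀, ha₀, rfl⟩ := hb
  rw [mem_Z2] at hm
  have hin' : i < n := by omega
  -- first correction
  have hν₀lc : IsLC1 L (fun g => a₀ g • D.e i) := h40c_isLC1_smul ha₀ _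
  obtain ⟨m', hm'⟩ : ∃ m', m' = m - d1 ρ (fun g => a₀ g • D.e i) := ⟨_, rfl⟩
  have hm'lc : IsLC2 L m' := by
    rw [hm']
    exact h40c_isLC2_sub hm.2 (Tools.isLC2_d1 hL hρ hν₀lc)
  have hm'd : d2 ρ m' = 0 := by
    rw [hm', map_sub, hm.1, Tools.d2_d1, sub_zero]
  have hm'i : ∀ x, (D.del ^ i) (m' x) = 0 := by
    intro x
    have h2 := hmb x
    rw [Nat.add_sub_cancel] at h2
    rw [hm', Pi.sub_apply, map_sub, h2, h40c_pow_d1_smul_e D i hin', sub_self]
  -- the class of `Δ^(i-1) m'`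
  obtain ⟨c', hc'⟩ : ∃ c' : G × G → k, c' = fun x => D.ev ((D.del ^ (i - 1)) (m' x)) :=
    ⟨_, rfl⟩
  have hc'e : ∀ x, (D.del ^ (i - 1)) (m' x) = c' x • D.e 0 := by
    intro x
    rw [hc']
    apply D.ker_del
    rw [← h40c_pow_succ_apply, show i - 1 + 1 = i by omega]
    exact hm'i x
  have hc'lc : IsLC2 L c' := by
    rw [hc']
    exact hm'lc.comp (fun f => D.ev ((D.del ^ (i - 1)) f))
  have hc'Z : c' ∈ Z2 L (Representation.trivial k G k) := by
    rw [mem_Z2]
    refine ⟨?_, hc'lc⟩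
    funext x
    apply h40c_eq_of_smul_e0 D
    rw [Pi.zero_apply, zero_smul]
    have h3 := congrFun (h40c_d2_smul_fixed (ρ := ρ) c' (D.e 0) D.act_e0) x
    rw [← h3]
    have h4 : (fun x => c' x • D.e 0) = fun x => (D.del ^ (i - 1)) (m' x) := by
      funext y
      exact (hc'e y).symm
    rw [h4, h40c_d2_push (D.del ^ (i - 1)) (h40c_isHom_pow D (i - 1)), hm'd]
    simp
  obtain ⟨ψ, hψ, hcψ⟩ := h40c_fill hχ hi hii c' hc'Z
  have hψ' := (mem_Z1 L _ ψ).1 hψ
  -- second correction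
  have hν₁lc : IsLC1 L (fun g => ψ g • D.e i) := h40c_isLC1_smul hψ'.2 _
  obtain ⟨m'', hm''⟩ : ∃ m'', m'' = m' + d1 ρ (fun g => ψ g • D.e i) := ⟨_, rfl⟩
  have hm''Z : m'' ∈ Z2 L ρ := by
    rw [mem_Z2, hm'']
    refine ⟨?_, hm'lc.add (Tools.isLC2_d1 hL hρ hν₁lc)⟩
    rw [map_add, hm'd, Tools.d2_d1, add_zero]
  have hm''i : ∀ x, (D.del ^ i) (m'' x) = 0 := by
    intro x
    rw [hm'', Pi.add_apply, map_add, hm'i x, h40c_pow_d1_smul_e D i hin', hψ'.1]
    simp
  have hm''b : ∀ x, (D.del ^ (i - 1)) (m'' x)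
      = (c' - cup11 (LinearMap.mul k k) (Representation.trivial k G k) χ ψ) x • D.e 0 := by
    intro x
    rw [hm'', Pi.add_apply, map_add, h40c_pow_pred_d1_char_e D i h1 hin' ψ hψ'.1, hc'e x,
      Pi.sub_apply, sub_smul, neg_smul]
    abel
  obtain ⟨a, ha, hma⟩ := ih m'' hm''Z hm''i ⟨_, hcψ, hm''b⟩
  refine ⟨fun j => if j = i then a₀ - ψ else a j, fun j => ?_, ?_⟩
  · beta_reduce
    by_cases hj : j = i
    · rw [if_pos hj]
      exact h40c_isLC1_sub ha₀ hψ'.2
    · rw [if_neg hj]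
      exact ha j
  · have e1 : (fun g => ∑ j ∈ Finset.range (i + 1),
          (if j = i then a₀ - ψ else a j) g • D.e j)
        = (fun g => ∑ j ∈ Finset.range i, a j g • D.e j) - (fun g => ψ g • D.e i)
          + fun g => a₀ g • D.e i := by
      funext g
      rw [Finset.sum_range_succ, if_pos rfl]
      have : ∑ j ∈ Finset.range i, (if j = i then a₀ - ψ else a j) g • D.e j
          = ∑ j ∈ Finset.range i, a j g • D.e j :=
        Finset.sum_congr rfl (fun j hj => by rw [if_neg (Finset.mem_range.mp hj).ne])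
      rw [this]
      simp only [Pi.add_apply, Pi.sub_apply, sub_smul]
      abel
    rw [e1, map_add, map_sub, ← hma, hm'', hm']
    abel

/-- `A_i` for all `1 ≤ i ≤ n`. -/
theorem h40c_A_all (hL : L.Good) (hρ : IsDisc L ρ)
    (hχ : χ ∈ Z1 L (Representation.trivial k G k))
    (hi : ∃ c₀ ∈ Z2 L (Representation.trivial k G k),
      ∀ c ∈ Z2 L (Representation.trivial k G k),
        ∃ t : k, c - t • c₀ ∈ B2 L (Representation.trivial k G k))
    (hii : ∃ ψ ∈ Z1 L (Representation.trivial k G k),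
      cup11 (LinearMap.mul k k) (Representation.trivial k G k) χ ψ ∉
        B2 L (Representation.trivial k G k))
    (i : ℕ) (h1 : 1 ≤ i) (hin : i ≤ n) : h40c_A L D i := by
  induction i with
  | zero => omega
  | succ i ih =>
    by_cases h0 : i = 0
    · subst h0
      exact h40c_A_one D
    · exact h40c_A_succ D hL hρ hχ hi hii i (by omega) hin (ih (by omega) (by omega))

/-- the class of `Δ^i m` for a cocycle `m` with values in `ker Δ^(i+1)`. -/
theorem h40c_class (i : ℕ) (m : G × G → F) (hm : m ∈ Z2 L ρ)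
    (hker : ∀ x, (D.del ^ (i + 1)) (m x) = 0) :
    ∃ c ∈ Z2 L (Representation.trivial k G k), ∀ x, (D.del ^ i) (m x) = c x • D.e 0 := by
  rw [mem_Z2] at hm
  have hce : ∀ x, (D.del ^ i) (m x) = D.ev ((D.del ^ i) (m x)) • D.e 0 := by
    intro x
    apply D.ker_del
    rw [← h40c_pow_succ_apply]
    exact hker x
  refine ⟨fun x => D.ev ((D.del ^ i) (m x)), ?_, hce⟩
  rw [mem_Z2]
  refine ⟨?_, hm.2.comp (fun f => D.ev ((D.del ^ i) f))⟩
  funext x
  apply h40c_eq_of_smul_e0 D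
  rw [Pi.zero_apply, zero_smul]
  have h3 := congrFun (h40c_d2_smul_fixed (ρ := ρ) (fun x => D.ev ((D.del ^ i) (m x)))
    (D.e 0) D.act_e0) x
  rw [← h3]
  have h4 : (fun x => D.ev ((D.del ^ i) (m x)) • D.e 0) = fun x => (D.del ^ i) (m x) := by
    funext y
    exact (hce y).symm
  rw [h4, h40c_d2_push (D.del ^ i) (h40c_isHom_pow D i), hm.1]
  simp

/-- **the abstract cyclic step.** -/
theorem h40c_final (hn : 2 ≤ n) (hL : L.Good) (hρ : IsDisc L ρ)
    (hχ : χ ∈ Z1 L (Representation.trivial k G k))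
    (hi : ∃ c₀ ∈ Z2 L (Representation.trivial k G k),
      ∀ c ∈ Z2 L (Representation.trivial k G k),
        ∃ t : k, c - t • c₀ ∈ B2 L (Representation.trivial k G k))
    (hii : ∃ ψ ∈ Z1 L (Representation.trivial k G k),
      cup11 (LinearMap.mul k k) (Representation.trivial k G k) χ ψ ∉
        B2 L (Representation.trivial k G k))
    (hm0 : ∃ m₀ ∈ Z2 L ρ, m₀ ∉ B2 L ρ)
    (c : G × G × G → k)
    (hm : ∃ m : G × G → F, IsLC2 L m ∧ d2 ρ m = fun x => c x • D.e 0) :
    c ∈ B3 L (Representation.trivial k G k) := by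
  obtain ⟨r, rfl⟩ : ∃ r, n = r + 2 := ⟨n - 2, by omega⟩
  obtain ⟨m₀, hm₀Z, hm₀B⟩ := hm0
  obtain ⟨m, hmlc, hmd⟩ := hm
  have hm₀Z' := (mem_Z2 L ρ m₀).1 hm₀Z
  -- the class of `Δ^(n-1) m₀` is not a coboundary
  obtain ⟨c₁, hc₁Z, hc₁e⟩ := h40c_class D (r + 1) m₀ hm₀Z (fun x => D.del_pow (m₀ x))
  have hc₁B : c₁ ∉ B2 L (Representation.trivial k G k) := by
    intro hB
    obtain ⟨a, ha, hma⟩ := h40c_A_all D hL hρ hχ hi hii (r + 2) (by omega) le_rfl m₀ hm₀Z
      (fun x => D.del_pow (m₀ x)) ⟨c₁, hB, hc₁e⟩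
    apply hm₀B
    rw [mem_B2]
    exact ⟨_, h40c_isLC1_sum (r + 2) a ha D.e, hma.symm⟩
  -- `Δ m` is a cocycle
  have hdelm : (fun x => D.del (m x)) ∈ Z2 L ρ := by
    rw [mem_Z2]
    refine ⟨?_, hmlc.comp D.del⟩
    have h1 := h40c_d2_push D.del (fun g f => D.del_comm g f) m
    rw [h1, hmd]
    funext x
    simp [D.del_e0]
  obtain ⟨c₂, hc₂Z, hc₂e⟩ := h40c_class D r (fun x => D.del (m x)) hdelm (fun x => by
    rw [← h40c_pow_succ_apply']
    exact D.del_pow (m x))
  obtain ⟨t, ht⟩ := h40c_fill' hi c₁ hc₁Z hc₁B c₂ hc₂Z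
  -- `m₁ = Δ (m - t m₀)`
  obtain ⟨m₁, hm₁⟩ : ∃ m₁ : G × G → F, m₁ = fun x => D.del (m x - t • m₀ x) := ⟨_, rfl⟩
  have hm₁Z : m₁ ∈ Z2 L ρ := by
    have e : m₁ = (fun x => D.del (m x)) - t • (fun x => D.del (m₀ x)) := by
      rw [hm₁]
      funext x
      simp
    rw [e]
    refine Submodule.sub_mem _ hdelm (Submodule.smul_mem _ _ ?_)
    rw [mem_Z2]
    refine ⟨?_, hm₀Z'.2.comp D.del⟩
    have h1 := h40c_d2_push D.del (fun g f => D.del_comm g f) m₀
    rw [h1, hm₀Z'.1]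
    funext x
    simp
  have hm₁a : ∀ x, (D.del ^ (r + 1)) (m₁ x) = 0 := by
    intro x
    rw [hm₁, ← h40c_pow_succ_apply']
    exact D.del_pow _
  have hm₁b : ∀ x, (D.del ^ (r + 1 - 1)) (m₁ x) = (c₂ - t • c₁) x • D.e 0 := by
    intro x
    rw [Nat.add_sub_cancel, hm₁]
    simp only [map_sub, map_smul]
    rw [hc₂e x, ← h40c_pow_succ_apply', hc₁e x]
    simp only [Pi.sub_apply, Pi.smul_apply, sub_smul, smul_eq_mul, mul_smul]
  obtain ⟨a, ha, hma⟩ := h40c_A_all D hL hρ hχ hi hii (r + 1) (by omega) (by omega) m₁ hm₁Z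
    hm₁a ⟨_, ht, hm₁b⟩
  -- the lift of the primitive
  have hñlc : IsLC1 L (fun g => ∑ j ∈ Finset.range (r + 1), a j g • D.e (j + 1)) :=
    h40c_isLC1_sum (r + 1) a ha (fun j => D.e (j + 1))
  have hñ : ∀ g, D.del (∑ j ∈ Finset.range (r + 1), a j g • D.e (j + 1))
      = ∑ j ∈ Finset.range (r + 1), a j g • D.e j := by
    intro g
    rw [map_sum]
    refine Finset.sum_congr rfl (fun j hj => ?_)
    rw [map_smul, D.del_e j (by have := Finset.mem_range.mp hj; omega)]
  -- `w = m - t m₀ - d ñ` has values in `ker Δ`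
  obtain ⟨w, hw⟩ : ∃ w : G × G → F, w = m - t • m₀
      - d1 ρ (fun g => ∑ j ∈ Finset.range (r + 1), a j g • D.e (j + 1)) := ⟨_, rfl⟩
  have hwlc : IsLC2 L w := by
    rw [hw]
    exact h40c_isLC2_sub (h40c_isLC2_sub hmlc (hm₀Z'.2.comp (fun f => t • f)))
      (Tools.isLC2_d1 hL hρ hñlc)
  have hwker : ∀ x, D.del (w x) = 0 := by
    intro x
    have h1 := congrFun (h40c_d1_push D.del (fun g f => D.del_comm g f)
      (fun g => ∑ j ∈ Finset.range (r + 1), a j g • D.e (j + 1))) x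
    simp only [hñ] at h1
    rw [hw, Pi.sub_apply, map_sub, ← h1, ← hma, hm₁]
    simp
  have hwe : w = fun x => D.ev (w x) • D.e 0 := by
    funext x
    exact D.ker_del _ (hwker x)
  rw [mem_B3]
  refine ⟨fun x => D.ev (w x), hwlc.comp D.ev, ?_⟩
  funext x
  apply h40c_eq_of_smul_e0 D
  have h3 := congrFun (h40c_d2_smul_fixed (ρ := ρ) (fun x => D.ev (w x)) (D.e 0) D.act_e0) x
  rw [← h3, ← hwe, hw, map_sub, map_sub, map_smul, hm₀Z'.1, Tools.d2_d1, hmd]
  simp

end Induction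

end Fermat.Agent.PT.Loc
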