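import Fermat.Agent.PT.Loc.H40VanCycIface
import Fermat.Agent.PT.Loc.H40VanCycCore

/-!
# W3-PT, PT-LOC, leaf LOC2-VANCYC-CORE: `h40c_core : h40c_CoreStatement` (helper40)
-/

set_option autoImplicit false

namespace Fermat.Agent.PT.Loc

open Fermat.Agent.PT

/-- **CORE** of `VanCycAbs`. -/
theorem h40c_core : h40c_CoreStatement := by
  intro k _ G _ L F _ _ ρ n χ D hn hL hρ hχ hi hii hm0 c _ hm
  exact h40c_final D hn hL hρ hχ hi hii hm0 c hm

/-- `VanCycAbs` from the two remaining leaves. -/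
theorem h40c_vanCycAbs_of' (hM : h40c_ModelStatement) (hS : h40c_ShapStatement) : VanCycAbs :=
  h40c_vanCycAbs_of h40c_core hM hS

end Fermat.Agent.PT.Loc
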