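import Fermat.Agent.PT.Defs

/-!
# W3-PT, PT-LOC, leaf LOC2-VAN-CYCABS (`VanCycAbs`): the abstract cyclic datum (helper40)

`h40c_Cyc ρ n χ` axiomatises the module `F = Fun(G/H, k)` (`H ◁ G` of index `n = p`, `k = 𝔽_p`)
with its difference operator `Δ` (`del`), the binomial functions `e j` (`j < n`), the evaluation
`ev` and the character `χ` with kernel `H`:

* `del` is `G`-equivariant, `del (e (j+1)) = e j`, `del (e 0) = 0`, `del ^ n = 0`;
* `e 0` is `G`-fixed, `ker del = k • e 0` (`ker_del`, with the linear functional `ev`);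
* `g e₁ - e₁ = - χ(g) e₀`.

Definitions only.
-/

set_option autoImplicit false

namespace Fermat.Agent.PT.Loc

open Fermat.Agent.PT

/-- the abstract cyclic datum (see the file header). -/
structure h40c_Cyc {k : Type} [Field k] {G : Type} [Group G] {F : Type} [AddCommGroup F]
    [Module k F] (ρ : Representation k G F) (n : ℕ) (χ : G → k) where
  /-- the difference operator `Δ` -/
  del : F →ₗ[k] F
  /-- the binomial functions `e j` (only `j < n` matters) -/
  e : ℕ → F
  /-- the evaluation at the base point -/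
  ev : F →ₗ[k] k
  del_comm : ∀ g f, del (ρ g f) = ρ g (del f)
  ev_e0 : ev (e 0) = 1
  act_e0 : ∀ g, ρ g (e 0) = e 0
  ker_del : ∀ f, del f = 0 → f = ev f • e 0
  del_e0 : del (e 0) = 0
  del_e : ∀ j, j + 1 < n → del (e (j + 1)) = e j
  act_e1 : ∀ g, ρ g (e 1) - e 1 = - χ g • e 0
  del_pow : ∀ f, (del ^ n) f = 0

end Fermat.Agent.PT.Loc
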