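import Fermat.Agent.PT.Loc.H40VanCycDefs
import Fermat.Agent.PT.Loc.Top
import Fermat.Agent.PT.Shap.SecVan

/-!
# W3-PT, PT-LOC, leaf LOC2-VAN-CYCABS (`VanCycAbs`): split into three leaves (helper40)

* `h40c_CoreStatement`  (CORE, pure algebra on an abstract `h40c_Cyc`): the induction `A_i` and
  the final step;
* `h40c_ModelStatement` (MODEL): `Fun(G/H, 𝔽_p)` carries a `h40c_Cyc` (character with kernel `H`,
  difference operator, binomial functions);
* `h40c_ShapStatement`  (SHAP): the two facts from Shapiro's lemma (PT-SHAP, `Shap/SecVan.lean`);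
* `h40c_vanCycAbs_of : Core → Model → Shap → VanCycAbs`.

Hypothesis (iv) of `VanCycAbs` is not used.
-/

set_option autoImplicit false

namespace Fermat.Agent.PT.Loc

open Fermat.Agent.PT Fermat.Agent.PT.Shap

/-- CORE: the abstract cyclic step. -/
def h40c_CoreStatement : Prop :=
  ∀ (k : Type) [Field k] (G : Type) [Group G] (L : Lev G) (F : Type) [AddCommGroup F]
    [Module k F] (ρ : Representation k G F) (n : ℕ) (χ : G → k) (D : h40c_Cyc ρ n χ),
    2 ≤ n → L.Good → IsDisc L ρ →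
    χ ∈ Z1 L (Representation.trivial k G k) →
    (∃ c₀ ∈ Z2 L (Representation.trivial k G k),
      ∀ c ∈ Z2 L (Representation.trivial k G k),
        ∃ t : k, c - t • c₀ ∈ B2 L (Representation.trivial k G k)) →
    (∃ ψ ∈ Z1 L (Representation.trivial k G k),
      cup11 (LinearMap.mul k k) (Representation.trivial k G k) χ ψ ∉
        B2 L (Representation.trivial k G k)) →
    (∃ m₀ ∈ Z2 L ρ, m₀ ∉ B2 L ρ) →
    ∀ c ∈ Z3 L (Representation.trivial k G k),
      (∃ m : G × G → F, IsLC2 L m ∧ d2 ρ m = fun x => c x • D.e 0) →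
      c ∈ B3 L (Representation.trivial k G k)

/-- MODEL: `Fun(G/H, 𝔽_p)` carries a cyclic datum. -/
def h40c_ModelStatement : Prop :=
  ∀ (p : ℕ) [Fact p.Prime] (G : Type) [Group G] (L : Lev G), L.Good →
    ∀ (H : Subgroup G), H.Normal → L.IsOpen H → H.index = p →
    ∃ χ ∈ Z1 L (Representation.trivial (ZMod p) G (ZMod p)), (∀ h ∈ H, χ h = 0) ∧ χ ≠ 0 ∧
      ∃ D : h40c_Cyc (h56s_ind (X := G ⧸ H) (Representation.trivial (ZMod p) G (ZMod p))) p χ,
        D.e 0 = fun _ => 1

/-- SHAP: the two consequences of Shapiro's lemma for `Fun(G/H, 𝔽_p)`. -/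
def h40c_ShapStatement : Prop :=
  ∀ (p : ℕ) [Fact p.Prime] (G : Type) [Group G] (L : Lev G), L.Good →
    ∀ (H : Subgroup G), L.IsOpen H →
    (∀ c ∈ Z3 L (Representation.trivial (ZMod p) G (ZMod p)),
      res3 (ZMod p) (ZMod p) H.subtype c ∈
        B3 (L.comap H.subtype) (Representation.trivial (ZMod p) ↥H (ZMod p)) →
      ∃ m : G × G → (G ⧸ H) → ZMod p, IsLC2 L m ∧
        d2 (h56s_ind (X := G ⧸ H) (Representation.trivial (ZMod p) G (ZMod p))) m
          = fun x _ => c x) ∧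
    ((∃ c ∈ Z2 (L.comap H.subtype) (Representation.trivial (ZMod p) ↥H (ZMod p)),
        c ∉ B2 (L.comap H.subtype) (Representation.trivial (ZMod p) ↥H (ZMod p))) →
      ∃ m₀ ∈ Z2 L (h56s_ind (X := G ⧸ H) (Representation.trivial (ZMod p) G (ZMod p))),
        m₀ ∉ B2 L (h56s_ind (X := G ⧸ H) (Representation.trivial (ZMod p) G (ZMod p))))

/-- the permutation module of an open subgroup of finite index is discrete. -/
theorem h40c_isDisc {k : Type} [CommRing k] {G : Type} [Group G] {L : Lev G} (hL : L.Good)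
    {H : Subgroup G} (hH : L.IsOpen H) :
    IsDisc L (h56s_ind (X := G ⧸ H) (Representation.trivial k G k)) := by
  intro f
  obtain ⟨N₀, hN₀⟩ := L.nonempty
  obtain ⟨N, hN, hn, -, hle2⟩ := h56s_exists_level hL hH N₀ hN₀
  refine ⟨N, hN, fun s hs => ?_⟩
  funext x
  rw [h56s_ind_apply, h56s_smul_eq_of_normal_le hn hle2 s⁻¹ (N.inv_mem hs) x]
  rfl

/-- **assembly**: `VanCycAbs` from the three leaves. -/
theorem h40c_vanCycAbs_of (hC : h40c_CoreStatement) (hM : h40c_ModelStatement)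
    (hS : h40c_ShapStatement) : VanCycAbs := by
  intro p _ G _ L hL H hHn hHo hidx h1 h2 h3 _ c hc hres
  obtain ⟨χ, hχ, hχH, hχ0, D, hD0⟩ := hM p G L hL H hHn hHo hidx
  obtain ⟨hSa, hSb⟩ := hS p G L hL H hHo
  obtain ⟨m, hm, hdm⟩ := hSa c hc hres
  refine hC (ZMod p) G L _ _ p χ D (Fact.out : p.Prime).two_le hL (h40c_isDisc hL hHo) hχ h1
    (h2 χ hχ hχH hχ0) (hSb h3) c hc ⟨m, hm, ?_⟩
  rw [hdm, hD0]
  funext x y
  simp

end Fermat.Agent.PT.Loc
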