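import Mathlib
import Fermat.Agent.PT.Glob.KIface2
import Fermat.Agent.PT.Loc.Iface3
import Fermat.Agent.PT.Loc.H48Wire

/-!
# W3-PT / PT-LOC, leaf LOC3-K-TRGEN (helper43)

`h43t_trGen_of : TrGenRel → ∀ p TS, (∀ q, TS.inv q = invFam p q) → Glob.TrGen TS`:
the Prop `Glob.TrGen` of `PT/Glob/KIface2.lean` for every trace system whose local invariants
are the family `invFam p` of `PT/Loc/H48Wire.lean`, from the relative leaf `TrGenRel`
(`PT/Loc/Iface3.lean`).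
-/

set_option autoImplicit false

noncomputable section

namespace Fermat.Agent.PT.Loc

/-- LOC3-K-TRGEN: `Glob.TrGen TS` for every trace system with local invariants `invFam p`. -/
theorem h43t_trGen_of (hT : TrGenRel) (p : ℕ) [Fact p.Prime] (TS : Glob.TrSys p)
    (h : ∀ q : Nat.Primes, TS.inv q = invFam p q) : Glob.TrGen TS := by
  intro q _ ζ hζ hprim c₀ hgen
  rw [h q]
  exact @hT (q : ℕ) ⟨q.2⟩ p _ ζ hζ hprim c₀ hgen

/-- The same statement for the family itself: `invFam p q` does not vanish on the standard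
generators. -/
theorem h43t_invFam_ne_zero (hT : TrGenRel) (p : ℕ) [Fact p.Prime] (q : Nat.Primes)
    (ζ : @Om (q : ℕ) ⟨q.2⟩) (hζ : ζ ∈ (⊥ : @LF (q : ℕ) ⟨q.2⟩)) (hprim : IsPrimitiveRoot ζ p)
    (c₀ : @Gq (q : ℕ) ⟨q.2⟩ × @Gq (q : ℕ) ⟨q.2⟩ → ZMod p)
    (hgen : @IsGen p (q : ℕ) ⟨q.2⟩ (⊥ : @LF (q : ℕ) ⟨q.2⟩) ζ c₀) :
    invFam p q c₀ ≠ 0 :=
  @hT (q : ℕ) ⟨q.2⟩ p _ ζ hζ hprim c₀ hgen

end Fermat.Agent.PT.Loc

end
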