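import Mathlib
import Fermat.Agent.PT.Loc.H48Final2
import Fermat.Agent.PT.Loc.H84VanCyc

/-!
# W3-PT / PT-LOC (helper48): the local deliverable through the abstract cyclic step `VanCycAbs`

Independent of `Loc/H48LocBase.lean` (which uses the Euler characteristic).
-/

set_option autoImplicit false

namespace Fermat.Agent.PT.Loc

/-- `H³(G_K, 𝔽_p) = 0` for `μ_p ⊆ K` (relative form). -/
theorem h48a_h3Van : H3Van := h48f_h3Van_of_vanCyc h84_vanCycAbs

/-- LOC-BASE through `VanCycAbs`. -/
theorem h48a_locBase : LocBase := h48f_locBase_of_vanCyc h84_vanCycAbs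

end Fermat.Agent.PT.Loc
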