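import Mathlib
import Fermat.Agent.PT.Loc.H33NIIface

/-!
# W3-PT / PT-LOC, block NI, leaf LOC-NI-NB (helper49)

`h49nb_normalBasis : H33NormalBasis`: for a field `L` with an automorphism `σ` of exact
order `ℓ`, there is a normal basis `σ^i β` (`i < ℓ`) of `L` over the fixed field together with
its trace-dual family `δ_i`.  Pure algebra: Mathlib's `IsGalois.normalBasis` for `L` over the
fixed field of the cyclic group generated by `σ`, and the dual basis for the trace form.
-/

set_option autoImplicit false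

open Finset

namespace Fermat.Agent.PT.Loc

/-- powers of `σ` with exponents below the exact order are distinct. -/
theorem h49nb_pow_inj {L : Type} [Field L] (σ : L ≃+* L) (ℓ : ℕ)
    (hord : ∀ i, 0 < i → i < ℓ → σ ^ i ≠ 1) (i j : ℕ) (hi : i < ℓ) (hj : j < ℓ)
    (h : σ ^ i = σ ^ j) : i = j := by
  by_contra hne
  rcases Nat.lt_or_gt_of_ne hne with hlt | hlt
  · have h1 : σ ^ (j - i) = 1 := by
      have h2 : σ ^ i * σ ^ (j - i) = σ ^ i * 1 := by
        rw [← pow_add, mul_one, Nat.add_sub_cancel' hlt.le, h]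
      exact mul_left_cancel h2
    exact hord (j - i) (Nat.sub_pos_of_lt hlt) (lt_of_le_of_lt (Nat.sub_le _ _) hj) h1
  · have h1 : σ ^ (i - j) = 1 := by
      have h2 : σ ^ j * σ ^ (i - j) = σ ^ j * 1 := by
        rw [← pow_add, mul_one, Nat.add_sub_cancel' hlt.le, h]
      exact mul_left_cancel h2
    exact hord (i - j) (Nat.sub_pos_of_lt hlt) (lt_of_le_of_lt (Nat.sub_le _ _) hi) h1

/-- NI-NB: normal basis with its trace-dual family. -/
theorem h49nb_normalBasis : H33NormalBasis := by
  classical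
  intro L _ σ ℓ hℓ hσℓ hord
  -- the cyclic group generated by `σ`
  have hfin : IsOfFinOrder σ := isOfFinOrder_iff_pow_eq_one.mpr ⟨ℓ, hℓ, hσℓ⟩
  have hoo : orderOf σ = ℓ :=
    (orderOf_eq_iff hℓ).mpr ⟨hσℓ, fun m hm hm0 => hord m hm0 hm⟩
  have hGfin : Finite (Subgroup.zpowers σ) := hfin.finite_zpowers.to_subtype
  have hcardG : Nat.card (Subgroup.zpowers σ) = ℓ := by rw [Nat.card_zpowers, hoo]
  -- the Galois group of `L` over the fixed field
  let E := FixedPoints.subfield (Subgroup.zpowers σ) L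
  have hFD : FiniteDimensional E L := inferInstance
  have hGal : IsGalois E L := IsGalois.of_fixed_field L (Subgroup.zpowers σ)
  let e : (Subgroup.zpowers σ) ≃* Gal(L/E) :=
    FixedPoints.toAlgAutMulEquiv (Subgroup.zpowers σ) L
  have he : ∀ (g : Subgroup.zpowers σ) (x : L), e g x = (g : L ≃+* L) x := by
    intro g x
    rfl
  -- enumeration of the Galois group by `i ↦ σ^i`
  let f : Fin ℓ → Gal(L/E) := fun i => e ⟨σ ^ (i : ℕ), Subgroup.npow_mem_zpowers σ i⟩
  have hf : ∀ (i : Fin ℓ) (x : L), f i x = (σ ^ (i : ℕ)) x := fun i x => he _ x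
  have hfinj : Function.Injective f := by
    intro i j hij
    have h1 : (⟨σ ^ (i : ℕ), Subgroup.npow_mem_zpowers σ i⟩ : Subgroup.zpowers σ)
        = ⟨σ ^ (j : ℕ), Subgroup.npow_mem_zpowers σ j⟩ := e.injective hij
    have h2 : σ ^ (i : ℕ) = σ ^ (j : ℕ) := congrArg Subtype.val h1
    exact Fin.ext (h49nb_pow_inj σ ℓ hord i j i.2 j.2 h2)
  have hcard : Fintype.card (Fin ℓ) = Fintype.card Gal(L/E) := by
    rw [Fintype.card_fin, ← Nat.card_eq_fintype_card, ← Nat.card_congr e.toEquiv, hcardG]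
  have hfbij : Function.Bijective f :=
    (Fintype.bijective_iff_injective_and_card f).mpr ⟨hfinj, hcard⟩
  let φ : Fin ℓ ≃ Gal(L/E) := Equiv.ofBijective f hfbij
  -- the trace along `σ` is the field trace
  have hT : ∀ x : L, h33n_T σ ℓ x = algebraMap E L (Algebra.trace E L x) := by
    intro x
    rw [trace_eq_sum_automorphisms, h33n_T, ← Fin.sum_univ_eq_sum_range (fun i => (σ ^ i) x) ℓ]
    rw [← Equiv.sum_comp φ (fun g : Gal(L/E) => g x)]
    refine Finset.sum_congr rfl fun i _ => ?_
    exact (hf i x).symm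
  -- the normal basis, indexed by `Fin ℓ`, and its trace-dual basis
  let b : Module.Basis (Fin ℓ) E L := (IsGalois.normalBasis E L).reindex φ.symm
  let β : L := IsGalois.normalBasis E L 1
  have hb : ∀ i : Fin ℓ, b i = (σ ^ (i : ℕ)) β := by
    intro i
    have h1 : b i = IsGalois.normalBasis E L (φ i) := by
      simp [b]
    rw [h1, IsGalois.normalBasis_apply]
    exact hf i β
  have hB : (Algebra.traceForm E L).Nondegenerate := traceForm_nondegenerate E L
  let d : Module.Basis (Fin ℓ) E L := (Algebra.traceForm E L).dualBasis hB b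
  have hd : ∀ i j : Fin ℓ, Algebra.trace E L (d i * b j) = if j = i then 1 else 0 := by
    intro i j
    have := LinearMap.BilinForm.apply_dualBasis_left hB b i j
    rwa [Algebra.traceForm_apply] at this
  have hrepr : ∀ (x : L) (i : Fin ℓ), b.repr x i = Algebra.trace E L (d i * x) := by
    intro x i
    conv_rhs => rw [← b.sum_repr x]
    rw [Finset.mul_sum, map_sum]
    have h1 : ∀ j : Fin ℓ, Algebra.trace E L (d i * (b.repr x j • b j))
        = b.repr x j * (if j = i then 1 else 0) := by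
      intro j
      rw [mul_smul_comm, map_smul, hd i j, smul_eq_mul]
    rw [Finset.sum_congr rfl (fun j _ => h1 j)]
    simp
  refine ⟨β, fun i => if h : i < ℓ then d ⟨i, h⟩ else 0, ?_, ?_⟩
  · intro i hi j hj
    show h33n_T σ ℓ ((if h : i < ℓ then d ⟨i, h⟩ else 0) * (σ ^ j) β) = _
    rw [dif_pos hi, hT, ← hb ⟨j, hj⟩, hd ⟨i, hi⟩ ⟨j, hj⟩]
    by_cases hij : i = j
    · subst hij
      simp
    · have hji : (⟨j, hj⟩ : Fin ℓ) ≠ ⟨i, hi⟩ := fun h => hij (congrArg Fin.val h).symm
      rw [if_neg hji, if_neg hij, map_zero]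
  · intro x
    conv_lhs => rw [← b.sum_repr x]
    rw [← Fin.sum_univ_eq_sum_range
      (fun i => h33n_T σ ℓ ((if h : i < ℓ then d ⟨i, h⟩ else 0) * x) * (σ ^ i) β) ℓ]
    refine Finset.sum_congr rfl fun i _ => ?_
    rw [dif_pos i.2, hT, ← hb i, hrepr x i, Algebra.smul_def]

end Fermat.Agent.PT.Loc
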