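import Fermat.Agent.PT.Loc.H66URCyc
import Fermat.Agent.PT.Loc.H36URFrob

/-!
# W3-PT / PT-LOC, leaf UR-VAL (helper49, second seat)

`h49v_urVal : LFTeich → URFrob → URVal`.

* finite dimension: `Kur K n` is the compositum of `K` and of the field generated by the finite
  set of `(N ^ n - 1)`-th roots of unity;
* value group: `Kur K n = K(ζ)`; every `x` is `A(ζ)` with `deg A < d = [K(ζ) : K]`; the `d`
  conjugates of `ζ` are roots of unity, pairwise non congruent, and `‖A(ζ_i)‖ = ‖x‖`; by divided
  differences all coefficients of `A` have norm `≤ ‖x‖`, and one of them has norm `≥ ‖x‖`;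
* residue field: `φ ^ n` fixes `Kur K n`, so its roots of unity of order prime to `q` are exactly
  the `(N ^ n - 1)`-th roots of unity.
-/

set_option autoImplicit false

open scoped Classical

open Polynomial

noncomputable section

namespace Fermat.Agent.PT.Loc

variable {q : ℕ} [Fact q.Prime]

/-! ### Divided differences -/

/-- If `A` has degree `< #s`, the points of `s` are pairwise non congruent of norm `≤ 1`, and
`‖A(x)‖ ≤ c` on `s`, then all coefficients of `A` have norm `≤ c`. -/
theorem h49v_coeff_le (s : Finset (Om q)) :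
    (∀ x ∈ s, ‖x‖ ≤ 1) → (∀ x ∈ s, ∀ y ∈ s, x ≠ y → ‖x - y‖ = 1) →
    ∀ (c : ℝ), 0 ≤ c → ∀ A : Polynomial (Om q), A.degree < (s.card : WithBot ℕ) →
      (∀ x ∈ s, ‖A.eval x‖ ≤ c) → ∀ j, ‖A.coeff j‖ ≤ c := by
  induction s using Finset.induction_on with
  | empty =>
    intro _ _ c hc A hdeg _ j
    have hA : A = 0 := by
      rw [Finset.card_empty] at hdeg
      have h0 : A.degree < 0 := by exact_mod_cast hdeg
      exact Polynomial.degree_eq_bot.1 (by
        rcases h : A.degree with _ | d
        · rfl
        · rw [h] at h0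
          exact absurd h0 (by simp))
    simp [hA, hc]
  | insert a s ha ih =>
    intro h1 hd c hc A hdeg hval j
    have hmonic : (X - C a : Polynomial (Om q)).Monic := monic_X_sub_C a
    set B : Polynomial (Om q) := A /ₘ (X - C a) with hB
    have hAB : A = (X - C a) * B + C (A.eval a) := by
      have h := Polynomial.modByMonic_add_div A (X - C a)
      rw [Polynomial.modByMonic_X_sub_C_eq_C_eval] at h
      rw [hB, add_comm]
      exact h.symm
    -- degree of `B`
    have hdegB : B.degree < (s.card : WithBot ℕ) := by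
      by_cases hA0 : A = 0
      · have : B = 0 := by rw [hB, hA0, Polynomial.zero_divByMonic]
        rw [this, Polynomial.degree_zero]
        exact WithBot.bot_lt_coe _
      · have h2 : B.degree < A.degree :=
          Polynomial.degree_divByMonic_lt A (X - C a) hA0 (by rw [degree_X_sub_C]; norm_num)
        rw [Finset.card_insert_of_notMem ha] at hdeg
        have h3 : A.degree ≤ (s.card : WithBot ℕ) := by
          have : A.degree < ((s.card + 1 : ℕ) : WithBot ℕ) := hdeg
          rw [Polynomial.degree_eq_natDegree hA0] at this ⊢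
          have h4 : A.natDegree < s.card + 1 := by exact_mod_cast this
          exact_mod_cast Nat.lt_succ_iff.1 h4
        exact lt_of_lt_of_le h2 h3
    -- values of `B`
    have hvalB : ∀ x ∈ s, ‖B.eval x‖ ≤ c := by
      intro x hx
      have hxa : x ≠ a := fun h => ha (h ▸ hx)
      have hn : ‖x - a‖ = 1 :=
        hd x (Finset.mem_insert_of_mem hx) a (Finset.mem_insert_self a s) hxa
      have he : A.eval x = (x - a) * B.eval x + A.eval a := by
        conv_lhs => rw [hAB]
        simp
      have he2 : (x - a) * B.eval x = A.eval x - A.eval a := by rw [he]; ring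
      have h3 : ‖B.eval x‖ = ‖A.eval x - A.eval a‖ := by
        rw [← he2, norm_mul, hn, one_mul]
      rw [h3]
      exact (h36u_norm_sub_le _ _).trans
        (max_le (hval x (Finset.mem_insert_of_mem hx)) (hval a (Finset.mem_insert_self a s)))
    have hcoeffB := ih (fun x hx => h1 x (Finset.mem_insert_of_mem hx))
      (fun x hx y hy => hd x (Finset.mem_insert_of_mem hx) y (Finset.mem_insert_of_mem hy))
      c hc B hdegB hvalB
    have ha1 : ‖a‖ ≤ 1 := h1 a (Finset.mem_insert_self a s)
    have hCa : ∀ k, ‖a * B.coeff k‖ ≤ c := by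
      intro k
      rw [norm_mul]
      calc ‖a‖ * ‖B.coeff k‖ ≤ 1 * c :=
            mul_le_mul ha1 (hcoeffB k) (norm_nonneg _) zero_le_one
        _ = c := one_mul c
    -- coefficients of `A`
    rw [hAB]
    have hexp : ((X - C a) * B + C (A.eval a)).coeff j
        = (X * B).coeff j - a * B.coeff j + (C (A.eval a)).coeff j := by
      rw [Polynomial.coeff_add, sub_mul, Polynomial.coeff_sub, Polynomial.coeff_C_mul]
    rw [hexp]
    have hXB : ‖(X * B).coeff j‖ ≤ c := by
      cases j with
      | zero => simp [hc]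
      | succ k => rw [Polynomial.coeff_X_mul]; exact hcoeffB k
    have hCe : ‖(C (A.eval a)).coeff j‖ ≤ c := by
      rw [Polynomial.coeff_C]
      split_ifs
      · exact hval a (Finset.mem_insert_self a s)
      · simp [hc]
    exact (h36u_norm_add_le _ _).trans
      (max_le ((h36u_norm_sub_le _ _).trans (max_le hXB (hCa j))) hCe)

/-! ### The value group of `K(ζ)` -/

/-- Distinct roots of unity of order prime to `q` are not congruent. -/
theorem h49v_norm_sub_eq_one {x y : Om q} {k : ℕ} (hk : 0 < k) (hqk : ¬ q ∣ k)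
    (hx : x ^ k = 1) (hy : y ^ k = 1) (hxy : x ≠ y) : ‖x - y‖ = 1 := by
  refine le_antisymm ?_ ?_
  · refine (h36u_norm_sub_le x y).trans (max_le ?_ ?_)
    · exact (h36u_norm_eq_one_of_pow hk hx).le
    · exact (h36u_norm_eq_one_of_pow hk hy).le
  · by_contra h
    exact hxy (h36u_eq_of_norm_sub_lt hk hqk hx hy (not_le.1 h))

/-- Every element of `K(ζ)`, `ζ` a root of unity of order prime to `q`, has the norm of an
element of `K`. -/
theorem h49v_exists_norm_eq (K : LF q) {ζ : Om q} {M : ℕ} (hM : 0 < M) (hqM : ¬ q ∣ M)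
    (hζ : ζ ^ M = 1) {x : Om q} (hx : x ∈ IntermediateField.adjoin K {ζ}) :
    ∃ y ∈ K, ‖x‖ = ‖y‖ := by
  have halgK : Algebra.IsAlgebraic K (Om q) := h36f_isAlgebraic K
  have hgal : IsGalois K (Om q) := h36f_isGalois K
  have hnormal : Normal K (Om q) := IsGalois.to_normal
  have halg : IsAlgebraic K ζ := Algebra.IsAlgebraic.isAlgebraic ζ
  have hint : IsIntegral K ζ := halg.isIntegral
  -- `x` is a polynomial in `ζ`
  obtain ⟨A₀, hA₀⟩ : ∃ A₀ : Polynomial K, Polynomial.aeval ζ A₀ = x := by
    have h1 : x ∈ (IntermediateField.adjoin K {ζ}).toSubalgebra := hx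
    rw [IntermediateField.adjoin_simple_toSubalgebra_of_isAlgebraic halg,
      Algebra.adjoin_singleton_eq_range_aeval] at h1
    exact h1
  set P : Polynomial K := minpoly K ζ with hP
  have hPmonic : P.Monic := minpoly.monic hint
  have hPζ : Polynomial.aeval ζ P = 0 := minpoly.aeval K ζ
  set A' : Polynomial K := A₀ %ₘ P with hA'
  have hA'x : Polynomial.aeval ζ A' = x := by
    rw [hA', Polynomial.aeval_modByMonic_eq_self_of_root hPζ, hA₀]
  have hA'deg : A'.degree < P.degree := Polynomial.degree_modByMonic_lt A₀ hPmonic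
  -- the conjugates of `ζ`
  set s : Finset (Om q) := (P.map (algebraMap K (Om q))).roots.toFinset with hs
  have hPsep : P.Separable := (minpoly.irreducible hint).separable
  have hscard : s.card = P.natDegree := by
    rw [hs, Multiset.toFinset_card_of_nodup (Polynomial.nodup_roots hPsep.map),
      IsAlgClosed.card_roots_eq_natDegree, Polynomial.natDegree_map]
  have hP0 : P.map (algebraMap K (Om q)) ≠ 0 :=
    Polynomial.map_ne_zero hPmonic.ne_zero
  have hconj : ∀ z ∈ s, ∃ σ : Om q ≃ₐ[K] Om q, σ ζ = z := by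
    intro z hz
    rw [hs, Multiset.mem_toFinset, Polynomial.mem_roots hP0, Polynomial.IsRoot,
      Polynomial.eval_map_algebraMap] at hz
    exact minpoly.exists_algEquiv_of_root' halg hz
  have hspow : ∀ z ∈ s, z ^ M = 1 := by
    intro z hz
    obtain ⟨σ, rfl⟩ := hconj z hz
    rw [← map_pow, hζ, map_one]
  set A : Polynomial (Om q) := A'.map (algebraMap K (Om q)) with hA
  have hAdeg : A.degree < (s.card : WithBot ℕ) := by
    rw [hA, Polynomial.degree_map, hscard, ← Polynomial.degree_eq_natDegree hPmonic.ne_zero]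
    exact hA'deg
  have hAval : ∀ z ∈ s, ‖A.eval z‖ ≤ ‖x‖ := by
    intro z hz
    obtain ⟨σ, rfl⟩ := hconj z hz
    rw [hA, Polynomial.eval_map_algebraMap, Polynomial.aeval_algHom_apply, hA'x,
      h36f_norm_aut]
  have hcoeff := h49v_coeff_le s
    (fun z hz => (h36u_norm_eq_one_of_pow hM (hspow z hz)).le)
    (fun z hz z' hz' hne => h49v_norm_sub_eq_one hM hqM (hspow z hz) (hspow z' hz') hne)
    ‖x‖ (norm_nonneg x) A hAdeg hAval
  -- some coefficient is large
  have hsum : x = ∑ j ∈ Finset.range (A'.natDegree + 1), (A'.coeff j : Om q) * ζ ^ j := by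
    rw [← hA'x, Polynomial.aeval_eq_sum_range]
    refine Finset.sum_congr rfl (fun j _ => ?_)
    rw [Algebra.smul_def]
    rfl
  obtain ⟨j, -, hj⟩ := IsUltrametricDist.exists_norm_finsetSum_le_of_nonempty
    (Finset.nonempty_range_add_one (n := A'.natDegree))
    (fun j => (A'.coeff j : Om q) * ζ ^ j)
  rw [← hsum, norm_mul, norm_pow, h36u_norm_eq_one_of_pow hM hζ, one_pow, mul_one] at hj
  refine ⟨(A'.coeff j : Om q), (A'.coeff j).2, le_antisymm hj ?_⟩
  have := hcoeff j
  rwa [hA, Polynomial.coeff_map] at this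

/-! ### The main theorem -/

/-- The set of `M`-th roots of unity is finite of cardinality `M`. -/
theorem h49v_card_roots {M : ℕ} (hM : 0 < M) :
    Nat.card {w : Om q | w ^ M = 1} = M := by
  have : NeZero ((M : ℕ) : Om q) := ⟨by exact_mod_cast hM.ne'⟩
  obtain ⟨ζ, hζ⟩ := HasEnoughRootsOfUnity.exists_primitiveRoot (Om q) M
  have hset : {w : Om q | w ^ M = 1} = ↑(Polynomial.nthRootsFinset M (1 : Om q)) := by
    ext w
    simp [Polynomial.mem_nthRootsFinset hM]
  rw [hset, Nat.card_coe_set_eq, Set.ncard_coe_finset, hζ.card_nthRootsFinset]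

theorem h49v_finite_roots {M : ℕ} (hM : 0 < M) : Set.Finite {w : Om q | w ^ M = 1} := by
  have hset : {w : Om q | w ^ M = 1} = ↑(Polynomial.nthRootsFinset M (1 : Om q)) := by
    ext w
    simp [Polynomial.mem_nthRootsFinset hM]
  rw [hset]
  exact Finset.finite_toSet _

/-- **UR-VAL** from `LFTeich` and `URFrob`. -/
theorem h49v_urVal (hT : LFTeich) (hF : URFrob) : URVal := by
  intro q _ K _ n hn
  have hq : q.Prime := Fact.out
  obtain ⟨-, ⟨f, hf, hN⟩, -, -, -⟩ := hT q K
  have h2 : 2 ≤ resCard K ^ n := h66u_two_le_pow hq hf hN hn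
  have hMpos : 0 < resCard K ^ n - 1 := by omega
  have hqM : ¬ q ∣ resCard K ^ n - 1 := h66u_not_dvd_pred hq hf hN hn
  have : NeZero ((resCard K ^ n - 1 : ℕ) : Om q) := ⟨by exact_mod_cast hMpos.ne'⟩
  have : NeZero (resCard K ^ n - 1) := ⟨hMpos.ne'⟩
  obtain ⟨ζ, hζ⟩ := HasEnoughRootsOfUnity.exists_primitiveRoot (Om q) (resCard K ^ n - 1)
  have hζM : ζ ^ (resCard K ^ n - 1) = 1 := hζ.pow_eq_one
  refine ⟨?_, ?_, ?_⟩
  · -- finite dimension
    have hfin : Finite {w : Om q | w ^ (resCard K ^ n - 1) = 1} :=
      (h49v_finite_roots hMpos).to_subtype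
    have hadj : FiniteDimensional ℚ_[q]
        (IntermediateField.adjoin ℚ_[q] {w : Om q | w ^ (resCard K ^ n - 1) = 1}) :=
      IntermediateField.finiteDimensional_adjoin
        (fun x _ => Algebra.IsIntegral.isIntegral x)
    exact IntermediateField.finiteDimensional_sup K _
  · -- value group
    intro x hx
    apply h49v_exists_norm_eq K hMpos hqM hζM
    have hle : Kur K n ≤ (IntermediateField.adjoin K {ζ}).restrictScalars ℚ_[q] := by
      apply sup_le
      · intro y hy
        exact (IntermediateField.adjoin K {ζ}).algebraMap_mem ⟨y, hy⟩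
      · rw [IntermediateField.adjoin_le_iff]
        intro w hw
        obtain ⟨k, -, rfl⟩ := hζ.eq_pow_of_pow_eq_one hw
        exact pow_mem (IntermediateField.mem_adjoin_simple_self K ζ) k
    exact hle hx
  · -- residue field
    obtain ⟨φ, hφ⟩ := hF q K
    have hφn : φ ^ n ∈ GK (Kur K n) := by
      rw [h66u_mem_GK_Kur]
      refine ⟨Subgroup.pow_mem _ hφ.1 n, ?_⟩
      intro w' hw'
      rw [h66u_frob_pow hφ n w' (resCard K ^ n - 1) hMpos hqM hw']
      have e : resCard K ^ n = (resCard K ^ n - 1) + 1 := by omega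
      rw [e, pow_succ, hw', one_mul]
    have hmu : muPrime (Kur K n) = {w : Om q | w ^ (resCard K ^ n - 1) = 1} := by
      ext w
      constructor
      · rintro ⟨hwL, m, hm, hqm, hw⟩
        have h1 : (φ ^ n) w = w := h66u_apply_of_mem_GK hφn hwL
        have h3 : (φ ^ n) w = w ^ (resCard K ^ n) := h66u_frob_pow hφ n w m hm hqm hw
        have hw0 : w ≠ 0 := by
          rintro rfl
          rw [zero_pow hm.ne'] at hw
          exact zero_ne_one hw
        have h4 : w ^ (resCard K ^ n - 1) * w = 1 * w := by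
          rw [← pow_succ, Nat.sub_add_cancel (by omega), ← h3, h1, one_mul]
        exact mul_right_cancel₀ hw0 h4
      · intro hw
        exact ⟨h66u_mem_Kur_of_pow K n hw, resCard K ^ n - 1, hMpos, hqM, hw⟩
    have hres : resCard (Kur K n) = Nat.card (muPrime (Kur K n)) + 1 := rfl
    rw [hres, hmu, h49v_card_roots hMpos]
    omega

/-- **UR-VAL** from `LFTeich` alone (through helper36's `h36_urFrob`). -/
theorem h49v_urVal_of_teich (hT : LFTeich) : URVal :=
  h49v_urVal hT (h36_urFrob hT)

end Fermat.Agent.PT.Loc
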