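import Mathlib
import Fermat.Agent.PT.Loc.Iface3
import Fermat.Agent.PT.Loc.MC.H65Kum
import Fermat.Agent.PT.Loc.Kum.H7KumClass
import Fermat.Agent.PT.Loc.H29InvAdd

/-!
# W3-PT / PT-LOC, leaf LOC3-TRGEN (helper52)

`TrGenRel`: for `μ_p ⊆ ℚ_q`, the invariant `invQ p q` does not vanish on the standard generators
`κ_ϖ ∪ χ_ur` of `H²(G_{ℚ_q}, 𝔽_p)` (for ANY primitive `p`-th root of unity `ζ ∈ ℚ_q`).

Proof: `zetaL p q = ζ ^ b` with `p ∤ b`, so `kum p ζ ϖ = b • kum p (zetaL p q) ϖ` and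
`c₀ = b • c₀'` with `c₀'` a standard generator for `zetaL p q`; for `E = ⊥` the quotient
`Gq q ⧸ G_E` is a point, so `acor ⊥ s χ c = c`; `InvGen` gives `HasInv c₀' (-1)`, hence
`invQ c₀ = -b ≠ 0`.

* `h52l_trGenRel_of : ChiZeta → InvEx → InvGen → TrGenRel`.
-/

set_option autoImplicit false
set_option linter.style.haveILetI false

open scoped Classical

noncomputable section

namespace Fermat.Agent.PT.Loc

variable {q : ℕ} [Fact q.Prime] {p : ℕ} [Fact p.Prime]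

/-- every element of `Gq q` fixes `ℚ_q`. -/
theorem h52l_mem_GK_bot (g : Gq q) : g ∈ GK (⊥ : LF q) := by
  rw [IntermediateField.mem_fixingSubgroup_iff]
  intro x hx
  obtain ⟨y, rfl⟩ := IntermediateField.mem_bot.mp hx
  exact g.commutes y

/-- the quotient `Gq q ⧸ G_{ℚ_q}` is a point. -/
theorem h52l_quot_bot_eq (x : Gq q ⧸ GK (⊥ : LF q)) :
    x = (QuotientGroup.mk 1 : Gq q ⧸ GK (⊥ : LF q)) := by
  induction x using QuotientGroup.induction_on with
  | H g =>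
    rw [QuotientGroup.eq]
    exact h52l_mem_GK_bot _

/-- the constant section of `Gq q → Gq q ⧸ G_{ℚ_q}`. -/
theorem h52l_isSec_bot : IsSec (⊥ : LF q) (fun _ : Gq q ⧸ GK (⊥ : LF q) => (1 : Gq q)) :=
  ⟨fun x => (h52l_quot_bot_eq x).symm, rfl⟩

/-- `χ(1) = 1` for the local cyclotomic character. -/
theorem h52l_chiL_one (p : ℕ) [Fact p.Prime] (q : ℕ) [Fact q.Prime] : chiL p q 1 = 1 := by
  unfold chiL
  rw [map_one, map_one, Units.val_one]

/-- for `E = ℚ_q` and the constant section the twisted corestriction is the identity. -/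
theorem h52l_acor_bot (c : Gq q × Gq q → ZMod p) :
    acor (⊥ : LF q) (fun _ : Gq q ⧸ GK (⊥ : LF q) => (1 : Gq q)) (chiL p q) c = c := by
  funext y
  unfold acor
  rw [finsum_eq_single _ (QuotientGroup.mk 1 : Gq q ⧸ GK (⊥ : LF q))
    (fun a ha => absurd (h52l_quot_bot_eq a) ha)]
  simp only [secC, inv_one, one_mul, mul_one, h52l_chiL_one]

/-- change of the root of unity in the Kummer character: if `ζ' = ζ ^ b` (both primitive) then
`kum ζ B = b • kum ζ' B` on `G_K` (`B ≠ 0`, `B ^ p ∈ K`). -/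
theorem h52l_kum_pow {K : LF q} {ζ ζ' B : Om q} (hζ : IsPrimitiveRoot ζ p)
    (hζ' : IsPrimitiveRoot ζ' p) (b : ℕ) (hb : ζ ^ b = ζ') (hB0 : B ≠ 0) (hB : B ^ p ∈ K)
    {g : Gq q} (hg : g ∈ GK K) :
    kum p ζ B g = (b : ZMod p) * kum p ζ' B g := by
  have hp : p.Prime := Fact.out
  haveI : NeZero p := ⟨hp.ne_zero⟩
  subst hb
  have h1 := h65_kum_spec hζ' hB0 hB hg
  apply h7kc_kum_eq hζ hB0 g
  rw [h1, ← pow_mul]
  congr 1
  -- exponents congruent modulo `p`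
  have hmod : ((b : ZMod p) * kum p (ζ ^ b) B g).val = (b * (kum p (ζ ^ b) B g).val) % p := by
    rw [ZMod.val_mul, ZMod.val_natCast, Nat.mod_mul_mod]
  rw [hmod]
  conv_lhs => rw [← Nat.mod_add_div (b * (kum p (ζ ^ b) B g).val) p]
  rw [pow_add, pow_mul, hζ.pow_eq_one, one_pow, mul_one]

/-- **LOC3-TRGEN**: `TrGenRel` from `ChiZeta`, `InvEx` and `InvGen`. -/
theorem h52l_trGenRel_of (hZ : ChiZeta) (hE : InvEx) (hG : InvGen) : TrGenRel := by
  intro q _ p _ ζ hζ hζp c₀ hc₀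
  obtain ⟨ϖ, φ, hunif, hfrob, rfl⟩ := hc₀
  have hp : p.Prime := Fact.out
  haveI : NeZero p := ⟨hp.ne_zero⟩
  obtain ⟨hzL, -, -⟩ := hZ q p
  -- `zetaL = ζ ^ b`
  obtain ⟨b, -, hbz⟩ := hζp.eq_pow_of_pow_eq_one hzL.pow_eq_one
  have hb0 : (b : ZMod p) ≠ 0 := by
    intro h0
    rw [ZMod.natCast_eq_zero_iff] at h0
    obtain ⟨k, rfl⟩ := h0
    rw [pow_mul, hζp.pow_eq_one, one_pow] at hbz
    exact hzL.ne_one hp.one_lt hbz.symm
  have hzmem : zetaL p q ∈ (⊥ : LF q) := by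
    rw [← hbz]
    exact pow_mem hζ b
  have hϖ0 : ϖ ≠ 0 := by
    intro h0
    apply hunif.2.1
    rw [h0, zero_pow hp.ne_zero]
  -- the standard generator for `zetaL`
  set c₀' : Gq q × Gq q → ZMod p :=
    acup (kum p (zetaL p q) ϖ) (fun g => (cycIdx (Kur (⊥ : LF q) p) φ p g : ZMod p)) with hc₀'
  have hc : acup (kum p ζ ϖ) (fun g => (cycIdx (Kur (⊥ : LF q) p) φ p g : ZMod p))
      = (b : ZMod p) • c₀' := by
    funext y
    simp only [hc₀', acup, Pi.smul_apply, smul_eq_mul]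
    rw [h52l_kum_pow hζp hzL b hbz hϖ0 hunif.1 (h52l_mem_GK_bot y.1), mul_assoc]
  have hgen' : IsGen p (⊥ : LF q) (zetaL p q) c₀' := ⟨ϖ, φ, hunif, hfrob, rfl⟩
  have hinv := hG q p (⊥ : LF q) (fun _ => (1 : Gq q)) c₀' h52l_isSec_bot hzmem hgen'
  rw [h52l_acor_bot] at hinv
  have hspec := h29i_invSpec_invQ_of_invEx hE p q
  have h1 : invQ p q c₀' = -1 := hspec _ _ hinv
  rw [hc, map_smul, h1, smul_eq_mul, mul_neg, mul_one, neg_ne_zero]
  exact hb0

end Fermat.Agent.PT.Loc
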