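import Fermat.Agent.PT.Loc.Iface2
import Fermat.Agent.PT.Loc.H76MC

/-!
# W3-PT / PT-LOC, leaf LOC2-INV-LG (helper99, second seat): the local symbol formula

`h99lg_invLG : ChiZeta → CorTw → CorCohom → InvCor → MCKum → MCCarryNorm → URNormGrp → URCyc →
InvLG` : for `B^p ∈ E` of valuation `n` (with respect to a uniformizer `π` of `E`), the
corestriction of `κ_B ∪ χ_ur` has invariant `-n`.

Proof.  Put `m = (-n : ZMod p).val`, so `p ∣ n + m`.
* `MCKum`      : `ζ^(κ_B ∪ idx) ∼_E carry(B^p)⁻¹`;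
* `w = B^p π^m` has valuation `n + m ∈ pℤ`, so it is a norm from `Kur E p` (`URNormGrp`) and
  `carry(w) ∼_E 1` (`MCCarryNorm`); as `carry` is multiplicative in `b`,
  `carry(B^p)⁻¹ ∼_E carry(π)^m`;
* `CorTw`, `CorCohom`, `InvCor` : `ζ^(acor(κ_B ∪ idx)) = mcor(ζ^(κ_B ∪ idx)) ∼ mcor(carry(π))^m
  ∼ Yq^m`.
-/

set_option autoImplicit false

open scoped Classical

noncomputable section

namespace Fermat.Agent.PT.Loc

variable {q : ℕ} [Fact q.Prime]

/-- the quotient `Gq q ⧸ G_E` is finite for `E` finite over `ℚ_q`. -/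
theorem h99lg_finite_quot (E : LF q) [FiniteDimensional ℚ_[q] E] : Finite (Gq q ⧸ GK E) := by
  have : IsAlgClosure ℚ_[q] (PadicAlgCl q) := ⟨inferInstance, AlgebraicClosure.isAlgebraic _⟩
  have : IsGalois ℚ_[q] (PadicAlgCl q) := IsAlgClosure.isGalois ℚ_[q] (PadicAlgCl q)
  have h1 : (GK E).index = Module.finrank ℚ_[q] ↥E :=
    (IntermediateField.finrank_eq_fixingSubgroup_index (E' := PadicAlgCl q) E).symm
  have h2 : (GK E).index ≠ 0 := by
    rw [h1]
    exact Module.finrank_pos.ne'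
  exact Nat.finite_of_card_ne_zero h2

/-- the multiplicative corestriction commutes with powers. -/
theorem h99lg_mcor_pow (E : LF q) [FiniteDimensional ℚ_[q] E] (s : Gq q ⧸ GK E → Gq q)
    (β : Gq q × Gq q → (Om q)ˣ) (m : ℕ) :
    mcor E s (fun y => β y ^ m) = fun y => (mcor E s β y) ^ m := by
  have := h99lg_finite_quot E
  funext y
  unfold mcor
  simp only
  rw [finprod_pow (Set.toFinite _)]
  refine finprod_congr (fun a => ?_)
  exact smul_pow' _ _ _

/-- **LOC2-INV-LG**: the local symbol formula. -/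
theorem h99lg_invLG (hZ : ChiZeta) (hTw : CorTw) (hCoh : CorCohom) (hIC : InvCor) (hKum : MCKum)
    (hCN : MCCarryNorm) (hNG : URNormGrp) (hCyc : URCyc) : InvLG := by
  intro q _ p _ E _ s φ π B n hs hζE hφ hπ hBE hBn
  have hp : p.Prime := Fact.out
  have : NeZero p := ⟨hp.ne_zero⟩
  obtain ⟨hprim, hcoe, hact⟩ := hZ q p
  obtain ⟨hπE, hπ0, hπ1, hπmax⟩ := hπ
  set ζ : (Om q)ˣ := zetaU p q with hζdef
  set πU : (Om q)ˣ := Units.mk0 π hπ0 with hπUdef
  set idx : Gq q → ZMod p := fun g => (cycIdx (Kur E p) φ p g : ZMod p) with hidx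
  set c : Gq q × Gq q → ZMod p := acup (kum p (zetaL p q) (B : Om q)) idx with hc
  set m : ℕ := (-(n : ZMod p)).val with hm
  have hcyc : IsCyc E (Kur E p) p φ := hCyc q E p φ hp.pos hφ
  have hζp : ζ ^ p = 1 := by
    apply Units.ext
    rw [Units.val_pow_eq_pow_val, hcoe, Units.val_one]
    exact hprim.pow_eq_one
  -- Kummer
  have h1 : MCohom E (zpw ζ c) (fun y => (carry (Kur E p) φ p (B ^ p) y)⁻¹) := by
    have := hKum q p E (Kur E p) φ ζ B (by rw [hcoe]; exact hζE) (by rw [hcoe]; exact hprim)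
      hcyc hBE
    rw [hcoe] at this
    exact this
  -- `w = B^p π^m` is a norm
  have hdvd : (p : ℤ) ∣ n + (m : ℤ) := by
    rw [← ZMod.intCast_zmod_eq_zero_iff_dvd]
    push_cast
    rw [hm, ZMod.natCast_zmod_val, add_neg_cancel]
  obtain ⟨k, hk⟩ := hdvd
  set w : (Om q)ˣ := B ^ p * πU ^ m with hw
  have hwE : (w : Om q) ∈ E := by
    rw [hw, Units.val_mul, Units.val_pow_eq_pow_val, Units.val_pow_eq_pow_val]
    exact E.mul_mem hBE (pow_mem hπE m)
  have hwn : ‖(w : Om q)‖ = ‖π‖ ^ ((p : ℤ) * k) := by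
    have hπn : ‖π‖ ≠ 0 := norm_ne_zero_iff.mpr hπ0
    rw [hw, Units.val_mul, Units.val_pow_eq_pow_val, Units.val_pow_eq_pow_val, norm_mul, hBn,
      norm_pow, ← hk, zpow_add₀ hπn, zpow_natCast]
    rfl
  have hwnorm : IsNorm (Kur E p) φ p (w : Om q) :=
    (hNG q E p φ π hp.pos hφ ⟨hπE, hπ0, hπ1, hπmax⟩ (w : Om q) hwE w.ne_zero).mpr ⟨k, hwn⟩
  have h2 : MCohom E (carry (Kur E p) φ p w) 1 := (hCN q E (Kur E p) p φ w hcyc hwE).mpr hwnorm
  have h3 : MCohom E (fun y => (carry (Kur E p) φ p w y)⁻¹) 1 := by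
    refine h76m_trans (h76m_inv h2) (h76m_of_eq E (fun g _ h _ => ?_))
    simp
  have h4 : MCohom E (fun y => (carry (Kur E p) φ p (B ^ p) y)⁻¹)
      (fun y => (carry (Kur E p) φ p πU y) ^ m) := by
    refine h76m_mul_one (d := fun y => (carry (Kur E p) φ p w y)⁻¹)
      (h76m_of_eq E (fun g _ h _ => ?_)) h3
    show (carry (Kur E p) φ p (B ^ p) (g, h))⁻¹ =
      (carry (Kur E p) φ p πU (g, h)) ^ m * (carry (Kur E p) φ p w (g, h))⁻¹
    have e1 : carry (Kur E p) φ p w (g, h) =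
        carry (Kur E p) φ p (B ^ p) (g, h) * (carry (Kur E p) φ p πU (g, h)) ^ m := by
      rw [hw, h76m_carry_mul, h76m_carry_pow (Kur E p) φ p πU m (g, h)]
    rw [e1, mul_inv_rev, ← mul_assoc, mul_inv_cancel, one_mul]
  have h5 : MCohom E (zpw ζ c) (fun y => (carry (Kur E p) φ p πU y) ^ m) := h76m_trans h1 h4
  -- corestriction
  have h6 := hCoh q E s hs _ _ h5
  rw [h99lg_mcor_pow] at h6
  have h7 : MCohom (⊥ : LF q) (mcor E s (carry (Kur E p) φ p πU)) (Yq p q) :=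
    hIC q p E s φ πU hs hφ ⟨hπE, hπ0, hπ1, hπmax⟩
  have h8 := h76m_pow h7 m
  have h9 := hTw q p E s ζ (chiL p q) hζp hact c
  unfold HasInv
  rw [h9]
  exact h76m_trans h6 h8

end Fermat.Agent.PT.Loc
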