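import Mathlib
import Fermat.Agent.PT.Loc.H52TrGen
import Fermat.Agent.PT.Loc.H6ChiZeta
import Fermat.Agent.PT.Loc.H49InvY
import Fermat.Agent.PT.Loc.H24InvGen
import Fermat.Agent.PT.Loc.InvLG99
import Fermat.Agent.PT.Loc.H29CorTw
import Fermat.Agent.PT.Loc.H66CorCohom
import Fermat.Agent.PT.Loc.H90Final

/-!
# W3-PT / PT-LOC, leaf LOC3-TRGEN: wiring with the landed leaves (helper52)

* `h52l_trGenRel_of_invGen : InvGen → TrGenRel`  (`ChiZeta`, `InvEx` are landed);
* `h52l_trGenRel_of_invLG  : InvLG → TrGenRel`;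
* `h52l_trGenRel_of_invCor : InvCor → TrGenRel`  (all other inputs of `InvLG` are landed).
-/

set_option autoImplicit false

noncomputable section

namespace Fermat.Agent.PT.Loc

/-- `TrGenRel` from `InvGen`. -/
theorem h52l_trGenRel_of_invGen (hG : InvGen) : TrGenRel :=
  h52l_trGenRel_of h6z_chiZeta (h29i_invEx h49y_invY) hG

/-- `TrGenRel` from the local symbol formula `InvLG`. -/
theorem h52l_trGenRel_of_invLG (hLG : InvLG) : TrGenRel :=
  h52l_trGenRel_of_invGen (h24ig_invGen_of hLG)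

/-- `TrGenRel` from `InvCor` (corestriction preserves invariants). -/
theorem h52l_trGenRel_of_invCor (hIC : InvCor) : TrGenRel :=
  h52l_trGenRel_of_invLG
    (h99lg_invLG h6z_chiZeta h29i_corTw h66c_corCohom hIC h65_mcKum h90l_mcCarryNorm
      h90l_urNormGrp h90l_urCyc)

end Fermat.Agent.PT.Loc
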