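import Mathlib
import Fermat.Agent.PT.Loc.H52TrGenFinal
import Fermat.Agent.PT.Loc.H83InvCor

/-!
# W3-PT / PT-LOC, leaf LOC3-TRGEN, unconditional (helper52)

`h52l_trGenRel : TrGenRel` from `h52l_trGenRel_of_invCor` and `h83i_invCor` (helper83).
-/

set_option autoImplicit false

noncomputable section

namespace Fermat.Agent.PT.Loc

/-- **LOC3-TRGEN**, unconditional: `invQ p q` does not vanish on the standard generators of
`H²(G_{ℚ_q}, 𝔽_p)`. -/
theorem h52l_trGenRel : TrGenRel := h52l_trGenRel_of_invCor h83i_invCor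

end Fermat.Agent.PT.Loc
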