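import Fermat.Agent.PT.Loc.H40VanCycIface

/-!
# W3-PT, PT-LOC, leaf LOC2-VANCYC-MODEL: `Fun(G/H, 𝔽_p)` carries a cyclic datum (helper64)

`h64m_model : h40c_ModelStatement`.

`ψ : G ⧸ H ≃ ZMod p` with `ψ (g • x) = χ g + ψ x`; `Δ f x = f (ψ⁻¹ (ψ x + 1)) - f x`;
`e j x = C(val (ψ x), j)`; `ev f = f (ψ⁻¹ 0)`.
-/

set_option autoImplicit false
set_option linter.unusedSectionVars false

namespace Fermat.Agent.PT.Loc

open Fermat.Agent.PT Fermat.Agent.PT.Shap

section Model

variable {p : ℕ} [hp : Fact p.Prime] {X : Type} (ψ : X ≃ ZMod p)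

/-- the shift `x ↦ ψ⁻¹ (ψ x + 1)` -/
def h64m_shift (x : X) : X := ψ.symm (ψ x + 1)

theorem h64m_psi_shift (x : X) : ψ (h64m_shift ψ x) = ψ x + 1 := by
  simp [h64m_shift]

theorem h64m_psi_shift_iter (n : ℕ) (x : X) : ψ ((h64m_shift ψ)^[n] x) = ψ x + n := by
  induction n with
  | zero => simp
  | succ k ih =>
    rw [Function.iterate_succ_apply', h64m_psi_shift, ih]
    push_cast
    ring

theorem h64m_shift_iter_p (x : X) : (h64m_shift ψ)^[p] x = x := by
  apply ψ.injective
  rw [h64m_psi_shift_iter]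
  simp

/-- the translation operator `T f x = f (shift x)` -/
def h64m_T : (X → ZMod p) →ₗ[ZMod p] (X → ZMod p) where
  toFun f x := f (h64m_shift ψ x)
  map_add' _ _ := rfl
  map_smul' _ _ := rfl

theorem h64m_T_pow (n : ℕ) (f : X → ZMod p) (x : X) :
    ((h64m_T ψ) ^ n) f x = f ((h64m_shift ψ)^[n] x) := by
  induction n generalizing f x with
  | zero => rfl
  | succ k ih =>
    rw [pow_succ, Module.End.mul_apply, ih, Function.iterate_succ_apply']
    rfl

theorem h64m_T_pow_p : (h64m_T ψ) ^ p = 1 := by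
  ext f x
  rw [h64m_T_pow, h64m_shift_iter_p]
  rfl

/-- the difference operator -/
def h64m_del : (X → ZMod p) →ₗ[ZMod p] (X → ZMod p) := h64m_T ψ - 1

theorem h64m_del_apply (f : X → ZMod p) (x : X) :
    h64m_del ψ f x = f (h64m_shift ψ x) - f x := rfl

/-- the binomial functions -/
def h64m_e (j : ℕ) (x : X) : ZMod p := (((ψ x).val.choose j : ℕ) : ZMod p)

/-- evaluation at the base point -/
def h64m_ev : (X → ZMod p) →ₗ[ZMod p] ZMod p where
  toFun f := f (ψ.symm 0)
  map_add' _ _ := rfl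
  map_smul' _ _ := rfl

theorem h64m_e_zero : h64m_e ψ 0 = fun _ => 1 := by
  funext x
  simp [h64m_e]

theorem h64m_e_one (x : X) : h64m_e ψ 1 x = ψ x := by
  simp [h64m_e]

theorem h64m_ker_del (f : X → ZMod p) (h : h64m_del ψ f = 0) :
    f = h64m_ev ψ f • h64m_e ψ 0 := by
  have h1 : ∀ x, f (h64m_shift ψ x) = f x := by
    intro x
    have := congrFun h x
    rw [h64m_del_apply] at this
    exact sub_eq_zero.1 this
  have h2 : ∀ (n : ℕ) x, f ((h64m_shift ψ)^[n] x) = f x := by
    intro n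
    induction n with
    | zero => intro x; rfl
    | succ k ih =>
      intro x
      rw [Function.iterate_succ_apply', h1, ih]
  funext x
  have h3 : x = (h64m_shift ψ)^[(ψ x).val] (ψ.symm 0) := by
    apply ψ.injective
    rw [h64m_psi_shift_iter]
    simp
  rw [h64m_e_zero]
  show f x = f (ψ.symm 0) • (1 : ZMod p)
  rw [smul_eq_mul, mul_one]
  conv_lhs => rw [h3]
  exact h2 _ _

theorem h64m_del_e0 : h64m_del ψ (h64m_e ψ 0) = 0 := by
  funext x
  rw [h64m_del_apply, h64m_e_zero]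
  simp

theorem h64m_val_add_one (a : ZMod p) :
    (a.val + 1 < p ∧ (a + 1).val = a.val + 1) ∨ (a.val + 1 = p ∧ (a + 1).val = 0) := by
  have hlt : a.val < p := ZMod.val_lt a
  rcases Nat.lt_or_ge (a.val + 1) p with h | h
  · left
    refine ⟨h, ?_⟩
    rw [ZMod.val_add, ZMod.val_one, Nat.mod_eq_of_lt h]
  · right
    have h' : a.val + 1 = p := by omega
    refine ⟨h', ?_⟩
    rw [ZMod.val_add, ZMod.val_one, h', Nat.mod_self]

theorem h64m_del_e (j : ℕ) (hj : j + 1 < p) : h64m_del ψ (h64m_e ψ (j + 1)) = h64m_e ψ j := by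
  funext x
  rw [h64m_del_apply]
  unfold h64m_e
  rw [h64m_psi_shift]
  rcases h64m_val_add_one (ψ x) with ⟨-, h⟩ | ⟨h1, h2⟩
  · rw [h, Nat.choose_succ_succ]
    push_cast
    ring
  · rw [h2]
    have hv : (ψ x).val = p - 1 := by omega
    rw [hv]
    have hdvd : p ∣ p.choose (j + 1) := hp.out.dvd_choose_self (Nat.succ_ne_zero j) hj
    have hp1 : p = (p - 1) + 1 := by have := hp.out.pos; omega
    have hsum : (p - 1).choose j + (p - 1).choose (j + 1) = p.choose (j + 1) := by
      conv_rhs => rw [hp1]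
      rw [Nat.choose_succ_succ]
    have h0 : ((p.choose (j + 1) : ℕ) : ZMod p) = 0 := (ZMod.natCast_eq_zero_iff _ _).2 hdvd
    rw [← hsum] at h0
    push_cast at h0
    rw [Nat.choose_zero_succ]
    push_cast
    linear_combination -h0

theorem h64m_del_pow (f : X → ZMod p) : ((h64m_del ψ) ^ p) f = 0 := by
  have hchar : CharP (Module.End (ZMod p) (X → ZMod p)) p := by
    have hne : Nonempty X := ⟨ψ.symm 0⟩
    refine charP_of_injective_algebraMap (R := ZMod p) ?_ p
    intro a b hab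
    have := congrFun (LinearMap.congr_fun hab (fun _ => (1 : ZMod p))) (ψ.symm 0)
    simpa using this
  have hcomm : Commute (h64m_T ψ) (1 : Module.End (ZMod p) (X → ZMod p)) := Commute.one_right _
  have h := sub_pow_char_of_commute (p := p) hcomm
  rw [h64m_T_pow_p, one_pow, sub_self] at h
  unfold h64m_del
  rw [h]
  rfl

end Model

section Group

variable {p : ℕ} [hp : Fact p.Prime] {G : Type} [Group G] (H : Subgroup G) [hH : H.Normal]
  (φ : G ⧸ H ≃* Multiplicative (ZMod p))

/-- the coordinate `G ⧸ H ≃ ZMod p` -/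
def h64m_psi : G ⧸ H ≃ ZMod p := φ.toEquiv.trans Multiplicative.toAdd

/-- the character with kernel `H` -/
def h64m_chi (g : G) : ZMod p := h64m_psi H φ (g : G ⧸ H)

theorem h64m_psi_mul (x y : G ⧸ H) :
    h64m_psi H φ (x * y) = h64m_psi H φ x + h64m_psi H φ y := by
  simp [h64m_psi]

theorem h64m_smul_eq (g : G) (x : G ⧸ H) : g • x = (g : G ⧸ H) * x := by
  induction x using QuotientGroup.induction_on with
  | H a => rfl

theorem h64m_psi_smul (g : G) (x : G ⧸ H) :
    h64m_psi H φ (g • x) = h64m_chi H φ g + h64m_psi H φ x := by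
  rw [h64m_smul_eq, h64m_psi_mul]
  rfl

theorem h64m_chi_mul (g h : G) : h64m_chi H φ (g * h) = h64m_chi H φ g + h64m_chi H φ h := by
  unfold h64m_chi
  rw [QuotientGroup.mk_mul, h64m_psi_mul]

theorem h64m_chi_one : h64m_chi H φ 1 = 0 := by
  have := h64m_chi_mul H φ 1 1
  rw [mul_one] at this
  exact left_eq_add.1 this

theorem h64m_chi_inv (g : G) : h64m_chi H φ g⁻¹ = - h64m_chi H φ g := by
  have := h64m_chi_mul H φ g⁻¹ g
  rw [inv_mul_cancel, h64m_chi_one] at this
  exact eq_neg_of_add_eq_zero_left this.symm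

theorem h64m_chi_of_mem {h : G} (hh : h ∈ H) : h64m_chi H φ h = 0 := by
  unfold h64m_chi
  have : (h : G ⧸ H) = ((1 : G) : G ⧸ H) := by
    rw [QuotientGroup.mk_one]
    exact (QuotientGroup.eq_one_iff h).2 hh
  rw [this]
  exact h64m_chi_one H φ

theorem h64m_chi_surjective : Function.Surjective (h64m_chi H φ) := by
  intro a
  obtain ⟨x, hx⟩ := (h64m_psi H φ).surjective a
  obtain ⟨g, rfl⟩ := QuotientGroup.mk_surjective x
  exact ⟨g, hx⟩

theorem h64m_shift_smul (g : G) (x : G ⧸ H) :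
    g • h64m_shift (h64m_psi H φ) x = h64m_shift (h64m_psi H φ) (g • x) := by
  apply (h64m_psi H φ).injective
  rw [h64m_psi_smul, h64m_psi_shift, h64m_psi_shift, h64m_psi_smul]
  ring

/-- the cyclic datum on `Fun(G/H, 𝔽_p)` -/
noncomputable def h64m_cyc :
    h40c_Cyc (h56s_ind (X := G ⧸ H) (Representation.trivial (ZMod p) G (ZMod p))) p
      (h64m_chi H φ) where
  del := h64m_del (h64m_psi H φ)
  e := h64m_e (h64m_psi H φ)
  ev := h64m_ev (h64m_psi H φ)
  del_comm g f := by
    funext x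
    rw [h64m_del_apply, h56s_ind_apply, h56s_ind_apply, h56s_ind_apply, h64m_del_apply,
      h64m_shift_smul]
    simp
  ev_e0 := by
    rw [h64m_e_zero]
    rfl
  act_e0 g := by
    rw [h64m_e_zero]
    funext x
    rw [h56s_ind_apply]
    simp
  ker_del := h64m_ker_del _
  del_e0 := h64m_del_e0 _
  del_e := h64m_del_e _
  act_e1 g := by
    funext x
    rw [h64m_e_zero]
    show h56s_ind (X := G ⧸ H) (Representation.trivial (ZMod p) G (ZMod p)) g
      (h64m_e (h64m_psi H φ) 1) x - h64m_e (h64m_psi H φ) 1 x = (- h64m_chi H φ g) • (1 : ZMod p)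
    rw [h56s_ind_apply, h64m_e_one, Representation.trivial_apply, h64m_e_one, h64m_psi_smul,
      h64m_chi_inv]
    simp
  del_pow := h64m_del_pow _

end Group

/-- **MODEL**: `Fun(G/H, 𝔽_p)` carries a cyclic datum. -/
theorem h64m_model : h40c_ModelStatement := by
  intro p _ G _ L hL H hHn hHo hidx
  have hcard : Nat.card (G ⧸ H) = p := by
    rw [← Subgroup.index_eq_card]
    exact hidx
  have hcard' : Nat.card (Multiplicative (ZMod p)) = p := by
    rw [Nat.card_congr Multiplicative.toAdd, Nat.card_zmod]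
  let φ : G ⧸ H ≃* Multiplicative (ZMod p) := mulEquivOfPrimeCardEq hcard hcard'
  refine ⟨h64m_chi H φ, ?_, fun h hh => h64m_chi_of_mem H φ hh, ?_, h64m_cyc H φ,
    h64m_e_zero _⟩
  · refine Submodule.mem_inf.2 ⟨LinearMap.mem_ker.2 ?_, ?_⟩
    · funext x
      show Representation.trivial (ZMod p) G (ZMod p) x.1 (h64m_chi H φ x.2)
        - h64m_chi H φ (x.1 * x.2) + h64m_chi H φ x.1 = 0
      rw [Representation.trivial_apply, h64m_chi_mul]
      ring
    · obtain ⟨N, hN, hle⟩ := hHo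
      refine ⟨N, hN, fun g s hs => ?_⟩
      rw [h64m_chi_mul, h64m_chi_of_mem H φ (hle hs), add_zero]
  · intro h0
    obtain ⟨g, hg⟩ := h64m_chi_surjective H φ 1
    rw [h0] at hg
    have h1 : (1 : ZMod p) ≠ 0 := by
      have : Fact (1 < p) := ⟨(Fact.out : p.Prime).one_lt⟩
      exact one_ne_zero
    exact h1 hg.symm

end Fermat.Agent.PT.Loc
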