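import Fermat.Agent.PT.Loc.Top

/-!
# W3-PT / PT-LOC, leaf LOC2-VAN-STEP (helper78): the cyclic step for `H³`

`h78l_vanStep_of` : `VanStep` (restriction `H³(G_K, 𝔽_p) → H³(G_{K₁}, 𝔽_p)` is injective for
`K₁/K` cyclic of degree `p`, `μ_p ⊆ K`) from the abstract cyclic step `VanCycAbs` applied to
`G := ↥(GK K)`, `L := levK K`, `H := (GK K₁).subgroupOf (GK K)`, with
(i) `B0 + B0Gen + AdCoh`, (ii) `B1 + AdCoh`, (iii) `B0Gen` for `K₁` `+ AdSub`,
(iv) `ResZero + AdSub`, and the adapters `AdGood`, `AdCyc`.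
-/

set_option autoImplicit false

open scoped Classical

noncomputable section

namespace Fermat.Agent.PT.Loc

open ExtCitation Fermat.Agent.PT Fermat.Agent.PT.Shap

variable {q : ℕ} [Fact q.Prime] {p : ℕ}

/-- `c ∼ c'` iff `c - c' ∼ 0`. -/
theorem h78l_acohom_sub_iff (K : LF q) (c c' : Gq q × Gq q → ZMod p) :
    ACohom K (c - c') 0 ↔ ACohom K c c' := by
  constructor
  · rintro ⟨f, hf, h⟩
    refine ⟨f, hf, fun g hg h' hh' => ?_⟩
    have := h g hg h' hh'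
    simp only [Pi.sub_apply, Pi.zero_apply, zero_add] at this
    rw [← this]
    ring
  · rintro ⟨f, hf, h⟩
    refine ⟨f, hf, fun g hg h' hh' => ?_⟩
    have := h g hg h' hh'
    simp only [Pi.sub_apply, Pi.zero_apply, zero_add]
    rw [this]
    ring

/-- `rst2` is compatible with subtraction and scalars. -/
theorem h78l_rst2_sub_smul (K : LF q) (c c₀ : Gq q × Gq q → ZMod p) (t : ZMod p) :
    rst2 K (c - t • c₀) = rst2 K c - t • rst2 K c₀ := by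
  funext y
  simp [rst2]

/-- The cup product of the frame with trivial coefficients is `acup`. -/
theorem h78l_cup11_eq (K : LF q) (χ ψ : Gq q → ZMod p) :
    cup11 (LinearMap.mul (ZMod p) (ZMod p))
      (Representation.trivial (ZMod p) ↥(GK K) (ZMod p)) (rst1 K χ) (rst1 K ψ) =
      rst2 K (acup χ ψ) := by
  funext y
  simp [cup11, rst1, rst2, acup]

/-- **LOC2-VAN-STEP**: the cyclic step for `H³` from the abstract step and the base facts. -/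
theorem h78l_vanStep_of (hAbs : VanCycAbs) (hRZ : ResZero) (hB0 : B0) (hB0G : B0Gen)
    (hB1 : B1) (hGood : AdGood) (hCoh : AdCoh) (hCyc : AdCyc) (hSub : AdSub) : VanStep := by
  intro q _ p _ K K₁ _ ζ σ hζK hζ hcyc c hc hcc hcb
  have : FiniteDimensional ℚ_[q] K₁ := hcyc.fin
  obtain ⟨hN, hidx, hopen⟩ := hCyc q K K₁ p σ hcyc
  obtain ⟨hC1, hC2, hCB2, hC3, hCB3⟩ := hCoh q p K
  obtain ⟨hS2, hSB2, hSB3⟩ := hSub q p K K₁ hcyc.le
  have hL : (levK K).Good := (hGood q).2 K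
  obtain ⟨⟨c₀, hc₀⟩, hgen⟩ := hB0G q p K ζ hζK hζ
  obtain ⟨⟨c₁, hc₁⟩, hgen₁⟩ := hB0G q p K₁ ζ (hcyc.le hζK) hζ
  refine (hCB3 c).mp (hAbs p ↥(GK K) (levK K) hL ((GK K₁).subgroupOf (GK K)) hN hopen hidx
    ?_ ?_ ?_ ?_ (rst3 K c) ((hC3 c).mpr ⟨hc, hcc⟩) ((hSB3 c).mpr hcb))
  · -- (i) `H²(G_K)` is generated by `c₀`
    obtain ⟨h1, h2, -⟩ := hgen c₀ hc₀
    refine ⟨rst2 K c₀, (hC2 c₀).mpr ⟨h1, h2⟩, fun c' hc' => ?_⟩
    have hc'' : rst2 K (ext2 K c') ∈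
        Z2 (levK K) (Representation.trivial (ZMod p) ↥(GK K) (ZMod p)) := by
      rw [rst2_ext2]
      exact hc'
    obtain ⟨h3, h4⟩ := (hC2 _).mp hc''
    obtain ⟨t, ht⟩ := hB0 q p K ζ hζK hζ c₀ hc₀ (ext2 K c') h3 h4
    refine ⟨t, ?_⟩
    have := (hCB2 (ext2 K c' - t • c₀)).mpr ((h78l_acohom_sub_iff K _ _).mpr ht)
    rwa [h78l_rst2_sub_smul, rst2_ext2] at this
  · -- (ii) the cup product is nondegenerate
    intro χ hχ _ hχ0
    have hχ' : rst1 K (ext1 K χ) ∈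
        Z1 (levK K) (Representation.trivial (ZMod p) ↥(GK K) (ZMod p)) := by
      rw [rst1_ext1]
      exact hχ
    obtain ⟨h1, h2⟩ := (hC1 _).mp hχ'
    have hne : ∃ g ∈ GK K, ext1 K χ g ≠ 0 := by
      by_contra hcon
      push Not at hcon
      apply hχ0
      funext g
      have := hcon g.1 g.2
      simpa [ext1] using this
    obtain ⟨ψ, hψ1, hψ2, hψ3⟩ := hB1 q p K ζ hζK hζ (ext1 K χ) h1 h2 hne
    refine ⟨rst1 K ψ, (hC1 ψ).mpr ⟨hψ1, hψ2⟩, fun hmem => hψ3 ?_⟩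
    have h5 := h78l_cup11_eq K (ext1 K χ) ψ
    rw [rst1_ext1] at h5
    rw [h5] at hmem
    exact (hCB2 _).mp hmem
  · -- (iii) `H²(G_{K₁}) ≠ 0`
    obtain ⟨h1, h2, h3⟩ := hgen₁ c₁ hc₁
    exact ⟨_, (hS2 c₁).mpr ⟨h1, h2⟩, fun hmem => h3 ((hSB2 c₁).mp hmem)⟩
  · -- (iv) restriction `H²(G_K) → H²(G_{K₁})` is zero
    intro c' hc'
    have hc'' : rst2 K (ext2 K c') ∈
        Z2 (levK K) (Representation.trivial (ZMod p) ↥(GK K) (ZMod p)) := by
      rw [rst2_ext2]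
      exact hc'
    obtain ⟨h3, h4⟩ := (hC2 _).mp hc''
    have := (hSB2 (ext2 K c')).mpr (hRZ q p K K₁ ζ σ hζK hζ hcyc (ext2 K c') h3 h4)
    rwa [rst2_ext2] at this

end Fermat.Agent.PT.Loc

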