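/-
W3-PT, PT-LOC, leaf LOC2-VANCYC-SHAP: `h40c_ShapStatement`, the two consequences of Shapiro's
lemma for `Fun(G/H, 𝔽_p)` used in the cyclic step `VanCycAbs` (helper81).

(a) a continuous `3`-cocycle `c` of `G` (trivial coefficients) whose restriction to `H` is a
    continuous coboundary becomes a coboundary in `Fun(G/H, 𝔽_p)`: `c · 1 = d m`;
(b) a continuous `2`-cocycle of `H` which is not a coboundary gives a `2`-cocycle of `G` with
    values in `Fun(G/H, 𝔽_p)` which is not a coboundary.
-/
import Fermat.Agent.PT.Loc.H40VanCycIface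

set_option autoImplicit false

namespace Fermat.Agent.PT.Loc

open Fermat.Agent.PT Fermat.Agent.PT.Shap

/-- the restriction of the trivial representation is the trivial representation. -/
theorem h81v_resRep_triv (k : Type) [CommRing k] {G : Type} [Group G] (H : Subgroup G) :
    resRep (Representation.trivial k G k) H.subtype = Representation.trivial k ↥H k := rfl

/-- **LOC2-VANCYC-SHAP.** -/
theorem h81v_shap : h40c_ShapStatement := by
  intro p _ G _ L hL H hH
  obtain ⟨s⟩ := h56s_Sec.nonempty G H
  constructor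
  · intro c hc hres
    have hf : (fun (x : G × G × G) (_ : G ⧸ H) => c x) ∈
        Z3 L (h56s_ind (X := G ⧸ H) (Representation.trivial (ZMod p) G (ZMod p))) := by
      rw [mem_Z3] at hc ⊢
      refine ⟨?_, ?_⟩
      · funext ⟨g, h, j, l⟩
        funext x
        have h0 := congrFun hc.1 (g, h, j, l)
        simp only [d3_apply, Representation.trivial_apply, Pi.zero_apply] at h0
        simp only [d3_apply, h56s_ind_apply, Representation.trivial_apply, Pi.sub_apply,
          Pi.add_apply, Pi.zero_apply]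
        exact h0
      · obtain ⟨N, hN, hNc⟩ := hc.2
        exact ⟨N, hN, fun g g' g'' t t' t'' ht ht' ht'' => by
          funext x
          exact hNc g g' g'' t t' t'' ht ht' ht''⟩
    have hsh : s.shU3 (fun (x : G × G × G) (_ : G ⧸ H) => c x)
        = res3 (ZMod p) (ZMod p) H.subtype c := rfl
    rw [← h81v_resRep_triv (ZMod p) H, ← hsh, mem_B3] at hres
    obtain ⟨b, hb, hbf⟩ := hres
    rw [mem_Z3] at hf
    refine ⟨s.exU2 (Representation.trivial (ZMod p) G (ZMod p)) b
        - s.god.hh3 (fun (x : G × G × G) (_ : G ⧸ H) => c x),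
      h56s_isLC2_sub (s.isLC2_exU _ hL hH b hb) (s.isLC2_hh3 hL hH _ hf.2), ?_⟩
    have h3 := s.homU3 (Representation.trivial (ZMod p) G (ZMod p))
      (fun (x : G × G × G) (_ : G ⧸ H) => c x)
    rw [hf.1, h56s_Sec.hh4_zero, sub_zero] at h3
    rw [map_sub, s.exU_d2, hbf]
    exact h3.symm
  · rintro ⟨c, hc, hcn⟩
    rw [← h81v_resRep_triv (ZMod p) H] at hc hcn
    refine ⟨s.exU2 (Representation.trivial (ZMod p) G (ZMod p)) c,
      s.exU2_mem_Z2 _ hL hH hc, ?_⟩
    intro hm
    apply hcn
    rw [mem_B2] at hm ⊢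
    obtain ⟨n, hn, hdn⟩ := hm
    refine ⟨s.shU1 n, s.isLC1_shU n hn, ?_⟩
    rw [← s.shU_d1, hdn, s.shU_exU2]

end Fermat.Agent.PT.Loc
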