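import Mathlib
import Fermat.Agent.PT.Loc.H33NIIface
import Fermat.Agent.S14.B.HerbrandIdx

/-!
# W3-PT / PT-LOC, block NI, leaf NI-HQ (helper90): the Herbrand quotient assembly

`h90q_normIndex_of : H33CohTriv → H33FinIdx → H33Hilbert90 → H33NormIndex`.

With `M = Additive Lˣ` and `s` the endomorphism induced by `σ`:
* on the cohomologically trivial subgroup `W` the Herbrand quotient is `1`;
* `W` has finite index in the units `U`, so the Herbrand quotient of `U` is `1`;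
* `0 → U → Lˣ → ℤ → 0` (the valuation) gives the Herbrand quotient `ℓ` for `Lˣ`;
* Hilbert 90 gives `h¹ = 1`, hence `h⁰ = [(Lˣ)^σ : N Lˣ] = ℓ`;
* a group of prime order is generated by any nontrivial element.
-/

set_option autoImplicit false
set_option linter.style.haveILetI false

open Finset

open scoped NNReal

namespace Fermat.Agent.PT.Loc

open Fermat.Agent.S14.HQ

/-! ### Abstract part -/

section Abstract

variable {M : Type*} [AddCommGroup M]

/-- restriction of an endomorphism to a stable subgroup. -/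
def h90q_res (s : AddMonoid.End M) (S : AddSubgroup M) (hS : ∀ x ∈ S, s x ∈ S) :
    AddMonoid.End S :=
  ((s : M →+ M).comp S.subtype).codRestrict S (fun x => hS x x.2)

theorem h90q_res_coe (s : AddMonoid.End M) (S : AddSubgroup M) (hS : ∀ x ∈ S, s x ∈ S)
    (x : S) : S.subtype (h90q_res s S hS x) = s (S.subtype x) := rfl

/-- the Herbrand computation: `h⁰ = n`. -/
theorem h90q_h0_eq (s : AddMonoid.End M) (n : ℕ) (hn : n ≠ 0) (hs : ∀ x, (s^[n]) x = x)
    (Wa Ua : AddSubgroup M) (hWU : Wa ≤ Ua) (hfin : Wa.relIndex Ua ≠ 0)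
    (hWs : ∀ x ∈ Wa, s x ∈ Wa)
    (hW0 : ∀ x ∈ Wa, s x = x → ∃ y ∈ Wa, nrm s n y = x)
    (hW1 : ∀ x ∈ Wa, nrm s n x = 0 → ∃ y ∈ Wa, s y - y = x)
    (ord : M →+ ℤ) (hsurj : Function.Surjective ord) (hker : ord.ker = Ua)
    (hord : ∀ x, ord (s x) = ord x)
    (hH90 : ∀ x, nrm s n x = 0 → ∃ y, s y - y = x) :
    h0 s n = n := by
  have hUs : ∀ x ∈ Ua, s x ∈ Ua := by
    intro x hx
    rw [← hker, AddMonoidHom.mem_ker] at hx ⊢
    rw [hord, hx]
  have hcW := h90q_res_coe s Wa hWs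
  have hcU := h90q_res_coe s Ua hUs
  -- the subgroup `W`
  have h0W : h0 (h90q_res s Wa hWs) n = 1 := by
    rw [h0_def, AddSubgroup.relIndex_eq_one]
    intro a ha
    rw [AddMonoidHom.mem_ker] at ha
    have ha' : s (a : M) = a := by
      have h1 := map_del Wa.subtype (h90q_res s Wa hWs) s hcW a
      rw [ha, map_zero, del_apply] at h1
      exact sub_eq_zero.1 h1.symm
    obtain ⟨y, hy, hya⟩ := hW0 a a.2 ha'
    refine ⟨⟨y, hy⟩, Subtype.ext ?_⟩
    exact (map_nrm Wa.subtype (h90q_res s Wa hWs) s hcW n ⟨y, hy⟩).trans hya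
  have h1W : h1 (h90q_res s Wa hWs) n = 1 := by
    rw [h1_def, AddSubgroup.relIndex_eq_one]
    intro a ha
    rw [AddMonoidHom.mem_ker] at ha
    have ha' : nrm s n (a : M) = 0 := by
      have h1 := map_nrm Wa.subtype (h90q_res s Wa hWs) s hcW n a
      rw [ha, map_zero] at h1
      exact h1.symm
    obtain ⟨y, hy, hya⟩ := hW1 a a.2 ha'
    refine ⟨⟨y, hy⟩, Subtype.ext ?_⟩
    exact (map_del Wa.subtype (h90q_res s Wa hWs) s hcW ⟨y, hy⟩).trans hya
  have hqW : IsHQ (h90q_res s Wa hWs) n 1 := by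
    have := hq_of_eq h0W h1W one_ne_zero one_ne_zero
    simpa using this
  -- the subgroup `U`
  have hsU : ∀ x, ((h90q_res s Ua hUs)^[n]) x = x := by
    intro x
    apply Subtype.ext
    exact (iterate_semiconj Ua.subtype (h90q_res s Ua hUs) s hcU n x).trans (hs _)
  have hqU : IsHQ (h90q_res s Ua hUs) n 1 := by
    refine (hq_iff_of_finiteIndex (φ := AddSubgroup.inclusion hWU)
      (AddSubgroup.inclusion_injective hWU) ?_ hsU (fun a => rfl)).1 hqW
    rw [AddSubgroup.inclusion_range]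
    exact hfin
  -- the whole group
  have hqM : IsHQ s n (1 * (n : ℚ)) :=
    hq_mid (φ := Ua.subtype) (ψ := ord) (sC := 1) Ua.subtype_injective hsurj
      (by rw [AddSubgroup.range_subtype, hker]) hs hcU (fun b => hord b) hqU (hq_int hn)
  rw [one_mul] at hqM
  have h1M : h1 s n = 1 := by
    rw [h1_def, AddSubgroup.relIndex_eq_one]
    intro x hx
    obtain ⟨y, hy⟩ := hH90 x hx
    exact ⟨y, hy⟩
  have h := hqM.h0_eq_nat
  rw [h1M, mul_one] at h
  exact h

/-- a quotient of prime order is generated by any nontrivial class. -/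
theorem h90q_prime_index (Fx Nm : AddSubgroup M) (ℓ : ℕ) (hℓ : ℓ.Prime)
    (hidx : Nm.relIndex Fx = ℓ) (hpow : ∀ x ∈ Fx, ℓ • x ∈ Nm) :
    (∃ x ∈ Fx, x ∉ Nm) ∧
      ∀ x ∈ Fx, x ∉ Nm → ∀ y ∈ Fx, ∃ k, k < ℓ ∧ y + k • x ∈ Nm := by
  haveI : Fact ℓ.Prime := ⟨hℓ⟩
  constructor
  · by_contra hcon
    have hle : Fx ≤ Nm := by
      intro x hx
      by_contra hxn
      exact hcon ⟨x, hx, hxn⟩
    rw [AddSubgroup.relIndex_eq_one.2 hle] at hidx
    exact hℓ.one_lt.ne hidx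
  · intro x hx hxn y hy
    have hcard : Nat.card (Fx ⧸ Nm.addSubgroupOf Fx) = ℓ := hidx
    have hx0 : (QuotientAddGroup.mk ⟨x, hx⟩ : Fx ⧸ Nm.addSubgroupOf Fx) ≠ 0 := by
      intro h0
      rw [QuotientAddGroup.eq_zero_iff] at h0
      exact hxn h0
    have hmem := mem_zmultiples_of_prime_card hcard hx0
      (g' := -(QuotientAddGroup.mk ⟨y, hy⟩ : Fx ⧸ Nm.addSubgroupOf Fx))
    obtain ⟨k, hk⟩ := AddSubgroup.mem_zmultiples_iff.1 hmem
    have hℓ0 : (ℓ : ℤ) ≠ 0 := by exact_mod_cast hℓ.ne_zero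
    have hk0 : 0 ≤ k % (ℓ : ℤ) := Int.emod_nonneg k hℓ0
    have hk1 : k % (ℓ : ℤ) < ℓ := Int.emod_lt_of_pos k (by exact_mod_cast hℓ.pos)
    refine ⟨(k % (ℓ : ℤ)).toNat, by omega, ?_⟩
    have hℓx : (ℓ : ℤ) • (QuotientAddGroup.mk ⟨x, hx⟩ : Fx ⧸ Nm.addSubgroupOf Fx) = 0 := by
      rw [natCast_zsmul, ← QuotientAddGroup.mk_nsmul, QuotientAddGroup.eq_zero_iff]
      exact hpow x hx
    have e1 : (k % (ℓ : ℤ)) • (QuotientAddGroup.mk ⟨x, hx⟩ : Fx ⧸ Nm.addSubgroupOf Fx) =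
        k • (QuotientAddGroup.mk ⟨x, hx⟩ : Fx ⧸ Nm.addSubgroupOf Fx) := by
      conv_rhs => rw [← Int.emod_add_mul_ediv k ℓ]
      rw [add_zsmul, mul_zsmul', hℓx, smul_zero, add_zero]
    have e2 : (QuotientAddGroup.mk (⟨y, hy⟩ + (k % (ℓ : ℤ)).toNat • ⟨x, hx⟩ : Fx) :
        Fx ⧸ Nm.addSubgroupOf Fx) = 0 := by
      rw [QuotientAddGroup.mk_add, QuotientAddGroup.mk_nsmul, ← natCast_zsmul,
        Int.toNat_of_nonneg hk0, e1, hk, add_neg_cancel]
    rw [QuotientAddGroup.eq_zero_iff] at e2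
    exact e2

end Abstract

/-! ### The group `Additive Lˣ` -/

section Concrete

variable {L : Type} [Field L]

/-- the endomorphism of `Additive Lˣ` induced by `σ`. -/
def h90q_s (σ : L ≃+* L) : AddMonoid.End (Additive Lˣ) :=
  MonoidHom.toAdditive (Units.map (σ.toRingHom : L →* L))

theorem h90q_ext {x y : Additive Lˣ}
    (h : ((Additive.toMul x : Lˣ) : L) = ((Additive.toMul y : Lˣ) : L)) : x = y :=
  Additive.toMul.injective (Units.ext h)

theorem h90q_s_val (σ : L ≃+* L) (x : Additive Lˣ) :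
    ((Additive.toMul (h90q_s σ x) : Lˣ) : L) = σ ((Additive.toMul x : Lˣ) : L) := rfl

theorem h90q_iter_val (σ : L ≃+* L) (i : ℕ) (x : Additive Lˣ) :
    ((Additive.toMul (((h90q_s σ)^[i]) x) : Lˣ) : L) =
      (σ ^ i) ((Additive.toMul x : Lˣ) : L) := by
  induction i with
  | zero => rfl
  | succ k ih =>
    rw [Function.iterate_succ_apply', h90q_s_val, ih, pow_succ']
    rfl

theorem h90q_nrm_val (σ : L ≃+* L) (ℓ : ℕ) (x : Additive Lˣ) :
    ((Additive.toMul (nrm (h90q_s σ) ℓ x) : Lˣ) : L) =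
      h33n_N σ ℓ ((Additive.toMul x : Lˣ) : L) := by
  rw [nrm_apply, toMul_sum, Units.coe_prod]
  unfold h33n_N
  exact Finset.prod_congr rfl fun i _ => h90q_iter_val σ i x

theorem h90q_sub_val (σ : L ≃+* L) (x : Additive Lˣ) :
    ((Additive.toMul (h90q_s σ x - x) : Lˣ) : L) =
      σ ((Additive.toMul x : Lˣ) : L) / ((Additive.toMul x : Lˣ) : L) := by
  rw [toMul_sub, Units.val_div_eq_div_val, h90q_s_val]

theorem h90q_fixed_iff (σ : L ≃+* L) (x : Additive Lˣ) :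
    h90q_s σ x = x ↔ σ ((Additive.toMul x : Lˣ) : L) = ((Additive.toMul x : Lˣ) : L) :=
  ⟨fun h => by rw [← h90q_s_val, h], fun h => h90q_ext ((h90q_s_val σ x).trans h)⟩

section Ord

variable (D : H33LF L)

theorem h90q_vpi_pos : 0 < D.v D.ϖ := pos_iff_ne_zero.2 ((Valuation.ne_zero_iff _).2 D.hϖ0)

theorem h90q_zpow_inj : Function.Injective fun n : ℤ => D.v D.ϖ ^ n :=
  zpow_right_injective₀ (h90q_vpi_pos D) D.hϖ1.ne

/-- the order of a unit. -/
noncomputable def h90q_ordFun (u : Lˣ) : ℤ := Classical.choose (D.hdisc (u : L) u.ne_zero)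

theorem h90q_ordFun_spec (u : Lˣ) : D.v (u : L) = D.v D.ϖ ^ h90q_ordFun D u :=
  Classical.choose_spec (D.hdisc (u : L) u.ne_zero)

theorem h90q_ordFun_eq (u : Lˣ) (n : ℤ) (h : D.v (u : L) = D.v D.ϖ ^ n) :
    h90q_ordFun D u = n :=
  h90q_zpow_inj D ((h90q_ordFun_spec D u).symm.trans h)

/-- the order homomorphism `Lˣ → ℤ`. -/
noncomputable def h90q_ord : Additive Lˣ →+ ℤ :=
  AddMonoidHom.mk' (fun x => h90q_ordFun D (Additive.toMul x)) (by
    intro x y
    apply h90q_ordFun_eq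
    rw [toMul_add, Units.val_mul, map_mul, h90q_ordFun_spec, h90q_ordFun_spec,
      zpow_add₀ (h90q_vpi_pos D).ne'])

theorem h90q_ord_apply (x : Additive Lˣ) :
    h90q_ord D x = h90q_ordFun D (Additive.toMul x) := rfl

theorem h90q_ord_surjective : Function.Surjective (h90q_ord D) := by
  intro n
  refine ⟨Additive.ofMul ((Units.mk0 D.ϖ D.hϖ0) ^ n), ?_⟩
  rw [h90q_ord_apply]
  apply h90q_ordFun_eq
  rw [toMul_ofMul, Units.val_zpow_eq_zpow_val, map_zpow₀]
  rfl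

theorem h90q_ord_ker : (h90q_ord D).ker = (h33n_U D.v).toAddSubgroup := by
  ext x
  rw [AddMonoidHom.mem_ker, h90q_ord_apply]
  constructor
  · intro h
    show D.v ((Additive.toMul x : Lˣ) : L) = 1
    rw [h90q_ordFun_spec, h, zpow_zero]
  · intro h
    apply h90q_ordFun_eq
    rw [zpow_zero]
    exact h

theorem h90q_ord_s (x : Additive Lˣ) : h90q_ord D (h90q_s D.σ x) = h90q_ord D x := by
  rw [h90q_ord_apply, h90q_ord_apply]
  apply h90q_ordFun_eq
  rw [h90q_s_val, D.hvσ, h90q_ordFun_spec]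

end Ord

/-- **NI-HQ.** -/
theorem h90q_normIndex_of (hC : H33CohTriv) (hF : H33FinIdx) (hH : H33Hilbert90) :
    H33NormIndex := by
  intro L _ D hℓ
  obtain ⟨W, hWU, ⟨c, hc, hball⟩, hWσ, hW0, hW1⟩ := hC L D
  have hfin := hF L D c hc W hball
  have hs : ∀ x, ((h90q_s D.σ)^[D.ℓ]) x = x := by
    intro x
    apply h90q_ext
    rw [h90q_iter_val, D.hσℓ]
    rfl
  have hidx : h0 (h90q_s D.σ) D.ℓ = D.ℓ := by
    refine h90q_h0_eq (h90q_s D.σ) D.ℓ D.hℓ.ne' hs W.toAddSubgroup (h33n_U D.v).toAddSubgroup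
      (fun x hx => hWU hx) (by rw [Subgroup.relIndex_toAddSubgroup]; exact hfin) ?_ ?_ ?_
      (h90q_ord D) (h90q_ord_surjective D) (h90q_ord_ker D) (h90q_ord_s D) ?_
    · intro x hx
      exact hWσ (Additive.toMul x) hx _ (h90q_s_val D.σ x)
    · intro x hx hfix
      obtain ⟨y, hy, hyx⟩ := hW0 (Additive.toMul x) hx ((h90q_fixed_iff D.σ x).1 hfix)
      refine ⟨Additive.ofMul y, hy, h90q_ext ?_⟩
      rw [h90q_nrm_val]
      exact hyx
    · intro x hx hN
      have hN1 : h33n_N D.σ D.ℓ ((Additive.toMul x : Lˣ) : L) = 1 := by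
        rw [← h90q_nrm_val, hN]
        rfl
      obtain ⟨y, hy, hyx⟩ := hW1 (Additive.toMul x) hx hN1
      refine ⟨Additive.ofMul y, hy, h90q_ext ?_⟩
      rw [h90q_sub_val]
      exact hyx
    · intro x hN
      have hN1 : h33n_N D.σ D.ℓ ((Additive.toMul x : Lˣ) : L) = 1 := by
        rw [← h90q_nrm_val, hN]
        rfl
      obtain ⟨y, hy0, hyx⟩ := hH L D.σ D.ℓ D.hℓ D.hσℓ D.hord _ hN1
      refine ⟨Additive.ofMul (Units.mk0 y hy0), h90q_ext ?_⟩
      rw [h90q_sub_val]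
      exact hyx
  rw [h0_def] at hidx
  have hpow : ∀ x ∈ (del (h90q_s D.σ)).ker, D.ℓ • x ∈ (nrm (h90q_s D.σ) D.ℓ).range := by
    intro x hx
    rw [AddMonoidHom.mem_ker, del_apply, sub_eq_zero] at hx
    refine ⟨x, ?_⟩
    rw [nrm_apply]
    have : ∀ i ∈ Finset.range D.ℓ, ((h90q_s D.σ)^[i]) x = x := fun i _ =>
      Function.iterate_fixed hx i
    rw [Finset.sum_congr rfl this, Finset.sum_const, Finset.card_range]
  have hmemF : ∀ (b : L) (hb : b ≠ 0), D.σ b = b →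
      Additive.ofMul (Units.mk0 b hb) ∈ (del (h90q_s D.σ)).ker := by
    intro b hb hfix
    rw [AddMonoidHom.mem_ker, del_apply, sub_eq_zero]
    exact (h90q_fixed_iff D.σ _).2 hfix
  have hmemN : ∀ (b : L) (hb : b ≠ 0),
      Additive.ofMul (Units.mk0 b hb) ∈ (nrm (h90q_s D.σ) D.ℓ).range ↔
        ∃ β : L, β ≠ 0 ∧ h33n_N D.σ D.ℓ β = b := by
    intro b hb
    constructor
    · rintro ⟨z, hz⟩
      refine ⟨((Additive.toMul z : Lˣ) : L), Units.ne_zero _, ?_⟩
      rw [← h90q_nrm_val, hz]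
      rfl
    · rintro ⟨β, hβ, hN⟩
      refine ⟨Additive.ofMul (Units.mk0 β hβ), h90q_ext ?_⟩
      rw [h90q_nrm_val]
      exact hN
  obtain ⟨⟨x, hxF, hxN⟩, hB⟩ := h90q_prime_index _ _ D.ℓ hℓ hidx hpow
  constructor
  · refine ⟨((Additive.toMul x : Lˣ) : L), ?_, Units.ne_zero _, ?_⟩
    · rw [AddMonoidHom.mem_ker, del_apply, sub_eq_zero] at hxF
      exact (h90q_fixed_iff D.σ x).1 hxF
    · intro hex
      apply hxN
      have := (hmemN _ (Units.ne_zero (Additive.toMul x))).2 hex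
      have e : Additive.ofMul (Units.mk0 ((Additive.toMul x : Lˣ) : L)
          (Units.ne_zero (Additive.toMul x))) = x := h90q_ext rfl
      rwa [e] at this
  · intro b hbfix hb0 hbn b' hb'fix hb'0
    obtain ⟨k, hk, hmem⟩ := hB _ (hmemF b hb0 hbfix) (fun h => hbn ((hmemN b hb0).1 h)) _
      (hmemF b' hb'0 hb'fix)
    refine ⟨k, hk, ?_⟩
    obtain ⟨z, hz⟩ := hmem
    refine ⟨((Additive.toMul z : Lˣ) : L), Units.ne_zero _, ?_⟩
    rw [← h90q_nrm_val, hz, toMul_add, toMul_nsmul, Units.val_mul, Units.val_pow_eq_pow_val]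
    rfl

end Concrete

end Fermat.Agent.PT.Loc
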