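/-
W3-PT (S55), PT-LOC part 2, leaf LOC2-INV-LG (helper96): the local symbol formula.

`h96l_invLG_of : CorTw → CorCohom → InvCor → InvLG`: for `B^p ∈ E` of valuation `n`,
`inv (cor (κ_B ∪ χ_ur)) = -n`.

Proof.  `ζ^(κ_B ∪ idx) ∼_E carry(B^p)⁻¹` (`MCKum`, helper65).  With `m = (-n mod p)` the element
`u' = (B^p)⁻¹ π^{-m}` has valuation `≡ 0 mod p`, hence is a norm from `Kur E p` (`URNormGrp`) and
`carry(u') ∼ 1` (`MCCarryNorm`); so `carry(B^p)⁻¹ ∼_E carry(π)^m`.  Corestriction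
(`CorCohom`, `CorTw`, `mcor` multiplicative) and `InvCor` give
`ζ^(acor(κ_B ∪ idx)) ∼ Yq^m`.
-/
import Mathlib
import Fermat.Agent.PT.Loc.Iface2
import Fermat.Agent.PT.Loc.H76MC
import Fermat.Agent.PT.Loc.MC.H65Kum
import Fermat.Agent.PT.Loc.H81H90
import Fermat.Agent.PT.Loc.H90CarryNorm
import Fermat.Agent.PT.Loc.H66URConj
import Fermat.Agent.PT.Loc.H66URVal
import Fermat.Agent.PT.Loc.H82URNorm
import Fermat.Agent.PT.Loc.H8URNormGrp
import Fermat.Agent.PT.Loc.H34LFTeich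
import Fermat.Agent.PT.Loc.H34LFPow
import Fermat.Agent.PT.Loc.H6ChiZeta

set_option autoImplicit false

namespace Fermat.Agent.PT.Loc

variable {q : ℕ} [Fact q.Prime]

/-- `G_E` has finite index in `G_{ℚ_q}`. -/
theorem h96l_finite_quot (E : LF q) [FiniteDimensional ℚ_[q] E] : Finite (Gq q ⧸ GK E) :=
  Subgroup.quotient_finite_of_isOpen _ (IntermediateField.fixingSubgroup_isOpen E)

/-- Corestriction commutes with powers. -/
theorem h96l_mcor_pow (E : LF q) [FiniteDimensional ℚ_[q] E] (s : Gq q ⧸ GK E → Gq q)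
    (β : Gq q × Gq q → (Om q)ˣ) (m : ℕ) :
    mcor E s (fun y => β y ^ m) = fun y => (mcor E s β y) ^ m := by
  have := h96l_finite_quot E
  funext y
  unfold mcor
  simp only
  rw [finprod_pow (Set.toFinite _)]
  refine finprod_congr fun a => ?_
  exact smul_pow' _ _ _

/-- **LOC2-INV-LG**, from the corestriction leaves. -/
theorem h96l_invLG_of (hTw : CorTw) (hCC : CorCohom) (hIC : InvCor) : InvLG := by
  intro q _ p _ E _ s φ π B n hs hζE hφ hπ hBE hnorm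
  have hp : p.Prime := Fact.out
  have hT : LFTeich := h34lf_lfTeich
  have hCy : URCyc := h66v_urCyc hT
  have hUN : URNorm := h82n_urNorm hT hCy
  have hNG : URNormGrp := h8ng_urNormGrp hUN (h66v_urVal hT) h34lf_lfUnif
  have hCN : MCCarryNorm := h90c_carryNorm h81h_mcH90
  obtain ⟨hζprim, hζU, hχ⟩ := h6z_chiZeta q p
  have hcyc : IsCyc E (Kur E p) p φ := hCy q E p φ hp.pos hφ
  have hπ0 : π ≠ 0 := hπ.2.1
  have hπn0 : ‖π‖ ≠ 0 := norm_ne_zero_iff.mpr hπ0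
  obtain ⟨πU, hπU⟩ : ∃ πU : (Om q)ˣ, (πU : Om q) = π := ⟨Units.mk0 π hπ0, rfl⟩
  have hπ' : IsUnif E (πU : Om q) := by rw [hπU]; exact hπ
  obtain ⟨m, hm⟩ : ∃ m : ℕ, m = (-(n : ZMod p)).val := ⟨_, rfl⟩
  obtain ⟨k, hk⟩ : ∃ k : ℤ, n + (m : ℤ) = (p : ℤ) * k := by
    have h0 : (((n + (m : ℤ) : ℤ)) : ZMod p) = 0 := by
      push_cast
      rw [hm, ZMod.natCast_val, ZMod.cast_id', id]
      ring
    exact (ZMod.intCast_zmod_eq_zero_iff_dvd _ p).mp h0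
  -- Step 1: `MCKum`
  have h1 := h65_mcKum q p E (Kur E p) φ (zetaU p q) B (by rw [hζU]; exact hζE)
    (by rw [hζU]; exact hζprim) hcyc hBE
  rw [hζU] at h1
  -- Step 2: `carry(B^p)⁻¹ ∼ carry(π)^m`
  obtain ⟨u', hu'⟩ : ∃ u' : (Om q)ˣ, u' = (B ^ p)⁻¹ * (πU ^ m)⁻¹ := ⟨_, rfl⟩
  have hu'val : ((u' : (Om q)ˣ) : Om q) = ((B : Om q) ^ p)⁻¹ * (π ^ m)⁻¹ := by
    rw [hu', Units.val_mul, Units.val_inv_eq_inv_val, Units.val_inv_eq_inv_val,
      Units.val_pow_eq_pow_val, Units.val_pow_eq_pow_val, hπU]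
  have hu'E : ((u' : (Om q)ˣ) : Om q) ∈ E := by
    rw [hu'val]
    exact E.mul_mem (E.inv_mem hBE) (E.inv_mem (pow_mem hπ.1 m))
  have hu'norm : ‖((u' : (Om q)ˣ) : Om q)‖ = ‖π‖ ^ ((p : ℤ) * (-k)) := by
    rw [hu'val, norm_mul, norm_inv, norm_inv, hnorm, norm_pow, ← zpow_natCast, ← zpow_neg,
      ← zpow_neg, ← zpow_add₀ hπn0]
    congr 1
    linarith
  have hu'N : IsNorm (Kur E p) φ p (u' : Om q) :=
    (hNG q E p φ π hp.pos hφ hπ (u' : Om q) hu'E u'.ne_zero).2 ⟨-k, hu'norm⟩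
  have hu'1 : MCohom E (carry (Kur E p) φ p u') 1 :=
    (hCN q E (Kur E p) p φ u' hcyc hu'E).2 hu'N
  have h2 : MCohom E (fun y => (carry (Kur E p) φ p (B ^ p) y)⁻¹)
      (fun y => carry (Kur E p) φ p πU y ^ m) := by
    have e : ∀ y, (carry (Kur E p) φ p (B ^ p) y)⁻¹ =
        carry (Kur E p) φ p πU y ^ m * carry (Kur E p) φ p u' y := by
      intro y
      rw [← h76m_carry_inv, ← h76m_carry_pow, ← h76m_carry_mul]
      congr 1
      rw [hu', mul_comm ((B ^ p)⁻¹) _, mul_inv_cancel_left]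
    exact h76m_mul_one (h76m_of_eq E (fun g _ h _ => e (g, h))) hu'1
  have h12 := h76m_trans h1 h2
  -- Step 3: corestriction
  have h3 := hCC q E s hs _ _ h12
  have hζp : (zetaU p q) ^ p = 1 := by
    apply Units.ext
    rw [Units.val_pow_eq_pow_val, hζU, Units.val_one]
    exact hζprim.pow_eq_one
  rw [← hTw q p E s (zetaU p q) (chiL p q) hζp hχ, h96l_mcor_pow] at h3
  -- Step 4: `InvCor`
  have h5 := h76m_pow (hIC q p E s φ πU hs hφ hπ') m
  have h6 := h76m_trans h3 h5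
  unfold HasInv
  rw [← hm]
  exact h6

end Fermat.Agent.PT.Loc
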