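import Mathlib
import Fermat.Agent.PT.Loc.Iface2
import Fermat.Agent.PT.Loc.H76MC
import Fermat.Agent.PT.Loc.H66CorCohom

/-!
# W3-PT / PT-LOC, leaf LOC2-INV-LG (helper97, second seat): the local symbol formula

`h97l_invLG : MCKum → URCyc → URNormGrp → MCCarryNorm → CorTw → CorCohom → InvCor → ChiZeta →
  InvLG`.

For `B^p ∈ E` with `‖B^p‖ = ‖π‖^n`: on `G_E`, `ζ^(κ_B ∪ idx) ∼ carry(B^p)⁻¹` (Kummer) and
`carry((B^p)⁻¹) ∼ carry(π)^t`, `t = (-n mod p).val`, because `(B^p)⁻¹ π^(-t)` has valuation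
divisible by `p`, hence is a norm from `Kur E p`.  Corestriction (`CorTw`, `CorCohom`,
`h97l_mcor_pow`) and `InvCor` give `ζ^(cor (κ_B ∪ idx)) ∼ Yq^t`.  (`InvY` is not needed.)
-/

set_option autoImplicit false
set_option linter.style.haveILetI false

open scoped Classical

noncomputable section

namespace Fermat.Agent.PT.Loc

variable {q : ℕ} [Fact q.Prime]

/-- `mcor` commutes with natural powers. -/
lemma h97l_mcor_pow (E : LF q) [FiniteDimensional ℚ_[q] E] (s : Gq q ⧸ GK E → Gq q)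
    (β : Gq q × Gq q → (Om q)ˣ) (t : ℕ) (y : Gq q × Gq q) :
    mcor E s (fun v => β v ^ t) y = mcor E s β y ^ t := by
  haveI := h66c_finite_quot E
  letI : Fintype (Gq q ⧸ GK E) := Fintype.ofFinite _
  rw [h66c_mcor_eq_prod, h66c_mcor_eq_prod, ← Finset.prod_pow]
  refine Finset.prod_congr rfl fun a _ => ?_
  rw [smul_pow']

/-- **LOC2-INV-LG** (local symbol formula). -/
theorem h97l_invLG (hKum : MCKum) (hCyc : URCyc) (hNG : URNormGrp) (hCN : MCCarryNorm)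
    (hTw : CorTw) (hCoh : CorCohom) (hCor : InvCor) (hZ : ChiZeta) : InvLG := by
  intro q _ p _ E _ s φ π B n hs hζE hφ hπ hBp hnorm
  obtain ⟨hprim, hcoe, hact⟩ := hZ q p
  have hp : p.Prime := Fact.out
  haveI : NeZero p := ⟨hp.ne_zero⟩
  have hcyc : IsCyc E (Kur E p) p φ := hCyc q E p φ hp.pos hφ
  have hζp : zetaU p q ^ p = 1 := by
    apply Units.ext
    rw [Units.val_pow_eq_pow_val, hcoe, Units.val_one]
    exact hprim.pow_eq_one
  -- Step 1: Kummer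
  have h1 := hKum q p E (Kur E p) φ (zetaU p q) B (by rw [hcoe]; exact hζE)
    (by rw [hcoe]; exact hprim) hcyc hBp
  rw [hcoe] at h1
  -- the uniformizer as a unit
  have hπ0 : π ≠ 0 := hπ.2.1
  obtain ⟨π', hπ'⟩ : ∃ π' : (Om q)ˣ, (π' : Om q) = π := ⟨Units.mk0 π hπ0, rfl⟩
  have hπ'u : IsUnif E (π' : Om q) := by rw [hπ']; exact hπ
  obtain ⟨t, ht⟩ : ∃ t : ℕ, t = (-(n : ZMod p)).val := ⟨_, rfl⟩
  -- the exponent relation
  have hdvd : (p : ℤ) ∣ (-n - t) := by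
    rw [← ZMod.intCast_zmod_eq_zero_iff_dvd]
    push_cast
    rw [ht, ZMod.natCast_zmod_val]
    ring
  obtain ⟨k, hk⟩ := hdvd
  -- Step 2: `carry (B^p)⁻¹ ∼ carry (π')^t` on `G_E`
  have hb : MCohom E (carry (Kur E p) φ p ((B ^ p)⁻¹ * (π' ^ t)⁻¹)) 1 := by
    have hmem : (((B ^ p)⁻¹ * (π' ^ t)⁻¹ : (Om q)ˣ) : Om q) ∈ E := by
      rw [Units.val_mul, Units.val_inv_eq_inv_val, Units.val_inv_eq_inv_val,
        Units.val_pow_eq_pow_val, Units.val_pow_eq_pow_val, hπ']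
      exact E.mul_mem (E.inv_mem hBp) (E.inv_mem (pow_mem hπ.1 t))
    refine (hCN q E (Kur E p) p φ _ hcyc hmem).2 ?_
    refine (hNG q E p φ π hp.pos hφ hπ _ hmem (Units.ne_zero _)).2 ⟨k, ?_⟩
    rw [Units.val_mul, Units.val_inv_eq_inv_val, Units.val_inv_eq_inv_val,
      Units.val_pow_eq_pow_val, Units.val_pow_eq_pow_val, hπ', norm_mul, norm_inv, norm_inv,
      hnorm, norm_pow, ← hk]
    have hn0 : ‖π‖ ≠ 0 := norm_ne_zero_iff.2 hπ0
    rw [sub_eq_add_neg, zpow_add₀ hn0, zpow_neg, zpow_neg, zpow_natCast]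
  have h2 : MCohom E (fun y => (carry (Kur E p) φ p (B ^ p) y)⁻¹)
      (fun y => carry (Kur E p) φ p π' y ^ t) := by
    refine h76m_mul_one (h76m_of_eq E (fun g _ h _ => ?_)) hb
    rw [← h76m_carry_pow, ← h76m_carry_mul, ← h76m_carry_inv]
    congr 1
    rw [mul_comm ((B ^ p)⁻¹) ((π' ^ t)⁻¹), mul_inv_cancel_left]
  have h3 := h76m_trans h1 h2
  -- Step 3: corestriction
  have h4 := hCoh q E s hs _ _ h3
  rw [← hTw q p E s (zetaU p q) (chiL p q) hζp hact] at h4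
  have h5 : mcor E s (fun y => carry (Kur E p) φ p π' y ^ t)
      = fun y => mcor E s (carry (Kur E p) φ p π') y ^ t :=
    funext fun y => h97l_mcor_pow E s _ t y
  rw [h5] at h4
  have h6 := hCor q p E s φ π' hs hφ hπ'u
  have h7 := h76m_trans h4 (h76m_pow h6 t)
  rw [ht] at h7
  exact h7

end Fermat.Agent.PT.Loc
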