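import Fermat.Agent.PT.Loc.Iface2
import Fermat.Agent.PT.Loc.H76MC

/-!
# W3-PT / PT-LOC, leaf LOC2-INV-COR (helper99, second seat): corestriction preserves invariants

`h99ic_invCor : LFEF → LFBase → URResIdx → URNormGrp → MCCarryNorm → MCCarryPow → MCCarry →
URCyc → URFrob → CorCohom → CorRes → InvCor` :
`mcor_{E/ℚ_q} (carry (Kur E p) φ p π) ∼ Yq` for a Frobenius `φ` and a uniformizer `π` of `E`.

Proof (design of helper48).  `[E:ℚ_q] = e f`, `N = f p e`, `y := carry (Kur ⊥ N) frobQ N q`.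
1. `URResIdx`: `idx_{ℚ_q} = f · idx_E` on `G_E`, so `y = carry (Kur E (p e)) φ (p e) q` on `G_E`;
2. `q = u π^e` with `u` a unit of `E`: `carry(u) ∼ 1` (`URNormGrp`, `MCCarryNorm`) and
   `carry_{p e}(π^e) ∼ carry_p(π)` (`MCCarryPow`), so `y ∼_E Y_E`;
3. `CorCohom`: `mcor Y_E ∼ mcor y`; `CorRes`: `mcor y ∼ y^(e f) = carry_N(q^(e f)) ∼ carry_p(q)
   = Yq` (`MCCarryPow`).
-/

set_option autoImplicit false

open scoped Classical

noncomputable section

namespace Fermat.Agent.PT.Loc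

variable {q : ℕ} [Fact q.Prime]

theorem h99ic_Kur_le (K : LF q) (n m : ℕ) : Kur K n ≤ Kur K (n * m) := by
  unfold Kur
  apply sup_le_sup_left
  apply IntermediateField.adjoin.mono
  intro w hw
  obtain ⟨d, hd⟩ : (resCard K ^ n - 1) ∣ (resCard K ^ (n * m) - 1) := by
    have h := Nat.sub_dvd_pow_sub_pow (resCard K ^ n) 1 m
    rwa [one_pow, ← pow_mul] at h
  show w ^ (resCard K ^ (n * m) - 1) = 1
  rw [hd, pow_mul, show w ^ (resCard K ^ n - 1) = 1 from hw, one_pow]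

/-- **LOC2-INV-COR**. -/
theorem h99ic_invCor (hEF : LFEF) (hBase : LFBase) (hRI : URResIdx) (hNG : URNormGrp)
    (hCN : MCCarryNorm) (hCP : MCCarryPow) (hC : MCCarry) (hCyc : URCyc) (hFr : URFrob)
    (hCoh : CorCohom) (hRes : CorRes) : InvCor := by
  intro q _ p _ E _ s φ π hs hφ hπ
  have hp : p.Prime := Fact.out
  obtain ⟨e, f, he, hf, hqe, hres, hef⟩ := hEF q E (π : Om q) hπ
  obtain ⟨-, hres0, hqU⟩ := hBase q
  have hπ' := hπ
  obtain ⟨hπE, hπ0, hπ1, hπmax⟩ := hπ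
  have hφ0 : IsFrob (⊥ : LF q) (frobQ q) := by
    have h : ∃ φ : Gq q, IsFrob (⊥ : LF q) φ := hFr q ⊥
    unfold frobQ
    rw [dif_pos h]
    exact h.choose_spec
  have hpe : 0 < p * e := Nat.mul_pos hp.pos he
  have hN : 0 < f * (p * e) := Nat.mul_pos hf hpe
  have hresE : resCard E = resCard (⊥ : LF q) ^ f := by rw [hres, hres0]
  -- (1) restriction of `y` to `G_E`
  have h1 : MCohom E (carry (Kur (⊥ : LF q) (f * (p * e))) (frobQ q) (f * (p * e)) (qU q))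
      (carry (Kur E (p * e)) φ (p * e) (qU q)) := by
    refine h76m_of_eq E (fun g hg h hh => ?_)
    have ig := hRI q ⊥ E f (p * e) (frobQ q) φ bot_le hf hpe hresE hφ0 hφ g hg
    have ih := hRI q ⊥ E f (p * e) (frobQ q) φ bot_le hf hpe hresE hφ0 hφ h hh
    unfold carry
    simp only
    rw [ig, ih, ← Nat.mul_add]
    by_cases hc : p * e ≤ cycIdx (Kur E (p * e)) φ (p * e) g + cycIdx (Kur E (p * e)) φ (p * e) h
    · rw [if_pos hc, if_pos (Nat.mul_le_mul_left f hc)]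
    · rw [if_neg hc, if_neg (fun h' => hc (Nat.le_of_mul_le_mul_left h' hf))]
  -- (2) `q = u π^e`
  have hcyc_pe : IsCyc E (Kur E (p * e)) (p * e) φ := hCyc q E (p * e) φ hpe hφ
  have hcyc_p : IsCyc E (Kur E p) p φ := hCyc q E p φ hp.pos hφ
  set u : (Om q)ˣ := qU q * (π ^ e)⁻¹ with hu
  have hqE : ((qU q : (Om q)ˣ) : Om q) ∈ E := by
    rw [hqU]
    exact natCast_mem E q
  have huE : (u : Om q) ∈ E := by
    rw [hu, Units.val_mul, Units.val_inv_eq_inv_val, Units.val_pow_eq_pow_val]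
    exact E.mul_mem hqE (E.inv_mem (pow_mem hπE e))
  have hun : ‖(u : Om q)‖ = 1 := by
    have hπn : ‖(π : Om q)‖ ^ e ≠ 0 := pow_ne_zero _ (norm_ne_zero_iff.mpr hπ0)
    rw [hu, Units.val_mul, Units.val_inv_eq_inv_val, Units.val_pow_eq_pow_val, norm_mul,
      norm_inv, norm_pow, hqU, hqe, mul_inv_cancel₀ hπn]
  have hu_norm : IsNorm (Kur E (p * e)) φ (p * e) (u : Om q) :=
    (hNG q E (p * e) φ (π : Om q) hpe hφ hπ' (u : Om q) huE u.ne_zero).mpr
      ⟨0, by rw [hun, mul_zero, zpow_zero]⟩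
  have hu1 : MCohom E (carry (Kur E (p * e)) φ (p * e) u) 1 :=
    (hCN q E (Kur E (p * e)) (p * e) φ u hcyc_pe huE).mpr hu_norm
  have hpow : MCohom E (carry (Kur E (p * e)) φ (p * e) (π ^ e)) (carry (Kur E p) φ p π) :=
    hCP q E (Kur E p) (Kur E (p * e)) p e φ π hcyc_p hcyc_pe (h99ic_Kur_le E p e) hπE
  have h2 : MCohom E (carry (Kur E (p * e)) φ (p * e) (qU q)) (carry (Kur E p) φ p π) := by
    refine h76m_trans (h76m_mul_one (d := carry (Kur E (p * e)) φ (p * e) u)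
      (h76m_of_eq E (fun g _ h _ => ?_)) hu1) hpow
    show carry (Kur E (p * e)) φ (p * e) (qU q) (g, h) =
      carry (Kur E (p * e)) φ (p * e) (π ^ e) (g, h) * carry (Kur E (p * e)) φ (p * e) u (g, h)
    rw [← h76m_carry_mul, hu, mul_comm (π ^ e), inv_mul_cancel_right]
  have hYE : MCohom E (carry (Kur E p) φ p π)
      (carry (Kur (⊥ : LF q) (f * (p * e))) (frobQ q) (f * (p * e)) (qU q)) :=
    h76m_symm (h76m_trans h1 h2)
  -- (3) corestriction
  have h3 := hCoh q E s hs _ _ hYE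
  have hcyc0 : IsCyc (⊥ : LF q) (Kur (⊥ : LF q) (f * (p * e))) (f * (p * e)) (frobQ q) :=
    hCyc q ⊥ (f * (p * e)) (frobQ q) hN hφ0
  have hcyc0p : IsCyc (⊥ : LF q) (Kur (⊥ : LF q) p) p (frobQ q) := hCyc q ⊥ p (frobQ q) hp.pos hφ0
  have hqbot : ((qU q : (Om q)ˣ) : Om q) ∈ (⊥ : LF q) := by
    rw [hqU]
    exact natCast_mem _ q
  obtain ⟨hyc, hycont⟩ := hC q ⊥ (Kur (⊥ : LF q) (f * (p * e))) (f * (p * e)) (frobQ q) (qU q)
    hcyc0 hqbot
  have h4 := hRes q E s hs _ hyc hycont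
  rw [← hef] at h4
  have hN' : f * (p * e) = p * (e * f) := by ring
  have h5 : MCohom (⊥ : LF q)
      (carry (Kur (⊥ : LF q) (p * (e * f))) (frobQ q) (p * (e * f)) (qU q ^ (e * f)))
      (carry (Kur (⊥ : LF q) p) (frobQ q) p (qU q)) :=
    hCP q ⊥ (Kur (⊥ : LF q) p) (Kur (⊥ : LF q) (p * (e * f))) p (e * f) (frobQ q) (qU q) hcyc0p
      (hN' ▸ hcyc0) (h99ic_Kur_le ⊥ p (e * f)) hqbot
  have h6 : MCohom (⊥ : LF q)
      (fun v => carry (Kur (⊥ : LF q) (f * (p * e))) (frobQ q) (f * (p * e)) (qU q) v ^ (e * f))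
      (carry (Kur (⊥ : LF q) (p * (e * f))) (frobQ q) (p * (e * f)) (qU q ^ (e * f))) := by
    refine h76m_of_eq ⊥ (fun g _ h _ => ?_)
    show carry (Kur (⊥ : LF q) (f * (p * e))) (frobQ q) (f * (p * e)) (qU q) (g, h) ^ (e * f) =
      carry (Kur (⊥ : LF q) (p * (e * f))) (frobQ q) (p * (e * f)) (qU q ^ (e * f)) (g, h)
    rw [h76m_carry_pow, hN']
  exact h76m_trans h3 (h76m_trans h4 (h76m_trans h6 h5))

end Fermat.Agent.PT.Loc
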