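import Fermat.Agent.PT.Loc.InvCor99
import Fermat.Agent.PT.Loc.InvLG99Final
import Fermat.Agent.PT.Loc.H28RD
import Fermat.Agent.PT.Loc.H96RDBase
import Fermat.Agent.PT.Loc.H96URResIdx
import Fermat.Agent.PT.Loc.H97CorRes
import Fermat.Agent.PT.Loc.H36URFrob
import Fermat.Agent.PT.Loc.MC.H79CarryPow
import Fermat.Agent.PT.Loc.MC.H65Carry

/-!
# W3-PT / PT-LOC, leaves LOC2-INV-COR and LOC2-INV-LG (helper99): unconditional forms

* `h99ic_invCor_holds : InvCor` — corestriction preserves invariants;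
* `h99lg_invLG_holds : InvLG`  — the local symbol formula.
Pure wiring of `h99ic_invCor`, `h99lg_invLG_of_invCor` with the landed leaves.
-/

set_option autoImplicit false

namespace Fermat.Agent.PT.Loc

theorem h99ic_invCor_holds : InvCor :=
  h99ic_invCor h28r_lfEF h96b_lfBase h96r_urResIdx
    (h8ng_urNormGrp (h82n_urNorm h34lf_lfTeich (h66v_urCyc h34lf_lfTeich))
      (h66v_urVal h34lf_lfTeich) h34lf_lfUnif)
    (h90c_carryNorm h81h_mcH90) h79c_mcCarryPow h65_mcCarry (h66v_urCyc h34lf_lfTeich)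
    (h36_urFrob h34lf_lfTeich) h66c_corCohom h97c_corRes

theorem h99lg_invLG_holds : InvLG := h99lg_invLG_of_invCor h99ic_invCor_holds

end Fermat.Agent.PT.Loc
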