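import Fermat.Agent.PT.Loc.LFUnits

/-!
# PT-LOC foundation (helper34): the index of `d`-th powers in `Eˣ`

`O` a complete discrete valuation ring with finite residue field, `E = Frac O`, `(d) = m ^ e`.
Then `[Eˣ : (Eˣ) ^ d] = d * #(O / m ^ e) * #μ_d(E)`.
-/

namespace Fermat.Agent.PT.Loc

open IsLocalRing IsDedekindDomain

section

variable (O E : Type*) [CommRing O] [IsDomain O] [IsDiscreteValuationRing O]
  [Field E] [Algebra O E] [IsFractionRing O E]

/-- The normalised valuation as a group homomorphism `Eˣ →* ℤ`. -/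
noncomputable def h34lf_val : Eˣ →* Multiplicative ℤ :=
  (WithZero.unitsWithZeroEquiv (α := Multiplicative ℤ)).toMonoidHom.comp
    (Units.map
      ((IsDiscreteValuationRing.maximalIdeal O).valuation E).toMonoidWithZeroHom.toMonoidHom)

/-- The inclusion `Oˣ → Eˣ`. -/
noncomputable def h34lf_incl : Oˣ →* Eˣ := Units.map (algebraMap O E).toMonoidHom

variable {O E}

omit [IsDomain O] [IsDiscreteValuationRing O] in
theorem h34lf_incl_injective : Function.Injective (h34lf_incl O E) :=
  Units.map_injective (f := (algebraMap O E).toMonoidHom) (IsFractionRing.injective O E)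

omit [IsDomain O] [IsDiscreteValuationRing O] [IsFractionRing O E] in
@[simp] theorem h34lf_incl_val (u : Oˣ) : ((h34lf_incl O E u : Eˣ) : E) = algebraMap O E u := rfl

theorem h34lf_val_eq_one_iff (x : Eˣ) :
    h34lf_val O E x = 1 ↔ (IsDiscreteValuationRing.maximalIdeal O).valuation E (x : E) = 1 := by
  unfold h34lf_val
  rw [MonoidHom.comp_apply, MulEquiv.coe_toMonoidHom, MulEquiv.map_eq_one_iff, Units.ext_iff]
  rfl

theorem h34lf_val_surjective : Function.Surjective (h34lf_val O E) := by
  intro z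
  obtain ⟨y, hy⟩ := (IsDiscreteValuationRing.maximalIdeal O).valuation_surjective E
    ((z : Multiplicative ℤ) : WithZero (Multiplicative ℤ))
  have hy0 : y ≠ 0 := by
    intro h
    rw [h, map_zero] at hy
    exact WithZero.coe_ne_zero hy.symm
  refine ⟨Units.mk0 y hy0, ?_⟩
  unfold h34lf_val
  rw [MonoidHom.comp_apply, MulEquiv.coe_toMonoidHom]
  apply (WithZero.unitsWithZeroEquiv (α := Multiplicative ℤ)).symm.injective
  rw [MulEquiv.symm_apply_apply]
  ext
  simpa [WithZero.unitsWithZeroEquiv] using hy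

theorem h34lf_ker_val : (h34lf_val O E).ker = (h34lf_incl O E).range := by
  ext x
  rw [MonoidHom.mem_ker, h34lf_val_eq_one_iff, MonoidHom.mem_range]
  have key := IsDiscreteValuationRing.mker_valuation_eq_isUnitSubmonoid (A := O) (K := E)
  have hmem : (IsDiscreteValuationRing.maximalIdeal O).valuation E (x : E) = 1 ↔
      (x : E) ∈ MonoidHom.mker ((IsDiscreteValuationRing.maximalIdeal O).valuation E) :=
    Iff.rfl
  rw [hmem, key, Submonoid.mem_map]
  constructor
  · rintro ⟨a, ha, hax⟩
    have ha' : IsUnit a := ha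
    refine ⟨ha'.unit, ?_⟩
    ext
    rw [h34lf_incl_val, IsUnit.unit_spec]
    exact hax
  · rintro ⟨u, rfl⟩
    exact ⟨(u : O), u.isUnit, rfl⟩

end

section Main

variable {O E : Type*} [CommRing O] [IsDomain O] [IsDiscreteValuationRing O]
  [Field E] [Algebra O E] [IsFractionRing O E]

theorem h34lf_ker_pow_eq_map (d : ℕ) (hd : d ≠ 0) :
    (powMonoidHom d : Eˣ →* Eˣ).ker = ((powMonoidHom d : Oˣ →* Oˣ).ker).map (h34lf_incl O E) := by
  ext x
  constructor
  · intro hx
    have hx' : x ^ d = 1 := MonoidHom.mem_ker.mp hx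
    have h1 : x ∈ (h34lf_val O E).ker := by
      rw [MonoidHom.mem_ker]
      have h2 : (h34lf_val O E x) ^ d = 1 := by rw [← map_pow, hx', map_one]
      apply Multiplicative.toAdd.injective
      have h8 := congrArg Multiplicative.toAdd h2
      simp only [toAdd_pow, toAdd_one] at h8
      rcases smul_eq_zero.mp h8 with h9 | h9
      · exact absurd h9 hd
      · simpa using h9
    rw [h34lf_ker_val] at h1
    obtain ⟨u, rfl⟩ := h1
    refine ⟨u, MonoidHom.mem_ker.mpr ?_, rfl⟩
    apply h34lf_incl_injective (O := O) (E := E)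
    rw [map_one]
    simpa using hx'
  · rintro ⟨u, hu, rfl⟩
    have hu' : u ^ d = 1 := MonoidHom.mem_ker.mp hu
    rw [MonoidHom.mem_ker]
    change (h34lf_incl O E u) ^ d = 1
    rw [← map_pow, hu', map_one]

/-- **Index of `d`-th powers in the multiplicative group of a local field** (abstract form:
fraction field of a complete DVR with finite residue field):
`[Eˣ : (Eˣ)^d] = d * #(O / m^e) * #μ_d(E)` where `(d) = m^e`. -/
theorem h34lf_index_pow_field [IsAdicComplete (maximalIdeal O) O] [Finite (ResidueField O)]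
    {d e : ℕ} (hde : Ideal.span {(d : O)} = maximalIdeal O ^ e) :
    (powMonoidHom d : Eˣ →* Eˣ).range.index =
      d * (Nat.card (O ⧸ maximalIdeal O ^ e) * Nat.card (powMonoidHom d : Eˣ →* Eˣ).ker) := by
  have hd : d ≠ 0 := h34lf_ne_zero_of_span hde
  rw [h34lf_index_pow_range_of_val (h34lf_val O E) h34lf_val_surjective d hd]
  congr 1
  have h1 : (h34lf_val O E).ker = (⊤ : Subgroup Oˣ).map (h34lf_incl O E) := by
    rw [h34lf_ker_val, MonoidHom.range_eq_map]
  have h2 : ((h34lf_val O E).ker).map (powMonoidHom d : Eˣ →* Eˣ) =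
      ((powMonoidHom d : Oˣ →* Oˣ).range).map (h34lf_incl O E) := by
    rw [h1, MonoidHom.range_eq_map, Subgroup.map_map, Subgroup.map_map]
    congr 1
    ext u
    simp
  rw [h2]
  conv_lhs => rw [h1]
  rw [Subgroup.relIndex_map_map_of_injective _ _ (h34lf_incl_injective (O := O) (E := E)),
    Subgroup.relIndex_top_right, h34lf_index_pow_units hde, h34lf_ker_pow_eq_map (O := O) d hd]
  congr 1
  exact Nat.card_congr
    (Subgroup.equivMapOfInjective _ (h34lf_incl O E) (h34lf_incl_injective (O := O) (E := E))).toEquiv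

theorem h34lf_finite_ker_pow_field [Finite (ResidueField O)]
    {d e : ℕ} (hde : Ideal.span {(d : O)} = maximalIdeal O ^ e) :
    Finite (powMonoidHom d : Eˣ →* Eˣ).ker := by
  have hd : d ≠ 0 := h34lf_ne_zero_of_span hde
  rw [h34lf_ker_pow_eq_map (O := O) d hd]
  have := h34lf_finite_ker_pow_units hde
  exact Finite.of_equiv _
    (Subgroup.equivMapOfInjective _ (h34lf_incl O E) (h34lf_incl_injective (O := O) (E := E))).toEquiv

/-- The index `[Eˣ : (Eˣ)^d]` is finite (nonzero). -/
theorem h34lf_index_pow_field_ne_zero [IsAdicComplete (maximalIdeal O) O]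
    [Finite (ResidueField O)]
    {d e : ℕ} (hde : Ideal.span {(d : O)} = maximalIdeal O ^ e) :
    (powMonoidHom d : Eˣ →* Eˣ).range.index ≠ 0 := by
  rw [h34lf_index_pow_field hde]
  have := h34lf_finite_quot_pow (O := O) e
  have := h34lf_finite_ker_pow_field (E := E) hde
  have hd : d ≠ 0 := h34lf_ne_zero_of_span hde
  exact mul_ne_zero hd (mul_ne_zero Nat.card_pos.ne' Nat.card_pos.ne')

end Main

end Fermat.Agent.PT.Loc
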