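import Mathlib

/-!
# PT-LOC foundation (helper34): power maps on principal units of a complete DVR

Mathlib only.  Setting: `O` a discrete valuation ring, adically complete for its maximal ideal.

* `h34lf_fixed_point` : a map `Φ : R → R` which is contracting for the `I`-adic filtration of an
  `I`-adically complete ring has a fixed point.
* `h34lf_one_add_pow` : `(1 + x) ^ d = 1 + d * x + x ^ 2 * P(x)` for a polynomial `P`.
* `h34lf_pow_sub_mem`, `h34lf_pow_surj`, `h34lf_pow_inj` : the `d`-th power map sends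
  `1 + m ^ n` bijectively onto `1 + m ^ (n + e)` as soon as `(d) = m ^ e` and `e + 1 ≤ n`.
-/

namespace Fermat.Agent.PT.Loc

open Polynomial

section Fixed

variable {R : Type*} [CommRing R] (I : Ideal R) [IsAdicComplete I R]

/-- A map which is contracting for the `I`-adic filtration of an `I`-adically complete ring
has a fixed point. -/
theorem h34lf_fixed_point (Φ : R → R)
    (hΦ : ∀ k : ℕ, ∀ a b : R, a - b ∈ I ^ k → Φ a - Φ b ∈ I ^ (k + 1)) :
    ∃ t, Φ t = t := by
  let c : ℕ → R := fun n => Nat.recOn n 0 fun _ b => Φ b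
  have hc : ∀ n, c (n + 1) = Φ (c n) := fun n => rfl
  have hstep : ∀ n, c (n + 1) - c n ∈ I ^ n := by
    intro n
    induction n with
    | zero => simp
    | succ n ih =>
      rw [hc (n + 1), hc n]
      exact hΦ n _ _ ih
  have aux : ∀ m n, m ≤ n → c m ≡ c n [SMOD (I ^ m • ⊤ : Submodule R R)] := by
    intro m n hmn
    rw [← Ideal.one_eq_top, Ideal.smul_eq_mul, mul_one]
    obtain ⟨k, rfl⟩ := Nat.exists_eq_add_of_le hmn
    clear hmn
    induction k with
    | zero => rw [add_zero]
    | succ k ih =>
      refine ih.trans ?_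
      rw [SModEq.sub_mem, ← Ideal.neg_mem_iff, neg_sub, ← add_assoc]
      exact Ideal.pow_le_pow_right (Nat.le_add_right m k) (hstep (m + k))
  obtain ⟨a, ha⟩ := IsPrecomplete.prec' c (aux _ _)
  refine ⟨a, ?_⟩
  have key : ∀ n, Φ a - a ∈ I ^ n := by
    intro n
    have h1 : c n - a ∈ I ^ n := by
      have := ha n
      rw [← Ideal.one_eq_top, Ideal.smul_eq_mul, mul_one, SModEq.sub_mem] at this
      exact this
    have h2 : c (n + 1) - a ∈ I ^ (n + 1) := by
      have := ha (n + 1)
      rw [← Ideal.one_eq_top, Ideal.smul_eq_mul, mul_one, SModEq.sub_mem] at this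
      exact this
    have h3 : Φ a - Φ (c n) ∈ I ^ (n + 1) := by
      apply hΦ n
      rw [← Ideal.neg_mem_iff, neg_sub]
      exact h1
    have h4 : Φ a - a = (Φ a - Φ (c n)) + (c (n + 1) - a) := by
      rw [hc n]; ring
    rw [h4]
    exact Ideal.pow_le_pow_right (Nat.le_succ n) (Ideal.add_mem _ h3 h2)
  have : Φ a - a = 0 := by
    apply IsHausdorff.haus' (I := I) (M := R)
    intro n
    rw [← Ideal.one_eq_top, Ideal.smul_eq_mul, mul_one, SModEq.zero]
    exact key n
  exact sub_eq_zero.mp this

end Fixed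

section Binomial

variable {R : Type*} [CommRing R]

/-- `(1 + x) ^ d = 1 + d x + x² P(x)` with `P` a polynomial depending only on `d`. -/
theorem h34lf_one_add_pow (d : ℕ) :
    ∃ P : R[X], ∀ x : R, (1 + x) ^ d = 1 + (d : R) * x + x ^ 2 * P.eval x := by
  induction d with
  | zero => exact ⟨0, fun x => by simp⟩
  | succ d ih =>
    obtain ⟨P, hP⟩ := ih
    refine ⟨C (d : R) + P + X * P, fun x => ?_⟩
    rw [pow_succ, hP x]
    simp only [eval_add, eval_mul, eval_C, eval_X, Nat.cast_succ]
    ring

end Binomial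

end Fermat.Agent.PT.Loc
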