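import Mathlib

/-!
# PT-LOC foundation (helper34): two index lemmas for endomorphisms of commutative groups

* `h34lf_index_range_of_subgroup` : if `H ≤ G` has finite index, `f H ≤ H` and `f` is injective
  on `H`, then `[G : f G] = [H : f H] * #ker f`.
* `h34lf_index_pow_range_of_val` : if `v : G → ℤ` is a surjective homomorphism, then
  `[G : G ^ d] = d * [ker v : (ker v) ^ d]`.
-/

namespace Fermat.Agent.PT.Loc

open Subgroup

section

variable {G : Type*} [CommGroup G]

theorem h34lf_index_range_of_subgroup (f : G →* G) (H : Subgroup G)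
    (hH : H.index ≠ 0) (hinj : H ⊓ f.ker = ⊥) (hmap : H.map f ≤ H) :
    f.range.index = (H.map f).relIndex H * Nat.card f.ker := by
  have a := Subgroup.index_map H f
  have b := Subgroup.relIndex_mul_index hmap
  have c := Subgroup.relIndex_mul_index (le_sup_left : H ≤ H ⊔ f.ker)
  have d : H.relIndex (H ⊔ f.ker) = Nat.card f.ker := by
    rw [Subgroup.relIndex_sup_left, ← Subgroup.inf_relIndex_right, hinj,
      Subgroup.relIndex_bot_left]
  rw [d] at c
  have hne : (H ⊔ f.ker).index ≠ 0 := by
    intro h0
    rw [h0, mul_zero] at c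
    exact hH c.symm
  have key : (H ⊔ f.ker).index * f.range.index =
      (H ⊔ f.ker).index * ((H.map f).relIndex H * Nat.card f.ker) := by
    rw [← a, ← b, ← c]; ring
  exact Nat.eq_of_mul_eq_mul_left (Nat.pos_of_ne_zero hne) key

/-- Finiteness of the kernel in the situation of `h34lf_index_range_of_subgroup`. -/
theorem h34lf_finite_ker_of_subgroup (f : G →* G) (H : Subgroup G)
    (hH : H.index ≠ 0) (hinj : H ⊓ f.ker = ⊥) : Finite f.ker := by
  have c := Subgroup.relIndex_mul_index (le_sup_left : H ≤ H ⊔ f.ker)
  have d : H.relIndex (H ⊔ f.ker) = Nat.card f.ker := by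
    rw [Subgroup.relIndex_sup_left, ← Subgroup.inf_relIndex_right, hinj,
      Subgroup.relIndex_bot_left]
  rw [d] at c
  have : Nat.card f.ker ≠ 0 := by
    intro h0
    rw [h0, zero_mul] at c
    exact hH c.symm
  exact Nat.finite_of_card_ne_zero this

theorem h34lf_index_pow_range_of_val (v : G →* Multiplicative ℤ) (hv : Function.Surjective v)
    (d : ℕ) (hd : d ≠ 0) :
    (powMonoidHom d : G →* G).range.index =
      d * (v.ker.map (powMonoidHom d : G →* G)).relIndex v.ker := by
  set f : G →* G := powMonoidHom d with hf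
  -- the composite `G → ℤ → ℤ/d`
  let r : Multiplicative ℤ →* Multiplicative (ZMod d) :=
    AddMonoidHom.toMultiplicative (Int.castAddHom (ZMod d))
  have hr : Function.Surjective r := by
    intro z
    obtain ⟨k, hk⟩ := ZMod.intCast_surjective (Multiplicative.toAdd z)
    exact ⟨Multiplicative.ofAdd k, by simpa [r] using congrArg Multiplicative.ofAdd hk⟩
  let w : G →* Multiplicative (ZMod d) := r.comp v
  have hw : Function.Surjective w := hr.comp hv
  have hT : f.range ⊔ v.ker = w.ker := by
    apply le_antisymm
    · apply sup_le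
      · rintro _ ⟨y, rfl⟩
        rw [MonoidHom.mem_ker]
        have : w (f y) = (w y) ^ d := by simp [hf]
        rw [this]
        apply Multiplicative.toAdd.injective
        simp
      · intro x hx
        rw [MonoidHom.mem_ker] at hx ⊢
        simp [w, hx]
    · intro x hx
      rw [MonoidHom.mem_ker] at hx
      have h1 : ((Multiplicative.toAdd (v x) : ℤ) : ZMod d) = 0 := by
        have := congrArg Multiplicative.toAdd hx
        simpa [w, r] using this
      rw [ZMod.intCast_zmod_eq_zero_iff_dvd] at h1
      obtain ⟨k, hk⟩ := h1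
      obtain ⟨y, hy⟩ := hv (Multiplicative.ofAdd k)
      have h2 : v (x / y ^ d) = 1 := by
        rw [map_div, map_pow, hy]
        apply Multiplicative.toAdd.injective
        simp [hk]
      have h3 : x = f y * (x / y ^ d) := by simp [hf]
      rw [h3]
      exact Subgroup.mul_mem_sup ⟨y, rfl⟩ (MonoidHom.mem_ker.mpr h2)
  have hTidx : (f.range ⊔ v.ker).index = d := by
    rw [hT, Subgroup.index_ker, MonoidHom.range_eq_top.mpr hw]
    rw [Nat.card_congr (Subgroup.topEquiv (G := Multiplicative (ZMod d))).toEquiv]
    have : NeZero d := ⟨hd⟩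
    rw [Nat.card_eq_fintype_card]
    simp [ZMod.card]
  have h4 := Subgroup.relIndex_mul_index (le_sup_left : f.range ≤ f.range ⊔ v.ker)
  rw [hTidx] at h4
  have h5 : f.range.relIndex (f.range ⊔ v.ker) = f.range.relIndex v.ker := by
    rw [sup_comm, Subgroup.relIndex_sup_right]
  have h6 : f.range.relIndex v.ker = (v.ker.map f).relIndex v.ker := by
    rw [← Subgroup.inf_relIndex_right]
    congr 1
    ext x
    constructor
    · rintro ⟨⟨y, rfl⟩, hx⟩
      have hx' : v (f y) = 1 := MonoidHom.mem_ker.mp hx
      refine ⟨y, MonoidHom.mem_ker.mpr ?_, rfl⟩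
      have h7 : (v y) ^ d = 1 := by simpa [hf] using hx'
      apply Multiplicative.toAdd.injective
      have h8 := congrArg Multiplicative.toAdd h7
      simp only [toAdd_pow, toAdd_one] at h8
      rcases mul_eq_zero.mp h8 with h9 | h9
      · exact absurd (by exact_mod_cast h9) hd
      · simpa using h9
    · rintro ⟨y, hy, rfl⟩
      have hy' : v y = 1 := MonoidHom.mem_ker.mp hy
      exact ⟨⟨y, rfl⟩, MonoidHom.mem_ker.mpr (by simp [hf, hy'])⟩
  rw [← h4, h5, h6, mul_comm]

end

end Fermat.Agent.PT.Loc
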