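import Mathlib

/-!
# PT-LOC foundation (helper34): the valuation ring of a proper nonarchimedean normed field

For a nontrivially normed, ultrametric, proper field `K` (e.g. a finite extension of `ℚ_[q]` with
its canonical norm) the ring of integers `𝒪[K]` (for the valuation `NormedField.toValued`) is a
complete discrete valuation ring with finite residue field, and it is adically complete.
Everything is deduced from Mathlib's characterisation of locally compact valued fields.

Use `open scoped NormedField` to see the `Valued K ℝ≥0` structure.
-/

namespace Fermat.Agent.PT.Loc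

open Valued IsLocalRing

open scoped NormedField

section Generic

variable (K : Type*) [NontriviallyNormedField K] [IsUltrametricDist K] [ProperSpace K]

omit [ProperSpace K] in
theorem h34lf_integer_coe_eq_closedBall :
    ((𝒪[K] : Subring K) : Set K) = Metric.closedBall 0 1 := by
  ext x
  rw [SetLike.mem_coe, Valued.integer.mem_iff, Metric.mem_closedBall, dist_zero_right]

theorem h34lf_compactSpace_integer : CompactSpace 𝒪[K] := by
  have h := isCompact_closedBall (0 : K) 1
  rw [← h34lf_integer_coe_eq_closedBall K] at h
  exact (isCompact_iff_compactSpace (s := ((𝒪[K] : Subring K) : Set K))).mp h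

omit [ProperSpace K] in
/-- The rank one structure of the norm valuation. -/
@[reducible] noncomputable def h34lf_rankOne : (Valued.v : Valuation K NNReal).RankOne :=
  inferInstanceAs (Valuation.RankOne (NormedField.valuation (K := K)))

attribute [local instance] h34lf_rankOne h34lf_compactSpace_integer

theorem h34lf_integer_props :
    CompleteSpace 𝒪[K] ∧ IsDiscreteValuationRing 𝒪[K] ∧ Finite 𝓀[K] :=
  Valued.integer.compactSpace_iff_completeSpace_and_isDiscreteValuationRing_and_finite_residueField.mp
    (h34lf_compactSpace_integer K)

theorem h34lf_isDiscreteValuationRing : IsDiscreteValuationRing 𝒪[K] :=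
  (h34lf_integer_props K).2.1

theorem h34lf_finite_residueField : Finite (ResidueField 𝒪[K]) :=
  (h34lf_integer_props K).2.2

theorem h34lf_completeSpace_integer : CompleteSpace 𝒪[K] :=
  (h34lf_integer_props K).1

attribute [local instance] h34lf_isDiscreteValuationRing h34lf_finite_residueField
  h34lf_completeSpace_integer

open scoped Pointwise in
theorem h34lf_isAdicComplete : IsAdicComplete (maximalIdeal 𝒪[K]) 𝒪[K] where
  haus' := by
    intro x hx
    have hH : IsHausdorff (maximalIdeal 𝒪[K]) 𝒪[K] := inferInstance
    exact hH.haus' x hx
  prec' f hf := by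
    let S : ℕ → Set 𝒪[K] := fun n => f n +ᵥ ((maximalIdeal 𝒪[K] ^ n : Ideal 𝒪[K]) : Set 𝒪[K])
    have hS : ∀ n, S (n + 1) ⊆ S n := by
      intro n
      apply (Set.vadd_set_subset_vadd_set_iff.mpr (Ideal.pow_le_pow_right n.le_succ)).trans
      simpa [S] using (hf n.le_succ).symm
    have h : ∀ n, IsClosed (S n) := fun n =>
      (IsNoetherianRing.isClosed_ideal (maximalIdeal 𝒪[K] ^ n)).vadd (f n)
    obtain ⟨L, hL⟩ :=
      (h 0).isCompact.nonempty_iInter_of_sequence_nonempty_isCompact_isClosed S hS
        (by simp [S]) h
    refine ⟨L, fun n ↦ ?_⟩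
    obtain ⟨y, hy, rfl⟩ := Set.mem_iInter.mp hL n
    simpa [SModEq.sub_mem] using hy

end Generic

end Fermat.Agent.PT.Loc
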