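import Fermat.Agent.PT.Loc.LFFixed

/-!
# PT-LOC foundation (helper34): the `d`-th power map on higher principal units

`O` a discrete valuation ring with maximal ideal `m`, `(d) = m ^ e`, `e + 1 ≤ n`.
Then `x ↦ (1 + x) ^ d - 1` maps `m ^ n` into `m ^ (n + e)`, injectively, and (if `O` is
`m`-adically complete) onto `m ^ (n + e)`.
-/

namespace Fermat.Agent.PT.Loc

open Polynomial IsLocalRing

section DVR

variable {O : Type*} [CommRing O] [IsDomain O] [IsDiscreteValuationRing O]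

theorem h34lf_natCast_mem {d e : ℕ} (hde : Ideal.span {(d : O)} = maximalIdeal O ^ e) :
    (d : O) ∈ maximalIdeal O ^ e := by
  rw [← hde]; exact Ideal.mem_span_singleton_self _

theorem h34lf_natCast_ne_zero {d e : ℕ} (hde : Ideal.span {(d : O)} = maximalIdeal O ^ e) :
    (d : O) ≠ 0 := by
  intro h
  rw [h, Ideal.span_singleton_zero] at hde
  have hm : maximalIdeal O ≠ ⊥ := IsDiscreteValuationRing.not_a_field O
  exact pow_ne_zero e hm hde.symm

theorem h34lf_ne_zero_of_span {d e : ℕ} (hde : Ideal.span {(d : O)} = maximalIdeal O ^ e) :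
    d ≠ 0 := by
  rintro rfl
  exact h34lf_natCast_ne_zero hde (by simp)

/-- `(1 + x) ^ d - 1 - d x ∈ m ^ (2 n)` for `x ∈ m ^ n`. -/
theorem h34lf_pow_sub_sub_mem (d n : ℕ) {x : O} (hx : x ∈ maximalIdeal O ^ n) :
    (1 + x) ^ d - 1 - (d : O) * x ∈ maximalIdeal O ^ (2 * n) := by
  obtain ⟨P, hP⟩ := h34lf_one_add_pow (R := O) d
  have h1 : (1 + x) ^ d - 1 - (d : O) * x = x ^ 2 * P.eval x := by rw [hP x]; ring
  rw [h1, mul_comm 2 n, pow_mul]
  exact Ideal.mul_mem_right _ _ (Ideal.pow_mem_pow hx 2)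

/-- `(1 + x) ^ d - 1 ∈ m ^ (n + e)` for `x ∈ m ^ n`, if `(d) = m ^ e` and `e ≤ n`. -/
theorem h34lf_pow_sub_mem {d e n : ℕ} (hde : Ideal.span {(d : O)} = maximalIdeal O ^ e)
    (hn : e ≤ n) {x : O} (hx : x ∈ maximalIdeal O ^ n) :
    (1 + x) ^ d - 1 ∈ maximalIdeal O ^ (n + e) := by
  have h1 := h34lf_pow_sub_sub_mem d n hx
  have h2 : (d : O) * x ∈ maximalIdeal O ^ (n + e) := by
    rw [add_comm, pow_add]
    exact Ideal.mul_mem_mul (h34lf_natCast_mem hde) hx
  have h3 : (1 + x) ^ d - 1 = ((1 + x) ^ d - 1 - (d : O) * x) + (d : O) * x := by ring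
  rw [h3]
  exact Ideal.add_mem _ (Ideal.pow_le_pow_right (by omega) h1) h2

/-- Injectivity of the `d`-th power map on `1 + m ^ n`, `n ≥ e + 1`. -/
theorem h34lf_pow_inj {d e n : ℕ} (hde : Ideal.span {(d : O)} = maximalIdeal O ^ e)
    (hn : e + 1 ≤ n) {x : O} (hx : x ∈ maximalIdeal O ^ n) (h : (1 + x) ^ d = 1) : x = 0 := by
  obtain ⟨P, hP⟩ := h34lf_one_add_pow (R := O) d
  have h1 : x * ((d : O) + x * P.eval x) = 0 := by
    have := hP x
    rw [h] at this
    linear_combination -this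
  rcases mul_eq_zero.mp h1 with h2 | h2
  · exact h2
  · exfalso
    have h3 : (d : O) = -(x * P.eval x) := by linear_combination h2
    have h4 : (d : O) ∈ maximalIdeal O ^ (e + 1) := by
      rw [h3]
      exact neg_mem (Ideal.mul_mem_right _ _ (Ideal.pow_le_pow_right hn hx))
    have h5 : maximalIdeal O ^ e ≤ maximalIdeal O ^ (e + 1) := by
      rw [← hde, Ideal.span_singleton_le_iff_mem]
      exact h4
    have hm : maximalIdeal O ≠ ⊥ := IsDiscreteValuationRing.not_a_field O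
    exact absurd h5 (not_le_of_gt (Ideal.pow_succ_lt_pow hm e))

/-- Surjectivity of the `d`-th power map `1 + m ^ n → 1 + m ^ (n + e)`, `n ≥ e + 1`,
for a complete discrete valuation ring. -/
theorem h34lf_pow_surj [IsAdicComplete (maximalIdeal O) O] {d e n : ℕ}
    (hde : Ideal.span {(d : O)} = maximalIdeal O ^ e)
    (hn : e + 1 ≤ n) {y : O} (hy : y ∈ maximalIdeal O ^ (n + e)) :
    ∃ x ∈ maximalIdeal O ^ n, (1 + x) ^ d = 1 + y := by
  obtain ⟨ϖ, hϖ⟩ := IsDiscreteValuationRing.exists_irreducible O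
  have hm : maximalIdeal O = Ideal.span {ϖ} := hϖ.maximalIdeal_eq
  have hmk : ∀ k, maximalIdeal O ^ k = Ideal.span {ϖ ^ k} := fun k => by
    rw [hm, Ideal.span_singleton_pow]
  -- `y = d ϖ^n c`
  obtain ⟨c, hc⟩ : ∃ c, y = (d : O) * ϖ ^ n * c := by
    have : y ∈ Ideal.span {(d : O) * ϖ ^ n} := by
      rw [← Ideal.span_singleton_mul_span_singleton, hde, ← hmk n, ← pow_add, add_comm]
      exact hy
    obtain ⟨c, hc⟩ := Ideal.mem_span_singleton'.mp this
    exact ⟨c, by rw [← hc]; ring⟩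
  -- `ϖ^n = d β` with `β ∈ m`
  obtain ⟨β, hβ, hβ'⟩ : ∃ β ∈ maximalIdeal O, (d : O) * β = ϖ ^ n := by
    have : ϖ ^ n ∈ Ideal.span {(d : O)} * maximalIdeal O := by
      rw [hde, ← pow_succ]
      apply Ideal.pow_le_pow_right hn
      rw [hmk n]
      exact Ideal.mem_span_singleton_self _
    exact Ideal.mem_span_singleton_mul.mp this
  obtain ⟨P, hP⟩ := h34lf_one_add_pow (R := O) d
  let Q : O[X] := X ^ 2 * P.comp (C (ϖ ^ n) * X)
  have hQ : ∀ t, Q.eval t = t ^ 2 * P.eval (ϖ ^ n * t) := by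
    intro t
    simp [Q, eval_comp]
  obtain ⟨t, ht⟩ := h34lf_fixed_point (maximalIdeal O) (fun t => c - β * Q.eval t) (by
    intro k a b hab
    have h1 : Q.eval a - Q.eval b ∈ maximalIdeal O ^ k :=
      Ideal.mem_of_dvd _ (Polynomial.sub_dvd_eval_sub a b Q) hab
    have h2 : (c - β * Q.eval a) - (c - β * Q.eval b) = -(β * (Q.eval a - Q.eval b)) := by ring
    rw [h2, pow_succ']
    exact neg_mem (Ideal.mul_mem_mul hβ h1))
  refine ⟨ϖ ^ n * t, ?_, ?_⟩
  · rw [hmk n]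
    exact Ideal.mul_mem_right _ _ (Ideal.mem_span_singleton_self _)
  · have ht' : c - β * (t ^ 2 * P.eval (ϖ ^ n * t)) = t := by rw [← hQ]; exact ht
    rw [hP, hc]
    linear_combination (-(d : O) * ϖ ^ n) * ht' +
      (ϖ ^ n * t ^ 2 * P.eval (ϖ ^ n * t)) * (-hβ')

end DVR

end Fermat.Agent.PT.Loc
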