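import Fermat.Agent.PT.Loc.LFPow
import Fermat.Agent.PT.Loc.LFIndex

/-!
# PT-LOC foundation (helper34): higher principal units and the index of `d`-th powers in `Oˣ`

`O` a complete discrete valuation ring with finite residue field, `(d) = m ^ e`.
* `h34lf_U O n` : the subgroup `1 + m ^ n` of `Oˣ` (kernel of `Oˣ → (O / m ^ n)ˣ`).
* `h34lf_map_pow_U` : `(U^n) ^ d = U^(n + e)` for `n ≥ e + 1`.
* `h34lf_relIndex_U` : `[U^n : U^(n + e)] = #(O / m ^ e)` for `n ≥ 1`.
* `h34lf_index_pow_units` : `[Oˣ : (Oˣ) ^ d] = #(O / m ^ e) * #μ_d(O)`.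
-/

namespace Fermat.Agent.PT.Loc

open IsLocalRing

section Local

variable (O : Type*) [CommRing O] [IsLocalRing O]

/-- Higher principal units `U^n = 1 + m ^ n` as a subgroup of `Oˣ`. -/
def h34lf_U (n : ℕ) : Subgroup Oˣ :=
  (Units.map (Ideal.Quotient.mk (maximalIdeal O ^ n)).toMonoidHom).ker

variable {O}

theorem h34lf_mem_U {n : ℕ} {u : Oˣ} :
    u ∈ h34lf_U O n ↔ (u : O) - 1 ∈ maximalIdeal O ^ n := by
  rw [h34lf_U, MonoidHom.mem_ker, Units.ext_iff, Units.coe_map, Units.val_one]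
  change Ideal.Quotient.mk (maximalIdeal O ^ n) (u : O) = 1 ↔ _
  rw [← map_one (Ideal.Quotient.mk (maximalIdeal O ^ n)), Ideal.Quotient.eq]

theorem h34lf_U_anti {m n : ℕ} (h : m ≤ n) : h34lf_U O n ≤ h34lf_U O m := by
  intro u hu
  rw [h34lf_mem_U] at hu ⊢
  exact Ideal.pow_le_pow_right h hu

theorem h34lf_isUnit_one_add {x : O} (hx : x ∈ maximalIdeal O) : IsUnit (1 + x) := by
  rw [← IsLocalRing.notMem_maximalIdeal]
  intro h
  have h1 : (1 : O) ∈ maximalIdeal O := by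
    have h0 : (1 : O) = (1 + x) - x := by ring
    rw [h0]
    exact Ideal.sub_mem _ h hx
  exact (Ideal.ne_top_iff_one _).mp (IsLocalRing.maximalIdeal.isMaximal O).ne_top h1

theorem h34lf_index_U_ne_zero (n : ℕ) [Finite (O ⧸ maximalIdeal O ^ n)] :
    (h34lf_U O n).index ≠ 0 := by
  rw [h34lf_U, Subgroup.index_ker]
  exact Nat.card_pos.ne'

end Local

section DVR

variable {O : Type*} [CommRing O] [IsDomain O] [IsDiscreteValuationRing O]

theorem h34lf_finite_quot_pow [Finite (ResidueField O)] (n : ℕ) :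
    Finite (O ⧸ maximalIdeal O ^ n) := by
  have : Finite (O ⧸ maximalIdeal O) := inferInstanceAs (Finite (ResidueField O))
  exact Ideal.finite_quotient_pow (IsNoetherian.noetherian _) n

theorem h34lf_U_inf_ker {d e n : ℕ} (hde : Ideal.span {(d : O)} = maximalIdeal O ^ e)
    (hn : e + 1 ≤ n) : h34lf_U O n ⊓ (powMonoidHom d : Oˣ →* Oˣ).ker = ⊥ := by
  rw [eq_bot_iff]
  rintro u ⟨hu, hk⟩
  have hu' : (u : O) - 1 ∈ maximalIdeal O ^ n := h34lf_mem_U.mp hu
  have hk' : u ^ d = 1 := MonoidHom.mem_ker.mp hk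
  have h1 : (1 + ((u : O) - 1)) ^ d = 1 := by
    rw [add_sub_cancel]
    have := congrArg Units.val hk'
    simpa using this
  have h2 := h34lf_pow_inj hde hn hu' h1
  rw [Subgroup.mem_bot]
  ext
  rw [Units.val_one]
  exact sub_eq_zero.mp h2

theorem h34lf_map_pow_U_le {d e n : ℕ} (hde : Ideal.span {(d : O)} = maximalIdeal O ^ e)
    (hn : e ≤ n) : (h34lf_U O n).map (powMonoidHom d) ≤ h34lf_U O (n + e) := by
  rintro _ ⟨u, hu, rfl⟩
  have hu' : (u : O) - 1 ∈ maximalIdeal O ^ n := h34lf_mem_U.mp hu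
  rw [h34lf_mem_U]
  have := h34lf_pow_sub_mem hde hn hu'
  rw [add_sub_cancel] at this
  simpa using this

theorem h34lf_map_pow_U [IsAdicComplete (maximalIdeal O) O] {d e n : ℕ}
    (hde : Ideal.span {(d : O)} = maximalIdeal O ^ e) (hn : e + 1 ≤ n) :
    (h34lf_U O n).map (powMonoidHom d) = h34lf_U O (n + e) := by
  apply le_antisymm (h34lf_map_pow_U_le hde (by omega))
  intro v hv
  rw [h34lf_mem_U] at hv
  obtain ⟨x, hx, hxy⟩ := h34lf_pow_surj hde hn hv
  have hxm : x ∈ maximalIdeal O := by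
    have : maximalIdeal O ^ n ≤ maximalIdeal O ^ 1 := Ideal.pow_le_pow_right (by omega)
    rw [pow_one] at this
    exact this hx
  have hu : IsUnit (1 + x) := h34lf_isUnit_one_add hxm
  refine ⟨hu.unit, h34lf_mem_U.mpr (by simpa using hx), ?_⟩
  ext
  simp [hxy]

theorem h34lf_relIndex_U {n : ℕ} (hn : 1 ≤ n) (e : ℕ) :
    (h34lf_U O (n + e)).relIndex (h34lf_U O n) = Nat.card (O ⧸ maximalIdeal O ^ e) := by
  obtain ⟨ϖ, hϖ⟩ := IsDiscreteValuationRing.exists_irreducible O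
  have hm : maximalIdeal O = Ideal.span {ϖ} := hϖ.maximalIdeal_eq
  have hmk : ∀ k, maximalIdeal O ^ k = Ideal.span {ϖ ^ k} := fun k => by
    rw [hm, Ideal.span_singleton_pow]
  have hϖn : ∀ a : O, ϖ ^ n * a ∈ maximalIdeal O ^ n := fun a => by
    rw [hmk n]; exact Ideal.mul_mem_right _ _ (Ideal.mem_span_singleton_self _)
  have hϖm : ∀ a : O, ϖ ^ n * a ∈ maximalIdeal O := fun a => by
    have : maximalIdeal O ^ n ≤ maximalIdeal O ^ 1 := Ideal.pow_le_pow_right hn
    rw [pow_one] at this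
    exact this (hϖn a)
  let θ : O → ↥(h34lf_U O n) := fun a =>
    ⟨(h34lf_isUnit_one_add (hϖm a)).unit, h34lf_mem_U.mpr (by simpa using hϖn a)⟩
  have hθval : ∀ a, (((θ a : ↥(h34lf_U O n)) : Oˣ) : O) = 1 + ϖ ^ n * a := fun a => rfl
  have hθ : Function.Bijective θ := by
    constructor
    · intro a b hab
      have h1 := congrArg (fun u : ↥(h34lf_U O n) => ((u : Oˣ) : O)) hab
      simp only [hθval] at h1
      have h2 : ϖ ^ n * a = ϖ ^ n * b := by linear_combination h1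
      exact mul_left_cancel₀ (pow_ne_zero n hϖ.ne_zero) h2
    · rintro ⟨u, hu⟩
      have hu' : (u : O) - 1 ∈ maximalIdeal O ^ n := h34lf_mem_U.mp hu
      rw [hmk n] at hu'
      obtain ⟨a, ha⟩ := Ideal.mem_span_singleton'.mp hu'
      refine ⟨a, ?_⟩
      apply Subtype.ext
      apply Units.ext
      rw [hθval]
      change 1 + ϖ ^ n * a = (u : O)
      linear_combination ha
  rw [Subgroup.relIndex, Subgroup.index]
  symm
  apply Nat.card_congr
  refine Quotient.congr (Equiv.ofBijective θ hθ) ?_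
  intro a b
  change (Submodule.quotientRel (maximalIdeal O ^ e)) a b ↔
    (QuotientGroup.leftRel ((h34lf_U O (n + e)).subgroupOf (h34lf_U O n))) (θ a) (θ b)
  rw [Submodule.quotientRel_def, QuotientGroup.leftRel_apply, Subgroup.mem_subgroupOf,
    h34lf_mem_U]
  have h1 : ((((θ a)⁻¹ * θ b : ↥(h34lf_U O n)) : Oˣ) : O) - 1 =
      (((((θ a)⁻¹ : ↥(h34lf_U O n)) : Oˣ) : O)) * (ϖ ^ n * (b - a)) := by
    have h2 : (((((θ a)⁻¹ : ↥(h34lf_U O n)) : Oˣ) : O)) * (1 + ϖ ^ n * a) = 1 := by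
      rw [← hθval a]
      simp
    have h3 : ((((θ a)⁻¹ * θ b : ↥(h34lf_U O n)) : Oˣ) : O) =
        (((((θ a)⁻¹ : ↥(h34lf_U O n)) : Oˣ) : O)) * (1 + ϖ ^ n * b) := by
      rw [← hθval b]
      simp
    rw [h3]
    linear_combination h2
  rw [h1]
  have hunit : IsUnit (((((θ a)⁻¹ : ↥(h34lf_U O n)) : Oˣ) : O)) := Units.isUnit _
  rw [hmk e, hmk (n + e), Ideal.mem_span_singleton, Ideal.mem_span_singleton,
    hunit.dvd_mul_left, pow_add]
  constructor
  · intro h
    have h4 : ϖ ^ e ∣ b - a := by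
      have := (dvd_neg (a := ϖ ^ e) (b := a - b)).mpr h
      rwa [neg_sub] at this
    exact mul_dvd_mul_left _ h4
  · intro h
    have h4 : ϖ ^ e ∣ b - a := (mul_dvd_mul_iff_left (pow_ne_zero n hϖ.ne_zero)).mp h
    have := (dvd_neg (a := ϖ ^ e) (b := b - a)).mpr h4
    rwa [neg_sub] at this

/-- **Index of `d`-th powers in the unit group of a complete DVR with finite residue field.** -/
theorem h34lf_index_pow_units [IsAdicComplete (maximalIdeal O) O] [Finite (ResidueField O)]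
    {d e : ℕ} (hde : Ideal.span {(d : O)} = maximalIdeal O ^ e) :
    (powMonoidHom d : Oˣ →* Oˣ).range.index =
      Nat.card (O ⧸ maximalIdeal O ^ e) * Nat.card (powMonoidHom d : Oˣ →* Oˣ).ker := by
  have hfin := h34lf_finite_quot_pow (O := O) (e + 1)
  have hH : (h34lf_U O (e + 1)).index ≠ 0 := h34lf_index_U_ne_zero (e + 1)
  have hmap := h34lf_map_pow_U hde (le_refl (e + 1))
  have key := h34lf_index_range_of_subgroup (powMonoidHom d : Oˣ →* Oˣ) (h34lf_U O (e + 1)) hH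
    (h34lf_U_inf_ker hde (le_refl _)) (by rw [hmap]; exact h34lf_U_anti (by omega))
  rw [key, hmap, h34lf_relIndex_U (by omega) e]

theorem h34lf_finite_ker_pow_units [Finite (ResidueField O)]
    {d e : ℕ} (hde : Ideal.span {(d : O)} = maximalIdeal O ^ e) :
    Finite (powMonoidHom d : Oˣ →* Oˣ).ker := by
  have hfin := h34lf_finite_quot_pow (O := O) (e + 1)
  exact h34lf_finite_ker_of_subgroup _ (h34lf_U O (e + 1)) (h34lf_index_U_ne_zero (e + 1))
    (h34lf_U_inf_ker hde (le_refl _))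

end DVR

end Fermat.Agent.PT.Loc
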