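import Fermat.Agent.CFT.HerbrandCyclic

/-!
# W3-PT / PT-LOC, leaf NI-MAIN (second seat helper99): the quotient `q(φ) = [M : φM] / #ker φ`

For an endomorphism `φ` of a commutative group `M` put `q(φ) = [M : φ M] / #ker φ`
(`h99ni_qd`), defined when both numbers are finite (`h99ni_QD`).

* `h99ni_comp_identity` : `[M : φψM] · #ker φ · #ker ψ = [M : φM] · [M : ψM] · #ker φψ`.
* `h99ni_qd_comp`, `h99ni_qd_pow` : `q(φψ) = q(φ) q(ψ)`, `q(φ^k) = q(φ)^k`.
* `h99ni_qd_of_bijective` : `q(u) = 1` for an automorphism `u`.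
* the relation with the Herbrand indices `hIdx 0 φ`, `hIdx φ 0` of `CFT/HerbrandIndex.lean`.
-/

set_option autoImplicit false

namespace Fermat.Agent.PT.Loc

open AddSubgroup Fermat.Agent.CFT.H8

section Comp

variable {M : Type*} [AddCommGroup M]

theorem h99ni_hIdx_zero_left (φ : M →+ M) : hIdx (0 : M →+ M) φ = φ.range.index := by
  unfold hIdx
  rw [AddMonoidHom.ker_zero, relIndex_top_right]

theorem h99ni_hIdx_zero_right (φ : M →+ M) : hIdx φ (0 : M →+ M) = Nat.card φ.ker := by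
  unfold hIdx
  rw [AddMonoidHom.range_zero, relIndex_bot_left]

/-- `#ker φψ = #ker ψ · #(ker φ ∩ ψM)`. -/
theorem h99ni_card_ker_comp (φ ψ : M →+ M) :
    Nat.card (φ.comp ψ).ker = Nat.card ψ.ker * Nat.card (φ.ker ⊓ ψ.range : AddSubgroup M) := by
  set K : AddSubgroup M := (φ.comp ψ).ker with hK
  set ψ' : K →+ M := ψ.comp K.subtype with hψ'
  have h1 : Nat.card ψ'.ker * Nat.card ψ'.range = Nat.card K := by
    rw [← AddSubgroup.index_ker ψ']
    exact AddSubgroup.card_mul_index ψ'.ker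
  have hle : ψ.ker ≤ K := by
    intro x hx
    rw [hK, AddMonoidHom.mem_ker, AddMonoidHom.comp_apply, (AddMonoidHom.mem_ker).mp hx, map_zero]
  have h2 : ψ'.ker = ψ.ker.addSubgroupOf K := by
    ext x
    rw [AddMonoidHom.mem_ker, AddSubgroup.mem_addSubgroupOf, AddMonoidHom.mem_ker]
    rfl
  have h3 : Nat.card ψ'.ker = Nat.card ψ.ker := by
    rw [h2]
    exact Nat.card_congr (AddSubgroup.addSubgroupOfEquivOfLe hle).toEquiv
  have h4 : ψ'.range = φ.ker ⊓ ψ.range := by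
    ext y
    rw [AddMonoidHom.mem_range, AddSubgroup.mem_inf, AddMonoidHom.mem_ker, AddMonoidHom.mem_range]
    constructor
    · rintro ⟨x, rfl⟩
      exact ⟨x.2, ⟨x.1, rfl⟩⟩
    · rintro ⟨hy, ⟨x, rfl⟩⟩
      exact ⟨⟨x, hy⟩, rfl⟩
  rw [← h1, h3, h4]

/-- `[M : φψM] = [M : ψM + ker φ] · [M : φM]`. -/
theorem h99ni_index_range_comp (φ ψ : M →+ M) :
    (φ.comp ψ).range.index = (ψ.range ⊔ φ.ker).index * φ.range.index := by
  have h1 : (φ.comp ψ).range = ψ.range.map φ := by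
    ext y
    rw [AddMonoidHom.mem_range, AddSubgroup.mem_map]
    constructor
    · rintro ⟨x, rfl⟩
      exact ⟨ψ x, ⟨x, rfl⟩, rfl⟩
    · rintro ⟨_, ⟨x, rfl⟩, rfl⟩
      exact ⟨x, rfl⟩
  rw [h1, AddSubgroup.index_map]

/-- `#(ker φ ∩ ψM) · [ker φ : ker φ ∩ ψM] = #ker φ`. -/
theorem h99ni_card_inf_mul (φ ψ : M →+ M) :
    Nat.card (φ.ker ⊓ ψ.range : AddSubgroup M) * ψ.range.relIndex φ.ker = Nat.card φ.ker := by
  have h := relIndex_mul_relIndex (⊥ : AddSubgroup M) (φ.ker ⊓ ψ.range) φ.ker bot_le inf_le_left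
  rw [relIndex_bot_left, relIndex_bot_left, inf_comm, inf_relIndex_right] at h
  rw [inf_comm]
  exact h

/-- **the composition identity**. -/
theorem h99ni_comp_identity (φ ψ : M →+ M) :
    (φ.comp ψ).range.index * Nat.card φ.ker * Nat.card ψ.ker =
      φ.range.index * ψ.range.index * Nat.card (φ.comp ψ).ker := by
  have h1 := h99ni_index_range_comp φ ψ
  have h2 := h99ni_card_ker_comp φ ψ
  have h3 : ψ.range.relIndex (ψ.range ⊔ φ.ker) * (ψ.range ⊔ φ.ker).index = ψ.range.index :=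
    relIndex_mul_index le_sup_left
  have h4 : ψ.range.relIndex (ψ.range ⊔ φ.ker) = ψ.range.relIndex φ.ker := relIndex_sup_left _ _
  have h5 := h99ni_card_inf_mul φ ψ
  rw [h4] at h3
  rw [h1, h2, ← h3, ← h5]
  ring

/-- `[M : φM]` and `#ker φ` are finite. -/
def h99ni_QD (φ : M →+ M) : Prop := φ.range.index ≠ 0 ∧ Nat.card φ.ker ≠ 0

/-- `q(φ) = [M : φM] / #ker φ`. -/
noncomputable def h99ni_qd (φ : M →+ M) : ℚ := (φ.range.index : ℚ) / (Nat.card φ.ker : ℚ)

theorem h99ni_QD_comp {φ ψ : M →+ M} (hφ : h99ni_QD φ) (hψ : h99ni_QD ψ) :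
    h99ni_QD (φ.comp ψ) := by
  have h1 := h99ni_index_range_comp φ ψ
  have h2 := h99ni_card_ker_comp φ ψ
  have h3 : ψ.range.relIndex (ψ.range ⊔ φ.ker) * (ψ.range ⊔ φ.ker).index = ψ.range.index :=
    relIndex_mul_index le_sup_left
  have h5 := h99ni_card_inf_mul φ ψ
  constructor
  · rw [h1]
    refine mul_ne_zero ?_ hφ.1
    intro h0
    rw [h0, mul_zero] at h3
    exact hψ.1 h3.symm
  · rw [h2]
    refine mul_ne_zero hψ.2 ?_
    intro h0
    rw [h0, zero_mul] at h5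
    exact hφ.2 h5.symm

theorem h99ni_qd_comp {φ ψ : M →+ M} (hφ : h99ni_QD φ) (hψ : h99ni_QD ψ) :
    h99ni_qd (φ.comp ψ) = h99ni_qd φ * h99ni_qd ψ := by
  have hc := h99ni_QD_comp hφ hψ
  have key := h99ni_comp_identity φ ψ
  have key' : ((φ.comp ψ).range.index : ℚ) * Nat.card φ.ker * Nat.card ψ.ker =
      φ.range.index * ψ.range.index * Nat.card (φ.comp ψ).ker := by
    exact_mod_cast key
  have e1 : (Nat.card φ.ker : ℚ) ≠ 0 := by exact_mod_cast hφ.2
  have e2 : (Nat.card ψ.ker : ℚ) ≠ 0 := by exact_mod_cast hψ.2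
  have e3 : (Nat.card (φ.comp ψ).ker : ℚ) ≠ 0 := by exact_mod_cast hc.2
  unfold h99ni_qd
  field_simp
  linear_combination key'

theorem h99ni_QD_of_bijective {u : M →+ M} (hu : Function.Bijective u) : h99ni_QD u := by
  have h1 : u.range = ⊤ := AddMonoidHom.range_eq_top.mpr hu.2
  have h2 : u.ker = ⊥ := (AddMonoidHom.ker_eq_bot_iff u).mpr hu.1
  constructor
  · rw [h1, index_top]
    exact one_ne_zero
  · rw [h2, AddSubgroup.card_bot]
    exact one_ne_zero

theorem h99ni_qd_of_bijective {u : M →+ M} (hu : Function.Bijective u) : h99ni_qd u = 1 := by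
  have h1 : u.range = ⊤ := AddMonoidHom.range_eq_top.mpr hu.2
  have h2 : u.ker = ⊥ := (AddMonoidHom.ker_eq_bot_iff u).mpr hu.1
  unfold h99ni_qd
  rw [h1, h2, index_top, AddSubgroup.card_bot]
  norm_num

theorem h99ni_QD_pow {φ : AddMonoid.End M} (hφ : h99ni_QD (φ : M →+ M)) (k : ℕ) :
    h99ni_QD ((φ ^ k : AddMonoid.End M) : M →+ M) := by
  induction k with
  | zero =>
    rw [pow_zero]
    exact h99ni_QD_of_bijective (u := (1 : AddMonoid.End M)) Function.bijective_id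
  | succ k ih =>
    rw [pow_succ]
    exact h99ni_QD_comp ih hφ

theorem h99ni_qd_pow {φ : AddMonoid.End M} (hφ : h99ni_QD (φ : M →+ M)) (k : ℕ) :
    h99ni_qd ((φ ^ k : AddMonoid.End M) : M →+ M) = h99ni_qd (φ : M →+ M) ^ k := by
  induction k with
  | zero =>
    rw [pow_zero, pow_zero]
    exact h99ni_qd_of_bijective (u := (1 : AddMonoid.End M)) Function.bijective_id
  | succ k ih =>
    rw [pow_succ, pow_succ, ← ih]
    exact h99ni_qd_comp (h99ni_QD_pow hφ k) hφ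

/-! ### relation with the Herbrand indices -/

theorem h99ni_hqDefined_zero_left {φ : M →+ M} :
    HQDefined (0 : M →+ M) φ ↔ h99ni_QD φ := by
  unfold HQDefined h99ni_QD
  rw [h99ni_hIdx_zero_left, h99ni_hIdx_zero_right]

theorem h99ni_hqDefined_zero_right {φ : M →+ M} :
    HQDefined φ (0 : M →+ M) ↔ h99ni_QD φ := by
  unfold HQDefined h99ni_QD
  rw [h99ni_hIdx_zero_left, h99ni_hIdx_zero_right]
  exact and_comm

theorem h99ni_hq_zero_left (φ : M →+ M) : hq (0 : M →+ M) φ = h99ni_qd φ := by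
  unfold hq h99ni_qd
  rw [h99ni_hIdx_zero_left, h99ni_hIdx_zero_right]

theorem h99ni_hq_zero_right (φ : M →+ M) : hq φ (0 : M →+ M) = (h99ni_qd φ)⁻¹ := by
  unfold hq h99ni_qd
  rw [h99ni_hIdx_zero_left, h99ni_hIdx_zero_right, inv_div]

/-- `q` depends only on the kernel and the range. -/
theorem h99ni_qd_congr {φ ψ : M →+ M} (hk : φ.ker = ψ.ker) (hr : φ.range = ψ.range) :
    h99ni_qd φ = h99ni_qd ψ := by
  unfold h99ni_qd
  rw [hk, hr]

theorem h99ni_QD_congr {φ ψ : M →+ M} (hk : φ.ker = ψ.ker) (hr : φ.range = ψ.range)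
    (h : h99ni_QD φ) : h99ni_QD ψ := by
  unfold h99ni_QD at h ⊢
  rw [← hk, ← hr]
  exact h

end Comp

end Fermat.Agent.PT.Loc
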