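import Mathlib

/-!
# W3-PT / PT-LOC, leaf NI-MAIN (second seat helper99): `p = (1 - τ)^(p-1) · unit` on a module
killed by the norm element

Let `τ` be an endomorphism of a commutative group `C` with `1 + τ + ⋯ + τ^(p-1) = 0`
(`p` prime).  Then `p = (1 - τ)^(p-1) U = U (1 - τ)^(p-1)` for an automorphism `U` of `C`
(`h99ni_cyclo_unit`).  This is the classical fact that `p` and `(1 - ζ)^(p-1)` are associated in
`ℤ[ζ_p]`; it is proved in `ℤ[X] / (Φ_p)` by evaluating at a complex primitive root.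
-/

set_option autoImplicit false

namespace Fermat.Agent.PT.Loc

open Polynomial Finset

/-- Divisibility by `Φ_p = ∑_{i<p} X^i` from the vanishing at a complex primitive `p`-th root. -/
theorem h99ni_cyclo_dvd (p : ℕ) [Fact p.Prime] (F : ℤ[X]) (ζ : ℂ) (hζ : IsPrimitiveRoot ζ p)
    (hF : aeval ζ F = 0) : (∑ i ∈ range p, (X : ℤ[X]) ^ i) ∣ F := by
  have hpos : 0 < p := (Fact.out : p.Prime).pos
  rw [← cyclotomic_prime ℤ p, cyclotomic_eq_minpoly hζ hpos]
  exact minpoly.isIntegrallyClosed_dvd (hζ.isIntegral hpos) hF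

/-- the polynomial `1 + X + ⋯ + X^k`. -/
noncomputable def h99ni_g (k : ℕ) : ℤ[X] := ∑ i ∈ range (k + 1), (X : ℤ[X]) ^ i

theorem h99ni_aeval_g (ζ : ℂ) (k : ℕ) :
    (1 - ζ) * aeval ζ (h99ni_g k) = 1 - ζ ^ (k + 1) := by
  unfold h99ni_g
  rw [map_sum]
  simp only [map_pow, aeval_X]
  exact mul_neg_geom_sum ζ (k + 1)

/-- `(1 - X)^(p-1) ∏_{k<p-1} (1 + ⋯ + X^k) ≡ p` modulo `Φ_p`. -/
theorem h99ni_dvd_main (p : ℕ) [Fact p.Prime] :
    (∑ i ∈ range p, (X : ℤ[X]) ^ i) ∣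
      (1 - X) ^ (p - 1) * (∏ k ∈ range (p - 1), h99ni_g k) - (p : ℤ[X]) := by
  have hp : p.Prime := Fact.out
  have hp0 : p ≠ 0 := hp.ne_zero
  have hζ : IsPrimitiveRoot (Complex.exp (2 * Real.pi * Complex.I / p)) p :=
    Complex.isPrimitiveRoot_exp p hp0
  set ζ : ℂ := Complex.exp (2 * Real.pi * Complex.I / p) with hζdef
  apply h99ni_cyclo_dvd p _ ζ hζ
  have hp1 : p - 1 + 1 = p := Nat.sub_add_cancel hp.one_le
  have hζ' : IsPrimitiveRoot ζ (p - 1 + 1) := by rw [hp1]; exact hζ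
  have h1 := hζ'.prod_one_sub_pow_eq_order
  rw [map_sub, map_mul, map_pow, map_sub, map_one, aeval_X, map_prod, map_natCast]
  have h2 : (1 - ζ) ^ (p - 1) * ∏ k ∈ range (p - 1), aeval ζ (h99ni_g k) =
      ∏ k ∈ range (p - 1), (1 - ζ ^ (k + 1)) := by
    have h3 : ∏ k ∈ range (p - 1), (1 - ζ ^ (k + 1)) =
        ∏ k ∈ range (p - 1), ((1 - ζ) * aeval ζ (h99ni_g k)) :=
      Finset.prod_congr rfl (fun k _ => (h99ni_aeval_g ζ k).symm)
    rw [h3, Finset.prod_mul_distrib, Finset.prod_const, Finset.card_range]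
  rw [h2, h1]
  have : ((p - 1 : ℕ) : ℂ) + 1 = (p : ℂ) := by
    rw [← Nat.cast_one (R := ℂ), ← Nat.cast_add, hp1]
  rw [this, sub_self]

/-- `1 + X + ⋯ + X^k` is invertible modulo `Φ_p` for `k + 1 < p`. -/
theorem h99ni_dvd_inv (p : ℕ) [Fact p.Prime] (k : ℕ) (hk : k + 1 < p) :
    ∃ w : ℤ[X], (∑ i ∈ range p, (X : ℤ[X]) ^ i) ∣ h99ni_g k * w - 1 := by
  have hp : p.Prime := Fact.out
  have hp0 : p ≠ 0 := hp.ne_zero
  have hζ : IsPrimitiveRoot (Complex.exp (2 * Real.pi * Complex.I / p)) p :=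
    Complex.isPrimitiveRoot_exp p hp0
  set ζ : ℂ := Complex.exp (2 * Real.pi * Complex.I / p) with hζdef
  have hcop : Nat.Coprime (k + 1) p :=
    (Nat.coprime_of_lt_prime (Nat.succ_ne_zero k) hk hp).symm
  obtain ⟨m, -, hm⟩ := Nat.exists_mul_mod_eq_one_of_coprime hcop hp.one_lt
  refine ⟨∑ i ∈ range m, (X : ℤ[X]) ^ ((k + 1) * i), ?_⟩
  apply h99ni_cyclo_dvd p _ ζ hζ
  have hζ1 : (1 : ℂ) - ζ ≠ 0 := by
    intro h
    exact hζ.ne_one hp.one_lt (sub_eq_zero.mp h).symm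
  have hpow : ζ ^ ((k + 1) * m) = ζ := by
    conv_lhs => rw [← Nat.div_add_mod ((k + 1) * m) p]
    rw [pow_add, pow_mul, hζ.pow_eq_one, one_pow, one_mul, hm, pow_one]
  have h3 : (1 - ζ ^ (k + 1)) * aeval ζ (∑ i ∈ range m, (X : ℤ[X]) ^ ((k + 1) * i)) = 1 - ζ := by
    rw [map_sum]
    simp only [map_pow, aeval_X]
    have : ∀ i, ζ ^ ((k + 1) * i) = (ζ ^ (k + 1)) ^ i := fun i => pow_mul ζ (k + 1) i
    simp only [this]
    rw [mul_neg_geom_sum, ← pow_mul, hpow]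
  rw [map_sub, map_mul, map_one]
  apply mul_left_cancel₀ hζ1
  rw [mul_zero, mul_sub, ← mul_assoc, h99ni_aeval_g, h3, mul_one, sub_self]

/-- **the cyclotomic unit**: on a group killed by `1 + τ + ⋯ + τ^(p-1)`, multiplication by `p`
is `(1 - τ)^(p-1)` times an automorphism. -/
theorem h99ni_cyclo_unit {C : Type*} [AddCommGroup C] (τ : AddMonoid.End C) (p : ℕ)
    [Fact p.Prime] (hN : ∑ i ∈ range p, τ ^ i = 0) :
    ∃ U : AddMonoid.End C, IsUnit U ∧ (p : AddMonoid.End C) = (1 - τ) ^ (p - 1) * U ∧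
      (p : AddMonoid.End C) = U * (1 - τ) ^ (p - 1) := by
  classical
  set Φ : ℤ[X] := ∑ i ∈ range p, (X : ℤ[X]) ^ i with hΦ
  set I : Ideal ℤ[X] := Ideal.span {Φ} with hI
  set V : ℤ[X] := ∏ k ∈ range (p - 1), h99ni_g k with hV
  have hkill : ∀ a ∈ I, (aeval τ : ℤ[X] →ₐ[ℤ] AddMonoid.End C).toRingHom a = 0 := by
    intro a ha
    obtain ⟨b, rfl⟩ := Ideal.mem_span_singleton.mp ha
    show aeval τ (Φ * b) = 0
    rw [map_mul, hΦ, map_sum]
    simp only [map_pow, aeval_X]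
    rw [hN, zero_mul]
  set φ : ℤ[X] ⧸ I →+* AddMonoid.End C := Ideal.Quotient.lift I _ hkill with hφ
  have hφmk : ∀ a : ℤ[X], φ (Ideal.Quotient.mk I a) = aeval τ a := fun a => rfl
  -- `V` is a unit modulo `Φ`
  have hVunit : IsUnit (Ideal.Quotient.mk I V) := by
    rw [hV, map_prod]
    refine Finset.prod_induction _ IsUnit (fun a b ha hb => ha.mul hb) isUnit_one ?_
    intro k hk
    have hk' : k + 1 < p := by
      have := Finset.mem_range.mp hk
      omega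
    obtain ⟨w, hw⟩ := h99ni_dvd_inv p k hk'
    have h1 : Ideal.Quotient.mk I (h99ni_g k * w - 1) = 0 :=
      Ideal.Quotient.eq_zero_iff_mem.mpr (Ideal.mem_span_singleton.mpr hw)
    rw [map_sub, map_mul, map_one, sub_eq_zero] at h1
    exact IsUnit.of_mul_eq_one _ h1
  have hmain : Ideal.Quotient.mk I ((1 - X) ^ (p - 1) * V) = Ideal.Quotient.mk I (p : ℤ[X]) := by
    have h1 : Ideal.Quotient.mk I ((1 - X) ^ (p - 1) * V - (p : ℤ[X])) = 0 :=
      Ideal.Quotient.eq_zero_iff_mem.mpr (Ideal.mem_span_singleton.mpr (h99ni_dvd_main p))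
    rw [map_sub, sub_eq_zero] at h1
    exact h1
  refine ⟨φ (Ideal.Quotient.mk I V), hVunit.map φ, ?_, ?_⟩
  · have h2 := congrArg φ hmain
    rw [hφmk, hφmk, map_mul, map_pow, map_sub, map_one, aeval_X, map_natCast] at h2
    rw [hφmk]
    exact h2.symm
  · have h2 := congrArg φ hmain
    rw [mul_comm, hφmk, hφmk, map_mul, map_pow, map_sub, map_one, aeval_X, map_natCast] at h2
    rw [hφmk]
    exact h2.symm

/-- A unit of the endomorphism ring is bijective. -/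
theorem h99ni_bijective_of_isUnit {C : Type*} [AddCommGroup C] {U : AddMonoid.End C}
    (hU : IsUnit U) : Function.Bijective (U : C →+ C) := by
  obtain ⟨u, rfl⟩ := hU
  refine Function.bijective_iff_has_inverse.mpr ⟨fun x => (↑u⁻¹ : AddMonoid.End C) x, ?_, ?_⟩
  · intro x
    have := congrArg (fun e : AddMonoid.End C => e x) u.inv_mul
    exact this
  · intro x
    have := congrArg (fun e : AddMonoid.End C => e x) u.mul_inv
    exact this

end Fermat.Agent.PT.Loc
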