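import Fermat.Agent.PT.Loc.NI99Lang
import Fermat.Agent.PT.Loc.H24NIH90

/-!
# W3-PT / PT-LOC, leaf NI-MAIN (second seat helper99): the norm index of a cyclic extension of
prime degree from the indices of `p`-th powers

`L` a field, `s` an automorphism of exact prime order `p`, `j : F → L` the inclusion of the fixed
field.  If `[Lˣ : Lˣ^p] = p · c_L · #μ_p(L)`, `[Fˣ : Fˣ^p] = p · c_F · #μ_p(F)` (both finite)
and `c_L = c_F ^ p`, then `[Fˣ : N Lˣ] = p` (`h99ni_field_index`), in the element form of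
`H33NormIndex` (`h99ni_field_main`).

Proof: Lang's lemma `h99ni_lang` gives `h(Lˣ)^(p-1) = p^(p-1)`, so the Herbrand quotient of `Lˣ`
is `p`; Hilbert 90 (`h24h9_hilbert90`, helper24) gives `H¹ = 1`.
-/

set_option autoImplicit false

namespace Fermat.Agent.PT.Loc

open AddSubgroup Finset Fermat.Agent.CFT.H8

/-! ### subgroups of prime relative index -/

theorem h99ni_prime_relIndex {M : Type*} [AddCommGroup M] (H K : AddSubgroup M) (p : ℕ)
    [Fact p.Prime] (hidx : H.relIndex K = p) :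
    (∃ b ∈ K, b ∉ H) ∧ (∀ b ∈ K, b ∉ H → ∀ b' ∈ K, ∃ n : ℕ, b' + n • b ∈ H) := by
  have hp : p.Prime := Fact.out
  constructor
  · by_contra hcon
    have hle : K ≤ H := by
      intro b hb
      by_contra hbH
      exact hcon ⟨b, hb, hbH⟩
    rw [AddSubgroup.relIndex_eq_one.mpr hle] at hidx
    exact hp.one_lt.ne hidx
  · intro b hb hbH b' hb'
    have hcard : Nat.card (↥K ⧸ H.addSubgroupOf K) = p := hidx
    have hne : (QuotientAddGroup.mk (⟨b, hb⟩ : ↥K) : ↥K ⧸ H.addSubgroupOf K) ≠ 0 := by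
      intro h0
      rw [QuotientAddGroup.eq_zero_iff, AddSubgroup.mem_addSubgroupOf] at h0
      exact hbH h0
    have hmem := mem_multiples_of_prime_card hcard hne
      (g' := -(QuotientAddGroup.mk (⟨b', hb'⟩ : ↥K) : ↥K ⧸ H.addSubgroupOf K))
    obtain ⟨n, hn⟩ := (AddSubmonoid.mem_multiples_iff _ _).mp hmem
    refine ⟨n, ?_⟩
    have h1 : (QuotientAddGroup.mk ((⟨b', hb'⟩ : ↥K) + n • (⟨b, hb⟩ : ↥K)) :
        ↥K ⧸ H.addSubgroupOf K) = 0 := by
      rw [QuotientAddGroup.mk_add, QuotientAddGroup.mk_nsmul, hn, add_neg_cancel]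
    rw [QuotientAddGroup.eq_zero_iff, AddSubgroup.mem_addSubgroupOf] at h1
    exact h1

section Field

variable {L : Type} [Field L]

/-- the underlying element of the field. -/
def h99ni_val {L : Type*} [Field L] (x : Additive Lˣ) : L := ((x.toMul : Lˣ) : L)

theorem h99ni_val_add {L : Type*} [Field L] (x y : Additive Lˣ) :
    h99ni_val (x + y) = h99ni_val x * h99ni_val y := rfl

theorem h99ni_val_zero {L : Type*} [Field L] : h99ni_val (0 : Additive Lˣ) = 1 := rfl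

theorem h99ni_val_sub {L : Type*} [Field L] (x y : Additive Lˣ) :
    h99ni_val (x - y) = h99ni_val x / h99ni_val y := by
  unfold h99ni_val
  rw [toMul_sub, Units.val_div_eq_div_val]

theorem h99ni_val_nsmul {L : Type*} [Field L] (n : ℕ) (x : Additive Lˣ) :
    h99ni_val (n • x) = h99ni_val x ^ n := by
  unfold h99ni_val
  rw [toMul_nsmul, Units.val_pow_eq_pow_val]

theorem h99ni_val_sum {L : Type*} [Field L] (n : ℕ) (f : ℕ → Additive Lˣ) :
    h99ni_val (∑ i ∈ range n, f i) = ∏ i ∈ range n, h99ni_val (f i) := by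
  induction n with
  | zero => simp [h99ni_val_zero]
  | succ n ih => rw [Finset.sum_range_succ, Finset.prod_range_succ, h99ni_val_add, ih]

theorem h99ni_val_injective {L : Type*} [Field L] :
    Function.Injective (h99ni_val : Additive Lˣ → L) := by
  intro x y h
  exact Additive.toMul.injective (Units.ext h)

theorem h99ni_val_ne_zero {L : Type*} [Field L] (x : Additive Lˣ) : h99ni_val x ≠ 0 :=
  (Additive.toMul x).ne_zero

/-- the element of `Additive Lˣ` attached to a nonzero element. -/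
def h99ni_mk {L : Type*} [Field L] (a : L) (ha : a ≠ 0) : Additive Lˣ :=
  Additive.ofMul (Units.mk0 a ha)

theorem h99ni_val_mk {L : Type*} [Field L] (a : L) (ha : a ≠ 0) :
    h99ni_val (h99ni_mk a ha) = a := rfl

/-- the action of `s` on `Additive Lˣ`. -/
def h99ni_sM (s : L ≃+* L) : AddMonoid.End (Additive Lˣ) :=
  MonoidHom.toAdditive (Units.map ((s : L →+* L) : L →* L))

theorem h99ni_val_sM (s : L ≃+* L) (x : Additive Lˣ) :
    h99ni_val (h99ni_sM s x) = s (h99ni_val x) := rfl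

theorem h99ni_val_sM_pow (s : L ≃+* L) (i : ℕ) (x : Additive Lˣ) :
    h99ni_val ((h99ni_sM s ^ i) x) = (s ^ i) (h99ni_val x) := by
  induction i generalizing x with
  | zero => rfl
  | succ i ih =>
    rw [pow_succ, pow_succ]
    show h99ni_val ((h99ni_sM s ^ i) (h99ni_sM s x)) = (s ^ i) (s (h99ni_val x))
    rw [ih, h99ni_val_sM]

theorem h99ni_val_dOp (s : L ≃+* L) (x : Additive Lˣ) :
    h99ni_val (dOp (h99ni_sM s) x) = h99ni_val x / s (h99ni_val x) := by
  rw [dOp_apply, h99ni_val_sub, h99ni_val_sM]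

theorem h99ni_val_nOp (s : L ≃+* L) (n : ℕ) (x : Additive Lˣ) :
    h99ni_val (nOp (h99ni_sM s) n x) = h33n_N s n (h99ni_val x) := by
  rw [nOp_apply, h99ni_val_sum]
  unfold h33n_N
  exact Finset.prod_congr rfl (fun i _ => h99ni_val_sM_pow s i x)

theorem h99ni_sM_pow_eq_one (s : L ≃+* L) (n : ℕ) (hs : s ^ n = 1) : h99ni_sM s ^ n = 1 := by
  have h : ∀ x, (h99ni_sM s ^ n) x = x := fun x =>
    h99ni_val_injective (by rw [h99ni_val_sM_pow, hs]; rfl)
  exact AddMonoidHom.ext h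

theorem h99ni_mem_ker_dOp (s : L ≃+* L) (x : Additive Lˣ) :
    x ∈ (dOp (h99ni_sM s)).ker ↔ s (h99ni_val x) = h99ni_val x := by
  rw [AddMonoidHom.mem_ker]
  have hne : s (h99ni_val x) ≠ 0 := by
    rw [← h99ni_val_sM]
    exact h99ni_val_ne_zero _
  constructor
  · intro h
    have h1 := congrArg h99ni_val h
    rw [h99ni_val_dOp, h99ni_val_zero, div_eq_one_iff_eq hne] at h1
    exact h1.symm
  · intro h
    apply h99ni_val_injective
    rw [h99ni_val_dOp, h99ni_val_zero, h, div_self (h99ni_val_ne_zero x)]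

theorem h99ni_mem_range_nOp (s : L ≃+* L) (n : ℕ) (x : Additive Lˣ) :
    x ∈ (nOp (h99ni_sM s) n).range ↔ ∃ β : L, β ≠ 0 ∧ h33n_N s n β = h99ni_val x := by
  constructor
  · rintro ⟨z, rfl⟩
    exact ⟨h99ni_val z, h99ni_val_ne_zero z, (h99ni_val_nOp s n z).symm⟩
  · rintro ⟨β, hβ, h⟩
    refine ⟨h99ni_mk β hβ, h99ni_val_injective ?_⟩
    rw [h99ni_val_nOp, h99ni_val_mk, h]

/-- the inclusion of the units of the fixed field. -/
def h99ni_iota {F : Type*} [Field F] (j : F →+* L) : Additive Fˣ →+ Additive Lˣ :=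
  MonoidHom.toAdditive (Units.map (j : F →* L))

theorem h99ni_val_iota {F : Type*} [Field F] (j : F →+* L) (y : Additive Fˣ) :
    h99ni_val (h99ni_iota j y) = j (h99ni_val y) := rfl

theorem h99ni_iota_injective {F : Type*} [Field F] (j : F →+* L) :
    Function.Injective (h99ni_iota j) := by
  intro a b h
  apply h99ni_val_injective
  apply j.injective
  rw [← h99ni_val_iota, ← h99ni_val_iota, h]

theorem h99ni_iota_range {F : Type*} [Field F] (j : F →+* L) (s : L ≃+* L)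
    (hj : ∀ x : L, s x = x ↔ ∃ y, j y = x) :
    (h99ni_iota j).range = (dOp (h99ni_sM s)).ker := by
  ext x
  rw [h99ni_mem_ker_dOp, hj]
  constructor
  · rintro ⟨y, rfl⟩
    exact ⟨h99ni_val y, (h99ni_val_iota j y).symm⟩
  · rintro ⟨y, hy⟩
    have hy0 : y ≠ 0 := by
      rintro rfl
      rw [map_zero] at hy
      exact h99ni_val_ne_zero x hy.symm
    refine ⟨h99ni_mk y hy0, h99ni_val_injective ?_⟩
    rw [h99ni_val_iota, h99ni_val_mk, hy]

theorem h99ni_QD_of_index (G : Type*) [CommGroup G] (p c : ℕ)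
    (h : (powMonoidHom p : G →* G).range.index =
      p * (c * Nat.card (powMonoidHom p : G →* G).ker))
    (h0 : (powMonoidHom p : G →* G).range.index ≠ 0) :
    h99ni_QD (nsmulAddMonoidHom p : Additive G →+ Additive G) ∧
      h99ni_qd (nsmulAddMonoidHom p : Additive G →+ Additive G) = (p : ℚ) * (c : ℚ) ∧
      p * c ≠ 0 := by
  have hk : Nat.card (powMonoidHom p : G →* G).ker ≠ 0 := by
    intro hk
    rw [hk, mul_zero, mul_zero] at h
    exact h0 h
  have hpc : p * c ≠ 0 := by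
    intro hpc
    rw [← mul_assoc, hpc, zero_mul] at h
    exact h0 h
  have e1 : (nsmulAddMonoidHom p : Additive G →+ Additive G).range.index =
      (powMonoidHom p : G →* G).range.index := rfl
  have e2 : Nat.card (nsmulAddMonoidHom p : Additive G →+ Additive G).ker =
      Nat.card (powMonoidHom p : G →* G).ker := rfl
  refine ⟨⟨by rw [e1]; exact h0, by rw [e2]; exact hk⟩, ?_, hpc⟩
  unfold h99ni_qd
  rw [e1, e2, h]
  have hk' : (Nat.card (powMonoidHom p : G →* G).ker : ℚ) ≠ 0 := by exact_mod_cast hk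
  push_cast
  field_simp

/-- **the norm index**: `[ker (1 - s) : im N] = p` on `Lˣ`. -/
theorem h99ni_field_index (s : L ≃+* L) (p : ℕ) [Fact p.Prime] (hs : s ^ p = 1)
    (hord : ∀ i, 0 < i → i < p → s ^ i ≠ 1)
    {F : Type*} [Field F] (j : F →+* L) (hj : ∀ x : L, s x = x ↔ ∃ y, j y = x)
    (cL cF : ℕ)
    (hL : (powMonoidHom p : Lˣ →* Lˣ).range.index =
      p * (cL * Nat.card (powMonoidHom p : Lˣ →* Lˣ).ker))
    (hL0 : (powMonoidHom p : Lˣ →* Lˣ).range.index ≠ 0)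
    (hF : (powMonoidHom p : Fˣ →* Fˣ).range.index =
      p * (cF * Nat.card (powMonoidHom p : Fˣ →* Fˣ).ker))
    (hF0 : (powMonoidHom p : Fˣ →* Fˣ).range.index ≠ 0)
    (hc : cL = cF ^ p) :
    hIdx (dOp (h99ni_sM s)) (nOp (h99ni_sM s) p) = p := by
  have hp : p.Prime := Fact.out
  set σ := h99ni_sM s with hσdef
  have hσ : σ ^ p = 1 := h99ni_sM_pow_eq_one s p hs
  obtain ⟨hQM, hqM, hpcL⟩ := h99ni_QD_of_index Lˣ p cL hL hL0
  obtain ⟨hQA, hqA, hpcF⟩ := h99ni_QD_of_index Fˣ p cF hF hF0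
  obtain ⟨hdef, e⟩ := h99ni_lang σ p hσ (h99ni_iota j) (h99ni_iota_injective j)
    (h99ni_iota_range j s hj) hQM hQA
  rw [hqM, hqA] at e
  -- `h ^ (p - 1) = p ^ (p - 1)`
  have hpcL' : ((p : ℚ) * (cL : ℚ)) ≠ 0 := by exact_mod_cast hpcL
  have e2 : hq (dOp σ) (nOp σ p) ^ (p - 1) = (p : ℚ) ^ (p - 1) := by
    apply mul_right_cancel₀ hpcL'
    rw [e, hc]
    push_cast
    have hpp : p = (p - 1) + 1 := (Nat.sub_add_cancel hp.one_le).symm
    conv_lhs => rw [mul_pow, hpp, pow_succ]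
    rw [← hpp]
    ring
  have hnn : 0 ≤ hq (dOp σ) (nOp σ p) := by
    unfold hq
    exact div_nonneg (Nat.cast_nonneg _) (Nat.cast_nonneg _)
  have hp1 : p - 1 ≠ 0 := by
    have := hp.two_le
    omega
  have e3 : hq (dOp σ) (nOp σ p) = (p : ℚ) :=
    (pow_left_inj₀ hnn (Nat.cast_nonneg p) hp1).mp e2
  -- Hilbert 90
  have hH90 : hIdx (nOp σ p) (dOp σ) = 1 := by
    unfold hIdx
    rw [AddSubgroup.relIndex_eq_one]
    intro x hx
    have h1 := congrArg h99ni_val ((AddMonoidHom.mem_ker).mp hx)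
    rw [h99ni_val_nOp, h99ni_val_zero] at h1
    obtain ⟨y, hy0, hy⟩ := h24h9_hilbert90 L s p hp.pos hs hord (h99ni_val x) h1
    refine ⟨h99ni_mk y⁻¹ (inv_ne_zero hy0), h99ni_val_injective ?_⟩
    rw [h99ni_val_dOp, h99ni_val_mk, map_inv₀, inv_div_inv, hy]
  unfold hq at e3
  rw [hH90, Nat.cast_one, div_one] at e3
  exact_mod_cast e3

/-- **the norm index theorem**, element form. -/
theorem h99ni_field_main (s : L ≃+* L) (p : ℕ) [Fact p.Prime] (hs : s ^ p = 1)
    (hord : ∀ i, 0 < i → i < p → s ^ i ≠ 1)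
    {F : Type*} [Field F] (j : F →+* L) (hj : ∀ x : L, s x = x ↔ ∃ y, j y = x)
    (cL cF : ℕ)
    (hL : (powMonoidHom p : Lˣ →* Lˣ).range.index =
      p * (cL * Nat.card (powMonoidHom p : Lˣ →* Lˣ).ker))
    (hL0 : (powMonoidHom p : Lˣ →* Lˣ).range.index ≠ 0)
    (hF : (powMonoidHom p : Fˣ →* Fˣ).range.index =
      p * (cF * Nat.card (powMonoidHom p : Fˣ →* Fˣ).ker))
    (hF0 : (powMonoidHom p : Fˣ →* Fˣ).range.index ≠ 0)
    (hc : cL = cF ^ p) :
    (∃ b : L, s b = b ∧ b ≠ 0 ∧ ¬ ∃ β : L, β ≠ 0 ∧ h33n_N s p β = b) ∧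
    (∀ b : L, s b = b → b ≠ 0 → (¬ ∃ β : L, β ≠ 0 ∧ h33n_N s p β = b) →
      ∀ b' : L, s b' = b' → b' ≠ 0 →
        ∃ k, k < p ∧ ∃ β : L, β ≠ 0 ∧ h33n_N s p β = b' * b ^ k) := by
  have hp : p.Prime := Fact.out
  have hidx := h99ni_field_index s p hs hord j hj cL cF hL hL0 hF hF0 hc
  unfold hIdx at hidx
  obtain ⟨⟨x, hxK, hxH⟩, H2⟩ := h99ni_prime_relIndex _ _ p hidx
  constructor
  · refine ⟨h99ni_val x, (h99ni_mem_ker_dOp s x).mp hxK, h99ni_val_ne_zero x, ?_⟩
    intro hn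
    exact hxH ((h99ni_mem_range_nOp s p x).mpr hn)
  · intro b hb hb0 hbn b' hb' hb'0
    have h1 : h99ni_mk b hb0 ∈ (dOp (h99ni_sM s)).ker := by
      rw [h99ni_mem_ker_dOp, h99ni_val_mk]
      exact hb
    have h2 : h99ni_mk b hb0 ∉ (nOp (h99ni_sM s) p).range := by
      rw [h99ni_mem_range_nOp, h99ni_val_mk]
      exact hbn
    have h3 : h99ni_mk b' hb'0 ∈ (dOp (h99ni_sM s)).ker := by
      rw [h99ni_mem_ker_dOp, h99ni_val_mk]
      exact hb'
    obtain ⟨n, hn⟩ := H2 _ h1 h2 _ h3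
    refine ⟨n % p, Nat.mod_lt _ hp.pos, ?_⟩
    have h4 : p • h99ni_mk b hb0 ∈ (nOp (h99ni_sM s) p).range :=
      ⟨h99ni_mk b hb0, h99ni_nOp_fixed _ p h1⟩
    have h5 : h99ni_mk b' hb'0 + (n % p) • h99ni_mk b hb0 ∈ (nOp (h99ni_sM s) p).range := by
      have h7 : n • h99ni_mk b hb0 =
          (n % p) • h99ni_mk b hb0 + (n / p) • (p • h99ni_mk b hb0) := by
        conv_lhs => rw [← Nat.mod_add_div n p]
        rw [add_nsmul, mul_nsmul]
      have h6 : h99ni_mk b' hb'0 + (n % p) • h99ni_mk b hb0 =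
          (h99ni_mk b' hb'0 + n • h99ni_mk b hb0) - (n / p) • (p • h99ni_mk b hb0) := by
        rw [h7]
        abel
      rw [h6]
      exact sub_mem hn (nsmul_mem h4 _)
    obtain ⟨β, hβ0, hβ⟩ := (h99ni_mem_range_nOp s p _).mp h5
    refine ⟨β, hβ0, ?_⟩
    rw [hβ, h99ni_val_add, h99ni_val_nsmul, h99ni_val_mk, h99ni_val_mk]

end Field

end Fermat.Agent.PT.Loc
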