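import Fermat.Agent.CFT.HerbrandUnits
import Fermat.Agent.PT.Loc.NI99Comp
import Fermat.Agent.PT.Loc.NI99Cyc

/-!
# W3-PT / PT-LOC, leaf NI-MAIN (second seat helper99): the Herbrand quotient of a cyclic group
of prime order from the indices of `p`-th powers

For an endomorphism `σ` with `σ ^ p = 1` (`p` prime) of a commutative group `M`, with
`D = 1 - σ`, `N = 1 + σ + ⋯ + σ^(p-1)`, `A ≅ ker D = M^σ` and `q_p(X) = [X : pX] / #X[p]`:

`h99ni_lang : h(M)^(p-1) · q_p(M) = q_p(M^σ)^p`,  `h(M) = [ker D : im N] / [ker N : im D]`.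

(Lang, *Algebraic number theory* IX §1 / Artin–Tate.)  Proof: the exact sequence
`0 → M^σ → M → D M → 0`, multiplicativity of Herbrand quotients for the pairs `(D, N)` and
`(0, p)`, and `p = (1 - σ)^(p-1) · unit` on `D M` (which is killed by `N`).
-/

set_option autoImplicit false

namespace Fermat.Agent.PT.Loc

open AddSubgroup Finset Fermat.Agent.CFT.H8

section Lang

variable {M : Type*} [AddCommGroup M]

theorem h99ni_pow_fixed (σ : AddMonoid.End M) {x : M} (hx : σ x = x) (i : ℕ) :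
    (σ ^ i) x = x := by
  induction i with
  | zero => rfl
  | succ i ih =>
    rw [pow_succ]
    show (σ ^ i) (σ x) = x
    rw [hx, ih]

theorem h99ni_fixed_of_mem_ker (σ : AddMonoid.End M) {x : M} (hx : x ∈ (dOp σ).ker) :
    σ x = x := by
  have h := (AddMonoidHom.mem_ker).mp hx
  rw [dOp_apply, sub_eq_zero] at h
  exact h.symm

theorem h99ni_nOp_fixed (σ : AddMonoid.End M) (n : ℕ) {x : M} (hx : x ∈ (dOp σ).ker) :
    nOp σ n x = n • x := by
  rw [nOp_apply]
  have h := h99ni_fixed_of_mem_ker σ hx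
  rw [Finset.sum_congr rfl (fun i _ => h99ni_pow_fixed σ h i), Finset.sum_const,
    Finset.card_range]

theorem h99ni_sigma_range (σ : AddMonoid.End M) :
    ∀ c ∈ (dOp σ).range, (σ : M →+ M) c ∈ (dOp σ).range := by
  rintro _ ⟨x, rfl⟩
  refine ⟨σ x, ?_⟩
  rw [dOp_apply, dOp_apply, map_sub]

/-- the action on `C = D M`. -/
def h99ni_tau (σ : AddMonoid.End M) : AddMonoid.End (dOp σ).range :=
  resEnd (σ : M →+ M) (dOp σ).range (h99ni_sigma_range σ)

theorem h99ni_tau_coe (σ : AddMonoid.End M) (c : (dOp σ).range) :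
    ((h99ni_tau σ c : (dOp σ).range) : M) = σ (c : M) := rfl

theorem h99ni_nOp_tau (σ : AddMonoid.End M) (n : ℕ) (hσ : σ ^ n = 1) :
    nOp (h99ni_tau σ) n = 0 := by
  refine AddMonoidHom.ext fun c => Subtype.ext ?_
  have h1 : ((nOp (h99ni_tau σ) n c : (dOp σ).range) : M) = nOp σ n (c : M) :=
    map_nOp_of_equivariant (h99ni_tau σ) σ (dOp σ).range.subtype (fun _ => rfl) n c
  obtain ⟨x, hx⟩ := c.2
  rw [h1, ← hx, nOp_dOp σ n hσ]
  rfl

/-- the exact sequence `0 → M^σ → M → D M → 0` for the pair `(D, N)`. -/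
def h99ni_exact1 (σ : AddMonoid.End M) (p : ℕ) (hσ : σ ^ p = 1)
    {A : Type*} [AddCommGroup A] (ι : A →+ M) (hι : Function.Injective ι)
    (hr : ι.range = (dOp σ).ker) :
    ExactPair (0 : A →+ A) (nsmulAddMonoidHom p : A →+ A) (dOp σ) (nOp σ p)
      (dOp (h99ni_tau σ)) (0 : (dOp σ).range →+ (dOp σ).range) where
  ι := ι
  π := (dOp σ).rangeRestrict
  inj := hι
  surj := (dOp σ).rangeRestrict_surjective
  exact := by rw [hr, AddMonoidHom.ker_rangeRestrict]
  ι_f := by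
    intro a
    have h : ι a ∈ (dOp σ).ker := by
      rw [← hr]
      exact ⟨a, rfl⟩
    rw [AddMonoidHom.zero_apply, map_zero]
    exact ((AddMonoidHom.mem_ker).mp h).symm
  ι_g := by
    intro a
    have h : ι a ∈ (dOp σ).ker := by
      rw [← hr]
      exact ⟨a, rfl⟩
    rw [nsmulAddMonoidHom_apply, map_nsmul, h99ni_nOp_fixed σ p h]
  π_f := by
    intro b
    apply Subtype.ext
    show dOp σ (dOp σ b) = ((dOp (h99ni_tau σ) ((dOp σ).rangeRestrict b) : (dOp σ).range) : M)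
    rw [dOp_apply (h99ni_tau σ)]
    show dOp σ (dOp σ b) = dOp σ b - σ (dOp σ b)
    rw [dOp_apply σ (dOp σ b)]
  π_g := by
    intro b
    apply Subtype.ext
    show dOp σ (nOp σ p b) = 0
    exact dOp_nOp σ p hσ b

/-- the exact sequence `0 → M^σ → M → D M → 0` for the pair `(0, p)`. -/
def h99ni_exact2 (σ : AddMonoid.End M) (p : ℕ)
    {A : Type*} [AddCommGroup A] (ι : A →+ M) (hι : Function.Injective ι)
    (hr : ι.range = (dOp σ).ker) :
    ExactPair (0 : A →+ A) (nsmulAddMonoidHom p : A →+ A) (0 : M →+ M)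
      (nsmulAddMonoidHom p : M →+ M)
      (0 : (dOp σ).range →+ (dOp σ).range) (nsmulAddMonoidHom p : (dOp σ).range →+ _) where
  ι := ι
  π := (dOp σ).rangeRestrict
  inj := hι
  surj := (dOp σ).rangeRestrict_surjective
  exact := by rw [hr, AddMonoidHom.ker_rangeRestrict]
  ι_f := by
    intro a
    rw [AddMonoidHom.zero_apply, AddMonoidHom.zero_apply, map_zero]
  ι_g := by
    intro a
    rw [nsmulAddMonoidHom_apply, nsmulAddMonoidHom_apply, map_nsmul]
  π_f := by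
    intro b
    rw [AddMonoidHom.zero_apply, AddMonoidHom.zero_apply, map_zero]
  π_g := by
    intro b
    rw [nsmulAddMonoidHom_apply, nsmulAddMonoidHom_apply, map_nsmul]

theorem h99ni_qd_ne_zero {X : Type*} [AddCommGroup X] {φ : X →+ X} (h : h99ni_QD φ) :
    h99ni_qd φ ≠ 0 := by
  unfold h99ni_qd
  have e1 : (φ.range.index : ℚ) ≠ 0 := by exact_mod_cast h.1
  have e2 : (Nat.card φ.ker : ℚ) ≠ 0 := by exact_mod_cast h.2
  exact div_ne_zero e1 e2

/-- `q` is defined for a left factor with a finite kernel ... : if `χ = φ ∘ ψ₁ = ψ₂ ∘ φ` and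
`q(χ)` is defined, then `q(φ)` is defined. -/
theorem h99ni_QD_of_factor {X : Type*} [AddCommGroup X] {χ φ ψ₁ ψ₂ : X →+ X}
    (h1 : χ = φ.comp ψ₁) (h2 : χ = ψ₂.comp φ) (h : h99ni_QD χ) : h99ni_QD φ := by
  constructor
  · have hle : χ.range ≤ φ.range := by
      rintro _ ⟨x, rfl⟩
      rw [h1]
      exact ⟨ψ₁ x, rfl⟩
    exact fun h0 => h.1 (Nat.eq_zero_of_zero_dvd (h0 ▸ AddSubgroup.index_dvd_of_le hle))
  · have hle : φ.ker ≤ χ.ker := by
      intro x hx
      rw [AddMonoidHom.mem_ker] at hx ⊢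
      rw [h2, AddMonoidHom.comp_apply, hx, map_zero]
    exact fun h0 => h.2 (Nat.eq_zero_of_zero_dvd (h0 ▸ AddSubgroup.card_dvd_of_le hle))

/-- **Lang's lemma**: `h(M)^(p-1) · q_p(M) = q_p(M^σ)^p`. -/
theorem h99ni_lang (σ : AddMonoid.End M) (p : ℕ) [Fact p.Prime] (hσ : σ ^ p = 1)
    {A : Type*} [AddCommGroup A] (ι : A →+ M) (hι : Function.Injective ι)
    (hr : ι.range = (dOp σ).ker)
    (hQM : h99ni_QD (nsmulAddMonoidHom p : M →+ M))
    (hQA : h99ni_QD (nsmulAddMonoidHom p : A →+ A)) :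
    HQDefined (dOp σ) (nOp σ p) ∧
      hq (dOp σ) (nOp σ p) ^ (p - 1) * h99ni_qd (nsmulAddMonoidHom p : M →+ M) =
        h99ni_qd (nsmulAddMonoidHom p : A →+ A) ^ p := by
  have hp : p.Prime := Fact.out
  set τ : AddMonoid.End (dOp σ).range := h99ni_tau σ with hτ
  set E1 := h99ni_exact1 σ p hσ ι hι hr with hE1
  set E2 := h99ni_exact2 σ p ι hι hr with hE2
  have hfg1 : ∀ x, dOp σ (nOp σ p x) = 0 := dOp_nOp σ p hσ
  have hgf1 : ∀ x, nOp σ p (dOp σ x) = 0 := nOp_dOp σ p hσ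
  have hfg2 : ∀ x, (0 : M →+ M) ((nsmulAddMonoidHom p : M →+ M) x) = 0 := fun _ => rfl
  have hgf2 : ∀ x, (nsmulAddMonoidHom p : M →+ M) ((0 : M →+ M) x) = 0 := fun x => by
    rw [AddMonoidHom.zero_apply, map_zero]
  have hA : HQDefined (0 : A →+ A) (nsmulAddMonoidHom p : A →+ A) :=
    h99ni_hqDefined_zero_left.mpr hQA
  have hM : HQDefined (0 : M →+ M) (nsmulAddMonoidHom p : M →+ M) :=
    h99ni_hqDefined_zero_left.mpr hQM
  have hC2 : HQDefined (0 : (dOp σ).range →+ (dOp σ).range)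
      (nsmulAddMonoidHom p : (dOp σ).range →+ _) := E2.defined_quot hfg2 hgf2 hA hM
  have hQC : h99ni_QD (nsmulAddMonoidHom p : (dOp σ).range →+ _) :=
    h99ni_hqDefined_zero_left.mp hC2
  -- the cyclotomic unit
  have hNτ : ∑ i ∈ range p, τ ^ i = 0 := h99ni_nOp_tau σ p hσ
  obtain ⟨U, hU, hpU, hpU'⟩ := h99ni_cyclo_unit τ p hNτ
  have hUb : Function.Bijective (U : (dOp σ).range →+ (dOp σ).range) :=
    h99ni_bijective_of_isUnit hU
  have hpC : (nsmulAddMonoidHom p : (dOp σ).range →+ (dOp σ).range) =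
      ((p : AddMonoid.End (dOp σ).range) : (dOp σ).range →+ (dOp σ).range) := by
    ext c
    rw [nsmulAddMonoidHom_apply]
    exact congrArg _ (AddMonoid.End.natCast_apply p c).symm
  have hp1 : p - 1 = (p - 2) + 1 := by
    have := hp.two_le
    omega
  have hD : dOp τ = ((1 - τ : AddMonoid.End (dOp σ).range) : (dOp σ).range →+ _) := rfl
  have hQD : h99ni_QD (dOp τ) := by
    refine h99ni_QD_of_factor (χ := (nsmulAddMonoidHom p : (dOp σ).range →+ _))
      (ψ₁ := (((1 - τ) ^ (p - 2) * U : AddMonoid.End (dOp σ).range) : (dOp σ).range →+ _))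
      (ψ₂ := ((U * (1 - τ) ^ (p - 2) : AddMonoid.End (dOp σ).range) : (dOp σ).range →+ _))
      ?_ ?_ hQC
    · rw [hpC, hpU, hp1, pow_succ', mul_assoc]
      rfl
    · rw [hpC, hpU', hp1, pow_succ, ← mul_assoc]
      rfl
  have hqC : h99ni_qd (nsmulAddMonoidHom p : (dOp σ).range →+ _) = h99ni_qd (dOp τ) ^ (p - 1) := by
    have h1 : (nsmulAddMonoidHom p : (dOp σ).range →+ (dOp σ).range) =
        (((1 - τ) ^ (p - 1) : AddMonoid.End (dOp σ).range) : (dOp σ).range →+ _).comp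
          (U : (dOp σ).range →+ _) := by
      rw [hpC, hpU]
      rfl
    rw [h1, h99ni_qd_comp (h99ni_QD_pow (φ := (1 - τ : AddMonoid.End (dOp σ).range)) hQD (p - 1))
      (h99ni_QD_of_bijective hUb), h99ni_qd_of_bijective hUb, mul_one]
    exact h99ni_qd_pow (φ := (1 - τ : AddMonoid.End (dOp σ).range)) hQD (p - 1)
  have hC1 : HQDefined (dOp τ) (0 : (dOp σ).range →+ (dOp σ).range) :=
    h99ni_hqDefined_zero_right.mpr hQD
  have hdef : HQDefined (dOp σ) (nOp σ p) := E1.defined_mid hfg1 hgf1 hA hC1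
  refine ⟨hdef, ?_⟩
  have e1 := E1.hq_mul hfg1 hgf1 hA hC1
  have e2 := E2.hq_mul hfg2 hgf2 hA hC2
  rw [h99ni_hq_zero_left, h99ni_hq_zero_right] at e1
  rw [h99ni_hq_zero_left, h99ni_hq_zero_left, h99ni_hq_zero_left, hqC] at e2
  have hne : h99ni_qd (dOp τ) ≠ 0 := h99ni_qd_ne_zero hQD
  rw [e1, e2]
  have key : ∀ a b : ℚ, b ≠ 0 → (a * b⁻¹) ^ (p - 1) * (a * b ^ (p - 1)) = a ^ (p - 1 + 1) := by
    intro a b hb
    rw [pow_succ, mul_pow, inv_pow]
    field_simp
  rw [key _ _ hne, Nat.sub_add_cancel hp.one_le]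

end Lang

end Fermat.Agent.PT.Loc
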