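import Fermat.Agent.PT.Loc.NI99Field
import Fermat.Agent.PT.Loc.H54NIAdapt
import Fermat.Agent.PT.Loc.MC.H79Cyc

/-!
# W3-PT / PT-LOC, leaf NI-MAIN (second seat helper99): `h99ni_niMain : NIMain`

For `K₁/K` cyclic of prime degree `p` inside `PadicAlgCl q` the norm group `N K₁ˣ` has index
exactly `p` in `Kˣ` (`q = p` allowed).

Route (independent of the lattice/normal basis route of helper33):
* helper34's index formula `[Lˣ : Lˣ^p] = p · p^([L:ℚ_q]·[p = q]) · #μ_p(L)` for `L = K, K₁`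
  (`h34lf_index_pow_local`), with `[K₁:ℚ_q] = p [K:ℚ_q]` (`h99ni_finrank`);
* Lang's lemma `h99ni_lang`: `h(K₁ˣ)^(p-1) · q_p(K₁ˣ) = q_p(Kˣ)^p`, hence `h(K₁ˣ) = p`;
* Hilbert 90 (`h24h9_hilbert90`, helper24): `H¹ = 1`, so `[Kˣ : N K₁ˣ] = p`;
* the restriction `h54n_res` of `σ` to `K₁` and the translation to `IsNorm` (helper54).
-/

set_option autoImplicit false

open Finset

namespace Fermat.Agent.PT.Loc

variable {q : ℕ} [Fact q.Prime]

section Degree

variable {K K₁ : LF q} {n : ℕ} {σ : Gq q}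

/-- the character `G_K → ℤ/n` of a cyclic extension. -/
noncomputable def h99ni_chi (h : IsCyc K K₁ n σ) : ↥(GK K) →* Multiplicative (ZMod n) where
  toFun g := Multiplicative.ofAdd ((cycIdx K₁ σ n (g : Gq q) : ℕ) : ZMod n)
  map_one' := by
    have h1 : cycIdx K₁ σ n ((1 : ↥(GK K)) : Gq q) = 0 :=
      h79c_cycIdx_of_mem h (GK K₁).one_mem
    rw [h1, Nat.cast_zero]
    rfl
  map_mul' := by
    intro g g'
    have h1 : cycIdx K₁ σ n ((g * g' : ↥(GK K)) : Gq q) =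
        (cycIdx K₁ σ n (g : Gq q) + cycIdx K₁ σ n (g' : Gq q)) % n :=
      h79c_cycIdx_mul h g.2 g'.2
    rw [h1, ZMod.natCast_mod, Nat.cast_add]
    rfl

theorem h99ni_chi_apply (h : IsCyc K K₁ n σ) (g : ↥(GK K)) :
    h99ni_chi h g = Multiplicative.ofAdd ((cycIdx K₁ σ n (g : Gq q) : ℕ) : ZMod n) := rfl

theorem h99ni_chi_ker (h : IsCyc K K₁ n σ) :
    (h99ni_chi h).ker = (GK K₁).subgroupOf (GK K) := by
  ext g
  rw [MonoidHom.mem_ker, Subgroup.mem_subgroupOf, h99ni_chi_apply]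
  have hlt : cycIdx K₁ σ n (g : Gq q) < n := h79c_cycIdx_lt h g.2
  constructor
  · intro h0
    have h1 : ((cycIdx K₁ σ n (g : Gq q) : ℕ) : ZMod n) = 0 := h0
    rw [ZMod.natCast_eq_zero_iff] at h1
    have h2 : cycIdx K₁ σ n (g : Gq q) = 0 := Nat.eq_zero_of_dvd_of_lt h1 hlt
    have h3 := h79c_cycIdx_mem h g.2
    rw [h2, pow_zero, inv_one, one_mul] at h3
    exact h3
  · intro hg
    rw [h79c_cycIdx_of_mem h hg, Nat.cast_zero]
    rfl

theorem h99ni_chi_surjective (h : IsCyc K K₁ n σ) : Function.Surjective (h99ni_chi h) := by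
  have : NeZero n := ⟨h.pos.ne'⟩
  intro a
  refine ⟨⟨σ ^ (Multiplicative.toAdd a).val, (GK K).pow_mem h.mem _⟩, ?_⟩
  rw [h99ni_chi_apply]
  have h1 : cycIdx K₁ σ n (σ ^ (Multiplicative.toAdd a).val) = (Multiplicative.toAdd a).val % n :=
    h79c_cycIdx_pow h _
  show Multiplicative.ofAdd ((cycIdx K₁ σ n (σ ^ (Multiplicative.toAdd a).val) : ℕ) : ZMod n) = a
  rw [h1, ZMod.natCast_mod, ZMod.natCast_zmod_val]
  rfl

/-- `[G_K : G_{K₁}] = n`. -/
theorem h99ni_relIndex (h : IsCyc K K₁ n σ) : (GK K₁).relIndex (GK K) = n := by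
  have : NeZero n := ⟨h.pos.ne'⟩
  unfold Subgroup.relIndex
  rw [← h99ni_chi_ker h, Subgroup.index_ker, MonoidHom.range_eq_top.mpr (h99ni_chi_surjective h)]
  rw [Nat.card_congr (Subgroup.topEquiv (G := Multiplicative (ZMod n))).toEquiv]
  exact Nat.card_zmod n

/-- `[K₁ : ℚ_q] = n · [K : ℚ_q]`. -/
theorem h99ni_finrank (h : IsCyc K K₁ n σ) :
    Module.finrank ℚ_[q] ↥K₁ = n * Module.finrank ℚ_[q] ↥K := by
  have : IsAlgClosure ℚ_[q] (PadicAlgCl q) := ⟨inferInstance, AlgebraicClosure.isAlgebraic _⟩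
  have : IsGalois ℚ_[q] (PadicAlgCl q) := IsAlgClosure.isGalois ℚ_[q] (PadicAlgCl q)
  rw [IntermediateField.finrank_eq_fixingSubgroup_index (E' := PadicAlgCl q) K₁,
    IntermediateField.finrank_eq_fixingSubgroup_index (E' := PadicAlgCl q) K,
    ← h99ni_relIndex h]
  exact (Subgroup.relIndex_mul_index (h79c_GK_le h)).symm

end Degree

/-- **LOC-NI-MAIN** (second seat, helper99): the norm index theorem. -/
theorem h99ni_niMain : NIMain := by
  intro q _ p _ K K₁ _ σ h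
  classical
  have hfin : FiniteDimensional ℚ_[q] K₁ := h.fin
  have hp : p.Prime := Fact.out
  set s : ↥K₁ ≃+* ↥K₁ := h54n_res h σ h.mem with hsdef
  have hfix : ∀ x : Om q, x ∈ K → σ x = x := fun x hx =>
    (IntermediateField.mem_fixingSubgroup_iff K σ).1 h.mem x hx
  -- `s ^ p = 1`, exact order
  have hs : s ^ p = 1 := by
    ext x
    rw [h54n_res_pow_coe]
    exact (IntermediateField.mem_fixingSubgroup_iff K₁ _).1 (h74n_sigma_n h) x x.2
  have hord : ∀ i, 0 < i → i < p → s ^ i ≠ 1 := by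
    intro i hi hip hone
    apply h.ord i hi hip
    rw [IntermediateField.mem_fixingSubgroup_iff]
    intro x hx
    have h1 : ((s ^ i) ⟨x, hx⟩ : ↥K₁) = ⟨x, hx⟩ := by
      rw [hone]
      rfl
    have h2 := congrArg (fun w : ↥K₁ => (w : Om q)) h1
    simp only [hsdef, h54n_res_pow_coe] at h2
    exact h2
  -- the fixed field
  set j : ↥K →+* ↥K₁ := (IntermediateField.inclusion h.le).toRingHom with hjdef
  have hjcoe : ∀ y : ↥K, ((j y : ↥K₁) : Om q) = (y : Om q) := fun _ => rfl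
  have hj : ∀ x : ↥K₁, s x = x ↔ ∃ y, j y = x := by
    intro x
    constructor
    · intro hx
      have h1 : σ (x : Om q) = x := congrArg (fun w : ↥K₁ => (w : Om q)) hx
      exact ⟨⟨x, h54n_mem_of_sigma_fixed h x.2 h1⟩, Subtype.ext rfl⟩
    · rintro ⟨y, rfl⟩
      apply Subtype.ext
      show σ ((j y : ↥K₁) : Om q) = ((j y : ↥K₁) : Om q)
      rw [hjcoe]
      exact hfix y y.2
  -- the indices of `p`-th powers
  have hL := h34lf_index_pow_local q (↥K₁) p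
  have hL0 := h34lf_index_pow_local_ne_zero q (↥K₁) p
  have hF := h34lf_index_pow_local q (↥K) p
  have hF0 := h34lf_index_pow_local_ne_zero q (↥K) p
  have hc : (if p = q then p ^ Module.finrank ℚ_[q] ↥K₁ else 1) =
      (if p = q then p ^ Module.finrank ℚ_[q] ↥K else 1) ^ p := by
    by_cases hpq : p = q
    · rw [if_pos hpq, if_pos hpq, h99ni_finrank h, ← pow_mul, mul_comm]
    · rw [if_neg hpq, if_neg hpq, one_pow]
  obtain ⟨⟨b, hbσ, hb0, hbn⟩, H2⟩ := h99ni_field_main s p hs hord j hj _ _ hL hL0 hF hF0 hc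
  constructor
  · refine ⟨(b : Om q), ?_, ?_, ?_⟩
    · refine h54n_mem_of_sigma_fixed h b.2 ?_
      exact congrArg (fun w : ↥K₁ => (w : Om q)) hbσ
    · exact fun h0 => hb0 (Subtype.ext h0)
    · rintro ⟨β, hβ, hβ0, hβn⟩
      apply hbn
      refine ⟨⟨β, hβ⟩, fun h0 => hβ0 (congrArg (fun w : ↥K₁ => (w : Om q)) h0), ?_⟩
      apply Subtype.ext
      rw [hsdef, h54n_norm_coe]
      exact hβn
  · intro c hc hc0 hcn c' hc' hc'0
    have hcK₁ : c ∈ K₁ := h.le hc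
    have hc'K₁ : c' ∈ K₁ := h.le hc'
    have h1 : s ⟨c, hcK₁⟩ = ⟨c, hcK₁⟩ := Subtype.ext (hfix c hc)
    have h2 : (⟨c, hcK₁⟩ : ↥K₁) ≠ 0 := fun h0 => hc0 (congrArg (fun w : ↥K₁ => (w : Om q)) h0)
    have h3 : ¬ ∃ β : ↥K₁, β ≠ 0 ∧ h33n_N s p β = ⟨c, hcK₁⟩ := by
      rintro ⟨β, hβ0, hβn⟩
      apply hcn
      refine ⟨(β : Om q), β.2, fun h0 => hβ0 (Subtype.ext h0), ?_⟩
      have := congrArg (fun w : ↥K₁ => (w : Om q)) hβn
      rw [hsdef] at this
      simp only [h54n_norm_coe] at this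
      exact this
    have h4 : s ⟨c', hc'K₁⟩ = ⟨c', hc'K₁⟩ := Subtype.ext (hfix c' hc')
    have h5 : (⟨c', hc'K₁⟩ : ↥K₁) ≠ 0 :=
      fun h0 => hc'0 (congrArg (fun w : ↥K₁ => (w : Om q)) h0)
    obtain ⟨k, hk, β, hβ0, hβn⟩ := H2 ⟨c, hcK₁⟩ h1 h2 h3 ⟨c', hc'K₁⟩ h4 h5
    refine ⟨k, hk, (β : Om q), β.2, fun h0 => hβ0 (Subtype.ext h0), ?_⟩
    have := congrArg (fun w : ↥K₁ => (w : Om q)) hβn
    rw [hsdef] at this
    simp only [h54n_norm_coe] at this
    rw [this]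
    rfl

end Fermat.Agent.PT.Loc
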