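import Fermat.Agent.PT.Loc.H33NIIface
import Fermat.Agent.PT.Loc.NormApprox

/-!
# W3-PT / PT-LOC, block NI (helper33): the normal basis lattice and the unit filtration

Setting: a field `L` with a valuation `v`, an automorphism `σ` with `σ ^ ℓ = 1` preserving `v`,
a `σ`-fixed element `π` with `0 < v π < 1` (archimedean: every nonzero value is bounded by a power
of `v π`), and a pair of dual normal "bases" `β_i = σ^i β`, `δ_i` (`i < ℓ`) for the trace form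
`T(x y)`, `T = 1 + σ + ⋯ + σ^(ℓ-1)`, scaled such that the lattice `M = ⊕ O β_i` satisfies
`M · M ⊆ π M` and `M ⊆ π O_L`.

* `h33n_NData` : the data.
* `h33n_NData.I n` : the lattice `π^n M` (an additive subgroup of `L`), by coordinates.
* `h33n_NData.W n` : the subgroup `1 + π^n M` of `Lˣ`.
-/

set_option autoImplicit false
set_option linter.unusedSectionVars false
set_option linter.unusedVariables false

open Finset

namespace Fermat.Agent.PT.Loc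

section Basic

variable {L : Type*} [Field L]

theorem h33n_pow_succ_apply (σ : L ≃+* L) (i : ℕ) (x : L) : (σ ^ (i + 1)) x = σ ((σ ^ i) x) := by
  rw [pow_succ']; rfl

theorem h33n_pow_succ_apply' (σ : L ≃+* L) (i : ℕ) (x : L) : (σ ^ (i + 1)) x = (σ ^ i) (σ x) := by
  rw [pow_succ]; rfl

theorem h33n_pow_zero_apply (σ : L ≃+* L) (x : L) : (σ ^ 0) x = x := by
  rw [pow_zero]; rfl

theorem h33n_pow_fixed (σ : L ≃+* L) {c : L} (hc : σ c = c) (i : ℕ) : (σ ^ i) c = c := by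
  induction i with
  | zero => exact h33n_pow_zero_apply σ c
  | succ i ih => rw [h33n_pow_succ_apply, ih, hc]

theorem h33n_pow_mod (σ : L ≃+* L) {ℓ : ℕ} (hσ : σ ^ ℓ = 1) (j : ℕ) (x : L) :
    (σ ^ j) x = (σ ^ (j % ℓ)) x := by
  conv_lhs => rw [← Nat.mod_add_div j ℓ]
  rw [pow_add, pow_mul, hσ, one_pow, mul_one]

theorem h33n_pow_ell_apply (σ : L ≃+* L) {ℓ : ℕ} (hσ : σ ^ ℓ = 1) (x : L) : (σ ^ ℓ) x = x := by
  rw [hσ]; rfl

theorem h33n_T_add (σ : L ≃+* L) (ℓ : ℕ) (x y : L) :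
    h33n_T σ ℓ (x + y) = h33n_T σ ℓ x + h33n_T σ ℓ y := by
  simp only [h33n_T, map_add, sum_add_distrib]

theorem h33n_T_zero (σ : L ≃+* L) (ℓ : ℕ) : h33n_T σ ℓ 0 = 0 := by
  simp only [h33n_T, map_zero, sum_const_zero]

theorem h33n_T_neg (σ : L ≃+* L) (ℓ : ℕ) (x : L) : h33n_T σ ℓ (-x) = - h33n_T σ ℓ x := by
  simp only [h33n_T, map_neg, sum_neg_distrib]

theorem h33n_T_sub (σ : L ≃+* L) (ℓ : ℕ) (x y : L) :
    h33n_T σ ℓ (x - y) = h33n_T σ ℓ x - h33n_T σ ℓ y := by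
  simp only [h33n_T, map_sub, sum_sub_distrib]

theorem h33n_T_sum (σ : L ≃+* L) (ℓ : ℕ) {ι : Type*} (s : Finset ι) (f : ι → L) :
    h33n_T σ ℓ (∑ i ∈ s, f i) = ∑ i ∈ s, h33n_T σ ℓ (f i) := by
  simp only [h33n_T, map_sum]
  rw [sum_comm]

theorem h33n_T_fix_mul (σ : L ≃+* L) (ℓ : ℕ) {c : L} (hc : σ c = c) (x : L) :
    h33n_T σ ℓ (c * x) = c * h33n_T σ ℓ x := by
  simp only [h33n_T, map_mul, h33n_pow_fixed σ hc, mul_sum]

theorem h33n_T_fixed (σ : L ≃+* L) {ℓ : ℕ} (hσ : σ ^ ℓ = 1) (x : L) :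
    σ (h33n_T σ ℓ x) = h33n_T σ ℓ x := by
  unfold h33n_T
  rw [map_sum]
  have h1 : ∑ i ∈ range ℓ, σ ((σ ^ i) x) = ∑ i ∈ range ℓ, (σ ^ (i + 1)) x :=
    sum_congr rfl fun i _ => (h33n_pow_succ_apply σ i x).symm
  rw [h1]
  have h2 := sum_range_succ (fun i => (σ ^ i) x) ℓ
  have h3 := sum_range_succ' (fun i => (σ ^ i) x) ℓ
  rw [h2] at h3
  simp only [h33n_pow_ell_apply σ hσ, h33n_pow_zero_apply] at h3
  exact (add_right_cancel h3).symm

theorem h33n_N_fixed (σ : L ≃+* L) {ℓ : ℕ} (hσ : σ ^ ℓ = 1) (x : L) :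
    σ (h33n_N σ ℓ x) = h33n_N σ ℓ x := by
  unfold h33n_N
  rw [map_prod]
  have h1 : ∏ i ∈ range ℓ, σ ((σ ^ i) x) = ∏ i ∈ range ℓ, (σ ^ (i + 1)) x :=
    prod_congr rfl fun i _ => (h33n_pow_succ_apply σ i x).symm
  rw [h1]
  have h2 := prod_range_succ (fun i => (σ ^ i) x) ℓ
  have h3 := prod_range_succ' (fun i => (σ ^ i) x) ℓ
  rw [h2] at h3
  simp only [h33n_pow_ell_apply σ hσ, h33n_pow_zero_apply] at h3
  by_cases hx : x = 0
  · subst hx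
    simp only [map_zero]
  · have hne : (∏ i ∈ range ℓ, (σ ^ i) x) * x ≠ 0 := by
      refine mul_ne_zero (prod_ne_zero_iff.2 fun i _ => ?_) hx
      exact (map_ne_zero _).2 hx
    have h4 : (∏ i ∈ range ℓ, (σ ^ i) x) * x = (∏ i ∈ range ℓ, (σ ^ (i + 1)) x) * x := h3
    exact (mul_right_cancel₀ hx h4).symm

theorem h33n_N_mul (σ : L ≃+* L) (ℓ : ℕ) (x y : L) :
    h33n_N σ ℓ (x * y) = h33n_N σ ℓ x * h33n_N σ ℓ y := by
  simp only [h33n_N, map_mul, prod_mul_distrib]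

theorem h33n_N_one (σ : L ≃+* L) (ℓ : ℕ) : h33n_N σ ℓ 1 = 1 := by
  simp only [h33n_N, map_one, prod_const_one]

theorem h33n_N_inv (σ : L ≃+* L) (ℓ : ℕ) (x : L) :
    h33n_N σ ℓ x⁻¹ = (h33n_N σ ℓ x)⁻¹ := by
  unfold h33n_N
  rw [← prod_inv_distrib]
  exact prod_congr rfl fun i _ => map_inv₀ _ _

theorem h33n_N_ne_zero (σ : L ≃+* L) (ℓ : ℕ) {x : L} (hx : x ≠ 0) : h33n_N σ ℓ x ≠ 0 :=
  prod_ne_zero_iff.2 fun i _ => (map_ne_zero _).2 hx

variable {Γ₀ : Type*} [LinearOrderedCommGroupWithZero Γ₀] (v : Valuation L Γ₀)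

theorem h33n_shift_identity {R : Type*} [CommRing R] (c B : ℕ → R) (m : ℕ) :
    ∑ i ∈ range (m + 1), (-∑ j ∈ range (i + 1), c j) * B (i + 1)
      - ∑ i ∈ range (m + 1), (-∑ j ∈ range (i + 1), c j) * B i
    = ∑ i ∈ range (m + 1), c i * B i - (∑ i ∈ range (m + 1), c i) * B (m + 1) := by
  induction m with
  | zero =>
    simp only [zero_add, range_one, sum_singleton]
    ring
  | succ m ih =>
    rw [sum_range_succ (fun i => (-∑ j ∈ range (i + 1), c j) * B (i + 1)) (m + 1),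
      sum_range_succ (fun i => (-∑ j ∈ range (i + 1), c j) * B i) (m + 1),
      sum_range_succ (fun i => c i * B i) (m + 1), sum_range_succ c (m + 1)]
    linear_combination ih

theorem h33n_v_pow (σ : L ≃+* L) (hv : ∀ x, v (σ x) = v x) (i : ℕ) (x : L) :
    v ((σ ^ i) x) = v x := by
  induction i with
  | zero => rw [h33n_pow_zero_apply]
  | succ i ih => rw [h33n_pow_succ_apply, hv, ih]

theorem h33n_v_T_le (σ : L ≃+* L) (hv : ∀ x, v (σ x) = v x) (ℓ : ℕ) (x : L) :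
    v (h33n_T σ ℓ x) ≤ v x :=
  v.map_sum_le fun i _ => (h33n_v_pow v σ hv i x).le

theorem h33n_v_N (σ : L ≃+* L) (hv : ∀ x, v (σ x) = v x) (ℓ : ℕ) (x : L) :
    v (h33n_N σ ℓ x) = v x ^ ℓ := by
  unfold h33n_N
  rw [map_prod]
  rw [prod_congr rfl fun i _ => h33n_v_pow v σ hv i x]
  simp

end Basic

open scoped NNReal

/-- the data of a scaled normal basis lattice. -/
structure h33n_NData (L : Type) [Field L] where
  v : Valuation L ℝ≥0
  σ : L ≃+* L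
  ℓ : ℕ
  hσℓ : σ ^ ℓ = 1
  hvσ : ∀ x, v (σ x) = v x
  π : L
  hπσ : σ π = π
  hπ0 : π ≠ 0
  hπ1 : v π < 1
  β : L
  δ : ℕ → L
  hD1 : ∀ i, i < ℓ → ∀ j, j < ℓ → h33n_T σ ℓ (δ i * (σ ^ j) β) = if i = j then 1 else 0
  hD2 : ∀ x : L, x = ∑ i ∈ range ℓ, h33n_T σ ℓ (δ i * x) * (σ ^ i) β
  hS1 : v β ≤ v π
  hS2 : ∀ k, k < ℓ → ∀ i, i < ℓ → ∀ j, j < ℓ →
    v (h33n_T σ ℓ (δ k * ((σ ^ i) β * (σ ^ j) β))) ≤ v π
  K₀ : ℕ
  hK₀ : ∀ k, k < ℓ → v π ^ K₀ * v (δ k) ≤ 1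
  hcomp : ∀ s : ℕ → L, (∀ n, v (s n) ≤ v π ^ n) →
    ∃ z : L, ∀ n, v (z - ∑ i ∈ range n, s i) ≤ v π ^ n

namespace h33n_NData

variable {L : Type} [Field L] (D : h33n_NData L)

/-- the basis vectors `β_i = σ^i β`. -/
def b (i : ℕ) : L := (D.σ ^ i) D.β

/-- the coordinate functionals `x ↦ T(δ_k x)`. -/
def co (k : ℕ) (x : L) : L := h33n_T D.σ D.ℓ (D.δ k * x)

theorem co_add (k : ℕ) (x y : L) : D.co k (x + y) = D.co k x + D.co k y := by
  unfold co; rw [mul_add, h33n_T_add]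

theorem co_zero (k : ℕ) : D.co k 0 = 0 := by
  unfold co; rw [mul_zero, h33n_T_zero]

theorem co_neg (k : ℕ) (x : L) : D.co k (-x) = - D.co k x := by
  unfold co; rw [mul_neg, h33n_T_neg]

theorem co_sub (k : ℕ) (x y : L) : D.co k (x - y) = D.co k x - D.co k y := by
  unfold co; rw [mul_sub, h33n_T_sub]

theorem co_sum (k : ℕ) {ι : Type*} (s : Finset ι) (f : ι → L) :
    D.co k (∑ i ∈ s, f i) = ∑ i ∈ s, D.co k (f i) := by
  unfold co; rw [mul_sum, h33n_T_sum]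

theorem co_fixed (k : ℕ) (x : L) : D.σ (D.co k x) = D.co k x :=
  h33n_T_fixed D.σ D.hσℓ _

theorem co_fix_mul (k : ℕ) {c : L} (hc : D.σ c = c) (x : L) :
    D.co k (c * x) = c * D.co k x := by
  unfold co
  rw [← h33n_T_fix_mul D.σ D.ℓ hc, mul_left_comm]

theorem co_b {i j : ℕ} (hi : i < D.ℓ) (hj : j < D.ℓ) :
    D.co i (D.b j) = if i = j then 1 else 0 := D.hD1 i hi j hj

theorem expand (x : L) : x = ∑ i ∈ range D.ℓ, D.co i x * D.b i := D.hD2 x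

theorem co_lin (c : ℕ → L) (hc : ∀ i, i < D.ℓ → D.σ (c i) = c i) {k : ℕ} (hk : k < D.ℓ) :
    D.co k (∑ i ∈ range D.ℓ, c i * D.b i) = c k := by
  rw [co_sum]
  have h1 : ∀ i ∈ range D.ℓ, D.co k (c i * D.b i) = if k = i then c i else 0 := by
    intro i hi
    rw [D.co_fix_mul k (hc i (mem_range.1 hi)), D.co_b hk (mem_range.1 hi)]
    split_ifs <;> simp
  rw [sum_congr rfl h1, sum_ite_eq (range D.ℓ) k c, if_pos (mem_range.2 hk)]

theorem v_pow_σ (i : ℕ) (x : L) : D.v ((D.σ ^ i) x) = D.v x := h33n_v_pow D.v D.σ D.hvσ i x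

theorem v_b (i : ℕ) : D.v (D.b i) ≤ D.v D.π := by
  unfold b; rw [D.v_pow_σ]; exact D.hS1

theorem vπ_le_one : D.v D.π ≤ 1 := D.hπ1.le

theorem vπ_pow_anti {n m : ℕ} (h : n ≤ m) : D.v D.π ^ m ≤ D.v D.π ^ n :=
  pow_le_pow_right_of_le_one' D.vπ_le_one h

theorem σ_pow_π (i : ℕ) : (D.σ ^ i) D.π = D.π := h33n_pow_fixed D.σ D.hπσ i

/-- the lattice `π^n M`. -/
def I (n : ℕ) : AddSubgroup L where
  carrier := {x | ∀ k, k < D.ℓ → D.v (D.co k x) ≤ D.v D.π ^ n}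
  zero_mem' := by
    intro k _
    rw [D.co_zero, map_zero]
    exact zero_le
  add_mem' := by
    intro x y hx hy k hk
    rw [D.co_add]
    exact le_trans (D.v.map_add _ _) (max_le (hx k hk) (hy k hk))
  neg_mem' := by
    intro x hx k hk
    rw [D.co_neg, Valuation.map_neg]
    exact hx k hk

theorem mem_I {n : ℕ} {x : L} :
    x ∈ D.I n ↔ ∀ k, k < D.ℓ → D.v (D.co k x) ≤ D.v D.π ^ n := Iff.rfl

theorem I_anti {n m : ℕ} (h : n ≤ m) : D.I m ≤ D.I n := by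
  intro x hx k hk
  exact le_trans (hx k hk) (D.vπ_pow_anti h)

theorem mem_I_of_sum {n : ℕ} (c : ℕ → L) (hc : ∀ i, i < D.ℓ → D.σ (c i) = c i)
    (hv : ∀ i, i < D.ℓ → D.v (c i) ≤ D.v D.π ^ n) :
    ∑ i ∈ range D.ℓ, c i * D.b i ∈ D.I n := by
  intro k hk
  rw [D.co_lin c hc hk]
  exact hv k hk

theorem I_val {n : ℕ} {x : L} (hx : x ∈ D.I n) : D.v x ≤ D.v D.π ^ (n + 1) := by
  conv_lhs => rw [D.expand x]
  refine D.v.map_sum_le fun i hi => ?_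
  rw [map_mul, pow_succ]
  exact mul_le_mul' (hx i (mem_range.1 hi)) (D.v_b i)

theorem I_val_lt_one {n : ℕ} {x : L} (hx : x ∈ D.I n) : D.v x < 1 := by
  refine lt_of_le_of_lt (D.I_val hx) ?_
  exact pow_lt_one' D.hπ1 (Nat.succ_ne_zero n)

theorem I_mul {n m : ℕ} {x y : L} (hx : x ∈ D.I n) (hy : y ∈ D.I m) :
    x * y ∈ D.I (n + m + 1) := by
  intro k hk
  have hxy : x * y = ∑ i ∈ range D.ℓ, ∑ j ∈ range D.ℓ,
      (D.co i x * D.co j y) * (D.b i * D.b j) := by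
    conv_lhs => rw [D.expand x, D.expand y]
    rw [sum_mul_sum]
    refine sum_congr rfl fun i _ => sum_congr rfl fun j _ => by ring
  rw [hxy, co_sum]
  refine D.v.map_sum_le fun i hi => ?_
  rw [co_sum]
  refine D.v.map_sum_le fun j hj => ?_
  have hfix : D.σ (D.co i x * D.co j y) = D.co i x * D.co j y := by
    rw [map_mul, D.co_fixed, D.co_fixed]
  rw [D.co_fix_mul k hfix, map_mul, map_mul]
  have h3 : D.v (D.co k (D.b i * D.b j)) ≤ D.v D.π :=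
    D.hS2 k hk i (mem_range.1 hi) j (mem_range.1 hj)
  calc D.v (D.co i x) * D.v (D.co j y) * D.v (D.co k (D.b i * D.b j))
      ≤ D.v D.π ^ n * D.v D.π ^ m * D.v D.π :=
        mul_le_mul' (mul_le_mul' (hx i (mem_range.1 hi)) (hy j (mem_range.1 hj))) h3
    _ = D.v D.π ^ (n + m + 1) := by rw [pow_succ, pow_add]

theorem I_mul' {n m : ℕ} {x y : L} (hx : x ∈ D.I n) (hy : y ∈ D.I m) :
    x * y ∈ D.I n := D.I_anti (by omega) (D.I_mul hx hy)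

theorem I_mul'' {n m : ℕ} {x y : L} (hx : x ∈ D.I n) (hy : y ∈ D.I m) :
    x * y ∈ D.I m := D.I_anti (by omega) (D.I_mul hx hy)

theorem I_big {n : ℕ} {x : L} (hx : D.v x ≤ D.v D.π ^ (n + D.K₀)) : x ∈ D.I n := by
  intro k hk
  unfold co
  refine le_trans (h33n_v_T_le D.v D.σ D.hvσ D.ℓ _) ?_
  rw [map_mul]
  calc D.v (D.δ k) * D.v x ≤ D.v (D.δ k) * D.v D.π ^ (n + D.K₀) := mul_le_mul' le_rfl hx
    _ = D.v D.π ^ n * (D.v D.π ^ D.K₀ * D.v (D.δ k)) := by rw [pow_add]; ring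
    _ ≤ D.v D.π ^ n * 1 := mul_le_mul' le_rfl (D.hK₀ k hk)
    _ = D.v D.π ^ n := mul_one _

theorem I_pow {n : ℕ} {a : L} (ha : a ∈ D.I n) (j : ℕ) : a ^ (j + 1) ∈ D.I n := by
  induction j with
  | zero => simpa using ha
  | succ j ih =>
    rw [pow_succ]
    exact D.I_mul' ih ha

theorem b_mod (j : ℕ) : D.b j = D.b (j % D.ℓ) := by
  unfold b
  exact h33n_pow_mod D.σ D.hσℓ j D.β

theorem v_co_b_le_one {k : ℕ} (hk : k < D.ℓ) (j : ℕ) : D.v (D.co k (D.b j)) ≤ 1 := by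
  have hℓ : 0 < D.ℓ := lt_of_le_of_lt (Nat.zero_le k) hk
  rw [D.b_mod j, D.co_b hk (Nat.mod_lt j hℓ)]
  split_ifs
  · rw [map_one]
  · rw [map_zero]; exact zero_le

theorem σ_b (i : ℕ) : D.σ (D.b i) = D.b (i + 1) := by
  unfold b
  rw [h33n_pow_succ_apply]

theorem σ_expand (x : L) : D.σ x = ∑ i ∈ range D.ℓ, D.co i x * D.b (i + 1) := by
  conv_lhs => rw [D.expand x]
  rw [map_sum]
  refine sum_congr rfl fun i _ => ?_
  rw [map_mul, D.co_fixed, D.σ_b]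

theorem I_sigma {n : ℕ} {x : L} (hx : x ∈ D.I n) : D.σ x ∈ D.I n := by
  intro k hk
  rw [D.σ_expand x, co_sum]
  refine D.v.map_sum_le fun i hi => ?_
  rw [D.co_fix_mul k (D.co_fixed i x), map_mul]
  calc D.v (D.co i x) * D.v (D.co k (D.b (i + 1))) ≤ D.v D.π ^ n * 1 :=
        mul_le_mul' (hx i (mem_range.1 hi)) (D.v_co_b_le_one hk (i + 1))
    _ = D.v D.π ^ n := mul_one _

theorem I_sigma_pow {n : ℕ} {x : L} (hx : x ∈ D.I n) (i : ℕ) : (D.σ ^ i) x ∈ D.I n := by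
  induction i with
  | zero => rw [h33n_pow_zero_apply]; exact hx
  | succ i ih => rw [h33n_pow_succ_apply]; exact D.I_sigma ih

theorem v_one_add {n : ℕ} {a : L} (ha : a ∈ D.I n) : D.v (1 + a) = 1 :=
  Valuation.map_one_add_of_lt D.v (D.I_val_lt_one ha)

theorem v_of_sub_one {n : ℕ} {u : L} (hu : u - 1 ∈ D.I n) : D.v u = 1 := by
  have := D.v_one_add hu
  rwa [add_sub_cancel] at this

theorem ne_zero_of_sub_one {n : ℕ} {u : L} (hu : u - 1 ∈ D.I n) : u ≠ 0 := by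
  intro h
  have := D.v_of_sub_one hu
  rw [h, map_zero] at this
  exact zero_ne_one this

/-- the inverse lemma: `1 + π^n M` is stable under inversion. -/
theorem inv_sub_one_mem {n : ℕ} {u : L} (hu : u - 1 ∈ D.I n) : u⁻¹ - 1 ∈ D.I n := by
  have hu0 : u ≠ 0 := D.ne_zero_of_sub_one hu
  have hvu : D.v u = 1 := D.v_of_sub_one hu
  have hva : D.v (u - 1) ≤ D.v D.π := by
    refine le_trans (D.I_val hu) ?_
    calc D.v D.π ^ (n + 1) ≤ D.v D.π ^ 1 := D.vπ_pow_anti (by omega)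
      _ = D.v D.π := pow_one _
  have he : u⁻¹ - 1 = -(u - 1) + (-(u - 1)) * (u⁻¹ - 1) := by
    field_simp
    ring
  have hve : D.v (u⁻¹ - 1) ≤ 1 := by
    have h1 : u⁻¹ - 1 = -(u - 1) * u⁻¹ := by
      field_simp
      ring
    rw [h1, map_mul, Valuation.map_neg, map_inv₀, hvu, inv_one, mul_one]
    exact le_trans hva D.vπ_le_one
  have key : ∀ k : ℕ, ∃ r ∈ D.I n, u⁻¹ - 1 = r + (-(u - 1)) ^ k * (u⁻¹ - 1) := by
    intro k
    induction k with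
    | zero => exact ⟨0, zero_mem _, by simp⟩
    | succ k ih =>
      obtain ⟨r, hr, hk⟩ := ih
      refine ⟨r + (-(u - 1)) ^ (k + 1), add_mem hr (D.I_pow (neg_mem hu) k), ?_⟩
      have h2 : (-(u - 1)) ^ k * (u⁻¹ - 1)
          = (-(u - 1)) ^ (k + 1) + (-(u - 1)) ^ (k + 1) * (u⁻¹ - 1) := by
        conv_lhs => rw [he]
        ring
      rw [add_assoc, ← h2]
      exact hk
  obtain ⟨r, hr, hk⟩ := key (n + D.K₀)
  rw [hk]
  refine add_mem hr (D.I_big ?_)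
  rw [map_mul, map_pow, Valuation.map_neg]
  calc D.v (u - 1) ^ (n + D.K₀) * D.v (u⁻¹ - 1) ≤ D.v D.π ^ (n + D.K₀) * 1 :=
        mul_le_mul' (pow_le_pow_left' hva _) hve
    _ = D.v D.π ^ (n + D.K₀) := mul_one _

/-- the subgroup `1 + π^n M` of `Lˣ`. -/
def W (n : ℕ) : Subgroup Lˣ where
  carrier := {u | (u : L) - 1 ∈ D.I n}
  one_mem' := by
    change ((1 : Lˣ) : L) - 1 ∈ D.I n
    rw [Units.val_one, sub_self]
    exact zero_mem _
  mul_mem' := by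
    intro a c ha hc
    change (a : L) - 1 ∈ D.I n at ha
    change (c : L) - 1 ∈ D.I n at hc
    change ((a * c : Lˣ) : L) - 1 ∈ D.I n
    have h : ((a * c : Lˣ) : L) - 1
        = ((a : L) - 1) + ((c : L) - 1) + ((a : L) - 1) * ((c : L) - 1) := by
      rw [Units.val_mul]
      ring
    rw [h]
    exact add_mem (add_mem ha hc) (D.I_mul' ha hc)
  inv_mem' := by
    intro a ha
    change (a : L) - 1 ∈ D.I n at ha
    change ((a⁻¹ : Lˣ) : L) - 1 ∈ D.I n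
    rw [Units.val_inv_eq_inv_val]
    exact D.inv_sub_one_mem ha

theorem mem_W {n : ℕ} {u : Lˣ} : u ∈ D.W n ↔ (u : L) - 1 ∈ D.I n := Iff.rfl

theorem W_anti {n m : ℕ} (h : n ≤ m) : D.W m ≤ D.W n := fun _ hu => D.I_anti h hu

theorem W_le_zero (n : ℕ) : D.W n ≤ D.W 0 := D.W_anti (Nat.zero_le n)

theorem v_W {n : ℕ} {u : Lˣ} (hu : u ∈ D.W n) : D.v (u : L) = 1 := D.v_of_sub_one hu

theorem W_sigma {n : ℕ} {u u' : Lˣ} (hu : u ∈ D.W n) (h : (u' : L) = D.σ (u : L)) :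
    u' ∈ D.W n := by
  change (u' : L) - 1 ∈ D.I n
  have : (u' : L) - 1 = D.σ ((u : L) - 1) := by rw [map_sub, map_one, h]
  rw [this]
  exact D.I_sigma hu

theorem tendsto_zero {c : ℝ≥0} (hc : c ≠ 0) : ∃ n : ℕ, D.v D.π ^ n < c :=
  exists_pow_lt_of_lt_one (pos_iff_ne_zero.2 hc) D.hπ1

theorem W_sep {u : Lˣ} (hu : ∀ n, u ∈ D.W n) : u = 1 := by
  by_contra hne
  have h1 : (u : L) - 1 ≠ 0 := by
    intro h
    apply hne
    ext
    rw [Units.val_one]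
    exact sub_eq_zero.1 h
  have h2 : D.v ((u : L) - 1) ≠ 0 := (Valuation.ne_zero_iff _).2 h1
  obtain ⟨n, hn⟩ := D.tendsto_zero h2
  have h3 := D.I_val (hu n)
  have h4 : D.v D.π ^ (n + 1) ≤ D.v D.π ^ n := D.vπ_pow_anti (Nat.le_succ n)
  exact absurd (lt_of_le_of_lt (le_trans h3 h4) hn) (lt_irrefl _)

/-- `x ≡ y mod π^m M` with `y ∈ 1 + M` implies `x / y ∈ 1 + π^m M`. -/
theorem mem_W_of_sub {m : ℕ} {x y : Lˣ} (hy : y ∈ D.W 0) (h : (x : L) - (y : L) ∈ D.I m) :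
    x / y ∈ D.W m := by
  change ((x / y : Lˣ) : L) - 1 ∈ D.I m
  have hy' : (y : L)⁻¹ - 1 ∈ D.I 0 := D.inv_sub_one_mem hy
  have h1 : ((x / y : Lˣ) : L) - 1
      = ((x : L) - (y : L)) + ((x : L) - (y : L)) * ((y : L)⁻¹ - 1) := by
    rw [Units.val_div_eq_div_val]
    have hy0 : (y : L) ≠ 0 := y.ne_zero
    field_simp
    ring
  rw [h1]
  exact add_mem h (D.I_mul' h hy')

/-- `x ∈ π^m M`, `y ∈ 1 + M` implies `x * y ∈ π^m M`. -/
theorem I_mul_W {m : ℕ} {x : L} {y : Lˣ} (hx : x ∈ D.I m) (hy : y ∈ D.W 0) :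
    x * (y : L) ∈ D.I m := by
  have h1 : x * (y : L) = x + x * ((y : L) - 1) := by ring
  rw [h1]
  exact add_mem hx (D.I_mul' hx hy)

theorem ℓ_pos : 0 < D.ℓ := by
  rcases Nat.eq_zero_or_pos D.ℓ with h | h
  · exfalso
    have h1 := D.hD2 1
    rw [h, range_zero, sum_empty] at h1
    exact one_ne_zero h1
  · exact h

theorem fix_mul_b_mem {n : ℕ} {c : L} (hc : D.σ c = c) (hv : D.v c ≤ D.v D.π ^ n) (j : ℕ) :
    c * D.b j ∈ D.I n := by
  intro k hk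
  rw [D.co_fix_mul k hc, map_mul]
  calc D.v c * D.v (D.co k (D.b j)) ≤ D.v D.π ^ n * 1 :=
        mul_le_mul' hv (D.v_co_b_le_one hk j)
    _ = D.v D.π ^ n := mul_one _

/-- completeness of the filtration `W n`. -/
theorem W_comp (y : ℕ → Lˣ) (hy : ∀ n, y n ∈ D.W n) :
    ∃ z : Lˣ, ∀ n, z / ∏ i ∈ range n, y i ∈ D.W n := by
  have hP0 : ∀ n, (∏ i ∈ range n, y i) ∈ D.W 0 := fun n =>
    Subgroup.prod_mem _ (fun i _ => D.W_le_zero i (hy i))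
  have hs : ∀ n, (((∏ i ∈ range (n + 1), y i : Lˣ) : L) - ((∏ i ∈ range n, y i : Lˣ) : L))
      ∈ D.I n := by
    intro n
    have h1 : (((∏ i ∈ range (n + 1), y i : Lˣ) : L) - ((∏ i ∈ range n, y i : Lˣ) : L))
        = ((y n : L) - 1) * ((∏ i ∈ range n, y i : Lˣ) : L) := by
      rw [prod_range_succ, Units.val_mul]
      ring
    rw [h1]
    exact D.I_mul_W (hy n) (hP0 n)
  have hsum : ∀ n, ∑ j ∈ range n, (((∏ i ∈ range (j + 1), y i : Lˣ) : L)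
      - ((∏ i ∈ range j, y i : Lˣ) : L)) = ((∏ i ∈ range n, y i : Lˣ) : L) - 1 := by
    intro n
    rw [Finset.sum_range_sub (fun j => ((∏ i ∈ range j, y i : Lˣ) : L)) n]
    simp
  obtain ⟨z', hz'⟩ := D.hcomp
    (fun n => (((∏ i ∈ range (n + 1), y i : Lˣ) : L) - ((∏ i ∈ range n, y i : Lˣ) : L)))
    (fun n => le_trans (D.I_val (hs n)) (D.vπ_pow_anti (Nat.le_succ n)))
  have hPsub : ∀ n j, (((∏ i ∈ range (n + j), y i : Lˣ) : L)
      - ((∏ i ∈ range n, y i : Lˣ) : L)) ∈ D.I n := by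
    intro n j
    induction j with
    | zero => rw [Nat.add_zero, sub_self]; exact zero_mem _
    | succ j ih =>
      have h1 : (((∏ i ∈ range (n + (j + 1)), y i : Lˣ) : L)
          - ((∏ i ∈ range n, y i : Lˣ) : L))
          = ((((∏ i ∈ range (n + j + 1), y i : Lˣ) : L))
            - ((∏ i ∈ range (n + j), y i : Lˣ) : L))
            + ((((∏ i ∈ range (n + j), y i : Lˣ) : L))
              - ((∏ i ∈ range n, y i : Lˣ) : L)) := by
        rw [← add_assoc]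
        ring
      rw [h1]
      exact add_mem (D.I_anti (Nat.le_add_right n j) (hs (n + j))) ih
  have hz : ∀ n, (z' + 1) - ((∏ i ∈ range n, y i : Lˣ) : L) ∈ D.I n := by
    intro n
    have h1 : (z' + 1) - ((∏ i ∈ range n, y i : Lˣ) : L)
        = (z' - ∑ j ∈ range (n + D.K₀), (((∏ i ∈ range (j + 1), y i : Lˣ) : L)
            - ((∏ i ∈ range j, y i : Lˣ) : L)))
          + ((((∏ i ∈ range (n + D.K₀), y i : Lˣ) : L))
            - ((∏ i ∈ range n, y i : Lˣ) : L)) := by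
      rw [hsum]
      ring
    rw [h1]
    exact add_mem (D.I_big (hz' (n + D.K₀))) (hPsub n D.K₀)
  have hz0 : z' + 1 ≠ 0 := by
    have h := hz 0
    rw [range_zero, prod_empty, Units.val_one] at h
    exact D.ne_zero_of_sub_one h
  refine ⟨Units.mk0 (z' + 1) hz0, fun n => ?_⟩
  refine D.mem_W_of_sub (hP0 n) ?_
  rw [Units.val_mk0]
  exact hz n

/-- `∏ (1 + f_i) ≡ 1 + ∑ f_i` modulo `π^(2n+1) M` for `f_i ∈ π^n M`. -/
theorem prod_one_add {n : ℕ} (f : ℕ → L) (k : ℕ) (hf : ∀ i, i < k → f i ∈ D.I n) :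
    ∏ i ∈ range k, (1 + f i) - 1 - ∑ i ∈ range k, f i ∈ D.I (2 * n + 1) := by
  induction k with
  | zero => simp [zero_mem]
  | succ k ih =>
    have ih' := ih (fun i hi => hf i (Nat.lt_succ_of_lt hi))
    have hS : ∑ i ∈ range k, f i ∈ D.I n :=
      sum_mem (fun i hi => hf i (Nat.lt_succ_of_lt (mem_range.1 hi)))
    have hfk := hf k (Nat.lt_succ_self k)
    have h1 : ∏ i ∈ range (k + 1), (1 + f i) - 1 - ∑ i ∈ range (k + 1), f i
        = (∏ i ∈ range k, (1 + f i) - 1 - ∑ i ∈ range k, f i)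
          + (∑ i ∈ range k, f i
            + (∏ i ∈ range k, (1 + f i) - 1 - ∑ i ∈ range k, f i)) * f k := by
      rw [prod_range_succ, sum_range_succ]
      ring
    rw [h1]
    refine add_mem ih' ?_
    have h2 : (∑ i ∈ range k, f i
        + (∏ i ∈ range k, (1 + f i) - 1 - ∑ i ∈ range k, f i)) ∈ D.I n :=
      add_mem hS (D.I_anti (by omega) ih')
    have h3 := D.I_mul h2 hfk
    rwa [← two_mul] at h3

theorem T_mem {n : ℕ} {a : L} (ha : a ∈ D.I n) : h33n_T D.σ D.ℓ a ∈ D.I n :=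
  sum_mem (fun i _ => D.I_sigma_pow ha i)

/-- the norm congruence `N(1 + a) ≡ 1 + T a` modulo `π^(2n+1) M`. -/
theorem N_one_add {n : ℕ} {a : L} (ha : a ∈ D.I n) :
    h33n_N D.σ D.ℓ (1 + a) - 1 - h33n_T D.σ D.ℓ a ∈ D.I (2 * n + 1) := by
  have h1 : h33n_N D.σ D.ℓ (1 + a) = ∏ i ∈ range D.ℓ, (1 + (D.σ ^ i) a) := by
    unfold h33n_N
    refine prod_congr rfl fun i _ => ?_
    rw [map_add, map_one]
  rw [h1]
  exact D.prod_one_add (fun i => (D.σ ^ i) a) D.ℓ (fun i _ => D.I_sigma_pow ha i)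

theorem N_sub_one_mem {n : ℕ} {u : L} (hu : u - 1 ∈ D.I n) :
    h33n_N D.σ D.ℓ u - 1 ∈ D.I n := by
  have h1 := D.N_one_add hu
  rw [add_sub_cancel] at h1
  have h2 : h33n_N D.σ D.ℓ u - 1
      = (h33n_N D.σ D.ℓ u - 1 - h33n_T D.σ D.ℓ (u - 1)) + h33n_T D.σ D.ℓ (u - 1) := by ring
  rw [h2]
  exact add_mem (D.I_anti (by omega) h1) (D.T_mem hu)

/-- the norm as a monoid homomorphism. -/
def Nhom : L →* L where
  toFun := h33n_N D.σ D.ℓ
  map_one' := h33n_N_one _ _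
  map_mul' := h33n_N_mul _ _

/-- the norm on units. -/
def Nu : Lˣ →* Lˣ := Units.map D.Nhom

theorem coe_Nu (u : Lˣ) : ((D.Nu u : Lˣ) : L) = h33n_N D.σ D.ℓ (u : L) := rfl

/-- `σ` on units. -/
def σu : Lˣ →* Lˣ := Units.map D.σ.toMulEquiv.toMonoidHom

theorem coe_σu (u : Lˣ) : ((D.σu u : Lˣ) : L) = D.σ (u : L) := rfl

/-- `u ↦ σ u / u` on units. -/
def Fd : Lˣ →* Lˣ := D.σu / MonoidHom.id Lˣ

theorem Fd_apply (u : Lˣ) : D.Fd u = D.σu u / u := rfl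

theorem coe_Fd (u : Lˣ) : ((D.Fd u : Lˣ) : L) = D.σ (u : L) / (u : L) := by
  rw [Fd_apply, Units.val_div_eq_div_val, coe_σu]

theorem Nu_mem_W {n : ℕ} {u : Lˣ} (hu : u ∈ D.W n) : D.Nu u ∈ D.W n := by
  change ((D.Nu u : Lˣ) : L) - 1 ∈ D.I n
  rw [coe_Nu]
  exact D.N_sub_one_mem hu

theorem σu_mem_W {n : ℕ} {u : Lˣ} (hu : u ∈ D.W n) : D.σu u ∈ D.W n :=
  D.W_sigma hu (D.coe_σu u)

theorem Fd_mem_W {n : ℕ} {u : Lˣ} (hu : u ∈ D.W n) : D.Fd u ∈ D.W n := by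
  rw [Fd_apply]
  exact Subgroup.div_mem _ (D.σu_mem_W hu) hu

theorem T_σ (x : L) : h33n_T D.σ D.ℓ (D.σ x) = h33n_T D.σ D.ℓ x := by
  rw [← h33n_T_fixed D.σ D.hσℓ x]
  unfold h33n_T
  rw [map_sum]
  refine sum_congr rfl fun i _ => ?_
  rw [← h33n_pow_succ_apply, ← h33n_pow_succ_apply']

theorem N_σ (x : L) : h33n_N D.σ D.ℓ (D.σ x) = h33n_N D.σ D.ℓ x := by
  rw [← h33n_N_fixed D.σ D.hσℓ x]
  unfold h33n_N
  rw [map_prod]
  refine prod_congr rfl fun i _ => ?_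
  rw [← h33n_pow_succ_apply, ← h33n_pow_succ_apply']

theorem T_b (i : ℕ) : h33n_T D.σ D.ℓ (D.b i) = h33n_T D.σ D.ℓ D.β := by
  induction i with
  | zero => unfold b; rw [h33n_pow_zero_apply]
  | succ i ih => rw [← D.σ_b, D.T_σ, ih]

theorem T_β : h33n_T D.σ D.ℓ D.β = ∑ j ∈ range D.ℓ, D.b j := rfl

theorem co_succ_σ (x : L) {k : ℕ} (hk : k + 1 < D.ℓ) :
    D.co (k + 1) (D.σ x) = D.co k x := by
  rw [D.σ_expand x, co_sum]
  have h1 : ∀ i ∈ range D.ℓ,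
      D.co (k + 1) (D.co i x * D.b (i + 1)) = if k = i then D.co i x else 0 := by
    intro i hi
    rw [D.co_fix_mul (k + 1) (D.co_fixed i x)]
    have hi' := mem_range.1 hi
    rcases Nat.lt_or_ge (i + 1) D.ℓ with h | h
    · rw [D.co_b hk h]
      by_cases hki : k = i
      · rw [if_pos (by omega), if_pos hki, mul_one]
      · rw [if_neg (by omega), if_neg hki, mul_zero]
    · have hiℓ : i + 1 = D.ℓ := by omega
      rw [D.b_mod (i + 1), hiℓ, Nat.mod_self, D.co_b hk D.ℓ_pos, if_neg (by omega),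
        if_neg (by omega), mul_zero]
  rw [sum_congr rfl h1, sum_ite_eq (range D.ℓ) k, if_pos (mem_range.2 (by omega))]

/-- approximation step for `Ĥ⁰`. -/
theorem step0 {n : ℕ} {x : Lˣ} (hx : x ∈ D.W n) (hfix : D.σ (x : L) = (x : L)) :
    ∃ y ∈ D.W n, x / D.Nu y ∈ D.W (n + 1) := by
  have ha : (x : L) - 1 ∈ D.I n := hx
  have hσa : D.σ ((x : L) - 1) = (x : L) - 1 := by rw [map_sub, map_one, hfix]
  have hc : ∀ k, k < D.ℓ → D.co k ((x : L) - 1) = D.co 0 ((x : L) - 1) := by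
    intro k
    induction k with
    | zero => intro _; rfl
    | succ k ih =>
      intro hk
      rw [← ih (by omega), ← D.co_succ_σ ((x : L) - 1) hk, hσa]
  have hcfix : D.σ (D.co 0 ((x : L) - 1)) = D.co 0 ((x : L) - 1) := D.co_fixed 0 _
  have hvc : D.v (D.co 0 ((x : L) - 1)) ≤ D.v D.π ^ n := ha 0 D.ℓ_pos
  have hy1 : D.co 0 ((x : L) - 1) * D.b 0 ∈ D.I n := D.fix_mul_b_mem hcfix hvc 0
  have hy1' : (1 + D.co 0 ((x : L) - 1) * D.b 0) - 1 ∈ D.I n := by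
    rw [add_sub_cancel_left]; exact hy1
  have hy0 : 1 + D.co 0 ((x : L) - 1) * D.b 0 ≠ 0 := D.ne_zero_of_sub_one hy1'
  have hyW : Units.mk0 _ hy0 ∈ D.W n := by
    change ((Units.mk0 _ hy0 : Lˣ) : L) - 1 ∈ D.I n
    rw [Units.val_mk0]
    exact hy1'
  refine ⟨Units.mk0 _ hy0, hyW, ?_⟩
  refine D.mem_W_of_sub (D.W_le_zero n (D.Nu_mem_W hyW)) ?_
  rw [coe_Nu, Units.val_mk0]
  have h1 := D.N_one_add hy1
  have hT : h33n_T D.σ D.ℓ (D.co 0 ((x : L) - 1) * D.b 0) = (x : L) - 1 := by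
    rw [h33n_T_fix_mul D.σ D.ℓ hcfix, D.T_b, D.T_β, mul_sum]
    conv_rhs => rw [D.expand ((x : L) - 1)]
    refine sum_congr rfl fun i hi => ?_
    rw [hc i (mem_range.1 hi)]
  rw [hT] at h1
  have h2 : (x : L) - h33n_N D.σ D.ℓ (1 + D.co 0 ((x : L) - 1) * D.b 0)
      = -(h33n_N D.σ D.ℓ (1 + D.co 0 ((x : L) - 1) * D.b 0) - 1 - ((x : L) - 1)) := by ring
  rw [h2]
  exact neg_mem (D.I_anti (by omega) h1)

/-- approximation step for `Ĥ¹`. -/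
theorem step1 {n : ℕ} {x : Lˣ} (hx : x ∈ D.W n) (hN : h33n_N D.σ D.ℓ (x : L) = 1) :
    ∃ y ∈ D.W n, x / D.Fd y ∈ D.W (n + 1) := by
  have ha : (x : L) - 1 ∈ D.I n := hx
  obtain ⟨m, hm⟩ : ∃ m, D.ℓ = m + 1 := ⟨D.ℓ - 1, by have := D.ℓ_pos; omega⟩
  have hTa : h33n_T D.σ D.ℓ ((x : L) - 1) ∈ D.I (2 * n + 1) := by
    have h1 := D.N_one_add ha
    rw [add_sub_cancel, hN, sub_self, zero_sub] at h1
    have h2 := neg_mem h1
    rwa [neg_neg] at h2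
  have htfix : D.σ (∑ i ∈ range D.ℓ, D.co i ((x : L) - 1))
      = ∑ i ∈ range D.ℓ, D.co i ((x : L) - 1) := by
    rw [map_sum]
    exact sum_congr rfl fun i _ => D.co_fixed i _
  have hTa' : h33n_T D.σ D.ℓ ((x : L) - 1)
      = ∑ j ∈ range D.ℓ, (∑ i ∈ range D.ℓ, D.co i ((x : L) - 1)) * D.b j := by
    conv_lhs => rw [D.expand ((x : L) - 1)]
    rw [h33n_T_sum]
    have h3 : ∀ i ∈ range D.ℓ, h33n_T D.σ D.ℓ (D.co i ((x : L) - 1) * D.b i)
        = D.co i ((x : L) - 1) * ∑ j ∈ range D.ℓ, D.b j := by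
      intro i _
      rw [h33n_T_fix_mul D.σ D.ℓ (D.co_fixed i _), D.T_b, D.T_β]
    rw [sum_congr rfl h3, ← sum_mul, ← mul_sum]
  have hvt : D.v (∑ i ∈ range D.ℓ, D.co i ((x : L) - 1)) ≤ D.v D.π ^ (2 * n + 1) := by
    have h1 := hTa 0 D.ℓ_pos
    rw [hTa', D.co_lin (fun _ => ∑ i ∈ range D.ℓ, D.co i ((x : L) - 1))
      (fun _ _ => htfix) D.ℓ_pos] at h1
    exact h1
  have hdfix : ∀ i, D.σ (-∑ j ∈ range (i + 1), D.co j ((x : L) - 1))
      = -∑ j ∈ range (i + 1), D.co j ((x : L) - 1) := by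
    intro i
    rw [map_neg, map_sum]
    congr 1
    exact sum_congr rfl fun j _ => D.co_fixed j _
  have hvd : ∀ i, i < D.ℓ →
      D.v (-∑ j ∈ range (i + 1), D.co j ((x : L) - 1)) ≤ D.v D.π ^ n := by
    intro i hi
    rw [Valuation.map_neg]
    exact D.v.map_sum_le (fun j hj => ha j (by have := mem_range.1 hj; omega))
  have hbb : ∑ i ∈ range D.ℓ, (-∑ j ∈ range (i + 1), D.co j ((x : L) - 1)) * D.b i ∈ D.I n :=
    D.mem_I_of_sum (fun i => -∑ j ∈ range (i + 1), D.co j ((x : L) - 1))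
      (fun i _ => hdfix i) hvd
  have hσbb : D.σ (∑ i ∈ range D.ℓ, (-∑ j ∈ range (i + 1), D.co j ((x : L) - 1)) * D.b i)
      - ∑ i ∈ range D.ℓ, (-∑ j ∈ range (i + 1), D.co j ((x : L) - 1)) * D.b i
      = ((x : L) - 1) - (∑ i ∈ range D.ℓ, D.co i ((x : L) - 1)) * D.b 0 := by
    have h1 : D.σ (∑ i ∈ range D.ℓ, (-∑ j ∈ range (i + 1), D.co j ((x : L) - 1)) * D.b i)
        = ∑ i ∈ range D.ℓ, (-∑ j ∈ range (i + 1), D.co j ((x : L) - 1)) * D.b (i + 1) := by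
      rw [map_sum]
      refine sum_congr rfl fun i _ => ?_
      rw [map_mul, hdfix, D.σ_b]
    have hbℓ : D.b (m + 1) = D.b 0 := by rw [D.b_mod (m + 1), ← hm, Nat.mod_self]
    have h4 : ∑ i ∈ range D.ℓ, (-∑ j ∈ range (i + 1), D.co j ((x : L) - 1)) * D.b (i + 1)
        - ∑ i ∈ range D.ℓ, (-∑ j ∈ range (i + 1), D.co j ((x : L) - 1)) * D.b i
        = ∑ i ∈ range D.ℓ, D.co i ((x : L) - 1) * D.b i
          - (∑ i ∈ range D.ℓ, D.co i ((x : L) - 1)) * D.b 0 := by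
      rw [hm, h33n_shift_identity (fun i => D.co i ((x : L) - 1)) D.b m, hbℓ]
    rw [h1, h4, ← D.expand]
  have hy1' : (1 + ∑ i ∈ range D.ℓ, (-∑ j ∈ range (i + 1), D.co j ((x : L) - 1)) * D.b i) - 1
      ∈ D.I n := by
    rw [add_sub_cancel_left]; exact hbb
  have hy0 : 1 + ∑ i ∈ range D.ℓ, (-∑ j ∈ range (i + 1), D.co j ((x : L) - 1)) * D.b i ≠ 0 :=
    D.ne_zero_of_sub_one hy1'
  have hyW : Units.mk0 _ hy0 ∈ D.W n := by
    change ((Units.mk0 _ hy0 : Lˣ) : L) - 1 ∈ D.I n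
    rw [Units.val_mk0]
    exact hy1'
  refine ⟨Units.mk0 _ hy0, hyW, ?_⟩
  have h5 : x / D.Fd (Units.mk0 _ hy0) = (x * Units.mk0 _ hy0) / D.σu (Units.mk0 _ hy0) := by
    rw [Fd_apply, div_div_eq_mul_div]
  rw [h5]
  refine D.mem_W_of_sub (D.W_le_zero n (D.σu_mem_W hyW)) ?_
  rw [Units.val_mul, coe_σu, Units.val_mk0, map_add, map_one]
  have htb : (∑ i ∈ range D.ℓ, D.co i ((x : L) - 1)) * D.b 0 ∈ D.I (n + 1) :=
    D.fix_mul_b_mem htfix (le_trans hvt (D.vπ_pow_anti (by omega))) 0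
  have hab : ((x : L) - 1)
      * (∑ i ∈ range D.ℓ, (-∑ j ∈ range (i + 1), D.co j ((x : L) - 1)) * D.b i) ∈ D.I (n + 1) :=
    D.I_anti (by omega) (D.I_mul ha hbb)
  have h6 : (x : L) * (1 + ∑ i ∈ range D.ℓ, (-∑ j ∈ range (i + 1), D.co j ((x : L) - 1)) * D.b i)
      - (1 + D.σ (∑ i ∈ range D.ℓ, (-∑ j ∈ range (i + 1), D.co j ((x : L) - 1)) * D.b i))
      = ((x : L) - 1)
          * (∑ i ∈ range D.ℓ, (-∑ j ∈ range (i + 1), D.co j ((x : L) - 1)) * D.b i)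
        + (∑ i ∈ range D.ℓ, D.co i ((x : L) - 1)) * D.b 0 := by
    linear_combination (-1 : L) * hσbb
  rw [h6]
  exact add_mem hab htb

/-- the subgroup of `σ`-fixed units. -/
def fixS : Subgroup Lˣ where
  carrier := {u | D.σ (u : L) = (u : L)}
  one_mem' := by
    change D.σ ((1 : Lˣ) : L) = ((1 : Lˣ) : L)
    rw [Units.val_one, map_one]
  mul_mem' := by
    intro a c ha hc
    change D.σ (a : L) = (a : L) at ha
    change D.σ (c : L) = (c : L) at hc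
    change D.σ ((a * c : Lˣ) : L) = ((a * c : Lˣ) : L)
    rw [Units.val_mul, map_mul, ha, hc]
  inv_mem' := by
    intro a ha
    change D.σ (a : L) = (a : L) at ha
    change D.σ ((a⁻¹ : Lˣ) : L) = ((a⁻¹ : Lˣ) : L)
    rw [Units.val_inv_eq_inv_val, map_inv₀, ha]

/-- `Ĥ⁰(⟨σ⟩, 1 + M) = 0`. -/
theorem h0_vanish {x : Lˣ} (hx : x ∈ D.W 0) (hfix : D.σ (x : L) = (x : L)) :
    ∃ y ∈ D.W 0, h33n_N D.σ D.ℓ (y : L) = (x : L) := by
  obtain ⟨y, hy, hyx⟩ := h33n_approx D.W (fun u hu => D.W_sep hu) D.W_comp D.Nu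
    (fun n u hu => D.Nu_mem_W hu) D.fixS
    (fun u => h33n_N_fixed D.σ D.hσℓ (u : L))
    (fun n u hu hP => D.step0 hu hP) x hx hfix
  refine ⟨y, hy, ?_⟩
  rw [← coe_Nu, hyx]

/-- `Ĥ¹(⟨σ⟩, 1 + M) = 0`. -/
theorem h1_vanish {x : Lˣ} (hx : x ∈ D.W 0) (hN : h33n_N D.σ D.ℓ (x : L) = 1) :
    ∃ y ∈ D.W 0, D.σ (y : L) / (y : L) = (x : L) := by
  have hker : ∀ u : Lˣ, u ∈ D.Nu.ker ↔ h33n_N D.σ D.ℓ (u : L) = 1 := by
    intro u
    rw [MonoidHom.mem_ker, Units.ext_iff, coe_Nu, Units.val_one]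
  obtain ⟨y, hy, hyx⟩ := h33n_approx D.W (fun u hu => D.W_sep hu) D.W_comp D.Fd
    (fun n u hu => D.Fd_mem_W hu) D.Nu.ker
    (fun u => by
      rw [hker, coe_Fd, div_eq_mul_inv, h33n_N_mul, D.N_σ]
      rw [h33n_N_inv, mul_inv_cancel₀ (h33n_N_ne_zero D.σ D.ℓ u.ne_zero)])
    (fun n u hu hP => D.step1 hu ((hker u).1 hP)) x hx ((hker x).2 hN)
  refine ⟨y, hy, ?_⟩
  rw [← coe_Fd, hyx]

end h33n_NData

end Fermat.Agent.PT.Loc
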